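/-
S55 / Middle.CompletionCompare (row of helper55 #1505): COMPLETION COMPARISON.

`K` a number field (abstract type), `q` a prime, `e : K →+* PadicAlgCl q` an embedding
(e.g. `padicEmbedding q ∘ g ∘ i` for `i : K → ℚ̄`, `g ∈ Gal(ℚ̄/ℚ)`).

* `placeIdeal e`, `place e : HeightOneSpectrum (𝓞 K)` : the finite place of `K` induced by `e`
    (`{r | ‖e r‖ < 1}`; contains `q`);
* `valuation_le_one_iff`, `valuation_lt_one_iff`, `valuation_le_iff`, `isEquiv_normVal` :
    the `place e`-adic valuation of Mathlib and the norm of `PadicAlgCl q` along `e` are equivalent;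
* `localFieldOf e = ℚ_q(e K)`, `toLocalField e : K →+* ℚ_q(e K)`, finite over `ℚ_q`, complete,
    `denseRange_toLocalField` (K is dense), `isUniformInducing_withValToLocalField`
    (the `place e`-adic uniformity of `K` is induced from `ℚ_q(e K)`);
* **`adicCompletionRingEquiv e : (place e).adicCompletion K ≃+* ℚ_q(e K)`**, a uniform isomorphism
    (`adicCompletionUniformEquiv`), compatible with the maps from `K`
    (`adicCompletionRingEquiv_coe`, `_algebraMap`), matching `adicCompletionIntegers` with the unit
    ball (`norm_adicCompletionRingEquiv_le_one_iff`, `_lt_one_iff`); also the same for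
    `(v.valuation K).Completion` (`completionRingEquiv`, `completionUniformEquiv`);
* places above `q` ↔ `Gal(ℚ̄_q/ℚ_q)`-orbits of embeddings: `place_eq_iff` (same place iff conjugate
    under the local Galois group), `exists_place_eq` (every place above `q` is
    `place (padicEmbedding q ∘ g ∘ i)`), `exists_factor` (every `e` factors through `ℚ̄`),
    `place_eq_of_forall`;
* `localFieldOf_val` : link with `Bridge/LocalGlobal.localField`.

Owner: helper79.
-/
import Mathlib
import Fermat.Prelude.Def_GaloisRep_CompletionBridge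
import Fermat.Agent.S55.Bridge.LocalGlobal
import Fermat.Agent.Lib.InertiaBridge.Lift

set_option autoImplicit false
set_option linter.unusedSectionVars false

namespace Fermat.Agent.S55.Middle.CompletionCompare

open IsDedekindDomain NumberField
open scoped NumberField NNReal Pointwise
open UniformSpace UniformSpace.Completion

variable {q : ℕ} [Fact q.Prime]
variable {K : Type*} [Field K] [NumberField K]




/-- integral elements of `PadicAlgCl q` have norm `≤ 1`. -/
theorem norm_le_one_of_isIntegral {y : PadicAlgCl q} (hy : IsIntegral ℤ y) : ‖y‖ ≤ 1 := by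
  have h := Fermat.Agent.Lib.FrobeniusIF.mem_of_isIntegral_int (padicIntegers q) hy
  rw [mem_padicIntegers_iff] at h
  exact_mod_cast h

theorem norm_map_integer_le_one (e : K →+* PadicAlgCl q) (r : 𝓞 K) :
    ‖e (algebraMap (𝓞 K) K r)‖ ≤ 1 := by
  apply norm_le_one_of_isIntegral
  have h : IsIntegral ℤ (algebraMap (𝓞 K) K r) := RingOfIntegers.isIntegral_coe r
  exact h.map (e : K →+* PadicAlgCl q).toIntAlgHom

theorem norm_map_natCast_q (e : K →+* PadicAlgCl q) : ‖e ((q : ℕ) : K)‖ = (q : ℝ)⁻¹ := by
  rw [map_natCast]
  exact Fermat.Agent.S55.Bridge.LocalGlobal.norm_natCast_q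

/-- the prime of `𝓞 K` cut out by an embedding `K → PadicAlgCl q`. -/
def placeIdeal (e : K →+* PadicAlgCl q) : Ideal (𝓞 K) where
  carrier := {r | ‖e (algebraMap (𝓞 K) K r)‖ < 1}
  add_mem' := by
    intro a b ha hb
    simp only [Set.mem_ofPred_eq] at ha hb ⊢
    rw [map_add, map_add]
    exact lt_of_le_of_lt (IsUltrametricDist.norm_add_le_max _ _) (max_lt ha hb)
  zero_mem' := by simp
  smul_mem' := by
    intro c x hx
    simp only [Set.mem_ofPred_eq, smul_eq_mul] at hx ⊢
    rw [map_mul, map_mul, norm_mul]
    calc ‖e (algebraMap (𝓞 K) K c)‖ * ‖e (algebraMap (𝓞 K) K x)‖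
        ≤ 1 * ‖e (algebraMap (𝓞 K) K x)‖ :=
          mul_le_mul_of_nonneg_right (norm_map_integer_le_one e c) (norm_nonneg _)
      _ < 1 := by rw [one_mul]; exact hx

theorem mem_placeIdeal {e : K →+* PadicAlgCl q} {r : 𝓞 K} :
    r ∈ placeIdeal e ↔ ‖e (algebraMap (𝓞 K) K r)‖ < 1 := Iff.rfl

instance placeIdeal_isPrime (e : K →+* PadicAlgCl q) : (placeIdeal e).IsPrime := by
  refine ⟨?_, ?_⟩
  · intro h
    have h1 : (1 : 𝓞 K) ∈ placeIdeal e := h ▸ Submodule.mem_top
    rw [mem_placeIdeal] at h1
    simp at h1
  · intro a b hab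
    rw [mem_placeIdeal, map_mul, map_mul, norm_mul] at hab
    by_contra hcon
    push Not at hcon
    obtain ⟨ha, hb⟩ := hcon
    rw [mem_placeIdeal, not_lt] at ha hb
    have ha1 : ‖e (algebraMap (𝓞 K) K a)‖ = 1 := le_antisymm (norm_map_integer_le_one e a) ha
    have hb1 : ‖e (algebraMap (𝓞 K) K b)‖ = 1 := le_antisymm (norm_map_integer_le_one e b) hb
    rw [ha1, hb1] at hab
    simp at hab

theorem natCast_q_mem_placeIdeal (e : K →+* PadicAlgCl q) : ((q : ℕ) : 𝓞 K) ∈ placeIdeal e := by
  rw [mem_placeIdeal, map_natCast, norm_map_natCast_q]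
  have hq1 : (1 : ℝ) < q := by exact_mod_cast (Fact.out : q.Prime).one_lt
  exact inv_lt_one_of_one_lt₀ hq1

theorem placeIdeal_ne_bot (e : K →+* PadicAlgCl q) : placeIdeal e ≠ ⊥ := by
  intro h
  have h1 := natCast_q_mem_placeIdeal e
  rw [h, Ideal.mem_bot] at h1
  have h2 : ((q : ℕ) : K) = 0 := by
    have := congrArg (algebraMap (𝓞 K) K) h1
    simpa using this
  have : (q : ℕ) = 0 := by exact_mod_cast h2
  exact (Fact.out : q.Prime).ne_zero this

/-- the finite place of `K` induced by an embedding `K → PadicAlgCl q`. -/
def place (e : K →+* PadicAlgCl q) : HeightOneSpectrum (𝓞 K) :=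
  ⟨placeIdeal e, inferInstance, placeIdeal_ne_bot e⟩

@[simp] theorem place_asIdeal (e : K →+* PadicAlgCl q) : (place e).asIdeal = placeIdeal e := rfl

/-- **Valuation comparison**: the `place e`-adic valuation and the norm of `PadicAlgCl q` pulled
back along `e` have the same unit ball. -/
theorem valuation_le_one_iff (e : K →+* PadicAlgCl q) (x : K) :
    (place e).valuation K x ≤ 1 ↔ ‖e x‖ ≤ 1 := by
  have key : ∀ y : K, (place e).valuation K y ≤ 1 → ‖e y‖ ≤ 1 ∧
      ((place e).valuation K y < 1 → ‖e y‖ < 1) := by
    intro y hy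
    obtain ⟨n, d, hnd⟩ := (place e).exists_primeCompl_mul_eq_of_integer y hy
    have hd : ‖e (algebraMap (𝓞 K) K d)‖ = 1 := by
      have h1 : (d : 𝓞 K) ∉ placeIdeal e := d.2
      rw [mem_placeIdeal, not_lt] at h1
      exact le_antisymm (norm_map_integer_le_one e d) h1
    have h2 : ‖e y‖ = ‖e (algebraMap (𝓞 K) K n)‖ := by
      have := congrArg (fun z => ‖e z‖) hnd
      simp only [map_mul, norm_mul, hd, mul_one] at this
      exact this
    refine ⟨h2 ▸ norm_map_integer_le_one e n, fun hlt => ?_⟩
    rw [h2, ← mem_placeIdeal, ← place_asIdeal, ← (place e).valuation_lt_one_iff_mem (K := K)]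
    have hvd : (place e).valuation K (algebraMap (𝓞 K) K d) = 1 := by
      rw [(place e).valuation_eq_one_iff_notMem]
      exact d.2
    have := congrArg ((place e).valuation K) hnd
    rw [map_mul, hvd, mul_one] at this
    rw [← this]
    exact hlt
  constructor
  · exact fun h => (key x h).1
  · intro h
    by_contra hcon
    rw [not_le] at hcon
    have hx0 : x ≠ 0 := by
      rintro rfl
      simp at hcon
    have h1 : (place e).valuation K x⁻¹ < 1 := by
      rw [map_inv₀]
      exact inv_lt_one_of_one_lt₀ hcon
    have h2 := (key x⁻¹ h1.le).2 h1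
    rw [map_inv₀, norm_inv] at h2
    have h3 : 0 < ‖e x‖ := norm_pos_iff.2 ((map_ne_zero e).2 hx0)
    have h4 : 1 < ‖e x‖ := by
      rwa [inv_lt_one₀ h3] at h2
    linarith






/-- the local field `ℚ_q(e K)` generated by the image of an embedding. -/
noncomputable def localFieldOf (e : K →+* PadicAlgCl q) : IntermediateField ℚ_[q] (PadicAlgCl q) :=
  IntermediateField.adjoin ℚ_[q] (Set.range e)

theorem map_mem_localFieldOf (e : K →+* PadicAlgCl q) (x : K) : e x ∈ localFieldOf e :=
  IntermediateField.subset_adjoin _ _ ⟨x, rfl⟩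

/-- `e` with codomain restricted to `ℚ_q(e K)`. -/
noncomputable def toLocalField (e : K →+* PadicAlgCl q) : K →+* localFieldOf e :=
  e.codRestrict (localFieldOf e).toSubring (map_mem_localFieldOf e)

@[simp] theorem coe_toLocalField (e : K →+* PadicAlgCl q) (x : K) :
    ((toLocalField e x : localFieldOf e) : PadicAlgCl q) = e x := rfl

/-- the closure of `e K` in `PadicAlgCl q` contains `ℚ_q(e K)`. -/
theorem localFieldOf_le_closure (e : K →+* PadicAlgCl q) :
    ((localFieldOf e : IntermediateField ℚ_[q] (PadicAlgCl q)) : Set (PadicAlgCl q)) ⊆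
      closure (Set.range e) := by
  set S : Subring (PadicAlgCl q) := e.range.topologicalClosure with hS
  have hScl : IsClosed (S : Set (PadicAlgCl q)) := Subring.isClosed_topologicalClosure _
  have hSeq : (S : Set (PadicAlgCl q)) = closure (Set.range e) := by
    rw [hS]
    change closure ((e.range : Subring (PadicAlgCl q)) : Set (PadicAlgCl q)) = _
    rw [RingHom.coe_range]
  have halg : ∀ c : ℚ_[q], algebraMap ℚ_[q] (PadicAlgCl q) c ∈ S := by
    intro c
    have hcont : Continuous (algebraMap ℚ_[q] (PadicAlgCl q)) := by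
      have : Isometry (algebraMap ℚ_[q] (PadicAlgCl q)) :=
        AddMonoidHomClass.isometry_of_norm _ (fun x => PadicAlgCl.norm_extends q x)
      exact this.continuous
    have hcl : IsClosed {c : ℚ_[q] | algebraMap ℚ_[q] (PadicAlgCl q) c ∈ S} :=
      hScl.preimage hcont
    have hdense : DenseRange ((↑) : ℚ → ℚ_[q]) := Padic.denseRange_ratCast q
    have hsub : Set.range ((↑) : ℚ → ℚ_[q]) ⊆
        {c : ℚ_[q] | algebraMap ℚ_[q] (PadicAlgCl q) c ∈ S} := by
      rintro _ ⟨r, rfl⟩
      have : algebraMap ℚ_[q] (PadicAlgCl q) (r : ℚ_[q]) = e (r : K) := by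
        rw [map_ratCast, map_ratCast]
      change algebraMap ℚ_[q] (PadicAlgCl q) (r : ℚ_[q]) ∈ S
      rw [this]
      exact Subring.le_topologicalClosure _ ⟨_, rfl⟩
    have := hcl.closure_subset_iff.2 hsub
    exact this (hdense c)
  let T : Subalgebra ℚ_[q] (PadicAlgCl q) :=
    { S.toSubsemiring with algebraMap_mem' := halg }
  have h1 : Algebra.adjoin ℚ_[q] (Set.range e) ≤ T := by
    apply Algebra.adjoin_le
    rintro _ ⟨x, rfl⟩
    exact Subring.le_topologicalClosure _ ⟨x, rfl⟩
  intro y hy
  have hy' : y ∈ (localFieldOf e).toSubalgebra := hy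
  unfold localFieldOf at hy'
  rw [IntermediateField.adjoin_toSubalgebra] at hy'
  have := h1 hy'
  rw [← hSeq]
  exact this

/-- `e K` is dense in `ℚ_q(e K)`. -/
theorem denseRange_toLocalField (e : K →+* PadicAlgCl q) : DenseRange (toLocalField e) := by
  intro y
  have h1 : (y : PadicAlgCl q) ∈ closure (Set.range e) := localFieldOf_le_closure e y.2
  rw [Topology.IsInducing.subtypeVal.closure_eq_preimage_closure_image, Set.mem_preimage]
  have : ((fun z : localFieldOf e => (z : PadicAlgCl q)) '' Set.range (toLocalField e) :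
      Set (PadicAlgCl q)) = Set.range e := by
    ext z
    constructor
    · rintro ⟨_, ⟨x, rfl⟩, rfl⟩
      exact ⟨x, rfl⟩
    · rintro ⟨x, rfl⟩
      exact ⟨toLocalField e x, ⟨x, rfl⟩, rfl⟩
  erw [this]
  exact h1






/-- `K` with the norm pulled back along `e`. -/
@[reducible] noncomputable def normedFieldOf (e : K →+* PadicAlgCl q) : NormedField K :=
  NormedField.induced K (PadicAlgCl q) e e.injective

theorem isUltrametricDist_of (e : K →+* PadicAlgCl q) :
    @IsUltrametricDist K (normedFieldOf e).toDist := by
  let _ := normedFieldOf e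
  refine ⟨fun x y z => ?_⟩
  change dist (e x) (e z) ≤ max (dist (e x) (e y)) (dist (e y) (e z))
  exact IsUltrametricDist.dist_triangle_max _ _ _

/-- the `ℝ≥0`-valued valuation `x ↦ ‖e x‖₊` on `K`. -/
noncomputable def normVal (e : K →+* PadicAlgCl q) : Valuation K ℝ≥0 :=
  (Valued.v : Valuation (PadicAlgCl q) ℝ≥0).comap e

@[simp] theorem normVal_apply (e : K →+* PadicAlgCl q) (x : K) : normVal e x = ‖e x‖₊ := rfl

theorem isEquiv_normVal (e : K →+* PadicAlgCl q) :
    ((place e).valuation K).IsEquiv (normVal e) := by
  apply Valuation.isEquiv_of_val_le_one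
  intro x
  rw [valuation_le_one_iff, normVal_apply]
  exact_mod_cast Iff.rfl

theorem valuation_lt_one_iff (e : K →+* PadicAlgCl q) (x : K) :
    (place e).valuation K x < 1 ↔ ‖e x‖ < 1 := by
  have h2 : (place e).valuation K x < 1 ↔ normVal e x < 1 :=
    Valuation.isEquiv_iff_val_lt_one.1 (isEquiv_normVal e)
  rw [h2, normVal_apply]
  exact_mod_cast Iff.rfl

theorem valuation_le_iff (e : K →+* PadicAlgCl q) (x y : K) :
    (place e).valuation K x ≤ (place e).valuation K y ↔ ‖e x‖ ≤ ‖e y‖ := by
  rw [isEquiv_normVal e x y, normVal_apply, normVal_apply]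
  exact_mod_cast Iff.rfl






theorem isUniformInducing_toLocalField (e : K →+* PadicAlgCl q) :
    @IsUniformInducing K (localFieldOf e) (normedFieldOf e).toUniformSpace _ (toLocalField e) := by
  let _ := normedFieldOf e
  have h1 : IsUniformInducing (e : K → PadicAlgCl q) := ⟨rfl⟩
  have h2 : IsUniformInducing (Subtype.val : localFieldOf e → PadicAlgCl q) :=
    isUniformEmbedding_subtype_val.isUniformInducing
  exact (IsUniformInducing.of_comp_iff h2).1 h1

/-- the canonical map `(K, place e-adic) → ℚ_q(e K)`. -/
noncomputable def withValToLocalField (e : K →+* PadicAlgCl q) :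
    WithVal ((place e).valuation K) →+* localFieldOf e :=
  (toLocalField e).comp (WithVal.equiv ((place e).valuation K)).toRingHom

theorem isUniformInducing_withValToLocalField (e : K →+* PadicAlgCl q) :
    IsUniformInducing (withValToLocalField e) := by
  let _ := normedFieldOf e
  let _ : IsUltrametricDist K := isUltrametricDist_of e
  let _ : Valued K ℝ≥0 := NormedField.toValued
  have hV : (Valued.v : Valuation K ℝ≥0) = normVal e := by ext x; rfl
  have h3 : IsUniformInducing
      (fun x : WithVal ((place e).valuation K) => (WithVal.equiv ((place e).valuation K) x : K)) :=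
    (WithVal.uniformEquiv hV (isEquiv_normVal e)).isUniformInducing
  exact (isUniformInducing_toLocalField e).comp h3

theorem denseRange_withValToLocalField (e : K →+* PadicAlgCl q) :
    DenseRange (withValToLocalField e) := by
  have h := denseRange_toLocalField e
  have : Set.range (withValToLocalField e) = Set.range (toLocalField e) := by
    ext y
    constructor
    · rintro ⟨x, rfl⟩
      exact ⟨WithVal.equiv _ x, rfl⟩
    · rintro ⟨x, rfl⟩
      exact ⟨(WithVal.equiv _).symm x, by simp [withValToLocalField]⟩
  unfold DenseRange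
  rw [this]
  exact h






local instance towerQqPadic_cc : IsScalarTower ℚ ℚ_[q] (PadicAlgCl q) :=
  IsScalarTower.of_algebraMap_eq' (Subsingleton.elim _ _)

instance finiteDimensional_localFieldOf (e : K →+* PadicAlgCl q) :
    FiniteDimensional ℚ_[q] (localFieldOf e) := by
  obtain ⟨α, hα⟩ := Field.exists_primitive_element ℚ K
  set M : IntermediateField ℚ_[q] (PadicAlgCl q) := IntermediateField.adjoin ℚ_[q] {e α} with hM
  have hfin : FiniteDimensional ℚ_[q] M :=
    IntermediateField.adjoin.finiteDimensional (Algebra.IsIntegral.isIntegral _)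
  have hle : localFieldOf e ≤ M := by
    unfold localFieldOf
    rw [IntermediateField.adjoin_le_iff]
    rintro _ ⟨x, rfl⟩
    have h1 : (⊤ : IntermediateField ℚ K) ≤ (M.restrictScalars ℚ).comap e.toRatAlgHom := by
      rw [← hα, IntermediateField.adjoin_le_iff]
      rintro _ rfl
      exact IntermediateField.subset_adjoin _ _ rfl
    exact h1 (IntermediateField.mem_top (x := x))
  exact FiniteDimensional.of_injective (IntermediateField.inclusion hle).toLinearMap
    (IntermediateField.inclusion_injective hle)

instance completeSpace_localFieldOf (e : K →+* PadicAlgCl q) : CompleteSpace (localFieldOf e) :=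
  FiniteDimensional.complete ℚ_[q] (localFieldOf e)

theorem isDenseInducing_withValToLocalField (e : K →+* PadicAlgCl q) :
    IsDenseInducing (withValToLocalField e) :=
  (isUniformInducing_withValToLocalField e).isDenseInducing (denseRange_withValToLocalField e)

open UniformSpace UniformSpace.Completion in
/-- **Completion comparison, ring form**: the completion of `K` at `place e` is `ℚ_q(e K)`. -/
noncomputable def completionRingEquiv (e : K →+* PadicAlgCl q) :
    ((place e).valuation K).Completion ≃+* localFieldOf e where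
  toFun := extensionHom (withValToLocalField e)
    (isUniformInducing_withValToLocalField e).uniformContinuous.continuous
  invFun := (isDenseInducing_withValToLocalField e).extend coe'
  left_inv y := by
    induction y using induction_on
    · generalize_proofs _ H
      refine isClosed_eq ?_ continuous_id
      exact (uniformContinuous_uniformly_extend (isUniformInducing_withValToLocalField e)
        (isDenseInducing_withValToLocalField e).dense (uniformContinuous_coe _)).continuous.comp
        (continuous_extension)
    · rw [extensionHom_coe]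
      apply IsDenseInducing.extend_eq
      exact continuous_coe _
  right_inv y := by
    induction y using isClosed_property (denseRange_withValToLocalField e)
    · refine isClosed_eq ?_ continuous_id
      refine continuous_extension.comp ?_
      exact (uniformContinuous_uniformly_extend (isUniformInducing_withValToLocalField e)
        (isDenseInducing_withValToLocalField e).dense (uniformContinuous_coe _)).continuous
    · rename_i x
      have : (isDenseInducing_withValToLocalField e).extend coe' (withValToLocalField e x) =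
          coe' x := by
        apply IsDenseInducing.extend_eq
        exact continuous_coe _
      rw [this, extensionHom_coe]
  map_mul' := map_mul _
  map_add' := map_add _







@[simp] theorem completionRingEquiv_coe (e : K →+* PadicAlgCl q)
    (x : WithVal ((place e).valuation K)) :
    completionRingEquiv e (x : ((place e).valuation K).Completion) = withValToLocalField e x := by
  exact extensionHom_coe (withValToLocalField e)
    (isUniformInducing_withValToLocalField e).uniformContinuous.continuous x

theorem completionRingEquiv_symm_apply (e : K →+* PadicAlgCl q)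
    (x : WithVal ((place e).valuation K)) :
    (completionRingEquiv e).symm (withValToLocalField e x) =
      (x : ((place e).valuation K).Completion) := by
  rw [← completionRingEquiv_coe, RingEquiv.symm_apply_apply]

/-- **Completion comparison, uniform form.** -/
noncomputable def completionUniformEquiv (e : K →+* PadicAlgCl q) :
    ((place e).valuation K).Completion ≃ᵤ localFieldOf e :=
  UniformEquiv.symm <| (completionRingEquiv e).symm.toUniformEquivOfIsUniformInducing <|
    (isDenseInducing_withValToLocalField e).isUniformInducing_extend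
      (isUniformInducing_withValToLocalField e) (Completion.isUniformInducing_coe _)

@[simp] theorem completionUniformEquiv_apply (e : K →+* PadicAlgCl q)
    (x : ((place e).valuation K).Completion) :
    completionUniformEquiv e x = completionRingEquiv e x := rfl

theorem continuous_completionRingEquiv (e : K →+* PadicAlgCl q) :
    Continuous (completionRingEquiv e) :=
  (completionUniformEquiv e).continuous

theorem continuous_completionRingEquiv_symm (e : K →+* PadicAlgCl q) :
    Continuous (completionRingEquiv e).symm :=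
  (completionUniformEquiv e).symm.continuous

/-- the unit balls correspond. -/
theorem norm_completionRingEquiv_le_one_iff (e : K →+* PadicAlgCl q)
    (x : ((place e).valuation K).Completion) :
    ‖((completionRingEquiv e x : localFieldOf e) : PadicAlgCl q)‖ ≤ 1 ↔ Valued.v x ≤ 1 := by
  induction x using UniformSpace.Completion.induction_on with
  | hp =>
    rw [Set.ext fun _ ↦ Iff.comm]
    simp_rw [← Valuation.restrict_le_one_iff Valued.v]
    apply (completionUniformEquiv e).toHomeomorph.isClosed_setOfPred_iff
      (q := fun x : localFieldOf e => ‖(x : PadicAlgCl q)‖ ≤ 1)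
      (Valued.isClopen_closedBall _ one_ne_zero)
    have h := IsUltrametricDist.isClopen_closedBall (0 : localFieldOf e) one_ne_zero
    have h2 : Metric.closedBall (0 : localFieldOf e) 1 =
        {x : localFieldOf e | ‖(x : PadicAlgCl q)‖ ≤ 1} := by
      ext x
      simp only [Metric.mem_closedBall, dist_zero_right, Set.mem_ofPred_eq]
      rfl
    rw [h2] at h
    exact h
  | ih a =>
    rw [Valued.valuedCompletion_apply, completionRingEquiv_coe]
    change ‖e (WithVal.equiv _ a)‖ ≤ 1 ↔ _
    rw [← valuation_le_one_iff]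
    rfl







/-- **Completion comparison** for Mathlib's `adicCompletion`:
`(place e).adicCompletion K ≃+* ℚ_q(e K)`. -/
noncomputable def adicCompletionRingEquiv (e : K →+* PadicAlgCl q) :
    (place e).adicCompletion K ≃+* localFieldOf e :=
  (HeightOneSpectrum.adicCompletion.equiv K (place e)).trans (completionRingEquiv e)

/-- ... as a uniform isomorphism (in particular a homeomorphism). -/
noncomputable def adicCompletionUniformEquiv (e : K →+* PadicAlgCl q) :
    (place e).adicCompletion K ≃ᵤ localFieldOf e :=
  (HeightOneSpectrum.adicCompletion.uniformEquiv K (place e)).trans (completionUniformEquiv e)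

@[simp] theorem adicCompletionUniformEquiv_apply (e : K →+* PadicAlgCl q)
    (x : (place e).adicCompletion K) :
    adicCompletionUniformEquiv e x = adicCompletionRingEquiv e x := rfl

/-- compatibility with the embeddings of `K`. -/
@[simp] theorem adicCompletionRingEquiv_coe (e : K →+* PadicAlgCl q) (x : K) :
    adicCompletionRingEquiv e ((x : K) : (place e).adicCompletion K) = toLocalField e x := by
  change completionRingEquiv e
    (((WithVal.equiv ((place e).valuation K)).symm x : WithVal ((place e).valuation K)) :
      ((place e).valuation K).Completion) = _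
  rw [completionRingEquiv_coe]
  simp [withValToLocalField]

theorem adicCompletionRingEquiv_algebraMap (e : K →+* PadicAlgCl q) (x : K) :
    adicCompletionRingEquiv e (algebraMap K ((place e).adicCompletion K) x) = toLocalField e x := by
  have : algebraMap K ((place e).adicCompletion K) x = ((x : K) : (place e).adicCompletion K) := by
    rw [HeightOneSpectrum.algebraMap_adicCompletion]
    rfl
  rw [this, adicCompletionRingEquiv_coe]

theorem coe_adicCompletionRingEquiv_algebraMap (e : K →+* PadicAlgCl q) (x : K) :
    ((adicCompletionRingEquiv e (algebraMap K ((place e).adicCompletion K) x) : localFieldOf e) :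
      PadicAlgCl q) = e x := by
  rw [adicCompletionRingEquiv_algebraMap]; rfl

theorem continuous_adicCompletionRingEquiv (e : K →+* PadicAlgCl q) :
    Continuous (adicCompletionRingEquiv e) :=
  (adicCompletionUniformEquiv e).continuous

theorem continuous_adicCompletionRingEquiv_symm (e : K →+* PadicAlgCl q) :
    Continuous (adicCompletionRingEquiv e).symm :=
  (adicCompletionUniformEquiv e).symm.continuous

/-- the valuation integers correspond to the unit ball. -/
theorem norm_adicCompletionRingEquiv_le_one_iff (e : K →+* PadicAlgCl q)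
    (x : (place e).adicCompletion K) :
    ‖((adicCompletionRingEquiv e x : localFieldOf e) : PadicAlgCl q)‖ ≤ 1 ↔
      x ∈ (place e).adicCompletionIntegers K := by
  rw [HeightOneSpectrum.mem_adicCompletionIntegers]
  exact norm_completionRingEquiv_le_one_iff e x.toCompletion

/-- the `place e`-adic valuation on the completion is `≤ 1`, `< 1`, `= 1` exactly when the norm
of the image is. -/
theorem norm_adicCompletionRingEquiv_lt_one_iff (e : K →+* PadicAlgCl q)
    (x : (place e).adicCompletion K) :
    ‖((adicCompletionRingEquiv e x : localFieldOf e) : PadicAlgCl q)‖ < 1 ↔ Valued.v x < 1 := by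
  by_cases hx : x = 0
  · subst hx; simp
  · have h1 := norm_adicCompletionRingEquiv_le_one_iff e x⁻¹
    rw [HeightOneSpectrum.mem_adicCompletionIntegers, map_inv₀, map_inv₀] at h1
    have hy : ((adicCompletionRingEquiv e x : localFieldOf e) : PadicAlgCl q) ≠ 0 := by
      intro h
      apply hx
      have : adicCompletionRingEquiv e x = 0 := Subtype.ext h
      exact (adicCompletionRingEquiv e).injective (this.trans (map_zero _).symm)
    have hpos : 0 < ‖((adicCompletionRingEquiv e x : localFieldOf e) : PadicAlgCl q)‖ :=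
      norm_pos_iff.2 hy
    have hv : Valued.v x ≠ 0 := (Valuation.ne_zero_iff _).2 hx
    rw [← not_le, ← not_le]
    apply not_congr
    have e1 : (Valued.v x)⁻¹ ≤ 1 ↔ 1 ≤ Valued.v x := inv_le_one₀ (zero_lt_iff.2 hv)
    have e2 : ‖(((adicCompletionRingEquiv e x)⁻¹ : localFieldOf e) : PadicAlgCl q)‖ ≤ 1 ↔
        1 ≤ ‖((adicCompletionRingEquiv e x : localFieldOf e) : PadicAlgCl q)‖ := by
      push_cast
      rw [norm_inv]
      exact inv_le_one₀ hpos
    rw [← e1, ← e2]
    exact h1






open Fermat.Agent.S55.Bridge.LocalGlobal in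
/-- two embeddings `K → PadicAlgCl q` with the same norm are conjugate under `Gal(ℚ̄_q/ℚ_q)`. -/
theorem exists_algEquiv_of_norm_eq (f f' : K →ₐ[ℚ] PadicAlgCl q)
    (hnorm : ∀ x : K, ‖f x‖ = ‖f' x‖) :
    ∃ τ : PadicAlgCl q ≃ₐ[ℚ_[q]] PadicAlgCl q, ∀ x : K, τ (f x) = f' x := by
  set pb := Field.powerBasisOfFiniteOfSeparable ℚ K with hpb
  have hroot : Polynomial.aeval (f' pb.gen) (minpoly ℚ_[q] (f pb.gen)) = 0 := by
    have h0 := minpoly.aeval ℚ_[q] (f pb.gen)
    rw [Polynomial.aeval_eq_sum_range] at h0 ⊢
    simp_rw [← map_pow] at h0 ⊢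
    exact sum_smul_eq_zero_of_norm_eq f f' hnorm _ _ _ h0
  obtain ⟨τ, hτ⟩ := minpoly.exists_algEquiv_of_root'
    (Algebra.IsAlgebraic.isAlgebraic (R := ℚ_[q]) (f pb.gen)) hroot
  refine ⟨τ, ?_⟩
  have h1 : ((τ.restrictScalars ℚ : PadicAlgCl q ≃ₐ[ℚ] PadicAlgCl q) : PadicAlgCl q →ₐ[ℚ]
      PadicAlgCl q).comp f = f' := by
    apply pb.algHom_ext
    exact hτ
  intro x
  exact congrArg (fun φ : K →ₐ[ℚ] PadicAlgCl q => φ x) h1

/-- `place e` only depends on the `Gal(ℚ̄_q/ℚ_q)`-orbit of `e`, and conversely. -/
theorem place_eq_iff (e e' : K →+* PadicAlgCl q) :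
    place e = place e' ↔ ∃ τ : PadicAlgCl q ≃ₐ[ℚ_[q]] PadicAlgCl q, ∀ x : K, τ (e x) = e' x := by
  constructor
  · intro h
    have hball : ∀ x : K, ‖e x‖ ≤ 1 ↔ ‖e' x‖ ≤ 1 := by
      intro x
      rw [← valuation_le_one_iff, ← valuation_le_one_iff, h]
    have hnorm := Fermat.Agent.S55.Bridge.LocalGlobal.norm_eq_of_unitBall_eq e e' hball
    exact exists_algEquiv_of_norm_eq e.toRatAlgHom e'.toRatAlgHom hnorm
  · rintro ⟨τ, hτ⟩
    apply HeightOneSpectrum.ext
    ext r
    rw [place_asIdeal, place_asIdeal, mem_placeIdeal, mem_placeIdeal, ← hτ]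
    have : ‖τ (e (algebraMap (𝓞 K) K r))‖ = ‖e (algebraMap (𝓞 K) K r)‖ := by
      have := nnnorm_padicAlgCl_algEquiv q τ (e (algebraMap (𝓞 K) K r))
      exact congrArg NNReal.toReal this
    rw [this]






theorem isGalois_qbar : IsGalois ℚ (AlgebraicClosure ℚ) := by
  have h : (DivisionRing.toRatAlgebra : Algebra ℚ (AlgebraicClosure ℚ)) =
      AlgebraicClosure.instAlgebra ℚ := Subsingleton.elim _ _
  rw [h]
  infer_instance

theorem padicPlace_liesOverPrime : (padicPlace q).LiesOverPrime q := by
  unfold ValuationSubring.LiesOverPrime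
  rw [Fermat.Agent.Lib.InertiaRestrict.mem_nonunits_iff_inv]
  right
  rw [mem_padicPlace_iff, map_inv₀, map_natCast, nnnorm_inv, not_le]
  have h1 : ‖((q : ℕ) : PadicAlgCl q)‖₊ = (q : ℝ≥0)⁻¹ := by
    ext
    push_cast
    exact Fermat.Agent.S55.Bridge.LocalGlobal.norm_natCast_q
  rw [h1, inv_inv]
  exact_mod_cast (Fact.out : q.Prime).one_lt

/-- a place is determined by its unit ball. -/
theorem place_eq_of_forall (e : K →+* PadicAlgCl q) (v : HeightOneSpectrum (𝓞 K))
    (h : ∀ x : K, v.valuation K x ≤ 1 ↔ ‖e x‖ ≤ 1) : place e = v := by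
  apply HeightOneSpectrum.eq_of_valuation_isEquiv_valuation (K := K)
  apply Valuation.isEquiv_of_val_le_one
  intro x
  rw [valuation_le_one_iff, h]

/-- **Every place of `K` above `q` is induced by an embedding `K → PadicAlgCl q`**, of the form
`padicEmbedding q ∘ g ∘ i` for a given `i : K → ℚ̄`. -/
theorem exists_place_eq (i : K →+* AlgebraicClosure ℚ) (v : HeightOneSpectrum (𝓞 K))
    (hv : ((q : ℕ) : 𝓞 K) ∈ v.asIdeal) :
    ∃ g : AlgebraicClosure ℚ ≃ₐ[ℚ] AlgebraicClosure ℚ,
      place (((padicEmbedding q).toRingHom.comp (g : AlgebraicClosure ℚ →+* AlgebraicClosure ℚ)).comp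
        i) = v := by
  have hgal : IsGalois ℚ (AlgebraicClosure ℚ) := isGalois_qbar
  set B : ValuationSubring K := (v.valuation K).valuationSubring with hB
  obtain ⟨A, hA⟩ := Fermat.Agent.Lib.InertiaRestrict.exists_comap_eq i B
  have hAq : A.LiesOverPrime q := by
    unfold ValuationSubring.LiesOverPrime
    have h1 : ((q : ℕ) : K) ∈ (A.comap i).nonunits := by
      rw [hA, hB, Fermat.Agent.Lib.InertiaRestrict.mem_nonunits_iff_inv]
      right
      have hlt : v.valuation K ((q : ℕ) : K) < 1 := by
        have := (v.valuation_lt_one_iff_mem (K := K) ((q : ℕ) : 𝓞 K)).2 hv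
        simpa using this
      intro hmem
      have h2 : v.valuation K (((q : ℕ) : K))⁻¹ ≤ 1 := hmem
      rw [map_inv₀] at h2
      have hq0 : v.valuation K ((q : ℕ) : K) ≠ 0 := by
        rw [Valuation.ne_zero_iff]
        exact_mod_cast (Fact.out : q.Prime).ne_zero
      have h3 : 1 ≤ v.valuation K ((q : ℕ) : K) := (inv_le_one₀ (zero_lt_iff.2 hq0)).1 h2
      exact absurd hlt (not_lt.2 h3)
    rw [Fermat.Agent.Lib.InertiaRestrict.mem_nonunits_comap_iff] at h1
    simpa using h1
  obtain ⟨g, hg⟩ := Fermat.Agent.Lib.InertiaBridge.Lift.exists_smul_eq_of_liesOverPrime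
    (Fact.out : q.Prime) (padicPlace_liesOverPrime (q := q)) hAq
  refine ⟨g⁻¹, place_eq_of_forall _ v fun x => ?_⟩
  have h1 : v.valuation K x ≤ 1 ↔ i x ∈ A := by
    rw [← ValuationSubring.mem_comap, hA, hB]
    rfl
  rw [h1, hg, ValuationSubring.mem_pointwise_smul_iff_inv_smul_mem, mem_padicPlace_iff]
  change _ ↔ ‖padicEmbedding q (g⁻¹ (i x))‖ ≤ 1
  exact_mod_cast Iff.rfl






/-- link with `Bridge/LocalGlobal`: for a subfield `F ⊆ ℚ̄` the local field of the tautological
embedding is `localField q F`. -/
theorem localFieldOf_val (F : IntermediateField ℚ (AlgebraicClosure ℚ)) [NumberField F] :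
    localFieldOf ((padicEmbedding q).toRingHom.comp (algebraMap F (AlgebraicClosure ℚ))) =
      Fermat.Agent.S55.Bridge.LocalGlobal.localField q F := by
  unfold localFieldOf Fermat.Agent.S55.Bridge.LocalGlobal.localField
  congr 1
  ext y
  constructor
  · rintro ⟨x, rfl⟩
    exact ⟨x, x.2, rfl⟩
  · rintro ⟨x, hx, rfl⟩
    exact ⟨⟨x, hx⟩, rfl⟩

/-- elements of `PadicAlgCl q` integral over `ℚ` come from `ℚ̄`. -/
theorem mem_range_padicEmbedding_of_isIntegral {β : PadicAlgCl q} (hβ : IsIntegral ℚ β) :
    β ∈ Set.range (padicEmbedding q) := by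
  have hs : ((minpoly ℚ β).map (algebraMap ℚ (AlgebraicClosure ℚ))).Splits :=
    IsAlgClosed.splits _
  have himg := hs.image_rootSet (padicEmbedding q)
  have hβ' : β ∈ (minpoly ℚ β).rootSet (PadicAlgCl q) := by
    rw [Polynomial.mem_rootSet]
    exact ⟨minpoly.ne_zero hβ, minpoly.aeval _ _⟩
  rw [← himg] at hβ'
  obtain ⟨α, -, rfl⟩ := hβ'
  exact ⟨α, rfl⟩

/-- **Every embedding `K → PadicAlgCl q` factors through `ℚ̄`**: `e = padicEmbedding q ∘ j`. -/
theorem exists_factor (e : K →+* PadicAlgCl q) :
    ∃ j : K →+* AlgebraicClosure ℚ, ∀ x, padicEmbedding q (j x) = e x := by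
  have h : ∀ x : K, ∃ y : AlgebraicClosure ℚ, padicEmbedding q y = e x := by
    intro x
    have hx : IsIntegral ℚ x := Algebra.IsIntegral.isIntegral x
    have : IsIntegral ℚ (e x) := hx.map e.toRatAlgHom
    exact mem_range_padicEmbedding_of_isIntegral this
  choose j hj using h
  have hinj : Function.Injective (padicEmbedding q) := (padicEmbedding q).toRingHom.injective
  refine ⟨{ toFun := j, map_one' := ?_, map_mul' := ?_, map_zero' := ?_, map_add' := ?_ }, hj⟩
  · apply hinj; rw [hj, map_one, map_one]
  · intro x y; apply hinj; rw [hj, map_mul, map_mul, hj, hj]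
  · apply hinj; rw [hj, map_zero, map_zero]
  · intro x y; apply hinj; rw [hj, map_add, map_add, hj, hj]


end Fermat.Agent.S55.Middle.CompletionCompare
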