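/-
S55 / Middle / M.loccompare.semilocal (helper79): the QUOTIENT-FIELD MODEL of the local fields used by
the Global block (`(L ⊗[k] F) ⧸ 𝔪`, decomposition group `= MulAction.stabilizer G 𝔪`,
`Global/SemilocalDecomp`, `Global/SemilocalTensor`, `Global/Blocks3.Kloc`) versus the EMBEDDED MODEL
used by the Prelude and the Bridge (`F(e L) ⊆ Ω`, e.g. `ℚ_q(e L) ⊆ PadicAlgCl q`).  Pure algebra.

GENERAL PART (`k` a field, `F/k` any field extension, `Ω` an `F`-field with `IsScalarTower k F Ω`,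
`L/k` algebraic, `e : L →ₐ[k] Ω`; `F` acts on `L ⊗[k] F` through `Algebra.TensorProduct.rightAlgebra`;
`G` any group with `MulSemiringAction G L`, `MulSemiringAction G (L ⊗[k] F)` and
`hact : g • (l ⊗ₜ f) = (g • l) ⊗ₜ f`, exactly the conventions of `Global/SemilocalTensor`):

* `psi e : L ⊗[k] F →ₐ[F] Ω`, `psi_tmul : psi e (l ⊗ₜ c) = e l * algebraMap F Ω c`;
* `genField e : IntermediateField F Ω := adjoin F (range e)`; `range_psi`;
  `psiL e : L ⊗[k] F →ₐ[F] genField e`, `psiL_surjective`; `toGen e : L →ₐ[k] genField e`;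
* `kerIdeal e` (`= 𝔪_e`), `mem_kerIdeal`, `kerIdeal_isMaximal`;
  `quotEquiv e : (L ⊗[k] F) ⧸ 𝔪_e ≃ₐ[F] genField e`, `quotEquiv_mk`;
* `kerIdeal_eq_iff : 𝔪_{e'} = 𝔪_e ↔ ∃ τ : Ω ≃ₐ[F] Ω, ∀ l, τ (e l) = e' l` (`Ω/F` normal),
  `exists_algEquiv_of_kerIdeal_eq`, `kerIdeal_eq_of_algHom`;
* `twist e g = e ∘ g`, `psi_smul : psi e (g • b) = psi (twist e g) b`,
  `inv_smul_kerIdeal : g⁻¹ • 𝔪_e = 𝔪_{e ∘ g}`, `mem_stabilizer_iff`, `mem_stabilizer_iff_exists`;
* `stabToGal hact e : MulAction.stabilizer G 𝔪_e →* (genField e ≃ₐ[F] genField e)`,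
  `quotEquiv_smul` (EQUIVARIANCE of `quotEquiv` for `SemilocalDecomp.stabQuotAction`),
  `stabToGal_psiL`, `stabToGal_toGen : stabToGal d (e l) = e (d • l)`, `stabToGal_injective`,
  `stabToGal_bijective`, `stabEquiv` (for `IsGaloisGroup G k L`, `G` finite);
* `exists_twist_eq` (Galois case: all maximal ideals are `𝔪_{e ∘ g}`), `exists_kerIdeal_eq`
  (`Ω` algebraically closed: every maximal ideal of `L ⊗[k] F` is an `𝔪_e`), `isIntegral_tensor`.

`ℚ`-BASED SPECIALISATION (Global interface v3: `L` a number field, `B = L ⊗[ℚ] ℚ_[q]`,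
`G = L ≃ₐ[ℚ] L` acting by `Global/Objects`, `e : L →+* PadicAlgCl q`):
`idealQ e`, `psiQ e`, `quotEquivQ e : B ⧸ 𝔪_e ≃ₐ[ℚ_[q]] localFieldOf e` (`localFieldOf` of
`Middle/CompletionCompare`), `mem_stabilizer_idealQ_iff`, `mem_stabilizer_idealQ_iff_place`
(`σ ∈ Stab 𝔪_e ↔ place (e ∘ σ) = place e`), `stabToGalQ`, `quotEquivQ_smul`,
`stabToGalQ_toLocalField`, `stabToGalQ_injective`, `stabToGalQ_bijective`, `exists_idealQ_eq`;
`L`-ALGEBRA FORM: `quotEquivL e : B ⧸ 𝔪_e ≃ₐ[L] localFieldOf e`,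
`quotEquivAdic e : B ⧸ 𝔪_e ≃ₐ[L] (place e).adicCompletion L`,
`exists_quot_algEquiv_adicCompletion` (every prime `v ∣ q` of `𝓞 L` is the place of a residue field of
`L ⊗[ℚ] ℚ_[q]`) and `exists_adicCompletion_algEquiv_quot` (conversely).
-/
import Mathlib
import Fermat.Agent.S55.Global.SemilocalTensor
import Fermat.Agent.S55.Global.Objects
import Fermat.Agent.S55.Middle.CompletionCompare

set_option autoImplicit false
set_option linter.unusedSectionVars false
set_option linter.style.haveILetI false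

namespace Fermat.Agent.S55.Middle.SemilocalCompare

open scoped TensorProduct Pointwise NumberField
open IsDedekindDomain
open Fermat.Agent.S55.Global.SemilocalDecomp
open Fermat.Agent.S55.Global.Objects
open Fermat.Agent.S55.Middle.CompletionCompare

attribute [local instance] Algebra.TensorProduct.rightAlgebra
attribute [local instance] stabQuotAction

section General

variable {k F Ω L : Type*} [Field k] [Field F] [Field Ω] [Field L] [Algebra k F] [Algebra F Ω]
  [Algebra k Ω] [IsScalarTower k F Ω] [Algebra k L]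

/-- `ψ_e : L ⊗[k] F → Ω`, `l ⊗ c ↦ e l * c`, as an `F`-algebra homomorphism (`F` acts on the right
factor). -/
noncomputable def psi (e : L →ₐ[k] Ω) : L ⊗[k] F →ₐ[F] Ω :=
  { toRingHom := (Algebra.TensorProduct.productMap e (IsScalarTower.toAlgHom k F Ω)).toRingHom
    commutes' := fun c => by
      change Algebra.TensorProduct.productMap e (IsScalarTower.toAlgHom k F Ω) ((1 : L) ⊗ₜ c) = _
      rw [Algebra.TensorProduct.productMap_apply_tmul, map_one, one_mul]
      rfl }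

@[simp] theorem psi_tmul (e : L →ₐ[k] Ω) (l : L) (c : F) :
    psi e (l ⊗ₜ[k] c) = e l * algebraMap F Ω c := rfl

/-- The field `F(e L) ⊆ Ω` generated over `F` by the image of `e`. -/
noncomputable def genField (e : L →ₐ[k] Ω) : IntermediateField F Ω :=
  IntermediateField.adjoin F (Set.range e)

theorem map_mem_genField (e : L →ₐ[k] Ω) (l : L) : e l ∈ genField (F := F) e :=
  IntermediateField.subset_adjoin _ _ ⟨l, rfl⟩

theorem isAlgebraic_map [Algebra.IsAlgebraic k L] (e : L →ₐ[k] Ω) (l : L) :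
    IsAlgebraic F (e l) :=
  (IsAlgebraic.algHom e (Algebra.IsAlgebraic.isAlgebraic (R := k) l)).tower_top F

theorem genField_toSubalgebra [Algebra.IsAlgebraic k L] (e : L →ₐ[k] Ω) :
    (genField (F := F) e).toSubalgebra = Algebra.adjoin F (Set.range e) :=
  IntermediateField.adjoin_toSubalgebra_of_isAlgebraic (by
    rintro _ ⟨l, rfl⟩
    exact isAlgebraic_map e l)

theorem range_psi_eq_adjoin (e : L →ₐ[k] Ω) :
    (psi (F := F) e).range = Algebra.adjoin F (Set.range e) := by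
  apply le_antisymm
  · rintro _ ⟨b, rfl⟩
    induction b using TensorProduct.induction_on with
    | zero => simp
    | tmul l c =>
      rw [AlgHom.toRingHom_eq_coe, RingHom.coe_coe, psi_tmul]
      exact mul_mem (Algebra.subset_adjoin ⟨l, rfl⟩) (Subalgebra.algebraMap_mem _ c)
    | add x y hx hy =>
      rw [map_add]
      exact add_mem hx hy
  · rw [Algebra.adjoin_le_iff]
    rintro _ ⟨l, rfl⟩
    exact ⟨l ⊗ₜ 1, by simp⟩

theorem range_psi [Algebra.IsAlgebraic k L] (e : L →ₐ[k] Ω) :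
    (psi (F := F) e).range = (genField (F := F) e).toSubalgebra := by
  rw [range_psi_eq_adjoin, genField_toSubalgebra]

theorem psi_mem_genField [Algebra.IsAlgebraic k L] (e : L →ₐ[k] Ω) (b : L ⊗[k] F) :
    psi e b ∈ genField (F := F) e := by
  have : psi e b ∈ (psi (F := F) e).range := ⟨b, rfl⟩
  rw [range_psi] at this
  exact this

/-- `ψ_e` with codomain restricted to `F(e L)`. -/
noncomputable def psiL [Algebra.IsAlgebraic k L] (e : L →ₐ[k] Ω) :
    L ⊗[k] F →ₐ[F] genField (F := F) e :=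
  (psi e).codRestrict (genField (F := F) e).toSubalgebra (psi_mem_genField e)

@[simp] theorem coe_psiL [Algebra.IsAlgebraic k L] (e : L →ₐ[k] Ω) (b : L ⊗[k] F) :
    ((psiL e b : genField (F := F) e) : Ω) = psi e b := rfl

theorem psiL_surjective [Algebra.IsAlgebraic k L] (e : L →ₐ[k] Ω) :
    Function.Surjective (psiL (F := F) e) := by
  rintro ⟨y, hy⟩
  have : y ∈ (psi (F := F) e).range := by rw [range_psi]; exact hy
  obtain ⟨b, rfl⟩ := this
  exact ⟨b, rfl⟩

/-- The maximal ideal `𝔪_e = ker ψ_e` of `L ⊗[k] F`. -/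
noncomputable def kerIdeal [Algebra.IsAlgebraic k L] (e : L →ₐ[k] Ω) : Ideal (L ⊗[k] F) :=
  RingHom.ker (psiL (F := F) e)

theorem mem_kerIdeal [Algebra.IsAlgebraic k L] (e : L →ₐ[k] Ω) (b : L ⊗[k] F) :
    b ∈ kerIdeal (F := F) e ↔ psi e b = 0 := by
  rw [kerIdeal, RingHom.mem_ker]
  constructor
  · intro h
    have := congrArg (fun x : genField (F := F) e => (x : Ω)) h
    simpa using this
  · intro h
    apply Subtype.ext
    simpa using h

instance kerIdeal_isMaximal [Algebra.IsAlgebraic k L] (e : L →ₐ[k] Ω) :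
    (kerIdeal (F := F) e).IsMaximal :=
  RingHom.ker_isMaximal_of_surjective _ (psiL_surjective e)

/-- `(L ⊗[k] F) ⧸ 𝔪_e ≃ F(e L)`. -/
noncomputable def quotEquiv [Algebra.IsAlgebraic k L] (e : L →ₐ[k] Ω) :
    ((L ⊗[k] F) ⧸ kerIdeal (F := F) e) ≃ₐ[F] genField (F := F) e :=
  Ideal.quotientKerAlgEquivOfSurjective (psiL_surjective e)

@[simp] theorem quotEquiv_mk [Algebra.IsAlgebraic k L] (e : L →ₐ[k] Ω) (b : L ⊗[k] F) :
    quotEquiv e (Ideal.Quotient.mk (kerIdeal (F := F) e) b) = psiL e b := rfl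

end General

section Compare

variable {k F Ω L : Type*} [Field k] [Field F] [Field Ω] [Field L] [Algebra k F] [Algebra F Ω]
  [Algebra k Ω] [IsScalarTower k F Ω] [Algebra k L] [Algebra.IsAlgebraic k L]

/-- Two embeddings with the same kernel ideal: the generated fields are `F`-isomorphic compatibly
with `ψ`. -/
theorem exists_algEquiv_of_kerIdeal_eq (e e' : L →ₐ[k] Ω)
    (h : kerIdeal (F := F) e = kerIdeal (F := F) e') :
    ∃ θ : genField (F := F) e ≃ₐ[F] genField (F := F) e',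
      ∀ b : L ⊗[k] F, θ (psiL e b) = psiL e' b := by
  refine ⟨(quotEquiv e).symm.trans ((Ideal.quotientEquivAlgOfEq F h).trans (quotEquiv e')), ?_⟩
  intro b
  have h1 : (quotEquiv e).symm (psiL e b) = Ideal.Quotient.mk _ b := by
    rw [AlgEquiv.symm_apply_eq]; rfl
  rw [AlgEquiv.trans_apply, h1, AlgEquiv.trans_apply]
  rfl

theorem psi_eq_of_algHom (e e' : L →ₐ[k] Ω) (τ : genField (F := F) e →ₐ[F] Ω)
    (h : ∀ l : L, τ ⟨e l, map_mem_genField e l⟩ = e' l) (b : L ⊗[k] F) :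
    psi e' b = τ (psiL e b) := by
  induction b using TensorProduct.induction_on with
  | zero => simp
  | tmul l c =>
    have : psiL (F := F) e (l ⊗ₜ c) = ⟨e l, map_mem_genField e l⟩ * algebraMap F _ c := by
      apply Subtype.ext
      rfl
    rw [this, map_mul, h, AlgHom.commutes, psi_tmul]
  | add x y hx hy => rw [map_add, map_add, map_add, hx, hy]

/-- If `e' = τ ∘ e` for an `F`-embedding `τ` of `F(e L)` then `𝔪_{e'} = 𝔪_e`. -/
theorem kerIdeal_eq_of_algHom (e e' : L →ₐ[k] Ω) (τ : genField (F := F) e →ₐ[F] Ω)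
    (h : ∀ l : L, τ ⟨e l, map_mem_genField e l⟩ = e' l) :
    kerIdeal (F := F) e' = kerIdeal (F := F) e := by
  ext b
  rw [mem_kerIdeal, mem_kerIdeal, psi_eq_of_algHom e e' τ h b]
  rw [map_eq_zero_iff τ τ.toRingHom.injective]
  constructor
  · intro hb
    have := congrArg (fun x : genField (F := F) e => (x : Ω)) hb
    simpa using this
  · intro hb
    apply Subtype.ext
    simpa using hb

theorem kerIdeal_eq_of_algHom' (e e' : L →ₐ[k] Ω) (τ : Ω →ₐ[F] Ω)
    (h : ∀ l : L, τ (e l) = e' l) :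
    kerIdeal (F := F) e' = kerIdeal (F := F) e :=
  kerIdeal_eq_of_algHom e e' (τ.comp (genField (F := F) e).val) (fun l => h l)

/-- `𝔪_{e'} = 𝔪_e` iff `e'` and `e` are conjugate under `Aut(Ω/F)` (`Ω/F` normal). -/
theorem kerIdeal_eq_iff [Normal F Ω] (e e' : L →ₐ[k] Ω) :
    kerIdeal (F := F) e' = kerIdeal (F := F) e ↔ ∃ τ : Ω ≃ₐ[F] Ω, ∀ l : L, τ (e l) = e' l := by
  constructor
  · intro h
    obtain ⟨θ, hθ⟩ := exists_algEquiv_of_kerIdeal_eq e e' h.symm
    refine ⟨θ.liftNormal Ω, fun l => ?_⟩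
    have h1 := AlgEquiv.liftNormal_commutes θ Ω (psiL e (l ⊗ₜ 1))
    rw [hθ] at h1
    simpa using h1
  · rintro ⟨τ, hτ⟩
    exact kerIdeal_eq_of_algHom' e e' τ.toAlgHom hτ

end Compare

section Action

variable {k F Ω L G : Type*} [Field k] [Field F] [Field Ω] [Field L] [Algebra k F] [Algebra F Ω]
  [Algebra k Ω] [IsScalarTower k F Ω] [Algebra k L] [Algebra.IsAlgebraic k L]
  [Group G] [MulSemiringAction G L] [SMulCommClass G k L]
  [MulSemiringAction G (L ⊗[k] F)]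
  (hact : ∀ (g : G) (l : L) (f : F), g • (l ⊗ₜ[k] f) = (g • l) ⊗ₜ[k] f)

/-- `e ∘ g`. -/
noncomputable def twist (e : L →ₐ[k] Ω) (g : G) : L →ₐ[k] Ω :=
  e.comp (MulSemiringAction.toAlgHom k L g)

@[simp] theorem twist_apply (e : L →ₐ[k] Ω) (g : G) (l : L) : twist e g l = e (g • l) := rfl

include hact in
theorem psi_smul (e : L →ₐ[k] Ω) (g : G) (b : L ⊗[k] F) :
    psi e (g • b) = psi (twist e g) b := by
  induction b using TensorProduct.induction_on with
  | zero => simp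
  | tmul l c => rw [hact, psi_tmul, psi_tmul, twist_apply]
  | add x y hx hy => rw [smul_add, map_add, map_add, hx, hy]

include hact in
theorem inv_smul_kerIdeal (e : L →ₐ[k] Ω) (g : G) :
    g⁻¹ • kerIdeal (F := F) e = kerIdeal (F := F) (twist e g) := by
  ext b
  rw [Ideal.mem_inv_pointwise_smul_iff, mem_kerIdeal, mem_kerIdeal, psi_smul hact]

include hact in
theorem mem_stabilizer_iff (e : L →ₐ[k] Ω) (g : G) :
    g ∈ MulAction.stabilizer G (kerIdeal (F := F) e) ↔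
      kerIdeal (F := F) (twist e g) = kerIdeal (F := F) e := by
  rw [← inv_smul_kerIdeal hact, ← MulAction.mem_stabilizer_iff, inv_mem_iff]

include hact in
/-- `g` stabilises `𝔪_e` iff `e ∘ g` is `Aut(Ω/F)`-conjugate to `e`. -/
theorem mem_stabilizer_iff_exists [Normal F Ω] (e : L →ₐ[k] Ω) (g : G) :
    g ∈ MulAction.stabilizer G (kerIdeal (F := F) e) ↔
      ∃ τ : Ω ≃ₐ[F] Ω, ∀ l : L, τ (e l) = e (g • l) := by
  rw [mem_stabilizer_iff hact, kerIdeal_eq_iff]
  rfl

end Action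

section Stab

variable {k F Ω L G : Type*} [Field k] [Field F] [Field Ω] [Field L] [Algebra k F] [Algebra F Ω]
  [Algebra k Ω] [IsScalarTower k F Ω] [Algebra k L] [Algebra.IsAlgebraic k L]
  [Group G] [MulSemiringAction G L] [SMulCommClass G k L]
  [MulSemiringAction G (L ⊗[k] F)]
  (hact : ∀ (g : G) (l : L) (f : F), g • (l ⊗ₜ[k] f) = (g • l) ⊗ₜ[k] f)

include hact in
theorem smul_smul_tensor (g : G) (c : F) (b : L ⊗[k] F) : g • (c • b) = c • (g • b) := by
  rw [Algebra.smul_def, Algebra.smul_def, smul_mul', Algebra.TensorProduct.right_algebraMap_apply,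
    hact, smul_one]

include hact in
theorem smulCommClass_stab (m : Ideal (L ⊗[k] F)) :
    SMulCommClass (MulAction.stabilizer G m) F ((L ⊗[k] F) ⧸ m) := by
  refine ⟨fun d c x => ?_⟩
  obtain ⟨b, rfl⟩ := Ideal.Quotient.mk_surjective x
  have h1 : c • (Ideal.Quotient.mk m b) = Ideal.Quotient.mk m (c • b) := rfl
  have h2 : c • (Ideal.Quotient.mk m (d.1 • b)) = Ideal.Quotient.mk m (c • (d.1 • b)) := rfl
  rw [h1, stabQuotAction_mk, stabQuotAction_mk, h2, smul_smul_tensor hact]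

/-- The stabiliser of `𝔪_e` acts on `F(e L)` by `F`-automorphisms. -/
noncomputable def stabToGal (e : L →ₐ[k] Ω) :
    MulAction.stabilizer G (kerIdeal (F := F) e) →*
      (genField (F := F) e ≃ₐ[F] genField (F := F) e) :=
  haveI := smulCommClass_stab hact (kerIdeal (F := F) e)
  (AlgEquiv.autCongr (quotEquiv e)).toMonoidHom.comp
    (MulSemiringAction.toAlgAut (MulAction.stabilizer G (kerIdeal (F := F) e)) F
      ((L ⊗[k] F) ⧸ kerIdeal (F := F) e))

/-- **Equivariance** of `(L ⊗[k] F) ⧸ 𝔪_e ≃ F(e L)`. -/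
theorem quotEquiv_smul (e : L →ₐ[k] Ω) (d : MulAction.stabilizer G (kerIdeal (F := F) e))
    (x : (L ⊗[k] F) ⧸ kerIdeal (F := F) e) :
    quotEquiv e (d • x) = stabToGal hact e d (quotEquiv e x) := by
  haveI := smulCommClass_stab hact (kerIdeal (F := F) e)
  have h : stabToGal hact e d (quotEquiv e x) =
      (quotEquiv e) ((MulSemiringAction.toAlgEquiv F ((L ⊗[k] F) ⧸ kerIdeal (F := F) e) d)
        ((quotEquiv e).symm (quotEquiv e x))) := rfl
  rw [h, AlgEquiv.symm_apply_apply]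
  rfl

theorem stabToGal_psiL (e : L →ₐ[k] Ω) (d : MulAction.stabilizer G (kerIdeal (F := F) e))
    (b : L ⊗[k] F) : stabToGal hact e d (psiL e b) = psiL e (d.1 • b) := by
  have h := quotEquiv_smul hact e d (Ideal.Quotient.mk _ b)
  rw [stabQuotAction_mk, quotEquiv_mk, quotEquiv_mk] at h
  exact h.symm

/-- the element `e l` of `F(e L)`. -/
noncomputable def toGen (e : L →ₐ[k] Ω) : L →ₐ[k] genField (F := F) e :=
  e.codRestrict ((genField (F := F) e).toSubalgebra.restrictScalars k) (map_mem_genField e)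

@[simp] theorem coe_toGen (e : L →ₐ[k] Ω) (l : L) : ((toGen (F := F) e l : genField (F := F) e) : Ω) = e l :=
  rfl

theorem psiL_tmul_one (e : L →ₐ[k] Ω) (l : L) : psiL (F := F) e (l ⊗ₜ 1) = toGen e l := by
  apply Subtype.ext
  simp

/-- `stabToGal d (e l) = e (d l)`. -/
theorem stabToGal_toGen (e : L →ₐ[k] Ω) (d : MulAction.stabilizer G (kerIdeal (F := F) e))
    (l : L) : stabToGal hact e d (toGen e l) = toGen e (d.1 • l) := by
  rw [← psiL_tmul_one, stabToGal_psiL, hact, psiL_tmul_one]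

theorem coe_stabToGal_toGen (e : L →ₐ[k] Ω) (d : MulAction.stabilizer G (kerIdeal (F := F) e))
    (l : L) : ((stabToGal hact e d (toGen e l) : genField (F := F) e) : Ω) = e (d.1 • l) := by
  rw [stabToGal_toGen]; rfl

/-- `stabToGal` is injective when `G` acts faithfully on `L`. -/
theorem stabToGal_injective [FaithfulSMul G L] (e : L →ₐ[k] Ω) :
    Function.Injective (stabToGal (F := F) hact e) := by
  rw [injective_iff_map_eq_one]
  intro d hd
  apply Subtype.ext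
  apply FaithfulSMul.eq_of_smul_eq_smul (α := L)
  intro l
  have h := coe_stabToGal_toGen hact e d l
  rw [hd] at h
  change d.1 • l = (1 : G) • l
  rw [one_smul]
  exact (e.toRingHom.injective h.symm)

end Stab

section Galois

variable {k F Ω L G : Type*} [Field k] [Field F] [Field Ω] [Field L] [Algebra k F] [Algebra F Ω]
  [Algebra k Ω] [IsScalarTower k F Ω] [Algebra k L] [Algebra.IsAlgebraic k L]
  [Group G] [MulSemiringAction G L] [SMulCommClass G k L]
  [MulSemiringAction G (L ⊗[k] F)]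
  (hact : ∀ (g : G) (l : L) (f : F), g • (l ⊗ₜ[k] f) = (g • l) ⊗ₜ[k] f)

theorem finrank_quot_eq (e : L →ₐ[k] Ω) :
    Module.finrank F ((L ⊗[k] F) ⧸ kerIdeal (F := F) e) = Module.finrank F (genField (F := F) e) :=
  (quotEquiv e).toLinearEquiv.finrank_eq

/-- For `L/k` Galois with group `G`: the stabiliser of `𝔪_e` IS `Gal(F(e L)/F)`. -/
theorem stabToGal_bijective [Finite G] [IsGaloisGroup G k L] (e : L →ₐ[k] Ω) :
    Function.Bijective (stabToGal (F := F) hact e) := by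
  haveI : FaithfulSMul G L := IsGaloisGroup.faithful k
  have hcard := Fermat.Agent.S55.Global.SemilocalTensor.card_stab hact (kerIdeal (F := F) e)
  rw [finrank_quot_eq] at hcard
  have hpos : 0 < Module.finrank F (genField (F := F) e) := by
    rw [← hcard]; exact Nat.card_pos
  haveI : FiniteDimensional F (genField (F := F) e) := Module.finite_of_finrank_pos hpos
  apply (stabToGal_injective hact e).bijective_of_nat_card_le
  rw [hcard, Nat.card_eq_fintype_card]
  exact AlgEquiv.card_le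

/-- `Stab(𝔪_e) ≃* Gal(F(e L)/F)`. -/
noncomputable def stabEquiv [Finite G] [IsGaloisGroup G k L] (e : L →ₐ[k] Ω) :
    MulAction.stabilizer G (kerIdeal (F := F) e) ≃*
      (genField (F := F) e ≃ₐ[F] genField (F := F) e) :=
  MulEquiv.ofBijective (stabToGal (F := F) hact e) (stabToGal_bijective hact e)

@[simp] theorem stabEquiv_apply [Finite G] [IsGaloisGroup G k L] (e : L →ₐ[k] Ω)
    (d : MulAction.stabilizer G (kerIdeal (F := F) e)) :
    stabEquiv hact e d = stabToGal hact e d := rfl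

include hact in
/-- For `L/k` Galois with group `G`, the maximal ideals of `L ⊗[k] F` are the `𝔪_{e ∘ g}`. -/
theorem exists_twist_eq [Finite G] [IsGaloisGroup G k L] (e : L →ₐ[k] Ω)
    (m : Ideal (L ⊗[k] F)) [m.IsMaximal] : ∃ g : G, kerIdeal (F := F) (twist e g) = m := by
  obtain ⟨g, hg⟩ := Fermat.Agent.S55.Global.SemilocalTensor.exists_smul_eq hact
    (kerIdeal (F := F) e) m
  refine ⟨g⁻¹, ?_⟩
  rw [← inv_smul_kerIdeal hact, inv_inv, hg]

end Galois

section AllMaximal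

variable {k F Ω L : Type*} [Field k] [Field F] [Field Ω] [Field L] [Algebra k F] [Algebra F Ω]
  [Algebra k Ω] [IsScalarTower k F Ω] [Algebra k L] [Algebra.IsAlgebraic k L]

theorem isIntegral_tensor (b : L ⊗[k] F) : IsIntegral F b := by
  induction b using TensorProduct.induction_on with
  | zero => exact isIntegral_zero
  | tmul l c =>
    have h1 : (l ⊗ₜ[k] c : L ⊗[k] F) = (l ⊗ₜ[k] (1 : F)) * algebraMap F (L ⊗[k] F) c := by
      rw [Algebra.TensorProduct.right_algebraMap_apply, Algebra.TensorProduct.tmul_mul_tmul,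
        mul_one, one_mul]
    rw [h1]
    refine IsIntegral.mul ?_ isIntegral_algebraMap
    have h2 : IsIntegral k (l ⊗ₜ[k] (1 : F) : L ⊗[k] F) :=
      (Algebra.IsIntegral.isIntegral (R := k) l).map
        (Algebra.TensorProduct.includeLeft : L →ₐ[k] L ⊗[k] F)
    exact h2.tower_top
  | add x y hx hy => exact hx.add hy

/-- Every maximal ideal of `L ⊗[k] F` is `𝔪_e` for some `k`-embedding `e : L → Ω`
(`Ω` algebraically closed). -/
theorem exists_kerIdeal_eq [IsAlgClosed Ω] (m : Ideal (L ⊗[k] F)) [hm : m.IsMaximal] :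
    ∃ e : L →ₐ[k] Ω, kerIdeal (F := F) e = m := by
  letI := Ideal.Quotient.field m
  haveI : Algebra.IsAlgebraic F ((L ⊗[k] F) ⧸ m) := by
    refine ⟨fun x => ?_⟩
    obtain ⟨b, rfl⟩ := Ideal.Quotient.mk_surjective x
    exact ((isIntegral_tensor b).map (Ideal.Quotient.mkₐ F m)).isAlgebraic
  haveI : Module.IsTorsionFree F ((L ⊗[k] F) ⧸ m) := DivisionSemiring.to_moduleIsTorsionFree
  let j : ((L ⊗[k] F) ⧸ m) →ₐ[F] Ω := IsAlgClosed.lift
  have hjc : ∀ c : F, j (Ideal.Quotient.mk m ((1 : L) ⊗ₜ[k] c)) = algebraMap F Ω c := fun c =>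
    j.commutes c
  let e : L →ₐ[k] Ω :=
    { toRingHom := j.toRingHom.comp ((Ideal.Quotient.mk m).comp
        (Algebra.TensorProduct.includeLeft : L →ₐ[k] L ⊗[k] F).toRingHom)
      commutes' := fun r => by
        change j (Ideal.Quotient.mk m ((algebraMap k L r) ⊗ₜ[k] (1 : F))) = _
        rw [Algebra.algebraMap_eq_smul_one, TensorProduct.smul_tmul, hjc,
          ← Algebra.algebraMap_eq_smul_one, ← IsScalarTower.algebraMap_apply] }
  have he : ∀ l : L, e l = j (Ideal.Quotient.mk m (l ⊗ₜ[k] (1 : F))) := fun l => rfl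
  have hpsi : ∀ b : L ⊗[k] F, psi e b = j (Ideal.Quotient.mk m b) := by
    intro b
    induction b using TensorProduct.induction_on with
    | zero => simp
    | tmul l c =>
      rw [psi_tmul, he, ← hjc, ← map_mul, ← map_mul, Algebra.TensorProduct.tmul_mul_tmul,
        mul_one, one_mul]
    | add x y hx hy => rw [map_add, map_add, map_add, hx, hy]
  refine ⟨e, ?_⟩
  ext b
  rw [mem_kerIdeal, hpsi, map_eq_zero_iff j j.toRingHom.injective, Ideal.Quotient.eq_zero_iff_mem]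

end AllMaximal

section Padic

variable {q : ℕ} [Fact q.Prime]
variable {L : Type} [Field L] [NumberField L]

local instance towerQqPadic_sc : IsScalarTower ℚ ℚ_[q] (PadicAlgCl q) :=
  IsScalarTower.of_algebraMap_eq' (Subsingleton.elim _ _)

/-- the action of `Aut(L/ℚ)` on `L ⊗[ℚ] ℚ_[q]` is through the left factor. -/
theorem hactQ (g : L ≃ₐ[ℚ] L) (l : L) (c : ℚ_[q]) :
    g • (l ⊗ₜ[ℚ] c : L ⊗[ℚ] ℚ_[q]) = (g • l) ⊗ₜ[ℚ] c := rfl

/-- The maximal ideal `𝔪_e` of `L ⊗[ℚ] ℚ_[q]` attached to an embedding `e : L → ℚ̄_q`. -/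
noncomputable def idealQ (e : L →+* PadicAlgCl q) : Ideal (L ⊗[ℚ] ℚ_[q]) :=
  kerIdeal (F := ℚ_[q]) e.toRatAlgHom

instance idealQ_isMaximal (e : L →+* PadicAlgCl q) : (idealQ e).IsMaximal :=
  kerIdeal_isMaximal _

theorem genField_eq_localFieldOf (e : L →+* PadicAlgCl q) :
    genField (F := ℚ_[q]) e.toRatAlgHom = localFieldOf e := rfl

/-- `ψ_e : L ⊗[ℚ] ℚ_[q] → ℚ_q(e L)`, `l ⊗ c ↦ e l * c`. -/
noncomputable def psiQ (e : L →+* PadicAlgCl q) : L ⊗[ℚ] ℚ_[q] →ₐ[ℚ_[q]] localFieldOf e :=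
  psiL (F := ℚ_[q]) e.toRatAlgHom

@[simp] theorem coe_psiQ_tmul (e : L →+* PadicAlgCl q) (l : L) (c : ℚ_[q]) :
    ((psiQ e (l ⊗ₜ c) : localFieldOf e) : PadicAlgCl q) = e l * algebraMap ℚ_[q] (PadicAlgCl q) c :=
  rfl

theorem psiQ_surjective (e : L →+* PadicAlgCl q) : Function.Surjective (psiQ e) :=
  psiL_surjective _

theorem mem_idealQ (e : L →+* PadicAlgCl q) (b : L ⊗[ℚ] ℚ_[q]) :
    b ∈ idealQ e ↔ psiQ e b = 0 := by
  rw [idealQ, kerIdeal, RingHom.mem_ker]; rfl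

/-- `(L ⊗[ℚ] ℚ_[q]) ⧸ 𝔪_e ≃ ℚ_q(e L)`. -/
noncomputable def quotEquivQ (e : L →+* PadicAlgCl q) :
    ((L ⊗[ℚ] ℚ_[q]) ⧸ idealQ e) ≃ₐ[ℚ_[q]] localFieldOf e :=
  quotEquiv (F := ℚ_[q]) e.toRatAlgHom

@[simp] theorem quotEquivQ_mk (e : L →+* PadicAlgCl q) (b : L ⊗[ℚ] ℚ_[q]) :
    quotEquivQ e (Ideal.Quotient.mk (idealQ e) b) = psiQ e b := rfl

/-- `σ` stabilises `𝔪_e` iff `e ∘ σ` is `Gal(ℚ̄_q/ℚ_q)`-conjugate to `e`. -/
theorem mem_stabilizer_idealQ_iff (e : L →+* PadicAlgCl q) (σ : L ≃ₐ[ℚ] L) :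
    σ ∈ MulAction.stabilizer (L ≃ₐ[ℚ] L) (idealQ e) ↔
      ∃ τ : PadicAlgCl q ≃ₐ[ℚ_[q]] PadicAlgCl q, ∀ l : L, τ (e l) = e (σ l) :=
  mem_stabilizer_iff_exists (F := ℚ_[q]) hactQ e.toRatAlgHom σ

/-- `σ` stabilises `𝔪_e` iff `σ` fixes the prime `place e` of `𝓞 L` cut out by `e`. -/
theorem mem_stabilizer_idealQ_iff_place (e : L →+* PadicAlgCl q) (σ : L ≃ₐ[ℚ] L) :
    σ ∈ MulAction.stabilizer (L ≃ₐ[ℚ] L) (idealQ e) ↔
      place (e.comp (σ : L →+* L)) = place e := by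
  rw [mem_stabilizer_idealQ_iff, eq_comm, place_eq_iff]
  rfl

/-- The stabiliser of `𝔪_e` acts on `ℚ_q(e L)`. -/
noncomputable def stabToGalQ (e : L →+* PadicAlgCl q) :
    MulAction.stabilizer (L ≃ₐ[ℚ] L) (idealQ e) →* (localFieldOf e ≃ₐ[ℚ_[q]] localFieldOf e) :=
  stabToGal (F := ℚ_[q]) hactQ e.toRatAlgHom

theorem quotEquivQ_smul (e : L →+* PadicAlgCl q)
    (d : MulAction.stabilizer (L ≃ₐ[ℚ] L) (idealQ e)) (x : (L ⊗[ℚ] ℚ_[q]) ⧸ idealQ e) :
    quotEquivQ e (d • x) = stabToGalQ e d (quotEquivQ e x) :=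
  quotEquiv_smul (F := ℚ_[q]) hactQ e.toRatAlgHom d x

/-- `stabToGalQ d (e l) = e (d l)`. -/
theorem stabToGalQ_toLocalField (e : L →+* PadicAlgCl q)
    (d : MulAction.stabilizer (L ≃ₐ[ℚ] L) (idealQ e)) (l : L) :
    stabToGalQ e d (toLocalField e l) = toLocalField e (d.1 l) :=
  stabToGal_toGen (F := ℚ_[q]) hactQ e.toRatAlgHom d l

theorem stabToGalQ_injective (e : L →+* PadicAlgCl q) : Function.Injective (stabToGalQ e) :=
  stabToGal_injective (F := ℚ_[q]) hactQ e.toRatAlgHom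

theorem stabToGalQ_bijective [IsGalois ℚ L] (e : L →+* PadicAlgCl q) :
    Function.Bijective (stabToGalQ e) :=
  stabToGal_bijective (F := ℚ_[q]) hactQ e.toRatAlgHom

/-- every maximal ideal of `L ⊗[ℚ] ℚ_[q]` is an `𝔪_e`. -/
theorem exists_idealQ_eq (m : Ideal (L ⊗[ℚ] ℚ_[q])) [m.IsMaximal] :
    ∃ e : L →+* PadicAlgCl q, idealQ e = m := by
  obtain ⟨e, he⟩ := exists_kerIdeal_eq (k := ℚ) (F := ℚ_[q]) (Ω := PadicAlgCl q) m
  refine ⟨e.toRingHom, ?_⟩
  rw [← he]
  rfl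

end Padic

section PadicL

variable {q : ℕ} [Fact q.Prime]
variable {L : Type} [Field L] [NumberField L]

local instance towerQqPadic_sc2 : IsScalarTower ℚ ℚ_[q] (PadicAlgCl q) :=
  IsScalarTower.of_algebraMap_eq' (Subsingleton.elim _ _)

/-- `ℚ_q(e L)` as an `L`-algebra through `e`. -/
@[reducible] noncomputable def algebraLocalFieldOf (e : L →+* PadicAlgCl q) :
    Algebra L (localFieldOf e) := (toLocalField e).toAlgebra

theorem psiQ_tmul_one (e : L →+* PadicAlgCl q) (l : L) :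
    psiQ e (l ⊗ₜ (1 : ℚ_[q])) = toLocalField e l := by
  apply Subtype.ext
  simp

theorem quotEquivQ_algebraMap (e : L →+* PadicAlgCl q) (l : L) :
    quotEquivQ e (algebraMap L ((L ⊗[ℚ] ℚ_[q]) ⧸ idealQ e) l) = toLocalField e l := by
  change quotEquivQ e (Ideal.Quotient.mk (idealQ e) (l ⊗ₜ (1 : ℚ_[q]))) = _
  rw [quotEquivQ_mk, psiQ_tmul_one]

/-- `(L ⊗[ℚ] ℚ_[q]) ⧸ 𝔪_e ≃ ℚ_q(e L)` as `L`-algebras (`L` acts on the left factor, resp. via `e`). -/
noncomputable def quotEquivL (e : L →+* PadicAlgCl q) :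
    letI := algebraLocalFieldOf e
    ((L ⊗[ℚ] ℚ_[q]) ⧸ idealQ e) ≃ₐ[L] localFieldOf e :=
  letI := algebraLocalFieldOf e
  { (quotEquivQ e).toRingEquiv with
    commutes' := fun l => quotEquivQ_algebraMap e l }

@[simp] theorem quotEquivL_apply (e : L →+* PadicAlgCl q) (x : (L ⊗[ℚ] ℚ_[q]) ⧸ idealQ e) :
    letI := algebraLocalFieldOf e
    quotEquivL e x = quotEquivQ e x := rfl

/-- The residue field of `L ⊗[ℚ] ℚ_[q]` at `𝔪_e` is, as an `L`-algebra, Mathlib's completion of `L`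
at the prime `place e`. -/
noncomputable def quotEquivAdic (e : L →+* PadicAlgCl q) :
    ((L ⊗[ℚ] ℚ_[q]) ⧸ idealQ e) ≃ₐ[L] (place e).adicCompletion L :=
  { (quotEquivQ e).toRingEquiv.trans (adicCompletionRingEquiv e).symm with
    commutes' := fun l => by
      change (adicCompletionRingEquiv e).symm (quotEquivQ e (algebraMap L _ l)) = _
      rw [quotEquivQ_algebraMap, RingEquiv.symm_apply_eq, adicCompletionRingEquiv_algebraMap] }

theorem quotEquivAdic_apply (e : L →+* PadicAlgCl q) (x : (L ⊗[ℚ] ℚ_[q]) ⧸ idealQ e) :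
    adicCompletionRingEquiv e (quotEquivAdic e x) = quotEquivQ e x := by
  change adicCompletionRingEquiv e ((adicCompletionRingEquiv e).symm (quotEquivQ e x)) = _
  rw [RingEquiv.apply_symm_apply]

/-- **Every prime of `𝓞 L` above `q` is the place of a residue field of `L ⊗[ℚ] ℚ_[q]`**: there is
a maximal ideal `m` with `(L ⊗[ℚ] ℚ_[q]) ⧸ m ≃ₐ[L] v.adicCompletion L`. -/
theorem exists_quot_algEquiv_adicCompletion (v : HeightOneSpectrum (𝓞 L))
    (hv : ((q : ℕ) : 𝓞 L) ∈ v.asIdeal) :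
    ∃ (m : Ideal (L ⊗[ℚ] ℚ_[q])) (_ : m.IsMaximal),
      Nonempty (((L ⊗[ℚ] ℚ_[q]) ⧸ m) ≃ₐ[L] v.adicCompletion L) := by
  let i : L →+* AlgebraicClosure ℚ := (IsAlgClosed.lift : L →ₐ[ℚ] AlgebraicClosure ℚ).toRingHom
  obtain ⟨g, hg⟩ := exists_place_eq (q := q) i v hv
  subst hg
  exact ⟨_, idealQ_isMaximal _, ⟨quotEquivAdic _⟩⟩

/-- Conversely every maximal ideal `m` of `L ⊗[ℚ] ℚ_[q]` has a prime `v ∣ q` of `𝓞 L` with
`(L ⊗[ℚ] ℚ_[q]) ⧸ m ≃ₐ[L] v.adicCompletion L`. -/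
theorem exists_adicCompletion_algEquiv_quot (m : Ideal (L ⊗[ℚ] ℚ_[q])) [m.IsMaximal] :
    ∃ (v : HeightOneSpectrum (𝓞 L)) (_ : ((q : ℕ) : 𝓞 L) ∈ v.asIdeal),
      Nonempty (((L ⊗[ℚ] ℚ_[q]) ⧸ m) ≃ₐ[L] v.adicCompletion L) := by
  obtain ⟨e, rfl⟩ := exists_idealQ_eq m
  exact ⟨place e, natCast_q_mem_placeIdeal e, ⟨quotEquivAdic e⟩⟩

end PadicL

end Fermat.Agent.S55.Middle.SemilocalCompare
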