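import Mathlib

/-!
# S55 / Middle: an abstract "descent of triviality" lemma for `H²`

`ι : A ⟶ J` and `ψ : E ⟶ J` injective morphisms of `G`-modules with `ψ(E) ⊆ ι(A)`
(think `A = Lˣ`, `J = (L ⊗ ℚ_T)ˣ`, `E = E_{L,T}` the `T`-units).  If a 2-cocycle `f` of `A` has all its
values in `ψ(E)` (after `ι`), if `H²(ψ)` kills no nonzero class, and if the class of `f` dies in
`H²(J)`, then the class of `f` is already zero in `H²(A)`.

Mathlib only.
-/

set_option autoImplicit false

open CategoryTheory groupCohomology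

namespace Fermat.Agent.S55.Middle.HbnLift

universe u

variable {k G : Type u} [CommRing k] [Group G] {A J E : Rep k G}

/-- A 2-cocycle of `J` all of whose values lie in the image of an injective morphism `ψ : E ⟶ J`
lifts to a 2-cocycle of `E`. -/
theorem exists_cocycle_lift (ψ : E ⟶ J) (hψ : Function.Injective ψ.hom) (f : cocycles₂ J)
    (hf : ∀ g h : G, ∃ e : E, ψ.hom e = f (g, h)) :
    ∃ f' : cocycles₂ E, ∀ g h : G, ψ.hom (f' (g, h)) = f (g, h) := by
  choose e he using hf
  have hmem : (fun p : G × G => e p.1 p.2) ∈ cocycles₂ E := by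
    rw [mem_cocycles₂_iff]
    intro g h j
    apply hψ
    have hc := (mem_cocycles₂_iff (A := J) f).1 f.2 g h j
    simp only [map_add, Rep.hom_comm_apply, he]
    exact hc
  exact ⟨⟨_, hmem⟩, fun g h => he g h⟩

/-- A 1-cochain of `J` with values in the image of an injective `ι : A ⟶ J`, whose coboundary is
`ι ∘ f`, shows that `f` is a coboundary. -/
theorem mem_coboundaries₂_of_comp (ι : A ⟶ J) (hι : Function.Injective ι.hom)
    (f : G × G → A) (c : G → J) (hc : ∀ g, ∃ a : A, ι.hom a = c g)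
    (hd : ∀ g h : G, J.ρ g (c h) - c (g * h) + c g = ι.hom (f (g, h))) :
    f ∈ coboundaries₂ A := by
  choose a ha using hc
  refine ⟨a, ?_⟩
  funext p
  obtain ⟨g, h⟩ := p
  apply hι
  rw [← hd g h]
  simp only [d₁₂_hom_apply, map_add, map_sub, Rep.hom_comm_apply, ha]

/-- **Descent of triviality.** -/
theorem H2π_eq_zero_of_factor (ι : A ⟶ J) (ψ : E ⟶ J)
    (hι : Function.Injective ι.hom) (hψ : Function.Injective ψ.hom)
    (hEA : ∀ e : E, ∃ a : A, ι.hom a = ψ.hom e)
    (hinj : ∀ y : groupCohomology E 2,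
      (groupCohomology.map (MonoidHom.id G) ψ 2).hom y = 0 → y = 0)
    (f : cocycles₂ A) (hf : ∀ g h : G, ∃ e : E, ψ.hom e = ι.hom (f (g, h)))
    (h0 : (groupCohomology.map (MonoidHom.id G) ι 2).hom (H2π A f) = 0) :
    H2π A f = 0 := by
  -- the image cocycle in `J`
  set fJ : cocycles₂ J := mapCocycles₂ (MonoidHom.id G) ι f with hfJ
  have hfJ_apply : ∀ g h : G, fJ (g, h) = ι.hom (f (g, h)) := fun g h => rfl
  obtain ⟨f', hf'⟩ := exists_cocycle_lift ψ hψ fJ (fun g h => by
    obtain ⟨e, he⟩ := hf g h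
    exact ⟨e, he.trans (hfJ_apply g h).symm⟩)
  -- `H²(ψ) [f'] = [fJ] = H²(ι) [f] = 0`
  have h1 : (groupCohomology.map (MonoidHom.id G) ψ 2).hom (H2π E f') = H2π J fJ := by
    have := H2π_comp_map_apply (MonoidHom.id G) ψ f'
    rw [this]
    congr 1
    ext g h
    exact hf' g h
  have h2 : (groupCohomology.map (MonoidHom.id G) ι 2).hom (H2π A f) = H2π J fJ :=
    H2π_comp_map_apply (MonoidHom.id G) ι f
  have h3 : H2π E f' = 0 := hinj _ (by rw [h1, ← h2, h0])
  rw [H2π_eq_zero_iff] at h3 ⊢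
  obtain ⟨c', hc'⟩ := h3
  refine mem_coboundaries₂_of_comp ι hι f (fun g => ψ.hom (c' g)) (fun g => hEA (c' g)) ?_
  intro g h
  have := congrFun hc' (g, h)
  rw [← hfJ_apply, ← hf' g h]
  have h4 : (f' : G × G → E) (g, h) = E.ρ g (c' h) - c' (g * h) + c' g := by
    rw [← this]
    simp [d₁₂_hom_apply]
  show J.ρ g (ψ.hom (c' h)) - ψ.hom (c' (g * h)) + ψ.hom (c' g) = ψ.hom (f' (g, h))
  rw [h4]
  simp only [map_add, map_sub, Rep.hom_comm_apply]

end Fermat.Agent.S55.Middle.HbnLift
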