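import Fermat.Agent.S55.Middle.HbnInjQ
import Fermat.Agent.S55.Middle.HbnLift

/-!
# S55 / Middle, row `M.hbnInj`: the Hasse principle `Blocks3.HasseH2 p` from `(G-i)`

`HasseH2 p`: `K ∋ ζ_p`, `L/K` Galois of `p`-power degree; a class `x ∈ H²(Gal(L/K), Lˣ)` which is
locally trivial at every place `(q, 𝔪)` of `K` is trivial.

Proof.  A 2-cocycle `f` representing `x` has finitely many values, so all of them (and their
`Aut(L/ℚ)`-conjugates) are `T`-units for `T ⊇ T₀(f)` (`exists_finset_forall_mem_EUnitsQ`).  Take `T`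
admissible (`AdmissibleQExists`, row `G.admissible`, v3).  By row `G.localProd` (`LocalProdZero`) the
image of `x` in `H²(G, Jn K L T)` is `0`; by `(G-i)` the map `H²(G, En) → H²(G, Jn)` is injective
(`HbnInjQ.hbnInj_En`); the abstract descent lemma `HbnLift.H2π_eq_zero_of_factor` concludes.

The two inputs owned by other rows are hypotheses here, as closed Props:
* `LocalProdZero`      (row `G.localProd`, helper1),
* `AdmissibleQExists`  (row `G.admissible`, interface v3, helper56).
-/

set_option autoImplicit false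

open CategoryTheory CategoryTheory.Limits groupCohomology NumberField IsDedekindDomain TensorProduct

namespace Fermat.Agent.S55.Middle.HasseH2

open Fermat.Agent.S55.Global.Objects Fermat.Agent.S55.Global.Objects2
open Fermat.Agent.S55.Global.Blocks2 Fermat.Agent.S55.Global.Blocks3
open Fermat.Agent.S55.Middle

section places

variable (L : Type) [Field L] [NumberField L]

/-- A natural number `n ≠ 0` lying in a prime ideal has a prime factor lying in it. -/
theorem exists_prime_dvd_mem {R : Type*} [CommRing R] (P : Ideal R) [P.IsPrime] (n : ℕ)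
    (hn : n ≠ 0) (hmem : (n : R) ∈ P) : ∃ q : ℕ, q.Prime ∧ q ∣ n ∧ (q : R) ∈ P := by
  induction n using Nat.recOnMul with
  | zero => exact absurd rfl hn
  | one =>
    exfalso
    apply Ideal.IsPrime.ne_top ‹P.IsPrime›
    rw [Ideal.eq_top_iff_one]
    simpa using hmem
  | prime q hq => exact ⟨q, hq, dvd_rfl, hmem⟩
  | mul a b iha ihb =>
    have ha : a ≠ 0 := fun h => hn (by rw [h, zero_mul])
    have hb : b ≠ 0 := fun h => hn (by rw [h, mul_zero])
    rw [Nat.cast_mul] at hmem
    rcases Ideal.IsPrime.mem_or_mem ‹P.IsPrime› hmem with h | h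
    · obtain ⟨q, hq, hqa, hqm⟩ := iha ha h
      exact ⟨q, hq, hqa.mul_right b, hqm⟩
    · obtain ⟨q, hq, hqb, hqm⟩ := ihb hb h
      exact ⟨q, hq, hqb.mul_left a, hqm⟩

/-- Every finite place of a number field lies above a rational prime. -/
theorem exists_prime_mem_place (w : Place L) : ∃ q : Nat.Primes, (((q : Nat.Primes) : ℕ) : 𝓞 L) ∈ w.asIdeal := by
  haveI : w.asIdeal.IsPrime := w.isPrime
  have h0 : Ideal.absNorm w.asIdeal ≠ 0 := by
    rw [Ne, Ideal.absNorm_eq_zero_iff]
    exact w.ne_bot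
  obtain ⟨q, hq, -, hqm⟩ := exists_prime_dvd_mem w.asIdeal _ h0 (Ideal.absNorm_mem w.asIdeal)
  exact ⟨⟨q, hq⟩, hqm⟩

/-- The places at which `u ∈ Lˣ` is not a unit form a finite set. -/
theorem finite_valuation_ne_one (u : Lˣ) : {w : Place L | w.valuation L (u : L) ≠ 1}.Finite := by
  have h1 := HeightOneSpectrum.Support.finite (𝓞 L) (u : L)
  have h2 := HeightOneSpectrum.Support.finite (𝓞 L) ((u⁻¹ : Lˣ) : L)
  apply (h1.union h2).subset
  intro w hw
  rcases lt_or_gt_of_ne hw with h | h
  · right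
    show 1 < w.valuation L ((u⁻¹ : Lˣ) : L)
    rw [Units.val_inv_eq_inv_val, map_inv₀]
    exact (one_lt_inv₀ (by simp [zero_lt_iff])).2 h
  · left
    exact h

/-- Every `u ∈ Lˣ` is a `T`-unit (in the sense of `Set.unit (placesAboveQ L T) L`) as soon as `T`
contains a suitable finite set of rational primes. -/
theorem exists_finset_mem_unit (u : Lˣ) :
    ∃ T₀ : Finset Nat.Primes, ∀ T : Finset Nat.Primes, T₀ ⊆ T →
      u ∈ Set.unit (placesAboveQ L T) L := by
  classical
  choose q hq using exists_prime_mem_place L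
  refine ⟨(finite_valuation_ne_one L u).toFinset.image q, fun T hT w hw => ?_⟩
  by_contra hne
  apply hw
  refine ⟨q w, hT ?_, hq w⟩
  rw [Finset.mem_image]
  exact ⟨w, (Set.Finite.mem_toFinset _).2 hne, rfl⟩

/-- Finitely many elements of `Lˣ` are simultaneously in `EUnitsQ L T` for all `T` containing a
suitable finite set of rational primes. -/
theorem exists_finset_forall_mem_EUnitsQ {ι : Type*} [Finite ι] (f : ι → Lˣ) :
    ∃ T₀ : Finset Nat.Primes, ∀ T : Finset Nat.Primes, T₀ ⊆ T → ∀ i, f i ∈ EUnitsQ L T := by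
  classical
  haveI := Fintype.ofFinite ι
  choose T₀ hT₀ using fun (x : ι × (L ≃ₐ[ℚ] L)) => exists_finset_mem_unit L (x.2 • f x.1)
  refine ⟨Finset.univ.biUnion T₀, fun T hT i => ?_⟩
  rw [mem_EUnitsQ]
  intro σ
  exact hT₀ (i, σ) T ((Finset.subset_biUnion_of_mem T₀ (Finset.mem_univ (i, σ))).trans hT)

end places

section maps

variable (K : Type) [Field K] [NumberField K]
variable (L : Type) [Field L] [NumberField L] [Algebra K L]
variable (T : Finset Nat.Primes)

/-- `Lˣ ⟶ Jn K L T`, `x ↦ x ⊗ 1`, as a morphism of `Gal(L/K)`-modules. -/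
noncomputable def LxToJn : Rep.ofAlgebraAutOnUnits K L ⟶ Jn K L T :=
  Rep.ofHom
    { toLinearMap := (MonoidHom.toAdditive (inclUnits ℚ L (QT T))).toIntLinearMap
      isIntertwining' := fun σ => by
        ext a
        rfl }

theorem LxToJn_apply (a : Rep.ofAlgebraAutOnUnits K L) :
    (LxToJn K L T).hom a = Additive.ofMul (inclUnits ℚ L (QT T) (Additive.toMul a)) := rfl

variable {T} in
theorem nontrivial_QT (hT : T.Nonempty) : Nontrivial (QT T) := by
  obtain ⟨q, hq⟩ := hT
  exact Pi.nontrivial_at (⟨q, hq⟩ : T)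

variable {T} in
theorem inclUnitsQ_injective (hT : T.Nonempty) : Function.Injective (inclUnits ℚ L (QT T)) := by
  haveI := nontrivial_QT hT
  intro x y h
  have h1 : ((x : L) ⊗ₜ[ℚ] (1 : QT T) : L ⊗[ℚ] QT T) = (y : L) ⊗ₜ[ℚ] (1 : QT T) :=
    congrArg (fun u : (L ⊗[ℚ] QT T)ˣ => (u : L ⊗[ℚ] QT T)) h
  have hinj : Function.Injective (Algebra.TensorProduct.includeLeft : L →ₐ[ℚ] L ⊗[ℚ] QT T) :=
    Algebra.TensorProduct.includeLeft_injective (algebraMap ℚ (QT T)).injective
  exact Units.ext (hinj h1)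

variable {T} in
theorem LxToJn_injective (hT : T.Nonempty) : Function.Injective (LxToJn K L T).hom := by
  intro a b h
  exact inclUnitsQ_injective L hT h

end maps

/-- **Row `G.localProd`** (helper1), in the form used here: a class of `H²(Gal(L/K), Lˣ)` which is
trivial at every place `(q, 𝔪)` of `K` has trivial image in `H²(Gal(L/K), (L ⊗[ℚ] ℚ_T)ˣ)`. -/
def LocalProdZero : Prop :=
  ∀ (K L : Type) [Field K] [NumberField K] [Field L] [NumberField L] [Algebra K L] [IsGalois K L]
    (T : Finset Nat.Primes) (x : groupCohomology (Rep.ofAlgebraAutOnUnits K L) 2),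
    (∀ (q : Nat.Primes) (𝔪 : Ideal (Ksemi K q)), 𝔪.IsMaximal →
      locH K L (Kloc K q 𝔪) 2 x = 0) →
    (groupCohomology.map (MonoidHom.id (L ≃ₐ[K] L)) (LxToJn K L T) 2).hom x = 0

/-- **Row `G.admissible`, interface v3** (helper56): every finite set of rational primes is
contained in an admissible one. -/
def AdmissibleQExists : Prop :=
  ∀ (K L : Type) [Field K] [NumberField K] [Field L] [NumberField L] [Algebra K L] (p : ℕ),
    p.Prime → ∀ T₀ : Finset Nat.Primes, ∃ T : Finset Nat.Primes, T₀ ⊆ T ∧ AdmissibleQ K L p T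

/-- **(HBN-inj) = `Blocks3.HasseH2 p`** from `(G-i)`, `G.localProd` and `G.admissible`. -/
theorem hasseH2_of_H1Vanish {p : ℕ} (h1 : H1Vanish p) (hLP : LocalProdZero)
    (hAdm : AdmissibleQExists) : HasseH2 p := by
  intro K L _ _ _ _ _ _ hp hp2 hζ hpow x hloc
  induction x using H2_induction_on with
  | h f =>
    haveI : Finite (L ≃ₐ[K] L) := inferInstance
    -- all values of `f` are `T`-units for `T ⊇ T₀`
    obtain ⟨T₀, hT₀⟩ := exists_finset_forall_mem_EUnitsQ L
      (fun gh : (L ≃ₐ[K] L) × (L ≃ₐ[K] L) => (Additive.toMul (f gh) : Lˣ))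
    obtain ⟨T, hT₀T, hadm⟩ := hAdm K L p hp T₀
    have hS : Setting p K L T := ⟨hp, hp2, hζ, inferInstance, hpow, hadm⟩
    have hTne : T.Nonempty := by
      obtain ⟨q, hq, -⟩ := hadm.mem_p
      exact ⟨q, hq⟩
    refine HbnLift.H2π_eq_zero_of_factor (LxToJn K L T) (HbnInjQ.EntoJn K L T)
      (LxToJn_injective K L hTne) ?_ ?_ (fun y hy => HbnInjQ.hbnInj_En h1 hS y hy) f ?_
      (hLP K L T _ hloc)
    · -- `En → Jn` is injective
      intro a b h
      exact Subtype.ext h
    · -- `E ⊆ Lˣ` inside `J`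
      intro e
      obtain ⟨u, -, hu⟩ := e.2
      exact ⟨Additive.ofMul u, congrArg Additive.ofMul hu⟩
    · -- the values of `f` are in `E`
      intro g h
      exact ⟨⟨_, ⟨_, hT₀ T hT₀T (g, h), rfl⟩⟩, rfl⟩

end Fermat.Agent.S55.Middle.HasseH2
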