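/-
S55 / MIDDLE block, row M.hbnH3 (helper21): the ABSTRACT CORE of (HBN-H3).

`(HBN-H3)`: for `L/K` Galois of degree `p^m`, `K_m/K` the cyclotomic layer of degree `p^m` and
`M = L K_m`, every class of `H³(Gal(L/K), Lˣ)` dies in `H³(Gal(M/K), Mˣ)`.

Here we prove the diagram chase in pure group cohomology (Mathlib `groupCohomology` of `Rep ℤ G`),
for three groups `Γ₁ = Gal(L/K)`, `Γ₂ = Gal(K_m/K)`, `Γ = Gal(M/K)` with `πL : Γ →* Γ₁`,
`πm : Γ →* Γ₂` and three short exact sequences `0 → E → J → C → 0` (the `T`-units, the semilocal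
units, the `T`-idele classes of `L`, `K_m`, `M`) related by transition morphisms:

* `H³(Γ₁, J_L) = 0`                                   (local Tate + semilocal Shapiro);
* (G-iii): every `c ∈ H²(Γ₁, C_L)` becomes, after inflation to `Γ`, the inflation of a class
  `c' ∈ H²(Γ₂, C_m)`;
* `H²(Γ₂, J_m) → H²(Γ₂, C_m)` is onto                 (cyclic periodicity + `H¹(Γ₂, E_m) = 0`);

then every `y ∈ H³(Γ₁, E_L)` dies in `H³(Γ, E_M)`; and so does every class of `H³(Γ₁, W_L)`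
(`W = ` the multiplicative group) that comes from `H³(Γ₁, E_L)`.
-/
import Mathlib
import Fermat.Agent.S55.Tate.DeltaNat
import Fermat.Agent.S55.Tate.LES
import Fermat.Agent.S55.Tate.CyclicTransport

set_option autoImplicit false

namespace Fermat.Agent.S55.Middle.HbnH3

open CategoryTheory CategoryTheory.Limits groupCohomology Rep

section Functoriality

variable {k G H : Type} [CommRing k] [Group G] [Group H]

/-- `map id a ≫ map f φ = map f (Res_f a ≫ φ)`. -/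
theorem map_id_comp_map (f : H →* G) {A A' : Rep k G} {B : Rep k H} (a : A ⟶ A')
    (φ : Rep.res f A' ⟶ B) (n : ℕ) :
    groupCohomology.map (MonoidHom.id G) a n ≫ groupCohomology.map f φ n =
      groupCohomology.map f ((Rep.resFunctor f).map a ≫ φ) n := by
  have e : cochainsMap (MonoidHom.id G) a ≫ cochainsMap f φ =
      cochainsMap f ((Rep.resFunctor f).map a ≫ φ) := rfl
  show HomologicalComplex.homologyMap (cochainsMap (MonoidHom.id G) a) n ≫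
      HomologicalComplex.homologyMap (cochainsMap f φ) n =
    HomologicalComplex.homologyMap (cochainsMap f ((Rep.resFunctor f).map a ≫ φ)) n
  rw [← HomologicalComplex.homologyMap_comp, e]

/-- `map f φ ≫ map id b = map f (φ ≫ b)`. -/
theorem map_comp_map_id (f : H →* G) {A : Rep k G} {B B' : Rep k H}
    (φ : Rep.res f A ⟶ B) (b : B ⟶ B') (n : ℕ) :
    groupCohomology.map f φ n ≫ groupCohomology.map (MonoidHom.id H) b n =
      groupCohomology.map f (φ ≫ b) n := by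
  have e : cochainsMap f φ ≫ cochainsMap (MonoidHom.id H) b = cochainsMap f (φ ≫ b) := rfl
  show HomologicalComplex.homologyMap (cochainsMap f φ) n ≫
      HomologicalComplex.homologyMap (cochainsMap (MonoidHom.id H) b) n =
    HomologicalComplex.homologyMap (cochainsMap f (φ ≫ b)) n
  rw [← HomologicalComplex.homologyMap_comp, e]

/-- A commutative square of coefficient maps gives a commutative square in cohomology. -/
theorem map_square (f : H →* G) {A A' : Rep k G} {B B' : Rep k H} (a : A ⟶ A') (b : B ⟶ B')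
    (φ : Rep.res f A ⟶ B) (φ' : Rep.res f A' ⟶ B')
    (h : (Rep.resFunctor f).map a ≫ φ' = φ ≫ b) (n : ℕ) :
    groupCohomology.map (MonoidHom.id G) a n ≫ groupCohomology.map f φ' n =
      groupCohomology.map f φ n ≫ groupCohomology.map (MonoidHom.id H) b n := by
  rw [map_id_comp_map, map_comp_map_id, h]

theorem map_square_apply (f : H →* G) {A A' : Rep k G} {B B' : Rep k H} (a : A ⟶ A') (b : B ⟶ B')
    (φ : Rep.res f A ⟶ B) (φ' : Rep.res f A' ⟶ B')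
    (h : (Rep.resFunctor f).map a ≫ φ' = φ ≫ b) (n : ℕ) (x : groupCohomology A n) :
    groupCohomology.map f φ' n (groupCohomology.map (MonoidHom.id G) a n x) =
      groupCohomology.map (MonoidHom.id H) b n (groupCohomology.map f φ n x) := by
  have := congrArg (fun t => t.hom x) (map_square f a b φ φ' h n)
  simpa using this

end Functoriality

section Chase

variable {Γ₁ Γ Γ₂ : Type} [Group Γ₁] [Group Γ] [Group Γ₂]

/-- **One step.**  `X : 0 → E → J → C → 0` over `Γ₁`, `Y : 0 → E' → J' → C' → 0` over `Γ`,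
`f : Γ →* Γ₁`, and a morphism of sequences `Res_f X ⟶ Y`.  If `H³(Γ₁, J) = 0` and the inflation
of every class of `H²(Γ₁, C)` lifts to `H²(Γ, J')`, then the inflation `H³(Γ₁, E) → H³(Γ, E')`
is zero. -/
theorem map_eq_zero_of_lift (f : Γ →* Γ₁) {X : ShortComplex (Rep ℤ Γ₁)} (hX : X.ShortExact)
    {Y : ShortComplex (Rep ℤ Γ)} (hY : Y.ShortExact)
    (φ₁ : Rep.res f X.X₁ ⟶ Y.X₁) (φ₂ : Rep.res f X.X₂ ⟶ Y.X₂) (φ₃ : Rep.res f X.X₃ ⟶ Y.X₃)
    (h₁₂ : (Rep.resFunctor f).map X.f ≫ φ₂ = φ₁ ≫ Y.f)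
    (h₂₃ : (Rep.resFunctor f).map X.g ≫ φ₃ = φ₂ ≫ Y.g)
    (hJ : IsZero (groupCohomology X.X₂ 3))
    (hlift : ∀ c : groupCohomology X.X₃ 2, ∃ z : groupCohomology Y.X₂ 2,
      groupCohomology.map f φ₃ 2 c = groupCohomology.map (MonoidHom.id Γ) Y.g 2 z)
    (y : groupCohomology X.X₁ 3) : groupCohomology.map f φ₁ 3 y = 0 := by
  -- `y = δ c`
  have hy : groupCohomology.map (MonoidHom.id Γ₁) X.f 3 y = 0 := Tate.LES.eq_zero_of_isZero hJ _
  obtain ⟨c, rfl⟩ := Tate.LES.exists_δ_eq hX 2 y hy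
  obtain ⟨z, hz⟩ := hlift c
  have hnat := Tate.DeltaNat.δ_naturality_of_hom f hX hY φ₁ φ₂ φ₃ h₁₂ h₂₃ 2 3 rfl
  have h1 : groupCohomology.map f φ₁ 3 (groupCohomology.δ hX 2 3 rfl c) =
      groupCohomology.δ hY 2 3 rfl (groupCohomology.map f φ₃ 2 c) := by
    have := congrArg (fun t => t.hom c) hnat
    simpa using this
  rw [h1, hz]
  exact Tate.LES.δ_map_g hY 2 z

/-- **The lift from (G-iii).**  If the inflation to `Γ` of every class of `H²(Γ₁, C_L)` is the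
inflation of a class of `H²(Γ₂, C_m)`, and `H²(Γ₂, J_m) → H²(Γ₂, C_m)` is onto, then the inflation
of every class of `H²(Γ₁, C_L)` lifts to `H²(Γ, J_M)`. -/
theorem exists_lift_of_cycloGen (πL : Γ →* Γ₁) (πm : Γ →* Γ₂)
    {CL : Rep ℤ Γ₁} {Jm Cm : Rep ℤ Γ₂} {JM CM : Rep ℤ Γ}
    (gm : Jm ⟶ Cm) (gM : JM ⟶ CM)
    (φL₃ : Rep.res πL CL ⟶ CM) (φm₂ : Rep.res πm Jm ⟶ JM) (φm₃ : Rep.res πm Cm ⟶ CM)
    (hm₂₃ : (Rep.resFunctor πm).map gm ≫ φm₃ = φm₂ ≫ gM)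
    (hgen : ∀ c : groupCohomology CL 2, ∃ c' : groupCohomology Cm 2,
      groupCohomology.map πL φL₃ 2 c = groupCohomology.map πm φm₃ 2 c')
    (hsurj : ∀ c' : groupCohomology Cm 2, ∃ z : groupCohomology Jm 2,
      groupCohomology.map (MonoidHom.id Γ₂) gm 2 z = c')
    (c : groupCohomology CL 2) : ∃ z : groupCohomology JM 2,
      groupCohomology.map πL φL₃ 2 c = groupCohomology.map (MonoidHom.id Γ) gM 2 z := by
  obtain ⟨c', hc'⟩ := hgen c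
  obtain ⟨z', rfl⟩ := hsurj c'
  refine ⟨groupCohomology.map πm φm₂ 2 z', ?_⟩
  rw [hc']
  exact map_square_apply πm gm gM φm₂ φm₃ hm₂₃ 2 z'

/-- **(HBN-H3), abstract form, for the units `E`.** -/
theorem map_eq_zero_of_cycloGen (πL : Γ →* Γ₁) (πm : Γ →* Γ₂)
    {XL : ShortComplex (Rep ℤ Γ₁)} (hXL : XL.ShortExact)
    {XM : ShortComplex (Rep ℤ Γ)} (hXM : XM.ShortExact)
    {Jm Cm : Rep ℤ Γ₂} (gm : Jm ⟶ Cm)
    (φ₁ : Rep.res πL XL.X₁ ⟶ XM.X₁) (φ₂ : Rep.res πL XL.X₂ ⟶ XM.X₂)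
    (φ₃ : Rep.res πL XL.X₃ ⟶ XM.X₃)
    (h₁₂ : (Rep.resFunctor πL).map XL.f ≫ φ₂ = φ₁ ≫ XM.f)
    (h₂₃ : (Rep.resFunctor πL).map XL.g ≫ φ₃ = φ₂ ≫ XM.g)
    (φm₂ : Rep.res πm Jm ⟶ XM.X₂) (φm₃ : Rep.res πm Cm ⟶ XM.X₃)
    (hm₂₃ : (Rep.resFunctor πm).map gm ≫ φm₃ = φm₂ ≫ XM.g)
    (hJ : IsZero (groupCohomology XL.X₂ 3))
    (hgen : ∀ c : groupCohomology XL.X₃ 2, ∃ c' : groupCohomology Cm 2,
      groupCohomology.map πL φ₃ 2 c = groupCohomology.map πm φm₃ 2 c')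
    (hsurj : ∀ c' : groupCohomology Cm 2, ∃ z : groupCohomology Jm 2,
      groupCohomology.map (MonoidHom.id Γ₂) gm 2 z = c')
    (y : groupCohomology XL.X₁ 3) : groupCohomology.map πL φ₁ 3 y = 0 :=
  map_eq_zero_of_lift πL hXL hXM φ₁ φ₂ φ₃ h₁₂ h₂₃ hJ
    (exists_lift_of_cycloGen πL πm gm XM.g φ₃ φm₂ φm₃ hm₂₃ hgen hsurj) y

/-- **(HBN-H3), abstract form, for the multiplicative group.**  `WL`, `WM` are `Lˣ`, `Mˣ`,
`ιL : E_L ⟶ Lˣ`, `ιM : E_M ⟶ Mˣ` the inclusions of the `T`-units, `ψ` the inclusion `Lˣ → Mˣ`.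
Every class of `H³(Γ₁, Lˣ)` that comes from the `T`-units dies in `H³(Γ, Mˣ)`. -/
theorem map_units_eq_zero_of_cycloGen (πL : Γ →* Γ₁) (πm : Γ →* Γ₂)
    {XL : ShortComplex (Rep ℤ Γ₁)} (hXL : XL.ShortExact)
    {XM : ShortComplex (Rep ℤ Γ)} (hXM : XM.ShortExact)
    {Jm Cm : Rep ℤ Γ₂} (gm : Jm ⟶ Cm)
    (φ₁ : Rep.res πL XL.X₁ ⟶ XM.X₁) (φ₂ : Rep.res πL XL.X₂ ⟶ XM.X₂)
    (φ₃ : Rep.res πL XL.X₃ ⟶ XM.X₃)
    (h₁₂ : (Rep.resFunctor πL).map XL.f ≫ φ₂ = φ₁ ≫ XM.f)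
    (h₂₃ : (Rep.resFunctor πL).map XL.g ≫ φ₃ = φ₂ ≫ XM.g)
    (φm₂ : Rep.res πm Jm ⟶ XM.X₂) (φm₃ : Rep.res πm Cm ⟶ XM.X₃)
    (hm₂₃ : (Rep.resFunctor πm).map gm ≫ φm₃ = φm₂ ≫ XM.g)
    (hJ : IsZero (groupCohomology XL.X₂ 3))
    (hgen : ∀ c : groupCohomology XL.X₃ 2, ∃ c' : groupCohomology Cm 2,
      groupCohomology.map πL φ₃ 2 c = groupCohomology.map πm φm₃ 2 c')
    (hsurj : ∀ c' : groupCohomology Cm 2, ∃ z : groupCohomology Jm 2,
      groupCohomology.map (MonoidHom.id Γ₂) gm 2 z = c')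
    {WL : Rep ℤ Γ₁} {WM : Rep ℤ Γ} (ιL : XL.X₁ ⟶ WL) (ιM : XM.X₁ ⟶ WM)
    (ψ : Rep.res πL WL ⟶ WM) (hψ : (Rep.resFunctor πL).map ιL ≫ ψ = φ₁ ≫ ιM)
    (y : groupCohomology WL 3)
    (hy : ∃ yE : groupCohomology XL.X₁ 3, groupCohomology.map (MonoidHom.id Γ₁) ιL 3 yE = y) :
    groupCohomology.map πL ψ 3 y = 0 := by
  obtain ⟨yE, rfl⟩ := hy
  rw [map_square_apply πL ιL ιM φ₁ ψ hψ 3 yE,
    map_eq_zero_of_cycloGen πL πm hXL hXM gm φ₁ φ₂ φ₃ h₁₂ h₂₃ φm₂ φm₃ hm₂₃ hJ hgen hsurj yE,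
    map_zero]

end Chase

section Cyclic

variable {Γ₂ : Type} [Group Γ₂] [Finite Γ₂] [IsCyclic Γ₂]

/-- For a finite cyclic group and `0 → E → J → C → 0` with `H¹(E) = 0`, the map
`H²(J) → H²(C)` is onto (periodicity: `H³(E) ≅ H¹(E) = 0`). -/
theorem surjective_map_g_of_cyclic {X : ShortComplex (Rep ℤ Γ₂)} (hX : X.ShortExact)
    (hE : IsZero (groupCohomology X.X₁ 1)) (c' : groupCohomology X.X₃ 2) :
    ∃ z : groupCohomology X.X₂ 2, groupCohomology.map (MonoidHom.id Γ₂) X.g 2 z = c' := by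
  have h3 : IsZero (groupCohomology X.X₁ 3) := Tate.CyclicTransport.cyclicH1H3 Γ₂ X.X₁ hE
  exact Tate.LES.exists_map_g_eq hX 2 c' (Tate.LES.eq_zero_of_isZero h3 _)

end Cyclic

end Fermat.Agent.S55.Middle.HbnH3
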