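/-
S55 / MIDDLE block (helper21): the passage `Lˣ ← E_{L,T}` in the `ℚ`-based language of
`Global/Objects2.lean` (interface v3).  Shared by `(HBN-inj)` (`n = 2`) and `(HBN-H3)` (`n = 3`).

* `exists_cocycle_of_values`, `exists_class_of_values` (generic, any `Rep k G`): a cocycle of `A`
  all of whose values lie in the image of an injective `ι : B ⟶ A` comes from a cocycle of `B`.
* `EUnitsQ_mono`, `exists_finset_EUnitsQ`: the `T`-units grow with `T` and every finite set of
  `Lˣ` consists of `T`-units for a suitable finite set `T` of rational primes.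
* `EQtoLxQ L T hT : EQ L T ⟶ LxQ L` (`T ≠ ∅`), `EQtoLxQ_comp_LxQtoJQ`, injectivity, range;
  relative versions `EntoLxn K L T hT : En K L T ⟶ Lxn K L`, `LxntoJn`, `EntoJn`.
* `exists_finset_forall_class`, `exists_class_of_cofinal`: every class of `Hⁿ(Gal(L/K), Lˣ)` is
  the image of a class of `Hⁿ(Gal(L/K), E_{L,T})` for all large `T` (e.g. for some admissible
  `T ⊇ T₀`).
-/
import Mathlib
import Fermat.Agent.S55.Global.Objects2

set_option autoImplicit false
set_option linter.unusedSectionVars false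

namespace Fermat.Agent.S55.Middle.UnitsToL

open CategoryTheory CategoryTheory.Limits groupCohomology Rep NumberField IsDedekindDomain
  TensorProduct
open Fermat.Agent.S55.Global.Objects Fermat.Agent.S55.Global.Objects2

section Generic

variable {k G : Type} [CommRing k] [Group G]

/-- A cocycle of `A` all of whose values lie in the image of an injective `ι : B ⟶ A` is the image
of a cocycle of `B`. -/
theorem exists_cocycle_of_values {A B : Rep k G} (ι : B ⟶ A) (hι : Function.Injective ι.hom)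
    (n : ℕ) (z : cocycles A n)
    (hz : ∀ g : Fin n → G, ∃ b : B, ι.hom b = iCocycles A n z g) :
    ∃ w : cocycles B n, cocyclesMap (MonoidHom.id G) ι n w = z := by
  choose f hf using hz
  have hinj : ∀ i, Function.Injective ((cochainsMap (MonoidHom.id G) ι).f i) := by
    intro i x y hxy
    funext g
    apply hι
    exact congrFun hxy g
  have hfz : (cochainsMap (MonoidHom.id G) ι).f n f = iCocycles A n z := by
    funext g
    exact hf g
  have hd : inhomogeneousCochains.d B n f = 0 := by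
    apply hinj (n + 1)
    have h1 : (cochainsMap (MonoidHom.id G) ι).f n ≫ (inhomogeneousCochains A).d n (n + 1) =
        (inhomogeneousCochains B).d n (n + 1) ≫ (cochainsMap (MonoidHom.id G) ι).f (n + 1) :=
      (cochainsMap (MonoidHom.id G) ι).comm n (n + 1)
    rw [inhomogeneousCochains.d_def, inhomogeneousCochains.d_def] at h1
    have h2 := congrArg (fun t => t.hom f) h1
    simp only [ModuleCat.hom_comp, LinearMap.comp_apply] at h2
    rw [map_zero]
    refine h2.symm.trans ?_
    show (inhomogeneousCochains.d A n) ((cochainsMap (MonoidHom.id G) ι).f n f) = 0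
    rw [hfz]
    have h3 : iCocycles A n ≫ (inhomogeneousCochains A).d n (n + 1) = 0 :=
      (inhomogeneousCochains A).iCycles_d n (n + 1)
    rw [inhomogeneousCochains.d_def] at h3
    have h4 := congrArg (fun t => t.hom z) h3
    simpa using h4
  refine ⟨cocyclesMk f hd, ?_⟩
  have hmono : Function.Injective (iCocycles A n) :=
    (ModuleCat.mono_iff_injective (iCocycles A n)).1 inferInstance
  apply hmono
  have h5 : cocyclesMap (MonoidHom.id G) ι n ≫ iCocycles A n =
      iCocycles B n ≫ (cochainsMap (MonoidHom.id G) ι).f n :=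
    HomologicalComplex.cyclesMap_i _ _
  have h6 := congrArg (fun t => t.hom (cocyclesMk f hd)) h5
  simp only [ModuleCat.hom_comp, LinearMap.comp_apply] at h6
  refine h6.trans ?_
  rw [← hfz]
  congr 1
  exact iCocycles_mk f hd

/-- Class form. -/
theorem exists_class_of_values {A B : Rep k G} (ι : B ⟶ A) (hι : Function.Injective ι.hom)
    (n : ℕ) (z : cocycles A n)
    (hz : ∀ g : Fin n → G, ∃ b : B, ι.hom b = iCocycles A n z g) :
    ∃ y : groupCohomology B n, groupCohomology.map (MonoidHom.id G) ι n y = π A n z := by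
  obtain ⟨w, hw⟩ := exists_cocycle_of_values ι hι n z hz
  refine ⟨π B n w, ?_⟩
  have h := congrArg (fun t => t.hom w) (π_map (MonoidHom.id G) ι n)
  simp only [ModuleCat.hom_comp, LinearMap.comp_apply] at h
  refine h.trans ?_
  exact congrArg _ hw

end Generic

section units

variable (L : Type) [Field L] [NumberField L]

theorem nontrivial_QT {T : Finset Nat.Primes} (hT : T.Nonempty) : Nontrivial (QT T) := by
  obtain ⟨q, hq⟩ := hT
  exact Pi.nontrivial_at (⟨q, hq⟩ : T)

theorem inclUnitsQ_injective {T : Finset Nat.Primes} (hT : T.Nonempty) :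
    Function.Injective (inclUnits ℚ L (QT T)) := by
  have := nontrivial_QT hT
  intro x y h
  have h1 : ((x : L) ⊗ₜ[ℚ] (1 : QT T) : L ⊗[ℚ] QT T) = (y : L) ⊗ₜ[ℚ] (1 : QT T) :=
    congrArg (fun u : (L ⊗[ℚ] QT T)ˣ => (u : L ⊗[ℚ] QT T)) h
  have hinj : Function.Injective (Algebra.TensorProduct.includeLeft : L →ₐ[ℚ] L ⊗[ℚ] QT T) :=
    Algebra.TensorProduct.includeLeft_injective (algebraMap ℚ (QT T)).injective
  exact Units.ext (hinj h1)

variable {L}

theorem placesAboveQ_mono {T T' : Finset Nat.Primes} (h : T ⊆ T') :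
    placesAboveQ L T ⊆ placesAboveQ L T' := by
  rintro w ⟨q, hq, hw⟩
  exact ⟨q, h hq, hw⟩

theorem unit_mono {S S' : Set (Place L)} (h : S ⊆ S') : Set.unit S L ≤ Set.unit S' L := by
  intro x hx v hv
  exact hx v (fun hv' => hv (h hv'))

theorem EUnitsQ_mono {T T' : Finset Nat.Primes} (h : T ⊆ T') : EUnitsQ L T ≤ EUnitsQ L T' := by
  intro x hx
  rw [mem_EUnitsQ] at hx ⊢
  intro σ
  exact unit_mono (placesAboveQ_mono h) (hx σ)

/-- The rational prime below a place of `L`. -/
noncomputable def primeUnder (w : Place L) : Nat.Primes :=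
  haveI : NeZero w.asIdeal := ⟨w.ne_bot⟩
  ⟨Ideal.absNorm (Ideal.under ℤ w.asIdeal), Nat.absNorm_under_prime w.asIdeal⟩

theorem primeUnder_mem (w : Place L) : (((primeUnder w : Nat.Primes) : ℕ) : 𝓞 L) ∈ w.asIdeal :=
  Int.absNorm_under_mem w.asIdeal

theorem finite_valuation_ne_one (x : Lˣ) : {w : Place L | w.valuation L (x : L) ≠ 1}.Finite := by
  have h1 := HeightOneSpectrum.Support.finite (𝓞 L) (x : L)
  have h2 := HeightOneSpectrum.Support.finite (𝓞 L) ((x⁻¹ : Lˣ) : L)
  refine (h1.union h2).subset ?_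
  intro w hw
  rcases lt_or_gt_of_ne hw with h | h
  · right
    show 1 < w.valuation L ((x⁻¹ : Lˣ) : L)
    rw [Units.val_inv_eq_inv_val, map_inv₀]
    exact (one_lt_inv₀ (by simp [zero_lt_iff])).2 h
  · left
    exact h

theorem exists_finset_EUnitsQ (s : Set Lˣ) (hs : s.Finite) :
    ∃ T : Finset Nat.Primes, ∀ x ∈ s, x ∈ EUnitsQ L T := by
  classical
  have hfin : (⋃ x ∈ s, ⋃ σ : L ≃ₐ[ℚ] L, {w : Place L | w.valuation L ((σ • x : Lˣ) : L) ≠ 1}).Finite :=
    hs.biUnion (fun x _ => Set.finite_iUnion (fun σ => finite_valuation_ne_one (σ • x)))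
  refine ⟨hfin.toFinset.image primeUnder, ?_⟩
  intro x hx
  rw [mem_EUnitsQ]
  intro σ w hw
  by_contra hne
  apply hw
  refine ⟨primeUnder w, ?_, primeUnder_mem w⟩
  rw [Finset.mem_image]
  refine ⟨w, ?_, rfl⟩
  rw [Set.Finite.mem_toFinset]
  simp only [Set.mem_iUnion]
  exact ⟨x, hx, σ, hne⟩

end units

section hom

variable (L : Type) [Field L] [NumberField L] (T : Finset Nat.Primes)

/-- The unit of `L` whose image in `JQ L T` is a given element of `EQ L T`. -/
noncomputable def unitOf (a : EQ L T) : Lˣ :=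
  Classical.choose ((mem_imageSub (QT T)).1 a.2)

theorem unitOf_mem (a : EQ L T) : unitOf L T a ∈ EUnitsQ L T :=
  (Classical.choose_spec ((mem_imageSub (QT T)).1 a.2)).1

theorem inclUnits_unitOf (a : EQ L T) :
    inclUnits ℚ L (QT T) (unitOf L T a) = Additive.toMul (Rep.toAdditive (a.1 : JQ L T)) :=
  (Classical.choose_spec ((mem_imageSub (QT T)).1 a.2)).2

variable {L T}

theorem unitOf_eq_of (hT : T.Nonempty) (a : EQ L T) (x : Lˣ)
    (hx : inclUnits ℚ L (QT T) x = Additive.toMul (Rep.toAdditive (a.1 : JQ L T))) :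
    unitOf L T a = x :=
  inclUnitsQ_injective L hT ((inclUnits_unitOf L T a).trans hx.symm)

variable (L T)

/-- `EQ L T → LxQ L` as an additive map. -/
noncomputable def EQtoLxQAdd (hT : T.Nonempty) : EQ L T →+ LxQ L where
  toFun a := (Additive.ofMul (unitOf L T a) : Additive Lˣ)
  map_zero' := by
    show (Additive.ofMul (unitOf L T 0) : Additive Lˣ) = 0
    rw [unitOf_eq_of hT 0 1 (by rw [map_one]; rfl)]
    rfl
  map_add' a b := by
    show (Additive.ofMul (unitOf L T (a + b)) : Additive Lˣ) =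
      Additive.ofMul (unitOf L T a) + Additive.ofMul (unitOf L T b)
    rw [unitOf_eq_of hT (a + b) (unitOf L T a * unitOf L T b)
      (by rw [map_mul, inclUnits_unitOf, inclUnits_unitOf]; rfl)]
    rfl

end hom

section hom2

variable (L : Type) [Field L] [NumberField L] (T : Finset Nat.Primes)

theorem unitOf_smul (hT : T.Nonempty) (σ : L ≃ₐ[ℚ] L) (a : EQ L T) :
    unitOf L T ((EQ L T).ρ σ a) = σ • unitOf L T a := by
  apply unitOf_eq_of hT
  rw [← smul_inclUnits, inclUnits_unitOf]
  rfl

/-- `EQ L T ⟶ LxQ L`: the `T`-units as a submodule of `Lˣ`. -/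
noncomputable def EQtoLxQ (hT : T.Nonempty) : EQ L T ⟶ LxQ L :=
  Rep.ofHom
    { toLinearMap :=
        { toFun := EQtoLxQAdd L T hT
          map_add' := map_add _
          map_smul' := fun n a => by
            have := map_intCast_smul (EQtoLxQAdd L T hT) ℤ ℤ n a
            rw [Int.cast_id] at this
            exact this }
      isIntertwining' := fun σ => by
        refine LinearMap.ext fun a => ?_
        show (Additive.ofMul (unitOf L T ((EQ L T).ρ σ a)) : Additive Lˣ) =
          Additive.ofMul (σ • unitOf L T a)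
        rw [unitOf_smul L T hT] }

theorem EQtoLxQ_hom_apply (hT : T.Nonempty) (a : EQ L T) :
    (EQtoLxQ L T hT).hom a = (Additive.ofMul (unitOf L T a) : Additive Lˣ) := rfl

/-- The triangle `EQ ⟶ LxQ ⟶ JQ`. -/
theorem EQtoLxQ_comp_LxQtoJQ (hT : T.Nonempty) :
    EQtoLxQ L T hT ≫ LxQtoJQ L T = EQtoJQ L T := by
  ext a
  show (Additive.ofMul (inclUnits ℚ L (QT T) (unitOf L T a)) : Additive (L ⊗[ℚ] QT T)ˣ) = _
  rw [inclUnits_unitOf]
  rfl

theorem EQtoLxQ_injective (hT : T.Nonempty) : Function.Injective (EQtoLxQ L T hT).hom := by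
  intro a b hab
  have h1 : unitOf L T a = unitOf L T b := hab
  apply Subtype.ext
  have h2 := inclUnits_unitOf L T a
  rw [h1, inclUnits_unitOf] at h2
  exact h2.symm

theorem LxQtoJQ_injective (hT : T.Nonempty) : Function.Injective (LxQtoJQ L T).hom := by
  intro a b hab
  exact inclUnitsQ_injective L hT hab

/-- The range of `EQ L T ⟶ LxQ L` is exactly the `T`-units. -/
theorem mem_range_EQtoLxQ (hT : T.Nonempty) (x : Lˣ) (hx : x ∈ EUnitsQ L T) :
    ∃ a : EQ L T, (EQtoLxQ L T hT).hom a = (Additive.ofMul x : Additive Lˣ) := by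
  refine ⟨⟨(Additive.ofMul (inclUnits ℚ L (QT T) x) : Additive (L ⊗[ℚ] QT T)ˣ),
    (mem_imageSub (QT T)).2 ⟨x, hx, rfl⟩⟩, ?_⟩
  rw [EQtoLxQ_hom_apply]
  congr 1
  exact unitOf_eq_of hT _ x rfl

end hom2

section relative

variable (K L : Type) [Field K] [NumberField K] [Field L] [NumberField L] [Algebra K L]
variable (T : Finset Nat.Primes)

theorem finite_gal : Finite (L ≃ₐ[K] L) := by
  have : Module.Finite K L := Module.Finite.of_restrictScalars_finite ℚ K L
  infer_instance

/-- `Lxn K L` is literally Mathlib's `Rep.ofAlgebraAutOnUnits K L`. -/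
theorem Lxn_eq : Lxn K L = Rep.ofAlgebraAutOnUnits K L := rfl

/-- `E_{L,T} ⟶ Lˣ` as `Gal(L/K)`-modules. -/
noncomputable def EntoLxn (hT : T.Nonempty) : En K L T ⟶ Lxn K L :=
  (Rep.resFunctor (resHom K L)).map (EQtoLxQ L T hT)

theorem EntoLxn_hom_apply (hT : T.Nonempty) (a : En K L T) :
    (EntoLxn K L T hT).hom a = (EQtoLxQ L T hT).hom a := rfl

theorem EntoLxn_injective (hT : T.Nonempty) : Function.Injective (EntoLxn K L T hT).hom :=
  EQtoLxQ_injective L T hT

/-- `Lˣ ⟶ J_{L,T}` as `Gal(L/K)`-modules. -/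
noncomputable def LxntoJn : Lxn K L ⟶ Jn K L T :=
  (Rep.resFunctor (resHom K L)).map (LxQtoJQ L T)

/-- `E_{L,T} ⟶ J_{L,T}` as `Gal(L/K)`-modules. -/
noncomputable def EntoJn : En K L T ⟶ Jn K L T :=
  (Rep.resFunctor (resHom K L)).map (EQtoJQ L T)

theorem EntoLxn_comp_LxntoJn (hT : T.Nonempty) :
    EntoLxn K L T hT ≫ LxntoJn K L T = EntoJn K L T := by
  unfold EntoLxn LxntoJn EntoJn
  rw [← Functor.map_comp, EQtoLxQ_comp_LxQtoJQ]

theorem LxntoJn_injective (hT : T.Nonempty) : Function.Injective (LxntoJn K L T).hom :=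
  LxQtoJQ_injective L T hT

/-- **Passage `Lˣ ← E_{L,T}`.**  Every class of `Hⁿ(Gal(L/K), Lˣ)` comes from
`Hⁿ(Gal(L/K), E_{L,T})` for every `T` (nonempty) that is large enough. -/
theorem exists_finset_forall_class (n : ℕ) (y : groupCohomology (Lxn K L) n) :
    ∃ T₁ : Finset Nat.Primes, ∀ (T : Finset Nat.Primes) (hT : T.Nonempty), T₁ ⊆ T →
      ∃ yE : groupCohomology (En K L T) n,
        groupCohomology.map (MonoidHom.id (L ≃ₐ[K] L)) (EntoLxn K L T hT) n yE = y := by
  have := finite_gal K L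
  induction y using groupCohomology_induction_on with
  | h z =>
    obtain ⟨T₁, hT₁⟩ := exists_finset_EUnitsQ (L := L)
      (Set.range fun g : Fin n → (L ≃ₐ[K] L) =>
        Additive.toMul (Rep.toAdditive (iCocycles (Lxn K L) n z g)))
      (Set.finite_range _)
    refine ⟨T₁, fun T hT hTT => ?_⟩
    refine exists_class_of_values (EntoLxn K L T hT) (EntoLxn_injective K L T hT) n z ?_
    intro g
    obtain ⟨a, ha⟩ := mem_range_EQtoLxQ L T hT
      (Additive.toMul (Rep.toAdditive (iCocycles (Lxn K L) n z g)))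
      (EUnitsQ_mono hTT (hT₁ _ ⟨g, rfl⟩))
    exact ⟨a, ha⟩

/-- Variant: for any property `P` of finite sets of primes that holds for arbitrarily large sets
(e.g. admissibility), every class of `Hⁿ(Gal(L/K), Lˣ)` comes from `Hⁿ(Gal(L/K), E_{L,T})` for some
`T ⊇ T₀` with `P T`. -/
theorem exists_class_of_cofinal (P : Finset Nat.Primes → Prop)
    (hP : ∀ T₀ : Finset Nat.Primes, ∃ T, T₀ ⊆ T ∧ P T) (T₀ : Finset Nat.Primes)
    (hT₀ : T₀.Nonempty) (n : ℕ) (y : groupCohomology (Lxn K L) n) :
    ∃ (T : Finset Nat.Primes) (hT : T.Nonempty), T₀ ⊆ T ∧ P T ∧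
      ∃ yE : groupCohomology (En K L T) n,
        groupCohomology.map (MonoidHom.id (L ≃ₐ[K] L)) (EntoLxn K L T hT) n yE = y := by
  classical
  obtain ⟨T₁, hT₁⟩ := exists_finset_forall_class K L n y
  obtain ⟨T, hTT, hPT⟩ := hP (T₀ ∪ T₁)
  have hT : T.Nonempty := hT₀.mono (Finset.union_subset_left hTT)
  exact ⟨T, hT, Finset.union_subset_left hTT, hPT, hT₁ T hT (Finset.union_subset_right hTT)⟩

end relative

end Fermat.Agent.S55.Middle.UnitsToL
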