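/-
S55 / MIDDLE block, row M.hbnH3 (helper21): the ARITHMETIC form of (HBN-H3) on the `ℚ`-based
objects of the Global interface v3 (`Objects2`, `Objects5`, `TransitionQ`, `Blocks4`).

* `map_eq_zero_of_lift'` : the one-class form of `HbnH3.map_eq_zero_of_lift`.
* `cycloKillsH3_of_cycloGen : Blocks4.CycloGen p → Blocks4.CycloKillsH3 p`.
* `transEn_comp_EntoLxn` : the square `E_{L,T} → Lˣ` / `E_{M,T} → Mˣ` commutes with the transition
  morphisms.
* `inflLxn_EntoLxn_eq_zero` : (HBN-H3) for classes coming from the `T`-units.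
* `hbnH3` : **(HBN-H3)**: `K ∋ ζ_p`, `L/K` Galois, `F/K` a cyclic cyclotomic layer with
  `[F:K] = [L:K]`, `M ⊇ L, F` Galois of `p`-power degree over `K`: every class of
  `H³(Gal(L/K), Lˣ)` dies in `H³(Gal(M/K), Mˣ)`.  Inputs: `Blocks4.CycloKillsH3 p` and
  `H³(Gal(L/K), J_{L,T}) = 0` for all `T`.
-/
import Mathlib
import Fermat.Agent.S55.Global.Blocks4
import Fermat.Agent.S55.Global.AdmissibleQExists
import Fermat.Agent.S55.Middle.HbnH3
import Fermat.Agent.S55.Middle.UnitsToL

set_option autoImplicit false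
set_option linter.unusedSectionVars false

namespace Fermat.Agent.S55.Middle.HbnH3Inst

open CategoryTheory CategoryTheory.Limits groupCohomology Rep NumberField
open Fermat.Agent.S55.Global.Objects Fermat.Agent.S55.Global.Objects2
  Fermat.Agent.S55.Global.Objects5 Fermat.Agent.S55.Global.Blocks2
  Fermat.Agent.S55.Global.TransitionQ Fermat.Agent.S55.Global.Blocks4
open Fermat.Agent.S55 Fermat.Agent.S55.Middle

section Chase

variable {Γ₁ Γ : Type} [Group Γ₁] [Group Γ]

/-- Variant of `HbnH3.map_eq_zero_of_lift` for a single class: if `y ∈ H³(Γ₁, E)` dies in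
`H³(Γ₁, J)` and the inflation of every class of `H²(Γ₁, C)` lifts to `H²(Γ, J')`, then the
inflation of `y` to `H³(Γ, E')` is zero. -/
theorem map_eq_zero_of_lift' (f : Γ →* Γ₁) {X : ShortComplex (Rep ℤ Γ₁)} (hX : X.ShortExact)
    {Y : ShortComplex (Rep ℤ Γ)} (hY : Y.ShortExact)
    (φ₁ : Rep.res f X.X₁ ⟶ Y.X₁) (φ₂ : Rep.res f X.X₂ ⟶ Y.X₂) (φ₃ : Rep.res f X.X₃ ⟶ Y.X₃)
    (h₁₂ : (Rep.resFunctor f).map X.f ≫ φ₂ = φ₁ ≫ Y.f)
    (h₂₃ : (Rep.resFunctor f).map X.g ≫ φ₃ = φ₂ ≫ Y.g)
    (hlift : ∀ c : groupCohomology X.X₃ 2, ∃ z : groupCohomology Y.X₂ 2,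
      groupCohomology.map f φ₃ 2 c = groupCohomology.map (MonoidHom.id Γ) Y.g 2 z)
    (y : groupCohomology X.X₁ 3)
    (hy : groupCohomology.map (MonoidHom.id Γ₁) X.f 3 y = 0) :
    groupCohomology.map f φ₁ 3 y = 0 := by
  obtain ⟨c, rfl⟩ := Tate.LES.exists_δ_eq hX 2 y hy
  obtain ⟨z, hz⟩ := hlift c
  have hnat := Tate.DeltaNat.δ_naturality_of_hom f hX hY φ₁ φ₂ φ₃ h₁₂ h₂₃ 2 3 rfl
  have h1 : groupCohomology.map f φ₁ 3 (groupCohomology.δ hX 2 3 rfl c) =
      groupCohomology.δ hY 2 3 rfl (groupCohomology.map f φ₃ 2 c) := by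
    have := congrArg (fun t => t.hom c) hnat
    simpa using this
  rw [h1, hz]
  exact Tate.LES.δ_map_g hY 2 z

end Chase

/-- **(G-iii) ⇒ its `H³`-consequence** (`Blocks4.CycloGen p → Blocks4.CycloKillsH3 p`). -/
theorem cycloKillsH3_of_cycloGen {p : ℕ} (h : CycloGen p) : CycloKillsH3 p := by
  intro K L F M _ _ _ _ _ _ _ _ _ _ _ _ _ _ _ _ _ T hS y hy
  have hlift := h K L F M T hS
  exact map_eq_zero_of_lift' (rnHom K L M) (sesn_shortExact K L T) (sesn_shortExact K M T)
    (transEn K L M T) (transJn K L M T) (transCn K L M T)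
    (transEn_comp K L M T).symm (transJn_comp K L M T).symm
    (fun c => by
      obtain ⟨j, hj⟩ := hlift c
      exact ⟨j, hj.symm⟩) y hy

section triangle

variable (K : Type) [Field K] [NumberField K]
variable (L : Type) [Field L] [NumberField L] [Algebra K L] (T : Finset Nat.Primes)

theorem EntoLxn_comp_LxnToJn (hT : T.Nonempty) :
    UnitsToL.EntoLxn K L T hT ≫ LxnToJn K L T = EnToJn K L T :=
  UnitsToL.EntoLxn_comp_LxntoJn K L T hT

end triangle

section square

variable (K : Type) [Field K] [NumberField K]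
variable (L : Type) [Field L] [NumberField L] [Algebra K L]
variable (M : Type) [Field M] [NumberField M] [Algebra K M] [Algebra L M] [IsScalarTower K L M]
variable [Normal K L] (T : Finset Nat.Primes)

/-- The square `E → Lˣ` commutes with the transition morphisms. -/
theorem transEn_comp_EntoLxn (hT : T.Nonempty) :
    (Rep.resFunctor (rnHom K L M)).map (UnitsToL.EntoLxn K L T hT) ≫ transLxn K L M =
      transEn K L M T ≫ UnitsToL.EntoLxn K M T hT := by
  have hmono : Mono (LxnToJn K M T) :=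
    (Rep.mono_iff_injective _).2 (UnitsToL.LxntoJn_injective K M T hT)
  rw [← cancel_mono (LxnToJn K M T)]
  rw [Category.assoc, transLxn_comp, ← Category.assoc, ← Functor.map_comp,
    EntoLxn_comp_LxnToJn, Category.assoc, EntoLxn_comp_LxnToJn, transEn_comp]

end square

section main

variable {p : ℕ}
variable (K L F M : Type) [Field K] [NumberField K] [Field L] [NumberField L] [Field F]
  [NumberField F] [Field M] [NumberField M] [Algebra K L] [Algebra K F] [Algebra K M]
  [Algebra L M] [Algebra F M] [IsScalarTower K L M] [IsScalarTower K F M] [IsGalois K L]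
  [IsGalois K F]

/-- **(HBN-H3), `T`-unit form.**  In a `CycloSetting`, with `H³(Gal(L/K), J_{L,T}) = 0`, every class
of `H³(Gal(L/K), Lˣ)` coming from the `T`-units dies in `H³(Gal(M/K), Mˣ)`. -/
theorem inflLxn_EntoLxn_eq_zero (hkill : CycloKillsH3 p) (T : Finset Nat.Primes)
    (hS : CycloSetting p K L F M T) (hT : T.Nonempty)
    (hJ : IsZero (groupCohomology (Jn K L T) 3)) (yE : groupCohomology (En K L T) 3) :
    (inflLxn K L M 3).hom
      ((groupCohomology.map (MonoidHom.id _) (UnitsToL.EntoLxn K L T hT) 3).hom yE) = 0 := by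
  have h0 : (inflEn K L M T 3).hom yE = 0 :=
    hkill K L F M T hS yE (Tate.LES.eq_zero_of_isZero hJ _)
  have hsq := HbnH3.map_square_apply (rnHom K L M) (UnitsToL.EntoLxn K L T hT)
    (UnitsToL.EntoLxn K M T hT) (transEn K L M T) (transLxn K L M)
    (transEn_comp_EntoLxn K L M T hT) 3 yE
  show (groupCohomology.map (rnHom K L M) (transLxn K L M) 3).hom _ = 0
  refine hsq.trans ?_
  have h0' : (groupCohomology.map (rnHom K L M) (transEn K L M T) 3).hom yE = 0 := h0
  show (groupCohomology.map (MonoidHom.id _) (UnitsToL.EntoLxn K M T hT) 3).hom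
    ((groupCohomology.map (rnHom K L M) (transEn K L M T) 3).hom yE) = 0
  rw [h0', map_zero]

/-- **(HBN-H3).**  `K ∋ ζ_p`, `p` odd; `L/K` Galois; `F/K` a cyclic layer of a `p`-power cyclotomic
extension with `[F:K] = [L:K]`; `M ⊇ L, F` Galois of `p`-power degree over `K`.  Then EVERY class
of `H³(Gal(L/K), Lˣ)` dies in `H³(Gal(M/K), Mˣ)`.
Inputs: `Blocks4.CycloKillsH3 p` (or `Blocks4.CycloGen p`, see `cycloKillsH3_of_cycloGen`) and the
vanishing of `H³(Gal(L/K), J_{L,T})` (local Tate + semilocal Shapiro). -/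
theorem hbnH3 (hkill : CycloKillsH3 p)
    (hJ3 : ∀ T : Finset Nat.Primes, IsZero (groupCohomology (Jn K L T) 3))
    (hp : p.Prime) (hodd : p ≠ 2) (hζ : ∃ ζ : K, IsPrimitiveRoot ζ p) [IsGalois K M]
    (hpp : ∃ n : ℕ, Module.finrank K M = p ^ n) (hcyc : IsCyclic (F ≃ₐ[K] F))
    (hcyclo : ∃ (k : ℕ) (C : Type) (_ : Field C) (_ : Algebra K C),
      IsCyclotomicExtension {p ^ k} K C ∧ Nonempty (F →ₐ[K] C))
    (hdeg : Module.finrank K F = Module.finrank K L)
    (y : groupCohomology (Lxn K L) 3) : (inflLxn K L M 3).hom y = 0 := by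
  classical
  obtain ⟨T₁, hT₁⟩ := UnitsToL.exists_finset_forall_class K L 3 y
  obtain ⟨T, hTT, hST⟩ :=
    Global.AdmissibleQExists.exists_setting K M hp hodd hζ hpp (T₁ ∪ {(⟨p, hp⟩ : Nat.Primes)})
  have hT : T.Nonempty :=
    ⟨⟨p, hp⟩, hTT (Finset.mem_union_right _ (Finset.mem_singleton_self _))⟩
  obtain ⟨yE, rfl⟩ := hT₁ T hT (fun q hq => hTT (Finset.mem_union_left _ hq))
  exact inflLxn_EntoLxn_eq_zero K L F M hkill T ⟨hST, hcyc, hcyclo, hdeg⟩ hT (hJ3 T) yE

end main

end Fermat.Agent.S55.Middle.HbnH3Inst
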