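import Fermat.Agent.S55.Middle.HasseH2

/-!
# S55 / Middle, row `M.hbnCoker`: the reciprocity functional at finite level (interface v3)

`K ∋ ζ_p`, `L/K` Galois of `p`-power degree, `T` admissible (`Blocks2.Setting p K L T`),
`G = Gal(L/K)`.  A class `z ∈ H²(G, Lˣ)` is a **`T`-unit class** (`IsTUnitClass`) if it is
represented by a 2-cocycle all of whose values lie in `EUnitsQ L T`.

* `IsTUnitClass.mem_range` / `exists_isTUnitClass_of_mem_range` : the image of
  `H²(G, En K L T) → H²(G, Jn K L T)` is exactly the set of images of `T`-unit classes.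
* `hbnCoker_Jn` **(HBN-coker)** from `(G-ii)`: there is `Λ : H²(G, Jn K L T) →+ ZMod [L:K]` with
  `Λ a = 0 ↔ a` is the image of a `T`-unit class of `H²(G, Lˣ)`.  Hence the quotient of
  `H²(G, (L ⊗[ℚ] ℚ_T)ˣ)` by the image of the `T`-unit classes embeds into `ZMod [L:K]`; no hypothesis
  "L/K cyclic" is needed.
* `eq_zero_of_isTUnitClass` **(HBN-inj for `T`-unit classes)** from `(G-i)`: a `T`-unit class with
  trivial image in `H²(G, Jn K L T)` is trivial.
* `exists_finset_isTUnitClass` : every class of `H²(G, Lˣ)` is a `T`-unit class for all `T`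
  containing a suitable finite set of rational primes.
-/

set_option autoImplicit false

open CategoryTheory CategoryTheory.Limits groupCohomology NumberField IsDedekindDomain TensorProduct

namespace Fermat.Agent.S55.Middle.HbnCoker

open Fermat.Agent.S55.Global.Objects Fermat.Agent.S55.Global.Objects2
open Fermat.Agent.S55.Global.Blocks2 Fermat.Agent.S55.Global.Blocks3
open Fermat.Agent.S55.Middle Fermat.Agent.S55.Middle.HasseH2

variable (K : Type) [Field K] [NumberField K]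
variable (L : Type) [Field L] [NumberField L] [Algebra K L]
variable (T : Finset Nat.Primes)

/-- `z ∈ H²(Gal(L/K), Lˣ)` is represented by a 2-cocycle with values in the `T`-units. -/
def IsTUnitClass (z : groupCohomology (Rep.ofAlgebraAutOnUnits K L) 2) : Prop :=
  ∃ f : cocycles₂ (Rep.ofAlgebraAutOnUnits K L),
    H2π (Rep.ofAlgebraAutOnUnits K L) f = z ∧
      ∀ g h : L ≃ₐ[K] L, (Additive.toMul (f (g, h)) : Lˣ) ∈ EUnitsQ L T

theorem EntoJn_injective : Function.Injective (HbnInjQ.EntoJn K L T).hom := by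
  intro a b h
  exact Subtype.ext h

variable {K L T}

/-- The image in `H²(Jn)` of a `T`-unit class comes from `H²(En)`. -/
theorem IsTUnitClass.mem_range {z : groupCohomology (Rep.ofAlgebraAutOnUnits K L) 2}
    (hz : IsTUnitClass K L T z) :
    (groupCohomology.map (MonoidHom.id (L ≃ₐ[K] L)) (LxToJn K L T) 2).hom z ∈
      LinearMap.range (groupCohomology.map (A := En K L T) (MonoidHom.id (L ≃ₐ[K] L))
        (HbnInjQ.EntoJn K L T) 2).hom := by
  obtain ⟨f, rfl, hf⟩ := hz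
  set fJ : cocycles₂ (Jn K L T) := mapCocycles₂ (MonoidHom.id (L ≃ₐ[K] L)) (LxToJn K L T) f
  obtain ⟨f', hf'⟩ := HbnLift.exists_cocycle_lift (HbnInjQ.EntoJn K L T)
    (EntoJn_injective K L T) fJ (fun g h => ⟨⟨fJ (g, h), ⟨_, hf g h, rfl⟩⟩, rfl⟩)
  refine ⟨H2π (En K L T) f', ?_⟩
  have h1 := H2π_comp_map_apply (MonoidHom.id (L ≃ₐ[K] L)) (HbnInjQ.EntoJn K L T) f'
  have h2 := H2π_comp_map_apply (MonoidHom.id (L ≃ₐ[K] L)) (LxToJn K L T) f
  rw [h1, h2]
  congr 1
  ext g h
  exact hf' g h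

/-- A class of `H²(Jn)` coming from `H²(En)` is the image of a `T`-unit class (`T ≠ ∅`). -/
theorem exists_isTUnitClass_of_mem_range (hT : T.Nonempty) {a : groupCohomology (Jn K L T) 2}
    (ha : a ∈ LinearMap.range (groupCohomology.map (A := En K L T) (MonoidHom.id (L ≃ₐ[K] L))
        (HbnInjQ.EntoJn K L T) 2).hom) :
    ∃ z, IsTUnitClass K L T z ∧
      (groupCohomology.map (MonoidHom.id (L ≃ₐ[K] L)) (LxToJn K L T) 2).hom z = a := by
  obtain ⟨y, rfl⟩ := ha
  induction y using H2_induction_on with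
  | h f' =>
    set fJ : cocycles₂ (Jn K L T) :=
      mapCocycles₂ (MonoidHom.id (L ≃ₐ[K] L)) (HbnInjQ.EntoJn K L T) f'
    have hval : ∀ g h : L ≃ₐ[K] L, ∃ u : Lˣ, u ∈ EUnitsQ L T ∧
        (LxToJn K L T).hom (Additive.ofMul u) = fJ (g, h) := by
      intro g h
      obtain ⟨u, hu, huv⟩ := (f' (g, h)).2
      exact ⟨u, hu, congrArg Additive.ofMul huv⟩
    obtain ⟨f, hf⟩ := HbnLift.exists_cocycle_lift (LxToJn K L T) (LxToJn_injective K L hT) fJ
      (fun g h => by
        obtain ⟨u, -, hu⟩ := hval g h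
        exact ⟨Additive.ofMul u, hu⟩)
    refine ⟨H2π _ f, ⟨f, rfl, fun g h => ?_⟩, ?_⟩
    · obtain ⟨u, hu, huv⟩ := hval g h
      have : f (g, h) = Additive.ofMul u :=
        LxToJn_injective K L hT ((hf g h).trans huv.symm)
      rw [this]
      exact hu
    · have h1 := H2π_comp_map_apply (MonoidHom.id (L ≃ₐ[K] L)) (HbnInjQ.EntoJn K L T) f'
      have h2 := H2π_comp_map_apply (MonoidHom.id (L ≃ₐ[K] L)) (LxToJn K L T) f
      rw [h1, h2]
      congr 1
      ext g h
      exact hf g h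

/-- **(HBN-coker), finite level, interface v3**, from `(G-ii)`: the image of the `T`-unit classes
in `H²(Gal(L/K), (L ⊗[ℚ] ℚ_T)ˣ)` is the kernel of a functional to `ZMod [L:K]`. -/
theorem hbnCoker_Jn {p : ℕ} (h2 : H2Cyclic p) (hS : Setting p K L T) :
    ∃ Λ : groupCohomology (Jn K L T) 2 →+ ZMod (Module.finrank K L),
      ∀ a, Λ a = 0 ↔ ∃ z, IsTUnitClass K L T z ∧
        (groupCohomology.map (MonoidHom.id (L ≃ₐ[K] L)) (LxToJn K L T) 2).hom z = a := by
  obtain ⟨Λ, hΛ⟩ := HbnInjQ.hbnCoker_En h2 hS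
  have hT : T.Nonempty := by
    obtain ⟨q, hq, -⟩ := hS.adm.mem_p
    exact ⟨q, hq⟩
  refine ⟨Λ, fun a => ⟨fun h => exists_isTUnitClass_of_mem_range hT ((hΛ a).1 h), ?_⟩⟩
  rintro ⟨z, hz, rfl⟩
  exact (hΛ _).2 hz.mem_range

/-- **(HBN-inj) for `T`-unit classes**, from `(G-i)`: a `T`-unit class whose image in
`H²(Gal(L/K), (L ⊗[ℚ] ℚ_T)ˣ)` vanishes is trivial. -/
theorem eq_zero_of_isTUnitClass {p : ℕ} (h1 : H1Vanish p) (hS : Setting p K L T)
    {z : groupCohomology (Rep.ofAlgebraAutOnUnits K L) 2} (hz : IsTUnitClass K L T z)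
    (h0 : (groupCohomology.map (MonoidHom.id (L ≃ₐ[K] L)) (LxToJn K L T) 2).hom z = 0) :
    z = 0 := by
  obtain ⟨f, rfl, hf⟩ := hz
  have hT : T.Nonempty := by
    obtain ⟨q, hq, -⟩ := hS.adm.mem_p
    exact ⟨q, hq⟩
  refine HbnLift.H2π_eq_zero_of_factor (LxToJn K L T) (HbnInjQ.EntoJn K L T)
    (LxToJn_injective K L hT) (EntoJn_injective K L T) ?_
    (fun y hy => HbnInjQ.hbnInj_En h1 hS y hy) f ?_ h0
  · intro e
    obtain ⟨u, -, hu⟩ := e.2
    exact ⟨Additive.ofMul u, congrArg Additive.ofMul hu⟩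
  · intro g h
    exact ⟨⟨_, ⟨_, hf g h, rfl⟩⟩, rfl⟩

omit [NumberField K] in
/-- Every class of `H²(Gal(L/K), Lˣ)` is a `T`-unit class for all `T` containing a suitable finite
set of rational primes. -/
theorem exists_finset_isTUnitClass [Finite (L ≃ₐ[K] L)]
    (z : groupCohomology (Rep.ofAlgebraAutOnUnits K L) 2) :
    ∃ T₀ : Finset Nat.Primes, ∀ T : Finset Nat.Primes, T₀ ⊆ T → IsTUnitClass K L T z := by
  induction z using H2_induction_on with
  | h f =>
    obtain ⟨T₀, hT₀⟩ := exists_finset_forall_mem_EUnitsQ L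
      (fun gh : (L ≃ₐ[K] L) × (L ≃ₐ[K] L) => (Additive.toMul (f gh) : Lˣ))
    exact ⟨T₀, fun T hT => ⟨f, rfl, fun g h => hT₀ T hT (g, h)⟩⟩

end Fermat.Agent.S55.Middle.HbnCoker
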