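import Mathlib
import Fermat.Agent.S55.Local.UnramOrdCoh
import Fermat.Agent.S55.Local.UnramUnitsCoh
import Fermat.Agent.S55.Global.SemilocalH3

/-!
# S55 / Middle, row (U3): the valuation on `H²` at an unramified place

* `bijective_ord_of_isUnram` (local): for an unramified finite Galois extension `E/F` of local fields
  ((LF) setting), `ord_* : Hⁿ(Gal(E/F), Eˣ) → Hⁿ(Gal(E/F), ℤ)` is bijective for every `n > 0`
  (`Local/UnramOrdCoh.bijective_ord_map` + cohomological triviality of the units,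
  `Local/UnramUnitsCoh.isZero_unitsRep`).
* `ordSemilocal K L F m n : Hⁿ(Gal(L/K), (L ⊗[K] F)ˣ) → Hⁿ(Gal(E/F), ℤ)`, `E = (L ⊗[K] F) ⧸ m`:
  semilocal Shapiro (`Global/SemilocalH3.semilocalIso`) followed by `ord_*`;
  `bijective_ordSemilocal` : bijective for `n > 0` if `E/F` is unramified.
* `ordJloc`, `bijective_ordJloc` : the same for `F = Kloc K q 𝔪` (`Blocks3.Jloc K L q 𝔪`).

In words: at an unramified place a class of `H²(Gal(L/K), (L ⊗ K_𝔪)ˣ)` is determined by its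
`ℤ`-residue in `H²(G_w, ℤ)`, and every residue is realised.
-/

set_option autoImplicit false
set_option linter.unusedSectionVars false
set_option linter.style.haveILetI false

open TensorProduct CategoryTheory CategoryTheory.Limits groupCohomology

namespace Fermat.Agent.S55.Middle.UnramVal

open Fermat.Agent.S55.Local Fermat.Agent.S55.Local.Blocks
open Fermat.Agent.S55.Local.UnramOrdCoh Fermat.Agent.S55.Local.UnramUnitsCoh

/-! ### Local form -/

section LocalForm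

variable {F E : Type} [NontriviallyNormedField F] [IsUltrametricDist F] [ProperSpace F]
  [NontriviallyNormedField E] [IsUltrametricDist E] [ProperSpace E]
  [NormedAlgebra F E] [FiniteDimensional F E] [IsGalois F E]

/-- **(U3), local.**  For `E/F` unramified, `ord_* : Hⁿ(Gal(E/F), Eˣ) → Hⁿ(Gal(E/F), ℤ)` is
bijective for all `n > 0`. -/
theorem bijective_ord_of_isUnram (hunr : IsUnram F E) (n : ℕ) (hn : 0 < n) :
    Function.Bijective (groupCohomology.map (A := Rep.ofAlgebraAutOnUnits F E)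
      (B := Rep.trivial ℤ (E ≃ₐ[F] E) ℤ) (MonoidHom.id (E ≃ₐ[F] E)) (ordRepHom F E) n) := by
  refine bijective_ord_map (unitsIncl F E) (fun u => norm_inclAdd u) inclAdd_injective
    (fun x hx => ⟨liftUnit x hx, inclAdd_liftUnit x hx⟩) n
    (isZero_unitsRep hunr n hn) (isZero_unitsRep hunr (n + 1) (Nat.succ_pos n))

/-- injectivity: a class with zero residue is zero -/
theorem eq_zero_of_ord_eq_zero (hunr : IsUnram F E) (n : ℕ) (hn : 0 < n)
    (a : groupCohomology (Rep.ofAlgebraAutOnUnits F E) n)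
    (ha : groupCohomology.map (A := Rep.ofAlgebraAutOnUnits F E)
      (B := Rep.trivial ℤ (E ≃ₐ[F] E) ℤ) (MonoidHom.id (E ≃ₐ[F] E)) (ordRepHom F E) n a = 0) :
    a = 0 := by
  apply (bijective_ord_of_isUnram hunr n hn).1
  rw [ha, map_zero]

end LocalForm

/-! ### Semilocal form -/

section Semilocal

open Fermat.Agent.S55.Global.Objects Fermat.Agent.S55.Global.SemilocalH3
open Fermat.Agent.S55.Global

attribute [local instance] Algebra.TensorProduct.rightAlgebra

variable (K L : Type) [Field K] [NumberField K] [Field L] [NumberField L] [Algebra K L]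
  [IsGalois K L]
variable (F : Type) [NontriviallyNormedField F] [IsUltrametricDist F] [ProperSpace F]
  [Algebra K F]
variable (m : Ideal (L ⊗[K] F)) [hm : m.IsMaximal]

/-- "`E = (L ⊗[K] F) ⧸ m` is unramified over `F`" for the spectral norm of `E` over `F`. -/
def IsUnramAt : Prop :=
  letI := Ideal.Quotient.field m
  haveI := finiteDimensional_quot K L F m
  letI := FiniteExtLF.nontriviallyNormedFieldExt F ((L ⊗[K] F) ⧸ m)
  letI := FiniteExtLF.normedAlgebraExt F ((L ⊗[K] F) ⧸ m)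
  IsUnram F ((L ⊗[K] F) ⧸ m)

/-- The residue map `Hⁿ(Gal(L/K), (L ⊗[K] F)ˣ) → Hⁿ(Gal(E/F), ℤ)`: semilocal Shapiro followed by
the valuation of `E = (L ⊗[K] F) ⧸ m`. -/
noncomputable def ordSemilocal (n : ℕ) :
    letI := Ideal.Quotient.field m
    groupCohomology (JRep K L F) n →
      groupCohomology (Rep.trivial ℤ (((L ⊗[K] F) ⧸ m) ≃ₐ[F] ((L ⊗[K] F) ⧸ m)) ℤ) n :=
  letI := Ideal.Quotient.field m
  haveI := finiteDimensional_quot K L F m
  haveI := isGalois_quot K L F m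
  letI := FiniteExtLF.nontriviallyNormedFieldExt F ((L ⊗[K] F) ⧸ m)
  letI := FiniteExtLF.normedAlgebraExt F ((L ⊗[K] F) ⧸ m)
  haveI := FiniteExtLF.isUltrametricDistExt F ((L ⊗[K] F) ⧸ m)
  haveI := FiniteExtLF.properSpaceExt F ((L ⊗[K] F) ⧸ m)
  fun a => groupCohomology.map (A := Rep.ofAlgebraAutOnUnits F ((L ⊗[K] F) ⧸ m))
    (B := Rep.trivial ℤ (((L ⊗[K] F) ⧸ m) ≃ₐ[F] ((L ⊗[K] F) ⧸ m)) ℤ)
    (MonoidHom.id _) (ordRepHom F ((L ⊗[K] F) ⧸ m)) n ((semilocalIso K L F m n).hom a)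

/-- **(U3), semilocal.**  If `E = (L ⊗[K] F) ⧸ m` is unramified over the local field `F`, the
residue map `Hⁿ(Gal(L/K), (L ⊗[K] F)ˣ) → Hⁿ(Gal(E/F), ℤ)` is bijective for `n > 0`. -/
theorem bijective_ordSemilocal (hunr : IsUnramAt K L F m) (n : ℕ) (hn : 0 < n) :
    Function.Bijective (ordSemilocal K L F m n) := by
  letI := Ideal.Quotient.field m
  haveI := finiteDimensional_quot K L F m
  haveI := isGalois_quot K L F m
  letI := FiniteExtLF.nontriviallyNormedFieldExt F ((L ⊗[K] F) ⧸ m)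
  letI := FiniteExtLF.normedAlgebraExt F ((L ⊗[K] F) ⧸ m)
  haveI := FiniteExtLF.isUltrametricDistExt F ((L ⊗[K] F) ⧸ m)
  haveI := FiniteExtLF.properSpaceExt F ((L ⊗[K] F) ⧸ m)
  have h1 := bijective_ord_of_isUnram (F := F) (E := (L ⊗[K] F) ⧸ m) hunr n hn
  have h2 : Function.Bijective (semilocalIso K L F m n).hom :=
    ConcreteCategory.bijective_of_isIso (semilocalIso K L F m n).hom
  exact h1.comp h2

end Semilocal

/-! ### The place `(q, 𝔪)` of `K` -/

section Kloc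

open Fermat.Agent.S55.Global.Objects Fermat.Agent.S55.Global.SemilocalH3
open Fermat.Agent.S55.Global Fermat.Agent.S55.Global.Blocks3

attribute [local instance] Algebra.TensorProduct.rightAlgebra

variable (K L : Type) [Field K] [NumberField K] [Field L] [NumberField L] [Algebra K L]
  [IsGalois K L]
variable (q : Nat.Primes) (𝔪 : Ideal (Ksemi K q)) [h𝔪 : 𝔪.IsMaximal]
variable (m : Ideal (L ⊗[K] Kloc K q 𝔪)) [hm : m.IsMaximal]

/-- "`L/K` is unramified at the place of `L` given by `m` above `(q, 𝔪)`". -/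
def IsUnramAtKloc : Prop :=
  letI := Ideal.Quotient.field 𝔪
  haveI := finiteDimensional_Kloc K q 𝔪
  letI := FiniteExtLF.nontriviallyNormedFieldExt ℚ_[(q : ℕ)] (Kloc K q 𝔪)
  haveI := FiniteExtLF.isUltrametricDistExt ℚ_[(q : ℕ)] (Kloc K q 𝔪)
  haveI := FiniteExtLF.properSpaceExt ℚ_[(q : ℕ)] (Kloc K q 𝔪)
  IsUnramAt K L (Kloc K q 𝔪) m

/-- The residue map `Hⁿ(Gal(L/K), Jloc K L q 𝔪) → Hⁿ(Gal(E/K_𝔪), ℤ)`. -/
noncomputable def ordJloc (n : ℕ) :
    letI := Ideal.Quotient.field 𝔪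
    letI := Ideal.Quotient.field m
    groupCohomology (Jloc K L q 𝔪) n →
      groupCohomology (Rep.trivial ℤ (((L ⊗[K] Kloc K q 𝔪) ⧸ m) ≃ₐ[Kloc K q 𝔪]
        ((L ⊗[K] Kloc K q 𝔪) ⧸ m)) ℤ) n :=
  letI := Ideal.Quotient.field 𝔪
  haveI := finiteDimensional_Kloc K q 𝔪
  letI := FiniteExtLF.nontriviallyNormedFieldExt ℚ_[(q : ℕ)] (Kloc K q 𝔪)
  haveI := FiniteExtLF.isUltrametricDistExt ℚ_[(q : ℕ)] (Kloc K q 𝔪)
  haveI := FiniteExtLF.properSpaceExt ℚ_[(q : ℕ)] (Kloc K q 𝔪)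
  ordSemilocal K L (Kloc K q 𝔪) m n

/-- **(U3) at the place `(q, 𝔪)`**: if `L/K` is unramified there, the residue map on
`Hⁿ(Gal(L/K), Jloc K L q 𝔪)` is bijective for `n > 0`. -/
theorem bijective_ordJloc (hunr : IsUnramAtKloc K L q 𝔪 m) (n : ℕ) (hn : 0 < n) :
    Function.Bijective (ordJloc K L q 𝔪 m n) := by
  letI := Ideal.Quotient.field 𝔪
  haveI := finiteDimensional_Kloc K q 𝔪
  letI := FiniteExtLF.nontriviallyNormedFieldExt ℚ_[(q : ℕ)] (Kloc K q 𝔪)
  haveI := FiniteExtLF.isUltrametricDistExt ℚ_[(q : ℕ)] (Kloc K q 𝔪)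
  haveI := FiniteExtLF.properSpaceExt ℚ_[(q : ℕ)] (Kloc K q 𝔪)
  exact bijective_ordSemilocal K L (Kloc K q 𝔪) m hunr n hn

/-- injectivity at `(q, 𝔪)`: a class with zero residue is zero. -/
theorem eq_zero_of_ordJloc_eq_zero (hunr : IsUnramAtKloc K L q 𝔪 m) (n : ℕ) (hn : 0 < n)
    (a a' : groupCohomology (Jloc K L q 𝔪) n)
    (h : ordJloc K L q 𝔪 m n a = ordJloc K L q 𝔪 m n a') : a = a' :=
  (bijective_ordJloc K L q 𝔪 m hunr n hn).1 h

/-- surjectivity at `(q, 𝔪)`: every residue is realised. -/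
theorem exists_ordJloc_eq (hunr : IsUnramAtKloc K L q 𝔪 m) (n : ℕ) (hn : 0 < n)
    (r : letI := Ideal.Quotient.field 𝔪
      letI := Ideal.Quotient.field m
      groupCohomology (Rep.trivial ℤ (((L ⊗[K] Kloc K q 𝔪) ⧸ m) ≃ₐ[Kloc K q 𝔪]
        ((L ⊗[K] Kloc K q 𝔪) ⧸ m)) ℤ) n) :
    ∃ a : groupCohomology (Jloc K L q 𝔪) n, ordJloc K L q 𝔪 m n a = r :=
  (bijective_ordJloc K L q 𝔪 m hunr n hn).2 r

end Kloc

end Fermat.Agent.S55.Middle.UnramVal
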