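/-
S55 / Middle / M.units (helper24), generic part: subrepresentations on stable submodules of a
representation, the short exact sequence `0 → W₁ → W₂ → W₂/W₁ → 0` for stable `W₁ ≤ W₂`, the
scalar endomorphisms, and LC-smoothness of these.
-/
import Mathlib
import Fermat.Agent.S55.Formal.LC
import Fermat.Agent.S55.Formal.SmoothLift

set_option autoImplicit false

open CategoryTheory

namespace Fermat.Agent.S55.Middle.SubQuot

open Fermat.Agent.S55.Formal Fermat.Agent.S55.Formal.SmoothLift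

variable {k : Type} [CommRing k] {G : Type} [Group G] (M : Rep.{0, 0, 0} k G)

/-- a `G`-stable submodule -/
def IsStable (W : Submodule k M) : Prop := ∀ g, W ≤ W.comap (M.ρ g)

variable {M}

/-- the subrepresentation on a stable submodule -/
def sub (W : Submodule k M) (hW : IsStable M W) : Rep.{0, 0, 0} k G :=
  Rep.of (M.ρ.subrepresentation W hW)

/-- the underlying vector of an element of `sub W hW` -/
def val {W : Submodule k M} {hW : IsStable M W} (x : sub W hW) : M := (x : W).1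

lemma val_mem {W : Submodule k M} {hW : IsStable M W} (x : sub W hW) : val x ∈ W := (x : W).2

@[simp] lemma val_ρ {W : Submodule k M} {hW : IsStable M W} (g : G) (x : sub W hW) :
    val ((sub W hW).ρ g x) = M.ρ g (val x) := rfl

lemma val_injective {W : Submodule k M} {hW : IsStable M W} :
    Function.Injective (val : sub W hW → M) := fun _ _ h => Subtype.ext h

/-- build an element -/
def mk' (W : Submodule k M) (hW : IsStable M W) (m : M) (hm : m ∈ W) : sub W hW :=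
  (⟨m, hm⟩ : W)

@[simp] lemma val_mk' (W : Submodule k M) (hW : IsStable M W) (m : M) (hm : m ∈ W) :
    val (mk' W hW m hm) = m := rfl

/-- the inclusion `W₁ → W₂` -/
def incl {W₁ W₂ : Submodule k M} (h₁ : IsStable M W₁) (h₂ : IsStable M W₂) (hle : W₁ ≤ W₂) :
    sub W₁ h₁ ⟶ sub W₂ h₂ :=
  Rep.ofHom (ρ := M.ρ.subrepresentation W₁ h₁) (σ := M.ρ.subrepresentation W₂ h₂)
    ((Submodule.inclusion hle).intertwiningMap_of_isIntertwiningMap _ _ (fun _ _ => rfl))

@[simp] lemma val_incl {W₁ W₂ : Submodule k M} (h₁ : IsStable M W₁) (h₂ : IsStable M W₂)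
    (hle : W₁ ≤ W₂) (x : sub W₁ h₁) : val ((incl h₁ h₂ hle).hom x) = val x := rfl

lemma incl_injective {W₁ W₂ : Submodule k M} (h₁ : IsStable M W₁) (h₂ : IsStable M W₂)
    (hle : W₁ ≤ W₂) : Function.Injective (incl h₁ h₂ hle).hom := fun x y h =>
  val_injective (by rw [← val_incl h₁ h₂ hle x, h, val_incl])

/-- the scalar endomorphism `n • ·` -/
def smulEnd {W : Submodule k M} (hW : IsStable M W) (n : k) : sub W hW ⟶ sub W hW :=
  Rep.ofHom (ρ := M.ρ.subrepresentation W hW) (σ := M.ρ.subrepresentation W hW)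
    ((n • (LinearMap.id : W →ₗ[k] W)).intertwiningMap_of_isIntertwiningMap _ _
      (fun g x => by
        simp only [LinearMap.smul_apply, LinearMap.id_coe, id_eq, map_smul]))

@[simp] lemma val_smulEnd {W : Submodule k M} (hW : IsStable M W) (n : k) (x : sub W hW) :
    val ((smulEnd hW n).hom x) = n • val x := rfl

/-- the image of `W₁` in `W₂` -/
def inner (W₁ W₂ : Submodule k M) : Submodule k W₂ := W₁.comap W₂.subtype

lemma inner_stable {W₁ W₂ : Submodule k M} (h₁ : IsStable M W₁) (h₂ : IsStable M W₂) :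
    ∀ g, inner W₁ W₂ ≤ (inner W₁ W₂).comap (M.ρ.subrepresentation W₂ h₂ g) := fun g x hx =>
  h₁ g hx

/-- the quotient representation `W₂ / W₁` -/
def quot {W₁ W₂ : Submodule k M} (h₁ : IsStable M W₁) (h₂ : IsStable M W₂) : Rep.{0, 0, 0} k G :=
  Rep.of ((M.ρ.subrepresentation W₂ h₂).quotient (inner W₁ W₂) (inner_stable h₁ h₂))

/-- the projection `W₂ → W₂ / W₁` -/
def proj {W₁ W₂ : Submodule k M} (h₁ : IsStable M W₁) (h₂ : IsStable M W₂) :
    sub W₂ h₂ ⟶ quot h₁ h₂ :=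
  Rep.ofHom (ρ := M.ρ.subrepresentation W₂ h₂)
    (σ := (M.ρ.subrepresentation W₂ h₂).quotient (inner W₁ W₂) (inner_stable h₁ h₂))
    ((inner W₁ W₂).mkQ.intertwiningMap_of_isIntertwiningMap _ _ (fun _ _ => rfl))

lemma proj_surjective {W₁ W₂ : Submodule k M} (h₁ : IsStable M W₁) (h₂ : IsStable M W₂) :
    Function.Surjective (proj h₁ h₂).hom := (inner W₁ W₂).mkQ_surjective

lemma proj_eq_zero_iff {W₁ W₂ : Submodule k M} (h₁ : IsStable M W₁) (h₂ : IsStable M W₂)
    (x : sub W₂ h₂) : (proj h₁ h₂).hom x = 0 ↔ val x ∈ W₁ :=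
  Submodule.Quotient.mk_eq_zero _

lemma exact_incl_proj {W₁ W₂ : Submodule k M} (h₁ : IsStable M W₁) (h₂ : IsStable M W₂)
    (hle : W₁ ≤ W₂) : Function.Exact (incl h₁ h₂ hle).hom (proj h₁ h₂).hom := by
  intro x
  rw [proj_eq_zero_iff]
  constructor
  · intro hx
    exact ⟨mk' W₁ h₁ (val x) hx, val_injective rfl⟩
  · rintro ⟨y, rfl⟩
    exact val_mem y

/-! ### smoothness -/

lemma isSmooth_sub (𝒰 : NBasis G) {W : Submodule k M} (hW : IsStable M W)
    (h : ∀ m ∈ W, IsLC₀ 𝒰 M m) : IsSmooth 𝒰 (sub W hW) := by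
  intro x
  obtain ⟨U, hU, hfix⟩ := h (val x) (val_mem x)
  exact ⟨U, hU, fun s hs => val_injective (by rw [val_ρ, hfix s hs])⟩

lemma isSmooth_of_surjective (𝒰 : NBasis G) {B C : Rep.{0, 0, 0} k G} (ψ : B ⟶ C)
    (hψ : Function.Surjective ψ.hom) (hB : IsSmooth 𝒰 B) : IsSmooth 𝒰 C := by
  intro c
  obtain ⟨b, rfl⟩ := hψ c
  obtain ⟨U, hU, hfix⟩ := hB b
  exact ⟨U, hU, fun s hs => by rw [← Rep.hom_comm_apply, hfix s hs]⟩

lemma isSmooth_quot (𝒰 : NBasis G) {W₁ W₂ : Submodule k M} (h₁ : IsStable M W₁)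
    (h₂ : IsStable M W₂) (h : ∀ m ∈ W₂, IsLC₀ 𝒰 M m) : IsSmooth 𝒰 (quot h₁ h₂) :=
  isSmooth_of_surjective 𝒰 (proj h₁ h₂) (proj_surjective h₁ h₂) (isSmooth_sub 𝒰 h₂ h)

/-- smoothness is inherited along continuous restriction -/
lemma isSmooth_res {G' : Type} [Group G'] (𝒰 : NBasis G) (𝒰' : NBasis G') (f : G' →* G)
    (hf : IsCont 𝒰 𝒰' f) {B : Rep.{0, 0, 0} k G} (hB : IsSmooth 𝒰 B) :
    IsSmooth 𝒰' (Rep.res f B) := by
  intro b
  obtain ⟨U, hU, hfix⟩ := hB b
  obtain ⟨U', hU', hle⟩ := hf U hU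
  exact ⟨U', hU', fun s hs => hfix (f s) (hle s hs)⟩

end Fermat.Agent.S55.Middle.SubQuot
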