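/-
S55 / MIDDLE block (sub-architect helper17): the shared DEFINITIONS.

The only `ℤ`-modules which enter the level-constant long exact sequences of the Middle block are
sub-quotients of `ℚ̄ˣ`, as `Rep ℤ GQ` (written additively):

  `muP p  ≤  OS S  ≤  KS S  ≤  Gm`,   `PrinS S := KS S / OS S`,

* `Gm`      : `ℚ̄ˣ` with the Galois action (`Rep.ofAlgebraAutOnUnits ℚ ℚ̄`);
* `KS S`    : `ℚ_Sˣ`, the elements lying in some finite `F/ℚ` unramified outside `S`;
* `OS S`    : the `S`-units of `ℚ_S`: elements of `ℚ_Sˣ` which are units in every valuation subring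
              of `ℚ̄` lying over a prime `q ∉ S`;
* `muP p`   : the `p`-th roots of unity;
* `PrinS S` : `ℚ_Sˣ / (S-units)` = principal `S`-ideals of `ℚ_S`.

`J` (S-ideles) and `C` never become `GQ`-modules: all class field theory enters through
finite-level statements about `Lˣ` (see `Middle/Blocks.lean`).

Generic group theory: the restriction of an `NBasis` to an open subgroup.
-/
import Fermat.Agent.S55.Formal.Site
import Fermat.Prelude.Def_GroupCohomology_ContinuousUnramified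
import Fermat.Agent.S55.GaloisLevel

set_option autoImplicit false

open CategoryTheory
open scoped Pointwise

namespace Fermat.Agent.S55.Middle.Defs

noncomputable section

open Fermat.Agent.S55.Formal

/-- `ℚ̄` -/
abbrev Qbar : Type := AlgebraicClosure ℚ

/-- `Gal(ℚ̄/ℚ)` -/
abbrev GQ : Type := Qbar ≃ₐ[ℚ] Qbar

/-- `ℚ̄ˣ` as a `ℤ[GQ]`-module (additive notation). -/
abbrev Gm : Rep.{0, 0, 0} ℤ GQ := Rep.ofAlgebraAutOnUnits ℚ Qbar

/-- The underlying unit of an element of `Gm`. -/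
abbrev toUnit (x : Gm) : Qbarˣ := Additive.toMul (x : Additive Qbarˣ)

lemma Gm_ρ_apply (g : GQ) (x : Gm) : toUnit (Gm.ρ g x) = g • toUnit x := rfl

section modules

variable (S : Finset Nat.Primes)

/-- `x ∈ ℚ̄ˣ` lies in a finite extension of `ℚ` unramified outside `S`. -/
def InQS (x : Qbarˣ) : Prop :=
  ∃ F : IntermediateField ℚ Qbar, F.IsUnramifiedOutside S ∧ (x : Qbar) ∈ F

/-- `x ∈ ℚ̄ˣ` is a unit at every place of `ℚ̄` over a prime `q ∉ S`. -/
def IsSUnit (x : Qbarˣ) : Prop :=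
  ∀ q : Nat.Primes, q ∉ S → ∀ A : ValuationSubring Qbar, A.LiesOverPrime (q : ℕ) → x ∈ A.unitGroup

lemma inQS_one : InQS S 1 :=
  ⟨⊥, IntermediateField.isUnramifiedOutside_bot S, by simp⟩

lemma InQS.mul {x y : Qbarˣ} (hx : InQS S x) (hy : InQS S y) : InQS S (x * y) := by
  obtain ⟨F, hF, hxF⟩ := hx
  obtain ⟨F', hF', hyF⟩ := hy
  refine ⟨F ⊔ F', hF.sup hF', ?_⟩
  rw [Units.val_mul]
  exact mul_mem ((le_sup_left : F ≤ F ⊔ F') hxF) ((le_sup_right : F' ≤ F ⊔ F') hyF)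

lemma InQS.inv {x : Qbarˣ} (hx : InQS S x) : InQS S x⁻¹ := by
  obtain ⟨F, hF, hxF⟩ := hx
  refine ⟨F, hF, ?_⟩
  rw [Units.val_inv_eq_inv_val]
  exact inv_mem hxF

/-- `ℚ_Sˣ` as a subgroup of `ℚ̄ˣ`. -/
def qsSubgroup : Subgroup Qbarˣ where
  carrier := {x | InQS S x}
  one_mem' := inQS_one S
  mul_mem' := InQS.mul S
  inv_mem' := InQS.inv S

/-- The `S`-units of `ℚ̄` as a subgroup of `ℚ̄ˣ`. -/
def sUnitSubgroup : Subgroup Qbarˣ where
  carrier := {x | IsSUnit S x}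
  one_mem' := fun _ _ A _ => A.unitGroup.one_mem
  mul_mem' := fun hx hy q hq A hA => A.unitGroup.mul_mem (hx q hq A hA) (hy q hq A hA)
  inv_mem' := fun hx q hq A hA => A.unitGroup.inv_mem (hx q hq A hA)

/-- the submodule of `Gm` attached to a subgroup of `ℚ̄ˣ` -/
def toSub (H : Subgroup Qbarˣ) : Submodule ℤ Gm :=
  (AddSubgroup.toIntSubmodule (Subgroup.toAddSubgroup H) : Submodule ℤ (Additive Qbarˣ))

lemma mem_toSub (H : Subgroup Qbarˣ) (x : Gm) : x ∈ toSub H ↔ toUnit x ∈ H := Iff.rfl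

/-- `ℚ_Sˣ ≤ Gm` -/
def ksSub : Submodule ℤ Gm := toSub (qsSubgroup S)

/-- (`S`-units of `ℚ_S`) `≤ Gm` -/
def osSub : Submodule ℤ Gm := toSub (qsSubgroup S ⊓ sUnitSubgroup S)

/-- `μ_p ≤ Gm` -/
def muSub (p : ℕ) : Submodule ℤ Gm := toSub ((powMonoidHom p : Qbarˣ →* Qbarˣ).ker)

lemma mem_ksSub (x : Gm) : x ∈ ksSub S ↔ InQS S (toUnit x) := Iff.rfl

lemma mem_osSub (x : Gm) : x ∈ osSub S ↔ InQS S (toUnit x) ∧ IsSUnit S (toUnit x) := Iff.rfl

lemma mem_muSub (p : ℕ) (x : Gm) : x ∈ muSub p ↔ toUnit x ^ p = 1 := Iff.rfl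

lemma osSub_le_ksSub : osSub S ≤ ksSub S := fun _ hx => hx.1

end modules

/-- A subgroup `H` of `ℚ̄ˣ` is Galois stable. -/
def GalStable (H : Subgroup Qbarˣ) : Prop := ∀ (g : GQ) (x : Qbarˣ), x ∈ H → g • x ∈ H

lemma GalStable.le_comap {H : Subgroup Qbarˣ} (hH : GalStable H) (g : GQ) :
    toSub H ≤ (toSub H).comap (Gm.ρ g) := fun x hx => hH g (toUnit x) hx

/-- The `GQ`-module attached to a Galois stable subgroup of `ℚ̄ˣ`. -/
def subRep (H : Subgroup Qbarˣ) (hH : GalStable H) : Rep.{0, 0, 0} ℤ GQ :=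
  Rep.of (Gm.ρ.subrepresentation (toSub H) hH.le_comap)

/-- The quotient `GQ`-module `ℚ̄ˣ / H`. -/
def quotRep (H : Subgroup Qbarˣ) (hH : GalStable H) : Rep.{0, 0, 0} ℤ GQ :=
  Rep.of (Gm.ρ.quotient (toSub H) hH.le_comap)


/-! ### the concrete modules -/

section concrete

variable (S : Finset Nat.Primes)

lemma galStable_qsSubgroup : GalStable (qsSubgroup S) := by
  rintro g x ⟨F, hF, hx⟩
  refine ⟨F.map (g : Qbar →ₐ[ℚ] Qbar), Fermat.Agent.S55.GaloisLevel.IsUnramifiedOutside.map hF g, ?_⟩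
  exact ⟨(x : Qbar), hx, rfl⟩

lemma mem_unitGroup_iff_mem_and_inv_mem (A : ValuationSubring Qbar) (x : Qbarˣ) :
    x ∈ A.unitGroup ↔ (x : Qbar) ∈ A ∧ ((x⁻¹ : Qbarˣ) : Qbar) ∈ A := by
  constructor
  · intro hx
    have h1 : A.valuation (x : Qbar) = 1 := (ValuationSubring.mem_unitGroup_iff A x).1 hx
    have h2 : A.valuation ((x⁻¹ : Qbarˣ) : Qbar) = 1 :=
      (ValuationSubring.mem_unitGroup_iff A x⁻¹).1 (A.unitGroup.inv_mem hx)
    exact ⟨(A.valuation_le_one_iff _).1 h1.le, (A.valuation_le_one_iff _).1 h2.le⟩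
  · rintro ⟨h1, h2⟩
    rw [ValuationSubring.mem_unitGroup_iff]
    have h1' := (A.valuation_le_one_iff _).2 h1
    have h2' := (A.valuation_le_one_iff _).2 h2
    have hne : A.valuation (x : Qbar) ≠ 0 := by
      rw [Ne, map_eq_zero]; exact x.ne_zero
    rw [Units.val_inv_eq_inv_val, map_inv₀] at h2'
    exact le_antisymm h1' ((inv_le_one₀ (zero_lt_iff.2 hne)).1 h2')

lemma galStable_sUnitSubgroup : GalStable (sUnitSubgroup S) := by
  intro g x hx q hq A hA
  have hA' : (g⁻¹ • A).LiesOverPrime (q : ℕ) :=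
    (Fermat.Agent.S55.GaloisLevel.liesOverPrime_smul_iff g⁻¹ A q).2 hA
  have h1 := hx q hq (g⁻¹ • A) hA'
  rw [mem_unitGroup_iff_mem_and_inv_mem] at h1 ⊢
  obtain ⟨ha, hb⟩ := h1
  rw [ValuationSubring.mem_pointwise_smul_iff_inv_smul_mem, inv_inv] at ha hb
  refine ⟨ha, ?_⟩
  have : ((g • x)⁻¹ : Qbarˣ) = g • x⁻¹ := (smul_inv' g x).symm
  rw [this]
  exact hb

lemma galStable_inf {H H' : Subgroup Qbarˣ} (h : GalStable H) (h' : GalStable H') :
    GalStable (H ⊓ H') := fun g x hx => ⟨h g x hx.1, h' g x hx.2⟩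

lemma galStable_powKer (p : ℕ) : GalStable ((powMonoidHom p : Qbarˣ →* Qbarˣ).ker) := by
  intro g x hx
  rw [MonoidHom.mem_ker, powMonoidHom_apply] at hx ⊢
  rw [← smul_pow', hx, smul_one]

/-- `ℚ_Sˣ` as a `GQ`-module. -/
def KS : Rep.{0, 0, 0} ℤ GQ := subRep (qsSubgroup S) (galStable_qsSubgroup S)

/-- The `S`-units of `ℚ_S` as a `GQ`-module. -/
def OS : Rep.{0, 0, 0} ℤ GQ :=
  subRep (qsSubgroup S ⊓ sUnitSubgroup S)
    (galStable_inf (galStable_qsSubgroup S) (galStable_sUnitSubgroup S))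

/-- `μ_p` as a `ℤ[GQ]`-module. -/
def muP (p : ℕ) : Rep.{0, 0, 0} ℤ GQ := subRep _ (galStable_powKer p)

/-- the `S`-units inside `ℚ_Sˣ`, as a submodule of `KS S` -/
def osInKS : Submodule ℤ (KS S) := (osSub S).comap (toSub (qsSubgroup S)).subtype

lemma osInKS_le_comap (g : GQ) : osInKS S ≤ (osInKS S).comap ((KS S).ρ g) := by
  intro x hx
  exact (galStable_inf (galStable_qsSubgroup S) (galStable_sUnitSubgroup S)) g _ hx

/-- `ℚ_Sˣ / (S-units)`: the principal `S`-ideals of `ℚ_S`, as a `GQ`-module. -/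
def PrinS : Rep.{0, 0, 0} ℤ GQ := Rep.of ((KS S).ρ.quotient (osInKS S) (osInKS_le_comap S))

/-- the inclusion `OS S ⟶ KS S` -/
def osToKS : OS S ⟶ KS S :=
  Rep.ofHom ⟨Submodule.inclusion (osSub_le_ksSub S), fun _ => rfl⟩

/-- the projection `KS S ⟶ PrinS S` -/
def ksToPrin : KS S ⟶ PrinS S :=
  Rep.ofHom ⟨(osInKS S).mkQ, fun _ => rfl⟩

end concrete

/-! ### restriction of a basis to an open subgroup -/

section restrict

variable {G : Type} [Group G]

/-- `H` contains a basic subgroup. -/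
def IsOpenSub (𝒰 : NBasis G) (H : Subgroup G) : Prop := ∃ W, 𝒰.mem W ∧ W ≤ H

/-- The basis of `↥H` induced by a basis of `G`, for an open subgroup `H`: the whole group and the
basic subgroups of `G` contained in `H`. -/
def NBasis.sub (𝒰 : NBasis G) (H : Subgroup G) : NBasis ↥H where
  mem V := V = ⊤ ∨ ∃ W, 𝒰.mem W ∧ W ≤ H ∧ V = W.subgroupOf H
  normal := by
    rintro V (rfl | ⟨W, hW, -, rfl⟩)
    · infer_instance
    · haveI := 𝒰.normal hW
      infer_instance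
  top := Or.inl rfl
  inf := by
    rintro V V' hV hV'
    rcases hV with rfl | ⟨W, hW, hWH, rfl⟩
    · exact ⟨V', hV', by simp⟩
    · rcases hV' with rfl | ⟨W', hW', hWH', rfl⟩
      · exact ⟨W.subgroupOf H, Or.inr ⟨W, hW, hWH, rfl⟩, by simp⟩
      · obtain ⟨W'', hW'', hle⟩ := 𝒰.inf hW hW'
        refine ⟨W''.subgroupOf H, Or.inr ⟨W'', hW'', hle.trans (inf_le_left.trans hWH), rfl⟩, ?_⟩
        intro x hx
        have hx' : (x : G) ∈ W'' := Subgroup.mem_subgroupOf.1 hx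
        exact Subgroup.mem_inf.2 ⟨Subgroup.mem_subgroupOf.2 (hle hx').1,
          Subgroup.mem_subgroupOf.2 (hle hx').2⟩
  finiteIndex := by
    rintro V (rfl | ⟨W, hW, -, rfl⟩)
    · infer_instance
    · haveI := 𝒰.finiteIndex hW
      infer_instance

end restrict

end

end Fermat.Agent.S55.Middle.Defs
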