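/-
S55 / MIDDLE block (sub-architect helper17): the `K`-SITE.

For an open subgroup `P ≤ G_ℚ` (for the `S`-basis `globalBasis S`; `K = ℚ̄^P`) the Middle block works
over the group `↥P` with the induced basis `subBasis (globalBasis S) P`.  The places of `K` above a
prime `q` are the double cosets `P \ G_ℚ / Γ_q`; for `t : G_ℚ` the local group at `(q, t)` is

  `Dloc P q t = {d ∈ Γ_q | t · ι_q(d) · t⁻¹ ∈ P}`   (`Bridge.Mackey.conjSub`),

with the induced basis `LM.Defs.VP q (Dloc P q t)`, the homomorphism `κ_t : Dloc P q t →* ↥P`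
(`Bridge.Mackey.conjHom`) and the coefficient map

  `ℚ̄ˣ → Ω_qˣ`,  `x ↦ padicEmbedding q (t⁻¹ x)`     (`embLin q t`),

which together form ONE morphism of situations `locGm S P q t` (and `locSub …` for the sub-modules
`muP p ≤ OS S ≤ KS S` of `Gm`).

* `Reps S P`      : finite sets of representatives `T_q` of `P \ G_ℚ / Γ_q`, `q ∈ S`;
* `siteOver S P R : Site` : the `K`-site (`I = Σ q ∈ S, T_q`);
* `locGm`, `locSub`, `locKS`, `locOS`, `locMu` : localisation at `(q, t)` with values in `Ω_qˣ`.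
-/
import Fermat.Agent.S55.Middle.Defs
import Fermat.Agent.S55.Formal.PreludeLC
import Fermat.Agent.S55.Bridge.MackeyLC
import Fermat.Agent.S55.LM.Defs

set_option autoImplicit false
set_option linter.unusedSectionVars false

open CategoryTheory groupCohomology ExtCitation

namespace Fermat.Agent.S55.Middle.KSite

noncomputable section

open Fermat.Agent.S55.Formal
open Fermat.Agent.S55.Formal.PreludeLC hiding GQ Qbar
open Fermat.Agent.S55.Bridge.ShapiroLC Fermat.Agent.S55.Bridge.Mackey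
open Fermat.Agent.S55.Bridge.MackeyLC Fermat.Agent.S55.Middle.Defs

attribute [local instance] Fermat.Agent.S55.LM.Defs.fact_q

variable (S : Finset Nat.Primes) (P : Subgroup GQ)

/-- `P` is open for the `S`-basis (`K = ℚ̄^P` is a finite extension of `ℚ` unramified outside `S`). -/
def IsOpenS : Prop := ∃ N, (globalBasis S).mem N ∧ N ≤ P

/-- the induced basis on `↥P` -/
abbrev basisP : NBasis ↥P := subBasis (globalBasis S) P

/-- restriction of a `G_ℚ`-module to `P` -/
abbrev resP (M : Rep.{0, 0, 0} ℤ GQ) : Rep.{0, 0, 0} ℤ ↥P := Rep.res P.subtype M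

section local_groups

variable (q : Nat.Primes) (t : GQ)

/-- the local group at the place `(q, t)` of `K = ℚ̄^P` -/
abbrev Dloc : Subgroup (primeLocalGaloisGroup q) := conjSub (primeLocalToGlobal q) P t

/-- its basis -/
abbrev basisLoc : NBasis ↥(Dloc P q t) := Fermat.Agent.S55.LM.Defs.VP q (Dloc P q t)

/-- `κ_t : Dloc P q t →* ↥P`, `d ↦ t · ι_q(d) · t⁻¹` -/
abbrev kappa : ↥(Dloc P q t) →* ↥P := conjHom (primeLocalToGlobal q) P t

/-- `κ_t` is continuous. -/
theorem kappa_cont : IsCont (basisP S P) (basisLoc P q t) (kappa P q t) :=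
  (kap (globalBasis S) (localBasis (primeLocalToGlobal q)) (primeLocalToGlobal q)
    (isCont_local S (primeLocalToGlobal q)) P (Rep.trivial ℤ ↥P ℤ) t).cont

/-- `x ↦ padicEmbedding q (t⁻¹ x)` on units -/
def embUnits : Qbarˣ →* (Fermat.Agent.S55.LM.Defs.Om q)ˣ :=
  (Units.map ((padicEmbedding (q : ℕ) : Qbar →ₐ[ℚ] PadicAlgCl (q : ℕ)) :
      Qbar →* PadicAlgCl (q : ℕ))).comp
    (MulDistribMulAction.toMonoidHom Qbarˣ (t⁻¹ : GQ))

lemma coe_embUnits (x : Qbarˣ) :
    ((embUnits q t x : (Fermat.Agent.S55.LM.Defs.Om q)ˣ) : PadicAlgCl (q : ℕ)) =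
      padicEmbedding (q : ℕ) ((t⁻¹ : GQ) (x : Qbar)) := rfl

/-- the coefficient map `Gm → Ω_qˣ` at `(q, t)`, additively -/
def embLin : Gm →ₗ[ℤ] Fermat.Agent.S55.LM.Defs.unitsRep q :=
  (MonoidHom.toAdditive (embUnits q t)).toIntLinearMap

lemma toU_embLin (x : Gm) :
    Fermat.Agent.S55.LM.Defs.toU q (embLin q t x) = embUnits q t (toUnit x) := rfl

/-- equivariance of the coefficient map along `κ_t`. -/
theorem embLin_equivar (d : ↥(Dloc P q t)) (x : Gm) :
    embLin q t (Gm.ρ ((kappa P q t d : ↥P) : GQ) x) =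
      (Fermat.Agent.S55.LM.Defs.unitsRep q).ρ (d : primeLocalGaloisGroup q) (embLin q t x) := by
  apply Fermat.Agent.S55.LM.Defs.toU_injective
  apply Units.ext
  rw [Fermat.Agent.S55.LM.Defs.coe_unitsRep_ρ, toU_embLin, toU_embLin, coe_embUnits, coe_embUnits]
  have h1 : ((toUnit (Gm.ρ ((kappa P q t d : ↥P) : GQ) x) : Qbarˣ) : Qbar) =
      (t * primeLocalToGlobal q (d : primeLocalGaloisGroup q) * t⁻¹ : GQ) ((toUnit x : Qbarˣ) : Qbar) :=
    rfl
  rw [h1]
  have h2 : (t⁻¹ : GQ) ((t * primeLocalToGlobal q (d : primeLocalGaloisGroup q) * t⁻¹ : GQ)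
      ((toUnit x : Qbarˣ) : Qbar)) =
      primeLocalToGlobal q (d : primeLocalGaloisGroup q) ((t⁻¹ : GQ) ((toUnit x : Qbarˣ) : Qbar)) := by
    simp only [AlgEquiv.mul_apply]
    rw [← AlgEquiv.mul_apply t⁻¹ t, inv_mul_cancel, AlgEquiv.one_apply]
  rw [h2]
  exact padicEmbedding_localGaloisToGlobal (q : ℕ) _ _

/-- **Localisation at `(q, t)`** with values in `Ω_qˣ`, for the full module `Gm = ℚ̄ˣ`. -/
def locGm : Mor (basisP S P) (resP P Gm) (basisLoc P q t)
    (Fermat.Agent.S55.LM.Defs.Ox q (Dloc P q t)) where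
  f := kappa P q t
  cont := kappa_cont S P q t
  φ := embLin q t
  equivar d x := embLin_equivar P q t d x

/-- the inclusion of a Galois stable subgroup, as a morphism of representations -/
def subRepIncl (H : Subgroup Qbarˣ) (hH : GalStable H) : subRep H hH ⟶ Gm :=
  Rep.ofHom ⟨(toSub H).subtype, fun _ => rfl⟩

/-- **Localisation at `(q, t)`** with values in `Ω_qˣ`, for a sub-module of `Gm`. -/
def locSub (H : Subgroup Qbarˣ) (hH : GalStable H) :
    Mor (basisP S P) (resP P (subRep H hH)) (basisLoc P q t)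
      (Fermat.Agent.S55.LM.Defs.Ox q (Dloc P q t)) :=
  (Mor.ofHom (basisP S P) ((Rep.resFunctor P.subtype).map (subRepIncl H hH))).comp (locGm S P q t)

/-- localisation of `ℚ_Sˣ` -/
def locKS : Mor (basisP S P) (resP P (KS S)) (basisLoc P q t)
    (Fermat.Agent.S55.LM.Defs.Ox q (Dloc P q t)) :=
  locSub S P q t _ (galStable_qsSubgroup S)

/-- localisation of the `S`-units -/
def locOS : Mor (basisP S P) (resP P (OS S)) (basisLoc P q t)
    (Fermat.Agent.S55.LM.Defs.Ox q (Dloc P q t)) :=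
  locSub S P q t _ (galStable_inf (galStable_qsSubgroup S) (galStable_sUnitSubgroup S))

/-- localisation of `μ_p` -/
def locMu (p : ℕ) : Mor (basisP S P) (resP P (muP p)) (basisLoc P q t)
    (Fermat.Agent.S55.LM.Defs.Ox q (Dloc P q t)) :=
  locSub S P q t _ (galStable_powKer p)

end local_groups

/-! ### representatives of the places above `S`, and the `K`-site -/

/-- Finite sets of representatives of the double cosets `P \ G_ℚ / Γ_q`, `q ∈ S`
(= the places of `K = ℚ̄^P` above `q`). -/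
structure Reps where
  /-- the representatives -/
  T : ↥S → Set GQ
  fin : ∀ q, Finite ↥(T q)
  one_mem : ∀ q, (1 : GQ) ∈ T q
  covers : ∀ q : ↥S, Covers (V := P) (primeLocalToGlobal q.1) (T q)
  separated : ∀ q : ↥S, Separated (V := P) (primeLocalToGlobal q.1) (T q)

attribute [instance] Reps.fin

/-- representatives exist when `P` has finite index. -/
theorem nonempty_reps [P.FiniteIndex] : Nonempty (Reps S P) := by
  choose T h1 hc hs using fun q : ↥S => exists_reps (V := P) (primeLocalToGlobal q.1)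
  refine ⟨⟨T, fun q => ?_, h1, hc, hs⟩⟩
  -- `t ↦ t⁻¹ P` is injective on `T q`
  refine Finite.of_injective (fun t : ↥(T q) => (QuotientGroup.mk ((t : GQ)⁻¹) : GQ ⧸ P)) ?_
  intro t t' h
  have h' : ((t : GQ)⁻¹)⁻¹ * (t' : GQ)⁻¹ ∈ P := QuotientGroup.eq.1 h
  rw [inv_inv] at h'
  apply Subtype.ext
  have := hs q (t' : GQ) t'.2 (t : GQ) t.2 ⟨⟨(t : GQ) * (t' : GQ)⁻¹, h'⟩, 1, by simp⟩
  exact this.symm

variable {S P}

/-- the places of `K = ℚ̄^P` above `S` -/
abbrev Reps.Idx (R : Reps S P) : Type := Σ q : ↥S, ↥(R.T q)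

instance (R : Reps S P) : Fintype R.Idx := by
  classical
  haveI : ∀ q : ↥S, Fintype ↥(R.T q) := fun q => Fintype.ofFinite _
  infer_instance

variable (S P)

/-- **The `K`-site**: global group `↥P` with the induced `S`-basis, places `(q, t)`, `q ∈ S`,
`t ∈ T_q`, local groups `Dloc P q t ≤ Γ_q` with their induced bases, localisation `κ_t`. -/
@[reducible] def siteOver (R : Reps S P) : Site where
  G := ↥P
  𝒰 := basisP S P
  I := R.Idx
  dec := Classical.decEq _
  Γ := fun i => ↥(Dloc P i.1.1 i.2.1)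
  𝒱 := fun i => basisLoc P i.1.1 i.2.1
  ι := fun i => kappa P i.1.1 i.2.1
  cont := fun i => kappa_cont S P i.1.1 i.2.1

end

end Fermat.Agent.S55.Middle.KSite
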