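/-
S55 / Middle / LocalLCCore (helper72): the ABSTRACT KUMMER CORE of the local colimit layer.

`G` a group with a basis `𝒰 : NBasis G`, `A : Rep k G` (`k = ℤ` in the application; generic `k` avoids the `ℤ`-module instance trap) a
SMOOTH `p`-divisible module (think of
`Ωˣ = (PadicAlgCl q)ˣ` over an open subgroup of the local Galois group), `ι : T ⟶ A` the inclusion of
its `p`-torsion (think of `μ_p`, or `𝔽_p` when `μ_p` is fixed by `G`).

From the four facts about the LC cohomology of `A`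
  (H1) `H¹_LC(A) = 0`                      (Hilbert 90),
  (H3) `H³_LC(A) = 0`                      (local Tate),
  (D)  `H²_LC(A)` is `p`-divisible,
  (C)  the `p`-torsion of `H²_LC(A)` is "cyclic": `p x = p y = 0`, `x ≠ 0` ⇒ `y ∈ ℤ x`
we deduce
  * `h2_injective`  : `H²_LC(T) → H²_LC(A)` is injective,
  * `h2_cyclic`     : `x ≠ 0 ⇒ y ∈ ℤ x` in `H²_LC(T)`      (so `dim_{𝔽_p} H²_LC(T) ≤ 1`),
  * `vanish₃`       : `H³_LC(T) = 0`.
Direct cochain arguments (the LES machinery of `CoefLES` wants `IsUSmooth`, which `Ωˣ` is not).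
-/
import Mathlib
import Fermat.Agent.S55.Formal.LC
import Fermat.Agent.S55.Formal.SmoothLift

set_option autoImplicit false

open CategoryTheory groupCohomology

namespace Fermat.Agent.S55.Middle.LocalLCCore

open Fermat.Agent.S55.Formal

variable {k : Type} [CommRing k] {G : Type} [Group G] (𝒰 : NBasis G) (A T : Rep.{0, 0, 0} k G)
  (p : k)

/-- multiplication by `p` as an endomorphism of the representation `A` -/
noncomputable def pMul : A ⟶ A :=
  Rep.ofHom (ρ := A.ρ) (σ := A.ρ)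
    (((p • LinearMap.id : A.V →ₗ[k] A.V)).intertwiningMap_of_isIntertwiningMap _ _
      (fun g a => by simp))

@[simp] lemma pMul_apply (a : A) : (pMul A p).hom a = p • a := rfl

/-- `ι : T ⟶ A` is the inclusion of the `p`-torsion of the smooth `p`-divisible module `A`. -/
structure IsKummer (ι : T ⟶ A) : Prop where
  inj : Function.Injective ι.hom
  tors : ∀ a : A, p • a = 0 ↔ ∃ t : T, ι.hom t = a
  div : ∀ a : A, ∃ b : A, p • b = a
  smooth : SmoothLift.IsSmooth 𝒰 A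

variable {𝒰 A T p} {ι : T ⟶ A}

namespace IsKummer

variable (h : IsKummer 𝒰 A T p ι)
include h

lemma pMul_surjective : Function.Surjective (pMul A p).hom := fun a => h.div a

lemma p_smul_ι (t : T) : p • ι.hom t = 0 := (h.tors _).2 ⟨t, rfl⟩

omit h in
lemma ι_ρ (g : G) (t : T) : ι.hom (T.ρ g t) = A.ρ g (ι.hom t) := Rep.hom_comm_apply ι g t

omit h in
/-- a set-theoretic retraction of `ι` -/
noncomputable def σ (ι : T ⟶ A) (a : A) : T := by
  classical
  exact if ha : ∃ t : T, ι.hom t = a then ha.choose else 0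

lemma ι_σ {a : A} (ha : p • a = 0) : ι.hom (σ ι a) = a := by
  classical
  have h' : ∃ t : T, ι.hom t = a := (h.tors a).1 ha
  unfold σ
  rw [dif_pos h']
  exact h'.choose_spec

/-! ### descent of torsion-valued cochains to `T` -/

lemma descend₁ {F : G → A} (hF : F ∈ C₁ 𝒰 A) (ht : ∀ g, p • F g = 0) :
    ∃ F' : G → T, F' ∈ C₁ 𝒰 T ∧ ∀ g, ι.hom (F' g) = F g := by
  obtain ⟨U, hU, hl⟩ := hF
  refine ⟨fun g => σ ι (F g), ⟨U, hU, fun s hs g => ⟨?_, ?_⟩⟩, fun g => h.ι_σ (ht g)⟩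
  · simp only [(hl s hs g).1]
  · apply h.inj
    rw [ι_ρ, h.ι_σ (ht g), (hl s hs g).2]

lemma descend₂ {F : G × G → A} (hF : F ∈ C₂ 𝒰 A) (ht : ∀ x, p • F x = 0) :
    ∃ F' : G × G → T, F' ∈ C₂ 𝒰 T ∧ ∀ x, ι.hom (F' x) = F x := by
  obtain ⟨U, hU, hl⟩ := hF
  refine ⟨fun x => σ ι (F x), ⟨U, hU, fun s hs g g' => ⟨?_, ?_, ?_⟩⟩, fun x => h.ι_σ (ht x)⟩
  · simp only [(hl s hs g g').1]
  · simp only [(hl s hs g g').2.1]
  · apply h.inj
    rw [ι_ρ, h.ι_σ (ht _), (hl s hs g g').2.2]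

end IsKummer

/-! ### the hypotheses on `A` -/

/-- (H1): every LC `1`-cocycle of `A` is an LC coboundary. -/
def Vanish₁ (𝒰 : NBasis G) (A : Rep.{0, 0, 0} k G) : Prop :=
  ∀ f : ↥(C₁ 𝒰 A), dC₁ 𝒰 A f = 0 → ∃ m : ↥(C₀ 𝒰 A), dC₀ 𝒰 A m = f

/-- (D): `H²_LC(A)` is `p`-divisible. -/
def H2Divisible (𝒰 : NBasis G) (A : Rep.{0, 0, 0} k G) (p : k) : Prop :=
  ∀ x : H2 𝒰 A, ∃ y : H2 𝒰 A, p • y = x

/-- (C): the `p`-torsion of `H²_LC(A)` is cyclic. -/
def H2TorsCyclic (𝒰 : NBasis G) (A : Rep.{0, 0, 0} k G) (p : k) : Prop :=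
  ∀ x y : H2 𝒰 A, p • x = 0 → p • y = 0 → x ≠ 0 → ∃ n : k, y = n • x

/-! ### the conclusions -/

section Main

variable (h : IsKummer 𝒰 A T p ι)
include h

/-- `H²_LC(T) → H²_LC(A)` is injective when `H¹_LC(A) = 0`. -/
theorem h2_injective (h1 : Vanish₁ 𝒰 A) : Function.Injective (Mor.ofHom 𝒰 ι).h2 := by
  rw [injective_iff_map_eq_zero]
  intro x hx
  obtain ⟨f, hf, rfl⟩ := Hmid.exists_of x
  set α := Mor.ofHom 𝒰 ι with hα
  have hcf : dC₂ 𝒰 A (α.c₂ f) = 0 := by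
    have := LinearMap.congr_fun α.c₃_dC₂ f
    simp only [LinearMap.comp_apply] at this
    rw [← this, hf, map_zero]
  have e : α.h2 (Hmid.of f hf) = Hmid.of (α.c₂ f) hcf := rfl
  rw [e, Hmid.of_eq_zero_iff] at hx
  obtain ⟨b, hb⟩ := hx
  -- `p • b` is a 1-cocycle of `A`
  have hpb : dC₁ 𝒰 A (p • b) = 0 := by
    rw [map_smul, hb]
    apply Subtype.ext
    funext x
    show p • ι.hom ((f : G × G → T) x) = 0
    exact h.p_smul_ι _
  obtain ⟨m, hm⟩ := h1 _ hpb
  obtain ⟨m', hm'⟩ := h.div (m : A)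
  have hm'C : m' ∈ C₀ 𝒰 A := h.smooth m'
  -- `b' = b - d m'` is `p`-torsion valued
  set b' : ↥(C₁ 𝒰 A) := b - dC₀ 𝒰 A ⟨m', hm'C⟩ with hb'
  have hpb' : p • b' = 0 := by
    rw [hb', smul_sub, ← map_smul, ← hm]
    have : p • (⟨m', hm'C⟩ : ↥(C₀ 𝒰 A)) = m := Subtype.ext hm'
    rw [this, sub_self]
  have hb'd : dC₁ 𝒰 A b' = α.c₂ f := by
    rw [hb', map_sub, dC₁_dC₀, sub_zero, hb]
  have ht : ∀ g, p • (b' : G → A) g = 0 := fun g => by
    have := congrFun (congrArg Subtype.val hpb') g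
    exact this
  obtain ⟨F', hF', hFι⟩ := h.descend₁ b'.2 ht
  rw [Hmid.of_eq_zero_iff]
  refine ⟨⟨F', hF'⟩, ?_⟩
  -- check after applying the injective `α.c₂`
  have hinj : Function.Injective α.c₂ := by
    intro u v huv
    apply Subtype.ext
    funext x
    apply h.inj
    exact congrFun (congrArg Subtype.val huv) x
  apply hinj
  have hc : α.c₁ ⟨F', hF'⟩ = b' := Subtype.ext (funext hFι)
  have := LinearMap.congr_fun α.c₂_dC₁ ⟨F', hF'⟩
  simp only [LinearMap.comp_apply] at this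
  rw [this, hc, hb'd]

/-- `H²_LC(T)` is "cyclic": any nonzero class generates. -/
theorem h2_cyclic (h1 : Vanish₁ 𝒰 A) (hc : H2TorsCyclic 𝒰 A p) (x y : H2 𝒰 T) (hx : x ≠ 0) :
    ∃ n : k, y = n • x := by
  set α := Mor.ofHom 𝒰 ι with hα
  have hinj := h2_injective h h1
  have htors : ∀ z : H2 𝒰 T, p • α.h2 z = 0 := by
    intro z
    obtain ⟨f, hf, rfl⟩ := Hmid.exists_of z
    have hpf : p • f = 0 := by
      apply Subtype.ext
      funext x
      apply h.inj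
      show ι.hom (p • (f : G × G → T) x) = ι.hom 0
      rw [map_smul, h.p_smul_ι, map_zero]
    rw [← map_smul, ← Hmid.of_smul p hf]
    have : (Hmid.of (p • f) (by rw [map_smul, hf, smul_zero]) :
        H2 𝒰 T) = 0 := by
      rw [Hmid.of_eq_zero_iff]
      exact ⟨0, by rw [map_zero, hpf]⟩
    rw [this, map_zero]
  have hx' : α.h2 x ≠ 0 := fun h0 => hx (hinj (by rw [h0, map_zero]))
  obtain ⟨n, hn⟩ := hc (α.h2 x) (α.h2 y) (htors x) (htors y) hx'
  exact ⟨n, hinj (by rw [hn, map_smul])⟩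

/-- `H³_LC(T) = 0` when `H³_LC(A) = 0` and `H²_LC(A)` is `p`-divisible. -/
theorem vanish₃ (h3 : Vanish₃ 𝒰 A) (hd : H2Divisible 𝒰 A p) : Vanish₃ 𝒰 T := by
  intro f hf
  set α := Mor.ofHom 𝒰 ι with hα
  -- push `f` to `A`
  have hcf : dC₃ 𝒰 A (α.c₃ f) = 0 := by
    have := LinearMap.congr_fun α.p₄_dC₃ f
    simp only [LinearMap.comp_apply] at this
    rw [← this, hf, map_zero]
  obtain ⟨b, hb⟩ := h3 _ hcf
  -- `p • b` is a 2-cocycle of `A`
  have hpb : dC₂ 𝒰 A (p • b) = 0 := by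
    rw [map_smul, hb]
    apply Subtype.ext
    funext x
    show p • ι.hom ((f : G × G × G → T) x) = 0
    exact h.p_smul_ι _
  obtain ⟨y, hy⟩ := hd (Hmid.of (p • b) hpb)
  obtain ⟨c, hc, rfl⟩ := Hmid.exists_of y
  rw [← Hmid.of_smul p hc, Hmid.of_eq_of_iff] at hy
  obtain ⟨e, he⟩ := hy
  -- lift `e = p • e'`
  obtain ⟨e', he'⟩ := SmoothLift.c₁_surjective (𝒰 := 𝒰) (pMul A p) h.smooth h.pMul_surjective e
  have he'' : p • e' = e := by
    rw [← he']
    apply Subtype.ext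
    funext g
    rfl
  -- `b' = b - c + d e'` is `p`-torsion valued with `d b' = f`
  set b' : ↥(C₂ 𝒰 A) := b - c + dC₁ 𝒰 A e' with hb'
  have hpb' : p • b' = 0 := by
    rw [hb', smul_add, smul_sub, ← map_smul, he'', he]
    abel
  have hb'd : dC₂ 𝒰 A b' = α.c₃ f := by
    rw [hb', map_add, map_sub, dC₂_dC₁, hc, sub_zero, add_zero, hb]
  have ht : ∀ x, p • (b' : G × G → A) x = 0 := fun x => by
    have := congrFun (congrArg Subtype.val hpb') x
    exact this
  obtain ⟨F', hF', hFι⟩ := h.descend₂ b'.2 ht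
  refine ⟨⟨F', hF'⟩, ?_⟩
  have hinj : Function.Injective α.c₃ := by
    intro u v huv
    apply Subtype.ext
    funext x
    apply h.inj
    exact congrFun (congrArg Subtype.val huv) x
  apply hinj
  have hcc : α.c₂ ⟨F', hF'⟩ = b' := Subtype.ext (funext hFι)
  have := LinearMap.congr_fun α.c₃_dC₂ ⟨F', hF'⟩
  simp only [LinearMap.comp_apply] at this
  rw [this, hcc, hb'd]

end Main

end Fermat.Agent.S55.Middle.LocalLCCore
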