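/-
S55 / Middle / LocalLCLevels (helper72): the hypotheses of `LocalLCCore` from FINITE LEVELS.

`G` a group with basis `𝒰`, `A : Rep k G`.  For `W ∈ 𝒰` the finite level is Mathlib's
`groupCohomology` of the finite group `G ⧸ W` with values in `A.quotientToInvariants W` (`= A^W`).
Using the level dictionary `Formal/LCLevel.lean` (helper60) we prove:

* `h2TorsCyclic_of_levels` : if every `H²(G/W, A^W)` is a finite cyclic group, then the `p`-torsion of
  `H²_LC(A)` is cyclic (`LocalLCCore.H2TorsCyclic`), `p` a prime number;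
* `h2Divisible_of_levels`  : if every `H²(G/W, A^W)` is cyclic of order `[G : W]` and every level `U` has a
  deeper level `W` with `p [G:U] ∣ [G:W]`, then `H²_LC(A)` is `p`-divisible (`LocalLCCore.H2Divisible`);
* `vanish₁_of_levels'`, and `LCLevel.vanish₃_of_levels` for (H1), (H3).

(Class formation axioms at finite level ⇒ the colimit statements `Br[p]` cyclic, `Br` divisible.)
-/
import Mathlib
import Fermat.Agent.S55.Middle.LocalLCCore
import Fermat.Agent.S55.Formal.LCLevel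
import Fermat.Agent.S55.Tate.ResCor

set_option autoImplicit false
set_option linter.style.haveILetI false

open CategoryTheory groupCohomology

namespace Fermat.Agent.S55.Middle.LocalLCLevels

open Fermat.Agent.S55.Formal Fermat.Agent.S55.Formal.LCLevel Fermat.Agent.S55.Middle.LocalLCCore

/-! ### two lemmas on finite cyclic groups -/

section cyclic

variable {H : Type*} [AddCommGroup H]

/-- In a finite cyclic group the `p`-torsion is cyclic: a nonzero `p`-torsion element generates it. -/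
theorem exists_zsmul_of_prime_torsion [IsAddCyclic H] [Finite H] {p : ℕ} (hp : p.Prime) {x y : H}
    (hx : p • x = 0) (hy : p • y = 0) (hx0 : x ≠ 0) : ∃ n : ℤ, y = n • x := by
  classical
  let _ : Fintype H := Fintype.ofFinite H
  have : Fact p.Prime := ⟨hp⟩
  -- the `p`-torsion subgroup
  let S : AddSubgroup H := (nsmulAddMonoidHom (α := H) p).ker
  have hxS : x ∈ S := hx
  have hyS : y ∈ S := hy
  have hcardS : Nat.card S ≤ p := by
    have h1 := IsAddCyclic.card_nsmul_eq_zero_le (α := H) hp.pos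
    have h2 : Nat.card S = (Finset.univ.filter fun a : H => p • a = 0).card := by
      rw [Nat.card_eq_fintype_card, Fintype.card_subtype]
      congr 1
      ext a
      simp only [Finset.mem_filter, Finset.mem_univ, true_and]
      rfl
    rw [h2]
    exact h1
  have hle : AddSubgroup.zmultiples x ≤ S := by
    rw [AddSubgroup.zmultiples_le]
    exact hxS
  have hcardx : Nat.card (AddSubgroup.zmultiples x) = p := by
    rw [Nat.card_zmultiples]
    exact addOrderOf_eq_prime hx hx0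
  have heq : AddSubgroup.zmultiples x = S :=
    AddSubgroup.eq_of_le_of_card_ge hle (by rw [hcardx]; exact hcardS)
  have : y ∈ AddSubgroup.zmultiples x := by rw [heq]; exact hyS
  obtain ⟨n, hn⟩ := AddSubgroup.mem_zmultiples_iff.1 this
  exact ⟨n, hn.symm⟩

/-- In a cyclic group of order `n`, an element killed by `m` with `p m ∣ n` is divisible by `p`. -/
theorem exists_nsmul_eq_of_cyclic [IsAddCyclic H] {n m p : ℕ} (hn : Nat.card H = n) (hm : m ≠ 0)
    (hdvd : p * m ∣ n) {x : H} (hx : m • x = 0) : ∃ y : H, p • y = x := by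
  obtain ⟨u, hu⟩ := IsAddCyclic.exists_generator (α := H)
  have hord : addOrderOf u = n := by rw [addOrderOf_eq_card_of_forall_mem_zmultiples hu, hn]
  obtain ⟨a, rfl⟩ := AddSubgroup.mem_zmultiples_iff.1 (hu x)
  obtain ⟨t, ht⟩ := hdvd
  have h1 : ((m : ℤ) * a) • u = 0 := by
    rw [mul_smul, natCast_zsmul]; exact hx
  have h2 : (n : ℤ) ∣ (m : ℤ) * a := by
    rw [← hord]; exact addOrderOf_dvd_iff_zsmul_eq_zero.2 h1
  have h3 : ((p : ℤ) * t) ∣ a := by
    have : (m : ℤ) * ((p : ℤ) * t) ∣ (m : ℤ) * a := by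
      have e : (n : ℤ) = (m : ℤ) * ((p : ℤ) * t) := by
        rw [ht]; push_cast; ring
      rw [← e]; exact h2
    exact Int.dvd_of_mul_dvd_mul_left (by exact_mod_cast hm) this
  obtain ⟨a', ha'⟩ := h3
  refine ⟨((t : ℤ) * a') • u, ?_⟩
  rw [← natCast_zsmul, ← mul_smul, ha']
  congr 1
  ring

end cyclic

variable {k : Type} [CommRing k] {G : Type} [Group G] (𝒰 : NBasis G) (A : Rep.{0, 0, 0} k G)

/-! ### one finite level -/

section oneLevel

variable (W : Subgroup G) [W.Normal] [Finite (G ⧸ W)] (hW : 𝒰.mem W)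

local notation "B" => A.quotientToInvariants W
local notation "α" => levelMor 𝒰 A W hW

/-- inflated cochains have level `W` -/
lemma isLevel₁_p₁ (b : G ⧸ W → A.quotientToInvariants W) :
    IsLevel₁ A W ((levelMor 𝒰 A W hW).p₁ b) := by
  intro s hs g
  refine ⟨?_, ?_⟩
  · show ((b (QuotientGroup.mk (g * s)) : A.quotientToInvariants W) : A) = b (QuotientGroup.mk g)
    have : (QuotientGroup.mk (g * s) : G ⧸ W) = QuotientGroup.mk g :=
      QuotientGroup.eq.2 (by simpa using hs)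
    rw [this]
  · exact (b (QuotientGroup.mk g)).2 ⟨s, hs⟩

/-- a level-`W` cochain on `G` with a level-`W` primitive: the finite-level class vanishes, and
conversely -/
lemma H2π_eq_zero_iff_level (c : ↥(cocycles₂ (A.quotientToInvariants W))) :
    (H2π (A.quotientToInvariants W)).hom c = 0 ↔
      ∃ b : G → A, IsLevel₁ A W b ∧ (d₁₂ A).hom b = (levelMor 𝒰 A W hW).p₂ c.1 := by
  rw [H2π_eq_zero_iff]
  constructor
  · rintro ⟨b₀, hb₀⟩
    refine ⟨(levelMor 𝒰 A W hW).p₁ b₀, isLevel₁_p₁ 𝒰 A W hW b₀, ?_⟩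
    rw [← (levelMor 𝒰 A W hW).p₂_d₁₂]
    exact congrArg _ hb₀
  · rintro ⟨b, hb, hbc⟩
    obtain ⟨b₀, rfl⟩ := exists_cochain₁ (𝒰 := 𝒰) W hW hb
    refine ⟨b₀, ?_⟩
    apply p₂_injective (𝒰 := 𝒰) W hW
    rw [(levelMor 𝒰 A W hW).p₂_d₁₂]
    exact hbc

/-- a level-`W` `2`-cocycle on `G` comes from a finite-level cocycle -/
lemma exists_cocycle₂ {f : G × G → A} (hf : IsLevel₂ A W f) (hdf : (d₂₃ A).hom f = 0) :
    ∃ c : ↥(cocycles₂ (A.quotientToInvariants W)),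
      (levelMor 𝒰 A W hW).p₂ c.1 = f := by
  obtain ⟨c, hc⟩ := exists_cochain₂ (𝒰 := 𝒰) W hW hf
  refine ⟨⟨c, ?_⟩, hc⟩
  show (d₂₃ (A.quotientToInvariants W)).hom c = 0
  apply p₃_injective (𝒰 := 𝒰) W hW
  rw [(levelMor 𝒰 A W hW).p₃_d₂₃, hc, map_zero]
  exact hdf

include 𝒰 hW in
/-- (FC) at one level: cyclicity of the `p`-torsion. -/
theorem level_tors_cyclic [IsAddCyclic (H2 (A.quotientToInvariants W))]
    [Finite (H2 (A.quotientToInvariants W))] {p : ℕ} (hp : p.Prime)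
    {f g : G × G → A} (hf : IsLevel₂ A W f) (hg : IsLevel₂ A W g)
    (hdf : (d₂₃ A).hom f = 0) (hdg : (d₂₃ A).hom g = 0)
    (hpf : ∃ e : G → A, IsLevel₁ A W e ∧ (d₁₂ A).hom e = (p : k) • f)
    (hpg : ∃ e : G → A, IsLevel₁ A W e ∧ (d₁₂ A).hom e = (p : k) • g)
    (hne : ¬ ∃ b : G → A, IsLevel₁ A W b ∧ (d₁₂ A).hom b = f) :
    ∃ (n : k) (b : G → A), IsLevel₁ A W b ∧ (d₁₂ A).hom b = g - n • f := by
  obtain ⟨cf, hcf⟩ := exists_cocycle₂ 𝒰 A W hW hf hdf
  obtain ⟨cg, hcg⟩ := exists_cocycle₂ 𝒰 A W hW hg hdg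
  have hpX : ∀ (c : ↥(cocycles₂ B)) (f : G × G → A), (α).p₂ c.1 = f →
      (∃ e : G → A, IsLevel₁ A W e ∧ (d₁₂ A).hom e = (p : k) • f) →
      p • (H2π B).hom c = 0 := by
    intro c f hc hpf
    rw [← map_nsmul, ← Nat.cast_smul_eq_nsmul k, H2π_eq_zero_iff_level 𝒰 A W hW]
    obtain ⟨e, he, hde⟩ := hpf
    refine ⟨e, he, ?_⟩
    rw [hde, ← hc]
    show (p : k) • (α).p₂ c.1 = (α).p₂ ((p : k) • c).1
    rw [Submodule.coe_smul, map_smul]
  have hX0 : (H2π B).hom cf ≠ 0 := by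
    intro h0
    apply hne
    obtain ⟨b, hb, hbc⟩ := (H2π_eq_zero_iff_level 𝒰 A W hW cf).1 h0
    exact ⟨b, hb, by rw [hbc, hcf]⟩
  obtain ⟨n, hn⟩ := exists_zsmul_of_prime_torsion hp (hpX cf f hcf hpf) (hpX cg g hcg hpg) hX0
  have h0 : (H2π B).hom (cg - (n : k) • cf) = 0 := by
    rw [map_sub, map_smul, Int.cast_smul_eq_zsmul, hn, sub_self]
  obtain ⟨b, hb, hbc⟩ := (H2π_eq_zero_iff_level 𝒰 A W hW _).1 h0
  refine ⟨(n : k), b, hb, ?_⟩
  rw [hbc, ← hcf, ← hcg]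
  show (α).p₂ (cg - (n : k) • cf).1 = _
  rw [Submodule.coe_sub, Submodule.coe_smul, map_sub, map_smul]

include 𝒰 hW in
/-- (FD) at one level: a class killed by `m`, in a cyclic `H²` of order `n` with `p m ∣ n`, is
divisible by `p`. -/
theorem level_divisible [IsAddCyclic (H2 (A.quotientToInvariants W))] {n m p : ℕ}
    (hn : Nat.card (H2 (A.quotientToInvariants W)) = n) (hm : m ≠ 0) (hdvd : p * m ∣ n)
    {f : G × G → A} (hf : IsLevel₂ A W f) (hdf : (d₂₃ A).hom f = 0)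
    (hmf : ∃ e : G → A, IsLevel₁ A W e ∧ (d₁₂ A).hom e = (m : k) • f) :
    ∃ (c : G × G → A) (e : G → A), IsLevel₂ A W c ∧ (d₂₃ A).hom c = 0 ∧ IsLevel₁ A W e ∧
      f = (p : k) • c + (d₁₂ A).hom e := by
  obtain ⟨cf, hcf⟩ := exists_cocycle₂ 𝒰 A W hW hf hdf
  have hmX : m • (H2π B).hom cf = 0 := by
    rw [← map_nsmul, ← Nat.cast_smul_eq_nsmul k, H2π_eq_zero_iff_level 𝒰 A W hW]
    obtain ⟨e, he, hde⟩ := hmf
    refine ⟨e, he, ?_⟩
    rw [hde, ← hcf]
    show (m : k) • (α).p₂ cf.1 = (α).p₂ ((m : k) • cf).1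
    rw [Submodule.coe_smul, map_smul]
  obtain ⟨Y, hY⟩ := exists_nsmul_eq_of_cyclic hn hm hdvd hmX
  obtain ⟨cy, rfl⟩ := (ModuleCat.epi_iff_surjective (H2π B)).1 inferInstance Y
  have h0 : (H2π B).hom (cf - (p : k) • cy) = 0 := by
    rw [map_sub, map_smul, Nat.cast_smul_eq_nsmul, hY, sub_self]
  obtain ⟨b, hb, hbc⟩ := (H2π_eq_zero_iff_level 𝒰 A W hW _).1 h0
  refine ⟨(α).p₂ cy.1, b, ?_, ?_, hb, ?_⟩
  · intro s hs g h
    refine ⟨?_, ?_, ?_⟩
    · show ((cy.1 (QuotientGroup.mk (g * s), QuotientGroup.mk h) : B) : A) =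
        cy.1 (QuotientGroup.mk g, QuotientGroup.mk h)
      have : (QuotientGroup.mk (g * s) : G ⧸ W) = QuotientGroup.mk g :=
        QuotientGroup.eq.2 (by simpa using hs)
      rw [this]
    · show ((cy.1 (QuotientGroup.mk g, QuotientGroup.mk (h * s)) : B) : A) =
        cy.1 (QuotientGroup.mk g, QuotientGroup.mk h)
      have : (QuotientGroup.mk (h * s) : G ⧸ W) = QuotientGroup.mk h :=
        QuotientGroup.eq.2 (by simpa using hs)
      rw [this]
    · exact (cy.1 (QuotientGroup.mk g, QuotientGroup.mk h)).2 ⟨s, hs⟩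
  · rw [← (α).p₃_d₂₃]
    have : (d₂₃ B).hom cy.1 = 0 := cy.2
    rw [this, map_zero]
  · rw [hbc]
    have : (α).p₂ (cf - (p : k) • cy).1 =
        f - (p : k) • (α).p₂ cy.1 := by
      rw [Submodule.coe_sub, Submodule.coe_smul, map_sub, map_smul, hcf]
    rw [this]
    abel

include 𝒰 hW in
/-- the index kills level-`W` classes: `[G:W] • f` is a level-`W` coboundary. -/
theorem level_index_smul {f : G × G → A} (hf : IsLevel₂ A W f) (hdf : (d₂₃ A).hom f = 0) :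
    ∃ e : G → A, IsLevel₁ A W e ∧ (d₁₂ A).hom e = (W.index : k) • f := by
  obtain ⟨cf, hcf⟩ := exists_cocycle₂ 𝒰 A W hW hf hdf
  have h0 : (H2π B).hom ((W.index : k) • cf) = 0 := by
    rw [map_smul, Nat.cast_smul_eq_nsmul]
    have := Fermat.Agent.S55.Tate.ResCor.card_smul_eq_zero₂ B ((H2π B).hom cf)
    rw [Subgroup.index_eq_card]
    exact this
  obtain ⟨e, he, hde⟩ := (H2π_eq_zero_iff_level 𝒰 A W hW _).1 h0
  refine ⟨e, he, ?_⟩
  rw [hde, ← hcf]
  show (α).p₂ ((W.index : k) • cf).1 = _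
  rw [Submodule.coe_smul, map_smul]

end oneLevel

/-! ### the colimit statements -/

section colimit

/-- a level-`W` `1`-cochain is LC -/
lemma mem_C₁_of_isLevel {W : Subgroup G} (hW : 𝒰.mem W) {b : G → A} (hb : IsLevel₁ A W b) :
    b ∈ C₁ 𝒰 A := ⟨W, hW, hb⟩

/-- a level-`W` `2`-cochain is LC -/
lemma mem_C₂_of_isLevel {W : Subgroup G} (hW : 𝒰.mem W) {b : G × G → A} (hb : IsLevel₂ A W b) :
    b ∈ C₂ 𝒰 A := ⟨W, hW, hb⟩

/-- **(C)**: if all finite-level `H²` are finite cyclic, the `p`-torsion of `H²_LC(A)` is cyclic. -/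
theorem h2TorsCyclic_of_levels {p : ℕ} (hp : p.Prime)
    (hcyc : ∀ W, 𝒰.mem W → ∀ [W.Normal], IsAddCyclic (H2 (A.quotientToInvariants W)) ∧
      Finite (H2 (A.quotientToInvariants W))) :
    H2TorsCyclic 𝒰 A (p : k) := by
  intro x y hx hy hx0
  obtain ⟨f, hf, rfl⟩ := Hmid.exists_of x
  obtain ⟨g, hg, rfl⟩ := Hmid.exists_of y
  rw [← Hmid.of_smul (p : k) hf, Hmid.of_eq_zero_iff] at hx
  rw [← Hmid.of_smul (p : k) hg, Hmid.of_eq_zero_iff] at hy
  obtain ⟨e, he⟩ := hx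
  obtain ⟨e', he'⟩ := hy
  obtain ⟨Uf, hUf, hlf⟩ := f.2
  obtain ⟨Ug, hUg, hlg⟩ := g.2
  obtain ⟨Ue, hUe, hle⟩ := e.2
  obtain ⟨Ue', hUe', hle'⟩ := e'.2
  obtain ⟨W₁, hW₁, hW₁le⟩ := 𝒰.inf hUf hUg
  obtain ⟨W₂, hW₂, hW₂le⟩ := 𝒰.inf hUe hUe'
  obtain ⟨W, hW, hWle⟩ := 𝒰.inf hW₁ hW₂
  have hWf : W ≤ Uf := fun s hs => (hW₁le (hWle hs).1).1
  have hWg : W ≤ Ug := fun s hs => (hW₁le (hWle hs).1).2
  have hWe : W ≤ Ue := fun s hs => (hW₂le (hWle hs).2).1
  have hWe' : W ≤ Ue' := fun s hs => (hW₂le (hWle hs).2).2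
  haveI := 𝒰.normal hW
  haveI := 𝒰.finiteIndex hW
  haveI : Finite (G ⧸ W) := Subgroup.finite_quotient_of_finiteIndex
  obtain ⟨hc, hfin⟩ := hcyc W hW
  have hLf : IsLevel₂ A W (f : G × G → A) := IsLevel₂.mono hWf hlf
  have hLg : IsLevel₂ A W (g : G × G → A) := IsLevel₂.mono hWg hlg
  have hLe : IsLevel₁ A W (e : G → A) := IsLevel₁.mono hWe hle
  have hLe' : IsLevel₁ A W (e' : G → A) := IsLevel₁.mono hWe' hle'
  have hdf : (d₂₃ A).hom (f : G × G → A) = 0 := congrArg Subtype.val hf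
  have hdg : (d₂₃ A).hom (g : G × G → A) = 0 := congrArg Subtype.val hg
  have hpf : ∃ e : G → A, IsLevel₁ A W e ∧ (d₁₂ A).hom e = (p : k) • (f : G × G → A) :=
    ⟨e, hLe, congrArg Subtype.val he⟩
  have hpg : ∃ e : G → A, IsLevel₁ A W e ∧ (d₁₂ A).hom e = (p : k) • (g : G × G → A) :=
    ⟨e', hLe', congrArg Subtype.val he'⟩
  have hne : ¬ ∃ b : G → A, IsLevel₁ A W b ∧ (d₁₂ A).hom b = (f : G × G → A) := by
    rintro ⟨b, hb, hbf⟩
    apply hx0
    rw [Hmid.of_eq_zero_iff]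
    exact ⟨⟨b, mem_C₁_of_isLevel 𝒰 A hW hb⟩, Subtype.ext hbf⟩
  obtain ⟨n, b, hb, hbd⟩ := level_tors_cyclic 𝒰 A W hW hp hLf hLg hdf hdg hpf hpg hne
  refine ⟨n, ?_⟩
  rw [← Hmid.of_smul n hf, Hmid.of_eq_of_iff]
  exact ⟨⟨b, mem_C₁_of_isLevel 𝒰 A hW hb⟩, Subtype.ext hbd⟩

/-- **(D)**: if all finite-level `H²` are cyclic of order the index and the degrees grow
`p`-divisibly, then `H²_LC(A)` is `p`-divisible. -/
theorem h2Divisible_of_levels {p : ℕ}
    (hcyc : ∀ W, 𝒰.mem W → ∀ [W.Normal], IsAddCyclic (H2 (A.quotientToInvariants W)) ∧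
      Nat.card (H2 (A.quotientToInvariants W)) = W.index)
    (hdeg : ∀ U, 𝒰.mem U → ∃ W, 𝒰.mem W ∧ W ≤ U ∧ p * U.index ∣ W.index) :
    H2Divisible 𝒰 A (p : k) := by
  intro x
  obtain ⟨f, hf, rfl⟩ := Hmid.exists_of x
  obtain ⟨U, hU, hlf⟩ := f.2
  have hdf : (d₂₃ A).hom (f : G × G → A) = 0 := congrArg Subtype.val hf
  haveI := 𝒰.normal hU
  haveI := 𝒰.finiteIndex hU
  haveI : Finite (G ⧸ U) := Subgroup.finite_quotient_of_finiteIndex
  obtain ⟨e, he, hde⟩ := level_index_smul 𝒰 A U hU hlf hdf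
  obtain ⟨W, hW, hWU, hdvd⟩ := hdeg U hU
  haveI := 𝒰.normal hW
  haveI := 𝒰.finiteIndex hW
  haveI : Finite (G ⧸ W) := Subgroup.finite_quotient_of_finiteIndex
  obtain ⟨hc, hcard⟩ := hcyc W hW
  have hm : U.index ≠ 0 := Subgroup.FiniteIndex.index_ne_zero
  obtain ⟨c, e₁, hc₁, hdc, he₁, hfe⟩ := level_divisible 𝒰 A W hW hcard hm hdvd
    (IsLevel₂.mono hWU hlf) hdf ⟨e, IsLevel₁.mono hWU he, hde⟩
  have hcC : dC₂ 𝒰 A ⟨c, mem_C₂_of_isLevel 𝒰 A hW hc₁⟩ = 0 := Subtype.ext hdc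
  refine ⟨Hmid.of ⟨c, mem_C₂_of_isLevel 𝒰 A hW hc₁⟩ hcC, ?_⟩
  rw [← Hmid.of_smul (p : k) hcC, Hmid.of_eq_of_iff]
  refine ⟨-⟨e₁, mem_C₁_of_isLevel 𝒰 A hW he₁⟩, Subtype.ext ?_⟩
  show (d₁₂ A).hom (-e₁) = (p : k) • c - (f : G × G → A)
  rw [hfe, map_neg]
  abel

/-- **(H1)** from finite levels (restating `LCLevel.vanish₁_of_levels`). -/
theorem vanish₁_of_levels'
    (h : ∀ U, 𝒰.mem U → ∃ V, 𝒰.mem V ∧ V ≤ U ∧
      ∀ [V.Normal], Limits.IsZero (groupCohomology (A.quotientToInvariants V) 1)) :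
    Vanish₁ 𝒰 A := fun f hf => vanish₁_of_levels h f hf

end colimit

end Fermat.Agent.S55.Middle.LocalLCLevels
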