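/-
S55 / Middle / LocalLCMain (helper72): the OUTPUT of the abstract local core (block LM.core).

`G` a group with basis `𝒰`, `A : Rep k G` smooth and `p`-divisible with `p`-torsion `ι : T ⟶ A`
(`LocalLCCore.IsKummer`), and the class-formation facts at FINITE LEVELS (`FiniteLevelData`):
`H¹(G/V, A^V) = 0`, `H³(G/V, A^V) = 0` (cofinally), `H²(G/W, A^W)` cyclic of order `[G:W]`, degrees grow
`p`-divisibly, finite-level `H²` embeds into `H²_LC`.  Then (`main`):
  * `H²_LC(T)` is "cyclic" (`x ≠ 0 ⇒ y ∈ k x`),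
  * `H³_LC(T) = 0`,
  * `H²_LC(T) ≠ 0`.
Also: `h2_surjective_tors` (`H²_LC(T) ↠ H²_LC(A)[p]`, no hypothesis) and the vector-space corollary
`finite_and_finrank_le_one_of_cyclic`.
-/
import Mathlib
import Fermat.Agent.S55.Middle.LocalLCLevels
import Fermat.Agent.S55.Formal.LCLevelInj

set_option autoImplicit false
set_option linter.style.haveILetI false

open CategoryTheory groupCohomology

namespace Fermat.Agent.S55.Middle.LocalLCMain

open Fermat.Agent.S55.Formal Fermat.Agent.S55.Formal.LCLevel Fermat.Agent.S55.Formal.LCLevelH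
open Fermat.Agent.S55.Middle.LocalLCCore Fermat.Agent.S55.Middle.LocalLCLevels

variable {k : Type} [CommRing k] {G : Type} [Group G] {𝒰 : NBasis G} {A T : Rep.{0, 0, 0} k G}
  {c : k} {ι : T ⟶ A}

/-- `H²_LC(T) → H²_LC(A)[p]` is surjective (Kummer sequence; only smoothness and divisibility of `A`
are used). -/
theorem h2_surjective_tors (h : IsKummer 𝒰 A T c ι) (x : H2 𝒰 A) (hx : c • x = 0) :
    ∃ t : H2 𝒰 T, (Mor.ofHom 𝒰 ι).h2 t = x := by
  obtain ⟨f, hf, rfl⟩ := Hmid.exists_of x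
  rw [← Hmid.of_smul c hf, Hmid.of_eq_zero_iff] at hx
  obtain ⟨e, he⟩ := hx
  obtain ⟨e', he'⟩ := SmoothLift.c₁_surjective (𝒰 := 𝒰) (pMul A c) h.smooth h.pMul_surjective e
  have he'' : c • e' = e := by
    rw [← he']
    apply Subtype.ext
    funext g
    rfl
  set f' : ↥(C₂ 𝒰 A) := f - dC₁ 𝒰 A e' with hf'
  have hpf' : c • f' = 0 := by
    rw [hf', smul_sub, ← map_smul, he'', he, sub_self]
  have hdf' : dC₂ 𝒰 A f' = 0 := by
    rw [hf', map_sub, hf, dC₂_dC₁, sub_zero]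
  have ht : ∀ x, c • (f' : G × G → A) x = 0 := fun x => by
    have := congrFun (congrArg Subtype.val hpf') x
    exact this
  obtain ⟨F', hF', hFι⟩ := h.descend₂ f'.2 ht
  set α := Mor.ofHom 𝒰 ι with hα
  have hcc : α.c₂ ⟨F', hF'⟩ = f' := Subtype.ext (funext hFι)
  have hinj : Function.Injective α.c₃ := by
    intro u v huv
    apply Subtype.ext
    funext x
    apply h.inj
    exact congrFun (congrArg Subtype.val huv) x
  have hdF : dC₂ 𝒰 T ⟨F', hF'⟩ = 0 := by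
    apply hinj
    have := LinearMap.congr_fun α.c₃_dC₂ ⟨F', hF'⟩
    simp only [LinearMap.comp_apply] at this
    rw [this, hcc, hdf', map_zero]
  refine ⟨Hmid.of ⟨F', hF'⟩ hdF, ?_⟩
  have e1 : α.h2 (Hmid.of ⟨F', hF'⟩ hdF) = Hmid.of f' hdf' := by
    have : α.h2 (Hmid.of ⟨F', hF'⟩ hdF) =
        Hmid.of (α.c₂ ⟨F', hF'⟩) (by rw [hcc]; exact hdf') := rfl
    rw [this]
    congr 1
  rw [e1, Hmid.of_eq_of_iff]
  exact ⟨-e', by rw [map_neg, hf']; abel⟩

/-- The class-formation facts at finite levels. -/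
structure FiniteLevelData (𝒰 : NBasis G) (A : Rep.{0, 0, 0} k G) (p : ℕ) : Prop where
  h1 : ∀ U, 𝒰.mem U → ∃ V, 𝒰.mem V ∧ V ≤ U ∧
    ∀ [V.Normal], Limits.IsZero (groupCohomology (A.quotientToInvariants V) 1)
  h3 : ∀ U, 𝒰.mem U → ∃ V, 𝒰.mem V ∧ V ≤ U ∧
    ∀ [V.Normal], Limits.IsZero (groupCohomology (A.quotientToInvariants V) 3)
  cyc : ∀ W, 𝒰.mem W → ∀ [W.Normal], IsAddCyclic (H2 (A.quotientToInvariants W)) ∧
    Nat.card (H2 (A.quotientToInvariants W)) = W.index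
  deg : ∀ U, 𝒰.mem U → ∃ W, 𝒰.mem W ∧ W ≤ U ∧ p * U.index ∣ W.index
  inj : ∀ U (hU : 𝒰.mem U) [U.Normal] [Finite (G ⧸ U)], Function.Injective (ι₂ 𝒰 A U hU)

namespace FiniteLevelData

variable {p : ℕ} (hd : FiniteLevelData 𝒰 A p)
include hd

theorem vanish₁ : Vanish₁ 𝒰 A := vanish₁_of_levels' 𝒰 A hd.h1

theorem vanish₃ : Vanish₃ 𝒰 A := vanish₃_of_levels hd.h3

theorem h2Divisible : H2Divisible 𝒰 A (p : k) := h2Divisible_of_levels 𝒰 A hd.cyc hd.deg

theorem h2TorsCyclic (hp : p.Prime) : H2TorsCyclic 𝒰 A (p : k) :=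
  h2TorsCyclic_of_levels 𝒰 A hp fun W hW _ => by
    obtain ⟨h1, h2⟩ := hd.cyc W hW
    refine ⟨h1, ?_⟩
    haveI := 𝒰.finiteIndex hW
    exact Nat.finite_of_card_ne_zero (by rw [h2]; exact Subgroup.FiniteIndex.index_ne_zero)

/-- there is a nonzero `p`-torsion class in `H²_LC(A)` -/
theorem exists_tors_ne_zero (hp : p.Prime) : ∃ x : H2 𝒰 A, (p : k) • x = 0 ∧ x ≠ 0 := by
  obtain ⟨W, hW, -, hdvd⟩ := hd.deg ⊤ 𝒰.top
  rw [Subgroup.index_top, mul_one] at hdvd
  haveI := 𝒰.normal hW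
  haveI := 𝒰.finiteIndex hW
  haveI : Finite (G ⧸ W) := Subgroup.finite_quotient_of_finiteIndex
  obtain ⟨hc, hcard⟩ := hd.cyc W hW
  haveI : Finite (H2 (A.quotientToInvariants W)) :=
    Nat.finite_of_card_ne_zero (by rw [hcard]; exact Subgroup.FiniteIndex.index_ne_zero)
  haveI : Fact p.Prime := ⟨hp⟩
  obtain ⟨X, hX⟩ := exists_prime_addOrderOf_dvd_card' (G := H2 (A.quotientToInvariants W)) p
    (by rw [hcard]; exact hdvd)
  have hX0 : X ≠ 0 := by
    intro h0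
    rw [h0, addOrderOf_zero] at hX
    exact hp.one_lt.ne hX
  have hpX : p • X = 0 := by rw [← hX]; exact addOrderOf_nsmul_eq_zero X
  refine ⟨ι₂ 𝒰 A W hW X, ?_, ?_⟩
  · rw [← map_smul, Nat.cast_smul_eq_nsmul, hpX, map_zero]
  · intro h0
    apply hX0
    apply hd.inj W hW
    rw [h0, map_zero]

end FiniteLevelData

/-- **The abstract local core** (LM.core): from the Kummer datum and the finite-level class
formation facts: `H²_LC(T)` is cyclic and nonzero, `H³_LC(T) = 0`. -/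
theorem main {p : ℕ} (hp : p.Prime) (h : IsKummer 𝒰 A T (p : k) ι) (hd : FiniteLevelData 𝒰 A p) :
    (∀ x y : H2 𝒰 T, x ≠ 0 → ∃ n : k, y = n • x) ∧ Vanish₃ 𝒰 T ∧ ∃ x : H2 𝒰 T, x ≠ 0 := by
  refine ⟨fun x y hx => h2_cyclic h hd.vanish₁ (hd.h2TorsCyclic hp) x y hx,
    LocalLCCore.vanish₃ h hd.vanish₃ hd.h2Divisible, ?_⟩
  obtain ⟨x, hpx, hx0⟩ := hd.exists_tors_ne_zero (k := k) hp
  obtain ⟨t, ht⟩ := h2_surjective_tors h x hpx
  refine ⟨t, fun h0 => hx0 ?_⟩
  rw [← ht, h0, map_zero]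

/-- A vector space in which every nonzero vector generates is finite of dimension `≤ 1`. -/
theorem finite_and_finrank_le_one_of_cyclic {K V : Type*} [Field K] [AddCommGroup V] [Module K V]
    (h : ∀ x y : V, x ≠ 0 → ∃ n : ℤ, y = n • x) :
    Module.Finite K V ∧ Module.finrank K V ≤ 1 := by
  by_cases h0 : ∀ x : V, x = 0
  · haveI : Subsingleton V := ⟨fun a b => by rw [h0 a, h0 b]⟩
    exact ⟨inferInstance, by rw [Module.finrank_zero_of_subsingleton]; exact Nat.zero_le 1⟩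
  · obtain ⟨x, hx⟩ := not_forall.1 h0
    have hspan : ∀ w : V, ∃ c : K, c • x = w := fun w => by
      obtain ⟨n, hn⟩ := h x w hx
      exact ⟨(n : K), by rw [hn, Int.cast_smul_eq_zsmul]⟩
    have htop : Submodule.span K {x} = ⊤ := by
      rw [eq_top_iff]
      intro w _
      obtain ⟨c, hc⟩ := hspan w
      rw [← hc]
      exact Submodule.smul_mem _ _ (Submodule.mem_span_singleton_self x)
    refine ⟨⟨⟨{x}, by simpa using htop⟩⟩, finrank_le_one x hspan⟩

end Fermat.Agent.S55.Middle.LocalLCMain
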