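/-
S55 / Middle / LocalLCAdapter (helper72): from the five finite-level fields of helper91's interface
`LM.LevelFacts` (#1801) to `LocalLCMain.FiniteLevelData`, hence to `LocalLCMain.main`.

Inputs (all in Mathlib `groupCohomology` of `A.quotientToInvariants W : Rep k (G ⧸ W)`):
  h1     : Hilbert 90 on every subgroup `H ≤ G ⧸ W`,
  h3     : `H³ = 0`,
  h2card : `Nat.card H² = [G : W]`,
  h2cyc  : `H²` cyclic,
  grow   : every level has deeper levels of index divisible by any `m > 0`.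
-/
import Mathlib
import Fermat.Agent.S55.Middle.LocalLCMain

set_option autoImplicit false
set_option linter.style.haveILetI false

open CategoryTheory groupCohomology

namespace Fermat.Agent.S55.Middle.LocalLCAdapter

open Fermat.Agent.S55.Formal Fermat.Agent.S55.Formal.LCLevel Fermat.Agent.S55.Formal.LCLevelH
open Fermat.Agent.S55.Formal.LCLevelInj
open Fermat.Agent.S55.Middle.LocalLCCore Fermat.Agent.S55.Middle.LocalLCMain

/-- `H¹(Q, B) = 0` as soon as `H¹(⊤, Res B) = 0`. -/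
theorem isZero_H1_of_top {k Q : Type} [CommRing k] [Group Q] (B : Rep.{0, 0, 0} k Q)
    (h : Limits.IsZero (groupCohomology (Rep.res (⊤ : Subgroup Q).subtype B) 1)) :
    Limits.IsZero (groupCohomology B 1) := by
  haveI : Subsingleton (groupCohomology B 1) := by
    refine ⟨fun x y => ?_⟩
    suffices hz : ∀ z : groupCohomology.H1 B, z = 0 by rw [hz x, hz y]
    intro z
    induction z using H1_induction_on with
    | h c =>
      rw [H1π_eq_zero_iff]
      -- restrict the cocycle to `⊤`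
      have hc : ∀ g h : Q, B.ρ g ((c : Q → B) h) - (c : Q → B) (g * h) + (c : Q → B) g = 0 :=
        (mem_cocycles₁_def (c : Q → B)).1 c.2
      let c' : cocycles₁ (Rep.res (⊤ : Subgroup Q).subtype B) :=
        ⟨fun s => (c : Q → B) s.1, (mem_cocycles₁_def _).2 fun g h => hc g.1 h.1⟩
      have h0 : (H1π (Rep.res (⊤ : Subgroup Q).subtype B)).hom c' = 0 :=
        (ModuleCat.subsingleton_of_isZero h).elim _ _
      rw [H1π_eq_zero_iff] at h0
      obtain ⟨b, hb⟩ := h0
      refine ⟨b, ?_⟩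
      funext g
      exact congrFun hb ⟨g, Subgroup.mem_top g⟩
  exact ModuleCat.isZero_of_subsingleton _

variable {k : Type} [CommRing k] {G : Type} [Group G] (𝒰 : NBasis G) (A : Rep.{0, 0, 0} k G)

/-- **Adapter**: the finite-level facts of the LM interface give `FiniteLevelData`. -/
theorem finiteLevelData_of_facts (p : ℕ) (hp : 0 < p)
    (h1 : ∀ W, 𝒰.mem W → ∀ [W.Normal] (H : Subgroup (G ⧸ W)),
      Limits.IsZero (groupCohomology (Rep.res H.subtype (A.quotientToInvariants W)) 1))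
    (h3 : ∀ W, 𝒰.mem W → ∀ [W.Normal],
      Limits.IsZero (groupCohomology (A.quotientToInvariants W) 3))
    (h2card : ∀ W, 𝒰.mem W → ∀ [W.Normal],
      Nat.card (groupCohomology (A.quotientToInvariants W) 2) = W.index)
    (h2cyc : ∀ W, 𝒰.mem W → ∀ [W.Normal],
      IsAddCyclic (groupCohomology (A.quotientToInvariants W) 2))
    (grow : ∀ W, 𝒰.mem W → ∀ m : ℕ, 0 < m → ∃ W', 𝒰.mem W' ∧ W' ≤ W ∧ m ∣ W'.index) :
    FiniteLevelData 𝒰 A p where
  h1 U hU := ⟨U, hU, le_rfl, fun {_} => isZero_H1_of_top _ (h1 U hU ⊤)⟩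
  h3 U hU := ⟨U, hU, le_rfl, fun {_} => h3 U hU⟩
  cyc W hW _ := ⟨h2cyc W hW, h2card W hW⟩
  deg U hU := by
    haveI := 𝒰.finiteIndex hU
    have hpos : 0 < p * U.index :=
      Nat.mul_pos hp (Nat.pos_of_ne_zero Subgroup.FiniteIndex.index_ne_zero)
    exact grow U hU _ hpos
  inj U hU _ _ := ι₂_injective A U 𝒰 hU fun V hV _ _ => h1 V hV (relSub U V)

/-- **LM.core from the LM interface**: `H²_LC(T)` cyclic and nonzero, `H³_LC(T) = 0`. -/
theorem main_of_facts {T : Rep.{0, 0, 0} k G} {ι : T ⟶ A} {p : ℕ} (hp : p.Prime)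
    (h : IsKummer 𝒰 A T (p : k) ι)
    (h1 : ∀ W, 𝒰.mem W → ∀ [W.Normal] (H : Subgroup (G ⧸ W)),
      Limits.IsZero (groupCohomology (Rep.res H.subtype (A.quotientToInvariants W)) 1))
    (h3 : ∀ W, 𝒰.mem W → ∀ [W.Normal],
      Limits.IsZero (groupCohomology (A.quotientToInvariants W) 3))
    (h2card : ∀ W, 𝒰.mem W → ∀ [W.Normal],
      Nat.card (groupCohomology (A.quotientToInvariants W) 2) = W.index)
    (h2cyc : ∀ W, 𝒰.mem W → ∀ [W.Normal],
      IsAddCyclic (groupCohomology (A.quotientToInvariants W) 2))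
    (grow : ∀ W, 𝒰.mem W → ∀ m : ℕ, 0 < m → ∃ W', 𝒰.mem W' ∧ W' ≤ W ∧ m ∣ W'.index) :
    (∀ x y : H2 𝒰 T, x ≠ 0 → ∃ n : k, y = n • x) ∧ Vanish₃ 𝒰 T ∧ ∃ x : H2 𝒰 T, x ≠ 0 :=
  main hp h (finiteLevelData_of_facts 𝒰 A p hp.pos h1 h3 h2card h2cyc grow)

end Fermat.Agent.S55.Middle.LocalLCAdapter
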