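/-
S55 / MIDDLE block (sub-architect helper17): the CLOSED PROPS of the Middle block.

Everything is stated over the `K`-SITE `Y = KSite.siteOver S P R` of an open subgroup `P ≤ G_ℚ`
(`K = ℚ̄^P`) on which the mod `p` cyclotomic character is trivial (`μ_p ⊂ K`), `p ∈ S`.

* `Level p S P`               : the standing hypotheses on `P`;
* `kP p P`                    : the trivial representation `𝔽_p` of `↥P`;
* OUTPUTS of the Middle block (consumed by `M.out`, which transfers them to the arithmetic site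
  `arithSite S` with coefficients `perm (ZMod p) P` through Shapiro + Mackey):
  `KVanish₃`, `KFin`, `KG3`, `KG2`, `KNoSingleSupport`;
* the LC-language predicates `LTS` (locally trivial at the places of `K` above `S`, via the
  localisation morphisms `KSite.locKS/locOS/locMu` into `Ω_qˣ`);
* the intermediate closed Props in `ℤ`-coefficients: `H90Kx`, `PrinTorsion`, `HasseO`, `H2ODivisible`,
  `H3OTorsion`, `H3Mu`.
-/
import Fermat.Agent.S55.Middle.KSite
import Fermat.Agent.S55.Middle.UnitsLES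
import Fermat.Agent.S55.Formal.Blocks

set_option autoImplicit false
set_option linter.unusedSectionVars false

open CategoryTheory groupCohomology ExtCitation Module

namespace Fermat.Agent.S55.Middle.Blocks

noncomputable section

open Fermat.Agent.S55.Formal
open Fermat.Agent.S55.Formal.PreludeLC hiding GQ Qbar
open Fermat.Agent.S55.Middle.Defs Fermat.Agent.S55.Middle.KSite

variable (p : ℕ) [Fact p.Prime] (S : Finset Nat.Primes)

/-- The standing hypotheses on the open subgroup `P` (`K = ℚ̄^P` is unramified outside `S` and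
contains `μ_p`). -/
structure Level (P : Subgroup GQ) : Prop where
  isOpen : IsOpenS S P
  triv : ∀ g ∈ P, cycloChar p g = 1

/-- the trivial representation `𝔽_p` of `↥P` -/
abbrev kP (P : Subgroup GQ) : Rep.{0, 0, 0} (ZMod p) ↥P := Rep.trivial (ZMod p) ↥P (ZMod p)

/-! ### OUTPUTS (trivial `𝔽_p`-coefficients over the `K`-site) -/

/-- **(K-V)** `H³_LC(P; 𝔽_p) = 0`. -/
def KVanish₃ : Prop :=
  ∀ P : Subgroup GQ, Level p S P → Vanish₃ (basisP S P) (kP p P)

/-- **(K-fin)** `H¹_LC(P; 𝔽_p)` and `H²_LC(P; 𝔽_p)` are finite. -/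
def KFin : Prop :=
  ∀ P : Subgroup GQ, Level p S P →
    Module.Finite (ZMod p) (H1 (basisP S P) (kP p P)) ∧
    Module.Finite (ZMod p) (H2 (basisP S P) (kP p P))

/-- **(K-G3)** the cokernel of `H²(P; 𝔽_p) → ∏_{v | S} H²(K_v; 𝔽_p)` has dimension `≤ 1`. -/
def KG3 : Prop :=
  ∀ (P : Subgroup GQ), Level p S P → ∀ R : Reps S P,
    Module.Finite (ZMod p) ((siteOver S P R).P2 (kP p P) ⧸
      LinearMap.range ((siteOver S P R).loc₂ (kP p P))) ∧
    finrank (ZMod p) ((siteOver S P R).P2 (kP p P) ⧸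
      LinearMap.range ((siteOver S P R).loc₂ (kP p P))) ≤ 1

/-- **(K-G2)** the count: `dim P¹ + dim Ш¹ + dim Ш² ≤ 2 dim H¹` (all finite), which is
`dim H²_c ≤ dim H¹` by the formal count `dim H²_c + dim H¹ = dim P¹ + dim Ш¹ + dim Ш²`. -/
def KG2 : Prop :=
  ∀ (P : Subgroup GQ), Level p S P → ∀ R : Reps S P,
    Module.Finite (ZMod p) ((siteOver S P R).P1 (kP p P)) ∧
    Module.Finite (ZMod p) ↥((siteOver S P R).sha2 (kP p P)) ∧
    finrank (ZMod p) ((siteOver S P R).P1 (kP p P)) +
      finrank (ZMod p) ↥((siteOver S P R).sha1 (kP p P)) +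
      finrank (ZMod p) ↥((siteOver S P R).sha2 (kP p P)) ≤
        2 * finrank (ZMod p) (H1 (basisP S P) (kP p P))

/-- **(K-NSS)** no single support: a class of `H²(P; 𝔽_p)` which is locally trivial at all places
of `K` above `S` but one is locally trivial at that place too. -/
def KNoSingleSupport : Prop :=
  ∀ (P : Subgroup GQ), Level p S P → ∀ R : Reps S P,
    ∀ (x : H2 (basisP S P) (kP p P)) (i₀ : R.Idx),
      (∀ i : R.Idx, i ≠ i₀ → ((siteOver S P R).res (kP p P) i).h2 x = 0) →
        ((siteOver S P R).res (kP p P) i₀).h2 x = 0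

/-- All outputs of the Middle block for `(p, S)`. -/
structure Outputs : Prop where
  vanish₃ : KVanish₃ p S
  fin : KFin p S
  g₃ : KG3 p S
  g₂ : KG2 p S
  nss : KNoSingleSupport p S

/-! ### local triviality at `S` in LC language -/

section LT

variable {S} {P : Subgroup GQ} (R : Reps S P)

/-- `z ∈ H²_LC(P; ℚ_Sˣ)` is locally trivial at the places of `K` above `S`. -/
def LTSKx (z : H2 (basisP S P) (resP P (KS S))) : Prop :=
  ∀ i : R.Idx, (locKS S P i.1.1 i.2.1).h2 z = 0

/-- `x ∈ H²_LC(P; O_S)` is locally trivial at the places of `K` above `S`. -/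
def LTSO (x : H2 (basisP S P) (resP P (OS S))) : Prop :=
  ∀ i : R.Idx, (locOS S P i.1.1 i.2.1).h2 x = 0

/-- `y ∈ H²_LC(P; μ_p)` is locally trivial at the places of `K` above `S`. -/
def LTSMu (y : H2 (basisP S P) (resP P (muP p))) : Prop :=
  ∀ i : R.Idx, (locMu S P i.1.1 i.2.1 p).h2 y = 0

end LT

/-! ### intermediate closed Props, `ℤ`-coefficients, over `(↥P, basisP S P)` -/

/-- **(C1)** Hilbert 90: `H¹_LC(P; ℚ_Sˣ) = 0`. -/
def H90Kx : Prop :=
  ∀ P : Subgroup GQ, IsOpenS S P →
    ∀ f : ↥(C₁ (basisP S P) (resP P (KS S))), dC₁ (basisP S P) (resP P (KS S)) f = 0 →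
      ∃ m : ↥(C₀ (basisP S P) (resP P (KS S))), dC₀ (basisP S P) (resP P (KS S)) m = f

/-- **(C2)** `H¹_LC(P; Prin)` has no `p`-torsion and is `p`-divisible. -/
def PrinTorsion : Prop :=
  ∀ P : Subgroup GQ, IsOpenS S P →
    (∀ (y : H1 (basisP S P) (resP P (PrinS S))) (j : ℕ), p ^ j • y = 0 → y = 0) ∧
    (∀ y : H1 (basisP S P) (resP P (PrinS S)), ∃ y', p • y' = y)

/-- **(C3)** Hasse principle for `O_S`: a `p`-primary class of `H²_LC(P; O_S)` which is locally
trivial at the places above `S` vanishes. -/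
def HasseO : Prop :=
  ∀ (P : Subgroup GQ), Level p S P → ∀ R : Reps S P,
    ∀ (x : H2 (basisP S P) (resP P (OS S))) (j : ℕ), p ^ j • x = 0 → LTSO R x → x = 0

/-- **(C4), divisibility**: the `p`-primary part of `H²_LC(P; O_S)` is `p`-divisible. -/
def H2ODivisible : Prop :=
  ∀ (P : Subgroup GQ), Level p S P →
    ∀ (x : H2 (basisP S P) (resP P (OS S))) (j : ℕ), p ^ j • x = 0 →
      ∃ x' : H2 (basisP S P) (resP P (OS S)), p ^ (j + 1) • x' = 0 ∧ p • x' = x

/-- **(C5), first half**: `H³_LC(P; O_S)` has no `p`-torsion. -/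
def H3OTorsion : Prop :=
  ∀ (P : Subgroup GQ), Level p S P →
    ∀ x : H3 (basisP S P) (resP P (OS S)), p • x = 0 → x = 0

/-- **(C5) = (A-V) global**, `μ_p`-coefficients: `H³_LC(P; μ_p) = 0`. -/
def H3Mu : Prop :=
  ∀ (P : Subgroup GQ), Level p S P → Vanish₃ (basisP S P) (resP P (muP p))

end

end Fermat.Agent.S55.Middle.Blocks
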