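/-
S55 / MIDDLE block (sub-architect helper17): second layer of closed Props, and the consumers of the
KUMMER SQUARE.

Over the `K`-site `Y = KSite.siteOver S P R` (`P` with `Blocks.Level p S P`):

* `ImageNSS p S`, `ImageG3 p S` : the two `ℤ`-coefficient outputs of the (C4) hub (`ImageLevel`),
  about `loc_S : H²_LC(P; O_S)[p] → Π_i H²_LC(D_i; Ω^×)`;
* `KummerSq p R` : the Kummer square relating `H²(P; 𝔽_p) → Π_i H²(D_i; 𝔽_p)` to
  `H²_LC(P; O_S) → Π_i H²_LC(D_i; Ω^×)` (constructed in `Middle/KummerSquare.lean`);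
* consumers: `kNSS_of` (`Blocks.KNoSingleSupport`), `kG3_of` (`Blocks.KG3`), `sha2_le`
  (`#Ш²(𝔽_p) ≤ #(H¹_LC(P; O_S)/p)`, from `Blocks.HasseO`).
-/
import Fermat.Agent.S55.Middle.Blocks
import Fermat.Agent.S55.Formal.SiteCount

set_option autoImplicit false
set_option linter.unusedSectionVars false

open CategoryTheory groupCohomology ExtCitation Module

namespace Fermat.Agent.S55.Middle.Blocks2

noncomputable section

open Fermat.Agent.S55.Formal
open Fermat.Agent.S55.Formal.PreludeLC hiding GQ Qbar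
open Fermat.Agent.S55.Middle.Defs Fermat.Agent.S55.Middle.KSite Fermat.Agent.S55.Middle.Blocks

variable (p : ℕ) [Fact p.Prime] (S : Finset Nat.Primes)

section Objects

variable {S} {P : Subgroup GQ} (R : Reps S P)

/-- `H²_LC(D_i; Ω^×)`, the `ℤ`-coefficient local group at the place `i` of the `K`-site. -/
abbrev BrLoc (i : R.Idx) : Type :=
  H2 (basisLoc P i.1.1 i.2.1) (Fermat.Agent.S55.LM.Defs.Ox i.1.1 (Dloc P i.1.1 i.2.1))

/-- `H²(D_i; 𝔽_p)`, the local group of the `K`-site at `i` with trivial coefficients. -/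
abbrev H2Loc (i : R.Idx) : Type :=
  H2 ((siteOver S P R).𝒱 i) ((siteOver S P R).loc (kP p P) i)

end Objects

/-! ### the two `ℤ`-coefficient outputs of the (C4) hub -/

/-- **(C4-NSS)** no single support for `p`-torsion classes of `H²_LC(P; O_S)`. -/
def ImageNSS : Prop :=
  ∀ (P : Subgroup GQ), Level p S P → ∀ R : Reps S P,
    ∀ x : H2 (basisP S P) (resP P (OS S)), p • x = 0 → ∀ i₀ : R.Idx,
      (∀ i : R.Idx, i ≠ i₀ → (locOS S P i.1.1 i.2.1).h2 x = 0) →
        (locOS S P i₀.1.1 i₀.2.1).h2 x = 0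

/-- **(C4-G3)** modulo one `p`-torsion tuple `a₀`, every `p`-torsion tuple of local classes is the
localisation of a `p`-torsion class of `H²_LC(P; O_S)`. -/
def ImageG3 : Prop :=
  ∀ (P : Subgroup GQ), Level p S P → ∀ R : Reps S P,
    ∃ a₀ : ∀ i : R.Idx, BrLoc R i, (∀ i, p • a₀ i = 0) ∧
      ∀ a : ∀ i : R.Idx, BrLoc R i, (∀ i, p • a i = 0) →
        ∃ (n : ℕ) (x : H2 (basisP S P) (resP P (OS S))), p • x = 0 ∧
          ∀ i : R.Idx, (locOS S P i.1.1 i.2.1).h2 x = a i - n • a₀ i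

/-! ### the Kummer square -/

section Square

variable {S} {P : Subgroup GQ} (R : Reps S P)

/-- **The Kummer square** of the `K`-site:
`α : H²(P; 𝔽_p) → H²_LC(P; O_S)` (image = `p`-torsion, kernel = `κ(H¹_LC(P; O_S))`),
`β i : H²(D_i; 𝔽_p) → H²_LC(D_i; Ω^×)` (injective, image = `p`-torsion), compatible with the
localisation maps. -/
structure KummerSq where
  α : H2 (basisP S P) (kP p P) →+ H2 (basisP S P) (resP P (OS S))
  κ : H1 (basisP S P) (resP P (OS S)) →+ H2 (basisP S P) (kP p P)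
  β : ∀ i : R.Idx, H2Loc p R i →+ BrLoc R i
  α_tors : ∀ y, p • α y = 0
  α_surj : ∀ x, p • x = 0 → ∃ y, α y = x
  α_ker : ∀ y, α y = 0 → ∃ e, κ e = y
  κ_nsmul : ∀ e, κ (p • e) = 0
  β_inj : ∀ i, Function.Injective (β i)
  β_surj : ∀ i (a : BrLoc R i), p • a = 0 → ∃ b, β i b = a
  sq : ∀ (i : R.Idx) (y : H2 (basisP S P) (kP p P)),
    β i (((siteOver S P R).res (kP p P) i).h2 y) = (locOS S P i.1.1 i.2.1).h2 (α y)

variable {p R}

/-- `p` kills every `𝔽_p`-module. -/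
theorem nsmul_eq_zero_of_zmod {M : Type} [AddCommGroup M] [Module (ZMod p) M] (m : M) :
    p • m = 0 := by
  have h : ((p : ℕ) : ZMod p) • m = 0 := by rw [ZMod.natCast_self, zero_smul]
  rwa [Nat.cast_smul_eq_nsmul] at h

/-- **no single support** over the `K`-site, from (C4-NSS). -/
theorem kNSS_apply (K : KummerSq p R)
    (h : ∀ x : H2 (basisP S P) (resP P (OS S)), p • x = 0 → ∀ i₀ : R.Idx,
      (∀ i : R.Idx, i ≠ i₀ → (locOS S P i.1.1 i.2.1).h2 x = 0) →
        (locOS S P i₀.1.1 i₀.2.1).h2 x = 0)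
    (x : H2 (basisP S P) (kP p P)) (i₀ : R.Idx)
    (hx : ∀ i : R.Idx, i ≠ i₀ → ((siteOver S P R).res (kP p P) i).h2 x = 0) :
    ((siteOver S P R).res (kP p P) i₀).h2 x = 0 := by
  have h1 : ∀ i : R.Idx, i ≠ i₀ → (locOS S P i.1.1 i.2.1).h2 (K.α x) = 0 := by
    intro i hi
    rw [← K.sq, hx i hi, map_zero]
  have h2 := h (K.α x) (K.α_tors x) i₀ h1
  rw [← K.sq] at h2
  exact K.β_inj i₀ (h2.trans (map_zero _).symm)

/-- every element of `P²(𝔽_p)` is a localisation plus a multiple of one fixed element. -/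
theorem exists_loc₂_add (K : KummerSq p R)
    (h : ∃ a₀ : ∀ i : R.Idx, BrLoc R i, (∀ i, p • a₀ i = 0) ∧
      ∀ a : ∀ i : R.Idx, BrLoc R i, (∀ i, p • a i = 0) →
        ∃ (n : ℕ) (x : H2 (basisP S P) (resP P (OS S))), p • x = 0 ∧
          ∀ i : R.Idx, (locOS S P i.1.1 i.2.1).h2 x = a i - n • a₀ i) :
    ∃ c : (siteOver S P R).P2 (kP p P), ∀ b : (siteOver S P R).P2 (kP p P),
      ∃ (n : ℕ) (y : H2 (basisP S P) (kP p P)),
        b = (siteOver S P R).loc₂ (kP p P) y + n • c := by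
  obtain ⟨a₀, ha₀, hgen⟩ := h
  choose c₀ hc₀ using fun i => K.β_surj i (a₀ i) (ha₀ i)
  let E := SiteCount.P2equiv (siteOver S P R) (kP p P)
  refine ⟨E.symm c₀, fun b => ?_⟩
  obtain ⟨n, x, hx, hloc⟩ := hgen (fun i => K.β i (E b i)) (fun i => by
    rw [← map_nsmul, nsmul_eq_zero_of_zmod, map_zero])
  obtain ⟨y, rfl⟩ := K.α_surj x hx
  refine ⟨n, y, ?_⟩
  apply E.injective
  funext i
  have h1 : K.β i (((siteOver S P R).res (kP p P) i).h2 y) = K.β i (E b i - n • c₀ i) := by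
    rw [K.sq, hloc i, map_sub, map_nsmul, hc₀]
  have h2 := K.β_inj i h1
  have h3 : E ((siteOver S P R).loc₂ (kP p P) y + n • E.symm c₀) i =
      ((siteOver S P R).res (kP p P) i).h2 y + n • c₀ i := by
    rw [map_add, map_nsmul, E.apply_symm_apply]
    show E ((siteOver S P R).loc₂ (kP p P) y) i + n • c₀ i = _
    rw [SiteCount.P2equiv_loc₂]
  rw [h3, h2]
  abel

/-- a module all of whose elements are `ℕ`-multiples of one element, modulo a submodule -/
theorem finrank_quot_le_one {k V : Type} [Field k] [AddCommGroup V] [Module k V]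
    (W : Submodule k V) (c : V) (h : ∀ b : V, ∃ (n : ℕ) (w : V), w ∈ W ∧ b = w + n • c) :
    Module.Finite k (V ⧸ W) ∧ finrank k (V ⧸ W) ≤ 1 := by
  have hsp : ∀ w : V ⧸ W, ∃ a : k, a • (W.mkQ c) = w := by
    intro w
    obtain ⟨b, rfl⟩ := W.mkQ_surjective w
    obtain ⟨n, w', hw', rfl⟩ := h b
    refine ⟨(n : k), ?_⟩
    rw [map_add, map_nsmul, Nat.cast_smul_eq_nsmul]
    have : W.mkQ w' = 0 := (Submodule.Quotient.mk_eq_zero W).2 hw'
    rw [this, zero_add]
  refine ⟨?_, finrank_le_one _ hsp⟩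
  exact Module.Finite.of_surjective (LinearMap.toSpanSingleton k (V ⧸ W) (W.mkQ c))
    (fun w => by
      obtain ⟨a, ha⟩ := hsp w
      exact ⟨a, ha⟩)

/-- **(K-G3)** over the `K`-site, from (C4-G3). -/
theorem kG3_apply (K : KummerSq p R)
    (h : ∃ a₀ : ∀ i : R.Idx, BrLoc R i, (∀ i, p • a₀ i = 0) ∧
      ∀ a : ∀ i : R.Idx, BrLoc R i, (∀ i, p • a i = 0) →
        ∃ (n : ℕ) (x : H2 (basisP S P) (resP P (OS S))), p • x = 0 ∧
          ∀ i : R.Idx, (locOS S P i.1.1 i.2.1).h2 x = a i - n • a₀ i) :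
    Module.Finite (ZMod p) ((siteOver S P R).P2 (kP p P) ⧸
      LinearMap.range ((siteOver S P R).loc₂ (kP p P))) ∧
    finrank (ZMod p) ((siteOver S P R).P2 (kP p P) ⧸
      LinearMap.range ((siteOver S P R).loc₂ (kP p P))) ≤ 1 := by
  obtain ⟨c, hc⟩ := exists_loc₂_add K h
  refine finrank_quot_le_one _ c fun b => ?_
  obtain ⟨n, y, rfl⟩ := hc b
  exact ⟨n, _, ⟨y, rfl⟩, rfl⟩

/-- `Ш²(𝔽_p)` of the `K`-site lies in `κ(H¹_LC(P; O_S))`, by the Hasse principle for `O_S`. -/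
theorem sha2_le_range (K : KummerSq p R)
    (hasse : ∀ x : H2 (basisP S P) (resP P (OS S)), p • x = 0 → LTSO R x → x = 0)
    (y : H2 (basisP S P) (kP p P)) (hy : y ∈ (siteOver S P R).sha2 (kP p P)) :
    ∃ e, K.κ e = y := by
  rw [SiteCount.mem_sha2_iff] at hy
  apply K.α_ker
  apply hasse _ (K.α_tors y)
  intro i
  rw [← K.sq, hy i, map_zero]

/-- **count [c]**: `#Ш²(𝔽_p) ≤ #(H¹_LC(P; O_S)/p)`. -/
theorem card_sha2_le (K : KummerSq p R)
    (hasse : ∀ x : H2 (basisP S P) (resP P (OS S)), p • x = 0 → LTSO R x → x = 0)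
    [Finite (H1 (basisP S P) (resP P (OS S)))] :
    Finite ↥((siteOver S P R).sha2 (kP p P)) ∧
    Nat.card ↥((siteOver S P R).sha2 (kP p P)) ≤
      Nat.card (H1 (basisP S P) (resP P (OS S)) ⧸
        (nsmulAddMonoidHom (α := H1 (basisP S P) (resP P (OS S))) p).range) := by
  set H := H1 (basisP S P) (resP P (OS S))
  set N : AddSubgroup H := (nsmulAddMonoidHom (α := H) p).range
  have hN : N ≤ K.κ.ker := by
    rintro _ ⟨e, rfl⟩
    exact K.κ_nsmul e
  let κbar : H ⧸ N →+ H2 (basisP S P) (kP p P) := QuotientAddGroup.lift N K.κ hN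
  have hsurj : ∀ y : ↥((siteOver S P R).sha2 (kP p P)), ∃ q : H ⧸ N, κbar q = y := by
    intro y
    obtain ⟨e, he⟩ := sha2_le_range K hasse y.1 y.2
    exact ⟨(e : H ⧸ N), he⟩
  choose g hg using hsurj
  have ginj : Function.Injective g := by
    intro y y' h
    apply Subtype.ext
    rw [← hg y, ← hg y', h]
  exact ⟨Finite.of_injective g ginj, Nat.card_le_card_of_injective g ginj⟩

end Square

/-! ### closed forms -/

/-- **`KNoSingleSupport`** from the Kummer squares and (C4-NSS). -/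
theorem kNSS_of
    (hsq : ∀ (P : Subgroup GQ), Level p S P → ∀ R : Reps S P, Nonempty (KummerSq p R))
    (h : ImageNSS p S) : KNoSingleSupport p S := by
  intro P hP R x i₀ hx
  obtain ⟨K⟩ := hsq P hP R
  exact kNSS_apply K (h P hP R) x i₀ hx

/-- **`KG3`** from the Kummer squares and (C4-G3). -/
theorem kG3_of
    (hsq : ∀ (P : Subgroup GQ), Level p S P → ∀ R : Reps S P, Nonempty (KummerSq p R))
    (h : ImageG3 p S) : KG3 p S := by
  intro P hP R
  obtain ⟨K⟩ := hsq P hP R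
  exact kG3_apply K (h P hP R)

end

end Fermat.Agent.S55.Middle.Blocks2
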