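/-
S55 / Middle layer, row M.dict (helper67): the LEVEL DICTIONARY for the level-constant cochain
library `Formal/LC.lean`.

`G` a group with `𝒰 : NBasis G`, `M : Rep k G`.  For a normal subgroup `V` put
`Inv M V := M.quotientToInvariants V : Rep k (G ⧸ V)` (the module `M^V` with its `G ⧸ V`-action).
An LC `n`-cochain of *level* `V` (right-`V`-invariant in each variable, values fixed by `V`) is the
same thing as an arbitrary `n`-cochain of `G ⧸ V` with values in `Inv M V`, via the inflation maps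
`infl₀ … infl₄`, which commute with the differentials.
-/
import Mathlib
import Fermat.Agent.S55.Formal.LC

set_option autoImplicit false
set_option linter.style.haveILetI false
set_option linter.unusedSectionVars false
set_option linter.unusedVariables false

open CategoryTheory groupCohomology Fermat.Agent.S55.Formal

namespace Fermat.Agent.S55.Middle.Dict

noncomputable section

variable {k : Type} [CommRing k] {G : Type} [Group G]

section Level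

variable (M : Rep.{0, 0, 0} k G) (V : Subgroup G) [V.Normal]

/-- the finite-level module `M^V` as a representation of `G ⧸ V` -/
abbrev Inv : Rep.{0, 0, 0} k (G ⧸ V) := M.quotientToInvariants V

lemma inv_ρ_mk (g : G) (m : Inv M V) :
    (((Inv M V).ρ (g : G ⧸ V) m : Inv M V) : M) = M.ρ g (m : M) := rfl

lemma inv_fixed (m : Inv M V) {s : G} (hs : s ∈ V) : M.ρ s (m : M) = (m : M) :=
  m.2 ⟨s, hs⟩

/-- the element of `Inv M V` given by a `V`-fixed vector -/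
def toInv (m : M) (hm : ∀ s ∈ V, M.ρ s m = m) : Inv M V := ⟨m, fun s => hm s.1 s.2⟩

@[simp] lemma toInv_coe (m : M) (hm : ∀ s ∈ V, M.ρ s m = m) : ((toInv M V m hm : Inv M V) : M) = m :=
  rfl

/-! ### Inflation of cochains -/

/-- inflation in degree `0`: the inclusion `M^V → M` -/
def infl₀ : Inv M V →ₗ[k] M := Submodule.subtype _

/-- inflation of `1`-cochains -/
def infl₁ : ((G ⧸ V) → Inv M V) →ₗ[k] (G → M) where
  toFun f g := (f (g : G ⧸ V) : M)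
  map_add' _ _ := rfl
  map_smul' _ _ := rfl

/-- inflation of `2`-cochains -/
def infl₂ : ((G ⧸ V) × (G ⧸ V) → Inv M V) →ₗ[k] (G × G → M) where
  toFun f g := (f ((g.1 : G ⧸ V), (g.2 : G ⧸ V)) : M)
  map_add' _ _ := rfl
  map_smul' _ _ := rfl

/-- inflation of `3`-cochains -/
def infl₃ : ((G ⧸ V) × (G ⧸ V) × (G ⧸ V) → Inv M V) →ₗ[k] (G × G × G → M) where
  toFun f g := (f ((g.1 : G ⧸ V), (g.2.1 : G ⧸ V), (g.2.2 : G ⧸ V)) : M)
  map_add' _ _ := rfl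
  map_smul' _ _ := rfl

/-- inflation of `4`-cochains -/
def infl₄ : ((G ⧸ V) × (G ⧸ V) × (G ⧸ V) × (G ⧸ V) → Inv M V) →ₗ[k] (G × G × G × G → M) where
  toFun f g := (f ((g.1 : G ⧸ V), (g.2.1 : G ⧸ V), (g.2.2.1 : G ⧸ V), (g.2.2.2 : G ⧸ V)) : M)
  map_add' _ _ := rfl
  map_smul' _ _ := rfl

@[simp] lemma infl₀_apply (m : Inv M V) : infl₀ M V m = (m : M) := rfl
@[simp] lemma infl₁_apply (f : (G ⧸ V) → Inv M V) (g : G) :
    infl₁ M V f g = (f (g : G ⧸ V) : M) := rfl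
@[simp] lemma infl₂_apply (f : (G ⧸ V) × (G ⧸ V) → Inv M V) (g h : G) :
    infl₂ M V f (g, h) = (f ((g : G ⧸ V), (h : G ⧸ V)) : M) := rfl
@[simp] lemma infl₃_apply (f : (G ⧸ V) × (G ⧸ V) × (G ⧸ V) → Inv M V) (g h j : G) :
    infl₃ M V f (g, h, j) = (f ((g : G ⧸ V), (h : G ⧸ V), (j : G ⧸ V)) : M) := rfl
@[simp] lemma infl₄_apply (f : (G ⧸ V) × (G ⧸ V) × (G ⧸ V) × (G ⧸ V) → Inv M V) (g h j l : G) :
    infl₄ M V f (g, h, j, l) = (f ((g : G ⧸ V), (h : G ⧸ V), (j : G ⧸ V), (l : G ⧸ V)) : M) := rfl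

lemma infl₀_injective : Function.Injective (infl₀ M V) := Subtype.val_injective

lemma infl₁_injective : Function.Injective (infl₁ M V) := by
  intro f f' h
  funext q
  induction q using QuotientGroup.induction_on with
  | H g => exact Subtype.ext (congrFun h g)

lemma infl₂_injective : Function.Injective (infl₂ M V) := by
  intro f f' h
  funext ⟨q, r⟩
  induction q using QuotientGroup.induction_on with
  | H g =>
    induction r using QuotientGroup.induction_on with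
    | H g' => exact Subtype.ext (congrFun h (g, g'))

lemma infl₃_injective : Function.Injective (infl₃ M V) := by
  intro f f' h
  funext ⟨q, r, t⟩
  induction q using QuotientGroup.induction_on with
  | H g =>
    induction r using QuotientGroup.induction_on with
    | H g' =>
      induction t using QuotientGroup.induction_on with
      | H g'' => exact Subtype.ext (congrFun h (g, g', g''))

lemma infl₄_injective : Function.Injective (infl₄ M V) := by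
  intro f f' h
  funext ⟨q, r, t, u⟩
  induction q using QuotientGroup.induction_on with
  | H g =>
    induction r using QuotientGroup.induction_on with
    | H g' =>
      induction t using QuotientGroup.induction_on with
      | H g'' =>
        induction u using QuotientGroup.induction_on with
        | H g''' => exact Subtype.ext (congrFun h (g, g', g'', g'''))

/-! ### Compatibility with the differentials -/

lemma infl₁_d₀₁ (m : Inv M V) :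
    infl₁ M V ((d₀₁ (Inv M V)).hom m) = (d₀₁ M).hom (infl₀ M V m) := by
  funext g
  simp only [infl₁_apply, d₀₁_hom_apply]
  rfl

lemma infl₂_d₁₂ (f : (G ⧸ V) → Inv M V) :
    infl₂ M V ((d₁₂ (Inv M V)).hom f) = (d₁₂ M).hom (infl₁ M V f) := by
  funext ⟨g, h⟩
  simp only [infl₂_apply, d₁₂_hom_apply, infl₁_apply]
  rfl

lemma infl₃_d₂₃ (f : (G ⧸ V) × (G ⧸ V) → Inv M V) :
    infl₃ M V ((d₂₃ (Inv M V)).hom f) = (d₂₃ M).hom (infl₂ M V f) := by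
  funext ⟨g, h, j⟩
  simp only [infl₃_apply, d₂₃_hom_apply, infl₂_apply]
  rfl

lemma infl₄_d₃₄ (f : (G ⧸ V) × (G ⧸ V) × (G ⧸ V) → Inv M V) :
    infl₄ M V (d₃₄ (Inv M V) f) = d₃₄ M (infl₃ M V f) := by
  funext ⟨g, h, j, l⟩
  simp only [infl₄_apply, d₃₄_apply, infl₃_apply]
  rfl

end Level

/-! ### Cochains of level `V` -/

section LevelPred

variable (M : Rep.{0, 0, 0} k G) (V : Subgroup G)

/-- `m` is fixed by `V` -/
def IsLevel₀ (m : M) : Prop := ∀ s ∈ V, M.ρ s m = m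

/-- a `1`-cochain of level `V` -/
def IsLevel₁ (f : G → M) : Prop := ∀ s ∈ V, ∀ g, f (g * s) = f g ∧ M.ρ s (f g) = f g

/-- a `2`-cochain of level `V` -/
def IsLevel₂ (f : G × G → M) : Prop :=
  ∀ s ∈ V, ∀ g h, f (g * s, h) = f (g, h) ∧ f (g, h * s) = f (g, h) ∧
    M.ρ s (f (g, h)) = f (g, h)

/-- a `3`-cochain of level `V` -/
def IsLevel₃ (f : G × G × G → M) : Prop :=
  ∀ s ∈ V, ∀ g h j, f (g * s, h, j) = f (g, h, j) ∧ f (g, h * s, j) = f (g, h, j) ∧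
    f (g, h, j * s) = f (g, h, j) ∧ M.ρ s (f (g, h, j)) = f (g, h, j)

variable {M V}

lemma IsLevel₀.mono {W : Subgroup G} (h : W ≤ V) {m : M} (hm : IsLevel₀ M V m) : IsLevel₀ M W m :=
  fun s hs => hm s (h hs)
lemma IsLevel₁.mono {W : Subgroup G} (h : W ≤ V) {f : G → M} (hf : IsLevel₁ M V f) :
    IsLevel₁ M W f := fun s hs => hf s (h hs)
lemma IsLevel₂.mono {W : Subgroup G} (h : W ≤ V) {f : G × G → M} (hf : IsLevel₂ M V f) :
    IsLevel₂ M W f := fun s hs => hf s (h hs)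
lemma IsLevel₃.mono {W : Subgroup G} (h : W ≤ V) {f : G × G × G → M} (hf : IsLevel₃ M V f) :
    IsLevel₃ M W f := fun s hs => hf s (h hs)

variable (𝒰 : NBasis G)

lemma IsLevel₀.mem_C₀ (hV : 𝒰.mem V) {m : M} (hm : IsLevel₀ M V m) : m ∈ C₀ 𝒰 M := ⟨V, hV, hm⟩
lemma IsLevel₁.mem_C₁ (hV : 𝒰.mem V) {f : G → M} (hf : IsLevel₁ M V f) : f ∈ C₁ 𝒰 M :=
  ⟨V, hV, hf⟩
lemma IsLevel₂.mem_C₂ (hV : 𝒰.mem V) {f : G × G → M} (hf : IsLevel₂ M V f) : f ∈ C₂ 𝒰 M :=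
  ⟨V, hV, hf⟩
lemma IsLevel₃.mem_C₃ (hV : 𝒰.mem V) {f : G × G × G → M} (hf : IsLevel₃ M V f) : f ∈ C₃ 𝒰 M :=
  ⟨V, hV, hf⟩

lemma mem_C₀_iff_level {m : M} : m ∈ C₀ 𝒰 M ↔ ∃ V, 𝒰.mem V ∧ IsLevel₀ M V m := Iff.rfl
lemma mem_C₁_iff_level {f : G → M} : f ∈ C₁ 𝒰 M ↔ ∃ V, 𝒰.mem V ∧ IsLevel₁ M V f := Iff.rfl
lemma mem_C₂_iff_level {f : G × G → M} : f ∈ C₂ 𝒰 M ↔ ∃ V, 𝒰.mem V ∧ IsLevel₂ M V f := Iff.rfl
lemma mem_C₃_iff_level {f : G × G × G → M} : f ∈ C₃ 𝒰 M ↔ ∃ V, 𝒰.mem V ∧ IsLevel₃ M V f :=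
  Iff.rfl

end LevelPred

section Range

variable (M : Rep.{0, 0, 0} k G) (V : Subgroup G) [V.Normal]

lemma mk_out_mul_mem (g : G) : ∃ s ∈ V, ((g : G ⧸ V).out : G) = g * s := by
  obtain ⟨h, hh⟩ := QuotientGroup.mk_out_eq_mul V g
  exact ⟨h.1, h.2, hh⟩

lemma isLevel₀_infl₀ (m : Inv M V) : IsLevel₀ M V (infl₀ M V m) := fun _ hs => inv_fixed M V m hs

lemma isLevel₁_infl₁ (f : (G ⧸ V) → Inv M V) : IsLevel₁ M V (infl₁ M V f) := by
  intro s hs g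
  have e : ((g * s : G) : G ⧸ V) = (g : G ⧸ V) := by
    rw [QuotientGroup.mk_mul, (QuotientGroup.eq_one_iff s).mpr hs, mul_one]
  exact ⟨by simp only [infl₁_apply, e], inv_fixed M V _ hs⟩

lemma isLevel₂_infl₂ (f : (G ⧸ V) × (G ⧸ V) → Inv M V) : IsLevel₂ M V (infl₂ M V f) := by
  intro s hs g h
  have e : ∀ g : G, ((g * s : G) : G ⧸ V) = (g : G ⧸ V) := fun g => by
    rw [QuotientGroup.mk_mul, (QuotientGroup.eq_one_iff s).mpr hs, mul_one]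
  exact ⟨by simp only [infl₂_apply, e], by simp only [infl₂_apply, e], inv_fixed M V _ hs⟩

lemma isLevel₃_infl₃ (f : (G ⧸ V) × (G ⧸ V) × (G ⧸ V) → Inv M V) :
    IsLevel₃ M V (infl₃ M V f) := by
  intro s hs g h j
  have e : ∀ g : G, ((g * s : G) : G ⧸ V) = (g : G ⧸ V) := fun g => by
    rw [QuotientGroup.mk_mul, (QuotientGroup.eq_one_iff s).mpr hs, mul_one]
  exact ⟨by simp only [infl₃_apply, e], by simp only [infl₃_apply, e],
    by simp only [infl₃_apply, e], inv_fixed M V _ hs⟩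

variable {M V}

/-- the finite-level vector attached to a vector of level `V` -/
def desc₀ {m : M} (hm : IsLevel₀ M V m) : Inv M V := toInv M V m hm

/-- the finite-level cochain attached to a `1`-cochain of level `V` -/
def desc₁ {f : G → M} (hf : IsLevel₁ M V f) : (G ⧸ V) → Inv M V :=
  fun q => toInv M V (f q.out) fun s hs => (hf s hs _).2

/-- the finite-level cochain attached to a `2`-cochain of level `V` -/
def desc₂ {f : G × G → M} (hf : IsLevel₂ M V f) : (G ⧸ V) × (G ⧸ V) → Inv M V :=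
  fun q => toInv M V (f (q.1.out, q.2.out)) fun s hs => (hf s hs _ _).2.2

/-- the finite-level cochain attached to a `3`-cochain of level `V` -/
def desc₃ {f : G × G × G → M} (hf : IsLevel₃ M V f) :
    (G ⧸ V) × (G ⧸ V) × (G ⧸ V) → Inv M V :=
  fun q => toInv M V (f (q.1.out, q.2.1.out, q.2.2.out)) fun s hs => (hf s hs _ _ _).2.2.2

@[simp] lemma infl₀_desc₀ {m : M} (hm : IsLevel₀ M V m) : infl₀ M V (desc₀ hm) = m := rfl

@[simp] lemma infl₁_desc₁ {f : G → M} (hf : IsLevel₁ M V f) : infl₁ M V (desc₁ hf) = f := by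
  funext g
  obtain ⟨s, hs, e⟩ := mk_out_mul_mem V g
  simp only [infl₁_apply, desc₁, toInv_coe, e, (hf s hs g).1]

@[simp] lemma infl₂_desc₂ {f : G × G → M} (hf : IsLevel₂ M V f) : infl₂ M V (desc₂ hf) = f := by
  funext ⟨g, h⟩
  obtain ⟨s, hs, e⟩ := mk_out_mul_mem V g
  obtain ⟨t, ht, e'⟩ := mk_out_mul_mem V h
  simp only [infl₂_apply, desc₂, toInv_coe, e, e', (hf s hs g _).1, (hf t ht g h).2.1]

@[simp] lemma infl₃_desc₃ {f : G × G × G → M} (hf : IsLevel₃ M V f) :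
    infl₃ M V (desc₃ hf) = f := by
  funext ⟨g, h, j⟩
  obtain ⟨s, hs, e⟩ := mk_out_mul_mem V g
  obtain ⟨t, ht, e'⟩ := mk_out_mul_mem V h
  obtain ⟨u, hu, e''⟩ := mk_out_mul_mem V j
  simp only [infl₃_apply, desc₃, toInv_coe, e, e', e'', (hf s hs g _ _).1, (hf t ht g h _).2.1,
    (hf u hu g h j).2.2.1]

variable (M V)

lemma range_infl₀ (m : M) : m ∈ LinearMap.range (infl₀ M V) ↔ IsLevel₀ M V m :=
  ⟨by rintro ⟨m', rfl⟩; exact isLevel₀_infl₀ M V m', fun h => ⟨desc₀ h, infl₀_desc₀ h⟩⟩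

lemma range_infl₁ (f : G → M) : f ∈ LinearMap.range (infl₁ M V) ↔ IsLevel₁ M V f :=
  ⟨by rintro ⟨f', rfl⟩; exact isLevel₁_infl₁ M V f', fun h => ⟨desc₁ h, infl₁_desc₁ h⟩⟩

lemma range_infl₂ (f : G × G → M) : f ∈ LinearMap.range (infl₂ M V) ↔ IsLevel₂ M V f :=
  ⟨by rintro ⟨f', rfl⟩; exact isLevel₂_infl₂ M V f', fun h => ⟨desc₂ h, infl₂_desc₂ h⟩⟩

lemma range_infl₃ (f : G × G × G → M) : f ∈ LinearMap.range (infl₃ M V) ↔ IsLevel₃ M V f :=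
  ⟨by rintro ⟨f', rfl⟩; exact isLevel₃_infl₃ M V f', fun h => ⟨desc₃ h, infl₃_desc₃ h⟩⟩

variable (𝒰 : NBasis G)

lemma infl₀_mem_C₀ (hV : 𝒰.mem V) (m : Inv M V) : infl₀ M V m ∈ C₀ 𝒰 M :=
  (isLevel₀_infl₀ M V m).mem_C₀ 𝒰 hV
lemma infl₁_mem_C₁ (hV : 𝒰.mem V) (f : (G ⧸ V) → Inv M V) : infl₁ M V f ∈ C₁ 𝒰 M :=
  (isLevel₁_infl₁ M V f).mem_C₁ 𝒰 hV
lemma infl₂_mem_C₂ (hV : 𝒰.mem V) (f : (G ⧸ V) × (G ⧸ V) → Inv M V) : infl₂ M V f ∈ C₂ 𝒰 M :=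
  (isLevel₂_infl₂ M V f).mem_C₂ 𝒰 hV
lemma infl₃_mem_C₃ (hV : 𝒰.mem V) (f : (G ⧸ V) × (G ⧸ V) × (G ⧸ V) → Inv M V) :
    infl₃ M V f ∈ C₃ 𝒰 M :=
  (isLevel₃_infl₃ M V f).mem_C₃ 𝒰 hV

end Range

/-! ### Every LC cochain comes from a finite level -/

section Exists

variable (𝒰 : NBasis G) (M : Rep.{0, 0, 0} k G)

lemma exists_infl₀ {m : M} (hm : m ∈ C₀ 𝒰 M) :
    ∃ (V : Subgroup G) (_ : V.Normal) (_ : 𝒰.mem V) (m' : Inv M V), infl₀ M V m' = m := by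
  obtain ⟨V, hV, h⟩ := hm
  haveI := 𝒰.normal hV
  exact ⟨V, 𝒰.normal hV, hV, desc₀ h, infl₀_desc₀ h⟩

lemma exists_infl₁ {f : G → M} (hf : f ∈ C₁ 𝒰 M) :
    ∃ (V : Subgroup G) (_ : V.Normal) (_ : 𝒰.mem V) (f' : (G ⧸ V) → Inv M V),
      infl₁ M V f' = f := by
  obtain ⟨V, hV, h⟩ := hf
  haveI := 𝒰.normal hV
  exact ⟨V, 𝒰.normal hV, hV, desc₁ h, infl₁_desc₁ h⟩

lemma exists_infl₂ {f : G × G → M} (hf : f ∈ C₂ 𝒰 M) :
    ∃ (V : Subgroup G) (_ : V.Normal) (_ : 𝒰.mem V) (f' : (G ⧸ V) × (G ⧸ V) → Inv M V),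
      infl₂ M V f' = f := by
  obtain ⟨V, hV, h⟩ := hf
  haveI := 𝒰.normal hV
  exact ⟨V, 𝒰.normal hV, hV, desc₂ h, infl₂_desc₂ h⟩

lemma exists_infl₃ {f : G × G × G → M} (hf : f ∈ C₃ 𝒰 M) :
    ∃ (V : Subgroup G) (_ : V.Normal) (_ : 𝒰.mem V)
      (f' : (G ⧸ V) × (G ⧸ V) × (G ⧸ V) → Inv M V), infl₃ M V f' = f := by
  obtain ⟨V, hV, h⟩ := hf
  haveI := 𝒰.normal hV
  exact ⟨V, 𝒰.normal hV, hV, desc₃ h, infl₃_desc₃ h⟩

end Exists

/-! ### Transition maps between levels -/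

section Trans

variable (M : Rep.{0, 0, 0} k G) {V W : Subgroup G} [V.Normal] [W.Normal] (h : W ≤ V)

/-- the projection `G ⧸ W → G ⧸ V` for `W ≤ V` -/
def qmap : G ⧸ W →* G ⧸ V := QuotientGroup.map W V (MonoidHom.id G) h

@[simp] lemma qmap_mk (g : G) : qmap h (g : G ⧸ W) = (g : G ⧸ V) := rfl

lemma qmap_surjective : Function.Surjective (qmap h) := by
  intro q
  induction q using QuotientGroup.induction_on with
  | H g => exact ⟨(g : G ⧸ W), rfl⟩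

/-- the inclusion `M^V → M^W` for `W ≤ V` -/
def trans₀ : Inv M V →ₗ[k] Inv M W where
  toFun m := toInv M W (m : M) fun _ hs => inv_fixed M V m (h hs)
  map_add' _ _ := rfl
  map_smul' _ _ := rfl

@[simp] lemma trans₀_coe (m : Inv M V) : ((trans₀ M h m : Inv M W) : M) = (m : M) := rfl

/-- transition on `1`-cochains -/
def trans₁ : ((G ⧸ V) → Inv M V) →ₗ[k] ((G ⧸ W) → Inv M W) where
  toFun f q := trans₀ M h (f (qmap h q))
  map_add' _ _ := rfl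
  map_smul' _ _ := rfl

/-- transition on `2`-cochains -/
def trans₂ : ((G ⧸ V) × (G ⧸ V) → Inv M V) →ₗ[k] ((G ⧸ W) × (G ⧸ W) → Inv M W) where
  toFun f q := trans₀ M h (f (qmap h q.1, qmap h q.2))
  map_add' _ _ := rfl
  map_smul' _ _ := rfl

/-- transition on `3`-cochains -/
def trans₃ : ((G ⧸ V) × (G ⧸ V) × (G ⧸ V) → Inv M V) →ₗ[k]
    ((G ⧸ W) × (G ⧸ W) × (G ⧸ W) → Inv M W) where
  toFun f q := trans₀ M h (f (qmap h q.1, qmap h q.2.1, qmap h q.2.2))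
  map_add' _ _ := rfl
  map_smul' _ _ := rfl

@[simp] lemma trans₁_apply (f : (G ⧸ V) → Inv M V) (q : G ⧸ W) :
    trans₁ M h f q = trans₀ M h (f (qmap h q)) := rfl
@[simp] lemma trans₂_apply (f : (G ⧸ V) × (G ⧸ V) → Inv M V) (q r : G ⧸ W) :
    trans₂ M h f (q, r) = trans₀ M h (f (qmap h q, qmap h r)) := rfl
@[simp] lemma trans₃_apply (f : (G ⧸ V) × (G ⧸ V) × (G ⧸ V) → Inv M V) (q r t : G ⧸ W) :
    trans₃ M h f (q, r, t) = trans₀ M h (f (qmap h q, qmap h r, qmap h t)) := rfl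

@[simp] lemma infl₀_trans₀ (m : Inv M V) : infl₀ M W (trans₀ M h m) = infl₀ M V m := rfl
@[simp] lemma infl₁_trans₁ (f : (G ⧸ V) → Inv M V) :
    infl₁ M W (trans₁ M h f) = infl₁ M V f := rfl
@[simp] lemma infl₂_trans₂ (f : (G ⧸ V) × (G ⧸ V) → Inv M V) :
    infl₂ M W (trans₂ M h f) = infl₂ M V f := rfl
@[simp] lemma infl₃_trans₃ (f : (G ⧸ V) × (G ⧸ V) × (G ⧸ V) → Inv M V) :
    infl₃ M W (trans₃ M h f) = infl₃ M V f := rfl

lemma trans₁_d₀₁ (m : Inv M V) :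
    trans₁ M h ((d₀₁ (Inv M V)).hom m) = (d₀₁ (Inv M W)).hom (trans₀ M h m) := by
  apply infl₁_injective M W
  rw [infl₁_trans₁, infl₁_d₀₁, infl₁_d₀₁, infl₀_trans₀]

lemma trans₂_d₁₂ (f : (G ⧸ V) → Inv M V) :
    trans₂ M h ((d₁₂ (Inv M V)).hom f) = (d₁₂ (Inv M W)).hom (trans₁ M h f) := by
  apply infl₂_injective M W
  rw [infl₂_trans₂, infl₂_d₁₂, infl₂_d₁₂, infl₁_trans₁]

lemma trans₃_d₂₃ (f : (G ⧸ V) × (G ⧸ V) → Inv M V) :
    trans₃ M h ((d₂₃ (Inv M V)).hom f) = (d₂₃ (Inv M W)).hom (trans₂ M h f) := by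
  apply infl₃_injective M W
  rw [infl₃_trans₃, infl₃_d₂₃, infl₃_d₂₃, infl₂_trans₂]

lemma trans₀_injective : Function.Injective (trans₀ M h) := fun m m' e =>
  infl₀_injective M V (by rw [← infl₀_trans₀ M h, e, infl₀_trans₀])

lemma trans₁_injective : Function.Injective (trans₁ M h) := fun f f' e =>
  infl₁_injective M V (by rw [← infl₁_trans₁ M h, e, infl₁_trans₁])

lemma trans₂_injective : Function.Injective (trans₂ M h) := fun f f' e =>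
  infl₂_injective M V (by rw [← infl₂_trans₂ M h, e, infl₂_trans₂])

lemma trans₃_injective : Function.Injective (trans₃ M h) := fun f f' e =>
  infl₃_injective M V (by rw [← infl₃_trans₃ M h, e, infl₃_trans₃])

lemma trans₀_refl (m : Inv M V) : trans₀ M (le_refl V) m = m := rfl

lemma trans₁_refl (f : (G ⧸ V) → Inv M V) : trans₁ M (le_refl V) f = f :=
  infl₁_injective M V (infl₁_trans₁ M _ f)

lemma trans₂_refl (f : (G ⧸ V) × (G ⧸ V) → Inv M V) : trans₂ M (le_refl V) f = f :=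
  infl₂_injective M V (infl₂_trans₂ M _ f)

lemma trans₃_refl (f : (G ⧸ V) × (G ⧸ V) × (G ⧸ V) → Inv M V) : trans₃ M (le_refl V) f = f :=
  infl₃_injective M V (infl₃_trans₃ M _ f)

lemma trans₁_trans₁ {X : Subgroup G} [X.Normal] (h' : X ≤ W) (f : (G ⧸ V) → Inv M V) :
    trans₁ M h' (trans₁ M h f) = trans₁ M (h'.trans h) f :=
  infl₁_injective M X (by rw [infl₁_trans₁, infl₁_trans₁, infl₁_trans₁])

lemma trans₂_trans₂ {X : Subgroup G} [X.Normal] (h' : X ≤ W)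
    (f : (G ⧸ V) × (G ⧸ V) → Inv M V) :
    trans₂ M h' (trans₂ M h f) = trans₂ M (h'.trans h) f :=
  infl₂_injective M X (by rw [infl₂_trans₂, infl₂_trans₂, infl₂_trans₂])

lemma trans₃_trans₃ {X : Subgroup G} [X.Normal] (h' : X ≤ W)
    (f : (G ⧸ V) × (G ⧸ V) × (G ⧸ V) → Inv M V) :
    trans₃ M h' (trans₃ M h f) = trans₃ M (h'.trans h) f :=
  infl₃_injective M X (by rw [infl₃_trans₃, infl₃_trans₃, infl₃_trans₃])

/-- the transition as a morphism of representations of `G ⧸ W` -/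
def transHom : Rep.res (qmap h) (Inv M V) ⟶ Inv M W :=
  Rep.ofHom ⟨trans₀ M h, fun q => by
    induction q using QuotientGroup.induction_on with
    | H g => rfl⟩

end Trans

/-! ### Finite-level cochains as LC cochains -/

section LCmaps

variable (𝒰 : NBasis G) (M : Rep.{0, 0, 0} k G) {V : Subgroup G} [V.Normal] (hV : 𝒰.mem V)

/-- inflation into the smooth vectors -/
def lc₀ : Inv M V →ₗ[k] ↥(C₀ 𝒰 M) := (infl₀ M V).codRestrict _ (infl₀_mem_C₀ M V 𝒰 hV)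
/-- inflation into the LC `1`-cochains -/
def lc₁ : ((G ⧸ V) → Inv M V) →ₗ[k] ↥(C₁ 𝒰 M) :=
  (infl₁ M V).codRestrict _ (infl₁_mem_C₁ M V 𝒰 hV)
/-- inflation into the LC `2`-cochains -/
def lc₂ : ((G ⧸ V) × (G ⧸ V) → Inv M V) →ₗ[k] ↥(C₂ 𝒰 M) :=
  (infl₂ M V).codRestrict _ (infl₂_mem_C₂ M V 𝒰 hV)
/-- inflation into the LC `3`-cochains -/
def lc₃ : ((G ⧸ V) × (G ⧸ V) × (G ⧸ V) → Inv M V) →ₗ[k] ↥(C₃ 𝒰 M) :=
  (infl₃ M V).codRestrict _ (infl₃_mem_C₃ M V 𝒰 hV)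

@[simp] lemma lc₀_coe (m : Inv M V) : (lc₀ 𝒰 M hV m : M) = infl₀ M V m := rfl
@[simp] lemma lc₁_coe (f : (G ⧸ V) → Inv M V) : (lc₁ 𝒰 M hV f : G → M) = infl₁ M V f := rfl
@[simp] lemma lc₂_coe (f : (G ⧸ V) × (G ⧸ V) → Inv M V) :
    (lc₂ 𝒰 M hV f : G × G → M) = infl₂ M V f := rfl
@[simp] lemma lc₃_coe (f : (G ⧸ V) × (G ⧸ V) × (G ⧸ V) → Inv M V) :
    (lc₃ 𝒰 M hV f : G × G × G → M) = infl₃ M V f := rfl

lemma dC₀_lc₀ (m : Inv M V) :
    dC₀ 𝒰 M (lc₀ 𝒰 M hV m) = lc₁ 𝒰 M hV ((d₀₁ (Inv M V)).hom m) :=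
  Subtype.ext (by rw [dC₀_coe, lc₀_coe, lc₁_coe, infl₁_d₀₁])

lemma dC₁_lc₁ (f : (G ⧸ V) → Inv M V) :
    dC₁ 𝒰 M (lc₁ 𝒰 M hV f) = lc₂ 𝒰 M hV ((d₁₂ (Inv M V)).hom f) :=
  Subtype.ext (by rw [dC₁_coe, lc₁_coe, lc₂_coe, infl₂_d₁₂])

lemma dC₂_lc₂ (f : (G ⧸ V) × (G ⧸ V) → Inv M V) :
    dC₂ 𝒰 M (lc₂ 𝒰 M hV f) = lc₃ 𝒰 M hV ((d₂₃ (Inv M V)).hom f) :=
  Subtype.ext (by rw [dC₂_coe, lc₂_coe, lc₃_coe, infl₃_d₂₃])

lemma dC₃_lc₃ (f : (G ⧸ V) × (G ⧸ V) × (G ⧸ V) → Inv M V) :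
    dC₃ 𝒰 M (lc₃ 𝒰 M hV f) = infl₄ M V (d₃₄ (Inv M V) f) := by
  rw [dC₃_apply, lc₃_coe, infl₄_d₃₄]

lemma lc₀_trans₀ {W : Subgroup G} [W.Normal] (hW : 𝒰.mem W) (h : W ≤ V) (m : Inv M V) :
    lc₀ 𝒰 M hW (trans₀ M h m) = lc₀ 𝒰 M hV m := rfl
lemma lc₁_trans₁ {W : Subgroup G} [W.Normal] (hW : 𝒰.mem W) (h : W ≤ V)
    (f : (G ⧸ V) → Inv M V) : lc₁ 𝒰 M hW (trans₁ M h f) = lc₁ 𝒰 M hV f := rfl
lemma lc₂_trans₂ {W : Subgroup G} [W.Normal] (hW : 𝒰.mem W) (h : W ≤ V)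
    (f : (G ⧸ V) × (G ⧸ V) → Inv M V) : lc₂ 𝒰 M hW (trans₂ M h f) = lc₂ 𝒰 M hV f := rfl
lemma lc₃_trans₃ {W : Subgroup G} [W.Normal] (hW : 𝒰.mem W) (h : W ≤ V)
    (f : (G ⧸ V) × (G ⧸ V) × (G ⧸ V) → Inv M V) :
    lc₃ 𝒰 M hW (trans₃ M h f) = lc₃ 𝒰 M hV f := rfl

end LCmaps

/-- every LC cochain, with a bound on the level: given finitely many LC cochains one can find a
common level below a prescribed one. -/
lemma exists_level_le₁ (𝒰 : NBasis G) (M : Rep.{0, 0, 0} k G) {V : Subgroup G} (hV : 𝒰.mem V)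
    (f : ↥(C₁ 𝒰 M)) : ∃ W, 𝒰.mem W ∧ W ≤ V ∧ IsLevel₁ M W (f : G → M) := by
  obtain ⟨U, hU, hf⟩ := f.2
  obtain ⟨W, hW, hle⟩ := 𝒰.inf hU hV
  exact ⟨W, hW, hle.trans inf_le_right, fun s hs => hf s ((hle.trans inf_le_left) hs)⟩

lemma exists_level_le₀ (𝒰 : NBasis G) (M : Rep.{0, 0, 0} k G) {V : Subgroup G} (hV : 𝒰.mem V)
    (m : ↥(C₀ 𝒰 M)) : ∃ W, 𝒰.mem W ∧ W ≤ V ∧ IsLevel₀ M W (m : M) := by
  obtain ⟨U, hU, hf⟩ := m.2
  obtain ⟨W, hW, hle⟩ := 𝒰.inf hU hV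
  exact ⟨W, hW, hle.trans inf_le_right, fun s hs => hf s ((hle.trans inf_le_left) hs)⟩

lemma exists_level_le₂ (𝒰 : NBasis G) (M : Rep.{0, 0, 0} k G) {V : Subgroup G} (hV : 𝒰.mem V)
    (f : ↥(C₂ 𝒰 M)) : ∃ W, 𝒰.mem W ∧ W ≤ V ∧ IsLevel₂ M W (f : G × G → M) := by
  obtain ⟨U, hU, hf⟩ := f.2
  obtain ⟨W, hW, hle⟩ := 𝒰.inf hU hV
  exact ⟨W, hW, hle.trans inf_le_right, fun s hs => hf s ((hle.trans inf_le_left) hs)⟩

lemma exists_level_le₃ (𝒰 : NBasis G) (M : Rep.{0, 0, 0} k G) {V : Subgroup G} (hV : 𝒰.mem V)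
    (f : ↥(C₃ 𝒰 M)) : ∃ W, 𝒰.mem W ∧ W ≤ V ∧ IsLevel₃ M W (f : G × G × G → M) := by
  obtain ⟨U, hU, hf⟩ := f.2
  obtain ⟨W, hW, hle⟩ := 𝒰.inf hU hV
  exact ⟨W, hW, hle.trans inf_le_right, fun s hs => hf s ((hle.trans inf_le_left) hs)⟩

/-! ### Classes of finite-level cocycles in LC cohomology -/

section Classes

variable (𝒰 : NBasis G) (M : Rep.{0, 0, 0} k G) {V : Subgroup G} [V.Normal] (hV : 𝒰.mem V)

/-- finite-level `3`-cocycles (kernel of the explicit `d₃₄`) -/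
abbrev Z₃ (A : Rep.{0, 0, 0} k (G ⧸ V)) : Submodule k ((G ⧸ V) × (G ⧸ V) × (G ⧸ V) → A) :=
  LinearMap.ker (d₃₄ A)

/-- the LC cohomology class of a finite-level `1`-cocycle -/
def cl₁ : cocycles₁ (Inv M V) →ₗ[k] H1 𝒰 M :=
  Hmid.mk (dC₀ 𝒰 M) (dC₁ 𝒰 M) ∘ₗ
    ((lc₁ 𝒰 M hV ∘ₗ (cocycles₁ (Inv M V)).subtype).codRestrict (LinearMap.ker (dC₁ 𝒰 M))
      fun x => by
        have hx : (d₁₂ (Inv M V)).hom x.1 = 0 := x.2
        rw [LinearMap.mem_ker, LinearMap.comp_apply, Submodule.subtype_apply, dC₁_lc₁, hx,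
          map_zero])

/-- the LC cohomology class of a finite-level `2`-cocycle -/
def cl₂ : cocycles₂ (Inv M V) →ₗ[k] H2 𝒰 M :=
  Hmid.mk (dC₁ 𝒰 M) (dC₂ 𝒰 M) ∘ₗ
    ((lc₂ 𝒰 M hV ∘ₗ (cocycles₂ (Inv M V)).subtype).codRestrict (LinearMap.ker (dC₂ 𝒰 M))
      fun x => by
        have hx : (d₂₃ (Inv M V)).hom x.1 = 0 := x.2
        rw [LinearMap.mem_ker, LinearMap.comp_apply, Submodule.subtype_apply, dC₂_lc₂, hx,
          map_zero])

/-- the LC cohomology class of a finite-level `3`-cocycle -/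
def cl₃ : ↥(Z₃ (Inv M V)) →ₗ[k] H3 𝒰 M :=
  Hmid.mk (dC₂ 𝒰 M) (dC₃ 𝒰 M) ∘ₗ
    ((lc₃ 𝒰 M hV ∘ₗ (Z₃ (Inv M V)).subtype).codRestrict (LinearMap.ker (dC₃ 𝒰 M))
      fun x => by
        have hx : d₃₄ (Inv M V) x.1 = 0 := x.2
        rw [LinearMap.mem_ker, LinearMap.comp_apply, Submodule.subtype_apply, dC₃_lc₃, hx,
          map_zero])

lemma cl₁_eq_of (x : cocycles₁ (Inv M V)) (hx : dC₁ 𝒰 M (lc₁ 𝒰 M hV x.1) = 0) :
    cl₁ 𝒰 M hV x = Hmid.of (lc₁ 𝒰 M hV x.1) hx := rfl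

lemma cl₂_eq_of (x : cocycles₂ (Inv M V)) (hx : dC₂ 𝒰 M (lc₂ 𝒰 M hV x.1) = 0) :
    cl₂ 𝒰 M hV x = Hmid.of (lc₂ 𝒰 M hV x.1) hx := rfl

lemma cl₃_eq_of (x : ↥(Z₃ (Inv M V))) (hx : dC₃ 𝒰 M (lc₃ 𝒰 M hV x.1) = 0) :
    cl₃ 𝒰 M hV x = Hmid.of (lc₃ 𝒰 M hV x.1) hx := rfl

end Classes

/-! ### Transition on cocycles -/

section TransZ

variable (M : Rep.{0, 0, 0} k G) {V W : Subgroup G} [V.Normal] [W.Normal] (h : W ≤ V)

/-- transition on `1`-cocycles -/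
def transZ₁ : cocycles₁ (Inv M V) →ₗ[k] cocycles₁ (Inv M W) :=
  (trans₁ M h ∘ₗ (cocycles₁ (Inv M V)).subtype).codRestrict _ fun x => by
    have hx : (d₁₂ (Inv M V)).hom x.1 = 0 := x.2
    show (d₁₂ (Inv M W)).hom (trans₁ M h x.1) = 0
    rw [← trans₂_d₁₂, hx, map_zero]

/-- transition on `2`-cocycles -/
def transZ₂ : cocycles₂ (Inv M V) →ₗ[k] cocycles₂ (Inv M W) :=
  (trans₂ M h ∘ₗ (cocycles₂ (Inv M V)).subtype).codRestrict _ fun x => by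
    have hx : (d₂₃ (Inv M V)).hom x.1 = 0 := x.2
    show (d₂₃ (Inv M W)).hom (trans₂ M h x.1) = 0
    rw [← trans₃_d₂₃, hx, map_zero]

lemma trans₄_aux (f : (G ⧸ V) × (G ⧸ V) × (G ⧸ V) → Inv M V) (hf : d₃₄ (Inv M V) f = 0) :
    d₃₄ (Inv M W) (trans₃ M h f) = 0 := by
  apply infl₄_injective M W
  rw [infl₄_d₃₄, infl₃_trans₃, ← infl₄_d₃₄, hf, map_zero, map_zero]

/-- transition on `3`-cocycles -/
def transZ₃ : ↥(Z₃ (Inv M V)) →ₗ[k] ↥(Z₃ (Inv M W)) :=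
  (trans₃ M h ∘ₗ (Z₃ (Inv M V)).subtype).codRestrict _ fun x =>
    LinearMap.mem_ker.mpr (trans₄_aux M h x.1 x.2)

@[simp] lemma transZ₁_coe (x : cocycles₁ (Inv M V)) : (transZ₁ M h x).1 = trans₁ M h x.1 := rfl
@[simp] lemma transZ₂_coe (x : cocycles₂ (Inv M V)) : (transZ₂ M h x).1 = trans₂ M h x.1 := rfl
@[simp] lemma transZ₃_coe (x : ↥(Z₃ (Inv M V))) : (transZ₃ M h x).1 = trans₃ M h x.1 := rfl

variable (𝒰 : NBasis G) (hV : 𝒰.mem V) (hW : 𝒰.mem W)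

lemma cl₁_transZ₁ (x : cocycles₁ (Inv M V)) :
    cl₁ 𝒰 M hW (transZ₁ M h x) = cl₁ 𝒰 M hV x := rfl

lemma cl₂_transZ₂ (x : cocycles₂ (Inv M V)) :
    cl₂ 𝒰 M hW (transZ₂ M h x) = cl₂ 𝒰 M hV x := rfl

lemma cl₃_transZ₃ (x : ↥(Z₃ (Inv M V))) :
    cl₃ 𝒰 M hW (transZ₃ M h x) = cl₃ 𝒰 M hV x := rfl

end TransZ

/-! ### The dictionary on cohomology classes -/

section Dictionary

variable (𝒰 : NBasis G) (M : Rep.{0, 0, 0} k G)

/-- every class in `H¹` of LC cochains comes from a finite level -/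
theorem exists_cl₁ (x : H1 𝒰 M) :
    ∃ (V : Subgroup G) (_ : V.Normal) (hV : 𝒰.mem V) (x' : cocycles₁ (Inv M V)),
      cl₁ 𝒰 M hV x' = x := by
  obtain ⟨z, rfl⟩ := Hmid.mk_surjective _ _ x
  obtain ⟨V, hV, hlev0⟩ := z.1.2
  have hlev : IsLevel₁ M V (z.1 : G → M) := hlev0
  haveI := 𝒰.normal hV
  have hz : (d₁₂ M).hom (z.1 : G → M) = 0 := by
    have := congrArg Subtype.val (LinearMap.mem_ker.mp z.2)
    rwa [dC₁_coe] at this
  have hcoc : (d₁₂ (Inv M V)).hom (desc₁ hlev) = 0 := by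
    apply infl₂_injective M V
    rw [infl₂_d₁₂, infl₁_desc₁, hz, map_zero]
  refine ⟨V, 𝒰.normal hV, hV, ⟨desc₁ hlev, hcoc⟩, ?_⟩
  show Hmid.mk _ _ _ = Hmid.mk _ _ z
  congr 1
  exact Subtype.ext (Subtype.ext (infl₁_desc₁ hlev))

/-- every class in `H²` of LC cochains comes from a finite level -/
theorem exists_cl₂ (x : H2 𝒰 M) :
    ∃ (V : Subgroup G) (_ : V.Normal) (hV : 𝒰.mem V) (x' : cocycles₂ (Inv M V)),
      cl₂ 𝒰 M hV x' = x := by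
  obtain ⟨z, rfl⟩ := Hmid.mk_surjective _ _ x
  obtain ⟨V, hV, hlev0⟩ := z.1.2
  have hlev : IsLevel₂ M V (z.1 : G × G → M) := hlev0
  haveI := 𝒰.normal hV
  have hz : (d₂₃ M).hom (z.1 : G × G → M) = 0 := by
    have := congrArg Subtype.val (LinearMap.mem_ker.mp z.2)
    rwa [dC₂_coe] at this
  have hcoc : (d₂₃ (Inv M V)).hom (desc₂ hlev) = 0 := by
    apply infl₃_injective M V
    rw [infl₃_d₂₃, infl₂_desc₂, hz, map_zero]
  refine ⟨V, 𝒰.normal hV, hV, ⟨desc₂ hlev, hcoc⟩, ?_⟩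
  show Hmid.mk _ _ _ = Hmid.mk _ _ z
  congr 1
  exact Subtype.ext (Subtype.ext (infl₂_desc₂ hlev))

/-- every class in `H³` of LC cochains comes from a finite level -/
theorem exists_cl₃ (x : H3 𝒰 M) :
    ∃ (V : Subgroup G) (_ : V.Normal) (hV : 𝒰.mem V) (x' : ↥(Z₃ (Inv M V))),
      cl₃ 𝒰 M hV x' = x := by
  obtain ⟨z, rfl⟩ := Hmid.mk_surjective _ _ x
  obtain ⟨V, hV, hlev0⟩ := z.1.2
  have hlev : IsLevel₃ M V (z.1 : G × G × G → M) := hlev0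
  haveI := 𝒰.normal hV
  have hz : d₃₄ M (z.1 : G × G × G → M) = 0 := by
    have := LinearMap.mem_ker.mp z.2
    rwa [dC₃_apply] at this
  have hcoc : d₃₄ (Inv M V) (desc₃ hlev) = 0 := by
    apply infl₄_injective M V
    rw [infl₄_d₃₄, infl₃_desc₃, hz, map_zero]
  refine ⟨V, 𝒰.normal hV, hV, ⟨desc₃ hlev, hcoc⟩, ?_⟩
  show Hmid.mk _ _ _ = Hmid.mk _ _ z
  congr 1
  exact Subtype.ext (Subtype.ext (infl₃_desc₃ hlev))

variable {V : Subgroup G} [V.Normal] (hV : 𝒰.mem V)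

/-- a finite-level `1`-cocycle is an LC coboundary iff it is a coboundary at its own level
(inflation is injective on `H¹`) -/
theorem cl₁_eq_zero_iff (x : cocycles₁ (Inv M V)) :
    cl₁ 𝒰 M hV x = 0 ↔ ∃ m : Inv M V, (d₀₁ (Inv M V)).hom m = x.1 := by
  unfold cl₁
  rw [LinearMap.comp_apply, Hmid.mk_eq_zero_iff]
  constructor
  · rintro ⟨m, hm⟩
    have hm' : (d₀₁ M).hom (m : M) = infl₁ M V x.1 := by
      have := congrArg Subtype.val hm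
      rwa [dC₀_coe] at this
    have hx1 : x.1 1 = 0 := by
      have h12 : (d₁₂ (Inv M V)).hom x.1 = 0 := x.2
      have := congrFun h12 (1, 1)
      simp only [d₁₂_hom_apply, map_one, Module.End.one_apply, mul_one,
        sub_self, zero_add] at this
      exact this
    have hfix : IsLevel₀ M V (m : M) := by
      intro s hs
      have e1 := congrFun hm' s
      have e2 : ((s : G) : G ⧸ V) = 1 := (QuotientGroup.eq_one_iff s).mpr hs
      rw [d₀₁_hom_apply, infl₁_apply, e2, hx1] at e1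
      exact sub_eq_zero.mp e1
    refine ⟨desc₀ hfix, ?_⟩
    apply infl₁_injective M V
    rw [infl₁_d₀₁, infl₀_desc₀, hm']
  · rintro ⟨m, hm⟩
    refine ⟨lc₀ 𝒰 M hV m, ?_⟩
    rw [dC₀_lc₀, hm]
    rfl

/-- a finite-level `2`-cocycle is an LC coboundary iff it becomes a coboundary at a deeper level -/
theorem cl₂_eq_zero_iff (x : cocycles₂ (Inv M V)) :
    cl₂ 𝒰 M hV x = 0 ↔ ∃ (W : Subgroup G) (_ : W.Normal) (_ : 𝒰.mem W) (h : W ≤ V)
      (b : (G ⧸ W) → Inv M W), (d₁₂ (Inv M W)).hom b = trans₂ M h x.1 := by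
  unfold cl₂
  rw [LinearMap.comp_apply, Hmid.mk_eq_zero_iff]
  constructor
  · rintro ⟨b, hb⟩
    have hb' : (d₁₂ M).hom (b : G → M) = infl₂ M V x.1 := by
      have := congrArg Subtype.val hb
      rwa [dC₁_coe] at this
    obtain ⟨W, hW, hle, hlev⟩ := exists_level_le₁ 𝒰 M hV b
    haveI := 𝒰.normal hW
    refine ⟨W, 𝒰.normal hW, hW, hle, desc₁ hlev, ?_⟩
    apply infl₂_injective M W
    rw [infl₂_d₁₂, infl₁_desc₁, hb', infl₂_trans₂]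
  · rintro ⟨W, _, hW, hle, b, hb⟩
    refine ⟨lc₁ 𝒰 M hW b, ?_⟩
    rw [dC₁_lc₁, hb, lc₂_trans₂ 𝒰 M hV hW hle]
    rfl

/-- a finite-level `3`-cocycle is an LC coboundary iff it becomes a coboundary at a deeper level -/
theorem cl₃_eq_zero_iff (x : ↥(Z₃ (Inv M V))) :
    cl₃ 𝒰 M hV x = 0 ↔ ∃ (W : Subgroup G) (_ : W.Normal) (_ : 𝒰.mem W) (h : W ≤ V)
      (b : (G ⧸ W) × (G ⧸ W) → Inv M W), (d₂₃ (Inv M W)).hom b = trans₃ M h x.1 := by
  unfold cl₃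
  rw [LinearMap.comp_apply, Hmid.mk_eq_zero_iff]
  constructor
  · rintro ⟨b, hb⟩
    have hb' : (d₂₃ M).hom (b : G × G → M) = infl₃ M V x.1 := by
      have := congrArg Subtype.val hb
      rwa [dC₂_coe] at this
    obtain ⟨W, hW, hle, hlev⟩ := exists_level_le₂ 𝒰 M hV b
    haveI := 𝒰.normal hW
    refine ⟨W, 𝒰.normal hW, hW, hle, desc₂ hlev, ?_⟩
    apply infl₃_injective M W
    rw [infl₃_d₂₃, infl₂_desc₂, hb', infl₃_trans₃]
  · rintro ⟨W, _, hW, hle, b, hb⟩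
    refine ⟨lc₂ 𝒰 M hW b, ?_⟩
    rw [dC₂_lc₂, hb, lc₃_trans₃ 𝒰 M hV hW hle]
    rfl

end Dictionary

/-! ### Mathlib's `H1`, `H2` of the finite levels -/

section MathlibH

variable (𝒰 : NBasis G) (M : Rep.{0, 0, 0} k G) {V : Subgroup G} [V.Normal] (hV : 𝒰.mem V)

lemma H1π_surjective (A : Rep.{0, 0, 0} k (G ⧸ V)) : Function.Surjective (H1π A).hom :=
  (ModuleCat.epi_iff_surjective (H1π A)).mp inferInstance

lemma H2π_surjective (A : Rep.{0, 0, 0} k (G ⧸ V)) : Function.Surjective (H2π A).hom :=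
  (ModuleCat.epi_iff_surjective (H2π A)).mp inferInstance

/-- inflation `H¹(G ⧸ V, M^V) → H¹` of LC cochains -/
def inflH1 : groupCohomology.H1 (Inv M V) →ₗ[k] H1 𝒰 M :=
  (LinearMap.ker (H1π (Inv M V)).hom).liftQ (cl₁ 𝒰 M hV) (fun x hx => by
      rw [LinearMap.mem_ker] at hx ⊢
      have h1 : (x : (G ⧸ V) → Inv M V) ∈ coboundaries₁ (Inv M V) :=
        (H1π_eq_zero_iff x).mp hx
      obtain ⟨m, hm⟩ := h1
      exact (cl₁_eq_zero_iff 𝒰 M hV x).mpr ⟨m, hm⟩) ∘ₗ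
    ((H1π (Inv M V)).hom.quotKerEquivOfSurjective (H1π_surjective _)).symm.toLinearMap

/-- inflation `H²(G ⧸ V, M^V) → H²` of LC cochains -/
def inflH2 : groupCohomology.H2 (Inv M V) →ₗ[k] H2 𝒰 M :=
  (LinearMap.ker (H2π (Inv M V)).hom).liftQ (cl₂ 𝒰 M hV) (fun x hx => by
      rw [LinearMap.mem_ker] at hx ⊢
      have h1 : (x : (G ⧸ V) × (G ⧸ V) → Inv M V) ∈ coboundaries₂ (Inv M V) :=
        (H2π_eq_zero_iff x).mp hx
      obtain ⟨b, hb⟩ := h1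
      refine (cl₂_eq_zero_iff 𝒰 M hV x).mpr ⟨V, inferInstance, hV, le_rfl, b, ?_⟩
      rw [hb]
      exact (trans₂_refl M _).symm) ∘ₗ
    ((H2π (Inv M V)).hom.quotKerEquivOfSurjective (H2π_surjective _)).symm.toLinearMap

@[simp] theorem inflH1_π (x : cocycles₁ (Inv M V)) :
    inflH1 𝒰 M hV (H1π (Inv M V) x) = cl₁ 𝒰 M hV x := by
  unfold inflH1
  rw [LinearMap.comp_apply]
  have : ((H1π (Inv M V)).hom.quotKerEquivOfSurjective (H1π_surjective _)).symm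
      (H1π (Inv M V) x) = Submodule.Quotient.mk x := by
    rw [LinearEquiv.symm_apply_eq]
    rfl
  erw [this]
  rfl

@[simp] theorem inflH2_π (x : cocycles₂ (Inv M V)) :
    inflH2 𝒰 M hV (H2π (Inv M V) x) = cl₂ 𝒰 M hV x := by
  unfold inflH2
  rw [LinearMap.comp_apply]
  have : ((H2π (Inv M V)).hom.quotKerEquivOfSurjective (H2π_surjective _)).symm
      (H2π (Inv M V) x) = Submodule.Quotient.mk x := by
    rw [LinearEquiv.symm_apply_eq]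
    rfl
  erw [this]
  rfl

end MathlibH

/-! ### Joint surjectivity, kernels, transitions on Mathlib's `H1`, `H2` -/

section MathlibH2

variable (𝒰 : NBasis G) (M : Rep.{0, 0, 0} k G)

/-- every LC `H¹` class is inflated from Mathlib's `H¹` of a finite level -/
theorem exists_inflH1 (x : H1 𝒰 M) :
    ∃ (V : Subgroup G) (_ : V.Normal) (hV : 𝒰.mem V) (y : groupCohomology.H1 (Inv M V)),
      inflH1 𝒰 M hV y = x := by
  obtain ⟨V, hN, hV, x', rfl⟩ := exists_cl₁ 𝒰 M x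
  exact ⟨V, hN, hV, H1π (Inv M V) x', inflH1_π 𝒰 M hV x'⟩

/-- every LC `H²` class is inflated from Mathlib's `H²` of a finite level -/
theorem exists_inflH2 (x : H2 𝒰 M) :
    ∃ (V : Subgroup G) (_ : V.Normal) (hV : 𝒰.mem V) (y : groupCohomology.H2 (Inv M V)),
      inflH2 𝒰 M hV y = x := by
  obtain ⟨V, hN, hV, x', rfl⟩ := exists_cl₂ 𝒰 M x
  exact ⟨V, hN, hV, H2π (Inv M V) x', inflH2_π 𝒰 M hV x'⟩

variable {V W : Subgroup G} [V.Normal] [W.Normal] (h : W ≤ V)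

/-- Mathlib's map `H¹(G ⧸ V, M^V) → H¹(G ⧸ W, M^W)` for `W ≤ V` -/
def transH1 : groupCohomology.H1 (Inv M V) →ₗ[k] groupCohomology.H1 (Inv M W) :=
  (groupCohomology.map (qmap h) (transHom M h) 1).hom

/-- Mathlib's map `H²(G ⧸ V, M^V) → H²(G ⧸ W, M^W)` for `W ≤ V` -/
def transH2 : groupCohomology.H2 (Inv M V) →ₗ[k] groupCohomology.H2 (Inv M W) :=
  (groupCohomology.map (qmap h) (transHom M h) 2).hom

lemma mapCocycles₁_eq (x : cocycles₁ (Inv M V)) :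
    mapCocycles₁ (qmap h) (transHom M h) x = transZ₁ M h x :=
  Subtype.ext rfl

lemma mapCocycles₂_eq (x : cocycles₂ (Inv M V)) :
    mapCocycles₂ (qmap h) (transHom M h) x = transZ₂ M h x :=
  Subtype.ext rfl

theorem transH1_π (x : cocycles₁ (Inv M V)) :
    transH1 M h (H1π (Inv M V) x) = H1π (Inv M W) (transZ₁ M h x) := by
  rw [← mapCocycles₁_eq]
  exact H1π_comp_map_apply (qmap h) (transHom M h) x

theorem transH2_π (x : cocycles₂ (Inv M V)) :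
    transH2 M h (H2π (Inv M V) x) = H2π (Inv M W) (transZ₂ M h x) := by
  rw [← mapCocycles₂_eq]
  exact H2π_comp_map_apply (qmap h) (transHom M h) x

variable (hV : 𝒰.mem V) (hW : 𝒰.mem W)

theorem inflH1_transH1 (y : groupCohomology.H1 (Inv M V)) :
    inflH1 𝒰 M hW (transH1 M h y) = inflH1 𝒰 M hV y := by
  obtain ⟨x, rfl⟩ := H1π_surjective (Inv M V) y
  erw [transH1_π, inflH1_π, inflH1_π]
  rfl

theorem inflH2_transH2 (y : groupCohomology.H2 (Inv M V)) :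
    inflH2 𝒰 M hW (transH2 M h y) = inflH2 𝒰 M hV y := by
  obtain ⟨x, rfl⟩ := H2π_surjective (Inv M V) y
  erw [transH2_π, inflH2_π, inflH2_π]
  rfl

/-- inflation is injective on `H¹` -/
theorem inflH1_injective : Function.Injective (inflH1 𝒰 M hV) := by
  rw [← LinearMap.ker_eq_bot, LinearMap.ker_eq_bot']
  intro y hy
  obtain ⟨x, rfl⟩ := H1π_surjective (Inv M V) y
  erw [inflH1_π] at hy
  obtain ⟨m, hm⟩ := (cl₁_eq_zero_iff 𝒰 M hV x).mp hy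
  exact (H1π_eq_zero_iff x).mpr ⟨m, hm⟩

/-- the kernel of inflation on `H²`: classes dying at a deeper level -/
theorem inflH2_eq_zero_iff (y : groupCohomology.H2 (Inv M V)) :
    inflH2 𝒰 M hV y = 0 ↔ ∃ (W : Subgroup G) (_ : W.Normal) (_ : 𝒰.mem W) (h : W ≤ V),
      transH2 M h y = 0 := by
  obtain ⟨x, rfl⟩ := H2π_surjective (Inv M V) y
  erw [inflH2_π]
  rw [cl₂_eq_zero_iff]
  constructor
  · rintro ⟨W, hN, hW, hle, b, hb⟩
    refine ⟨W, hN, hW, hle, ?_⟩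
    erw [transH2_π]
    exact (H2π_eq_zero_iff _).mpr ⟨b, hb⟩
  · rintro ⟨W, hN, hW, hle, h0⟩
    erw [transH2_π] at h0
    obtain ⟨b, hb⟩ := (H2π_eq_zero_iff _).mp h0
    exact ⟨W, hN, hW, hle, b, hb⟩

end MathlibH2

/-! ### Vanishing criteria -/

section Vanishing

variable (𝒰 : NBasis G) (M : Rep.{0, 0, 0} k G)

/-- `H¹` of LC cochains vanishes if `H¹(G ⧸ V, M^V)` vanishes (cocycle form) at every level -/
theorem H1_eq_zero_of_levels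
    (hlev : ∀ (V : Subgroup G) (_ : V.Normal), 𝒰.mem V → ∀ x : cocycles₁ (Inv M V),
      ∃ m : Inv M V, (d₀₁ (Inv M V)).hom m = x.1) (x : H1 𝒰 M) : x = 0 := by
  obtain ⟨V, hN, hV, x', rfl⟩ := exists_cl₁ 𝒰 M x
  exact (cl₁_eq_zero_iff 𝒰 M hV x').mpr (hlev V hN hV x')

/-- `Vanish₂` from the finite levels: every finite-level `2`-cocycle dies at a deeper level -/
theorem vanish₂_of_levels
    (hlev : ∀ (V : Subgroup G) (_ : V.Normal), 𝒰.mem V → ∀ x : cocycles₂ (Inv M V),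
      ∃ (W : Subgroup G) (_ : W.Normal) (_ : 𝒰.mem W) (h : W ≤ V) (b : (G ⧸ W) → Inv M W),
        (d₁₂ (Inv M W)).hom b = trans₂ M h x.1) : Vanish₂ 𝒰 M := by
  intro f hf
  have hx : (Hmid.of f hf : H2 𝒰 M) = 0 := by
    obtain ⟨V, hN, hV, x', hx'⟩ := exists_cl₂ 𝒰 M (Hmid.of f hf)
    rw [← hx']
    exact (cl₂_eq_zero_iff 𝒰 M hV x').mpr (hlev V hN hV x')
  exact Hmid.of_eq_zero_iff.mp hx

/-- `Vanish₃` from the finite levels: every finite-level `3`-cocycle dies at a deeper level -/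
theorem vanish₃_of_levels
    (hlev : ∀ (V : Subgroup G) (_ : V.Normal), 𝒰.mem V → ∀ x : ↥(Z₃ (Inv M V)),
      ∃ (W : Subgroup G) (_ : W.Normal) (_ : 𝒰.mem W) (h : W ≤ V)
        (b : (G ⧸ W) × (G ⧸ W) → Inv M W), (d₂₃ (Inv M W)).hom b = trans₃ M h x.1) :
    Vanish₃ 𝒰 M := by
  intro f hf
  have hx : (Hmid.of f hf : H3 𝒰 M) = 0 := by
    obtain ⟨V, hN, hV, x', hx'⟩ := exists_cl₃ 𝒰 M (Hmid.of f hf)
    rw [← hx']
    exact (cl₃_eq_zero_iff 𝒰 M hV x').mpr (hlev V hN hV x')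
  exact Hmid.of_eq_zero_iff.mp hx

/-- conversely `Vanish₃` kills every finite-level `3`-cocycle at a deeper level -/
theorem levels_of_vanish₃ (hvan : Vanish₃ 𝒰 M) {V : Subgroup G} [V.Normal] (hV : 𝒰.mem V)
    (x : ↥(Z₃ (Inv M V))) :
    ∃ (W : Subgroup G) (_ : W.Normal) (_ : 𝒰.mem W) (h : W ≤ V)
      (b : (G ⧸ W) × (G ⧸ W) → Inv M W), (d₂₃ (Inv M W)).hom b = trans₃ M h x.1 := by
  have hx : d₃₄ (Inv M V) x.1 = 0 := x.2
  have h0 : dC₃ 𝒰 M (lc₃ 𝒰 M hV x.1) = 0 := by rw [dC₃_lc₃, hx, map_zero]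
  refine (cl₃_eq_zero_iff 𝒰 M hV x).mp ?_
  rw [cl₃_eq_of 𝒰 M hV x h0]
  exact Hmid.of_eq_zero_iff.mpr (hvan _ h0)

/-- conversely `Vanish₂` kills every finite-level `2`-cocycle at a deeper level -/
theorem levels_of_vanish₂ (hvan : Vanish₂ 𝒰 M) {V : Subgroup G} [V.Normal] (hV : 𝒰.mem V)
    (x : cocycles₂ (Inv M V)) :
    ∃ (W : Subgroup G) (_ : W.Normal) (_ : 𝒰.mem W) (h : W ≤ V)
      (b : (G ⧸ W) → Inv M W), (d₁₂ (Inv M W)).hom b = trans₂ M h x.1 := by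
  have hx : (d₂₃ (Inv M V)).hom x.1 = 0 := x.2
  have h0 : dC₂ 𝒰 M (lc₂ 𝒰 M hV x.1) = 0 := by rw [dC₂_lc₂, hx, map_zero]
  refine (cl₂_eq_zero_iff 𝒰 M hV x).mp ?_
  rw [cl₂_eq_of 𝒰 M hV x h0]
  exact Hmid.of_eq_zero_iff.mpr (hvan _ h0)

end Vanishing

/-! ### Naturality: a morphism of situations at finite levels -/

section MorNat

variable {G' : Type} [Group G'] {𝒰 : NBasis G} {A : Rep.{0, 0, 0} k G} {𝒰' : NBasis G'}
  {B : Rep.{0, 0, 0} k G'} (α : Mor 𝒰 A 𝒰' B)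
  {V : Subgroup G} [V.Normal] {V' : Subgroup G'} [V'.Normal] (hle : ∀ s ∈ V', α.f s ∈ V)

/-- the induced map `G' ⧸ V' → G ⧸ V` -/
def qf : G' ⧸ V' →* G ⧸ V := QuotientGroup.map V' V α.f hle

@[simp] lemma qf_mk (g : G') : qf α hle (g : G' ⧸ V') = (α.f g : G ⧸ V) := rfl

/-- the induced map `A^V → B^V'` -/
def lvl₀ : Inv A V →ₗ[k] Inv B V' where
  toFun a := toInv B V' (α.φ (a : A)) fun s hs => by
    rw [← α.equivar, inv_fixed A V a (hle s hs)]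
  map_add' a b := Subtype.ext (map_add α.φ (a : A) (b : A))
  map_smul' c a := Subtype.ext (map_smul α.φ c (a : A))

@[simp] lemma lvl₀_coe (a : Inv A V) : ((lvl₀ α hle a : Inv B V') : B) = α.φ (a : A) := rfl

/-- the induced map on finite-level `1`-cochains -/
def lvl₁ : ((G ⧸ V) → Inv A V) →ₗ[k] ((G' ⧸ V') → Inv B V') where
  toFun f q := lvl₀ α hle (f (qf α hle q))
  map_add' f f' := funext fun q => map_add (lvl₀ α hle) _ _
  map_smul' c f := funext fun q => map_smul (lvl₀ α hle) c _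

/-- the induced map on finite-level `2`-cochains -/
def lvl₂ : ((G ⧸ V) × (G ⧸ V) → Inv A V) →ₗ[k] ((G' ⧸ V') × (G' ⧸ V') → Inv B V') where
  toFun f q := lvl₀ α hle (f (qf α hle q.1, qf α hle q.2))
  map_add' f f' := funext fun q => map_add (lvl₀ α hle) _ _
  map_smul' c f := funext fun q => map_smul (lvl₀ α hle) c _

/-- the induced map on finite-level `3`-cochains -/
def lvl₃ : ((G ⧸ V) × (G ⧸ V) × (G ⧸ V) → Inv A V) →ₗ[k]
    ((G' ⧸ V') × (G' ⧸ V') × (G' ⧸ V') → Inv B V') where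
  toFun f q := lvl₀ α hle (f (qf α hle q.1, qf α hle q.2.1, qf α hle q.2.2))
  map_add' f f' := funext fun q => map_add (lvl₀ α hle) _ _
  map_smul' c f := funext fun q => map_smul (lvl₀ α hle) c _

/-- the induced map on finite-level `4`-cochains -/
def lvl₄ : ((G ⧸ V) × (G ⧸ V) × (G ⧸ V) × (G ⧸ V) → Inv A V) →ₗ[k]
    ((G' ⧸ V') × (G' ⧸ V') × (G' ⧸ V') × (G' ⧸ V') → Inv B V') where
  toFun f q := lvl₀ α hle (f (qf α hle q.1, qf α hle q.2.1, qf α hle q.2.2.1, qf α hle q.2.2.2))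
  map_add' f f' := funext fun q => map_add (lvl₀ α hle) _ _
  map_smul' c f := funext fun q => map_smul (lvl₀ α hle) c _

lemma infl₀_lvl₀ (a : Inv A V) : infl₀ B V' (lvl₀ α hle a) = α.φ (infl₀ A V a) := rfl
lemma infl₁_lvl₁ (f : (G ⧸ V) → Inv A V) :
    infl₁ B V' (lvl₁ α hle f) = α.p₁ (infl₁ A V f) := rfl
lemma infl₂_lvl₂ (f : (G ⧸ V) × (G ⧸ V) → Inv A V) :
    infl₂ B V' (lvl₂ α hle f) = α.p₂ (infl₂ A V f) := rfl
lemma infl₃_lvl₃ (f : (G ⧸ V) × (G ⧸ V) × (G ⧸ V) → Inv A V) :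
    infl₃ B V' (lvl₃ α hle f) = α.p₃ (infl₃ A V f) := rfl
lemma infl₄_lvl₄ (f : (G ⧸ V) × (G ⧸ V) × (G ⧸ V) × (G ⧸ V) → Inv A V) :
    infl₄ B V' (lvl₄ α hle f) = α.p₄ (infl₄ A V f) := rfl

lemma lvl₁_d₀₁ (a : Inv A V) :
    lvl₁ α hle ((d₀₁ (Inv A V)).hom a) = (d₀₁ (Inv B V')).hom (lvl₀ α hle a) := by
  apply infl₁_injective B V'
  rw [infl₁_lvl₁, infl₁_d₀₁, infl₁_d₀₁, infl₀_lvl₀, α.p₁_d₀₁]

lemma lvl₂_d₁₂ (f : (G ⧸ V) → Inv A V) :
    lvl₂ α hle ((d₁₂ (Inv A V)).hom f) = (d₁₂ (Inv B V')).hom (lvl₁ α hle f) := by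
  apply infl₂_injective B V'
  rw [infl₂_lvl₂, infl₂_d₁₂, infl₂_d₁₂, infl₁_lvl₁, α.p₂_d₁₂]

lemma lvl₃_d₂₃ (f : (G ⧸ V) × (G ⧸ V) → Inv A V) :
    lvl₃ α hle ((d₂₃ (Inv A V)).hom f) = (d₂₃ (Inv B V')).hom (lvl₂ α hle f) := by
  apply infl₃_injective B V'
  rw [infl₃_lvl₃, infl₃_d₂₃, infl₃_d₂₃, infl₂_lvl₂, α.p₃_d₂₃]

lemma lvl₄_d₃₄ (f : (G ⧸ V) × (G ⧸ V) × (G ⧸ V) → Inv A V) :
    lvl₄ α hle (d₃₄ (Inv A V) f) = d₃₄ (Inv B V') (lvl₃ α hle f) := by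
  apply infl₄_injective B V'
  rw [infl₄_lvl₄, infl₄_d₃₄, infl₄_d₃₄, infl₃_lvl₃, α.p₄_d₃₄]

/-- the induced map on finite-level `1`-cocycles -/
def lvlZ₁ : cocycles₁ (Inv A V) →ₗ[k] cocycles₁ (Inv B V') :=
  (lvl₁ α hle ∘ₗ (cocycles₁ (Inv A V)).subtype).codRestrict _ fun x => by
    have hx : (d₁₂ (Inv A V)).hom x.1 = 0 := x.2
    show (d₁₂ (Inv B V')).hom (lvl₁ α hle x.1) = 0
    rw [← lvl₂_d₁₂, hx, map_zero]

/-- the induced map on finite-level `2`-cocycles -/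
def lvlZ₂ : cocycles₂ (Inv A V) →ₗ[k] cocycles₂ (Inv B V') :=
  (lvl₂ α hle ∘ₗ (cocycles₂ (Inv A V)).subtype).codRestrict _ fun x => by
    have hx : (d₂₃ (Inv A V)).hom x.1 = 0 := x.2
    show (d₂₃ (Inv B V')).hom (lvl₂ α hle x.1) = 0
    rw [← lvl₃_d₂₃, hx, map_zero]

/-- the induced map on finite-level `3`-cocycles -/
def lvlZ₃ : ↥(Z₃ (Inv A V)) →ₗ[k] ↥(Z₃ (Inv B V')) :=
  (lvl₃ α hle ∘ₗ (Z₃ (Inv A V)).subtype).codRestrict _ fun x => by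
    have hx : d₃₄ (Inv A V) x.1 = 0 := x.2
    rw [LinearMap.mem_ker, LinearMap.comp_apply, Submodule.subtype_apply, ← lvl₄_d₃₄, hx,
      map_zero]

@[simp] lemma lvlZ₁_coe (x : cocycles₁ (Inv A V)) : (lvlZ₁ α hle x).1 = lvl₁ α hle x.1 := rfl
@[simp] lemma lvlZ₂_coe (x : cocycles₂ (Inv A V)) : (lvlZ₂ α hle x).1 = lvl₂ α hle x.1 := rfl
@[simp] lemma lvlZ₃_coe (x : ↥(Z₃ (Inv A V))) : (lvlZ₃ α hle x).1 = lvl₃ α hle x.1 := rfl

variable (hV : 𝒰.mem V) (hV' : 𝒰'.mem V')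

/-- naturality of the finite-level classes in `H¹` -/
theorem h1_cl₁ (x : cocycles₁ (Inv A V)) :
    α.h1 (cl₁ 𝒰 A hV x) = cl₁ 𝒰' B hV' (lvlZ₁ α hle x) := rfl

/-- naturality of the finite-level classes in `H²` -/
theorem h2_cl₂ (x : cocycles₂ (Inv A V)) :
    α.h2 (cl₂ 𝒰 A hV x) = cl₂ 𝒰' B hV' (lvlZ₂ α hle x) := rfl

/-- naturality of the finite-level classes in `H³` -/
theorem h3_cl₃ (x : ↥(Z₃ (Inv A V))) :
    α.h3 (cl₃ 𝒰 A hV x) = cl₃ 𝒰' B hV' (lvlZ₃ α hle x) := rfl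

/-- the level map as a morphism of representations of `G' ⧸ V'` -/
def lvlHom : Rep.res (qf α hle) (Inv A V) ⟶ Inv B V' :=
  Rep.ofHom ⟨lvl₀ α hle, fun q => by
    induction q using QuotientGroup.induction_on with
    | H g =>
      ext a
      exact α.equivar g (a : A)⟩

lemma mapCocycles₁_lvl (x : cocycles₁ (Inv A V)) :
    mapCocycles₁ (qf α hle) (lvlHom α hle) x = lvlZ₁ α hle x :=
  Subtype.ext rfl

lemma mapCocycles₂_lvl (x : cocycles₂ (Inv A V)) :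
    mapCocycles₂ (qf α hle) (lvlHom α hle) x = lvlZ₂ α hle x :=
  Subtype.ext rfl

/-- naturality of `inflH1` -/
theorem h1_inflH1 (y : groupCohomology.H1 (Inv A V)) :
    α.h1 (inflH1 𝒰 A hV y) =
      inflH1 𝒰' B hV' ((groupCohomology.map (qf α hle) (lvlHom α hle) 1).hom y) := by
  obtain ⟨x, rfl⟩ := H1π_surjective (Inv A V) y
  have e : (groupCohomology.map (qf α hle) (lvlHom α hle) 1).hom ((H1π (Inv A V)).hom x) =
      H1π (Inv B V') (lvlZ₁ α hle x) := by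
    rw [← mapCocycles₁_lvl]
    exact H1π_comp_map_apply (qf α hle) (lvlHom α hle) x
  rw [e]
  erw [inflH1_π, inflH1_π]
  exact h1_cl₁ α hle hV hV' x

/-- naturality of `inflH2` -/
theorem h2_inflH2 (y : groupCohomology.H2 (Inv A V)) :
    α.h2 (inflH2 𝒰 A hV y) =
      inflH2 𝒰' B hV' ((groupCohomology.map (qf α hle) (lvlHom α hle) 2).hom y) := by
  obtain ⟨x, rfl⟩ := H2π_surjective (Inv A V) y
  have e : (groupCohomology.map (qf α hle) (lvlHom α hle) 2).hom ((H2π (Inv A V)).hom x) =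
      H2π (Inv B V') (lvlZ₂ α hle x) := by
    rw [← mapCocycles₂_lvl]
    exact H2π_comp_map_apply (qf α hle) (lvlHom α hle) x
  rw [e]
  erw [inflH2_π, inflH2_π]
  exact h2_cl₂ α hle hV hV' x

end MorNat

/-- for every level `V` downstairs a morphism of situations provides a level `V'` upstairs -/
lemma Mor.exists_level {G' : Type} [Group G'] {𝒰 : NBasis G} {A : Rep.{0, 0, 0} k G}
    {𝒰' : NBasis G'} {B : Rep.{0, 0, 0} k G'} (α : Mor 𝒰 A 𝒰' B) {V : Subgroup G}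
    (hV : 𝒰.mem V) : ∃ (V' : Subgroup G') (_ : V'.Normal), 𝒰'.mem V' ∧ ∀ s ∈ V', α.f s ∈ V := by
  obtain ⟨V', hV', h⟩ := α.cont V hV
  exact ⟨V', 𝒰'.normal hV', hV', h⟩

end

end Fermat.Agent.S55.Middle.Dict
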