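/-
S55 / Middle layer (helper67): BRIDGE between the two level dictionaries on main,
`Middle/Dict.lean` (`inflH1`, `inflH2`, `transH1`, `transH2`, `cl₁`, `cl₂`) and helper60's
`Formal/LCLevelH.lean` (`ι₁`, `ι₂`, `trans₁`, `trans₂`, `inflZ₁`, `inflZ₂`): they are the same maps,
so results stated with either API can be used with the other.
-/
import Fermat.Agent.S55.Middle.Dict
import Fermat.Agent.S55.Formal.LCLevelH

set_option autoImplicit false
set_option linter.unusedSectionVars false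

open CategoryTheory groupCohomology Fermat.Agent.S55.Formal

namespace Fermat.Agent.S55.Middle.DictBridge

open Fermat.Agent.S55.Middle.Dict Fermat.Agent.S55.Formal.LCLevel Fermat.Agent.S55.Formal.LCLevelH

variable {k : Type} [CommRing k] {G : Type} [Group G] (𝒰 : NBasis G) (M : Rep.{0, 0, 0} k G)

section one

variable {V : Subgroup G} [V.Normal] [Finite (G ⧸ V)] (hV : 𝒰.mem V)

lemma cl₂_eq (x : cocycles₂ (Inv M V)) :
    cl₂ 𝒰 M hV x = Hmid.mk (dC₁ 𝒰 M) (dC₂ 𝒰 M) (inflZ₂ 𝒰 M V hV x) := rfl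

lemma cl₁_eq (x : cocycles₁ (Inv M V)) :
    cl₁ 𝒰 M hV x = Hmid.mk (dC₀ 𝒰 M) (dC₁ 𝒰 M) (inflZ₁ 𝒰 M V hV x) := rfl

/-- `Dict.inflH2` is helper60's `ι₂` -/
theorem inflH2_eq_ι₂ : Dict.inflH2 𝒰 M hV = ι₂ 𝒰 M V hV := by
  apply LinearMap.ext
  intro y
  obtain ⟨x, rfl⟩ := Dict.H2π_surjective (Inv M V) y
  erw [inflH2_π]

/-- `Dict.inflH1` is helper60's `ι₁` -/
theorem inflH1_eq_ι₁ : Dict.inflH1 𝒰 M hV = ι₁ 𝒰 M V hV := by
  apply LinearMap.ext
  intro y
  obtain ⟨x, rfl⟩ := Dict.H1π_surjective (Inv M V) y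
  erw [inflH1_π]

end one

section two

variable {V W : Subgroup G} [V.Normal] [Finite (G ⧸ V)] [W.Normal] [Finite (G ⧸ W)] (h : W ≤ V)

/-- `Dict.transH2` is helper60's `trans₂` -/
theorem transH2_eq_trans₂ : Dict.transH2 M h = LCLevelH.trans₂ M V W h := rfl

/-- `Dict.transH1` is helper60's `trans₁` -/
theorem transH1_eq_trans₁ : Dict.transH1 M h = LCLevelH.trans₁ M V W h := rfl

end two

/-- the basis subgroups have finite quotients -/
lemma finite_quotient {V : Subgroup G} (hV : 𝒰.mem V) : Finite (G ⧸ V) :=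
  haveI := 𝒰.finiteIndex hV
  Subgroup.finite_quotient_of_finiteIndex

end Fermat.Agent.S55.Middle.DictBridge
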