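/-
S55 / Middle / M.units (helper24): the arithmetic `Gal(ℚ̄/ℚ)`-modules of the Middle block,
as subrepresentations of `ℚ̄ˣ` (written additively, `Rep ℤ GQ`):

  `mu p  <  O S  <  Kx S`,   `Prin S := Kx S / O S`,

where `Kx S = ℚ_Sˣ` (`ℚ_S` = union of the finite extensions unramified outside `S` in the Prelude's
sense `IntermediateField.IsUnramifiedOutside`), `O S` = the `S`-units of `ℚ_S` (units in EVERY
valuation subring of `ℚ̄` lying over a prime `q ∉ S`), `mu p` = the `p`-th roots of unity.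

Main results: `GQ`-stability, smoothness for `globalBasis S`, the two short exact sequences
  (Kum) `0 → mu p → O S -p→ O S → 0`   (`p ∈ S`; surjectivity = `p`-th roots of `S`-units of `ℚ_S`
                                       stay in `ℚ_S`),
  (Div) `0 → O S → Kx S → Prin S → 0`.
-/
import Mathlib
import Fermat.Prelude.Def_GroupCohomology_ContinuousUnramified
import Fermat.Agent.S55.GaloisLevel
import Fermat.Agent.S55.GaloisLevelCyclo
import Fermat.Agent.S55.Formal.PreludeLC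
import Fermat.Agent.S55.Formal.SmoothLift
import Fermat.Agent.S55.Middle.SubQuot

set_option autoImplicit false
set_option linter.unusedSectionVars false

open CategoryTheory groupCohomology ExtCitation
open scoped Pointwise

namespace Fermat.Agent.S55.Middle.Units

open Fermat.Agent.Lib.InertiaRestrict Fermat.Agent.Lib.FrobeniusIF
open Fermat.Agent.S55.GaloisLevel Fermat.Agent.S55.GaloisLevelCyclo
open Fermat.Agent.S55.Formal Fermat.Agent.S55.Formal.PreludeLC
open Fermat.Agent.S55.Formal.SmoothLift Fermat.Agent.S55.Middle.SubQuot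

local instance isAlgebraicQbar_mu : Algebra.IsAlgebraic ℚ (AlgebraicClosure ℚ) :=
  AlgebraicClosure.isAlgebraic ℚ
local instance isAlgClosureQbar_mu : IsAlgClosure ℚ (AlgebraicClosure ℚ) :=
  ⟨inferInstance, inferInstance⟩
local instance normalQbar_mu : Normal ℚ (AlgebraicClosure ℚ) :=
  IsAlgClosure.normal ℚ (AlgebraicClosure ℚ)
local instance isGaloisQbar_mu : IsGalois ℚ (AlgebraicClosure ℚ) := ⟨⟩

/-! ### the inertia lemma -/

/-- If `σ` lies in the inertia group of a valuation subring `A` over `q ≠ p`, `α` is a unit of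
`A` and `σ` fixes `α ^ p`, then `σ` fixes `α`. -/
theorem apply_eq_of_mem_inertia_of_pow (p : ℕ) [Fact p.Prime] {q : ℕ} (hq : q.Prime) (hqp : q ≠ p)
    (A : ValuationSubring Qbar) (hA : A.LiesOverPrime q) {σ : GQ}
    (hσ : σ ∈ A.inertiaSubgroupIn ℚ) {α : Qbar} (hαA : α ∈ A) (hαinv : α⁻¹ ∈ A)
    (hfix : σ (α ^ p) = α ^ p) : σ α = α := by
  have hpp : p.Prime := Fact.out
  by_contra hne
  have hα0 : α ≠ 0 := by
    rintro rfl
    exact hne (map_zero σ)
  set u : Qbar := σ α * α⁻¹ with hu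
  have hup : u ^ p = 1 := by
    rw [hu, mul_pow, ← map_pow, hfix, inv_pow, mul_inv_cancel₀ (pow_ne_zero p hα0)]
  have hu1 : u ≠ 1 := by
    intro h1
    apply hne
    rw [hu, mul_inv_eq_one₀ hα0] at h1
    exact h1
  have hmem : u - 1 ∈ A.nonunits := by
    have h1 : u - 1 = (σ α - α) * α⁻¹ := by
      rw [hu, sub_mul, mul_inv_cancel₀ hα0]
    rw [h1]
    exact mul_mem_nonunits A (apply_sub_mem_nonunits hσ hαA) hαinv
  have hpA : (p : Qbar) ∈ A.nonunits := natCast_mem_nonunits_of_root p A hup hu1 hmem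
  have hcop : IsCoprime (p : ℤ) (q : ℤ) := by
    rw [Int.isCoprime_iff_gcd_eq_one, Int.gcd_natCast_natCast]
    exact (Nat.coprime_primes hpp hq).2 (Ne.symm hqp)
  obtain ⟨a, b, hab⟩ := hcop
  have h1 : (1 : Qbar) ∈ A.nonunits := by
    have e : (1 : Qbar) = (a : Qbar) * (p : Qbar) + (b : Qbar) * (q : Qbar) := by
      have := congrArg (fun z : ℤ => (z : Qbar)) hab
      push_cast at this
      exact this.symm
    rw [e, A.mem_nonunits_iff]
    refine Valuation.map_add_lt _ ?_ ?_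
    · rw [← A.mem_nonunits_iff, mul_comm]
      exact mul_mem_nonunits A hpA (mem_of_isIntegral_int A (isIntegral_algebraMap (x := a)))
    · rw [← A.mem_nonunits_iff, mul_comm]
      exact mul_mem_nonunits A hA (mem_of_isIntegral_int A (isIntegral_algebraMap (x := b)))
  rw [A.mem_nonunits_iff, map_one] at h1
  exact lt_irrefl _ h1

/-- `σ` fixes `ℚ(α)` pointwise iff it fixes `α`. -/
theorem mem_fixingSubgroup_adjoin_simple_iff (σ : GQ) (α : Qbar) :
    σ ∈ (IntermediateField.adjoin ℚ {α}).fixingSubgroup ↔ σ α = α := by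
  constructor
  · intro h
    rw [IntermediateField.mem_fixingSubgroup_iff] at h
    exact h α (IntermediateField.subset_adjoin ℚ _ rfl)
  · intro h
    have hle : IntermediateField.adjoin ℚ {α} ≤
        IntermediateField.fixedField (Subgroup.zpowers σ) := by
      rw [IntermediateField.adjoin_le_iff]
      rintro t rfl
      rw [SetLike.mem_coe, IntermediateField.mem_fixedField_iff]
      intro f hf
      obtain ⟨n, rfl⟩ := Subgroup.mem_zpowers_iff.1 hf
      have hstab : σ ∈ MulAction.stabilizer GQ t := h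
      exact (Subgroup.zpow_mem _ hstab n : σ ^ n ∈ MulAction.stabilizer GQ t)
    exact (IntermediateField.le_iff_le _ _).1 hle (Subgroup.mem_zpowers σ)

variable (S : Finset Nat.Primes)

/-! ### the subgroups of `ℚ̄ˣ` -/

/-- `x` lies in `ℚ_S`. -/
def InQS (x : Qbar) : Prop := ∃ F : IntermediateField ℚ Qbar, F.IsUnramifiedOutside S ∧ x ∈ F

/-- `x` is a unit at every valuation subring over every `q ∉ S`. -/
def IsUnitOffS (x : Qbar) : Prop :=
  ∀ q : Nat.Primes, q ∉ S → ∀ A : ValuationSubring Qbar, A.LiesOverPrime (q : ℕ) → x ∈ A ∧ x⁻¹ ∈ A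

variable {S}

lemma InQS.mul {x y : Qbar} (hx : InQS S x) (hy : InQS S y) : InQS S (x * y) := by
  obtain ⟨F, hF, hxF⟩ := hx
  obtain ⟨F', hF', hyF⟩ := hy
  exact ⟨F ⊔ F', hF.sup hF', mul_mem ((le_sup_left : F ≤ F ⊔ F') hxF)
    ((le_sup_right : F' ≤ F ⊔ F') hyF)⟩

lemma InQS.inv {x : Qbar} (hx : InQS S x) : InQS S x⁻¹ := by
  obtain ⟨F, hF, hxF⟩ := hx
  exact ⟨F, hF, inv_mem hxF⟩

lemma inQS_one : InQS S (1 : Qbar) := ⟨⊥, IntermediateField.isUnramifiedOutside_bot S, one_mem _⟩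

lemma InQS.map {x : Qbar} (hx : InQS S x) (g : GQ) : InQS S (g x) := by
  obtain ⟨F, hF, hxF⟩ := hx
  exact ⟨F.map (g : Qbar →ₐ[ℚ] Qbar), IsUnramifiedOutside.map hF g, ⟨x, hxF, rfl⟩⟩

lemma IsUnitOffS.mul {x y : Qbar} (hx : IsUnitOffS S x) (hy : IsUnitOffS S y) :
    IsUnitOffS S (x * y) := fun q hq A hA =>
  ⟨mul_mem (hx q hq A hA).1 (hy q hq A hA).1, by
    rw [mul_inv]; exact mul_mem (hx q hq A hA).2 (hy q hq A hA).2⟩

lemma IsUnitOffS.inv {x : Qbar} (hx : IsUnitOffS S x) : IsUnitOffS S x⁻¹ := fun q hq A hA =>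
  ⟨(hx q hq A hA).2, by rw [inv_inv]; exact (hx q hq A hA).1⟩

lemma isUnitOffS_one : IsUnitOffS S (1 : Qbar) := fun _ _ A _ =>
  ⟨one_mem A, by rw [inv_one]; exact one_mem A⟩

lemma IsUnitOffS.map {x : Qbar} (hx : IsUnitOffS S x) (g : GQ) : IsUnitOffS S (g x) := by
  intro q hq A hA
  have hA' : (g⁻¹ • A).LiesOverPrime (q : ℕ) := (liesOverPrime_smul_iff g⁻¹ A q).2 hA
  obtain ⟨h1, h2⟩ := hx q hq (g⁻¹ • A) hA'
  rw [ValuationSubring.mem_pointwise_smul_iff_inv_smul_mem, inv_inv] at h1 h2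
  refine ⟨h1, ?_⟩
  have : g • x⁻¹ = (g x)⁻¹ := map_inv₀ g x
  rw [← this]
  exact h2

variable (S)

/-- `ℚ_Sˣ` as a subgroup of `ℚ̄ˣ` -/
def KxSub : Subgroup Qbarˣ where
  carrier := {u | InQS S (u : Qbar)}
  mul_mem' := fun {a b} ha hb => by
    show InQS S ((a * b : Qbarˣ) : Qbar)
    rw [Units.val_mul]; exact InQS.mul ha hb
  one_mem' := by
    show InQS S ((1 : Qbarˣ) : Qbar)
    rw [Units.val_one]; exact inQS_one
  inv_mem' := fun {a} ha => by
    show InQS S ((a⁻¹ : Qbarˣ) : Qbar)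
    rw [Units.val_inv_eq_inv_val]; exact InQS.inv ha

/-- the `S`-units of `ℚ_S` as a subgroup of `ℚ̄ˣ` -/
def OSub : Subgroup Qbarˣ where
  carrier := {u | InQS S (u : Qbar) ∧ IsUnitOffS S (u : Qbar)}
  mul_mem' := fun {a b} ha hb => by
    show InQS S ((a * b : Qbarˣ) : Qbar) ∧ IsUnitOffS S ((a * b : Qbarˣ) : Qbar)
    rw [Units.val_mul]; exact ⟨InQS.mul ha.1 hb.1, IsUnitOffS.mul ha.2 hb.2⟩
  one_mem' := by
    show InQS S ((1 : Qbarˣ) : Qbar) ∧ IsUnitOffS S ((1 : Qbarˣ) : Qbar)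
    rw [Units.val_one]; exact ⟨inQS_one, isUnitOffS_one⟩
  inv_mem' := fun {a} ha => by
    show InQS S ((a⁻¹ : Qbarˣ) : Qbar) ∧ IsUnitOffS S ((a⁻¹ : Qbarˣ) : Qbar)
    rw [Units.val_inv_eq_inv_val]; exact ⟨InQS.inv ha.1, IsUnitOffS.inv ha.2⟩

lemma mem_KxSub_iff (u : Qbarˣ) : u ∈ KxSub S ↔ InQS S (u : Qbar) := Iff.rfl
lemma mem_OSub_iff (u : Qbarˣ) : u ∈ OSub S ↔ InQS S (u : Qbar) ∧ IsUnitOffS S (u : Qbar) :=
  Iff.rfl

lemma OSub_le_KxSub : OSub S ≤ KxSub S := fun _ h => h.1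

/-! ### the representations -/

/-- the ambient module `ℚ̄ˣ` -/
noncomputable def amb : Rep.{0, 0, 0} ℤ GQ := Rep.ofAlgebraAutOnUnits ℚ Qbar

/-- the element of the ambient module given by a unit -/
def ofUnit (u : Qbarˣ) : amb := Additive.ofMul u
/-- the unit underlying an element of the ambient module -/
def toUnit (a : amb) : Qbarˣ := Additive.toMul (a : Additive Qbarˣ)

@[simp] lemma toUnit_ofUnit (u : Qbarˣ) : toUnit (ofUnit u) = u := rfl
@[simp] lemma ofUnit_toUnit (a : amb) : ofUnit (toUnit a) = a := rfl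
@[simp] lemma toUnit_add (a b : amb) : toUnit (a + b) = toUnit a * toUnit b := rfl
@[simp] lemma toUnit_zero : toUnit (0 : amb) = 1 := rfl
lemma toUnit_nsmul (n : ℕ) (a : amb) : toUnit (n • a) = toUnit a ^ n := rfl
lemma toUnit_injective : Function.Injective toUnit := fun _ _ h => h
lemma toUnit_natCast_zsmul (n : ℕ) (a : amb) : toUnit (((n : ℕ) : ℤ) • a) = toUnit a ^ n := by
  rw [natCast_zsmul]; rfl

@[simp] lemma val_toUnit_ρ (g : GQ) (a : amb) :
    ((toUnit (amb.ρ g a) : Qbarˣ) : Qbar) = g ((toUnit a : Qbarˣ) : Qbar) := rfl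

/-- the `ℤ`-submodule of the ambient module given by a subgroup of `ℚ̄ˣ` -/
def subOf (H : Subgroup Qbarˣ) : Submodule ℤ amb where
  carrier := {a | toUnit a ∈ H}
  add_mem' := fun {a b} ha hb => by
    show toUnit (a + b) ∈ H
    rw [toUnit_add]; exact H.mul_mem ha hb
  zero_mem' := by
    show toUnit (0 : amb) ∈ H
    rw [toUnit_zero]; exact H.one_mem
  smul_mem' := fun c a ha => by
    show toUnit (c • a) ∈ H
    have : toUnit (c • a) = toUnit a ^ c := rfl
    rw [this]; exact H.zpow_mem ha c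

lemma mem_subOf_iff (H : Subgroup Qbarˣ) (a : amb) : a ∈ subOf H ↔ toUnit a ∈ H := Iff.rfl

lemma subOf_mono {H H' : Subgroup Qbarˣ} (h : H ≤ H') : subOf H ≤ subOf H' := fun _ ha => h ha

lemma isStable_subOf {H : Subgroup Qbarˣ} (h : ∀ (g : GQ) (u : Qbarˣ), u ∈ H → g • u ∈ H) :
    IsStable amb (subOf H) := fun g a ha => h g (toUnit a) ha

lemma KxSub_stable (g : GQ) (u : Qbarˣ) (hu : u ∈ KxSub S) : g • u ∈ KxSub S :=
  InQS.map hu g

lemma OSub_stable (g : GQ) (u : Qbarˣ) (hu : u ∈ OSub S) : g • u ∈ OSub S :=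
  ⟨InQS.map hu.1 g, IsUnitOffS.map hu.2 g⟩

lemma rootsOfUnity_stable (p : ℕ) (g : GQ) (u : Qbarˣ) (hu : u ∈ rootsOfUnity p Qbar) :
    g • u ∈ rootsOfUnity p Qbar := by
  rw [mem_rootsOfUnity] at hu ⊢
  rw [← smul_pow', hu, smul_one]

/-- `ℚ_Sˣ` -/
noncomputable abbrev Kx : Rep.{0, 0, 0} ℤ GQ := sub (subOf (KxSub S)) (isStable_subOf (KxSub_stable S))
/-- the `S`-units of `ℚ_S` -/
noncomputable abbrev O : Rep.{0, 0, 0} ℤ GQ := sub (subOf (OSub S)) (isStable_subOf (OSub_stable S))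
/-- the `p`-th roots of unity (as a `ℤ`-module) -/
noncomputable abbrev mu (p : ℕ) : Rep.{0, 0, 0} ℤ GQ :=
  sub (subOf (rootsOfUnity p Qbar)) (isStable_subOf (rootsOfUnity_stable p))
/-- `ℚ_Sˣ / O_S` (the principal `S`-divisors of `ℚ_S`) -/
noncomputable abbrev Prin : Rep.{0, 0, 0} ℤ GQ :=
  quot (W₁ := subOf (OSub S)) (W₂ := subOf (KxSub S)) (isStable_subOf (OSub_stable S))
    (isStable_subOf (KxSub_stable S))

/-- `O S → Kx S` -/
noncomputable def OtoKx : O S ⟶ Kx S :=
  incl (isStable_subOf (OSub_stable S)) (isStable_subOf (KxSub_stable S))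
    (subOf_mono (OSub_le_KxSub S))
/-- `Kx S → Prin S` -/
noncomputable def KxToPrin : Kx S ⟶ Prin S :=
  proj (isStable_subOf (OSub_stable S)) (isStable_subOf (KxSub_stable S))
/-- multiplication by `n` (i.e. `x ↦ x ^ n`) on `O S` -/
noncomputable def powO (n : ℕ) : O S ⟶ O S :=
  smulEnd (isStable_subOf (OSub_stable S)) (n : ℤ)

/-- **(Div)** is short exact. -/
theorem OtoKx_injective : Function.Injective (OtoKx S).hom := incl_injective _ _ _
theorem exact_OtoKx_KxToPrin : Function.Exact (OtoKx S).hom (KxToPrin S).hom :=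
  exact_incl_proj _ _ _
theorem KxToPrin_surjective : Function.Surjective (KxToPrin S).hom := proj_surjective _ _

/-! ### roots of unity -/

section Mu

variable (p : ℕ) [Fact p.Prime]

lemma rootsOfUnity_le_OSub (hpS : pPrime p ∈ S) : rootsOfUnity p Qbar ≤ OSub S := by
  intro u hu
  have hp0 : p ≠ 0 := (Fact.out : p.Prime).ne_zero
  have hpp : p.Prime := Fact.out
  have ht : (u : Qbar) ^ p = 1 := by
    rw [mem_rootsOfUnity] at hu
    have := congrArg (fun v : Qbarˣ => (v : Qbar)) hu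
    simpa using this
  refine ⟨⟨cycloField p, cycloField_isUnramifiedOutside hpS,
    IntermediateField.subset_adjoin ℚ _ ht⟩, fun q _ A _ => ?_⟩
  have htA : (u : Qbar) ∈ A := by
    have : IsIntegral ℤ (u : Qbar) :=
      ⟨Polynomial.X ^ p - 1, Polynomial.monic_X_pow_sub_C 1 hp0, by simp [ht]⟩
    exact mem_of_isIntegral_int A this
  refine ⟨htA, ?_⟩
  have : (u : Qbar)⁻¹ = (u : Qbar) ^ (p - 1) := by
    rw [eq_comm, ← mul_eq_one_iff_eq_inv₀ u.ne_zero, ← pow_succ, Nat.sub_add_cancel hpp.one_le, ht]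
  rw [this]
  exact pow_mem htA _

/-- `mu p → O S` (needs `p ∈ S`) -/
noncomputable def muToO (hpS : pPrime p ∈ S) : mu p ⟶ O S :=
  incl (isStable_subOf (rootsOfUnity_stable p)) (isStable_subOf (OSub_stable S))
    (subOf_mono (rootsOfUnity_le_OSub S p hpS))

theorem muToO_injective (hpS : pPrime p ∈ S) : Function.Injective (muToO S p hpS).hom :=
  incl_injective _ _ _

/-- exactness of (Kum) in the middle: the kernel of `x ↦ x ^ p` on `O S` is `mu p`. -/
theorem exact_muToO_powO (hpS : pPrime p ∈ S) :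
    Function.Exact (muToO S p hpS).hom (powO S p).hom := by
  intro x
  constructor
  · intro hx
    have h0 : val ((powO S p).hom x) = val (0 : O S) := congrArg val hx
    have h1 : toUnit (val x) ^ p = 1 :=
      (toUnit_natCast_zsmul p (val x)).symm.trans (congrArg toUnit h0)
    have hmem : val x ∈ subOf (rootsOfUnity p Qbar) :=
      (mem_subOf_iff _ _).2 ((mem_rootsOfUnity _ _).2 h1)
    exact ⟨mk' _ _ (val x) hmem, val_injective rfl⟩
  · rintro ⟨y, rfl⟩
    apply val_injective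
    apply toUnit_injective
    have hy : toUnit (val y) ∈ rootsOfUnity p Qbar := val_mem y
    exact (toUnit_natCast_zsmul p (val y)).trans ((mem_rootsOfUnity _ _).1 hy)

/-- **`p`-th roots of `S`-units of `ℚ_S` are `S`-units of `ℚ_S`** (`p ∈ S`). -/
theorem mem_OSub_of_pow_mem (hpS : pPrime p ∈ S) {v : Qbarˣ} (hv : v ^ p ∈ OSub S) : v ∈ OSub S := by
  have hpp : p.Prime := Fact.out
  have hp0 : p ≠ 0 := hpp.ne_zero
  obtain ⟨⟨F, hF, huF⟩, hunit⟩ := hv
  rw [Units.val_pow_eq_pow_val] at huF hunit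
  set α : Qbar := (v : Qbar) with hα
  have hα0 : α ≠ 0 := v.ne_zero
  -- units at every `A` off `S`
  have hαunit : IsUnitOffS S α := by
    intro q hq A hA
    obtain ⟨h1, h2⟩ := hunit q hq A hA
    constructor
    · rw [← A.valuation_le_one_iff] at h1 ⊢
      rw [map_pow] at h1
      exact (pow_le_one_iff hp0).1 h1
    · rw [← A.valuation_le_one_iff] at h2 ⊢
      rw [← inv_pow, map_pow] at h2
      exact (pow_le_one_iff hp0).1 h2
  refine ⟨⟨F ⊔ IntermediateField.adjoin ℚ {α}, ⟨?_, ?_⟩, ?_⟩, hαunit⟩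
  · haveI := hF.1
    haveI : FiniteDimensional ℚ (IntermediateField.adjoin ℚ {α}) :=
      IntermediateField.adjoin.finiteDimensional (Algebra.IsIntegral.isIntegral α)
    exact IntermediateField.finiteDimensional_sup F _
  · intro q hq A hA σ hσ
    rw [IntermediateField.fixingSubgroup_sup]
    refine ⟨hF.2 q hq A hA hσ, ?_⟩
    show σ ∈ (IntermediateField.adjoin ℚ {α}).fixingSubgroup
    rw [mem_fixingSubgroup_adjoin_simple_iff]
    have hqp : (q : ℕ) ≠ p := by
      rintro h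
      apply hq
      have : q = pPrime p := Subtype.ext h
      rw [this]; exact hpS
    have hσF := hF.2 q hq A hA hσ
    rw [IntermediateField.mem_fixingSubgroup_iff] at hσF
    exact apply_eq_of_mem_inertia_of_pow p q.2 hqp A hA hσ (hαunit q hq A hA).1
      (hαunit q hq A hA).2 (hσF _ huF)
  · exact (le_sup_right : IntermediateField.adjoin ℚ {α} ≤ F ⊔ IntermediateField.adjoin ℚ {α})
      (IntermediateField.subset_adjoin ℚ _ rfl)

/-- **(Kum)** is right exact: `x ↦ x ^ p` is onto on `O S` (`p ∈ S`). -/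
theorem powO_surjective (hpS : pPrime p ∈ S) : Function.Surjective (powO S p).hom := by
  intro x
  have hpp : p.Prime := Fact.out
  set u : Qbarˣ := toUnit (val x) with hu
  obtain ⟨α, hα⟩ := IsAlgClosed.exists_pow_nat_eq (u : Qbar) hpp.pos
  have hα0 : α ≠ 0 := by
    rintro rfl
    rw [zero_pow hpp.ne_zero] at hα
    exact u.ne_zero hα.symm
  set v : Qbarˣ := Units.mk0 α hα0 with hv
  have hvp : v ^ p = u := by
    apply Units.ext
    rw [Units.val_pow_eq_pow_val, hv, Units.val_mk0, hα]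
  have hvO : v ∈ OSub S := mem_OSub_of_pow_mem S p hpS (by rw [hvp]; exact (mem_subOf_iff _ _).1 (val_mem x))
  refine ⟨mk' _ _ (ofUnit v) ((mem_subOf_iff _ _).2 hvO), val_injective ?_⟩
  apply toUnit_injective
  exact (toUnit_natCast_zsmul p (ofUnit v)).trans hvp

end Mu

/-! ### smoothness -/

lemma isLC₀_of_inQS {a : amb} (h : InQS S ((toUnit a : Qbarˣ) : Qbar)) :
    IsLC₀ (globalBasis S) amb a := by
  obtain ⟨F, hF, haF⟩ := h
  obtain ⟨U, hU, hle⟩ := exists_mem_globalBasis_le S hF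
  refine ⟨U, hU, fun s hs => ?_⟩
  apply toUnit_injective
  apply Units.ext
  rw [val_toUnit_ρ]
  have := hle hs
  rw [IntermediateField.mem_fixingSubgroup_iff] at this
  exact this _ haF

theorem isSmooth_Kx : IsSmooth (globalBasis S) (Kx S) :=
  isSmooth_sub _ _ fun _ hm => isLC₀_of_inQS S ((mem_subOf_iff _ _).1 hm)

theorem isSmooth_O : IsSmooth (globalBasis S) (O S) :=
  isSmooth_sub _ _ fun _ hm => isLC₀_of_inQS S ((mem_subOf_iff _ _).1 hm).1

theorem isSmooth_Prin : IsSmooth (globalBasis S) (Prin S) :=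
  isSmooth_quot _ _ _ fun _ hm => isLC₀_of_inQS S ((mem_subOf_iff _ _).1 hm)

theorem isSmooth_mu (p : ℕ) [Fact p.Prime] (hpS : pPrime p ∈ S) :
    IsSmooth (globalBasis S) (mu p) :=
  isSmooth_sub _ _ fun _ hm => isLC₀_of_inQS S (rootsOfUnity_le_OSub S p hpS ((mem_subOf_iff _ _).1 hm)).1

end Fermat.Agent.S55.Middle.Units
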