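/-
S55 / Middle / M.units (helper24), part 2: the facts of `Middle/Units.lean` transported to the
canonical objects of `Middle/Defs.lean` (helper17): `muP p ≤ OS S ≤ KS S`, `PrinS S`, and the two
LC short exact sequences

  (Kum) `0 → muP p → OS S -p→ OS S → 0`   (`p ∈ S`),
  (Div) `0 → OS S → KS S → PrinS S → 0`,

as `CoefExactSmooth.SES (globalBasis S)`, and restricted to any open subgroup `H` of `GQ` with the
basis `NBasis.sub (globalBasis S) H`.  All the long exact sequences, connecting maps `δ₀ δ₁ δ₂` and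
naturalities of `Formal/CoefExactSmooth.lean` then apply verbatim.
-/
import Mathlib
import Fermat.Agent.S55.Middle.Defs
import Fermat.Agent.S55.Middle.Units
import Fermat.Agent.S55.Formal.CoefExactSmooth

set_option autoImplicit false
set_option linter.unusedSectionVars false

open CategoryTheory ExtCitation

namespace Fermat.Agent.S55.Middle.UnitsLES

open Fermat.Agent.S55.Formal Fermat.Agent.S55.Formal.SmoothLift Fermat.Agent.S55.Formal.PreludeLC
open Fermat.Agent.S55.Formal.CoefExactSmooth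
open Fermat.Agent.S55.Middle

noncomputable section

variable (S : Finset Nat.Primes)

/-! ### comparison of the two descriptions -/

lemma isSUnit_iff (x : Defs.Qbarˣ) : Defs.IsSUnit S x ↔ Units.IsUnitOffS S (x : Defs.Qbar) := by
  constructor
  · intro h q hq A hA
    have := (Defs.mem_unitGroup_iff_mem_and_inv_mem A x).1 (h q hq A hA)
    rw [Units.val_inv_eq_inv_val] at this
    exact this
  · intro h q hq A hA
    rw [Defs.mem_unitGroup_iff_mem_and_inv_mem, Units.val_inv_eq_inv_val]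
    exact h q hq A hA

lemma osGroup_eq : Defs.qsSubgroup S ⊓ Defs.sUnitSubgroup S = Units.OSub S := by
  ext x
  rw [Subgroup.mem_inf, Units.mem_OSub_iff]
  exact and_congr Iff.rfl (isSUnit_iff S x)

lemma powKer_eq (p : ℕ) :
    (powMonoidHom p : Defs.Qbarˣ →* Defs.Qbarˣ).ker = rootsOfUnity p Defs.Qbar := by
  ext x
  rw [MonoidHom.mem_ker, powMonoidHom_apply, mem_rootsOfUnity]

lemma powKer_le (p : ℕ) [Fact p.Prime] (hpS : pPrime p ∈ S) :
    (powMonoidHom p : Defs.Qbarˣ →* Defs.Qbarˣ).ker ≤ Defs.qsSubgroup S ⊓ Defs.sUnitSubgroup S := by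
  rw [powKer_eq, osGroup_eq]
  exact Units.rootsOfUnity_le_OSub S p hpS

lemma toSub_mono {H H' : Subgroup Defs.Qbarˣ} (h : H ≤ H') : Defs.toSub H ≤ Defs.toSub H' :=
  fun _ hx => h hx

/-! ### the morphisms -/

/-- `muP p ⟶ OS S` (`p ∈ S`) -/
def muToOS (p : ℕ) [Fact p.Prime] (hpS : pPrime p ∈ S) : Defs.muP p ⟶ Defs.OS S :=
  Rep.ofHom ⟨Submodule.inclusion (toSub_mono (powKer_le S p hpS)), fun _ => rfl⟩

/-- `x ↦ x ^ n` on `OS S` (multiplication by `n` in additive notation) -/
def powOS (n : ℕ) : Defs.OS S ⟶ Defs.OS S :=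
  Rep.ofHom (ρ := (Defs.OS S).ρ) (σ := (Defs.OS S).ρ)
    (((n : ℤ) • (LinearMap.id : (Defs.OS S) →ₗ[ℤ] (Defs.OS S))).intertwiningMap_of_isIntertwiningMap
      _ _ (fun g x => by
        simp only [LinearMap.smul_apply, LinearMap.id_coe, id_eq, map_smul]))

/-- the underlying unit of an element of a `subRep` -/
def unitOf {H : Subgroup Defs.Qbarˣ} {hH : Defs.GalStable H} (x : Defs.subRep H hH) : Defs.Qbarˣ :=
  Defs.toUnit (x : ↥(Defs.toSub H)).1

lemma unitOf_mem {H : Subgroup Defs.Qbarˣ} {hH : Defs.GalStable H} (x : Defs.subRep H hH) :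
    unitOf x ∈ H := (x : ↥(Defs.toSub H)).2

lemma unitOf_injective {H : Subgroup Defs.Qbarˣ} {hH : Defs.GalStable H} :
    Function.Injective (unitOf : Defs.subRep H hH → Defs.Qbarˣ) := fun _ _ h => Subtype.ext h

/-- build an element of a `subRep` from a unit -/
def ofUnitMem (H : Subgroup Defs.Qbarˣ) (hH : Defs.GalStable H) (u : Defs.Qbarˣ) (hu : u ∈ H) :
    Defs.subRep H hH :=
  (⟨Additive.ofMul u, hu⟩ : ↥(Defs.toSub H))

@[simp] lemma unitOf_ofUnitMem (H : Subgroup Defs.Qbarˣ) (hH : Defs.GalStable H) (u : Defs.Qbarˣ)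
    (hu : u ∈ H) : unitOf (ofUnitMem H hH u hu) = u := rfl

lemma unitOf_ρ {H : Subgroup Defs.Qbarˣ} {hH : Defs.GalStable H} (g : Defs.GQ)
    (x : Defs.subRep H hH) : unitOf ((Defs.subRep H hH).ρ g x) = g • unitOf x := rfl

lemma unitOf_zero {H : Subgroup Defs.Qbarˣ} {hH : Defs.GalStable H} :
    unitOf (0 : Defs.subRep H hH) = 1 := rfl

lemma unitOf_muToOS (p : ℕ) [Fact p.Prime] (hpS : pPrime p ∈ S) (x : Defs.muP p) :
    unitOf ((muToOS S p hpS).hom x) = unitOf x := rfl

lemma unitOf_powOS (n : ℕ) (x : Defs.OS S) : unitOf ((powOS S n).hom x) = unitOf x ^ n := by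
  show Defs.toUnit (((n : ℤ) • (x : ↥(Defs.toSub _))).1) = _
  rw [natCast_zsmul]
  rfl

lemma unitOf_osToKS (x : Defs.OS S) : unitOf ((Defs.osToKS S).hom x) = unitOf x := rfl

/-! ### (Kum) -/

section Kummer

variable (p : ℕ) [Fact p.Prime]

theorem muToOS_injective (hpS : pPrime p ∈ S) : Function.Injective (muToOS S p hpS).hom := fun x y h =>
  unitOf_injective (by rw [← unitOf_muToOS S p hpS x, h, unitOf_muToOS])

theorem exact_muToOS_powOS (hpS : pPrime p ∈ S) : Function.Exact (muToOS S p hpS).hom (powOS S p).hom := by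
  intro x
  constructor
  · intro hx
    have h1 : unitOf x ^ p = 1 := by
      rw [← unitOf_powOS, hx]; rfl
    exact ⟨ofUnitMem _ _ (unitOf x) (by rw [MonoidHom.mem_ker, powMonoidHom_apply]; exact h1),
      unitOf_injective rfl⟩
  · rintro ⟨y, rfl⟩
    apply unitOf_injective
    rw [unitOf_powOS, unitOf_muToOS]
    have := unitOf_mem y
    rw [MonoidHom.mem_ker, powMonoidHom_apply] at this
    rw [this]; rfl

theorem powOS_surjective (hpS : pPrime p ∈ S) : Function.Surjective (powOS S p).hom := by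
  intro x
  have hpp : p.Prime := Fact.out
  set u : Defs.Qbarˣ := unitOf x with hu
  obtain ⟨α, hα⟩ := IsAlgClosed.exists_pow_nat_eq (u : Defs.Qbar) hpp.pos
  have hα0 : α ≠ 0 := by
    rintro rfl
    rw [zero_pow hpp.ne_zero] at hα
    exact u.ne_zero hα.symm
  set v : Defs.Qbarˣ := _root_.Units.mk0 α hα0 with hv
  have hvp : v ^ p = u := by
    apply _root_.Units.ext
    rw [_root_.Units.val_pow_eq_pow_val, hv, _root_.Units.val_mk0, hα]
  have hux : u ∈ Units.OSub S := by
    rw [← osGroup_eq]; exact unitOf_mem x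
  have hvO : v ∈ Defs.qsSubgroup S ⊓ Defs.sUnitSubgroup S := by
    rw [osGroup_eq]
    exact Units.mem_OSub_of_pow_mem S p hpS (by rw [hvp]; exact hux)
  refine ⟨ofUnitMem _ _ v hvO, unitOf_injective ?_⟩
  rw [unitOf_powOS, unitOf_ofUnitMem, hvp]

end Kummer

/-! ### (Div) -/

theorem osToKS_injective : Function.Injective (Defs.osToKS S).hom := fun x y h =>
  unitOf_injective (by rw [← unitOf_osToKS S x, h, unitOf_osToKS])

theorem ksToPrin_surjective : Function.Surjective (Defs.ksToPrin S).hom :=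
  (Defs.osInKS S).mkQ_surjective

theorem exact_osToKS_ksToPrin : Function.Exact (Defs.osToKS S).hom (Defs.ksToPrin S).hom := by
  intro x
  constructor
  · intro hx
    have hx' : (x : ↥(Defs.toSub (Defs.qsSubgroup S))) ∈ Defs.osInKS S :=
      (Submodule.Quotient.mk_eq_zero _).1 hx
    exact ⟨ofUnitMem _ _ (unitOf x) hx', unitOf_injective rfl⟩
  · rintro ⟨y, rfl⟩
    refine (Submodule.Quotient.mk_eq_zero _).2 ?_
    exact unitOf_mem y

/-! ### smoothness -/

lemma isSmooth_subRep {H : Subgroup Defs.Qbarˣ} (hH : Defs.GalStable H)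
    (h : ∀ x ∈ H, Defs.InQS S x) : IsSmooth (globalBasis S) (Defs.subRep H hH) := by
  intro x
  obtain ⟨F, hF, hxF⟩ := h _ (unitOf_mem x)
  obtain ⟨U, hU, hle⟩ := exists_mem_globalBasis_le S hF
  refine ⟨U, hU, fun s hs => unitOf_injective ?_⟩
  rw [unitOf_ρ]
  apply _root_.Units.ext
  have := hle hs
  rw [IntermediateField.mem_fixingSubgroup_iff] at this
  exact this _ hxF

theorem isSmooth_KS : IsSmooth (globalBasis S) (Defs.KS S) :=
  isSmooth_subRep S _ fun _ hx => hx

theorem isSmooth_OS : IsSmooth (globalBasis S) (Defs.OS S) :=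
  isSmooth_subRep S _ fun _ hx => hx.1

theorem isSmooth_muP (p : ℕ) [Fact p.Prime] (hpS : pPrime p ∈ S) :
    IsSmooth (globalBasis S) (Defs.muP p) :=
  isSmooth_subRep S _ fun _ hx => (powKer_le S p hpS hx).1

theorem isSmooth_PrinS : IsSmooth (globalBasis S) (Defs.PrinS S) := by
  intro c
  obtain ⟨b, rfl⟩ := ksToPrin_surjective S c
  obtain ⟨U, hU, hfix⟩ := isSmooth_KS S b
  exact ⟨U, hU, fun s hs => by rw [← Rep.hom_comm_apply, hfix s hs]⟩

/-! ### the two short exact sequences, over `GQ` and over open subgroups -/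

/-- **(Kum)** over `GQ` -/
theorem kummerSES (p : ℕ) [Fact p.Prime] (hpS : pPrime p ∈ S) :
    SES (globalBasis S) (muToOS S p hpS) (powOS S p) where
  inj := muToOS_injective S p hpS
  surj := powOS_surjective S p hpS
  exact := exact_muToOS_powOS S p hpS
  smooth := isSmooth_OS S

/-- **(Div)** over `GQ` -/
theorem divSES : SES (globalBasis S) (Defs.osToKS S) (Defs.ksToPrin S) where
  inj := osToKS_injective S
  surj := ksToPrin_surjective S
  exact := exact_osToKS_ksToPrin S
  smooth := isSmooth_KS S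

section Open

variable {G : Type} [Group G]

/-- the inclusion of an open subgroup is continuous for the restricted basis -/
theorem isCont_subtype (𝒰 : NBasis G) {H : Subgroup G} (hH : Defs.IsOpenSub 𝒰 H) :
    IsCont 𝒰 (Defs.NBasis.sub 𝒰 H) H.subtype := by
  intro U hU
  obtain ⟨W, hW, hWH⟩ := hH
  obtain ⟨W', hW', hle⟩ := 𝒰.inf hU hW
  refine ⟨W'.subgroupOf H, Or.inr ⟨W', hW', fun x hx => hWH (hle hx).2, rfl⟩, fun s hs => ?_⟩
  exact (hle (Subgroup.mem_subgroupOf.1 hs)).1

end Open

variable {S} in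
/-- **(Kum)** over an open subgroup `H ≤ GQ` -/
theorem kummerSES_open (p : ℕ) [Fact p.Prime] (hpS : pPrime p ∈ S) {H : Subgroup Defs.GQ}
    (hH : Defs.IsOpenSub (globalBasis S) H) :
    SES (Defs.NBasis.sub (globalBasis S) H) ((Rep.resFunctor H.subtype).map (muToOS S p hpS))
      ((Rep.resFunctor H.subtype).map (powOS S p)) :=
  SES.res H.subtype (isCont_subtype _ hH) (kummerSES S p hpS)

variable {S} in
/-- **(Div)** over an open subgroup `H ≤ GQ` -/
theorem divSES_open {H : Subgroup Defs.GQ} (hH : Defs.IsOpenSub (globalBasis S) H) :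
    SES (Defs.NBasis.sub (globalBasis S) H) ((Rep.resFunctor H.subtype).map (Defs.osToKS S))
      ((Rep.resFunctor H.subtype).map (Defs.ksToPrin S)) :=
  SES.res H.subtype (isCont_subtype _ hH) (divSES S)

end

end Fermat.Agent.S55.Middle.UnitsLES
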