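/-
S55 / Middle layer, row M.galoisDict (helper67): the GLOBAL GALOIS DICTIONARY for step (C1).

`H ≤ GQ` an open subgroup of `S`-level (`IsOpenSub (globalBasis S) H`), `L/ℚ` finite Galois,
unramified outside `S`, with `Gal(ℚ̄/L) ≤ H`; `V := Gal(ℚ̄/L) ∩ H` as a subgroup of `↥H`.

* `fixedField H` is finite over `ℚ`, unramified outside `S`, and `H` is its fixing subgroup;
* `Hbar L H = H.map (restrictNormalHom L) ≤ Gal(L/ℚ)` (`= Gal(L / fixedField H)`), and
  `quotEquiv : ↥H ⧸ V ≃* ↥(Hbar L H)`;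
* `invEquiv : (KS S)^V ≃+ Additive Lˣ`, equivariant;
* `pairKS : PairEquiv (Inv (Rep.res H.subtype (KS S)) V)
    (Rep.res (Hbar L H).subtype (Rep.ofAlgebraAutOnUnits ℚ L))`, hence isomorphisms on all
  cohomology groups.
-/
import Fermat.Agent.S55.Middle.Defs
import Fermat.Agent.S55.Middle.Dict
import Fermat.Agent.S55.Coh.PairEquiv
import Fermat.Agent.S55.Formal.PreludeLC
import Fermat.Agent.S55.Middle.UnitsLES
import Fermat.Agent.S55.Local.Transport

set_option autoImplicit false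
set_option linter.style.haveILetI false
set_option linter.unusedSectionVars false
set_option linter.unusedVariables false

open CategoryTheory groupCohomology

namespace Fermat.Agent.S55.Middle.GaloisDict

noncomputable section

open Fermat.Agent.S55.Formal Fermat.Agent.S55.Formal.PreludeLC Fermat.Agent.S55.Middle.Defs
open Fermat.Agent.S55.Middle.Dict Fermat.Agent.S55.GaloisLevel Fermat.Agent.S55.Coh.PairEquiv
open Fermat.Agent.S55.Middle.UnitsLES (unitOf ofUnitMem unitOf_injective unitOf_ρ unitOf_mem)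

local instance isAlgebraicQbar_gd : Algebra.IsAlgebraic ℚ (AlgebraicClosure ℚ) :=
  AlgebraicClosure.isAlgebraic ℚ
local instance isAlgClosureQbar_gd : IsAlgClosure ℚ (AlgebraicClosure ℚ) :=
  ⟨inferInstance, inferInstance⟩
local instance normalQbar_gd : Normal ℚ (AlgebraicClosure ℚ) :=
  IsAlgClosure.normal ℚ (AlgebraicClosure ℚ)
local instance isGaloisQbar_gd : IsGalois ℚ (AlgebraicClosure ℚ) := ⟨⟩

variable (S : Finset Nat.Primes)

/-! ### The fixed field of an open subgroup -/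

section FixedField

variable {S} {H : Subgroup Defs.GQ}

lemma isUnramifiedOutside_of_le {F F' : IntermediateField ℚ Defs.Qbar} (h : F' ≤ F)
    (hF : F.IsUnramifiedOutside S) : F'.IsUnramifiedOutside S := by
  haveI := hF.1
  refine ⟨FiniteDimensional.of_injective (IntermediateField.inclusion h).toLinearMap
    (IntermediateField.inclusion_injective h), fun q hq A hA => ?_⟩
  exact (hF.2 q hq A hA).trans (IntermediateField.fixingSubgroup_antitone h)

/-- the fixed field of an open subgroup of `S`-level is unramified outside `S`, and the subgroup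
is its fixing subgroup. -/
theorem fixedField_of_isOpenSub (hH : IsOpenSub (globalBasis S) H) :
    (IntermediateField.fixedField H).IsUnramifiedOutside S ∧
      (IntermediateField.fixedField H).fixingSubgroup = H := by
  obtain ⟨W, ⟨F, hF, -, rfl⟩, hle⟩ := hH
  haveI := hF.1
  obtain ⟨h1, h2⟩ := fixingSubgroup_fixedField_of_le H hle
  exact ⟨isUnramifiedOutside_of_le h2 hF, h1⟩

theorem fixedField_le_of_le {L : IntermediateField ℚ Defs.Qbar} (hle : L.fixingSubgroup ≤ H) :
    IntermediateField.fixedField H ≤ L := by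
  calc IntermediateField.fixedField H ≤ IntermediateField.fixedField L.fixingSubgroup :=
        IntermediateField.fixedField_antitone hle
    _ = L := InfiniteGalois.fixedField_fixingSubgroup L

end FixedField

/-! ### The group isomorphism -/

section Group

variable (H : Subgroup Defs.GQ) (L : IntermediateField ℚ Defs.Qbar) [Normal ℚ L]

/-- restriction `GQ → Gal(L/ℚ)` -/
abbrev resL : Defs.GQ →* (L ≃ₐ[ℚ] L) := AlgEquiv.restrictNormalHom L

lemma resL_apply_coe (g : Defs.GQ) (y : L) : ((resL L g y : L) : Defs.Qbar) = g (y : Defs.Qbar) :=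
  AlgEquiv.restrictNormal_commutes g L y

lemma resL_ker : (resL L).ker = L.fixingSubgroup := by
  ext σ
  rw [MonoidHom.mem_ker, IntermediateField.mem_fixingSubgroup_iff]
  constructor
  · intro h x hx
    have := resL_apply_coe L σ ⟨x, hx⟩
    rw [h] at this
    exact this.symm
  · intro h
    ext y
    rw [resL_apply_coe]
    exact h y y.2

/-- a finite extension with normal fixing subgroup is normal (in the default `ℚ`-algebra
structure of `↥L`). -/
lemma normal_of_fixingSubgroup_normal (L : IntermediateField ℚ Defs.Qbar)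
    (hn : L.fixingSubgroup.Normal) : Normal ℚ L := by
  have h := ((InfiniteGalois.normal_iff_isGalois L).mp hn).to_normal
  convert h
  exact Subsingleton.elim _ _

/-- the image of `H` in `Gal(L/ℚ)` -/
abbrev Hbar : Subgroup (L ≃ₐ[ℚ] L) := H.map (resL L)

/-- the level of `L` inside `↥H` -/
abbrev lvl : Subgroup ↥H := L.fixingSubgroup.subgroupOf H

instance lvl_normal : (lvl H L).Normal := by
  have : L.fixingSubgroup.Normal := by
    rw [← resL_ker L]
    infer_instance
  infer_instance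

lemma lvl_eq_ker : lvl H L = ((resL L).subgroupMap H).ker := by
  ext ⟨h, hh⟩
  rw [MonoidHom.mem_ker, Subgroup.mem_subgroupOf]
  show h ∈ L.fixingSubgroup ↔ _
  rw [← resL_ker L, MonoidHom.mem_ker]
  constructor
  · intro e
    exact Subtype.ext e
  · intro e
    exact congrArg Subtype.val e

/-- `↥H ⧸ (Gal(ℚ̄/L) ∩ H) ≃* image of H in Gal(L/ℚ)` -/
def quotEquiv : ↥H ⧸ lvl H L ≃* ↥(Hbar H L) :=
  QuotientGroup.liftEquiv (lvl H L) ((resL L).subgroupMap_surjective H) (lvl_eq_ker H L)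

@[simp] lemma quotEquiv_mk (h : ↥H) :
    quotEquiv H L (h : ↥H ⧸ lvl H L) = ⟨resL L h.1, Subgroup.mem_map_of_mem _ h.2⟩ := rfl

end Group

/-! ### The module isomorphism -/

section Module

variable (H : Subgroup Defs.GQ) (L : IntermediateField ℚ Defs.Qbar) [Normal ℚ L]
  {Hs : Subgroup Defs.Qbarˣ} (hHs : GalStable Hs)

/-- the inclusion `Lˣ → ℚ̄ˣ` -/
abbrev unitsIncl : (↥L)ˣ →* Defs.Qbarˣ := Units.map (algebraMap ↥L Defs.Qbar : ↥L →* Defs.Qbar)

lemma unitsIncl_coe (y : (↥L)ˣ) : ((unitsIncl L y : Defs.Qbarˣ) : Defs.Qbar) = ((y : ↥L) : Defs.Qbar) :=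
  rfl

lemma unitsIncl_injective : Function.Injective (unitsIncl L) := fun y y' h =>
  Units.ext (Subtype.ext (congrArg (fun u : Defs.Qbarˣ => (u : Defs.Qbar)) h))

/-- the units of `L` lying in `Hs` -/
abbrev unitsIn (Hs : Subgroup Defs.Qbarˣ) : Subgroup (↥L)ˣ := Hs.comap (unitsIncl L)

/-- the coefficient module over `↥H` -/
abbrev AH : Rep.{0, 0, 0} ℤ ↥H := Rep.res H.subtype (subRep Hs hHs)

variable (hle : L.fixingSubgroup ≤ H)

/-- the underlying unit of `ℚ̄` of a `V`-invariant element -/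
def uOf (x : Inv (AH H hHs) (lvl H L)) : Defs.Qbarˣ := @unitOf Hs hHs x.1

lemma uOf_mem (x : Inv (AH H hHs) (lvl H L)) : uOf H L hHs x ∈ Hs := @unitOf_mem Hs hHs x.1

lemma uOf_injective : Function.Injective (uOf H L hHs) := fun x x' h =>
  Subtype.ext (@unitOf_injective Hs hHs x.1 x'.1 h)

lemma uOf_add (x x' : Inv (AH H hHs) (lvl H L)) :
    uOf H L hHs (x + x') = uOf H L hHs x * uOf H L hHs x' := rfl

lemma uOf_ρ (h : ↥H) (x : Inv (AH H hHs) (lvl H L)) :
    uOf H L hHs ((Inv (AH H hHs) (lvl H L)).ρ (h : ↥H ⧸ lvl H L) x) = h.1 • uOf H L hHs x := rfl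

lemma uOf_fixed (x : Inv (AH H hHs) (lvl H L)) {s : ↥H} (hs : s ∈ lvl H L) :
    s.1 • uOf H L hHs x = uOf H L hHs x := by
  have h1 := inv_fixed (AH H hHs) (lvl H L) x hs
  exact congrArg (@unitOf Hs hHs) h1

include hle in
lemma uOf_mem_L (x : Inv (AH H hHs) (lvl H L)) :
    ((uOf H L hHs x : Defs.Qbarˣ) : Defs.Qbar) ∈ L := by
  have h0 : ((uOf H L hHs x : Defs.Qbarˣ) : Defs.Qbar) ∈
      IntermediateField.fixedField L.fixingSubgroup := by
    rw [IntermediateField.mem_fixedField_iff]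
    intro σ hσ
    have hs : (⟨σ, hle hσ⟩ : ↥H) ∈ lvl H L := Subgroup.mem_subgroupOf.mpr hσ
    exact congrArg (fun u : Defs.Qbarˣ => (u : Defs.Qbar)) (uOf_fixed H L hHs x hs)
  rwa [InfiniteGalois.fixedField_fixingSubgroup] at h0

/-- the unit of `L` attached to a `V`-invariant element -/
def toUnitL (x : Inv (AH H hHs) (lvl H L)) : (↥L)ˣ :=
  Units.mk0 ⟨((uOf H L hHs x : Defs.Qbarˣ) : Defs.Qbar), uOf_mem_L H L hHs hle x⟩
    (fun h => (uOf H L hHs x).ne_zero (congrArg Subtype.val h))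

lemma unitsIncl_toUnitL (x : Inv (AH H hHs) (lvl H L)) :
    unitsIncl L (toUnitL H L hHs hle x) = uOf H L hHs x := Units.ext rfl

lemma toUnitL_mem (x : Inv (AH H hHs) (lvl H L)) : toUnitL H L hHs hle x ∈ unitsIn L Hs := by
  show unitsIncl L _ ∈ Hs
  rw [unitsIncl_toUnitL]
  exact uOf_mem H L hHs x

/-- the `V`-invariant element attached to a unit of `L` lying in `Hs` -/
def ofUnitL (y : ↥(unitsIn L Hs)) : Inv (AH H hHs) (lvl H L) :=
  toInv (AH H hHs) (lvl H L) (ofUnitMem Hs hHs (unitsIncl L y.1) y.2) (by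
    intro s hs
    apply @unitOf_injective Hs hHs
    have hs' : s.1 ∈ L.fixingSubgroup := Subgroup.mem_subgroupOf.mp hs
    show s.1 • unitsIncl L y.1 = unitsIncl L y.1
    apply Units.ext
    exact (IntermediateField.mem_fixingSubgroup_iff L s.1).mp hs' _ (y.1 : ↥L).2)

lemma uOf_ofUnitL (y : ↥(unitsIn L Hs)) :
    uOf H L hHs (ofUnitL H L hHs y) = unitsIncl L y.1 := rfl

/-- `(subRep Hs)^V ≃+ (units of L lying in Hs)` -/
def invEquiv : Inv (AH H hHs) (lvl H L) ≃+ Additive ↥(unitsIn L Hs) where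
  toFun x := Additive.ofMul ⟨toUnitL H L hHs hle x, toUnitL_mem H L hHs hle x⟩
  invFun y := ofUnitL H L hHs y.toMul
  left_inv x := by
    apply uOf_injective H L hHs
    rw [uOf_ofUnitL]
    exact unitsIncl_toUnitL H L hHs hle x
  right_inv y := by
    apply Additive.toMul.injective
    apply Subtype.ext
    apply unitsIncl_injective L
    show unitsIncl L (toUnitL H L hHs hle _) = _
    rw [unitsIncl_toUnitL, uOf_ofUnitL]
  map_add' x x' := by
    apply Additive.toMul.injective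
    apply Subtype.ext
    apply unitsIncl_injective L
    show unitsIncl L (toUnitL H L hHs hle (x + x')) =
      unitsIncl L (toUnitL H L hHs hle x * toUnitL H L hHs hle x')
    rw [map_mul, unitsIncl_toUnitL, unitsIncl_toUnitL, unitsIncl_toUnitL, uOf_add]

lemma unitsIncl_invEquiv (x : Inv (AH H hHs) (lvl H L)) :
    unitsIncl L ((invEquiv H L hHs hle x).toMul : ↥(unitsIn L Hs)).1 = uOf H L hHs x :=
  unitsIncl_toUnitL H L hHs hle x

/-- equivariance of `invEquiv`, elementwise in `ℚ̄ˣ` -/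
lemma invEquiv_ρ (h : ↥H) (x : Inv (AH H hHs) (lvl H L)) :
    ((invEquiv H L hHs hle ((Inv (AH H hHs) (lvl H L)).ρ (h : ↥H ⧸ lvl H L) x)).toMul :
        ↥(unitsIn L Hs)).1 =
      Units.map ((resL L h.1 : ↥L ≃ₐ[ℚ] ↥L) : ↥L →* ↥L)
        ((invEquiv H L hHs hle x).toMul : ↥(unitsIn L Hs)).1 := by
  apply unitsIncl_injective L
  rw [unitsIncl_invEquiv, uOf_ρ]
  apply Units.ext
  show h.1 ((uOf H L hHs x : Defs.Qbarˣ) : Defs.Qbar) = ((resL L h.1 _ : ↥L) : Defs.Qbar)
  rw [resL_apply_coe]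
  rfl

end Module

/-! ### The isomorphism of pairs for `KS S` -/

section PairKS

variable (H : Subgroup Defs.GQ) (L : IntermediateField ℚ Defs.Qbar) [Normal ℚ L]
  (hL : L.IsUnramifiedOutside S) (hle : L.fixingSubgroup ≤ H)

include hL in
lemma unitsIn_qs_eq_top : unitsIn L (qsSubgroup S) = ⊤ := by
  rw [eq_top_iff]
  intro y _
  exact ⟨L, hL, (y : ↥L).2⟩

/-- the coefficient module `KS S` over `↥H` -/
abbrev KSH : Rep.{0, 0, 0} ℤ ↥H := Rep.res H.subtype (KS S)

/-- the finite-level module `Lˣ` over the image of `H` in `Gal(L/ℚ)` -/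
abbrev LxH : Rep.{0, 0, 0} ℤ ↥(Hbar H L) :=
  Rep.res (Hbar H L).subtype (Rep.ofAlgebraAutOnUnits ℚ ↥L)

/-- `(KS S)^V ≃+ Lˣ` -/
def ksEquiv : Inv (KSH S H) (lvl H L) ≃+ Additive (↥L)ˣ :=
  (invEquiv H L (galStable_qsSubgroup S) hle).trans
    { toFun := fun a => Additive.ofMul (a.toMul : ↥(unitsIn L (qsSubgroup S))).1
      invFun := fun b => Additive.ofMul ⟨b.toMul, by
        rw [unitsIn_qs_eq_top S L hL]; exact Subgroup.mem_top _⟩
      left_inv := fun _ => rfl
      right_inv := fun _ => rfl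
      map_add' := fun _ _ => rfl }

lemma unitsIncl_ksEquiv (x : Inv (KSH S H) (lvl H L)) :
    unitsIncl L (ksEquiv S H L hL hle x).toMul = uOf H L (galStable_qsSubgroup S) x :=
  unitsIncl_invEquiv H L (galStable_qsSubgroup S) hle x

lemma ksEquiv_ρ (h : ↥H) (x : Inv (KSH S H) (lvl H L)) :
    (ksEquiv S H L hL hle ((Inv (KSH S H) (lvl H L)).ρ (h : ↥H ⧸ lvl H L) x)).toMul =
      Units.map ((resL L h.1 : ↥L ≃ₐ[ℚ] ↥L) : ↥L →* ↥L) (ksEquiv S H L hL hle x).toMul :=
  invEquiv_ρ H L (galStable_qsSubgroup S) hle h x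

/-- **The Galois dictionary**: `(↥H ⧸ V, (KS S)^V) ≅ (image of H in Gal(L/ℚ), Lˣ)`. -/
def pairKS : PairEquiv (Inv (KSH S H) (lvl H L)) (LxH H L) where
  e := quotEquiv H L
  φ := (ksEquiv S H L hL hle).toIntLinearEquiv
  comm g x := by
    induction g using QuotientGroup.induction_on with
    | H h =>
      apply Additive.toMul.injective
      exact ksEquiv_ρ S H L hL hle h x

/-- the induced isomorphisms on cohomology -/
def cohIso (n : ℕ) :
    groupCohomology (Inv (KSH S H) (lvl H L)) n ≅ groupCohomology (LxH H L) n :=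
  (pairKS S H L hL hle).cohomologyIso n

end PairKS

/-! ### Transitions, Galois levels, and the base field -/

section More

variable (H : Subgroup Defs.GQ) (L L' : IntermediateField ℚ Defs.Qbar) [Normal ℚ L] [Normal ℚ L']

lemma lvl_le_of_le (hLL : L ≤ L') : lvl H L' ≤ lvl H L := fun s hs =>
  Subgroup.mem_subgroupOf.mpr
    (IntermediateField.fixingSubgroup_antitone hLL (Subgroup.mem_subgroupOf.mp hs))

variable {Hs : Subgroup Defs.Qbarˣ} (hHs : GalStable Hs)

/-- the transition maps do not change the underlying unit of `ℚ̄` -/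
lemma uOf_trans₀ (hLL : L ≤ L') (x : Inv (AH H hHs) (lvl H L)) :
    uOf H L' hHs (trans₀ (AH H hHs) (lvl_le_of_le H L L' hLL) x) = uOf H L hHs x := rfl

/-- transition `(KS S)^V → (KS S)^V'` is the inclusion `Lˣ ⊆ L'ˣ` -/
lemma unitsIncl_ksEquiv_trans₀ (hL : L.IsUnramifiedOutside S) (hL' : L'.IsUnramifiedOutside S)
    (hle : L.fixingSubgroup ≤ H) (hle' : L'.fixingSubgroup ≤ H) (hLL : L ≤ L')
    (x : Inv (KSH S H) (lvl H L)) :
    unitsIncl L' (ksEquiv S H L' hL' hle'
        (trans₀ (KSH S H) (lvl_le_of_le H L L' hLL) x)).toMul =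
      unitsIncl L (ksEquiv S H L hL hle x).toMul := by
  rw [unitsIncl_ksEquiv, unitsIncl_ksEquiv]
  rfl

/-- the group side of the transition: restriction `Gal(L'/ℚ) → Gal(L/ℚ)` -/
lemma quotEquiv_qmap_apply (hLL : L ≤ L') (q : ↥H ⧸ lvl H L') (y : ↥L) :
    (((quotEquiv H L (qmap (lvl_le_of_le H L L' hLL) q) : ↥(Hbar H L)) : ↥L ≃ₐ[ℚ] ↥L) y :
        Defs.Qbar) =
      (((quotEquiv H L' q : ↥(Hbar H L')) : ↥L' ≃ₐ[ℚ] ↥L') ⟨(y : Defs.Qbar), hLL y.2⟩ :
        Defs.Qbar) := by
  induction q using QuotientGroup.induction_on with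
  | H h =>
    show ((resL L h.1 y : ↥L) : Defs.Qbar) = ((resL L' h.1 _ : ↥L') : Defs.Qbar)
    rw [resL_apply_coe, resL_apply_coe]

end More

section Levels

variable {S} {H : Subgroup Defs.GQ}

/-- below every level of the induced basis there is a Galois level `L` -/
theorem exists_galois_level (hH : IsOpenSub (globalBasis S) H) {V : Subgroup ↥H}
    (hV : (NBasis.sub (globalBasis S) H).mem V) :
    ∃ (L : IntermediateField ℚ Defs.Qbar) (_ : Normal ℚ L), L.IsUnramifiedOutside S ∧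
      L.fixingSubgroup ≤ H ∧ (NBasis.sub (globalBasis S) H).mem (lvl H L) ∧ lvl H L ≤ V := by
  have key : ∀ W : Subgroup Defs.GQ, (globalBasis S).mem W → W ≤ H →
      ∃ (L : IntermediateField ℚ Defs.Qbar) (_ : Normal ℚ L), L.IsUnramifiedOutside S ∧
        L.fixingSubgroup ≤ H ∧ (NBasis.sub (globalBasis S) H).mem (lvl H L) ∧
        lvl H L = W.subgroupOf H := by
    rintro W ⟨F, hF, hn, rfl⟩ hWH
    exact ⟨F, normal_of_fixingSubgroup_normal F hn, hF, hWH,
      Or.inr ⟨F.fixingSubgroup, ⟨F, hF, hn, rfl⟩, hWH, rfl⟩, rfl⟩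
  rcases hV with rfl | ⟨W, hW, hWH, rfl⟩
  · obtain ⟨W, hW, hWH⟩ := hH
    obtain ⟨L, hN, hL, hle, hmem, -⟩ := key W hW hWH
    exact ⟨L, hN, hL, hle, hmem, le_top⟩
  · obtain ⟨L, hN, hL, hle, hmem, he⟩ := key W hW hWH
    exact ⟨L, hN, hL, hle, hmem, he.le⟩

end Levels

section BaseField

variable (H : Subgroup Defs.GQ) (L : IntermediateField ℚ Defs.Qbar) [Normal ℚ L]
  (hL : L.IsUnramifiedOutside S) (hle : L.fixingSubgroup ≤ H)

/-- the base field `K = L^{H̄}` as an intermediate field of `L/ℚ` -/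
abbrev baseField : IntermediateField ℚ ↥L := IntermediateField.fixedField (Hbar H L)

lemma mem_baseField_iff (y : ↥L) :
    y ∈ baseField H L ↔ (y : Defs.Qbar) ∈ IntermediateField.fixedField H := by
  rw [IntermediateField.mem_fixedField_iff, IntermediateField.mem_fixedField_iff]
  constructor
  · intro h σ hσ
    have := h (resL L σ) (Subgroup.mem_map_of_mem _ hσ)
    rw [← resL_apply_coe L σ y, this]
  · rintro h _ ⟨σ, hσ, rfl⟩
    apply Subtype.ext
    rw [resL_apply_coe]
    exact h σ hσ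

include hL in
/-- `Hⁿ(↥H ⧸ V, (KS S)^V) ≅ Hⁿ(Gal(L/K), Lˣ)` with `K = L^{H̄}`, `Gal(L/K)` in Mathlib's form -/
def cohIsoGal (n : ℕ) :
    groupCohomology (Inv (KSH S H) (lvl H L)) n ≅
      groupCohomology (Rep.ofAlgebraAutOnUnits (baseField H L) ↥L) n :=
  haveI : FiniteDimensional ℚ ↥L := hL.1
  cohIso S H L hL hle n ≪≫ Fermat.Agent.S55.Local.Transport.resSubIso ℚ ↥L (Hbar H L) n

end BaseField

/-! ### Every LC class of `KS S` over `↥H` is a Brauer class of a finite Galois layer -/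

section Classes

/-- functoriality of the transition maps on `H²` -/
theorem transH2_transH2 {k : Type} [CommRing k] {G : Type} [Group G] (M : Rep.{0, 0, 0} k G)
    {V W X : Subgroup G} [V.Normal] [W.Normal] [X.Normal] (h : W ≤ V) (h' : X ≤ W)
    (y : groupCohomology.H2 (Inv M V)) :
    transH2 M h' (transH2 M h y) = transH2 M (h'.trans h) y := by
  obtain ⟨x, rfl⟩ := H2π_surjective (Inv M V) y
  erw [transH2_π, transH2_π, transH2_π]
  congr 1
  exact Subtype.ext (trans₂_trans₂ M h h' x.1)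

variable {S} {H : Subgroup Defs.GQ}

set_option maxHeartbeats 1600000 in
/-- every class of `H²_LC(H; KS S)` killed by `n` is inflated from a class of
`H²(H̄, Lˣ)` (`H̄ = Gal(L/K)`) killed by `n`, for a finite Galois `L/ℚ` unramified outside `S`. -/
theorem exists_finite_level_H2 (hH : IsOpenSub (globalBasis S) H)
    (x : H2 (NBasis.sub (globalBasis S) H) (KSH S H)) (n : ℕ) (hx : n • x = 0) :
    ∃ (L : IntermediateField ℚ Defs.Qbar) (_ : Normal ℚ L) (hL : L.IsUnramifiedOutside S)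
      (hle : L.fixingSubgroup ≤ H) (hV : (NBasis.sub (globalBasis S) H).mem (lvl H L))
      (y : groupCohomology (LxH H L) 2), n • y = 0 ∧
      x = inflH2 (NBasis.sub (globalBasis S) H) (KSH S H) hV ((cohIso S H L hL hle 2).inv y) := by
  obtain ⟨V, hVn, hV, y₀, rfl⟩ := exists_inflH2 (NBasis.sub (globalBasis S) H) (KSH S H) x
  haveI := hVn
  have h0 : inflH2 (NBasis.sub (globalBasis S) H) (KSH S H) hV (n • y₀) = 0 := by
    rw [map_nsmul, hx]
  obtain ⟨W, hWn, hW, hWV, hW0⟩ :=
    (inflH2_eq_zero_iff (NBasis.sub (globalBasis S) H) (KSH S H) hV (n • y₀)).mp h0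
  haveI := hWn
  obtain ⟨L, hN, hL, hle, hmem, hLW⟩ := exists_galois_level hH hW
  haveI := hN
  have hLV : lvl H L ≤ V := hLW.trans hWV
  refine ⟨L, hN, hL, hle, hmem, (cohIso S H L hL hle 2).hom (transH2 (KSH S H) hLV y₀), ?_, ?_⟩
  · have h1 : transH2 (KSH S H) hLV (n • y₀) = 0 :=
      calc transH2 (KSH S H) hLV (n • y₀)
          = transH2 (KSH S H) hLW (transH2 (KSH S H) hWV (n • y₀)) :=
            (transH2_transH2 (KSH S H) hWV hLW (n • y₀)).symm
        _ = transH2 (KSH S H) hLW 0 := congrArg (transH2 (KSH S H) hLW) hW0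
        _ = 0 := map_zero _
    have h3 : n • ((cohIso S H L hL hle 2).hom (transH2 (KSH S H) hLV y₀)) =
        (cohIso S H L hL hle 2).hom (transH2 (KSH S H) hLV (n • y₀)) := by
      rw [map_nsmul, map_nsmul]
    rw [h3, h1, map_zero]
  · have h4 : (cohIso S H L hL hle 2).inv ((cohIso S H L hL hle 2).hom
        (transH2 (KSH S H) hLV y₀)) = transH2 (KSH S H) hLV y₀ :=
      Iso.hom_inv_id_apply _ _
    rw [h4]
    exact (inflH2_transH2 (NBasis.sub (globalBasis S) H) (KSH S H) hLV hV hmem y₀).symm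

end Classes

end

end Fermat.Agent.S55.Middle.GaloisDict
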