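/-
S55 / Middle layer (helper67): MODEL INDEPENDENCE for the Galois dictionary.

* `pairOfRingEquiv` : for two field extensions `E/K`, `E'/K'` and a ring isomorphism `j : E ≃+* E'`
  matching the base fields, `(Gal(E/K), Eˣ) ≅ (Gal(E'/K'), E'ˣ)` as pairs; hence isomorphic
  cohomology.  So the finite-level groups `Hⁿ(Gal(L/K), Lˣ)` of `Middle/GaloisDict.lean` can be
  computed in ANY model of `L/K` (abstract number fields, `IntermediateField.extendScalars`, …).
* `exists_finite_level_H2_ι` : `GaloisDict.exists_finite_level_H2` in helper60's `ι₂` language and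
  with Mathlib's `Gal(L/K)`.
-/
import Fermat.Agent.S55.Middle.GaloisDict
import Fermat.Agent.S55.Middle.DictBridge

set_option autoImplicit false
set_option linter.unusedSectionVars false
set_option linter.style.haveILetI false

open CategoryTheory groupCohomology

namespace Fermat.Agent.S55.Middle.GaloisDictModel

noncomputable section

open Fermat.Agent.S55.Coh.PairEquiv

section Generic

variable {K E K' E' : Type} [Field K] [Field E] [Algebra K E] [Field K'] [Field E'] [Algebra K' E']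
  (j : E ≃+* E')
  (hj : ∀ x : E, x ∈ (algebraMap K E).range ↔ j x ∈ (algebraMap K' E').range)

include hj in
lemma symm_mem_range (c : K') : j.symm (algebraMap K' E' c) ∈ (algebraMap K E).range := by
  rw [hj, RingEquiv.apply_symm_apply]
  exact ⟨c, rfl⟩

/-- conjugation by `j` -/
def conjAlgEquiv (σ : E ≃ₐ[K] E) : E' ≃ₐ[K'] E' :=
  AlgEquiv.ofRingEquiv (f := (j.symm.trans σ.toRingEquiv).trans j) (fun c => by
    obtain ⟨a, ha⟩ := symm_mem_range j hj c
    show j (σ (j.symm (algebraMap K' E' c))) = algebraMap K' E' c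
    rw [← ha, σ.commutes, ha, RingEquiv.apply_symm_apply])

@[simp] lemma conjAlgEquiv_apply (σ : E ≃ₐ[K] E) (y : E') :
    conjAlgEquiv j hj σ y = j (σ (j.symm y)) := rfl

include hj in
lemma hj_symm (y : E') : y ∈ (algebraMap K' E').range ↔ j.symm y ∈ (algebraMap K E).range := by
  rw [hj, RingEquiv.apply_symm_apply]

/-- the group isomorphism `Gal(E/K) ≃* Gal(E'/K')` induced by `j` -/
def galEquiv : (E ≃ₐ[K] E) ≃* (E' ≃ₐ[K'] E') where
  toFun := conjAlgEquiv j hj
  invFun := conjAlgEquiv j.symm (fun y => by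
    rw [hj_symm j hj y])
  left_inv σ := by
    ext x
    simp only [conjAlgEquiv_apply, RingEquiv.symm_symm, RingEquiv.symm_apply_apply]
  right_inv τ := by
    ext y
    simp only [conjAlgEquiv_apply, RingEquiv.symm_symm, RingEquiv.apply_symm_apply]
  map_mul' σ τ := by
    ext y
    simp only [conjAlgEquiv_apply, AlgEquiv.mul_apply, RingEquiv.symm_apply_apply]

/-- **Model independence**: `(Gal(E/K), Eˣ) ≅ (Gal(E'/K'), E'ˣ)`. -/
def pairOfRingEquiv :
    PairEquiv (Rep.ofAlgebraAutOnUnits K E) (Rep.ofAlgebraAutOnUnits K' E') where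
  e := galEquiv j hj
  φ := (MulEquiv.toAdditive (Units.mapEquiv j.toMulEquiv)).toIntLinearEquiv
  comm σ x := by
    apply Additive.toMul.injective
    apply Units.ext
    show j (σ ((Additive.toMul x : Eˣ) : E)) = j (σ (j.symm (j ((Additive.toMul x : Eˣ) : E))))
    rw [RingEquiv.symm_apply_apply]

/-- the induced isomorphisms on cohomology -/
def cohIsoOfRingEquiv (n : ℕ) :
    groupCohomology (Rep.ofAlgebraAutOnUnits K E) n ≅
      groupCohomology (Rep.ofAlgebraAutOnUnits K' E') n :=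
  (pairOfRingEquiv j hj).cohomologyIso n

end Generic

/-! ### The `extendScalars` model and the `ι₂` form -/

section Ext

open Fermat.Agent.S55.Formal Fermat.Agent.S55.Formal.PreludeLC Fermat.Agent.S55.Middle.Defs
open Fermat.Agent.S55.Middle.Dict Fermat.Agent.S55.Middle.GaloisDict
open Fermat.Agent.S55.Formal.LCLevelH

variable (S : Finset Nat.Primes) (H : Subgroup Defs.GQ) (L : IntermediateField ℚ Defs.Qbar)
  [Normal ℚ L]

/-- `K = ℚ̄^H` -/
abbrev K₀ : IntermediateField ℚ Defs.Qbar := IntermediateField.fixedField H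

variable (hKL : K₀ H ≤ L)

/-- `L` as an extension of `K = ℚ̄^H` inside `ℚ̄` -/
abbrev Lext : IntermediateField ↥(K₀ H) Defs.Qbar := IntermediateField.extendScalars hKL

/-- the identity `L ≃+* L'` -/
def toExt : ↥L ≃+* ↥(Lext H L hKL) where
  toFun y := ⟨(y : Defs.Qbar), y.2⟩
  invFun y := ⟨(y : Defs.Qbar), y.2⟩
  left_inv _ := rfl
  right_inv _ := rfl
  map_mul' _ _ := rfl
  map_add' _ _ := rfl

@[simp] lemma toExt_coe (y : ↥L) : ((toExt H L hKL y : ↥(Lext H L hKL)) : Defs.Qbar) = y := rfl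

lemma toExt_range (x : ↥L) :
    x ∈ (algebraMap ↥(baseField H L) ↥L).range ↔
      toExt H L hKL x ∈ (algebraMap ↥(K₀ H) ↥(Lext H L hKL)).range := by
  constructor
  · rintro ⟨a, rfl⟩
    have ha : ((a : ↥L) : Defs.Qbar) ∈ K₀ H := (mem_baseField_iff H L a).mp a.2
    exact ⟨⟨_, ha⟩, Subtype.ext rfl⟩
  · rintro ⟨c, hc⟩
    have hx : (x : Defs.Qbar) = (c : Defs.Qbar) := (congrArg Subtype.val hc).symm
    have hxK : x ∈ baseField H L := (mem_baseField_iff H L x).mpr (by rw [hx]; exact c.2)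
    exact ⟨⟨x, hxK⟩, rfl⟩

variable (hL : L.IsUnramifiedOutside S) (hle : L.fixingSubgroup ≤ H)

/-- `Hⁿ(↥H ⧸ V, (KS S)^V) ≅ Hⁿ(Gal(L'/K), L'ˣ)`, `K = ℚ̄^H`, `L' = L` as an extension of `K`
(`IntermediateField.extendScalars`). -/
def cohIsoExt (n : ℕ) :
    groupCohomology (Inv (KSH S H) (lvl H L)) n ≅
      groupCohomology (Rep.ofAlgebraAutOnUnits ↥(K₀ H) ↥(Lext H L hKL)) n :=
  cohIsoGal S H L hL hle n ≪≫ cohIsoOfRingEquiv (toExt H L hKL) (toExt_range H L hKL) n

end Ext

section Classes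

open Fermat.Agent.S55.Formal Fermat.Agent.S55.Formal.PreludeLC Fermat.Agent.S55.Middle.Defs
open Fermat.Agent.S55.Middle.Dict Fermat.Agent.S55.Middle.GaloisDict
open Fermat.Agent.S55.Formal.LCLevelH

variable {S : Finset Nat.Primes} {H : Subgroup Defs.GQ}

/-- `GaloisDict.exists_finite_level_H2` with helper60's `ι₂` and Mathlib's `Gal(L'/K)`,
`K = ℚ̄^H`, `L' = extendScalars (K ≤ L)`. -/
theorem exists_finite_level_H2_ι (hH : IsOpenSub (globalBasis S) H)
    (x : H2 (NBasis.sub (globalBasis S) H) (KSH S H)) (n : ℕ) (hx : n • x = 0) :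
    ∃ (L : IntermediateField ℚ Defs.Qbar) (_ : Normal ℚ L) (hL : L.IsUnramifiedOutside S)
      (hle : L.fixingSubgroup ≤ H) (hKL : K₀ H ≤ L)
      (hV : (NBasis.sub (globalBasis S) H).mem (lvl H L)) (_ : Finite (↥H ⧸ lvl H L))
      (y : groupCohomology (Rep.ofAlgebraAutOnUnits ↥(K₀ H) ↥(Lext H L hKL)) 2), n • y = 0 ∧
      x = ι₂ (NBasis.sub (globalBasis S) H) (KSH S H) (lvl H L) hV
        ((cohIsoExt S H L hKL hL hle 2).inv y) := by
  obtain ⟨L, hN, hL, hle, hV, y, hy, rfl⟩ := exists_finite_level_H2 hH x n hx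
  haveI := hN
  have hKL : K₀ H ≤ L := fixedField_le_of_le hle
  haveI hfin : Finite (↥H ⧸ lvl H L) := DictBridge.finite_quotient _ hV
  have hFD : FiniteDimensional ℚ ↥L := hL.1
  let e := (Fermat.Agent.S55.Local.Transport.resSubIso ℚ ↥L (Hbar H L) 2) ≪≫
    cohIsoOfRingEquiv (toExt H L hKL) (toExt_range H L hKL) 2
  refine ⟨L, hN, hL, hle, hKL, hV, hfin, e.hom y, ?_, ?_⟩
  · rw [← map_nsmul, hy, map_zero]
  · rw [← DictBridge.inflH2_eq_ι₂]
    congr 1
    show (cohIso S H L hL hle 2).inv y = (cohIso S H L hL hle 2 ≪≫ e).inv (e.hom y)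
    rw [Iso.trans_inv]
    simp only [ModuleCat.hom_comp, LinearMap.comp_apply]
    rw [Iso.hom_inv_id_apply]

end Classes

end

end Fermat.Agent.S55.Middle.GaloisDictModel
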