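/-
S55 / MIDDLE block, row (LOC-S) of helper17 #1935 — DEFINITIONS and the LITERAL INTERFACE (helper14).

For an `S`-open `P ≤ G_ℚ` (`K = ℚ̄^P = K₀ P`), a prime `q` and `t : G_ℚ`:
* `eAt P q t : K →+* Ω_q`, `x ↦ padicEmbedding q (t⁻¹ x)`;
* `mAt P q t = idealQ (eAt P q t)`, the maximal ideal of `K ⊗[ℚ] ℚ_q` (place of `K` above `q`) cut out
  by `eAt`;
* `Statement S P` : for every finite Galois level `L ⊇ K` there is an INJECTIVE additive map
  `jA : H²(Gal(L/K), (L ⊗[K] K_𝔪)ˣ) → H²_LC(Dloc P q t; Ω_qˣ)`, `𝔪 = mAt P q t`, compatible with the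
  localisation `locKS S P q t` of the LC cohomology of `P` and helper67's dictionary `cohIsoExt`.
-/
import Fermat.Agent.S55.Global.Blocks3
import Fermat.Agent.S55.Middle.KSite
import Fermat.Agent.S55.Middle.GaloisDictModel
import Fermat.Agent.S55.Middle.SemilocalCompare
import Fermat.Agent.S55.Formal.LCLevelH

set_option autoImplicit false

open CategoryTheory groupCohomology ExtCitation

namespace Fermat.Agent.S55.Middle.LocS

noncomputable section

open Fermat.Agent.S55.Formal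
open Fermat.Agent.S55.Formal.PreludeLC hiding GQ Qbar
open Fermat.Agent.S55.Middle.Defs
open Fermat.Agent.S55.Middle.KSite Fermat.Agent.S55.Middle.GaloisDict
open Fermat.Agent.S55.Middle.GaloisDictModel
open Fermat.Agent.S55.Global.Blocks3
open Fermat.Agent.S55.Formal.LCLevelH

attribute [local instance] Fermat.Agent.S55.LM.Defs.fact_q

variable (S : Finset Nat.Primes) (P : Subgroup GQ)

/-- the embedding `K = ℚ̄^P → Ω_q` at the place `(q, t)`: `x ↦ padicEmbedding q (t⁻¹ x)` -/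
def eAt (q : Nat.Primes) (t : GQ) : ↥(K₀ P) →+* PadicAlgCl (q : ℕ) :=
  ((padicEmbedding (q : ℕ) : Qbar →ₐ[ℚ] PadicAlgCl (q : ℕ)) : Qbar →+* PadicAlgCl (q : ℕ)).comp
    (((t⁻¹ : GQ) : Qbar →+* Qbar).comp (algebraMap ↥(K₀ P) Qbar))

lemma eAt_apply (q : Nat.Primes) (t : GQ) (x : ↥(K₀ P)) :
    eAt P q t x = padicEmbedding (q : ℕ) ((t⁻¹ : GQ) (x : Qbar)) := rfl

/-- the place of `K` (maximal ideal of `K ⊗ ℚ_q`) at `(q, t)` -/
def mAt [NumberField ↥(K₀ P)] (q : Nat.Primes) (t : GQ) : Ideal (Ksemi ↥(K₀ P) q) :=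
  SemilocalCompare.idealQ (eAt P q t)

instance [NumberField ↥(K₀ P)] (q : Nat.Primes) (t : GQ) : (mAt P q t).IsMaximal :=
  SemilocalCompare.idealQ_isMaximal _

/-- ROW (LOC-S), literal interface. -/
def Statement : Prop :=
  ∀ (L : IntermediateField ℚ Qbar) [Normal ℚ L] (hL : L.IsUnramifiedOutside S)
    (hle : L.fixingSubgroup ≤ P) (hKL : K₀ P ≤ L)
    [NumberField ↥(K₀ P)] [NumberField ↥(Lext P L hKL)] [Finite (↥P ⧸ lvl P L)]
    (hV : (basisP S P).mem (lvl P L)) (q : Nat.Primes) (t : GQ),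
    ∃ jA : groupCohomology (Jloc ↥(K₀ P) ↥(Lext P L hKL) q (mAt P q t)) 2 →+
        H2 (basisLoc P q t) (Fermat.Agent.S55.LM.Defs.Ox q (Dloc P q t)),
      Function.Injective jA ∧
      ∀ z : groupCohomology (Rep.ofAlgebraAutOnUnits ↥(K₀ P) ↥(Lext P L hKL)) 2,
        jA ((locH ↥(K₀ P) ↥(Lext P L hKL) (Kloc ↥(K₀ P) q (mAt P q t)) 2).hom z) =
          (locKS S P q t).h2 (ι₂ (basisP S P) (resP P (KS S)) (lvl P L) hV
            ((cohIsoExt S P L hKL hL hle 2).inv.hom z))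

end

end Fermat.Agent.S55.Middle.LocS
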