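/-
S55 / Middle / M.loccompare.rel (helper79): RELATIVE (`K`-based) instantiation of
`Middle/SemilocalCompare` — the local components `L ⊗[K] K_𝔪` of `Global/Blocks3` versus the embedded
local fields `ℚ_q(eL K) ⊆ ℚ_q(eL L) ⊆ PadicAlgCl q` of the Prelude / Bridge / LM blocks.

Setting: `K ⊆ L` number fields (`[Algebra K L]`), `q` prime, `eL : L →+* PadicAlgCl q`,
`resEmb K eL := eL ∘ algebraMap K L`, `𝔪 := idealQ (resEmb K eL)` (a maximal ideal of `K ⊗[ℚ] ℚ_[q]`),
`Kq K eL := (K ⊗[ℚ] ℚ_[q]) ⧸ 𝔪`  (`= Blocks3.Kloc K q 𝔪` LITERALLY, with the same `K`-algebra structure),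
`G = L ≃ₐ[K] L` acting on `L ⊗[K] Kq K eL` through `Global/Objects`.

* `kqEmb K eL : Kq K eL →ₐ[ℚ_[q]] PadicAlgCl q` (image `ℚ_q(eL K)`: `range_kqEmb`), `fieldKq`,
  `algebraKqOmega`, `isScalarTower_Qq_Kq_Omega`, `normal_Kq_Omega`;
* `idealRel K eL = 𝔐` : maximal ideal of `L ⊗[K] Kq K eL`; `psiRel`, `mem_idealRel`;
* `mem_stabilizer_idealRel_iff : g ∈ Stab_G 𝔐 ↔ ∃ τ ∈ Gal(ℚ̄_q/ℚ_q), τ fixes eL K pointwise ∧
    ∀ l, τ (eL l) = eL (g l)`;
* `ℚ_q`-MODEL (no field structure on `Kq` in the statements):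
  `quotEquivRelQ : (L ⊗[K] Kq K eL) ⧸ 𝔐 ≃+* localFieldOf eL` (`coe_quotEquivRelQ_mk_tmul`),
  `stabToGalRelQ : Stab_G 𝔐 →* Gal(ℚ_q(eL L)/ℚ_q)`, `quotEquivRelQ_smul` (EQUIVARIANCE),
  `stabToGalRelQ_toLocalField : stabToGalRelQ d (eL l) = eL (d l)`, `stabToGalRelQ_injective`,
  `stabToGalRelQ_fixes`, `exists_stabToGalRelQ_eq`, `range_stabToGalRelQ` (for `L/K` Galois the image
  is exactly `Gal(ℚ_q(eL L)/ℚ_q(eL K))`);
* `K_𝔪`-MODEL: `fieldRel K eL : IntermediateField (Kq K eL) (PadicAlgCl q)` (same carrier as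
  `localFieldOf eL`: `mem_fieldRel_iff`, `fieldRelEquiv`), `quotEquivRel`, `stabToGalRel`,
  `quotEquivRel_smul`, `stabToGalRel_bijective`, `stabEquivRel : Stab_G 𝔐 ≃* Gal(K_𝔪(eL L)/K_𝔪)`.

Instance search on `L ⊗[K] Kq K eL` is slow: this file raises `synthInstance.maxHeartbeats` and uses the
local shortcut instances `actRel`, `actIdealRel`; consumers may have to do the same.
-/
import Mathlib
import Fermat.Agent.S55.Middle.SemilocalCompare

set_option autoImplicit false
set_option linter.unusedSectionVars false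
set_option linter.style.haveILetI false
set_option synthInstance.maxHeartbeats 200000

namespace Fermat.Agent.S55.Middle.SemilocalCompareRel

open scoped TensorProduct Pointwise NumberField
open Fermat.Agent.S55.Global.SemilocalDecomp
open Fermat.Agent.S55.Global.Objects
open Fermat.Agent.S55.Middle.CompletionCompare
open Fermat.Agent.S55.Middle.SemilocalCompare

attribute [local instance] Algebra.TensorProduct.rightAlgebra
attribute [local instance] stabQuotAction

variable {q : ℕ} [Fact q.Prime]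
variable (K : Type) {L : Type} [Field K] [NumberField K] [Field L] [NumberField L] [Algebra K L]
variable (eL : L →+* PadicAlgCl q)

local instance towerQqPadic_rel : IsScalarTower ℚ ℚ_[q] (PadicAlgCl q) :=
  IsScalarTower.of_algebraMap_eq' (Subsingleton.elim _ _)

/-- the restriction of `eL` to `K`. -/
noncomputable abbrev resEmb : K →+* PadicAlgCl q := eL.comp (algebraMap K L)

/-- the completion `K_𝔪 = (K ⊗[ℚ] ℚ_[q]) ⧸ 𝔪` of `K` at the place cut out by `eL|_K`
(`= Blocks3.Kloc K q (idealQ (resEmb K eL))`). -/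
abbrev Kq : Type := (K ⊗[ℚ] ℚ_[q]) ⧸ idealQ (resEmb K eL)

/-- `K_𝔪` is a field. -/
@[reducible] noncomputable def fieldKq : Field (Kq K eL) := Ideal.Quotient.field _

attribute [local instance] fieldKq

/-- `K_𝔪 → PadicAlgCl q`, with image `ℚ_q(eL K)`. -/
noncomputable def kqEmb : Kq K eL →ₐ[ℚ_[q]] PadicAlgCl q :=
  (localFieldOf (resEmb K eL)).val.comp (quotEquivQ (resEmb K eL)).toAlgHom

theorem kqEmb_mk_tmul (x : K) (c : ℚ_[q]) :
    kqEmb K eL (Ideal.Quotient.mk _ (x ⊗ₜ c)) =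
      eL (algebraMap K L x) * algebraMap ℚ_[q] (PadicAlgCl q) c := rfl

theorem kqEmb_mem (y : Kq K eL) : kqEmb K eL y ∈ localFieldOf (resEmb K eL) :=
  (quotEquivQ (resEmb K eL) y).2

theorem range_kqEmb : (kqEmb K eL).range = (localFieldOf (resEmb K eL)).toSubalgebra := by
  ext y
  constructor
  · rintro ⟨x, rfl⟩
    exact kqEmb_mem K eL x
  · intro hy
    exact ⟨(quotEquivQ (resEmb K eL)).symm ⟨y, hy⟩, by
      change (((quotEquivQ (resEmb K eL)) ((quotEquivQ (resEmb K eL)).symm ⟨y, hy⟩) :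
        localFieldOf (resEmb K eL)) : PadicAlgCl q) = y
      rw [AlgEquiv.apply_symm_apply]⟩

/-- `PadicAlgCl q` as a `K_𝔪`-algebra. -/
@[reducible] noncomputable def algebraKqOmega : Algebra (Kq K eL) (PadicAlgCl q) :=
  (kqEmb K eL).toRingHom.toAlgebra

/-- `PadicAlgCl q` as a `K`-algebra through `eL|_K`. -/
@[reducible] noncomputable def algebraKOmega : Algebra K (PadicAlgCl q) :=
  (resEmb K eL).toAlgebra

attribute [local instance] algebraKqOmega

theorem isScalarTower_K_Kq_Omega :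
    letI := algebraKOmega K eL
    IsScalarTower K (Kq K eL) (PadicAlgCl q) := by
  letI := algebraKOmega K eL
  refine IsScalarTower.of_algebraMap_eq fun x => ?_
  change eL (algebraMap K L x) = kqEmb K eL (Ideal.Quotient.mk _ (x ⊗ₜ (1 : ℚ_[q])))
  rw [kqEmb_mk_tmul, map_one, mul_one]

theorem isScalarTower_Qq_Kq_Omega :
    IsScalarTower ℚ_[q] (Kq K eL) (PadicAlgCl q) := by
  refine IsScalarTower.of_algebraMap_eq fun c => ?_
  exact ((kqEmb K eL).commutes c).symm

attribute [local instance] isScalarTower_Qq_Kq_Omega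

/-- `eL` as a `K`-algebra homomorphism. -/
noncomputable def embK :
    letI := algebraKOmega K eL
    L →ₐ[K] PadicAlgCl q :=
  letI := algebraKOmega K eL
  { eL with commutes' := fun _ => rfl }

@[simp] theorem embK_apply (l : L) :
    letI := algebraKOmega K eL
    embK K eL l = eL l := rfl

/-- shortcut instance -/
noncomputable local instance actRel : MulSemiringAction (L ≃ₐ[K] L) (L ⊗[K] Kq K eL) :=
  inferInstance

/-- shortcut instance -/
noncomputable local instance actIdealRel : MulAction (L ≃ₐ[K] L) (Ideal (L ⊗[K] Kq K eL)) :=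
  Ideal.pointwiseDistribMulAction.toMulAction

/-- The action of `Gal(L/K)` on `L ⊗[K] K_𝔪` is through the left factor. -/
theorem hactRel (g : L ≃ₐ[K] L) (l : L) (c : Kq K eL) :
    g • (l ⊗ₜ[K] c : L ⊗[K] Kq K eL) = (g • l) ⊗ₜ[K] c := rfl

/-- **The maximal ideal `𝔐` of `L ⊗[K] K_𝔪`** attached to `eL` (the place of `L` above `𝔪`). -/
noncomputable def idealRel : Ideal (L ⊗[K] Kq K eL) :=
  letI := algebraKOmega K eL
  haveI := isScalarTower_K_Kq_Omega K eL
  kerIdeal (F := Kq K eL) (embK K eL)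

instance idealRel_isMaximal : (idealRel K eL).IsMaximal := by
  letI := algebraKOmega K eL
  haveI := isScalarTower_K_Kq_Omega K eL
  exact kerIdeal_isMaximal (F := Kq K eL) (embK K eL)

/-- `ψ : L ⊗[K] K_𝔪 → PadicAlgCl q`, `l ⊗ y ↦ eL l * y`. -/
noncomputable def psiRel : L ⊗[K] Kq K eL →ₐ[Kq K eL] PadicAlgCl q :=
  letI := algebraKOmega K eL
  haveI := isScalarTower_K_Kq_Omega K eL
  psi (F := Kq K eL) (embK K eL)

@[simp] theorem psiRel_tmul (l : L) (y : Kq K eL) :
    psiRel K eL (l ⊗ₜ y) = eL l * kqEmb K eL y := rfl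

theorem mem_idealRel (b : L ⊗[K] Kq K eL) : b ∈ idealRel K eL ↔ psiRel K eL b = 0 := by
  letI := algebraKOmega K eL
  haveI := isScalarTower_K_Kq_Omega K eL
  exact mem_kerIdeal (F := Kq K eL) (embK K eL) b

/-- The local field `K_𝔪(eL L) ⊆ PadicAlgCl q` as an intermediate field over `K_𝔪`. -/
noncomputable def fieldRel : IntermediateField (Kq K eL) (PadicAlgCl q) :=
  IntermediateField.adjoin (Kq K eL) (Set.range eL)

theorem fieldRel_eq_genField :
    letI := algebraKOmega K eL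
    haveI := isScalarTower_K_Kq_Omega K eL
    fieldRel K eL = genField (F := Kq K eL) (embK K eL) := rfl

theorem map_mem_fieldRel (l : L) : eL l ∈ fieldRel K eL :=
  IntermediateField.subset_adjoin _ _ ⟨l, rfl⟩

theorem localFieldOf_resEmb_le : localFieldOf (resEmb K eL) ≤ localFieldOf eL := by
  unfold localFieldOf
  apply IntermediateField.adjoin.mono
  rintro _ ⟨x, rfl⟩
  exact ⟨algebraMap K L x, rfl⟩

/-- `ℚ_q(eL L)` as an intermediate field over `K_𝔪`. -/
noncomputable def localFieldOverKq : IntermediateField (Kq K eL) (PadicAlgCl q) :=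
  (localFieldOf eL).toSubfield.toIntermediateField fun y =>
    localFieldOf_resEmb_le K eL (kqEmb_mem K eL y)

theorem mem_localFieldOverKq {x : PadicAlgCl q} :
    x ∈ localFieldOverKq K eL ↔ x ∈ localFieldOf eL := Iff.rfl

/-- **`K_𝔪(eL L)` and `ℚ_q(eL L)` are the same subfield of `PadicAlgCl q`.** -/
theorem mem_fieldRel_iff {x : PadicAlgCl q} : x ∈ fieldRel K eL ↔ x ∈ localFieldOf eL := by
  constructor
  · intro hx
    have hle : fieldRel K eL ≤ localFieldOverKq K eL := by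
      unfold fieldRel
      rw [IntermediateField.adjoin_le_iff]
      rintro _ ⟨l, rfl⟩
      exact map_mem_localFieldOf eL l
    exact hle hx
  · intro hx
    have hle : localFieldOf eL ≤ (fieldRel K eL).restrictScalars ℚ_[q] := by
      unfold localFieldOf
      rw [IntermediateField.adjoin_le_iff]
      rintro _ ⟨l, rfl⟩
      exact map_mem_fieldRel K eL l
    exact hle hx

/-- the identity `K_𝔪(eL L) ≃ ℚ_q(eL L)`. -/
noncomputable def fieldRelEquiv : fieldRel K eL ≃ₐ[ℚ_[q]] localFieldOf eL where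
  toFun x := ⟨x.1, (mem_fieldRel_iff K eL).1 x.2⟩
  invFun x := ⟨x.1, (mem_fieldRel_iff K eL).2 x.2⟩
  left_inv _ := rfl
  right_inv _ := rfl
  map_mul' _ _ := rfl
  map_add' _ _ := rfl
  commutes' c := by
    apply Subtype.ext
    change ((algebraMap ℚ_[q] (fieldRel K eL) c : fieldRel K eL) : PadicAlgCl q) = _
    rw [IsScalarTower.algebraMap_apply ℚ_[q] (Kq K eL) (fieldRel K eL)]
    change algebraMap (Kq K eL) (PadicAlgCl q) (algebraMap ℚ_[q] (Kq K eL) c) = _
    rw [← IsScalarTower.algebraMap_apply]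
    rfl

@[simp] theorem coe_fieldRelEquiv (x : fieldRel K eL) :
    ((fieldRelEquiv K eL x : localFieldOf eL) : PadicAlgCl q) = x := by
  obtain ⟨x, hx⟩ := x
  rfl

@[simp] theorem coe_fieldRelEquiv_symm (x : localFieldOf eL) :
    (((fieldRelEquiv K eL).symm x : fieldRel K eL) : PadicAlgCl q) = x := by
  obtain ⟨x, hx⟩ := x
  rfl

/-- `ψ` with values in `K_𝔪(eL L)`. -/
noncomputable def psiRelL : L ⊗[K] Kq K eL →ₐ[Kq K eL] fieldRel K eL :=
  letI := algebraKOmega K eL
  haveI := isScalarTower_K_Kq_Omega K eL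
  psiL (F := Kq K eL) (embK K eL)

@[simp] theorem coe_psiRelL (b : L ⊗[K] Kq K eL) :
    ((psiRelL K eL b : fieldRel K eL) : PadicAlgCl q) = psiRel K eL b := rfl

theorem psiRelL_surjective : Function.Surjective (psiRelL K eL) := by
  letI := algebraKOmega K eL
  haveI := isScalarTower_K_Kq_Omega K eL
  exact psiL_surjective (F := Kq K eL) (embK K eL)

/-- **`(L ⊗[K] K_𝔪) ⧸ 𝔐 ≃ K_𝔪(eL L)`.** -/
noncomputable def quotEquivRel :
    ((L ⊗[K] Kq K eL) ⧸ idealRel K eL) ≃ₐ[Kq K eL] fieldRel K eL :=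
  letI := algebraKOmega K eL
  haveI := isScalarTower_K_Kq_Omega K eL
  quotEquiv (F := Kq K eL) (embK K eL)

@[simp] theorem quotEquivRel_mk (b : L ⊗[K] Kq K eL) :
    quotEquivRel K eL (Ideal.Quotient.mk (idealRel K eL) b) = psiRelL K eL b := rfl

/-- The stabiliser of `𝔐` in `Gal(L/K)` acts on `K_𝔪(eL L)` by `K_𝔪`-automorphisms. -/
noncomputable def stabToGalRel :
    MulAction.stabilizer (L ≃ₐ[K] L) (idealRel K eL) →*
      (fieldRel K eL ≃ₐ[Kq K eL] fieldRel K eL) :=
  letI := algebraKOmega K eL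
  haveI := isScalarTower_K_Kq_Omega K eL
  stabToGal (F := Kq K eL) (hactRel K eL) (embK K eL)

/-- **Equivariance** of `quotEquivRel`. -/
theorem quotEquivRel_smul (d : MulAction.stabilizer (L ≃ₐ[K] L) (idealRel K eL))
    (x : (L ⊗[K] Kq K eL) ⧸ idealRel K eL) :
    quotEquivRel K eL (d • x) = stabToGalRel K eL d (quotEquivRel K eL x) := by
  letI := algebraKOmega K eL
  haveI := isScalarTower_K_Kq_Omega K eL
  exact quotEquiv_smul (F := Kq K eL) (hactRel K eL) (embK K eL) d x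

/-- `eL l` as an element of `K_𝔪(eL L)`. -/
noncomputable def toFieldRel : L →+* fieldRel K eL :=
  eL.codRestrict (fieldRel K eL).toSubring (map_mem_fieldRel K eL)

@[simp] theorem coe_toFieldRel (l : L) :
    ((toFieldRel K eL l : fieldRel K eL) : PadicAlgCl q) = eL l := rfl

/-- `stabToGalRel d (eL l) = eL (d l)`. -/
theorem stabToGalRel_toFieldRel (d : MulAction.stabilizer (L ≃ₐ[K] L) (idealRel K eL)) (l : L) :
    stabToGalRel K eL d (toFieldRel K eL l) = toFieldRel K eL (d.1 l) := by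
  letI := algebraKOmega K eL
  haveI := isScalarTower_K_Kq_Omega K eL
  exact stabToGal_toGen (F := Kq K eL) (hactRel K eL) (embK K eL) d l

theorem stabToGalRel_injective : Function.Injective (stabToGalRel K eL) := by
  letI := algebraKOmega K eL
  haveI := isScalarTower_K_Kq_Omega K eL
  exact stabToGal_injective (F := Kq K eL) (hactRel K eL) (embK K eL)

/-- **For `L/K` Galois the stabiliser of `𝔐` IS `Gal(K_𝔪(eL L)/K_𝔪)`.** -/
theorem stabToGalRel_bijective [IsGalois K L] : Function.Bijective (stabToGalRel K eL) := by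
  letI := algebraKOmega K eL
  haveI := isScalarTower_K_Kq_Omega K eL
  exact stabToGal_bijective (F := Kq K eL) (hactRel K eL) (embK K eL)

/-- `Stab 𝔐 ≃* Gal(K_𝔪(eL L)/K_𝔪)`. -/
noncomputable def stabEquivRel [IsGalois K L] :
    MulAction.stabilizer (L ≃ₐ[K] L) (idealRel K eL) ≃*
      (fieldRel K eL ≃ₐ[Kq K eL] fieldRel K eL) :=
  MulEquiv.ofBijective (stabToGalRel K eL) (stabToGalRel_bijective K eL)

@[simp] theorem stabEquivRel_apply [IsGalois K L]
    (d : MulAction.stabilizer (L ≃ₐ[K] L) (idealRel K eL)) :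
    stabEquivRel K eL d = stabToGalRel K eL d := rfl

/-! ### The same in the `ℚ_q`-model: everything expressed in `localFieldOf eL ⊆ PadicAlgCl q` -/

theorem isAlgebraic_Kq_Omega : Algebra.IsAlgebraic (Kq K eL) (PadicAlgCl q) :=
  ⟨fun x => (Algebra.IsAlgebraic.isAlgebraic (R := ℚ_[q]) x).tower_top _⟩

theorem normal_Kq_Omega : Normal (Kq K eL) (PadicAlgCl q) := by
  haveI := isAlgebraic_Kq_Omega K eL
  haveI : IsAlgClosure (Kq K eL) (PadicAlgCl q) := ⟨inferInstance, inferInstance⟩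
  exact IsAlgClosure.normal _ _

/-- an automorphism of `PadicAlgCl q / ℚ_q` fixing `eL K` pointwise fixes `ℚ_q(eL K)`. -/
theorem apply_kqEmb_of_fixes (τ : PadicAlgCl q ≃ₐ[ℚ_[q]] PadicAlgCl q)
    (hτ : ∀ x : K, τ (eL (algebraMap K L x)) = eL (algebraMap K L x)) (y : Kq K eL) :
    τ (kqEmb K eL y) = kqEmb K eL y := by
  obtain ⟨b, rfl⟩ := Ideal.Quotient.mk_surjective y
  induction b using TensorProduct.induction_on with
  | zero => simp
  | tmul x c => rw [kqEmb_mk_tmul, map_mul, hτ, AlgEquiv.commutes]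
  | add a b ha hb => rw [map_add, map_add, map_add, ha, hb]

/-- **`g ∈ Gal(L/K)` stabilises `𝔐` iff `eL ∘ g = τ ∘ eL` for some `τ ∈ Gal(ℚ̄_q/ℚ_q)` fixing `eL K`
pointwise** (i.e. `τ ∈ Gal(ℚ̄_q/ℚ_q(eL K))`). -/
theorem mem_stabilizer_idealRel_iff (g : L ≃ₐ[K] L) :
    g ∈ MulAction.stabilizer (L ≃ₐ[K] L) (idealRel K eL) ↔
      ∃ τ : PadicAlgCl q ≃ₐ[ℚ_[q]] PadicAlgCl q,
        (∀ x : K, τ (eL (algebraMap K L x)) = eL (algebraMap K L x)) ∧
          ∀ l : L, τ (eL l) = eL (g l) := by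
  letI := algebraKOmega K eL
  haveI := isScalarTower_K_Kq_Omega K eL
  haveI := normal_Kq_Omega K eL
  have h := mem_stabilizer_iff_exists (F := Kq K eL) (hactRel K eL) (embK K eL) g
  change g ∈ MulAction.stabilizer (L ≃ₐ[K] L) (idealRel K eL) ↔ _ at h
  rw [h]
  constructor
  · rintro ⟨τ', hτ'⟩
    refine ⟨τ'.restrictScalars ℚ_[q], fun x => ?_, fun l => hτ' l⟩
    have h1 : eL (algebraMap K L x) =
        algebraMap (Kq K eL) (PadicAlgCl q) (Ideal.Quotient.mk _ (x ⊗ₜ (1 : ℚ_[q]))) := by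
      change _ = kqEmb K eL (Ideal.Quotient.mk _ (x ⊗ₜ (1 : ℚ_[q])))
      rw [kqEmb_mk_tmul, map_one, mul_one]
    rw [h1]
    exact τ'.commutes _
  · rintro ⟨τ, hτ, hτ2⟩
    exact ⟨{ τ with commutes' := fun y => apply_kqEmb_of_fixes K eL τ hτ y }, fun l => hτ2 l⟩

/-- `(L ⊗[K] K_𝔪) ⧸ 𝔐 ≃+* ℚ_q(eL L)`. -/
noncomputable def quotEquivRelQ :
    ((L ⊗[K] Kq K eL) ⧸ idealRel K eL) ≃+* localFieldOf eL :=
  (quotEquivRel K eL).toRingEquiv.trans (fieldRelEquiv K eL).toRingEquiv

theorem quotEquivRelQ_apply (z : (L ⊗[K] Kq K eL) ⧸ idealRel K eL) :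
    quotEquivRelQ K eL z = fieldRelEquiv K eL (quotEquivRel K eL z) := rfl

theorem coe_quotEquivRelQ_mk_tmul (l : L) (y : Kq K eL) :
    ((quotEquivRelQ K eL (Ideal.Quotient.mk _ (l ⊗ₜ y)) : localFieldOf eL) : PadicAlgCl q) =
      eL l * kqEmb K eL y := by
  rw [quotEquivRelQ_apply, quotEquivRel_mk, coe_fieldRelEquiv, coe_psiRelL, psiRel_tmul]

/-- The stabiliser of `𝔐` in `Gal(L/K)` acts on `ℚ_q(eL L)` by `ℚ_q`-automorphisms. -/
noncomputable def stabToGalRelQ :
    MulAction.stabilizer (L ≃ₐ[K] L) (idealRel K eL) →*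
      (localFieldOf eL ≃ₐ[ℚ_[q]] localFieldOf eL) :=
  (AlgEquiv.autCongr (fieldRelEquiv K eL)).toMonoidHom.comp
    ((AlgEquiv.restrictScalarsHom ℚ_[q]).comp (stabToGalRel K eL))

theorem stabToGalRelQ_apply (d : MulAction.stabilizer (L ≃ₐ[K] L) (idealRel K eL))
    (x : localFieldOf eL) :
    stabToGalRelQ K eL d x =
      fieldRelEquiv K eL (stabToGalRel K eL d ((fieldRelEquiv K eL).symm x)) := rfl

/-- `stabToGalRelQ d (eL l) = eL (d l)`. -/
theorem stabToGalRelQ_toLocalField (d : MulAction.stabilizer (L ≃ₐ[K] L) (idealRel K eL))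
    (l : L) : stabToGalRelQ K eL d (toLocalField eL l) = toLocalField eL (d.1 l) := by
  have h1 : (fieldRelEquiv K eL).symm (toLocalField eL l) = toFieldRel K eL l := by
    apply Subtype.ext
    rw [coe_fieldRelEquiv_symm, coe_toLocalField, coe_toFieldRel]
  rw [stabToGalRelQ_apply, h1, stabToGalRel_toFieldRel]
  apply Subtype.ext
  rw [coe_fieldRelEquiv, coe_toLocalField, coe_toFieldRel]

/-- **Equivariance** of `quotEquivRelQ`. -/
theorem quotEquivRelQ_smul (d : MulAction.stabilizer (L ≃ₐ[K] L) (idealRel K eL))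
    (x : (L ⊗[K] Kq K eL) ⧸ idealRel K eL) :
    quotEquivRelQ K eL (d • x) = stabToGalRelQ K eL d (quotEquivRelQ K eL x) := by
  rw [quotEquivRelQ_apply, quotEquivRelQ_apply, stabToGalRelQ_apply, AlgEquiv.symm_apply_apply,
    quotEquivRel_smul]

theorem stabToGalRelQ_injective : Function.Injective (stabToGalRelQ K eL) := by
  intro d d' h
  apply stabToGalRel_injective K eL
  apply AlgEquiv.ext
  intro x
  have h2 := congrArg (fun σ => σ (fieldRelEquiv K eL x)) h
  simp only [stabToGalRelQ_apply, AlgEquiv.symm_apply_apply] at h2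
  exact (fieldRelEquiv K eL).injective h2

/-- the image of `stabToGalRelQ` fixes `eL K` pointwise. -/
theorem stabToGalRelQ_fixes (d : MulAction.stabilizer (L ≃ₐ[K] L) (idealRel K eL)) (x : K) :
    stabToGalRelQ K eL d (toLocalField eL (algebraMap K L x)) =
      toLocalField eL (algebraMap K L x) := by
  rw [stabToGalRelQ_toLocalField, AlgEquiv.commutes]

/-- `kqEmb y` as an element of `ℚ_q(eL L)`. -/
noncomputable def kqToLocal : Kq K eL →+* localFieldOf eL :=
  (kqEmb K eL).toRingHom.codRestrict (localFieldOf eL).toSubring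
    (fun y => localFieldOf_resEmb_le K eL (kqEmb_mem K eL y))

@[simp] theorem coe_kqToLocal (y : Kq K eL) :
    ((kqToLocal K eL y : localFieldOf eL) : PadicAlgCl q) = kqEmb K eL y := rfl

theorem kqToLocal_mk_tmul (x : K) (c : ℚ_[q]) :
    kqToLocal K eL (Ideal.Quotient.mk _ (x ⊗ₜ c)) =
      toLocalField eL (algebraMap K L x) * algebraMap ℚ_[q] (localFieldOf eL) c := by
  apply Subtype.ext
  rw [coe_kqToLocal, kqEmb_mk_tmul]
  rfl

/-- an automorphism of `ℚ_q(eL L)/ℚ_q` fixing `eL K` pointwise fixes the image of `K_𝔪`. -/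
theorem apply_kqToLocal_of_fixes (σ : localFieldOf eL ≃ₐ[ℚ_[q]] localFieldOf eL)
    (hσ : ∀ x : K, σ (toLocalField eL (algebraMap K L x)) = toLocalField eL (algebraMap K L x))
    (y : Kq K eL) : σ (kqToLocal K eL y) = kqToLocal K eL y := by
  obtain ⟨b, rfl⟩ := Ideal.Quotient.mk_surjective y
  induction b using TensorProduct.induction_on with
  | zero => simp
  | tmul x c => rw [kqToLocal_mk_tmul, map_mul, hσ, AlgEquiv.commutes]
  | add a b ha hb => rw [map_add, map_add, map_add, ha, hb]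

theorem fieldRelEquiv_algebraMap (y : Kq K eL) :
    fieldRelEquiv K eL (algebraMap (Kq K eL) (fieldRel K eL) y) = kqToLocal K eL y := by
  apply Subtype.ext
  rw [coe_fieldRelEquiv, coe_kqToLocal]
  rfl

/-- **For `L/K` Galois the image of `stabToGalRelQ` is exactly the group of automorphisms of
`ℚ_q(eL L)/ℚ_q` fixing `eL K` pointwise**, i.e. `Gal(ℚ_q(eL L)/ℚ_q(eL K))`. -/
theorem exists_stabToGalRelQ_eq [IsGalois K L]
    (σ : localFieldOf eL ≃ₐ[ℚ_[q]] localFieldOf eL)
    (hσ : ∀ x : K, σ (toLocalField eL (algebraMap K L x)) = toLocalField eL (algebraMap K L x)) :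
    ∃ d : MulAction.stabilizer (L ≃ₐ[K] L) (idealRel K eL), stabToGalRelQ K eL d = σ := by
  -- transport `σ` to `fieldRel` and make it `K_𝔪`-linear
  let σ' : fieldRel K eL ≃ₐ[ℚ_[q]] fieldRel K eL := (AlgEquiv.autCongr (fieldRelEquiv K eL)).symm σ
  have hσ' : ∀ z : fieldRel K eL, σ' z = (fieldRelEquiv K eL).symm (σ (fieldRelEquiv K eL z)) :=
    fun z => rfl
  let σ'' : fieldRel K eL ≃ₐ[Kq K eL] fieldRel K eL :=
    { σ' with
      commutes' := fun y => by
        change σ' (algebraMap (Kq K eL) (fieldRel K eL) y) = _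
        rw [hσ', fieldRelEquiv_algebraMap, apply_kqToLocal_of_fixes K eL σ hσ,
          ← fieldRelEquiv_algebraMap, AlgEquiv.symm_apply_apply] }
  obtain ⟨d, hd⟩ := (stabToGalRel_bijective K eL).2 σ''
  refine ⟨d, ?_⟩
  apply AlgEquiv.ext
  intro x
  rw [stabToGalRelQ_apply, hd]
  change fieldRelEquiv K eL (σ' ((fieldRelEquiv K eL).symm x)) = _
  rw [hσ', AlgEquiv.apply_symm_apply, AlgEquiv.apply_symm_apply]

theorem range_stabToGalRelQ [IsGalois K L] :
    ((stabToGalRelQ K eL).range : Set (localFieldOf eL ≃ₐ[ℚ_[q]] localFieldOf eL)) =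
      {σ | ∀ x : K, σ (toLocalField eL (algebraMap K L x)) = toLocalField eL (algebraMap K L x)} := by
  ext σ
  constructor
  · rintro ⟨d, rfl⟩
    exact fun x => stabToGalRelQ_fixes K eL d x
  · intro hσ
    obtain ⟨d, hd⟩ := exists_stabToGalRelQ_eq K eL σ hσ
    exact ⟨d, hd⟩

end Fermat.Agent.S55.Middle.SemilocalCompareRel
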