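/-
S55 / MIDDLE block (helper17): CHANGE OF BASIS.  Two bases of open normal subgroups which refine
each other have the same level-constant cochains and the same LC cohomology.

* `Refines 𝒰 𝒰'` : every member of `𝒰` contains a member of `𝒰'`;
* `idMor h A : Mor 𝒰 A 𝒰' A` (identity of the group, identity on coefficients);
* `C₀_eq … C₃_eq` : equality of the cochain submodules for mutually refining bases;
* `idMor_h0_bijective … idMor_h3_bijective`, and the transfer of `Vanish₂`, `Vanish₃`;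
* the instance: for an open subgroup `H`, `Defs.NBasis.sub 𝒰 H` and `ShapiroLC.subBasis 𝒰 H`
  refine each other (`sub_refines_subBasis`, `subBasis_refines_sub`).
-/
import Fermat.Agent.S55.Formal.LC
import Fermat.Agent.S55.Formal.Functor
import Fermat.Agent.S55.Bridge.ShapiroLC
import Fermat.Agent.S55.Middle.Defs

set_option autoImplicit false
set_option linter.unusedSectionVars false

open CategoryTheory groupCohomology

namespace Fermat.Agent.S55.Middle.BasisChange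

open Fermat.Agent.S55.Formal

variable {k : Type} [CommRing k] {G : Type} [Group G]

/-- every member of `𝒰` contains a member of `𝒰'` -/
def Refines (𝒰 𝒰' : NBasis G) : Prop := ∀ U, 𝒰.mem U → ∃ U', 𝒰'.mem U' ∧ U' ≤ U

theorem Refines.isCont {𝒰 𝒰' : NBasis G} (h : Refines 𝒰 𝒰') : IsCont 𝒰 𝒰' (MonoidHom.id G) := by
  intro U hU
  obtain ⟨U', h1, h2⟩ := h U hU
  exact ⟨U', h1, fun s hs => h2 hs⟩

theorem refines_refl (𝒰 : NBasis G) : Refines 𝒰 𝒰 := fun U hU => ⟨U, hU, le_rfl⟩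

variable {𝒰 𝒰' : NBasis G}

/-- the identity, as a morphism of situations from `𝒰` to a refining basis `𝒰'` -/
def idMor (h : Refines 𝒰 𝒰') (A : Rep.{0, 0, 0} k G) : Mor 𝒰 A 𝒰' A where
  f := MonoidHom.id G
  cont := h.isCont
  φ := LinearMap.id
  equivar _ _ := rfl

section mono

variable (A : Rep.{0, 0, 0} k G)

theorem isLC₀_mono (h : Refines 𝒰 𝒰') {m : A} (hm : IsLC₀ 𝒰 A m) : IsLC₀ 𝒰' A m := by
  obtain ⟨U, hU, hs⟩ := hm
  obtain ⟨U', hU', hle⟩ := h U hU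
  exact ⟨U', hU', fun s hs' => hs s (hle hs')⟩

theorem isLC₁_mono (h : Refines 𝒰 𝒰') {f : G → A} (hf : IsLC₁ 𝒰 A f) : IsLC₁ 𝒰' A f := by
  obtain ⟨U, hU, hs⟩ := hf
  obtain ⟨U', hU', hle⟩ := h U hU
  exact ⟨U', hU', fun s hs' => hs s (hle hs')⟩

theorem isLC₂_mono (h : Refines 𝒰 𝒰') {f : G × G → A} (hf : IsLC₂ 𝒰 A f) : IsLC₂ 𝒰' A f := by
  obtain ⟨U, hU, hs⟩ := hf
  obtain ⟨U', hU', hle⟩ := h U hU
  exact ⟨U', hU', fun s hs' => hs s (hle hs')⟩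

theorem isLC₃_mono (h : Refines 𝒰 𝒰') {f : G × G × G → A} (hf : IsLC₃ 𝒰 A f) :
    IsLC₃ 𝒰' A f := by
  obtain ⟨U, hU, hs⟩ := hf
  obtain ⟨U', hU', hle⟩ := h U hU
  exact ⟨U', hU', fun s hs' => hs s (hle hs')⟩

theorem C₀_eq (h : Refines 𝒰 𝒰') (h' : Refines 𝒰' 𝒰) : C₀ 𝒰 A = C₀ 𝒰' A :=
  le_antisymm (fun _ hm => isLC₀_mono A h hm) (fun _ hm => isLC₀_mono A h' hm)

theorem C₁_eq (h : Refines 𝒰 𝒰') (h' : Refines 𝒰' 𝒰) : C₁ 𝒰 A = C₁ 𝒰' A :=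
  le_antisymm (fun _ hm => isLC₁_mono A h hm) (fun _ hm => isLC₁_mono A h' hm)

theorem C₂_eq (h : Refines 𝒰 𝒰') (h' : Refines 𝒰' 𝒰) : C₂ 𝒰 A = C₂ 𝒰' A :=
  le_antisymm (fun _ hm => isLC₂_mono A h hm) (fun _ hm => isLC₂_mono A h' hm)

theorem C₃_eq (h : Refines 𝒰 𝒰') (h' : Refines 𝒰' 𝒰) : C₃ 𝒰 A = C₃ 𝒰' A :=
  le_antisymm (fun _ hm => isLC₃_mono A h hm) (fun _ hm => isLC₃_mono A h' hm)

end mono

section bijective

variable (A : Rep.{0, 0, 0} k G)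

theorem idMor_comp_idMor (h : Refines 𝒰 𝒰') (h' : Refines 𝒰' 𝒰) :
    (idMor h A).comp (idMor h' A) = Mor.ofHom 𝒰 (𝟙 A) :=
  Functor.mor_ext rfl rfl

theorem idMor_h0_comp (h : Refines 𝒰 𝒰') (h' : Refines 𝒰' 𝒰) :
    (idMor h' A).h0 ∘ₗ (idMor h A).h0 = LinearMap.id := by
  rw [← Functor.comp_h0, idMor_comp_idMor, Functor.ofHom_id_h0]

theorem idMor_h1_comp (h : Refines 𝒰 𝒰') (h' : Refines 𝒰' 𝒰) :
    (idMor h' A).h1 ∘ₗ (idMor h A).h1 = LinearMap.id := by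
  rw [← Functor.comp_h1, idMor_comp_idMor, Functor.ofHom_id_h1]

theorem idMor_h2_comp (h : Refines 𝒰 𝒰') (h' : Refines 𝒰' 𝒰) :
    (idMor h' A).h2 ∘ₗ (idMor h A).h2 = LinearMap.id := by
  rw [← Functor.comp_h2, idMor_comp_idMor, Functor.ofHom_id_h2]

theorem idMor_h3_comp (h : Refines 𝒰 𝒰') (h' : Refines 𝒰' 𝒰) :
    (idMor h' A).h3 ∘ₗ (idMor h A).h3 = LinearMap.id := by
  rw [← Functor.comp_h3, idMor_comp_idMor, Functor.ofHom_id_h3]

private lemma bij_of_comp {X Y : Type} [AddCommGroup X] [Module k X] [AddCommGroup Y] [Module k Y]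
    (a : X →ₗ[k] Y) (b : Y →ₗ[k] X) (hba : b ∘ₗ a = LinearMap.id) (hab : a ∘ₗ b = LinearMap.id) :
    Function.Bijective a :=
  ⟨fun x y hxy => by
      have := congrArg b hxy
      rwa [← LinearMap.comp_apply, ← LinearMap.comp_apply, hba] at this,
    fun y => ⟨b y, by rw [← LinearMap.comp_apply, hab]; rfl⟩⟩

theorem idMor_h0_bijective (h : Refines 𝒰 𝒰') (h' : Refines 𝒰' 𝒰) :
    Function.Bijective (idMor h A).h0 :=
  bij_of_comp _ _ (idMor_h0_comp A h h') (idMor_h0_comp A h' h)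

theorem idMor_h1_bijective (h : Refines 𝒰 𝒰') (h' : Refines 𝒰' 𝒰) :
    Function.Bijective (idMor h A).h1 :=
  bij_of_comp _ _ (idMor_h1_comp A h h') (idMor_h1_comp A h' h)

theorem idMor_h2_bijective (h : Refines 𝒰 𝒰') (h' : Refines 𝒰' 𝒰) :
    Function.Bijective (idMor h A).h2 :=
  bij_of_comp _ _ (idMor_h2_comp A h h') (idMor_h2_comp A h' h)

theorem idMor_h3_bijective (h : Refines 𝒰 𝒰') (h' : Refines 𝒰' 𝒰) :
    Function.Bijective (idMor h A).h3 :=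
  bij_of_comp _ _ (idMor_h3_comp A h h') (idMor_h3_comp A h' h)

/-- `Vanish₃` does not depend on the basis, up to mutual refinement. -/
theorem vanish₃_of_refines (h : Refines 𝒰 𝒰') (h' : Refines 𝒰' 𝒰) (hv : Vanish₃ 𝒰 A) :
    Vanish₃ 𝒰' A := by
  intro f hf
  have hf' : (f : G × G × G → A) ∈ C₃ 𝒰 A := isLC₃_mono A h' f.2
  obtain ⟨b, hb⟩ := hv ⟨f, hf'⟩ hf
  refine ⟨⟨b, isLC₂_mono A h b.2⟩, ?_⟩
  apply Subtype.ext
  have := congrArg Subtype.val hb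
  exact this

/-- `Vanish₂` does not depend on the basis, up to mutual refinement. -/
theorem vanish₂_of_refines (h : Refines 𝒰 𝒰') (h' : Refines 𝒰' 𝒰) (hv : Vanish₂ 𝒰 A) :
    Vanish₂ 𝒰' A := by
  intro f hf
  have hf' : (f : G × G → A) ∈ C₂ 𝒰 A := isLC₂_mono A h' f.2
  have hf0 : dC₂ 𝒰 A ⟨f, hf'⟩ = 0 := by
    apply Subtype.ext
    have := congrArg Subtype.val hf
    exact this
  obtain ⟨b, hb⟩ := hv ⟨f, hf'⟩ hf0
  refine ⟨⟨b, isLC₁_mono A h b.2⟩, ?_⟩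
  apply Subtype.ext
  have := congrArg Subtype.val hb
  exact this

/-- vanishing of `H¹` (explicit form) does not depend on the basis, up to mutual refinement. -/
theorem vanish₁_of_refines (h : Refines 𝒰 𝒰') (h' : Refines 𝒰' 𝒰)
    (hv : ∀ f : ↥(C₁ 𝒰 A), dC₁ 𝒰 A f = 0 → ∃ m : ↥(C₀ 𝒰 A), dC₀ 𝒰 A m = f) :
    ∀ f : ↥(C₁ 𝒰' A), dC₁ 𝒰' A f = 0 → ∃ m : ↥(C₀ 𝒰' A), dC₀ 𝒰' A m = f := by
  intro f hf
  have hf' : (f : G → A) ∈ C₁ 𝒰 A := isLC₁_mono A h' f.2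
  have hf0 : dC₁ 𝒰 A ⟨f, hf'⟩ = 0 := by
    apply Subtype.ext
    have := congrArg Subtype.val hf
    exact this
  obtain ⟨b, hb⟩ := hv ⟨f, hf'⟩ hf0
  refine ⟨⟨b, isLC₀_mono A h b.2⟩, ?_⟩
  apply Subtype.ext
  have := congrArg Subtype.val hb
  exact this

end bijective

/-! ### the two induced bases on an open subgroup -/

section sub

open Fermat.Agent.S55.Bridge.ShapiroLC Fermat.Agent.S55.Middle.Defs

variable (𝒰 : NBasis G) (H : Subgroup G)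

theorem sub_refines_subBasis : Refines (NBasis.sub 𝒰 H) (subBasis 𝒰 H) := by
  rintro V (rfl | ⟨W, hW, -, rfl⟩)
  · exact ⟨(⊤ : Subgroup G).subgroupOf H, ⟨⊤, 𝒰.top, rfl⟩, le_top⟩
  · exact ⟨W.subgroupOf H, ⟨W, hW, rfl⟩, le_rfl⟩

theorem subBasis_refines_sub (hH : IsOpenSub 𝒰 H) : Refines (subBasis 𝒰 H) (NBasis.sub 𝒰 H) := by
  rintro V ⟨N, hN, rfl⟩
  obtain ⟨W, hW, hWH⟩ := hH
  obtain ⟨W', hW', hle⟩ := 𝒰.inf hN hW
  refine ⟨W'.subgroupOf H, Or.inr ⟨W', hW', fun x hx => hWH (hle hx).2, rfl⟩, ?_⟩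
  intro x hx
  exact Subgroup.mem_subgroupOf.2 (hle (Subgroup.mem_subgroupOf.1 hx)).1

end sub

end Fermat.Agent.S55.Middle.BasisChange
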