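/-
S55 / Middle, row M.count.kummer (helper10): the FINITE-LEVEL KUMMER PAIRING.

`E/F` a finite Galois extension of fields, `p` a prime, `ζ : F` a primitive `p`-th root of unity,
`G = Gal(E/F)`.

* `rootable F E p : Subgroup Fˣ` : the elements of `Fˣ` having a `p`-th root in `E`;
  `pPow F p : Subgroup Fˣ` : the `p`-th powers.
* `chi α h : G →* rootsOfUnity p E`, `σ ↦ σ α / α` for `α : Eˣ` with `α ^ p ∈ F`.
* `kappa hζ : rootable F E p →* (G →* rootsOfUnity p E)`, the Kummer homomorphism, with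
  `kappa_apply` (any root computes it), `ker_kappa` (kernel `= (Fˣ)^p`), `kappa_surjective`
  (Mathlib's Hilbert 90).
* `card_hom_rootsOfUnity`, `card_hom_zmod` :
  `#Hom(G, μ_p) = #Hom(G, ℤ/p) = [rootable : (Fˣ)^p]`.
* `card_hom_zmod_le_index` (UP) : `#Hom(G, ℤ/p) ≤ [Fˣ : (Fˣ)^p]` when the latter is finite.
* `relIndex_le_card_hom_zmod` (LOW) : `(Fˣ)^p ≤ V ≤ rootable ⇒ [V : (Fˣ)^p] ≤ #Hom(G, ℤ/p)`.
-/
import Mathlib

set_option autoImplicit false
set_option linter.unusedSectionVars false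
set_option linter.style.haveILetI false

namespace Fermat.Agent.S55.Middle.KummerFinite

open groupCohomology

section Basic

variable (F E : Type*) [Field F] [Field E] [Algebra F E] (p : ℕ)

/-- the inclusion `Fˣ → Eˣ` -/
abbrev incl : Fˣ →* Eˣ := Units.map (algebraMap F E : F →* E)

lemma incl_injective : Function.Injective (incl F E) :=
  Units.map_injective (algebraMap F E).injective

/-- the elements of `Fˣ` having a `p`-th root in `E` -/
def rootable : Subgroup Fˣ := ((powMonoidHom p : Eˣ →* Eˣ).range).comap (incl F E)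

/-- the `p`-th powers in `Fˣ` -/
def pPow : Subgroup Fˣ := (powMonoidHom p : Fˣ →* Fˣ).range

variable {F E p}

lemma mem_rootable {a : Fˣ} : a ∈ rootable F E p ↔ ∃ α : Eˣ, α ^ p = incl F E a := by
  simp only [rootable, Subgroup.mem_comap, MonoidHom.mem_range, powMonoidHom_apply]

lemma mem_pPow {a : Fˣ} : a ∈ pPow F p ↔ ∃ b : Fˣ, b ^ p = a := by
  simp only [pPow, MonoidHom.mem_range, powMonoidHom_apply]

variable (F E p) in
lemma pPow_le_rootable : pPow F p ≤ rootable F E p := by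
  intro a ha
  obtain ⟨b, rfl⟩ := mem_pPow.1 ha
  exact mem_rootable.2 ⟨incl F E b, by rw [map_pow]⟩

end Basic

section Galois

variable {F E : Type*} [Field F] [Field E] [Algebra F E] [FiniteDimensional F E] [IsGalois F E]
variable {p : ℕ} [hp : Fact p.Prime] {ζ : F}

/-- the automorphisms fix the image of `Fˣ` -/
lemma smul_incl (σ : E ≃ₐ[F] E) (a : Fˣ) : σ • incl F E a = incl F E a := by
  ext
  simp [AlgEquiv.smul_units_def]

/-- the `p`-th roots of unity of `E` lie in `F`, hence are fixed by the Galois group -/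
lemma smul_root_eq (hζ : IsPrimitiveRoot ζ p) (η : Eˣ) (hη : η ^ p = 1) (σ : E ≃ₐ[F] E) :
    σ • η = η := by
  haveI : NeZero p := ⟨hp.out.ne_zero⟩
  have hζE := hζ.map_of_injective (algebraMap F E).injective
  have h1 : (η : E) ^ p = 1 := by
    rw [← Units.val_pow_eq_pow_val, hη, Units.val_one]
  obtain ⟨i, -, hi⟩ := hζE.eq_pow_of_pow_eq_one h1
  ext
  simp only [AlgEquiv.smul_units_def, Units.coe_map, MonoidHom.coe_coe]
  rw [← hi, map_pow, AlgEquiv.commutes]

/-- a unit of `E` fixed by the Galois group comes from `F` -/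
lemma exists_incl_eq_of_fixed (β : Eˣ) (h : ∀ σ : E ≃ₐ[F] E, σ • β = β) :
    ∃ b : Fˣ, incl F E b = β := by
  have h' : ∀ σ : E ≃ₐ[F] E, σ (β : E) = β := fun σ => by
    have := congrArg Units.val (h σ)
    simpa [AlgEquiv.smul_units_def] using this
  obtain ⟨b, hb⟩ := (IsGalois.mem_range_algebraMap_iff_fixed (F := F) (E := E) (β : E)).2 h'
  have hb0 : b ≠ 0 := by
    rintro rfl
    rw [map_zero] at hb
    exact β.ne_zero hb.symm
  exact ⟨Units.mk0 b hb0, Units.ext (by simpa using hb)⟩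

/-- the Kummer character `σ ↦ σ α / α` of an `α : Eˣ` with `α ^ p ∈ Fˣ` -/
noncomputable def chi (hζ : IsPrimitiveRoot ζ p) (α : Eˣ) (hα : ∃ a : Fˣ, α ^ p = incl F E a) :
    (E ≃ₐ[F] E) →* rootsOfUnity p E where
  toFun σ := ⟨σ • α / α, by
    obtain ⟨a, ha⟩ := hα
    rw [mem_rootsOfUnity, div_pow, ← smul_pow', ha, smul_incl, div_self']⟩
  map_one' := by
    ext
    simp
  map_mul' σ τ := by
    have hτ : (τ • α / α) ^ p = 1 := by
      obtain ⟨a, ha⟩ := hα
      rw [div_pow, ← smul_pow', ha, smul_incl, div_self']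
    have h1 := smul_root_eq hζ (τ • α / α) hτ σ
    apply Subtype.ext
    show (σ * τ) • α / α = (σ • α / α) * (τ • α / α)
    rw [mul_smul]
    have h2 : σ • (τ • α) = σ • ((τ • α / α) * α) := by rw [div_mul_cancel]
    rw [h2, smul_mul', h1]
    rw [mul_div_assoc, mul_comm]

@[simp] lemma chi_apply_coe (hζ : IsPrimitiveRoot ζ p) (α : Eˣ)
    (hα : ∃ a : Fˣ, α ^ p = incl F E a) (σ : E ≃ₐ[F] E) :
    ((chi hζ α hα σ : rootsOfUnity p E) : Eˣ) = σ • α / α := rfl

lemma chi_mul (hζ : IsPrimitiveRoot ζ p) (α β : Eˣ) (hα : ∃ a : Fˣ, α ^ p = incl F E a)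
    (hβ : ∃ a : Fˣ, β ^ p = incl F E a) (hαβ : ∃ a : Fˣ, (α * β) ^ p = incl F E a) :
    chi hζ (α * β) hαβ = chi hζ α hα * chi hζ β hβ := by
  ext σ
  simp only [chi_apply_coe, MonoidHom.mul_apply, Subgroup.coe_mul, smul_mul', Units.val_mul,
    Units.val_div_eq_div_val]
  rw [mul_div_mul_comm]

lemma chi_eq_one_iff (hζ : IsPrimitiveRoot ζ p) (α : Eˣ) (hα : ∃ a : Fˣ, α ^ p = incl F E a) :
    chi hζ α hα = 1 ↔ ∃ b : Fˣ, incl F E b = α := by
  constructor
  · intro h
    apply exists_incl_eq_of_fixed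
    intro σ
    have := congrArg (fun f => ((f σ : rootsOfUnity p E) : Eˣ)) h
    simp only [chi_apply_coe, MonoidHom.one_apply, OneMemClass.coe_one] at this
    exact div_eq_one.1 this
  · rintro ⟨b, rfl⟩
    ext σ
    simp only [chi_apply_coe, MonoidHom.one_apply, OneMemClass.coe_one, smul_incl, div_self']

/-- two `p`-th roots of the same element have the same Kummer character -/
lemma chi_eq_of_pow_eq (hζ : IsPrimitiveRoot ζ p) (α β : Eˣ) (hα : ∃ a : Fˣ, α ^ p = incl F E a)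
    (hβ : ∃ a : Fˣ, β ^ p = incl F E a) (h : α ^ p = β ^ p) : chi hζ α hα = chi hζ β hβ := by
  have hη : (α / β) ^ p = 1 := by rw [div_pow, h, div_self']
  ext σ
  simp only [chi_apply_coe]
  have h1 := smul_root_eq hζ (α / β) hη σ
  have h2 : σ • α = σ • ((α / β) * β) := by rw [div_mul_cancel]
  rw [h2, smul_mul', h1, Units.val_div_eq_div_val, Units.val_div_eq_div_val, Units.val_mul,
    Units.val_div_eq_div_val]
  field_simp

/-- a chosen `p`-th root -/
noncomputable def root (a : rootable F E p) : Eˣ := (mem_rootable.1 a.2).choose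

lemma root_pow (a : rootable F E p) : root a ^ p = incl F E (a : Fˣ) :=
  (mem_rootable.1 a.2).choose_spec

/-- **The Kummer homomorphism** `a ↦ (σ ↦ σ(a^{1/p}) / a^{1/p})`. -/
noncomputable def kappa (hζ : IsPrimitiveRoot ζ p) :
    rootable F E p →* ((E ≃ₐ[F] E) →* rootsOfUnity p E) where
  toFun a := chi hζ (root a) ⟨a, root_pow a⟩
  map_one' := by
    rw [chi_eq_one_iff]
    have h : (root (1 : rootable F E p)) ^ p = 1 := by
      rw [root_pow]; simp
    have hfix : ∀ σ : E ≃ₐ[F] E, σ • root (1 : rootable F E p) = root (1 : rootable F E p) :=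
      fun σ => smul_root_eq hζ _ h σ
    exact exists_incl_eq_of_fixed _ hfix
  map_mul' a b := by
    have hab : ∃ c : Fˣ, (root a * root b) ^ p = incl F E c :=
      ⟨(a * b : rootable F E p), by
        rw [mul_pow, root_pow, root_pow, Subgroup.coe_mul, map_mul]⟩
    rw [← chi_mul hζ (root a) (root b) ⟨a, root_pow a⟩ ⟨b, root_pow b⟩ hab]
    apply chi_eq_of_pow_eq
    rw [root_pow, mul_pow, root_pow, root_pow, Subgroup.coe_mul, map_mul]

/-- any `p`-th root computes the Kummer character -/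
lemma kappa_apply (hζ : IsPrimitiveRoot ζ p) (a : rootable F E p) (α : Eˣ)
    (hα : α ^ p = incl F E (a : Fˣ)) (σ : E ≃ₐ[F] E) :
    ((kappa hζ a σ : rootsOfUnity p E) : Eˣ) = σ • α / α := by
  have : kappa hζ a = chi hζ α ⟨a, hα⟩ :=
    chi_eq_of_pow_eq hζ (root a) α ⟨a, root_pow a⟩ ⟨a, hα⟩ (by rw [root_pow, hα])
  rw [this, chi_apply_coe]

lemma kappa_eq_one_iff (hζ : IsPrimitiveRoot ζ p) (a : rootable F E p) :
    kappa hζ a = 1 ↔ (a : Fˣ) ∈ pPow F p := by
  show chi hζ (root a) ⟨a, root_pow a⟩ = 1 ↔ _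
  rw [chi_eq_one_iff, mem_pPow]
  constructor
  · rintro ⟨b, hb⟩
    refine ⟨b, incl_injective F E ?_⟩
    rw [map_pow, hb, root_pow]
  · rintro ⟨b, hb⟩
    -- `root a / incl b` is a root of unity, hence in `F`
    have hη : (root a / incl F E b) ^ p = 1 := by
      rw [div_pow, root_pow, ← map_pow, hb, div_self']
    have hfix : ∀ σ : E ≃ₐ[F] E, σ • (root a / incl F E b) = root a / incl F E b :=
      fun σ => smul_root_eq hζ _ hη σ
    obtain ⟨c, hc⟩ := exists_incl_eq_of_fixed _ hfix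
    refine ⟨c * b, ?_⟩
    rw [map_mul, hc, div_mul_cancel]

/-- the kernel of the Kummer homomorphism is the group of `p`-th powers -/
lemma ker_kappa (hζ : IsPrimitiveRoot ζ p) :
    (kappa (E := E) hζ).ker = (pPow F p).subgroupOf (rootable F E p) := by
  ext a
  rw [MonoidHom.mem_ker, kappa_eq_one_iff, Subgroup.mem_subgroupOf]

/-- **Surjectivity of the Kummer homomorphism** (Hilbert 90). -/
theorem kappa_surjective (hζ : IsPrimitiveRoot ζ p) :
    Function.Surjective (kappa (E := E) hζ) := by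
  intro f
  -- the cocycle
  have hcoc : IsMulCocycle₁ (fun σ : E ≃ₐ[F] E => ((f σ : rootsOfUnity p E) : Eˣ)) := by
    intro σ τ
    have h1 : σ • ((f τ : rootsOfUnity p E) : Eˣ) = f τ :=
      smul_root_eq hζ _ ((mem_rootsOfUnity _ _).1 (f τ).2) σ
    show ((f (σ * τ) : rootsOfUnity p E) : Eˣ) = σ • ((f τ : rootsOfUnity p E) : Eˣ) * (f σ : Eˣ)
    rw [h1, map_mul, Subgroup.coe_mul, mul_comm]
  obtain ⟨β, hβ'⟩ := isMulCoboundary₁_of_isMulCocycle₁_of_aut_to_units _ hcoc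
  have hβ : ∀ σ : E ≃ₐ[F] E, σ • β / β = ((f σ : rootsOfUnity p E) : Eˣ) := hβ'
  -- `β ^ p` is fixed
  have hfix : ∀ σ : E ≃ₐ[F] E, σ • (β ^ p) = β ^ p := by
    intro σ
    have h1 : σ • β = (f σ : Eˣ) * β := by rw [← hβ σ, div_mul_cancel]
    have h2 : ((f σ : rootsOfUnity p E) : Eˣ) ^ p = 1 := (mem_rootsOfUnity _ _).1 (f σ).2
    rw [smul_pow', h1, mul_pow, h2, one_mul]
  obtain ⟨a, ha⟩ := exists_incl_eq_of_fixed _ hfix
  have hmem : a ∈ rootable F E p := mem_rootable.2 ⟨β, ha.symm⟩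
  refine ⟨⟨a, hmem⟩, ?_⟩
  ext σ
  rw [kappa_apply hζ ⟨a, hmem⟩ β ha.symm σ, hβ σ]

/-- `rootable / (Fˣ)^p ≃ Hom(G, μ_p)` -/
noncomputable def kummerEquiv (hζ : IsPrimitiveRoot ζ p) :
    (rootable F E p ⧸ (kappa (E := E) hζ).ker) ≃* ((E ≃ₐ[F] E) →* rootsOfUnity p E) :=
  QuotientGroup.quotientKerEquivOfSurjective _ (kappa_surjective hζ)

/-- `#Hom(G, μ_p) = [rootable : (Fˣ)^p]` -/
theorem card_hom_rootsOfUnity (hζ : IsPrimitiveRoot ζ p) :
    Nat.card ((E ≃ₐ[F] E) →* rootsOfUnity p E) = (pPow F p).relIndex (rootable F E p) := by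
  rw [← Nat.card_congr (kummerEquiv (E := E) hζ).toEquiv, ker_kappa]
  rfl

/-- `μ_p(E) ≃ ℤ/p` -/
noncomputable def rootsEquivZMod (hζ : IsPrimitiveRoot ζ p) :
    rootsOfUnity p E ≃* Multiplicative (ZMod p) := by
  haveI : NeZero p := ⟨hp.out.ne_zero⟩
  have hζE := hζ.map_of_injective (algebraMap F E).injective
  have hu := hζE.isUnit_unit hp.out.ne_zero
  exact ((MulEquiv.subgroupCongr hu.zpowers_eq).symm.trans
    (AddEquiv.toMultiplicativeLeft hu.zmodEquivZPowers).symm)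

/-- `#Hom(G, ℤ/p) = [rootable : (Fˣ)^p]` -/
theorem card_hom_zmod (hζ : IsPrimitiveRoot ζ p) :
    Nat.card ((E ≃ₐ[F] E) →* Multiplicative (ZMod p)) =
      (pPow F p).relIndex (rootable F E p) := by
  rw [← card_hom_rootsOfUnity (E := E) hζ]
  exact Nat.card_congr (MulEquiv.monoidHomCongrRightEquiv (rootsEquivZMod (E := E) hζ)).symm

instance : Finite ((E ≃ₐ[F] E) →* Multiplicative (ZMod p)) :=
  Finite.of_injective (fun f => (f : (E ≃ₐ[F] E) → Multiplicative (ZMod p)))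
    DFunLike.coe_injective

lemma card_hom_zmod_ne_zero : Nat.card ((E ≃ₐ[F] E) →* Multiplicative (ZMod p)) ≠ 0 :=
  Nat.card_pos.ne'

/-- (UP) `#Hom(G, ℤ/p) ≤ [Fˣ : (Fˣ)^p]` when the index is finite. -/
theorem card_hom_zmod_le_index (hζ : IsPrimitiveRoot ζ p) (hfin : (pPow F p).index ≠ 0) :
    Nat.card ((E ≃ₐ[F] E) →* Multiplicative (ZMod p)) ≤ (pPow F p).index := by
  rw [card_hom_zmod (E := E) hζ]
  exact Nat.le_of_dvd (Nat.pos_of_ne_zero hfin) (Subgroup.relIndex_dvd_index_of_normal _ _)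

/-- (UP, divisibility form) -/
theorem card_hom_zmod_dvd_index (hζ : IsPrimitiveRoot ζ p) :
    Nat.card ((E ≃ₐ[F] E) →* Multiplicative (ZMod p)) ∣ (pPow F p).index := by
  rw [card_hom_zmod (E := E) hζ]
  exact Subgroup.relIndex_dvd_index_of_normal _ _

/-- (LOW) for `V ≤ rootable`: `[V : (Fˣ)^p] ≤ #Hom(G, ℤ/p)`. -/
theorem relIndex_le_card_hom_zmod (hζ : IsPrimitiveRoot ζ p) (V : Subgroup Fˣ)
    (hV : V ≤ rootable F E p) :
    (pPow F p).relIndex V ≤ Nat.card ((E ≃ₐ[F] E) →* Multiplicative (ZMod p)) := by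
  have h0 := card_hom_zmod_ne_zero (F := F) (E := E) (p := p)
  rw [card_hom_zmod (E := E) hζ] at h0 ⊢
  exact Subgroup.relIndex_le_of_le_right hV h0

end Galois

end Fermat.Agent.S55.Middle.KummerFinite
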