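/-
S55 / Middle, row M.count.kummer (helper10), LC half: `H¹_LC(G; 𝔽_p)` with TRIVIAL coefficients
versus homomorphisms `G → ℤ/p` of finite level.

`G` a group with `𝒰 : NBasis G` (`Formal/LC.lean`), `p` a prime, `triv p = Rep.trivial 𝔽_p G 𝔽_p`.

* `HomLevel p U` : the homomorphisms `G →* Multiplicative (ZMod p)` which are trivial on `U`
  (`homLevelEquivQuotient` : `≃ (G ⧸ U →* Multiplicative (ZMod p))` for normal `U`).
* `finrank_H1_triv_le` (UP) : if `#HomLevel p U ≤ p ^ n` for every `U ∈ 𝒰`, then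
  `H¹_LC(G; 𝔽_p)` is finite-dimensional of dimension `≤ n`.
* `le_finrank_H1_triv` (LOW) : if `p ^ m ≤ #HomLevel p U` for some `U ∈ 𝒰` and `H¹_LC(G; 𝔽_p)` is
  finite-dimensional, then `m ≤ dim H¹_LC(G; 𝔽_p)`.
-/
import Fermat.Agent.S55.Formal.LC

set_option autoImplicit false
set_option linter.unusedSectionVars false
set_option linter.style.haveILetI false

open CategoryTheory groupCohomology Module

namespace Fermat.Agent.S55.Middle.KummerLC

open Fermat.Agent.S55.Formal

variable {G : Type} [Group G] (𝒰 : NBasis G) (p : ℕ) [hp : Fact p.Prime]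

/-- the trivial representation on `𝔽_p` -/
noncomputable abbrev triv : Rep.{0, 0, 0} (ZMod p) G := Rep.trivial (ZMod p) G (ZMod p)

/-- the homomorphisms `G → ℤ/p` which are trivial on `U` -/
def HomLevel (U : Subgroup G) : Type := {f : G →* Multiplicative (ZMod p) // U ≤ f.ker}

instance (U : Subgroup G) [U.FiniteIndex] : Finite (HomLevel p U) := by
  -- such a homomorphism is determined by the induced function on the finite set `G ⧸ U`
  refine Finite.of_injective
    (fun f : HomLevel p U => fun q : G ⧸ U => f.1 (Quotient.out q)) ?_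
  intro f g hfg
  apply Subtype.ext
  ext x
  have h := congrFun hfg (QuotientGroup.mk x : G ⧸ U)
  have key : ∀ f : HomLevel p U, f.1 (Quotient.out (QuotientGroup.mk x : G ⧸ U)) = f.1 x := by
    intro f
    have hx : (Quotient.out (QuotientGroup.mk x : G ⧸ U))⁻¹ * x ∈ U :=
      QuotientGroup.leftRel_apply.1 (Quotient.exact' (Quotient.out_eq' _))
    have h1 := f.2 hx
    rw [MonoidHom.mem_ker, map_mul, map_inv, inv_mul_eq_one] at h1
    exact h1
  simp only at h
  rw [key f, key g] at h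
  exact congrArg _ h

/-- for normal `U`, `HomLevel p U` is `Hom(G ⧸ U, ℤ/p)` -/
def homLevelEquivQuotient (U : Subgroup G) [U.Normal] :
    HomLevel p U ≃ ((G ⧸ U) →* Multiplicative (ZMod p)) where
  toFun f := QuotientGroup.lift U f.1 f.2
  invFun φ := ⟨φ.comp (QuotientGroup.mk' U), fun s hs => by
    rw [MonoidHom.mem_ker, MonoidHom.comp_apply, QuotientGroup.mk'_apply,
      (QuotientGroup.eq_one_iff s).2 hs, map_one]⟩
  left_inv f := by
    apply Subtype.ext
    ext x
    rfl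
  right_inv φ := by
    ext x
    rfl

/-- transport along an isomorphism `G ⧸ U ≃* Q` -/
lemma card_homLevel_eq {Q : Type*} [Group Q] (U : Subgroup G) [U.Normal] (e : (G ⧸ U) ≃* Q) :
    Nat.card (HomLevel p U) = Nat.card (Q →* Multiplicative (ZMod p)) :=
  Nat.card_congr ((homLevelEquivQuotient p U).trans (MulEquiv.monoidHomCongrLeftEquiv e))

/-! ### cocycles with trivial coefficients -/

/-- the LC `1`-cocycles with values in `𝔽_p` -/
abbrev Z1 : Type := ↥(LinearMap.ker (dC₁ 𝒰 (triv (G := G) p)))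

variable {𝒰 p}

lemma Z1_map_mul (z : Z1 𝒰 p) (g h : G) :
    (z.1 : G → ZMod p) (g * h) = (z.1 : G → ZMod p) g + (z.1 : G → ZMod p) h := by
  have h0 : dC₁ 𝒰 (triv p) z.1 = 0 := LinearMap.mem_ker.1 z.2
  have h1 := congrFun (congrArg Subtype.val h0) (g, h)
  simp only [dC₁_coe, d₁₂_hom_apply, ZeroMemClass.coe_zero, Pi.zero_apply] at h1
  have h2 : (triv (G := G) p).ρ g ((z.1 : G → ZMod p) h) = (z.1 : G → ZMod p) h := rfl
  rw [h2] at h1
  have h3 : (z.1 : G → ZMod p) h - (z.1 : G → ZMod p) (g * h) + (z.1 : G → ZMod p) g = 0 := h1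
  linear_combination (-1 : ZMod p) * h3

/-- the homomorphism attached to a cocycle -/
def Z1.toHom (z : Z1 𝒰 p) : G →* Multiplicative (ZMod p) where
  toFun g := Multiplicative.ofAdd ((z.1 : G → ZMod p) g)
  map_one' := by
    have := Z1_map_mul z 1 1
    rw [mul_one] at this
    have h0 : (z.1 : G → ZMod p) 1 = 0 := by linear_combination (-1 : ZMod p) * this
    rw [h0]; rfl
  map_mul' g h := by rw [Z1_map_mul, ofAdd_add]

@[simp] lemma Z1.toHom_apply (z : Z1 𝒰 p) (g : G) :
    Z1.toHom z g = Multiplicative.ofAdd ((z.1 : G → ZMod p) g) := rfl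

lemma Z1.toHom_injective : Function.Injective (Z1.toHom : Z1 𝒰 p → _) := by
  intro z w h
  apply Subtype.ext
  apply Subtype.ext
  funext g
  have := congrArg (fun f : G →* Multiplicative (ZMod p) => Multiplicative.toAdd (f g)) h
  simpa using this

variable (𝒰 p)

/-- the cocycles of level `U` -/
def Z1Level (U : Subgroup G) : Submodule (ZMod p) (Z1 𝒰 p) where
  carrier := {z | ∀ s ∈ U, (z.1 : G → ZMod p) s = 0}
  add_mem' := by
    intro a b ha hb s hs
    show (a.1 : G → ZMod p) s + (b.1 : G → ZMod p) s = 0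
    rw [ha s hs, hb s hs, add_zero]
  zero_mem' := fun s _ => rfl
  smul_mem' := by
    intro c a ha s hs
    show c • (a.1 : G → ZMod p) s = 0
    rw [ha s hs, smul_zero]

variable {𝒰 p}

lemma exists_level (z : Z1 𝒰 p) : ∃ U, 𝒰.mem U ∧ z ∈ Z1Level 𝒰 p U := by
  obtain ⟨U, hU, h⟩ := z.1.2
  refine ⟨U, hU, fun s hs => ?_⟩
  have h1 := (h s hs 1).1
  rw [one_mul] at h1
  have h2 := Z1_map_mul z 1 1
  rw [mul_one] at h2
  have h0 : (z.1 : G → ZMod p) 1 = 0 := by linear_combination (-1 : ZMod p) * h2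
  rw [h1, h0]

lemma Z1Level_mono {U V : Subgroup G} (h : U ≤ V) : Z1Level 𝒰 p V ≤ Z1Level 𝒰 p U :=
  fun _ hz s hs => hz s (h hs)

/-- finitely many cocycles have a common level -/
lemma exists_common_level (s : Finset (Z1 𝒰 p)) :
    ∃ U, 𝒰.mem U ∧ ∀ z ∈ s, z ∈ Z1Level 𝒰 p U := by
  classical
  induction s using Finset.induction with
  | empty => exact ⟨⊤, 𝒰.top, fun z hz => absurd hz (Finset.notMem_empty z)⟩
  | insert a s _ ih =>
    obtain ⟨U, hU, h⟩ := ih
    obtain ⟨V, hV, hz⟩ := exists_level a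
    obtain ⟨W, hW, hle⟩ := 𝒰.inf hU hV
    refine ⟨W, hW, fun z hzs => ?_⟩
    rcases Finset.mem_insert.1 hzs with rfl | hzs
    · exact Z1Level_mono (hle.trans inf_le_right) hz
    · exact Z1Level_mono (hle.trans inf_le_left) (h z hzs)

/-- cocycles of level `U` inject into `HomLevel p U` -/
def levelToHom (U : Subgroup G) (z : Z1Level 𝒰 p U) : HomLevel p U :=
  ⟨Z1.toHom z.1, fun s hs => by
    rw [MonoidHom.mem_ker, Z1.toHom_apply, z.2 s hs]; rfl⟩

lemma levelToHom_injective (U : Subgroup G) :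
    Function.Injective (levelToHom (𝒰 := 𝒰) (p := p) U) := by
  intro z w h
  apply Subtype.ext
  apply Z1.toHom_injective
  exact congrArg Subtype.val h

/-- a homomorphism of level `U ∈ 𝒰` is an LC cocycle -/
def homToZ1 {U : Subgroup G} (hU : 𝒰.mem U) (f : HomLevel p U) : Z1 𝒰 p :=
  ⟨⟨fun g => Multiplicative.toAdd (f.1 g), U, hU, fun s hs g => by
      have h1 : f.1 s = 1 := f.2 hs
      refine ⟨?_, rfl⟩
      show Multiplicative.toAdd (f.1 (g * s)) = Multiplicative.toAdd (f.1 g)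
      rw [map_mul, h1, mul_one]⟩, by
    rw [LinearMap.mem_ker]
    apply Subtype.ext
    funext ⟨g, h⟩
    simp only [dC₁_coe, d₁₂_hom_apply, ZeroMemClass.coe_zero, Pi.zero_apply]
    show Multiplicative.toAdd (f.1 h) - Multiplicative.toAdd (f.1 (g * h)) +
      Multiplicative.toAdd (f.1 g) = 0
    rw [map_mul, toAdd_mul]
    ring⟩

lemma homToZ1_injective {U : Subgroup G} (hU : 𝒰.mem U) :
    Function.Injective (homToZ1 (𝒰 := 𝒰) (p := p) hU) := by
  intro f g h
  apply Subtype.ext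
  ext x
  have h1 := congrFun (congrArg (fun z : Z1 𝒰 p => (z.1 : G → ZMod p)) h) x
  exact congrArg Multiplicative.ofAdd h1

/-- with trivial coefficients there are no nonzero coboundaries -/
lemma dC₀_triv_eq_zero : dC₀ 𝒰 (triv (G := G) p) = 0 := by
  apply LinearMap.ext
  intro m
  apply Subtype.ext
  funext g
  simp only [LinearMap.zero_apply, ZeroMemClass.coe_zero, Pi.zero_apply]
  exact sub_self _

/-- `H¹_LC(G; 𝔽_p)` is the space of cocycles -/
lemma mk_injective :
    Function.Injective (Hmid.mk (dC₀ 𝒰 (triv (G := G) p)) (dC₁ 𝒰 (triv (G := G) p))) := by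
  rw [injective_iff_map_eq_zero]
  intro z hz
  obtain ⟨a, ha⟩ := Hmid.mk_eq_zero_iff.1 hz
  apply Subtype.ext
  rw [← ha, dC₀_triv_eq_zero]
  rfl

/-- **(UP)** level-wise bound `⇒` dimension bound for the cocycles -/
theorem finrank_Z1_le (n : ℕ)
    (h : ∀ U, 𝒰.mem U → Nat.card (HomLevel p U) ≤ p ^ n) :
    Module.Finite (ZMod p) (Z1 𝒰 p) ∧ finrank (ZMod p) (Z1 𝒰 p) ≤ n := by
  classical
  have hrank : Module.rank (ZMod p) (Z1 𝒰 p) ≤ n := by
    apply rank_le
    intro s hs
    obtain ⟨U, hU, hsU⟩ := exists_common_level s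
    haveI := 𝒰.finiteIndex hU
    haveI : Finite (Z1Level 𝒰 p U) := Finite.of_injective _ (levelToHom_injective U)
    haveI : Module.Finite (ZMod p) (Z1Level 𝒰 p U) := Module.Finite.of_finite
    -- the family lifts to the level-`U` subspace
    have hli : LinearIndependent (ZMod p)
        (fun i : s => (⟨(i : Z1 𝒰 p), hsU i i.2⟩ : Z1Level 𝒰 p U)) := by
      apply LinearIndependent.of_comp (Z1Level 𝒰 p U).subtype
      exact hs
    have h1 := hli.fintype_card_le_finrank
    rw [Fintype.card_coe] at h1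
    refine h1.trans ?_
    have h2 : Nat.card (Z1Level 𝒰 p U) ≤ p ^ n :=
      (Nat.card_le_card_of_injective _ (levelToHom_injective U)).trans (h U hU)
    rw [Module.natCard_eq_pow_finrank (K := ZMod p), Nat.card_zmod] at h2
    exact (Nat.pow_le_pow_iff_right hp.out.one_lt).1 h2
  have hfin : Module.Finite (ZMod p) (Z1 𝒰 p) :=
    Module.rank_lt_aleph0_iff.1 (hrank.trans_lt (Cardinal.natCast_lt_aleph0))
  exact ⟨hfin, finrank_le_of_rank_le hrank⟩

/-- **(UP)** if `#Hom(G/U, ℤ/p) ≤ p ^ n` at every level `U ∈ 𝒰`, then `H¹_LC(G; 𝔽_p)` is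
finite-dimensional of dimension `≤ n`. -/
theorem finrank_H1_triv_le (n : ℕ)
    (h : ∀ U, 𝒰.mem U → Nat.card (HomLevel p U) ≤ p ^ n) :
    Module.Finite (ZMod p) (H1 𝒰 (triv (G := G) p)) ∧
      finrank (ZMod p) (H1 𝒰 (triv (G := G) p)) ≤ n := by
  obtain ⟨hfin, hle⟩ := finrank_Z1_le (𝒰 := 𝒰) (p := p) n h
  haveI := hfin
  refine ⟨Module.Finite.of_surjective _ (Hmid.mk_surjective _ _), ?_⟩
  exact (Submodule.finrank_quotient_le _).trans hle

/-- **(LOW)** if `p ^ m ≤ #Hom(G/U, ℤ/p)` for some level `U ∈ 𝒰` and `H¹_LC(G; 𝔽_p)` is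
finite-dimensional, then `m ≤ dim H¹_LC(G; 𝔽_p)`. -/
theorem le_finrank_H1_triv [Module.Finite (ZMod p) (H1 𝒰 (triv (G := G) p))] (m : ℕ)
    {U : Subgroup G} (hU : 𝒰.mem U) (h : p ^ m ≤ Nat.card (HomLevel p U)) :
    m ≤ finrank (ZMod p) (H1 𝒰 (triv (G := G) p)) := by
  haveI : Finite (H1 𝒰 (triv (G := G) p)) := Module.finite_of_finite (ZMod p)
  have hinj : Function.Injective
      (fun f : HomLevel p U => Hmid.mk (dC₀ 𝒰 (triv (G := G) p)) (dC₁ 𝒰 (triv (G := G) p))
        (homToZ1 hU f)) :=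
    mk_injective.comp (homToZ1_injective hU)
  have h1 := Nat.card_le_card_of_injective _ hinj
  rw [Module.natCard_eq_pow_finrank (K := ZMod p) (V := H1 𝒰 (triv (G := G) p)),
    Nat.card_zmod] at h1
  exact (Nat.pow_le_pow_iff_right hp.out.one_lt).1 (h.trans h1)

end Fermat.Agent.S55.Middle.KummerLC
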