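/-
S55 / Middle / M.sunitDict (helper48): the `S`-UNIT DICTIONARY between the two languages of S55.

* Language (A) (Prelude / Middle colimit layer): valuation subrings `A` of `ℚ̄` with
  `A.LiesOverPrime q`; "`x` is a unit at every `A` over every `q ∉ S`" (`Middle/Defs.IsSUnit`,
  `Middle/Units.IsUnitOffS`).
* Language (B) (Mathlib / Global block): `v : HeightOneSpectrum (𝓞 F)`, `v.valuation F x = 1`,
  `Set.unit`.

`F` is an abstract number field with an embedding `ι : F →+* ℚ̄` (for `K : IntermediateField ℚ ℚ̄`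
take `ι := algebraMap K ℚ̄`).

Main results (namespace `Fermat.Agent.S55.Middle.SUnitDict`):

* `placeBelow ι A hq hA : HeightOneSpectrum (𝓞 F)` : the finite place of `F` cut out by `A`
  (`asIdeal = Bridge.Unram.primeBelow ι A`), `natCast_mem_placeBelow`,
  `eq_of_natCast_mem_placeBelow` (it lies over `q` and over no other prime);
* `valuation_le_one_iff`, `valuation_lt_one_iff`, `valuation_eq_one_iff` : the `placeBelow`-adic
  valuation of `x : F` and `A.valuation (ι x)` have the same closed/open unit balls and unit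
  spheres; `mem_iff`, `mem_nonunits_iff`, `mem_unitGroup_iff` : the same in membership form;
* `exists_placeBelow_eq` : every `v : HeightOneSpectrum (𝓞 F)` is `placeBelow ι A` for some `A`
  over the rational prime below `v`;
* `placesAbove F S`, `placesAbove_finite` : the (finitely many) finite places of `F` above `S`;
* `IsSUnitAt ι S x`, **`isSUnitAt_iff`** : `x : Fˣ` is a unit at every `A` over every `q ∉ S`
  iff `x ∈ (placesAbove F S).unit F`; `isSUnitAt_iff_mem_and_inv_mem` (the `x ∈ A ∧ x⁻¹ ∈ A` form);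
* `sUnitSubgroup ι S`, `sUnitSubgroup_eq`, **`finite_sUnitSubgroup`**, `finrank_sUnitSubgroup` :
  Dirichlet's `S`-unit theorem in language (A) (from `S14/SUnitTheorem`);
  `finite_quotient_nsmul`, `finite_sUnit_mod` : `O_{F,S}ˣ / n` is finite.
-/
import Mathlib
import Fermat.Agent.S55.Bridge.Unram
import Fermat.Agent.S14.SUnitTheorem

set_option autoImplicit false
set_option linter.unusedSectionVars false
set_option linter.style.haveILetI false

open scoped NumberField
open IsDedekindDomain

namespace Fermat.Agent.S55.Middle.SUnitDict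

open Fermat.Agent.S55.Bridge.Unram Fermat.Agent.Lib

local notation "Qbar" => AlgebraicClosure ℚ

variable {F : Type*} [Field F] [NumberField F] (ι : F →+* Qbar)

/-- global integers land in every valuation subring of `ℚ̄`. -/
theorem map_int_mem (A : ValuationSubring Qbar) (r : 𝓞 F) : ι (r : F) ∈ A :=
  FrobeniusIF.mem_of_isIntegral_int A ((r.isIntegral_coe).map (ι.toIntAlgHom : F →ₐ[ℤ] Qbar))

theorem primeBelow_ne_bot {A : ValuationSubring Qbar} {q : ℕ} (hq : q ≠ 0)
    (hA : A.LiesOverPrime q) : primeBelow ι A ≠ ⊥ := by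
  intro h
  have h1 : (q : 𝓞 F) ∈ primeBelow ι A := natCast_mem_primeBelow hA
  rw [h, Ideal.mem_bot] at h1
  exact hq (by exact_mod_cast h1)

/-- The finite place of `F` cut out by a valuation subring of `ℚ̄` over a rational prime. -/
noncomputable def placeBelow (A : ValuationSubring Qbar) {q : ℕ} (hq : q ≠ 0)
    (hA : A.LiesOverPrime q) : HeightOneSpectrum (𝓞 F) :=
  ⟨primeBelow ι A, inferInstance, primeBelow_ne_bot ι hq hA⟩

section Compare

variable {ι} {A : ValuationSubring Qbar} {q : ℕ} (hq : q ≠ 0) (hA : A.LiesOverPrime q)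

@[simp] theorem placeBelow_asIdeal : (placeBelow ι A hq hA).asIdeal = primeBelow ι A := rfl

theorem natCast_mem_placeBelow : (q : 𝓞 F) ∈ (placeBelow ι A hq hA).asIdeal :=
  natCast_mem_primeBelow hA

theorem valuation_map_int_le_one (r : 𝓞 F) : A.valuation (ι (r : F)) ≤ 1 :=
  (A.valuation_le_one_iff _).2 (map_int_mem ι A r)

theorem valuation_map_int_lt_one_iff (r : 𝓞 F) :
    A.valuation (ι (r : F)) < 1 ↔ r ∈ primeBelow ι A := by
  rw [mem_primeBelow, ValuationSubring.mem_nonunits_iff]

private theorem key (y : F) (hy : (placeBelow ι A hq hA).valuation F y ≤ 1) :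
    A.valuation (ι y) ≤ 1 ∧
      ((placeBelow ι A hq hA).valuation F y < 1 → A.valuation (ι y) < 1) := by
  set v := placeBelow ι A hq hA with hv
  obtain ⟨n, d, hnd⟩ := v.exists_primeCompl_mul_eq_of_integer y hy
  have hd1 : A.valuation (ι ((d : 𝓞 F) : F)) = 1 := by
    refine le_antisymm (valuation_map_int_le_one _) (not_lt.1 fun hlt => ?_)
    exact d.2 ((valuation_map_int_lt_one_iff _).1 hlt)
  have hvd : v.valuation F (algebraMap (𝓞 F) F d) = 1 := by
    rw [v.valuation_eq_one_iff_notMem]
    exact d.2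
  have h2 : A.valuation (ι y) = A.valuation (ι ((n : 𝓞 F) : F)) := by
    have := congrArg (fun z => A.valuation (ι z)) hnd
    simp only [map_mul] at this
    rw [show (algebraMap (𝓞 F) F d) = ((d : 𝓞 F) : F) from rfl, hd1, mul_one] at this
    exact this
  refine ⟨h2 ▸ valuation_map_int_le_one n, fun hlt => ?_⟩
  rw [h2, valuation_map_int_lt_one_iff, ← placeBelow_asIdeal hq hA,
    ← v.valuation_lt_one_iff_mem (K := F)]
  have := congrArg (v.valuation F) hnd
  rw [map_mul, hvd, mul_one] at this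
  rw [← this]
  exact hlt

/-- **Valuation comparison**, closed unit ball. -/
theorem valuation_le_one_iff (x : F) :
    (placeBelow ι A hq hA).valuation F x ≤ 1 ↔ A.valuation (ι x) ≤ 1 := by
  constructor
  · exact fun h => (key hq hA x h).1
  · intro h
    by_contra hcon
    rw [not_le] at hcon
    have hx0 : x ≠ 0 := by
      rintro rfl
      simp at hcon
    have h1 : (placeBelow ι A hq hA).valuation F x⁻¹ < 1 := by
      rw [map_inv₀]
      exact inv_lt_one_of_one_lt₀ hcon
    have h2 := (key hq hA x⁻¹ h1.le).2 h1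
    rw [map_inv₀, map_inv₀] at h2
    have h3 : A.valuation (ι x) ≠ 0 := by
      rw [Ne, map_eq_zero, map_eq_zero]; exact hx0
    have h4 : 1 < A.valuation (ι x) := by
      rwa [inv_lt_one₀ (zero_lt_iff.2 h3)] at h2
    exact absurd h (not_le.2 h4)

/-- **Valuation comparison**, open unit ball. -/
theorem valuation_lt_one_iff (x : F) :
    (placeBelow ι A hq hA).valuation F x < 1 ↔ A.valuation (ι x) < 1 := by
  constructor
  · intro h
    exact (key hq hA x h.le).2 h
  · intro h
    by_contra hcon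
    rw [not_lt] at hcon
    have hx0 : x ≠ 0 := by
      rintro rfl
      simp at hcon
    have h1 : (placeBelow ι A hq hA).valuation F x⁻¹ ≤ 1 := by
      rw [map_inv₀]
      exact inv_le_one_of_one_le₀ hcon
    have h2 := (valuation_le_one_iff hq hA x⁻¹).1 h1
    rw [map_inv₀, map_inv₀] at h2
    have h3 : A.valuation (ι x) ≠ 0 := by
      rw [Ne, map_eq_zero, map_eq_zero]; exact hx0
    have h4 : 1 ≤ A.valuation (ι x) := by
      rwa [inv_le_one₀ (zero_lt_iff.2 h3)] at h2
    exact absurd h (not_lt.2 h4)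

theorem valuation_eq_one_iff (x : F) :
    (placeBelow ι A hq hA).valuation F x = 1 ↔ A.valuation (ι x) = 1 := by
  constructor
  · intro h
    refine le_antisymm ((valuation_le_one_iff hq hA x).1 h.le) (not_lt.1 fun hlt => ?_)
    exact absurd ((valuation_lt_one_iff hq hA x).2 hlt) (not_lt.2 h.ge)
  · intro h
    refine le_antisymm ((valuation_le_one_iff hq hA x).2 h.le) (not_lt.1 fun hlt => ?_)
    exact absurd ((valuation_lt_one_iff hq hA x).1 hlt) (not_lt.2 h.ge)

theorem mem_iff (x : F) : ι x ∈ A ↔ (placeBelow ι A hq hA).valuation F x ≤ 1 := by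
  rw [valuation_le_one_iff hq hA, A.valuation_le_one_iff]

theorem mem_nonunits_iff (x : F) :
    ι x ∈ A.nonunits ↔ (placeBelow ι A hq hA).valuation F x < 1 := by
  rw [valuation_lt_one_iff hq hA, ValuationSubring.mem_nonunits_iff]

theorem mem_unitGroup_iff (x : Fˣ) :
    Units.map (ι : F →* Qbar) x ∈ A.unitGroup ↔
      (placeBelow ι A hq hA).valuation F (x : F) = 1 := by
  rw [valuation_eq_one_iff hq hA, ValuationSubring.mem_unitGroup_iff]
  rfl


end Compare

/-- A nonzero prime of the ring of integers of a number field contains a prime number. -/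
theorem exists_natPrime_mem (P : Ideal (𝓞 F)) [hP : P.IsPrime] (hP0 : P ≠ ⊥) :
    ∃ ℓ : ℕ, ℓ.Prime ∧ (ℓ : 𝓞 F) ∈ P := by
  have hpr : (P.under ℤ).IsPrime := inferInstance
  have hne : P.under ℤ ≠ ⊥ := fun h => hP0 (Ideal.eq_bot_of_comap_eq_bot h)
  obtain ⟨g, hg⟩ := (IsPrincipalIdealRing.principal (P.under ℤ)).principal
  have hg0 : g ≠ 0 := by
    rintro rfl
    apply hne
    rw [hg]
    simp
  have hgp : Prime g := by
    rw [← Ideal.span_singleton_prime hg0, ← Ideal.submodule_span_eq, ← hg]
    exact hpr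
  refine ⟨g.natAbs, Int.prime_iff_natAbs_prime.mp hgp, ?_⟩
  have h1 : (g.natAbs : ℤ) ∈ P.under ℤ := by
    rw [hg]
    exact Ideal.mem_span_singleton.mpr Int.dvd_natAbs_self
  have h2 := Ideal.mem_comap.mp h1
  simpa using h2

/-- Two distinct prime numbers cannot lie in the same prime ideal. -/
theorem natPrime_unique {P : Ideal (𝓞 F)} [hP : P.IsPrime] {q q' : ℕ} (hq : q.Prime)
    (hq' : q'.Prime) (h : (q : 𝓞 F) ∈ P) (h' : (q' : 𝓞 F) ∈ P) : q = q' := by
  by_contra hne
  have hc : Nat.Coprime q q' := (Nat.coprime_primes hq hq').2 hne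
  obtain ⟨a, b, hab⟩ := (Nat.isCoprime_iff_coprime.2 hc)
  have h1 : ((a : 𝓞 F) * (q : 𝓞 F) + (b : 𝓞 F) * (q' : 𝓞 F)) = 1 := by
    have := congrArg (fun z : ℤ => (z : 𝓞 F)) hab
    push_cast at this
    exact this
  apply hP.ne_top
  rw [Ideal.eq_top_iff_one, ← h1]
  exact P.add_mem (P.mul_mem_left _ h) (P.mul_mem_left _ h')

/-- **Every finite place of `F` is cut out by a valuation subring of `ℚ̄`** lying over the rational
prime below it. -/
theorem exists_placeBelow_eq (v : HeightOneSpectrum (𝓞 F)) :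
    ∃ (q : ℕ) (hq : q.Prime) (A : ValuationSubring Qbar) (hA : A.LiesOverPrime q),
      placeBelow ι A hq.ne_zero hA = v := by
  haveI := v.isPrime
  obtain ⟨ℓ, hℓ, hℓP⟩ := exists_natPrime_mem v.asIdeal v.ne_bot
  obtain ⟨A, hA⟩ := exists_primeBelow_eq ι v.asIdeal v.ne_bot
  have hAℓ : A.LiesOverPrime ℓ := by
    unfold ValuationSubring.LiesOverPrime
    rw [← hA, mem_primeBelow] at hℓP
    simpa using hℓP
  exact ⟨ℓ, hℓ, A, hAℓ, HeightOneSpectrum.ext hA⟩

/-- The rational prime below `placeBelow ι A` is the prime `A` lies over. -/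
theorem eq_of_natCast_mem_placeBelow {A : ValuationSubring Qbar} {q q' : ℕ} (hq : q.Prime)
    (hA : A.LiesOverPrime q) (hq' : q'.Prime)
    (h : (q' : 𝓞 F) ∈ (placeBelow ι A hq.ne_zero hA).asIdeal) : q' = q :=
  natPrime_unique hq' hq h (natCast_mem_placeBelow hq.ne_zero hA)

variable (F) in
/-- The finite places of `F` above a finite set `S` of rational primes. -/
def placesAbove (S : Finset Nat.Primes) : Set (HeightOneSpectrum (𝓞 F)) :=
  {v | ∃ q ∈ S, ((q : ℕ) : 𝓞 F) ∈ v.asIdeal}

theorem placesAbove_finite (S : Finset Nat.Primes) : (placesAbove F S).Finite := by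
  have h : placesAbove F S = ⋃ q ∈ S, {v : HeightOneSpectrum (𝓞 F) | ((q : ℕ) : 𝓞 F) ∈ v.asIdeal} := by
    ext v
    simp [placesAbove]
  rw [h]
  refine Set.Finite.biUnion S.finite_toSet fun q _ => ?_
  have hq0 : (((q : ℕ) : 𝓞 F)) ≠ 0 := by
    exact_mod_cast q.2.ne_zero
  have h := Ideal.finite_factors (I := Ideal.span {((q : ℕ) : 𝓞 F)}) (by simpa using hq0)
  refine h.subset ?_
  intro v hv
  exact Ideal.dvd_span_singleton.mpr hv

/-- `x ∈ Fˣ` is a unit at every valuation subring of `ℚ̄` over a prime outside `S`. -/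
def IsSUnitAt (S : Finset Nat.Primes) (x : Fˣ) : Prop :=
  ∀ q : Nat.Primes, q ∉ S → ∀ A : ValuationSubring Qbar, A.LiesOverPrime (q : ℕ) →
    Units.map (ι : F →* Qbar) x ∈ A.unitGroup

/-- **The `S`-unit dictionary.** -/
theorem isSUnitAt_iff (S : Finset Nat.Primes) (x : Fˣ) :
    IsSUnitAt ι S x ↔ x ∈ (placesAbove F S).unit F := by
  constructor
  · intro h v hv
    obtain ⟨q, hq, A, hA, rfl⟩ := exists_placeBelow_eq ι v
    have hqS : (⟨q, hq⟩ : Nat.Primes) ∉ S := fun hmem =>
      hv ⟨⟨q, hq⟩, hmem, natCast_mem_placeBelow hq.ne_zero hA⟩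
    exact (mem_unitGroup_iff hq.ne_zero hA x).1 (h ⟨q, hq⟩ hqS A hA)
  · intro h q hqS A hA
    rw [mem_unitGroup_iff q.2.ne_zero hA x]
    refine h _ ?_
    rintro ⟨q', hq'S, hq'⟩
    have : (q' : ℕ) = (q : ℕ) := eq_of_natCast_mem_placeBelow ι q.2 hA q'.2 hq'
    exact hqS ((Subtype.ext this : q' = q) ▸ hq'S)

/-- The subgroup of `Fˣ` of elements which are units at every valuation subring of `ℚ̄` over a
prime outside `S`. -/
def sUnitSubgroup (S : Finset Nat.Primes) : Subgroup Fˣ where
  carrier := {x | IsSUnitAt ι S x}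
  one_mem' := fun _ _ A _ => by
    rw [map_one]; exact A.unitGroup.one_mem
  mul_mem' := fun hx hy q hq A hA => by
    rw [map_mul]; exact A.unitGroup.mul_mem (hx q hq A hA) (hy q hq A hA)
  inv_mem' := fun hx q hq A hA => by
    rw [map_inv]; exact A.unitGroup.inv_mem (hx q hq A hA)

theorem sUnitSubgroup_eq (S : Finset Nat.Primes) :
    sUnitSubgroup ι S = (placesAbove F S).unit F :=
  Subgroup.ext fun x => isSUnitAt_iff ι S x

/-- **Dirichlet**: the `S`-units (in the `ℚ̄`-valuation-subring sense) are finitely generated. -/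
theorem finite_sUnitSubgroup (S : Finset Nat.Primes) :
    Module.Finite ℤ (Additive (sUnitSubgroup ι S)) := by
  rw [sUnitSubgroup_eq]
  have h := Fermat.Agent.S14.SUnitTheorem.finite_sUnit_numberField F (placesAbove_finite S).toFinset
  rwa [Set.Finite.coe_toFinset] at h

/-- **Dirichlet, rank form**. -/
theorem finrank_sUnitSubgroup (S : Finset Nat.Primes) :
    Module.finrank ℤ (Additive (sUnitSubgroup ι S)) =
      NumberField.Units.rank F + (placesAbove_finite (F := F) S).toFinset.card := by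
  rw [sUnitSubgroup_eq]
  have h := Fermat.Agent.S14.SUnitTheorem.finrank_sUnit_numberField F
    (placesAbove_finite S).toFinset
  rwa [Set.Finite.coe_toFinset] at h


/-- unit-group membership in the `x ∈ A ∧ x⁻¹ ∈ A` form (the shape of `Middle/Units.IsUnitOffS`). -/
theorem mem_unitGroup_iff_mem_and_inv_mem (A : ValuationSubring Qbar) (u : Qbarˣ) :
    u ∈ A.unitGroup ↔ (u : Qbar) ∈ A ∧ (u : Qbar)⁻¹ ∈ A := by
  rw [ValuationSubring.mem_unitGroup_iff, ← A.valuation_le_one_iff, ← A.valuation_le_one_iff,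
    map_inv₀]
  have hne : A.valuation (u : Qbar) ≠ 0 := by
    rw [Ne, map_eq_zero]; exact u.ne_zero
  constructor
  · intro h
    rw [h]
    simp
  · rintro ⟨h1, h2⟩
    exact le_antisymm h1 ((inv_le_one₀ (zero_lt_iff.2 hne)).1 h2)

theorem isSUnitAt_iff_mem_and_inv_mem (S : Finset Nat.Primes) (x : Fˣ) :
    IsSUnitAt ι S x ↔ ∀ q : Nat.Primes, q ∉ S → ∀ A : ValuationSubring Qbar,
      A.LiesOverPrime (q : ℕ) → ι (x : F) ∈ A ∧ (ι (x : F))⁻¹ ∈ A := by
  unfold IsSUnitAt
  refine forall_congr' fun q => forall_congr' fun _ => forall_congr' fun A => forall_congr' fun _ => ?_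
  rw [mem_unitGroup_iff_mem_and_inv_mem]
  rfl

/-- A finitely generated abelian group modulo `n` is finite (`n ≠ 0`). -/
theorem finite_quotient_nsmul {G : Type*} [AddCommGroup G] [Module.Finite ℤ G] {n : ℕ}
    (hn : n ≠ 0) : Finite (G ⧸ (nsmulAddMonoidHom (α := G) n).range) := by
  set N : Submodule ℤ G := AddSubgroup.toIntSubmodule (nsmulAddMonoidHom (α := G) n).range with hN
  have hfin : Module.Finite ℤ (G ⧸ N) := inferInstance
  have htors : Module.IsTorsion ℤ (G ⧸ N) := by
    intro x
    refine ⟨⟨(n : ℤ), by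
      rw [mem_nonZeroDivisors_iff_ne_zero]; exact_mod_cast hn⟩, ?_⟩
    obtain ⟨g, rfl⟩ := Submodule.Quotient.mk_surjective N x
    change (n : ℤ) • (Submodule.Quotient.mk g : G ⧸ N) = 0
    rw [← Submodule.Quotient.mk_smul, Submodule.Quotient.mk_eq_zero]
    exact ⟨g, by simp⟩
  have : Finite (G ⧸ N) := Module.finite_of_fg_torsion (G ⧸ N) htors
  exact this

/-- `O_{F,S}ˣ / n` is finite (language (A)). -/
theorem finite_sUnit_mod (S : Finset Nat.Primes) {n : ℕ} (hn : n ≠ 0) :
    Finite (Additive (sUnitSubgroup ι S) ⧸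
      (nsmulAddMonoidHom (α := Additive (sUnitSubgroup ι S)) n).range) := by
  haveI := finite_sUnitSubgroup ι S
  exact finite_quotient_nsmul hn

end Fermat.Agent.S55.Middle.SUnitDict
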