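/-
S55 / Middle, row M.fin (helper48), part 1: `BaseA.fin₁` for the arithmetic site.

For an open subgroup `P ≤ G_ℚ` (for the `S`-basis `globalBasis S`) on which the mod `p` cyclotomic
character is trivial, `H¹_LC(P; 𝔽_p)` (trivial coefficients, basis `subBasis (globalBasis S) P`) is
finite-dimensional; hence so is `H¹_LC(G_ℚ; 𝔽_p[G_ℚ/P])` (Shapiro, `LM/ShapiroPerm`).

Route (finite-level Kummer theory, no `ℤ`-modules): with `K = ℚ̄^P ∋ ζ_p`, every level of the basis
of `↥P` is `Gal(ℚ̄/L)` for a finite Galois `L/K` unramified outside `S`, and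

  `#Hom(Gal(L/K), ℤ/p) = [K ∩ (Lˣ)^p : (Kˣ)^p] ≤ [V_S(K) : (Kˣ)^p] < ∞`

(`KummerFinite.card_hom_zmod`, `KummerRam.pDvdVal_of_unramAt`, `KummerVS.relIndex_pPow_VS_ne_zero`).
The uniform bound gives finiteness by `KummerLC.finrank_H1_triv_le`.

Main results: `card_hom_le` (number fields), `card_homLevel_le`, `finite_H1_triv`, `fin₁`
(the literal field of `Formal.BaseA (arithSite S) (ZMod p) (cycloChar p)`), with an explicit
bound `finrank_H1_triv_le`.
-/
import Mathlib
import Fermat.Agent.S55.Middle.Sha1Bridge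
import Fermat.Agent.S55.Middle.KummerLC
import Fermat.Agent.S55.Middle.KummerFinite
import Fermat.Agent.S55.KummerVS
import Fermat.Agent.S55.Middle.SUnitDict
import Fermat.Agent.S55.GaloisLevelCyclo
import Fermat.Agent.S55.LM.ShapiroPerm
import Fermat.Agent.S55.Formal.ArithSite

set_option autoImplicit false
set_option linter.unusedSectionVars false
set_option linter.style.haveILetI false

open scoped NumberField
open IsDedekindDomain ExtCitation

namespace Fermat.Agent.S55.Middle.FinH1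

open Fermat.Agent.S55 Fermat.Agent.S55.Formal

/-! ### number fields: `#Hom(Gal(L/K), ℤ/p) ≤ [V_T(K) : (Kˣ)^p]` for `L/K` unramified outside `T` -/

section NumberFields

variable {K L : Type*} [Field K] [NumberField K] [Field L] [NumberField L] [Algebra K L]
  [IsGalois K L] {p : ℕ} [hp : Fact p.Prime]

/-- If `L/K` is unramified outside `T`, every element of `Kˣ` with a `p`-th root in `L` lies in
`V_T(K)` (valuations outside `T` divisible by `p`). -/
theorem rootable_le_VS (T : Finset (HeightOneSpectrum (𝓞 K)))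
    (hunr : ∀ v : HeightOneSpectrum (𝓞 K), v ∉ T → KummerRam.UnramAt K L v.asIdeal) :
    KummerFinite.rootable K L p ≤
      KummerVS.VS (R := 𝓞 K) K p (T : Set (HeightOneSpectrum (𝓞 K))) := by
  intro a ha
  obtain ⟨α, hα⟩ := KummerFinite.mem_rootable.1 ha
  rw [KummerVS.mem_VS_iff_pDvdVal K p T a]
  intro v hv
  refine KummerRam.pDvdVal_of_unramAt hp.out.ne_zero a.ne_zero (α := (α : L)) ?_ v (hunr v hv)
  have h := congrArg (fun u : Lˣ => (u : L)) hα
  simpa using h

/-- **Finite-level bound.**  `L/K` Galois, unramified outside the finite set `T`, `ζ_p ∈ K`: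
`#Hom(Gal(L/K), ℤ/p) ≤ [V_T(K) : (Kˣ)^p]`. -/
theorem card_hom_le (T : Finset (HeightOneSpectrum (𝓞 K)))
    (hunr : ∀ v : HeightOneSpectrum (𝓞 K), v ∉ T → KummerRam.UnramAt K L v.asIdeal)
    {ζ : K} (hζ : IsPrimitiveRoot ζ p) :
    Nat.card ((L ≃ₐ[K] L) →* Multiplicative (ZMod p)) ≤
      (KummerVS.pPow K p).relIndex
        (KummerVS.VS (R := 𝓞 K) K p (T : Set (HeightOneSpectrum (𝓞 K)))) := by
  rw [KummerFinite.card_hom_zmod (E := L) hζ]
  have e : KummerFinite.pPow K p = KummerVS.pPow K p := rfl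
  rw [e]
  exact Subgroup.relIndex_le_of_le_right (rootable_le_VS T hunr)
    (KummerVS.relIndex_pPow_VS_ne_zero K p T hζ)

end NumberFields

/-! ### generic: levels of `HomLevel` through a surjection -/

section Generic

variable {G Q : Type} [Group G] [Group Q] (p : ℕ) [Fact p.Prime]

theorem card_homLevel_of_surjective (φ : G →* Q) (hφ : Function.Surjective φ) (U : Subgroup G)
    (hU : φ.ker = U) :
    Nat.card (KummerLC.HomLevel p U) = Nat.card (Q →* Multiplicative (ZMod p)) := by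
  subst hU
  exact KummerLC.card_homLevel_eq p φ.ker (QuotientGroup.quotientKerEquivOfSurjective φ hφ)

/-- smaller levels have more homomorphisms -/
theorem card_homLevel_mono {U V : Subgroup G} [V.FiniteIndex] (h : V ≤ U) :
    Nat.card (KummerLC.HomLevel p U) ≤ Nat.card (KummerLC.HomLevel p V) :=
  Nat.card_le_card_of_injective
    (fun f : KummerLC.HomLevel p U => (⟨f.1, h.trans f.2⟩ : KummerLC.HomLevel p V))
    (fun f g hfg => by
      have h1 := congrArg (fun x : KummerLC.HomLevel p V => x.1) hfg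
      exact Subtype.ext h1)

end Generic

/-! ### the Galois dictionary over `K₀ = ℚ̄^P` -/

section Galois

open IntermediateField Fermat.Agent.S55.Middle.Sha1Bridge Fermat.Agent.S55.Formal.PreludeLC
open Fermat.Agent.S55.Bridge.ShapiroLC

local instance instIsGaloisQbar_fin : IsGalois ℚ (AlgebraicClosure ℚ) :=
  Fermat.Agent.Lib.UnramifiedTrivial.isGalois_algebraicClosure_rat

variable (S : Finset Nat.Primes) (p : ℕ) [hp : Fact p.Prime]
variable {K₀ L₀ : IntermediateField ℚ Qbar} (hKL : K₀ ≤ L₀)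

/-- `L₀/K₀` is unramified (in the sense of `KummerRam`) at the places of `K₀` not above `S`. -/
theorem unramAt_relField [NumberField K₀] [NumberField (relField hKL)]
    [IsGalois K₀ (relField hKL)] (hL : L₀.IsUnramifiedOutside S)
    (v : HeightOneSpectrum (𝓞 K₀)) (hv : v ∉ SUnitDict.placesAbove K₀ S) :
    KummerRam.UnramAt K₀ (relField hKL) v.asIdeal := by
  intro Q hQ hQv σ hσ
  haveI := v.isPrime
  obtain ⟨ℓ, hℓ, hℓv⟩ := SUnitDict.exists_natPrime_mem v.asIdeal v.ne_bot
  have hℓS : (⟨ℓ, hℓ⟩ : Nat.Primes) ∉ S := fun h => hv ⟨⟨ℓ, hℓ⟩, h, hℓv⟩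
  have hmem : (((⟨ℓ, hℓ⟩ : Nat.Primes) : ℕ) : 𝓞 (relField hKL)) ∈ Q := by
    have h1 : v.asIdeal = Q.under (𝓞 K₀) := hQv.over
    rw [h1, Ideal.under_def, Ideal.mem_comap] at hℓv
    simpa using hℓv
  haveI := hQ
  have h2 := Bridge.Unram.inertia_eq_bot_of_isUnramifiedOutside (K := K₀)
    (algebraMap (relField hKL) Qbar) (S := S) (by rw [imageField_relField]; exact hL)
    ⟨ℓ, hℓ⟩ hℓS Q hmem
  rw [h2] at hσ
  exact Subgroup.mem_bot.1 hσ

/-- a primitive `p`-th root of unity in every field containing `ℚ(μ_p)` -/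
theorem exists_primitiveRoot_of_le {K₀ : IntermediateField ℚ Qbar}
    (h : GaloisLevelCyclo.cycloField p ≤ K₀) : ∃ ζ : K₀, IsPrimitiveRoot ζ p := by
  haveI : NeZero ((p : ℕ) : Qbar) := ⟨by exact_mod_cast hp.out.ne_zero⟩
  obtain ⟨ζ₀, hζ₀⟩ := HasEnoughRootsOfUnity.exists_primitiveRoot Qbar p
  have hmem : ζ₀ ∈ K₀ := h (IntermediateField.subset_adjoin ℚ _ hζ₀.pow_eq_one)
  refine ⟨⟨ζ₀, hmem⟩, ?_⟩
  exact IsPrimitiveRoot.of_map_of_injective (f := algebraMap K₀ Qbar) hζ₀
    (algebraMap K₀ Qbar).injective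

/-- the finite set of places of `K₀` above `S` -/
noncomputable abbrev placesFinset (K₀ : IntermediateField ℚ Qbar) [NumberField K₀] :
    Finset (HeightOneSpectrum (𝓞 K₀)) :=
  (SUnitDict.placesAbove_finite (F := K₀) S).toFinset

/-- the Kummer bound `[V_S(K₀) : (K₀ˣ)^p]` -/
noncomputable abbrev kummerBound (K₀ : IntermediateField ℚ Qbar) [NumberField K₀] : ℕ :=
  (KummerVS.pPow K₀ p).relIndex
    (KummerVS.VS (R := 𝓞 K₀) K₀ p ((placesFinset S K₀ : Finset (HeightOneSpectrum (𝓞 K₀))) :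
      Set (HeightOneSpectrum (𝓞 K₀))))

/-- **Level-wise bound**: for `K₀ ∋ ζ_p` unramified outside `S` and a level `F` of `globalBasis S`,
`#Hom(Gal(ℚ̄/K₀) / Gal(ℚ̄/F K₀), ℤ/p) ≤ [V_S(K₀) : (K₀ˣ)^p]`. -/
theorem card_homLevel_le {K₀ F : IntermediateField ℚ Qbar} [NumberField K₀]
    (hK : K₀.IsUnramifiedOutside S) (hF : F.IsUnramifiedOutside S) (hFn : F.fixingSubgroup.Normal)
    {ζ : K₀} (hζ : IsPrimitiveRoot ζ p) :
    Nat.card (KummerLC.HomLevel p (F.fixingSubgroup.subgroupOf K₀.fixingSubgroup)) ≤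
      kummerBound S p K₀ := by
  have hKL : K₀ ≤ F ⊔ K₀ := le_sup_right
  have hL : (F ⊔ K₀).IsUnramifiedOutside S := hF.sup hK
  haveI : FiniteDimensional ℚ (F ⊔ K₀ : IntermediateField ℚ Qbar) := hL.1
  haveI : NumberField (relField hKL) := numberField_relField hKL
  have hnorm : ∀ τ ∈ K₀.fixingSubgroup, ∀ σ ∈ (F ⊔ K₀).fixingSubgroup,
      τ⁻¹ * σ * τ ∈ (F ⊔ K₀).fixingSubgroup := by
    intro τ hτ σ hσ
    rw [IntermediateField.fixingSubgroup_sup] at hσ ⊢
    rw [Subgroup.mem_inf] at hσ ⊢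
    refine ⟨?_, Subgroup.mul_mem _ (Subgroup.mul_mem _ (Subgroup.inv_mem _ hτ) hσ.2) hτ⟩
    have := hFn.conj_mem σ hσ.1 τ⁻¹
    rwa [inv_inv] at this
  haveI : Normal K₀ (relField hKL) := normal_relField hKL hnorm
  haveI : IsGalois K₀ (relField hKL) := ⟨⟩
  have hker : (resHom hKL).ker = F.fixingSubgroup.subgroupOf K₀.fixingSubgroup := by
    ext σ
    rw [MonoidHom.mem_ker, resHom_eq_one_iff, Subgroup.mem_subgroupOf,
      IntermediateField.fixingSubgroup_sup, Subgroup.mem_inf]
    exact ⟨fun h => h.1, fun h => ⟨h, σ.2⟩⟩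
  rw [card_homLevel_of_surjective p (resHom hKL) (resHom_surjective hKL) _ hker]
  refine card_hom_le (placesFinset S K₀) (fun v hv => unramAt_relField S hKL hL v ?_) hζ
  intro hv'
  exact hv ((SUnitDict.placesAbove_finite (F := K₀) S).mem_toFinset.2 hv')

/-- **`H¹_LC(Gal(ℚ̄/K₀); 𝔽_p)` is finite-dimensional**, with the explicit Kummer bound. -/
theorem finrank_H1_triv_le (K₀ : IntermediateField ℚ Qbar) [NumberField K₀]
    (hK : K₀.IsUnramifiedOutside S) (hcyc : GaloisLevelCyclo.cycloField p ≤ K₀) (n : ℕ)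
    (hn : kummerBound S p K₀ ≤ p ^ n) :
    Module.Finite (ZMod p) (H1 (subBasis (globalBasis S) K₀.fixingSubgroup)
        (Rep.trivial (ZMod p) K₀.fixingSubgroup (ZMod p))) ∧
      Module.finrank (ZMod p) (H1 (subBasis (globalBasis S) K₀.fixingSubgroup)
        (Rep.trivial (ZMod p) K₀.fixingSubgroup (ZMod p))) ≤ n := by
  obtain ⟨ζ, hζ⟩ := exists_primitiveRoot_of_le p hcyc
  refine KummerLC.finrank_H1_triv_le (𝒰 := subBasis (globalBasis S) K₀.fixingSubgroup) (p := p) n ?_
  rintro U ⟨N, ⟨F, hF, hFn, rfl⟩, rfl⟩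
  exact (card_homLevel_le S p hK hF hFn hζ).trans hn

/-- **`KFin`, `H¹` half** (helper17 #1935): for `P` open for the `S`-basis with `χ_p` trivial on `P`,
`H¹_LC(P; 𝔽_p)` is finite-dimensional. -/
theorem finite_H1_triv (P : Subgroup GQ) (hP : (globalBasis S).IsOpen P)
    (hχ : TrivOn (cycloChar p) P) :
    Module.Finite (ZMod p) (H1 (subBasis (globalBasis S) P) (Rep.trivial (ZMod p) P (ZMod p))) := by
  obtain ⟨N₀, ⟨F₀, hF₀, -, rfl⟩, hle⟩ := hP
  haveI := hF₀.1
  obtain ⟨hfix, hKle⟩ := GaloisLevel.fixingSubgroup_fixedField_of_le P hle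
  have hK : (IntermediateField.fixedField P).IsUnramifiedOutside S :=
    IntermediateField.IsUnramifiedOutside.of_le hKle hF₀
  haveI : NumberField (IntermediateField.fixedField P) :=
    Bridge.Unram.numberField_of_finiteDimensional _ hK.1
  have hcyc : GaloisLevelCyclo.cycloField p ≤ IntermediateField.fixedField P := by
    have h1 : P ≤ (GaloisLevelCyclo.cycloField p).fixingSubgroup := fun s hs =>
      (GaloisLevelCyclo.mem_fixingSubgroup_cycloField_iff (p := p) s).2 (hχ s hs)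
    calc GaloisLevelCyclo.cycloField p
        = IntermediateField.fixedField (GaloisLevelCyclo.cycloField p).fixingSubgroup :=
          (InfiniteGalois.fixedField_fixingSubgroup _).symm
      _ ≤ IntermediateField.fixedField P := IntermediateField.fixedField_antitone h1
  have hp1 : 1 < p := hp.out.one_lt
  have key := (finrank_H1_triv_le S p (IntermediateField.fixedField P) hK hcyc
    (kummerBound S p (IntermediateField.fixedField P)) (Nat.lt_pow_self hp1).le).1
  rw [hfix] at key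
  exact key

/-- **`BaseA.fin₁` for the arithmetic site** (literal field). -/
theorem fin₁ : ∀ P : Subgroup (ArithSite.arithSite S).G, (ArithSite.arithSite S).𝒰.IsOpen P →
    TrivOn (cycloChar p) P →
    Module.Finite (ZMod p) (H1 (ArithSite.arithSite S).𝒰 (perm (ZMod p) P)) :=
  fun P hP hχ =>
    (LM.ShapiroPerm.finite_H1_perm_iff (globalBasis S) P hP).2 (finite_H1_triv S p P hP hχ)

end Galois

end Fermat.Agent.S55.Middle.FinH1
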