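/-
S55 / Middle / M.lesGlue (helper24): the two LC long exact sequences

  (Div)  `0 → O → Kx → Prin → 0`,      (Kum)  `0 → μ_p → O -p→ O → 0`

over an open subgroup `H ≤ GQ` (basis `Defs.NBasis.sub (globalBasis S) H`, modules literally
`Rep.res H.subtype (Defs.muP p / OS S / KS S / PrinS S)`), unpacked into `AddMonoidHom`s between the
LC cohomology groups and exactness statements in the literal shapes consumed by the abstract
skeletons `Middle/Hasse.lean`, `Middle/Image.lean`, `Middle/H3.lean`.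

Generic part: `h_n` of `n • φ` is `n • h_n φ`; hence the map induced by `powOS S p` is `p • ·` and
`H^n(μ_p)` is killed by `p`.
-/
import Mathlib
import Fermat.Agent.S55.Middle.UnitsLES

set_option autoImplicit false
set_option linter.unusedSectionVars false

open CategoryTheory ExtCitation

namespace Fermat.Agent.S55.Middle.LESGlue

open Fermat.Agent.S55.Formal Fermat.Agent.S55.Formal.SmoothLift Fermat.Agent.S55.Formal.PreludeLC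
open Fermat.Agent.S55.Formal.CoefExactSmooth
open Fermat.Agent.S55.Middle Fermat.Agent.S55.Middle.UnitsLES

noncomputable section

/-! ### generic: multiples of coefficient maps -/

section Generic

variable {k : Type} [CommRing k] {G : Type} [Group G] (𝒰 : NBasis G)
  {A A' : Rep.{0, 0, 0} k G}

lemma of_congr {X Y Z : Type} [AddCommGroup X] [Module k X] [AddCommGroup Y] [Module k Y]
    [AddCommGroup Z] [Module k Z] {f : X →ₗ[k] Y} {g : Y →ₗ[k] Z} {b b' : Y} (h : b = b')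
    (hb : g b = 0) (hb' : g b' = 0) : (Hmid.of b hb : Hmid f g) = Hmid.of b' hb' := by
  subst h
  rfl

variable (φ ψ : A ⟶ A') (n : ℕ) (hn : ∀ a, ψ.hom a = n • φ.hom a)

include hn in
theorem h1_nsmul (x : H1 𝒰 A) : (Mor.ofHom 𝒰 ψ).h1 x = n • (Mor.ofHom 𝒰 φ).h1 x := by
  obtain ⟨b, hb, rfl⟩ := Hmid.exists_of x
  have e : (Mor.ofHom 𝒰 ψ).c₁ b = (n : k) • (Mor.ofHom 𝒰 φ).c₁ b := by
    apply Subtype.ext
    funext g
    rw [Nat.cast_smul_eq_nsmul]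
    exact hn _
  have hφ : dC₁ 𝒰 A' ((Mor.ofHom 𝒰 φ).c₁ b) = 0 := by
    have := LinearMap.congr_fun (Mor.ofHom 𝒰 φ).c₂_dC₁ b
    simp only [LinearMap.comp_apply] at this
    rw [← this, hb, map_zero]
  have hψ : dC₁ 𝒰 A' ((Mor.ofHom 𝒰 ψ).c₁ b) = 0 := by
    have := LinearMap.congr_fun (Mor.ofHom 𝒰 ψ).c₂_dC₁ b
    simp only [LinearMap.comp_apply] at this
    rw [← this, hb, map_zero]
  change Hmid.of ((Mor.ofHom 𝒰 ψ).c₁ b) hψ = n • Hmid.of ((Mor.ofHom 𝒰 φ).c₁ b) hφ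
  rw [← Nat.cast_smul_eq_nsmul k, ← Hmid.of_smul]
  exact of_congr e _ _

include hn in
theorem h2_nsmul (x : H2 𝒰 A) : (Mor.ofHom 𝒰 ψ).h2 x = n • (Mor.ofHom 𝒰 φ).h2 x := by
  obtain ⟨b, hb, rfl⟩ := Hmid.exists_of x
  have e : (Mor.ofHom 𝒰 ψ).c₂ b = (n : k) • (Mor.ofHom 𝒰 φ).c₂ b := by
    apply Subtype.ext
    funext g
    rw [Nat.cast_smul_eq_nsmul]
    exact hn _
  have hφ : dC₂ 𝒰 A' ((Mor.ofHom 𝒰 φ).c₂ b) = 0 := by
    have := LinearMap.congr_fun (Mor.ofHom 𝒰 φ).c₃_dC₂ b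
    simp only [LinearMap.comp_apply] at this
    rw [← this, hb, map_zero]
  have hψ : dC₂ 𝒰 A' ((Mor.ofHom 𝒰 ψ).c₂ b) = 0 := by
    have := LinearMap.congr_fun (Mor.ofHom 𝒰 ψ).c₃_dC₂ b
    simp only [LinearMap.comp_apply] at this
    rw [← this, hb, map_zero]
  change Hmid.of ((Mor.ofHom 𝒰 ψ).c₂ b) hψ = n • Hmid.of ((Mor.ofHom 𝒰 φ).c₂ b) hφ
  rw [← Nat.cast_smul_eq_nsmul k, ← Hmid.of_smul]
  exact of_congr e _ _

include hn in
theorem h3_nsmul (x : H3 𝒰 A) : (Mor.ofHom 𝒰 ψ).h3 x = n • (Mor.ofHom 𝒰 φ).h3 x := by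
  obtain ⟨b, hb, rfl⟩ := Hmid.exists_of x
  have e : (Mor.ofHom 𝒰 ψ).c₃ b = (n : k) • (Mor.ofHom 𝒰 φ).c₃ b := by
    apply Subtype.ext
    funext g
    rw [Nat.cast_smul_eq_nsmul]
    exact hn _
  have hφ : dC₃ 𝒰 A' ((Mor.ofHom 𝒰 φ).c₃ b) = 0 := by
    have := LinearMap.congr_fun (Mor.ofHom 𝒰 φ).p₄_dC₃ b
    simp only [LinearMap.comp_apply] at this
    rw [← this, hb, map_zero]
  have hψ : dC₃ 𝒰 A' ((Mor.ofHom 𝒰 ψ).c₃ b) = 0 := by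
    have := LinearMap.congr_fun (Mor.ofHom 𝒰 ψ).p₄_dC₃ b
    simp only [LinearMap.comp_apply] at this
    rw [← this, hb, map_zero]
  change Hmid.of ((Mor.ofHom 𝒰 ψ).c₃ b) hψ = n • Hmid.of ((Mor.ofHom 𝒰 φ).c₃ b) hφ
  rw [← Nat.cast_smul_eq_nsmul k, ← Hmid.of_smul]
  exact of_congr e _ _

include hn in
theorem h0_nsmul (x : ↥(H0 𝒰 A)) : (Mor.ofHom 𝒰 ψ).h0 x = n • (Mor.ofHom 𝒰 φ).h0 x := by
  apply Subtype.ext
  apply Subtype.ext
  change ψ.hom (x : A) = ((n • (Mor.ofHom 𝒰 φ).h0 x : ↥(H0 𝒰 A')) : A')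
  rw [hn]
  rfl

/-- the identity induces the identity -/
theorem h1_id (x : H1 𝒰 A) : (Mor.ofHom 𝒰 (𝟙 A)).h1 x = x := by
  obtain ⟨b, hb, rfl⟩ := Hmid.exists_of x
  rfl

theorem h2_id (x : H2 𝒰 A) : (Mor.ofHom 𝒰 (𝟙 A)).h2 x = x := by
  obtain ⟨b, hb, rfl⟩ := Hmid.exists_of x
  rfl

theorem h3_id (x : H3 𝒰 A) : (Mor.ofHom 𝒰 (𝟙 A)).h3 x = x := by
  obtain ⟨b, hb, rfl⟩ := Hmid.exists_of x
  rfl

end Generic


/-! ### the objects over an open subgroup `H ≤ GQ` -/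

variable (S : Finset Nat.Primes) (H : Subgroup Defs.GQ)

/-- the restricted basis of `↥H` -/
abbrev bH : NBasis ↥H := Defs.NBasis.sub (globalBasis S) H
/-- `μ_p` over `H` -/
abbrev muH (p : ℕ) : Rep.{0, 0, 0} ℤ ↥H := Rep.res H.subtype (Defs.muP p)
/-- the `S`-units of `ℚ_S` over `H` -/
abbrev oH : Rep.{0, 0, 0} ℤ ↥H := Rep.res H.subtype (Defs.OS S)
/-- `ℚ_Sˣ` over `H` -/
abbrev kH : Rep.{0, 0, 0} ℤ ↥H := Rep.res H.subtype (Defs.KS S)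
/-- `ℚ_Sˣ / O` over `H` -/
abbrev prH : Rep.{0, 0, 0} ℤ ↥H := Rep.res H.subtype (Defs.PrinS S)

/-- `O → Kx` over `H` -/
abbrev φi : oH S H ⟶ kH S H := (Rep.resFunctor H.subtype).map (Defs.osToKS S)
/-- `Kx → Prin` over `H` -/
abbrev φπ : kH S H ⟶ prH S H := (Rep.resFunctor H.subtype).map (Defs.ksToPrin S)
/-- `μ_p → O` over `H` -/
abbrev φj (p : ℕ) [Fact p.Prime] (hpS : pPrime p ∈ S) : muH H p ⟶ oH S H :=
  (Rep.resFunctor H.subtype).map (muToOS S p hpS)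
/-- `p : O → O` over `H` -/
abbrev φp (n : ℕ) : oH S H ⟶ oH S H := (Rep.resFunctor H.subtype).map (powOS S n)

/-! ### (Div): the maps -/

section DivMaps

/-- `H⁰(O) → H⁰(Kx)` -/
def i₀ : ↥(H0 (bH S H) (oH S H)) →+ ↥(H0 (bH S H) (kH S H)) :=
  (Mor.ofHom (bH S H) (φi S H)).h0.toAddMonoidHom
/-- `H¹(O) → H¹(Kx)` -/
def i₁ : H1 (bH S H) (oH S H) →+ H1 (bH S H) (kH S H) :=
  (Mor.ofHom (bH S H) (φi S H)).h1.toAddMonoidHom
/-- `H²(O) → H²(Kx)` -/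
def i₂ : H2 (bH S H) (oH S H) →+ H2 (bH S H) (kH S H) :=
  (Mor.ofHom (bH S H) (φi S H)).h2.toAddMonoidHom
/-- `H³(O) → H³(Kx)` -/
def i₃ : H3 (bH S H) (oH S H) →+ H3 (bH S H) (kH S H) :=
  (Mor.ofHom (bH S H) (φi S H)).h3.toAddMonoidHom

/-- `H⁰(Kx) → H⁰(Prin)` -/
def π₀ : ↥(H0 (bH S H) (kH S H)) →+ ↥(H0 (bH S H) (prH S H)) :=
  (Mor.ofHom (bH S H) (φπ S H)).h0.toAddMonoidHom
/-- `H¹(Kx) → H¹(Prin)` -/
def π₁ : H1 (bH S H) (kH S H) →+ H1 (bH S H) (prH S H) :=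
  (Mor.ofHom (bH S H) (φπ S H)).h1.toAddMonoidHom
/-- `H²(Kx) → H²(Prin)` -/
def π₂ : H2 (bH S H) (kH S H) →+ H2 (bH S H) (prH S H) :=
  (Mor.ofHom (bH S H) (φπ S H)).h2.toAddMonoidHom
/-- `H³(Kx) → H³(Prin)` -/
def π₃ : H3 (bH S H) (kH S H) →+ H3 (bH S H) (prH S H) :=
  (Mor.ofHom (bH S H) (φπ S H)).h3.toAddMonoidHom

variable {S H}
variable (hH : Defs.IsOpenSub (globalBasis S) H)

/-- connecting map `H⁰(Prin) → H¹(O)` -/
def d₀ : ↥(H0 (bH S H) (prH S H)) →+ H1 (bH S H) (oH S H) :=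
  (δ₀ (divSES_open hH)).toAddMonoidHom
/-- connecting map `H¹(Prin) → H²(O)` -/
def d₁ : H1 (bH S H) (prH S H) →+ H2 (bH S H) (oH S H) :=
  (δ₁ (divSES_open hH)).toAddMonoidHom
/-- connecting map `H²(Prin) → H³(O)` -/
def d₂ : H2 (bH S H) (prH S H) →+ H3 (bH S H) (oH S H) :=
  (δ₂ (divSES_open hH)).toAddMonoidHom

end DivMaps

/-! ### (Div): exactness -/

section DivExact

variable {S H}
variable (hH : Defs.IsOpenSub (globalBasis S) H)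
include hH

theorem i₀_injective : Function.Injective (i₀ S H) := h0_injective (divSES_open hH)

theorem π₀_i₀ (x : ↥(H0 (bH S H) (oH S H))) : π₀ S H (i₀ S H x) = 0 :=
  (exact_h0_h0 (divSES_open hH) _).2 ⟨x, rfl⟩
theorem exists_i₀_of_π₀ (z : ↥(H0 (bH S H) (kH S H))) (hz : π₀ S H z = 0) :
    ∃ x, i₀ S H x = z := (exact_h0_h0 (divSES_open hH) z).1 hz

theorem d₀_π₀ (z : ↥(H0 (bH S H) (kH S H))) : d₀ hH (π₀ S H z) = 0 :=
  (exact_h0_δ₀ (divSES_open hH) _).2 ⟨z, rfl⟩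
theorem exists_π₀_of_d₀ (e : ↥(H0 (bH S H) (prH S H))) (he : d₀ hH e = 0) :
    ∃ z, π₀ S H z = e := (exact_h0_δ₀ (divSES_open hH) e).1 he

theorem i₁_d₀ (e : ↥(H0 (bH S H) (prH S H))) : i₁ S H (d₀ hH e) = 0 :=
  (exact_δ₀_h1 (divSES_open hH) _).2 ⟨e, rfl⟩
theorem exists_d₀_of_i₁ (x : H1 (bH S H) (oH S H)) (hx : i₁ S H x = 0) :
    ∃ e, d₀ hH e = x := (exact_δ₀_h1 (divSES_open hH) x).1 hx

theorem π₁_i₁ (x : H1 (bH S H) (oH S H)) : π₁ S H (i₁ S H x) = 0 :=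
  (exact_h1_h1 (divSES_open hH) _).2 ⟨x, rfl⟩
theorem exists_i₁_of_π₁ (z : H1 (bH S H) (kH S H)) (hz : π₁ S H z = 0) :
    ∃ x, i₁ S H x = z := (exact_h1_h1 (divSES_open hH) z).1 hz

theorem d₁_π₁ (z : H1 (bH S H) (kH S H)) : d₁ hH (π₁ S H z) = 0 :=
  (exact_h1_δ₁ (divSES_open hH) _).2 ⟨z, rfl⟩
theorem exists_π₁_of_d₁ (e : H1 (bH S H) (prH S H)) (he : d₁ hH e = 0) :
    ∃ z, π₁ S H z = e := (exact_h1_δ₁ (divSES_open hH) e).1 he

/-- `hid` of the skeletons -/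
theorem i₂_d₁ (e : H1 (bH S H) (prH S H)) : i₂ S H (d₁ hH e) = 0 :=
  (exact_δ₁_h2 (divSES_open hH) _).2 ⟨e, rfl⟩
/-- `hex` of the skeletons: exactness of (Div) at `H²(O)` -/
theorem exists_d₁_of_i₂ (x : H2 (bH S H) (oH S H)) (hx : i₂ S H x = 0) :
    ∃ e, d₁ hH e = x := (exact_δ₁_h2 (divSES_open hH) x).1 hx

theorem π₂_i₂ (x : H2 (bH S H) (oH S H)) : π₂ S H (i₂ S H x) = 0 :=
  (exact_h2_h2 (divSES_open hH) _).2 ⟨x, rfl⟩
/-- `hexK` of the skeletons: exactness of (Div) at `H²(Kx)` -/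
theorem exists_i₂_of_π₂ (z : H2 (bH S H) (kH S H)) (hz : π₂ S H z = 0) :
    ∃ x, i₂ S H x = z := (exact_h2_h2 (divSES_open hH) z).1 hz

/-- `hdπ` of the skeletons -/
theorem d₂_π₂ (z : H2 (bH S H) (kH S H)) : d₂ hH (π₂ S H z) = 0 :=
  (exact_h2_δ₂ (divSES_open hH) _).2 ⟨z, rfl⟩
theorem exists_π₂_of_d₂ (e : H2 (bH S H) (prH S H)) (he : d₂ hH e = 0) :
    ∃ z, π₂ S H z = e := (exact_h2_δ₂ (divSES_open hH) e).1 he

theorem i₃_d₂ (e : H2 (bH S H) (prH S H)) : i₃ S H (d₂ hH e) = 0 :=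
  (exact_δ₂_h3 (divSES_open hH) _).2 ⟨e, rfl⟩
/-- `hex3` of the skeletons: exactness of (Div) at `H³(O)` -/
theorem exists_d₂_of_i₃ (y : H3 (bH S H) (oH S H)) (hy : i₃ S H y = 0) :
    ∃ e, d₂ hH e = y := (exact_δ₂_h3 (divSES_open hH) y).1 hy

theorem π₃_i₃ (y : H3 (bH S H) (oH S H)) : π₃ S H (i₃ S H y) = 0 :=
  (exact_h3_h3 (divSES_open hH) _).2 ⟨y, rfl⟩
theorem exists_i₃_of_π₃ (z : H3 (bH S H) (kH S H)) (hz : π₃ S H z = 0) :
    ∃ y, i₃ S H y = z := (exact_h3_h3 (divSES_open hH) z).1 hz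

/-- `d₀` is onto as soon as `H¹(Kx) = 0` (Hilbert 90) -/
theorem d₀_surjective (h90 : ∀ z : H1 (bH S H) (kH S H), z = 0) :
    Function.Surjective (d₀ hH) := fun x =>
  exists_d₀_of_i₁ hH x (h90 _)

/-- `d₁` is injective as soon as `H¹(Kx) = 0` (Hilbert 90): `hd` of the skeletons -/
theorem d₁_injective (h90 : ∀ z : H1 (bH S H) (kH S H), z = 0) :
    Function.Injective (d₁ hH) := by
  rw [injective_iff_map_eq_zero]
  intro e he
  obtain ⟨z, rfl⟩ := exists_π₁_of_d₁ hH e he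
  rw [h90 z, map_zero]

end DivExact


/-! ### (Kum): the maps -/

section KumMaps

variable (p : ℕ) [Fact p.Prime] (hpS : pPrime p ∈ S)

/-- `H⁰(μ_p) → H⁰(O)` -/
def j₀ : ↥(H0 (bH S H) (muH H p)) →+ ↥(H0 (bH S H) (oH S H)) :=
  (Mor.ofHom (bH S H) (φj S H p hpS)).h0.toAddMonoidHom
/-- `H¹(μ_p) → H¹(O)` -/
def j₁ : H1 (bH S H) (muH H p) →+ H1 (bH S H) (oH S H) :=
  (Mor.ofHom (bH S H) (φj S H p hpS)).h1.toAddMonoidHom
/-- `H²(μ_p) → H²(O)` -/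
def j₂ : H2 (bH S H) (muH H p) →+ H2 (bH S H) (oH S H) :=
  (Mor.ofHom (bH S H) (φj S H p hpS)).h2.toAddMonoidHom
/-- `H³(μ_p) → H³(O)` -/
def j₃ : H3 (bH S H) (muH H p) →+ H3 (bH S H) (oH S H) :=
  (Mor.ofHom (bH S H) (φj S H p hpS)).h3.toAddMonoidHom

variable {S H}
variable (hH : Defs.IsOpenSub (globalBasis S) H)

/-- Kummer connecting map `H⁰(O) → H¹(μ_p)` -/
def k₀ : ↥(H0 (bH S H) (oH S H)) →+ H1 (bH S H) (muH H p) :=
  (δ₀ (kummerSES_open p hpS hH)).toAddMonoidHom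
/-- Kummer connecting map `H¹(O) → H²(μ_p)` -/
def k₁ : H1 (bH S H) (oH S H) →+ H2 (bH S H) (muH H p) :=
  (δ₁ (kummerSES_open p hpS hH)).toAddMonoidHom
/-- Kummer connecting map `H²(O) → H³(μ_p)` -/
def k₂ : H2 (bH S H) (oH S H) →+ H3 (bH S H) (muH H p) :=
  (δ₂ (kummerSES_open p hpS hH)).toAddMonoidHom

end KumMaps

/-! ### the `p`-th power map induces multiplication by `p` -/

section Pow

lemma φp_hom_apply (n : ℕ) (a : oH S H) : (φp S H n).hom a = n • (𝟙 (oH S H) : oH S H ⟶ oH S H).hom a := by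
  change ((n : ℤ) • (a : Defs.OS S)) = n • a
  rw [natCast_zsmul]

theorem pow_h0 (n : ℕ) (x : ↥(H0 (bH S H) (oH S H))) :
    (Mor.ofHom (bH S H) (φp S H n)).h0 x = n • x := by
  rw [h0_nsmul (bH S H) (𝟙 _) (φp S H n) n (φp_hom_apply S H n)]
  rfl

theorem pow_h1 (n : ℕ) (x : H1 (bH S H) (oH S H)) :
    (Mor.ofHom (bH S H) (φp S H n)).h1 x = n • x := by
  rw [h1_nsmul (bH S H) (𝟙 _) (φp S H n) n (φp_hom_apply S H n), h1_id]

theorem pow_h2 (n : ℕ) (x : H2 (bH S H) (oH S H)) :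
    (Mor.ofHom (bH S H) (φp S H n)).h2 x = n • x := by
  rw [h2_nsmul (bH S H) (𝟙 _) (φp S H n) n (φp_hom_apply S H n), h2_id]

theorem pow_h3 (n : ℕ) (x : H3 (bH S H) (oH S H)) :
    (Mor.ofHom (bH S H) (φp S H n)).h3 x = n • x := by
  rw [h3_nsmul (bH S H) (𝟙 _) (φp S H n) n (φp_hom_apply S H n), h3_id]

/-- `p` kills `μ_p` -/
lemma nsmul_muP (p : ℕ) (a : Defs.muP p) : p • a = 0 := by
  apply unitOf_injective
  have h : unitOf (p • a) = unitOf a ^ p := rfl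
  rw [h]
  have := unitOf_mem a
  rw [MonoidHom.mem_ker, powMonoidHom_apply] at this
  rw [this]
  rfl

lemma id_muH_apply (p : ℕ) (a : muH H p) :
    (𝟙 (muH H p) : muH H p ⟶ muH H p).hom a = (p + 1) • (𝟙 (muH H p) : muH H p ⟶ muH H p).hom a := by
  change a = (p + 1) • a
  rw [add_smul, one_smul]
  have : p • a = 0 := nsmul_muP p a
  rw [this, zero_add]

/-- `hmu`: `H¹(μ_p)` is killed by `p` -/
theorem nsmul_H1_mu (p : ℕ) (y : H1 (bH S H) (muH H p)) : p • y = 0 := by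
  have h := h1_nsmul (bH S H) (𝟙 _) (𝟙 _) (p + 1) (id_muH_apply H p) y
  rw [h1_id, add_smul, one_smul] at h
  exact (add_eq_right.1 h.symm)

/-- `hmu`: `H²(μ_p)` is killed by `p` -/
theorem nsmul_H2_mu (p : ℕ) (y : H2 (bH S H) (muH H p)) : p • y = 0 := by
  have h := h2_nsmul (bH S H) (𝟙 _) (𝟙 _) (p + 1) (id_muH_apply H p) y
  rw [h2_id, add_smul, one_smul] at h
  exact (add_eq_right.1 h.symm)

/-- `hmu`: `H³(μ_p)` is killed by `p` -/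
theorem nsmul_H3_mu (p : ℕ) (y : H3 (bH S H) (muH H p)) : p • y = 0 := by
  have h := h3_nsmul (bH S H) (𝟙 _) (𝟙 _) (p + 1) (id_muH_apply H p) y
  rw [h3_id, add_smul, one_smul] at h
  exact (add_eq_right.1 h.symm)

end Pow

/-! ### (Kum): exactness -/

section KumExact

variable {S H}
variable (p : ℕ) [Fact p.Prime] (hpS : pPrime p ∈ S) (hH : Defs.IsOpenSub (globalBasis S) H)
include hH

theorem j₀_injective : Function.Injective (j₀ S H p hpS) := h0_injective (kummerSES_open p hpS hH)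

theorem nsmul_j₀ (y : ↥(H0 (bH S H) (muH H p))) : p • j₀ S H p hpS y = 0 := by
  rw [← pow_h0]
  exact (exact_h0_h0 (kummerSES_open p hpS hH) _).2 ⟨y, rfl⟩
theorem exists_j₀_of_nsmul (x : ↥(H0 (bH S H) (oH S H))) (hx : p • x = 0) :
    ∃ y, j₀ S H p hpS y = x := by
  rw [← pow_h0] at hx
  exact (exact_h0_h0 (kummerSES_open p hpS hH) x).1 hx

theorem k₀_nsmul (x : ↥(H0 (bH S H) (oH S H))) : k₀ p hpS hH (p • x) = 0 := by
  rw [← pow_h0]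
  exact (exact_h0_δ₀ (kummerSES_open p hpS hH) _).2 ⟨x, rfl⟩
theorem exists_nsmul_of_k₀ (x : ↥(H0 (bH S H) (oH S H))) (hx : k₀ p hpS hH x = 0) :
    ∃ x', p • x' = x := by
  obtain ⟨x', hx'⟩ := (exact_h0_δ₀ (kummerSES_open p hpS hH) x).1 hx
  exact ⟨x', by rw [← pow_h0]; exact hx'⟩

theorem j₁_k₀ (x : ↥(H0 (bH S H) (oH S H))) : j₁ S H p hpS (k₀ p hpS hH x) = 0 :=
  (exact_δ₀_h1 (kummerSES_open p hpS hH) _).2 ⟨x, rfl⟩
theorem exists_k₀_of_j₁ (y : H1 (bH S H) (muH H p)) (hy : j₁ S H p hpS y = 0) :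
    ∃ x, k₀ p hpS hH x = y := (exact_δ₀_h1 (kummerSES_open p hpS hH) y).1 hy

theorem nsmul_j₁ (y : H1 (bH S H) (muH H p)) : p • j₁ S H p hpS y = 0 := by
  rw [← pow_h1]
  exact (exact_h1_h1 (kummerSES_open p hpS hH) _).2 ⟨y, rfl⟩
theorem exists_j₁_of_nsmul (a : H1 (bH S H) (oH S H)) (ha : p • a = 0) :
    ∃ y, j₁ S H p hpS y = a := by
  rw [← pow_h1] at ha
  exact (exact_h1_h1 (kummerSES_open p hpS hH) a).1 ha

theorem k₁_nsmul (a : H1 (bH S H) (oH S H)) : k₁ p hpS hH (p • a) = 0 := by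
  rw [← pow_h1]
  exact (exact_h1_δ₁ (kummerSES_open p hpS hH) _).2 ⟨a, rfl⟩
theorem exists_nsmul_of_k₁ (a : H1 (bH S H) (oH S H)) (ha : k₁ p hpS hH a = 0) :
    ∃ a', p • a' = a := by
  obtain ⟨a', ha'⟩ := (exact_h1_δ₁ (kummerSES_open p hpS hH) a).1 ha
  exact ⟨a', by rw [← pow_h1]; exact ha'⟩

theorem j₂_k₁ (a : H1 (bH S H) (oH S H)) : j₂ S H p hpS (k₁ p hpS hH a) = 0 :=
  (exact_δ₁_h2 (kummerSES_open p hpS hH) _).2 ⟨a, rfl⟩
/-- `hkj` of the skeletons: exactness of (Kum) at `H²(μ_p)` -/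
theorem exists_k₁_of_j₂ (y : H2 (bH S H) (muH H p)) (hy : j₂ S H p hpS y = 0) :
    ∃ a, k₁ p hpS hH a = y := (exact_δ₁_h2 (kummerSES_open p hpS hH) y).1 hy

theorem nsmul_j₂ (y : H2 (bH S H) (muH H p)) : p • j₂ S H p hpS y = 0 := by
  rw [← pow_h2]
  exact (exact_h2_h2 (kummerSES_open p hpS hH) _).2 ⟨y, rfl⟩
theorem exists_j₂_of_nsmul (x : H2 (bH S H) (oH S H)) (hx : p • x = 0) :
    ∃ y, j₂ S H p hpS y = x := by
  rw [← pow_h2] at hx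
  exact (exact_h2_h2 (kummerSES_open p hpS hH) x).1 hx

/-- `hkp` of the skeletons -/
theorem k₂_nsmul (x : H2 (bH S H) (oH S H)) : k₂ p hpS hH (p • x) = 0 := by
  rw [← pow_h2]
  exact (exact_h2_δ₂ (kummerSES_open p hpS hH) _).2 ⟨x, rfl⟩
theorem exists_nsmul_of_k₂ (x : H2 (bH S H) (oH S H)) (hx : k₂ p hpS hH x = 0) :
    ∃ x', p • x' = x := by
  obtain ⟨x', hx'⟩ := (exact_h2_δ₂ (kummerSES_open p hpS hH) x).1 hx
  exact ⟨x', by rw [← pow_h2]; exact hx'⟩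

theorem j₃_k₂ (x : H2 (bH S H) (oH S H)) : j₃ S H p hpS (k₂ p hpS hH x) = 0 :=
  (exact_δ₂_h3 (kummerSES_open p hpS hH) _).2 ⟨x, rfl⟩
/-- `hexmu` of the skeletons: exactness of (Kum) at `H³(μ_p)` -/
theorem exists_k₂_of_j₃ (w : H3 (bH S H) (muH H p)) (hw : j₃ S H p hpS w = 0) :
    ∃ x, k₂ p hpS hH x = w := (exact_δ₂_h3 (kummerSES_open p hpS hH) w).1 hw

theorem nsmul_j₃ (w : H3 (bH S H) (muH H p)) : p • j₃ S H p hpS w = 0 := by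
  rw [← pow_h3]
  exact (exact_h3_h3 (kummerSES_open p hpS hH) _).2 ⟨w, rfl⟩
theorem exists_j₃_of_nsmul (y : H3 (bH S H) (oH S H)) (hy : p • y = 0) :
    ∃ w, j₃ S H p hpS w = y := by
  rw [← pow_h3] at hy
  exact (exact_h3_h3 (kummerSES_open p hpS hH) y).1 hy

end KumExact

end

end Fermat.Agent.S55.Middle.LESGlue
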