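/-
S55 / Middle (helper66): row M.sylow (#1807 (4)) — RESTRICTION–CORESTRICTION in the language of
`Formal/LC.lean` + `Bridge/ShapiroLC.lean`.

`G` a group with basis `𝒰`, `H ≤ G` an open subgroup of index `n`, `M : Rep k G` (any commutative
ring `k`; `k = ℤ` and `k = ZMod p` are the uses).  A class `x ∈ H^i_LC(G; M)` (`i = 1, 2, 3`) whose
restriction to `(H, subBasis 𝒰 H)` vanishes is killed by `n`.  Hence restriction to `H` is injective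
on classes killed by an integer prime to `n` (Sylow reduction).

Proof: unit `u : M ⟶ coind_H^G res M`, norm `ν : coind_H^G res M ⟶ M`, `ν ∘ u = n`; Shapiro's `sh`
composed with `u_*` is the restriction, and `sh_*` is injective.
-/
import Fermat.Agent.S55.Formal.LC
import Fermat.Agent.S55.Formal.Summand
import Fermat.Agent.S55.Bridge.ShapiroLC

set_option autoImplicit false

open CategoryTheory

namespace Fermat.Agent.S55.Middle.Sylow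

open Fermat.Agent.S55.Formal Fermat.Agent.S55.Bridge.ShapiroLC

noncomputable section

variable {k : Type} [CommRing k] {G : Type} [Group G] (H : Subgroup G) (M : Rep.{0, 0, 0} k G)

/-! ### the norm `coind_H^G res_H^G M ⟶ M` -/

/-- the norm (trace) as a linear map: `f ↦ ∑_{gH} g • f (g⁻¹)`. -/
def nmLin [H.FiniteIndex] : (Summand.I H M).V →ₗ[k] M.V :=
  letI : Fintype (G ⧸ H) := Fintype.ofFinite _
  ∑ c : G ⧸ H, (M.ρ c.out) ∘ₗ (LinearMap.proj (c.out)⁻¹) ∘ₗ (Submodule.subtype _)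

lemma nmLin_apply [H.FiniteIndex] [Fintype (G ⧸ H)] (f : Summand.I H M) :
    nmLin H M f = ∑ c : G ⧸ H, M.ρ c.out (f.1 (c.out)⁻¹) := by
  unfold nmLin
  simp only [LinearMap.sum_apply, LinearMap.comp_apply]
  refine Finset.sum_congr (by ext; simp) (fun c _ => rfl)

lemma nmLin_equivariant [H.FiniteIndex] (x : G) (f : Summand.I H M) :
    nmLin H M ((Summand.I H M).ρ x f) = M.ρ x (nmLin H M f) := by
  let _ : Fintype (G ⧸ H) := Fintype.ofFinite _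
  rw [nmLin_apply, nmLin_apply]
  set T : G ⧸ H → M.V := fun c => M.ρ c.out (f.1 (c.out)⁻¹) with hT
  have key : ∀ c : G ⧸ H,
      M.ρ c.out (((Summand.I H M).ρ x f).1 (c.out)⁻¹) = M.ρ x (T (x⁻¹ • c)) := by
    intro c
    have h1 : ((Summand.I H M).ρ x f).1 (c.out)⁻¹ = f.1 ((c.out)⁻¹ * x) := rfl
    have h2 : x⁻¹ • c = ((x⁻¹ * c.out : G) : G ⧸ H) := by
      conv_lhs => rw [← QuotientGroup.out_eq' c]
      rfl
    rw [h1, hT]
    simp only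
    rw [h2, Summand.term_out]
    simp [← Module.End.mul_apply, ← map_mul]
  rw [Finset.sum_congr rfl (fun c _ => key c), ← map_sum]
  congr 1
  exact Equiv.sum_comp (MulAction.toPerm x⁻¹) T

/-- the norm `coind_H^G res_H^G M ⟶ M`. -/
def nm [H.FiniteIndex] : Summand.I H M ⟶ M :=
  Rep.ofHom ⟨nmLin H M, fun x => LinearMap.ext fun f => nmLin_equivariant H M x f⟩

lemma nm_hom_apply [H.FiniteIndex] [Fintype (G ⧸ H)] (f : Summand.I H M) :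
    (nm H M).hom f = ∑ c : G ⧸ H, M.ρ c.out (f.1 (c.out)⁻¹) :=
  nmLin_apply H M f

/-- `ν ∘ u = [G : H]`. -/
lemma nm_unit_apply [H.FiniteIndex] (m : M) :
    (nm H M).hom ((Summand.unit H M).hom m) = (H.index : k) • m := by
  let _ : Fintype (G ⧸ H) := Fintype.ofFinite _
  rw [nm_hom_apply]
  have : ∀ c : G ⧸ H, M.ρ c.out (((Summand.unit H M).hom m).1 (c.out)⁻¹) = m := by
    intro c
    rw [Summand.unit_hom_apply_coe]
    simp [← Module.End.mul_apply, ← map_mul]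
  rw [Finset.sum_congr rfl (fun c _ => this c)]
  simp only [Finset.sum_const, Finset.card_univ]
  rw [← Nat.card_eq_fintype_card, ← Subgroup.index_eq_card, Nat.cast_smul_eq_nsmul]

/-! ### restriction to an open subgroup, and `res = sh ∘ u_*` -/

variable (𝒰 : NBasis G)

/-- the inclusion `H → G` is continuous for `subBasis 𝒰 H` and `𝒰`. -/
lemma isCont_subtype : IsCont 𝒰 (subBasis 𝒰 H) H.subtype :=
  fun N hN => ⟨N.subgroupOf H, ⟨N, hN, rfl⟩, fun _ hs => hs⟩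

/-- restriction of LC cochains from `G` to the open subgroup `H`. -/
def resMor : Mor 𝒰 M (subBasis 𝒰 H) (Rep.res H.subtype M) :=
  Mor.res 𝒰 (subBasis 𝒰 H) H.subtype (isCont_subtype H 𝒰) M

/-- the unit as a morphism of situations -/
def unitMor : Mor 𝒰 M 𝒰 (Summand.I H M) := Mor.ofHom 𝒰 (Summand.unit H M)

/-- the norm as a morphism of situations -/
def nmMor [H.FiniteIndex] : Mor 𝒰 (Summand.I H M) 𝒰 M := Mor.ofHom 𝒰 (nm H M)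

/-- Shapiro's map for `res M` -/
def shMor : Mor 𝒰 (Summand.I H M) (subBasis 𝒰 H) (Rep.res H.subtype M) :=
  sh 𝒰 H (Rep.res H.subtype M)

lemma sh_unit_c₁ (b : ↥(C₁ 𝒰 M)) :
    (shMor H M 𝒰).c₁ ((unitMor H M 𝒰).c₁ b) = (resMor H M 𝒰).c₁ b := by
  apply Subtype.ext
  funext v
  show M.ρ 1 ((b : G → M) v) = (b : G → M) v
  rw [map_one]; rfl

lemma sh_unit_c₂ (b : ↥(C₂ 𝒰 M)) :
    (shMor H M 𝒰).c₂ ((unitMor H M 𝒰).c₂ b) = (resMor H M 𝒰).c₂ b := by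
  apply Subtype.ext
  funext v
  show M.ρ 1 ((b : G × G → M) _) = (b : G × G → M) _
  rw [map_one]; rfl

lemma sh_unit_c₃ (b : ↥(C₃ 𝒰 M)) :
    (shMor H M 𝒰).c₃ ((unitMor H M 𝒰).c₃ b) = (resMor H M 𝒰).c₃ b := by
  apply Subtype.ext
  funext v
  show M.ρ 1 ((b : G × G × G → M) _) = (b : G × G × G → M) _
  rw [map_one]; rfl

lemma nm_unit_c₁ [H.FiniteIndex] (b : ↥(C₁ 𝒰 M)) :
    (nmMor H M 𝒰).c₁ ((unitMor H M 𝒰).c₁ b) = (H.index : k) • b := by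
  apply Subtype.ext
  funext v
  exact nm_unit_apply H M _

lemma nm_unit_c₂ [H.FiniteIndex] (b : ↥(C₂ 𝒰 M)) :
    (nmMor H M 𝒰).c₂ ((unitMor H M 𝒰).c₂ b) = (H.index : k) • b := by
  apply Subtype.ext
  funext v
  exact nm_unit_apply H M _

lemma nm_unit_c₃ [H.FiniteIndex] (b : ↥(C₃ 𝒰 M)) :
    (nmMor H M 𝒰).c₃ ((unitMor H M 𝒰).c₃ b) = (H.index : k) • b := by
  apply Subtype.ext
  funext v
  exact nm_unit_apply H M _

/-! ### on cohomology -/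

theorem sh_unit_h1 (x : H1 𝒰 M) :
    (shMor H M 𝒰).h1 ((unitMor H M 𝒰).h1 x) = (resMor H M 𝒰).h1 x := by
  obtain ⟨b, hb, rfl⟩ := Hmid.exists_of x
  have e := sh_unit_c₁ H M 𝒰 b
  have hb' : dC₁ (subBasis 𝒰 H) (Rep.res H.subtype M) ((resMor H M 𝒰).c₁ b) = 0 := by
    have := LinearMap.congr_fun (resMor H M 𝒰).c₂_dC₁ b
    simp only [LinearMap.comp_apply] at this
    rw [← this, hb, map_zero]
  have hb'' : dC₁ (subBasis 𝒰 H) (Rep.res H.subtype M)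
      ((shMor H M 𝒰).c₁ ((unitMor H M 𝒰).c₁ b)) = 0 := by rw [e]; exact hb'
  show Hmid.of ((shMor H M 𝒰).c₁ ((unitMor H M 𝒰).c₁ b)) hb'' =
    Hmid.of ((resMor H M 𝒰).c₁ b) hb'
  congr 1

theorem sh_unit_h2 (x : H2 𝒰 M) :
    (shMor H M 𝒰).h2 ((unitMor H M 𝒰).h2 x) = (resMor H M 𝒰).h2 x := by
  obtain ⟨b, hb, rfl⟩ := Hmid.exists_of x
  have e := sh_unit_c₂ H M 𝒰 b
  have hb' : dC₂ (subBasis 𝒰 H) (Rep.res H.subtype M) ((resMor H M 𝒰).c₂ b) = 0 := by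
    have := LinearMap.congr_fun (resMor H M 𝒰).c₃_dC₂ b
    simp only [LinearMap.comp_apply] at this
    rw [← this, hb, map_zero]
  have hb'' : dC₂ (subBasis 𝒰 H) (Rep.res H.subtype M)
      ((shMor H M 𝒰).c₂ ((unitMor H M 𝒰).c₂ b)) = 0 := by rw [e]; exact hb'
  show Hmid.of ((shMor H M 𝒰).c₂ ((unitMor H M 𝒰).c₂ b)) hb'' =
    Hmid.of ((resMor H M 𝒰).c₂ b) hb'
  congr 1

theorem sh_unit_h3 (x : H3 𝒰 M) :
    (shMor H M 𝒰).h3 ((unitMor H M 𝒰).h3 x) = (resMor H M 𝒰).h3 x := by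
  obtain ⟨b, hb, rfl⟩ := Hmid.exists_of x
  have e := sh_unit_c₃ H M 𝒰 b
  have hb' : dC₃ (subBasis 𝒰 H) (Rep.res H.subtype M) ((resMor H M 𝒰).c₃ b) = 0 := by
    have := LinearMap.congr_fun (resMor H M 𝒰).p₄_dC₃ b
    simp only [LinearMap.comp_apply] at this
    rw [← this, hb, map_zero]
  have hb'' : dC₃ (subBasis 𝒰 H) (Rep.res H.subtype M)
      ((shMor H M 𝒰).c₃ ((unitMor H M 𝒰).c₃ b)) = 0 := by rw [e]; exact hb'
  show Hmid.of ((shMor H M 𝒰).c₃ ((unitMor H M 𝒰).c₃ b)) hb'' =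
    Hmid.of ((resMor H M 𝒰).c₃ b) hb'
  congr 1

theorem nm_unit_h1 [H.FiniteIndex] (x : H1 𝒰 M) :
    (nmMor H M 𝒰).h1 ((unitMor H M 𝒰).h1 x) = (H.index : k) • x := by
  obtain ⟨b, hb, rfl⟩ := Hmid.exists_of x
  have e := nm_unit_c₁ H M 𝒰 b
  have hb'' : dC₁ 𝒰 M ((nmMor H M 𝒰).c₁ ((unitMor H M 𝒰).c₁ b)) = 0 := by
    rw [e, map_smul, hb, smul_zero]
  rw [← Hmid.of_smul (f := dC₀ 𝒰 M) (H.index : k) hb]
  show Hmid.of ((nmMor H M 𝒰).c₁ ((unitMor H M 𝒰).c₁ b)) hb'' = _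
  congr 1

theorem nm_unit_h2 [H.FiniteIndex] (x : H2 𝒰 M) :
    (nmMor H M 𝒰).h2 ((unitMor H M 𝒰).h2 x) = (H.index : k) • x := by
  obtain ⟨b, hb, rfl⟩ := Hmid.exists_of x
  have e := nm_unit_c₂ H M 𝒰 b
  have hb'' : dC₂ 𝒰 M ((nmMor H M 𝒰).c₂ ((unitMor H M 𝒰).c₂ b)) = 0 := by
    rw [e, map_smul, hb, smul_zero]
  rw [← Hmid.of_smul (f := dC₁ 𝒰 M) (H.index : k) hb]
  show Hmid.of ((nmMor H M 𝒰).c₂ ((unitMor H M 𝒰).c₂ b)) hb'' = _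
  congr 1

theorem nm_unit_h3 [H.FiniteIndex] (x : H3 𝒰 M) :
    (nmMor H M 𝒰).h3 ((unitMor H M 𝒰).h3 x) = (H.index : k) • x := by
  obtain ⟨b, hb, rfl⟩ := Hmid.exists_of x
  have e := nm_unit_c₃ H M 𝒰 b
  have hb'' : dC₃ 𝒰 M ((nmMor H M 𝒰).c₃ ((unitMor H M 𝒰).c₃ b)) = 0 := by
    rw [e, map_smul, hb, smul_zero]
  rw [← Hmid.of_smul (f := dC₂ 𝒰 M) (H.index : k) hb]
  show Hmid.of ((nmMor H M 𝒰).c₃ ((unitMor H M 𝒰).c₃ b)) hb'' = _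
  congr 1

/-! ### corestriction and `cor ∘ res = [G : H]` -/

variable {H} in
lemma finiteIndex_of_open (hH : ∃ N, 𝒰.mem N ∧ N ≤ H) : H.FiniteIndex := by
  obtain ⟨N, hN, hle⟩ := hH
  have := 𝒰.finiteIndex hN
  exact Subgroup.finiteIndex_of_le hle

/-- Shapiro's isomorphism in degree 1 -/
def shEquiv1 (hH : ∃ N, 𝒰.mem N ∧ N ≤ H) :
    H1 𝒰 (Summand.I H M) ≃ₗ[k] H1 (subBasis 𝒰 H) (Rep.res H.subtype M) :=
  LinearEquiv.ofBijective (shMor H M 𝒰).h1 (sh_h1_bijective (𝒰 := 𝒰) (V := H) (A := Rep.res H.subtype M) hH)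

/-- Shapiro's isomorphism in degree 2 -/
def shEquiv2 (hH : ∃ N, 𝒰.mem N ∧ N ≤ H) :
    H2 𝒰 (Summand.I H M) ≃ₗ[k] H2 (subBasis 𝒰 H) (Rep.res H.subtype M) :=
  LinearEquiv.ofBijective (shMor H M 𝒰).h2 (sh_h2_bijective (𝒰 := 𝒰) (V := H) (A := Rep.res H.subtype M) hH)

/-- Shapiro's isomorphism in degree 3 -/
def shEquiv3 (hH : ∃ N, 𝒰.mem N ∧ N ≤ H) :
    H3 𝒰 (Summand.I H M) ≃ₗ[k] H3 (subBasis 𝒰 H) (Rep.res H.subtype M) :=
  LinearEquiv.ofBijective (shMor H M 𝒰).h3 (sh_h3_bijective (𝒰 := 𝒰) (V := H) (A := Rep.res H.subtype M) hH)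

/-- corestriction `H¹_LC(H; M) → H¹_LC(G; M)` -/
def cor1 (hH : ∃ N, 𝒰.mem N ∧ N ≤ H) :
    H1 (subBasis 𝒰 H) (Rep.res H.subtype M) →ₗ[k] H1 𝒰 M :=
  haveI := finiteIndex_of_open 𝒰 hH
  (nmMor H M 𝒰).h1 ∘ₗ (shEquiv1 H M 𝒰 hH).symm.toLinearMap

/-- corestriction `H²_LC(H; M) → H²_LC(G; M)` -/
def cor2 (hH : ∃ N, 𝒰.mem N ∧ N ≤ H) :
    H2 (subBasis 𝒰 H) (Rep.res H.subtype M) →ₗ[k] H2 𝒰 M :=
  haveI := finiteIndex_of_open 𝒰 hH
  (nmMor H M 𝒰).h2 ∘ₗ (shEquiv2 H M 𝒰 hH).symm.toLinearMap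

/-- corestriction `H³_LC(H; M) → H³_LC(G; M)` -/
def cor3 (hH : ∃ N, 𝒰.mem N ∧ N ≤ H) :
    H3 (subBasis 𝒰 H) (Rep.res H.subtype M) →ₗ[k] H3 𝒰 M :=
  haveI := finiteIndex_of_open 𝒰 hH
  (nmMor H M 𝒰).h3 ∘ₗ (shEquiv3 H M 𝒰 hH).symm.toLinearMap

/-- **`cor ∘ res = [G : H]`** in degree 1. -/
theorem cor1_res (hH : ∃ N, 𝒰.mem N ∧ N ≤ H) (x : H1 𝒰 M) :
    cor1 H M 𝒰 hH ((resMor H M 𝒰).h1 x) = (H.index : k) • x := by
  have := finiteIndex_of_open 𝒰 hH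
  have h : (shEquiv1 H M 𝒰 hH).symm ((resMor H M 𝒰).h1 x) = (unitMor H M 𝒰).h1 x := by
    rw [LinearEquiv.symm_apply_eq]
    exact (sh_unit_h1 H M 𝒰 x).symm
  show (nmMor H M 𝒰).h1 ((shEquiv1 H M 𝒰 hH).symm ((resMor H M 𝒰).h1 x)) = _
  rw [h, nm_unit_h1]

/-- **`cor ∘ res = [G : H]`** in degree 2. -/
theorem cor2_res (hH : ∃ N, 𝒰.mem N ∧ N ≤ H) (x : H2 𝒰 M) :
    cor2 H M 𝒰 hH ((resMor H M 𝒰).h2 x) = (H.index : k) • x := by
  have := finiteIndex_of_open 𝒰 hH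
  have h : (shEquiv2 H M 𝒰 hH).symm ((resMor H M 𝒰).h2 x) = (unitMor H M 𝒰).h2 x := by
    rw [LinearEquiv.symm_apply_eq]
    exact (sh_unit_h2 H M 𝒰 x).symm
  show (nmMor H M 𝒰).h2 ((shEquiv2 H M 𝒰 hH).symm ((resMor H M 𝒰).h2 x)) = _
  rw [h, nm_unit_h2]

/-- **`cor ∘ res = [G : H]`** in degree 3. -/
theorem cor3_res (hH : ∃ N, 𝒰.mem N ∧ N ≤ H) (x : H3 𝒰 M) :
    cor3 H M 𝒰 hH ((resMor H M 𝒰).h3 x) = (H.index : k) • x := by
  have := finiteIndex_of_open 𝒰 hH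
  have h : (shEquiv3 H M 𝒰 hH).symm ((resMor H M 𝒰).h3 x) = (unitMor H M 𝒰).h3 x := by
    rw [LinearEquiv.symm_apply_eq]
    exact (sh_unit_h3 H M 𝒰 x).symm
  show (nmMor H M 𝒰).h3 ((shEquiv3 H M 𝒰 hH).symm ((resMor H M 𝒰).h3 x)) = _
  rw [h, nm_unit_h3]

/-! ### the statements of row M.sylow -/

/-- a class of degree 1 with zero restriction to `H` is killed by `[G : H]`. -/
theorem res_h1_eq_zero_imp (hH : ∃ N, 𝒰.mem N ∧ N ≤ H) (x : H1 𝒰 M)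
    (hx : (resMor H M 𝒰).h1 x = 0) : (H.index : k) • x = 0 := by
  rw [← cor1_res H M 𝒰 hH, hx, map_zero]

/-- a class of degree 2 with zero restriction to `H` is killed by `[G : H]`. -/
theorem res_h2_eq_zero_imp (hH : ∃ N, 𝒰.mem N ∧ N ≤ H) (x : H2 𝒰 M)
    (hx : (resMor H M 𝒰).h2 x = 0) : (H.index : k) • x = 0 := by
  rw [← cor2_res H M 𝒰 hH, hx, map_zero]

/-- a class of degree 3 with zero restriction to `H` is killed by `[G : H]`. -/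
theorem res_h3_eq_zero_imp (hH : ∃ N, 𝒰.mem N ∧ N ≤ H) (x : H3 𝒰 M)
    (hx : (resMor H M 𝒰).h3 x = 0) : (H.index : k) • x = 0 := by
  rw [← cor3_res H M 𝒰 hH, hx, map_zero]

/-- `ℕ`-multiples: the same with `nsmul`. -/
theorem res_h1_eq_zero_imp_nsmul (hH : ∃ N, 𝒰.mem N ∧ N ≤ H) (x : H1 𝒰 M)
    (hx : (resMor H M 𝒰).h1 x = 0) : H.index • x = 0 := by
  rw [← Nat.cast_smul_eq_nsmul k]; exact res_h1_eq_zero_imp H M 𝒰 hH x hx

theorem res_h2_eq_zero_imp_nsmul (hH : ∃ N, 𝒰.mem N ∧ N ≤ H) (x : H2 𝒰 M)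
    (hx : (resMor H M 𝒰).h2 x = 0) : H.index • x = 0 := by
  rw [← Nat.cast_smul_eq_nsmul k]; exact res_h2_eq_zero_imp H M 𝒰 hH x hx

theorem res_h3_eq_zero_imp_nsmul (hH : ∃ N, 𝒰.mem N ∧ N ≤ H) (x : H3 𝒰 M)
    (hx : (resMor H M 𝒰).h3 x = 0) : H.index • x = 0 := by
  rw [← Nat.cast_smul_eq_nsmul k]; exact res_h3_eq_zero_imp H M 𝒰 hH x hx

/-- an element of an additive group killed by two coprime integers is zero -/
lemma eq_zero_of_coprime_nsmul {A : Type*} [AddCommGroup A] (x : A) {m n : ℕ}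
    (hmn : Nat.Coprime m n) (hm : m • x = 0) (hn : n • x = 0) : x = 0 := by
  have h1 : addOrderOf x ∣ m := addOrderOf_dvd_of_nsmul_eq_zero hm
  have h2 : addOrderOf x ∣ n := addOrderOf_dvd_of_nsmul_eq_zero hn
  have h3 : addOrderOf x ∣ 1 := by
    have := Nat.dvd_gcd h1 h2
    rwa [hmn] at this
  exact AddMonoid.addOrderOf_eq_one_iff.mp (Nat.dvd_one.mp h3)

/-- **Sylow reduction**, degree 1: restriction to `H` is injective on the classes killed by an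
integer prime to `[G : H]`. -/
theorem eq_zero_of_res_h1 (hH : ∃ N, 𝒰.mem N ∧ N ≤ H) {m : ℕ} (hm : Nat.Coprime m H.index)
    (x : H1 𝒰 M) (hmx : m • x = 0) (hx : (resMor H M 𝒰).h1 x = 0) : x = 0 :=
  eq_zero_of_coprime_nsmul x hm hmx (res_h1_eq_zero_imp_nsmul H M 𝒰 hH x hx)

/-- **Sylow reduction**, degree 2. -/
theorem eq_zero_of_res_h2 (hH : ∃ N, 𝒰.mem N ∧ N ≤ H) {m : ℕ} (hm : Nat.Coprime m H.index)
    (x : H2 𝒰 M) (hmx : m • x = 0) (hx : (resMor H M 𝒰).h2 x = 0) : x = 0 :=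
  eq_zero_of_coprime_nsmul x hm hmx (res_h2_eq_zero_imp_nsmul H M 𝒰 hH x hx)

/-- **Sylow reduction**, degree 3. -/
theorem eq_zero_of_res_h3 (hH : ∃ N, 𝒰.mem N ∧ N ≤ H) {m : ℕ} (hm : Nat.Coprime m H.index)
    (x : H3 𝒰 M) (hmx : m • x = 0) (hx : (resMor H M 𝒰).h3 x = 0) : x = 0 :=
  eq_zero_of_coprime_nsmul x hm hmx (res_h3_eq_zero_imp_nsmul H M 𝒰 hH x hx)

end

end Fermat.Agent.S55.Middle.Sylow
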