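/-
S55 / Middle, row M.fin (helper48), part 2: finiteness of `H¹_LC(H; μ_p)` and `H²_LC(H; μ_p)` from the
Kummer long exact sequence of `Middle/LESGlue.lean`.

* `finite_of_exact` (plain abelian groups): `A -k→ B -j→ C` exact at `B`, `k` kills `nA`, `A/nA`
  finite, `C[n]` finite and `n • j = 0`  ⟹  `B` finite, with `#B ≤ #(A/nA) * #C[n]`.
* `finite_H1_mu`  : `H⁰(O_S)/p` finite and `H¹(O_S)[p]` finite ⟹ `H¹_LC(H; μ_p)` finite;
* `finite_H2_mu`  : `H¹(O_S)/p` finite and `H²(O_S)[p]` finite ⟹ `H²_LC(H; μ_p)` finite;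
  (`H ≤ G_ℚ` open for `globalBasis S`, basis `Defs.NBasis.sub (globalBasis S) H`, `p ∈ S`);
* `finite_tors_of_finite`, `finite_quot_of_finite` : both inputs follow from finiteness of the group.
-/
import Mathlib
import Fermat.Agent.S55.Middle.LESGlue
import Fermat.Agent.S55.Middle.Sylow

set_option autoImplicit false
set_option linter.unusedSectionVars false

open ExtCitation

namespace Fermat.Agent.S55.Middle.FinH2

/-! ### abstract -/

section Abstract

variable {A B C : Type*} [AddCommGroup A] [AddCommGroup B] [AddCommGroup C]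

/-- the `n`-torsion subgroup -/
abbrev tors (C : Type*) [AddCommGroup C] (n : ℕ) : AddSubgroup C :=
  (nsmulAddMonoidHom (α := C) n).ker

/-- the subgroup of multiples of `n` -/
abbrev mult (A : Type*) [AddCommGroup A] (n : ℕ) : AddSubgroup A :=
  (nsmulAddMonoidHom (α := A) n).range

lemma mem_tors {n : ℕ} {c : C} : c ∈ tors C n ↔ n • c = 0 := Iff.rfl

lemma mem_mult {n : ℕ} {a : A} : a ∈ mult A n ↔ ∃ a', n • a' = a := Iff.rfl

theorem finite_tors_of_finite (n : ℕ) [Finite C] : Finite (tors C n) := inferInstance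

theorem finite_quot_of_finite (n : ℕ) [Finite A] : Finite (A ⧸ mult A n) := inferInstance

/-- **Finiteness of the middle term** of `A -k→ B -j→ C` (exact at `B`) when `k` factors through
`A/nA` (finite) and `j` lands in `C[n]` (finite). -/
theorem finite_of_exact (k : A →+ B) (j : B →+ C) (n : ℕ)
    (hex : ∀ y, j y = 0 → ∃ a, k a = y) (hk : ∀ a, k (n • a) = 0) (hj : ∀ y, n • j y = 0)
    [hA : Finite (A ⧸ mult A n)] [hC : Finite (tors C n)] : Finite B := by
  -- `k` factors through `A / nA`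
  have hle : mult A n ≤ k.ker := by
    rintro _ ⟨a, rfl⟩
    exact hk a
  let k' : A ⧸ mult A n →+ B := QuotientAddGroup.lift (mult A n) k hle
  -- the kernel of `j` is finite
  have hker : Finite ↥j.ker := by
    have hsub : (j.ker : Set B) ⊆ Set.range k' := by
      intro y hy
      obtain ⟨a, rfl⟩ := hex y hy
      exact ⟨(a : A ⧸ mult A n), rfl⟩
    exact ((Set.finite_range k').subset hsub).to_subtype
  -- the range of `j` is finite
  have hrange : Finite ↥j.range := by
    have hsub : (j.range : Set C) ⊆ (tors C n : Set C) := by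
      rintro _ ⟨y, rfl⟩
      exact hj y
    exact ((Set.toFinite (tors C n : Set C)).subset hsub).to_subtype
  have : Finite (B ⧸ j.ker) :=
    Finite.of_equiv _ (QuotientAddGroup.quotientKerEquivRange j).symm.toEquiv
  exact Finite.of_addSubgroup_quotient j.ker

/-- **Finiteness of the `n`-torsion from a Hasse principle**: if a finite family of localisation
maps is jointly injective on the `n`-torsion of `C` and the `n`-torsion of each target is finite,
then `C[n]` is finite. -/
theorem finite_tors_of_hasse {ι : Type*} [Finite ι] {D : ι → Type*} [∀ i, AddCommGroup (D i)]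
    (loc : ∀ i, C →+ D i) (n : ℕ)
    (hinj : ∀ x : C, n • x = 0 → (∀ i, loc i x = 0) → x = 0)
    [∀ i, Finite (tors (D i) n)] : Finite (tors C n) := by
  let f : tors C n → ∀ i, tors (D i) n := fun x i =>
    ⟨loc i x.1, by
      have hx : n • x.1 = 0 := x.2
      change n • loc i x.1 = 0
      rw [← map_nsmul, hx, map_zero]⟩
  refine Finite.of_injective f fun x y hxy => ?_
  apply Subtype.ext
  have h0 : x.1 - y.1 = 0 := by
    refine hinj _ ?_ fun i => ?_
    · have hx : n • x.1 = 0 := x.2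
      have hy : n • y.1 = 0 := y.2
      rw [smul_sub, hx, hy, sub_zero]
    · have h1 := congrArg (fun g => ((g i : tors (D i) n) : D i)) hxy
      simp only [f] at h1
      rw [map_sub, h1, sub_self]
  exact sub_eq_zero.1 h0

/-- cardinality form of `finite_of_exact` -/
theorem card_le_of_exact (k : A →+ B) (j : B →+ C) (n : ℕ)
    (hex : ∀ y, j y = 0 → ∃ a, k a = y) (hk : ∀ a, k (n • a) = 0) (hj : ∀ y, n • j y = 0)
    [hA : Finite (A ⧸ mult A n)] [hC : Finite (tors C n)] :
    Nat.card B ≤ Nat.card (A ⧸ mult A n) * Nat.card (tors C n) := by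
  have hle : mult A n ≤ k.ker := by
    rintro _ ⟨a, rfl⟩
    exact hk a
  let k' : A ⧸ mult A n →+ B := QuotientAddGroup.lift (mult A n) k hle
  have hfinB : Finite B := finite_of_exact k j n hex hk hj
  have hsub : (j.ker : Set B) ⊆ Set.range k' := by
    intro y hy
    obtain ⟨a, rfl⟩ := hex y hy
    exact ⟨(a : A ⧸ mult A n), rfl⟩
  have h1 : Nat.card ↥j.ker ≤ Nat.card (A ⧸ mult A n) := by
    calc Nat.card ↥j.ker ≤ Nat.card ↥(Set.range k') :=
          Nat.card_mono (Set.finite_range k') hsub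
      _ ≤ Nat.card (A ⧸ mult A n) := Nat.card_le_card_of_surjective (Set.rangeFactorization k')
          Set.rangeFactorization_surjective
  have hsub2 : (j.range : Set C) ⊆ (tors C n : Set C) := by
    rintro _ ⟨y, rfl⟩
    exact hj y
  have h2 : Nat.card ↥j.range ≤ Nat.card (tors C n) :=
    Nat.card_mono (Set.toFinite (tors C n : Set C)) hsub2
  rw [AddSubgroup.card_eq_card_quotient_mul_card_addSubgroup j.ker,
    Nat.card_congr (QuotientAddGroup.quotientKerEquivRange j).toEquiv, mul_comm]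
  exact Nat.mul_le_mul h1 h2

end Abstract

/-! ### torsion groups: `#(X/nX) ≤ #X[n]` -/

section Torsion

variable {X : Type*} [AddCommGroup X]

/-- for a finite abelian group, `#(Y/nY) = #Y[n]` -/
theorem card_quot_eq_card_tors_of_finite (Y : Type*) [AddCommGroup Y] [Finite Y] (n : ℕ) :
    Nat.card (Y ⧸ mult Y n) = Nat.card (tors Y n) := by
  have h1 := AddSubgroup.card_eq_card_quotient_mul_card_addSubgroup (mult Y n)
  have h2 := AddSubgroup.card_eq_card_quotient_mul_card_addSubgroup (tors Y n)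
  rw [Nat.card_congr (QuotientAddGroup.quotientKerEquivRange (nsmulAddMonoidHom (α := Y) n)).toEquiv]
    at h2
  have hpos : 0 < Nat.card (mult Y n) := Nat.card_pos
  have h3 : Nat.card (Y ⧸ mult Y n) * Nat.card (mult Y n) =
      Nat.card (tors Y n) * Nat.card (mult Y n) := by
    rw [← h1, h2, mul_comm]
  exact Nat.eq_of_mul_eq_mul_right hpos h3

/-- **Key lemma**: in a torsion abelian group with finite `n`-torsion, every finite subset of
`X / nX` has at most `#X[n]` elements. -/
theorem finset_card_le (n : ℕ) (htor : ∀ x : X, ∃ m : ℕ, 0 < m ∧ m • x = 0) [Finite (tors X n)]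
    (s : Finset (X ⧸ mult X n)) : s.card ≤ Nat.card (tors X n) := by
  classical
  -- lifts
  let t : Finset X := s.image Quotient.out
  let Y : AddSubgroup X := AddSubgroup.closure (t : Set X)
  have : AddGroup.FG Y := AddGroup.closure_finset_fg t
  have hYtor : IsAddTorsion Y := by
    intro y
    obtain ⟨m, hm, hmy⟩ := htor (y : X)
    rw [isOfFinAddOrder_iff_nsmul_eq_zero]
    exact ⟨m, hm, Subtype.ext hmy⟩
  have : Finite Y := AddCommGroup.finite_of_fg_isAddTorsion (G := Y) hYtor
  -- the map `s → Y / nY`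
  have hmem : ∀ q ∈ s, (Quotient.out q : X) ∈ Y := fun q hq =>
    AddSubgroup.subset_closure (Finset.mem_coe.2 (Finset.mem_image_of_mem _ hq))
  let f : s → Y ⧸ mult Y n := fun q => QuotientAddGroup.mk ⟨Quotient.out q.1, hmem q.1 q.2⟩
  have hf : Function.Injective f := by
    intro q q' hqq'
    have h1 : -(⟨Quotient.out q.1, hmem q.1 q.2⟩ : Y) + ⟨Quotient.out q'.1, hmem q'.1 q'.2⟩ ∈
        mult Y n := QuotientAddGroup.eq.1 hqq'
    obtain ⟨y, hy⟩ := h1
    have h2 : -(Quotient.out q.1 : X) + Quotient.out q'.1 ∈ mult X n := by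
      refine ⟨(y : X), ?_⟩
      have := congrArg (fun z : Y => (z : X)) hy
      simpa using this
    have h3 : (QuotientAddGroup.mk (Quotient.out q.1) : X ⧸ mult X n) =
        QuotientAddGroup.mk (Quotient.out q'.1) := QuotientAddGroup.eq.2 h2
    apply Subtype.ext
    have e1 : (QuotientAddGroup.mk (Quotient.out q.1) : X ⧸ mult X n) = q.1 := Quotient.out_eq _
    have e2 : (QuotientAddGroup.mk (Quotient.out q'.1) : X ⧸ mult X n) = q'.1 := Quotient.out_eq _
    rw [← e1, ← e2, h3]
  have hc1 : s.card ≤ Nat.card (Y ⧸ mult Y n) := by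
    have := Nat.card_le_card_of_injective f hf
    simpa using this
  -- `Y[n] ↪ X[n]`
  have hc2 : Nat.card (tors Y n) ≤ Nat.card (tors X n) := by
    refine Nat.card_le_card_of_injective
      (fun y : tors Y n => (⟨((y : Y) : X), by
        have hy : n • (y : Y) = 0 := y.2
        change n • ((y : Y) : X) = 0
        rw [← AddSubgroup.coe_nsmul, hy, AddSubgroup.coe_zero]⟩ : tors X n)) ?_
    intro y y' hyy'
    apply Subtype.ext
    apply Subtype.ext
    exact congrArg (fun z : tors X n => (z : X)) hyy'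
  rw [card_quot_eq_card_tors_of_finite Y n] at hc1
  exact hc1.trans hc2

/-- **`X / nX` is finite of order `≤ #X[n]`** for a torsion abelian group with finite `n`-torsion. -/
theorem finite_quot_of_torsion (n : ℕ) (htor : ∀ x : X, ∃ m : ℕ, 0 < m ∧ m • x = 0)
    [Finite (tors X n)] :
    Finite (X ⧸ mult X n) ∧ Nat.card (X ⧸ mult X n) ≤ Nat.card (tors X n) := by
  have hfin : Finite (X ⧸ mult X n) := by
    by_contra hinf
    rw [not_finite_iff_infinite] at hinf
    obtain ⟨s, hs⟩ := Infinite.exists_subset_card_eq (X ⧸ mult X n) (Nat.card (tors X n) + 1)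
    have := finset_card_le n htor s
    omega
  refine ⟨hfin, ?_⟩
  classical
  have := Fintype.ofFinite (X ⧸ mult X n)
  rw [Nat.card_eq_fintype_card, ← Finset.card_univ]
  exact finset_card_le n htor Finset.univ

end Torsion

/-! ### every class of `H¹_LC` is torsion -/

section H1Torsion

open Fermat.Agent.S55.Formal

variable {k : Type} [CommRing k] {G : Type} [Group G] (𝒰 : NBasis G) (M : Rep.{0, 0, 0} k G)

/-- every class of `H¹_LC(G; M)` is killed by the index of a level of a representing cocycle. -/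
theorem h1_torsion (x : H1 𝒰 M) : ∃ n : ℕ, 0 < n ∧ n • x = 0 := by
  obtain ⟨f, hf, rfl⟩ := Hmid.exists_of x
  obtain ⟨U, hU, hlev⟩ := f.2
  have hf1 : (f : G → M) 1 = 0 := by
    have h1 := congrFun (congrArg Subtype.val hf) ((1 : G), (1 : G))
    change (groupCohomology.d₁₂ M).hom (f : G → M) ((1 : G), (1 : G)) = 0 at h1
    rw [groupCohomology.d₁₂_hom_apply] at h1
    simpa using h1
  have hres : (Sylow.resMor U M 𝒰).h1 (Hmid.of f hf) = 0 := by
    unfold Mor.h1
    rw [Hmid.mapOfComm_of (hb' := by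
      have := LinearMap.congr_fun (Sylow.resMor U M 𝒰).c₂_dC₁ f
      simp only [LinearMap.comp_apply] at this
      rw [← this, hf, map_zero])]
    rw [Hmid.of_eq_zero_iff]
    refine ⟨0, ?_⟩
    rw [map_zero]
    symm
    apply Subtype.ext
    funext v
    change (f : G → M) (v : G) = 0
    have := (hlev (v : G) v.2 1).1
    rw [one_mul] at this
    rw [this, hf1]
  have hU' : U.FiniteIndex := 𝒰.finiteIndex hU
  exact ⟨U.index, Nat.pos_of_ne_zero hU'.index_ne_zero,
    Sylow.res_h1_eq_zero_imp_nsmul U M 𝒰 ⟨U, hU, le_rfl⟩ _ hres⟩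

end H1Torsion

/-! ### the Kummer sequence over an open subgroup -/

section Kummer

open Fermat.Agent.S55.Formal Fermat.Agent.S55.Formal.PreludeLC Fermat.Agent.S55.Middle.LESGlue

variable {S : Finset Nat.Primes} {H : Subgroup Defs.GQ} (p : ℕ) [Fact p.Prime]
  (hpS : pPrime p ∈ S) (hH : Defs.IsOpenSub (globalBasis S) H)

include hpS hH

/-- `H¹_LC(H; μ_p)` is finite as soon as `H⁰(O_S)/p` and `H¹(O_S)[p]` are. -/
theorem finite_H1_mu
    [Finite (↥(H0 (bH S H) (oH S H)) ⧸ mult ↥(H0 (bH S H) (oH S H)) p)]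
    [Finite (tors (H1 (bH S H) (oH S H)) p)] : Finite (H1 (bH S H) (muH H p)) :=
  finite_of_exact (k₀ p hpS hH) (j₁ S H p hpS) p (exists_k₀_of_j₁ p hpS hH) (k₀_nsmul p hpS hH)
    (nsmul_j₁ p hpS hH)

/-- `H²_LC(H; μ_p)` is finite as soon as `H¹(O_S)/p` and `H²(O_S)[p]` are. -/
theorem finite_H2_mu
    [Finite (H1 (bH S H) (oH S H) ⧸ mult (H1 (bH S H) (oH S H)) p)]
    [Finite (tors (H2 (bH S H) (oH S H)) p)] : Finite (H2 (bH S H) (muH H p)) :=
  finite_of_exact (k₁ p hpS hH) (j₂ S H p hpS) p (exists_k₁_of_j₂ p hpS hH) (k₁_nsmul p hpS hH)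
    (nsmul_j₂ p hpS hH)

/-- `H¹(O_S)[p]` is the image of `H¹(μ_p)`, hence finite when `H¹_LC(H; μ_p)` is. -/
theorem finite_tors_H1_O [Finite (H1 (bH S H) (muH H p))] :
    Finite (tors (H1 (bH S H) (oH S H)) p) := by
  have hsub : (tors (H1 (bH S H) (oH S H)) p : Set (H1 (bH S H) (oH S H))) ⊆
      Set.range (j₁ S H p hpS) := by
    intro a ha
    exact exists_j₁_of_nsmul p hpS hH a ha
  exact ((Set.finite_range (j₁ S H p hpS)).subset hsub).to_subtype

/-- `H¹(O_S)/p` is finite of order `≤ #H¹(O_S)[p]` when `H¹_LC(H; μ_p)` is finite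
(`H¹_LC(H; O_S)` is a torsion group). -/
theorem finite_quot_H1_O [Finite (H1 (bH S H) (muH H p))] :
    Finite (H1 (bH S H) (oH S H) ⧸ mult (H1 (bH S H) (oH S H)) p) ∧
      Nat.card (H1 (bH S H) (oH S H) ⧸ mult (H1 (bH S H) (oH S H)) p) ≤
        Nat.card (tors (H1 (bH S H) (oH S H)) p) := by
  have := finite_tors_H1_O p hpS hH
  exact finite_quot_of_torsion p (h1_torsion (bH S H) (oH S H))

/-- **`H²_LC(H; μ_p)` is finite** as soon as `H¹_LC(H; μ_p)` and `H²_LC(H; O_S)[p]` are. -/
theorem finite_H2_mu_of_H1 [Finite (H1 (bH S H) (muH H p))]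
    [Finite (tors (H2 (bH S H) (oH S H)) p)] : Finite (H2 (bH S H) (muH H p)) := by
  have := (finite_quot_H1_O p hpS hH).1
  exact finite_H2_mu p hpS hH

/-- cardinality form: `#H²(μ_p) ≤ #H¹(O_S)[p] * #H²(O_S)[p]`. -/
theorem card_H2_mu_le [Finite (H1 (bH S H) (muH H p))]
    [Finite (tors (H2 (bH S H) (oH S H)) p)] :
    Nat.card (H2 (bH S H) (muH H p)) ≤
      Nat.card (tors (H1 (bH S H) (oH S H)) p) * Nat.card (tors (H2 (bH S H) (oH S H)) p) := by
  obtain ⟨h1, h2⟩ := finite_quot_H1_O p hpS hH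
  have h3 := card_le_of_exact (k₁ p hpS hH) (j₂ S H p hpS) p (exists_k₁_of_j₂ p hpS hH)
    (k₁_nsmul p hpS hH) (nsmul_j₂ p hpS hH)
  exact h3.trans (Nat.mul_le_mul_right _ h2)

end Kummer

end Fermat.Agent.S55.Middle.FinH2
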