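/-
S55 / MIDDLE block, row M.muIso (helper17): `𝔽_p ≅ μ_p` over a subgroup `P ≤ G_ℚ` on which the
mod `p` cyclotomic character is trivial.

* `zetaMu p`  : a primitive `p`-th root of unity, as an element of `Defs.muP p`;
* `muIso p P hχ : ScalarsLC.toInt (Rep.trivial (ZMod p) ↥P (ZMod p)) ≅ Rep.res P.subtype (Defs.muP p)`
  (`ScalarsLC.trivialIsoOfCyclic`).

For the local groups of the `K`-site apply `(Rep.resFunctor (KSite.kappa P q t)).mapIso`
(`ScalarsLC.toInt_res` and `ScalarsLC.toInt_trivial` are `rfl`).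
-/
import Fermat.Agent.S55.Middle.Defs
import Fermat.Agent.S55.Bridge.ScalarsLC
import Fermat.Agent.S55.GaloisLevelCyclo

set_option autoImplicit false
set_option linter.unusedSectionVars false

open CategoryTheory ExtCitation

namespace Fermat.Agent.S55.Middle.MuIso

noncomputable section

open Fermat.Agent.S55.Formal Fermat.Agent.S55.Middle.Defs Fermat.Agent.S55.Bridge.ScalarsLC

variable (p : ℕ) [Fact p.Prime]

/-- a primitive `p`-th root of unity of `ℚ̄` exists -/
theorem exists_primitiveRoot : ∃ ζ : Qbar, IsPrimitiveRoot ζ p := by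
  have : NeZero p := ⟨(Fact.out : p.Prime).ne_zero⟩
  have : NeZero ((p : ℕ) : Qbar) := ⟨by exact_mod_cast (NeZero.ne p)⟩
  exact HasEnoughRootsOfUnity.exists_primitiveRoot Qbar p

/-- a chosen primitive `p`-th root of unity of `ℚ̄` -/
def zeta : Qbar := (exists_primitiveRoot p).choose

theorem zeta_spec : IsPrimitiveRoot (zeta p) p := (exists_primitiveRoot p).choose_spec

/-- … as a unit -/
def zetaUnit : Qbarˣ :=
  (IsUnit.of_pow_eq_one (zeta_spec p).pow_eq_one (Fact.out : p.Prime).ne_zero).unit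

@[simp] theorem coe_zetaUnit : ((zetaUnit p : Qbarˣ) : Qbar) = zeta p := rfl

theorem zetaUnit_pow : zetaUnit p ^ p = 1 := by
  apply Units.ext
  rw [Units.val_pow_eq_pow_val, coe_zetaUnit, (zeta_spec p).pow_eq_one, Units.val_one]

theorem zetaUnit_ne_one : zetaUnit p ≠ 1 := by
  intro h
  have h1 : zeta p = 1 := by
    have := congrArg (fun u : Qbarˣ => (u : Qbar)) h
    simpa using this
  exact (zeta_spec p).ne_one (Fact.out : p.Prime).one_lt h1

/-- the submodule underlying `muP p` -/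
abbrev muCarrier : Submodule ℤ Gm := toSub ((powMonoidHom p : Qbarˣ →* Qbarˣ).ker)

/-- the underlying element of `Gm` -/
def valMu (b : muP p) : Gm := Subtype.val (b : ↥(muCarrier p))

theorem valMu_injective : Function.Injective (valMu p) := fun _ _ h => Subtype.ext h

theorem valMu_pow (b : muP p) : toUnit (valMu p b) ^ p = 1 := (b : ↥(muCarrier p)).2

/-- the chosen primitive root as an element of `μ_p` -/
def zetaMu : muP p :=
  (⟨(Additive.ofMul (zetaUnit p) : Gm), zetaUnit_pow p⟩ : ↥(muCarrier p))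

@[simp] theorem valMu_zetaMu : valMu p (zetaMu p) = (Additive.ofMul (zetaUnit p) : Gm) := rfl

theorem zetaMu_ne_zero : zetaMu p ≠ 0 := by
  intro h
  have h1 : valMu p (zetaMu p) = valMu p 0 := congrArg (valMu p) h
  exact zetaUnit_ne_one p h1

theorem smul_zetaMu : (p : ℤ) • zetaMu p = 0 := by
  apply valMu_injective
  show (p : ℤ) • (Additive.ofMul (zetaUnit p) : Additive Qbarˣ) = 0
  rw [natCast_zsmul, ← ofMul_pow, zetaUnit_pow]
  rfl

theorem exists_zsmul_eq (b : muP p) : ∃ n : ℤ, b = n • zetaMu p := by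
  have hb : toUnit (valMu p b) ^ p = 1 := valMu_pow p b
  have hb' : ((toUnit (valMu p b) : Qbarˣ) : Qbar) ^ p = 1 := by
    have := congrArg (fun u : Qbarˣ => (u : Qbar)) hb
    simpa using this
  have hp0 : 0 < p := (Fact.out : p.Prime).pos
  haveI : NeZero p := ⟨hp0.ne'⟩
  obtain ⟨i, -, hi⟩ := (zeta_spec p).eq_pow_of_pow_eq_one hb'
  refine ⟨(i : ℤ), ?_⟩
  apply valMu_injective
  show valMu p b = (i : ℤ) • (Additive.ofMul (zetaUnit p) : Additive Qbarˣ)
  rw [natCast_zsmul, ← ofMul_pow]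
  show Additive.ofMul (toUnit (valMu p b)) = Additive.ofMul (zetaUnit p ^ i)
  congr 1
  apply Units.ext
  rw [Units.val_pow_eq_pow_val, coe_zetaUnit]
  exact hi.symm

variable (P : Subgroup GQ)

theorem ρ_zetaMu (hχ : ∀ g ∈ P, cycloChar p g = 1) (g : ↥P) :
    (Rep.res P.subtype (muP p)).ρ g (zetaMu p) = zetaMu p := by
  apply valMu_injective
  show Gm.ρ (g : GQ) (Additive.ofMul (zetaUnit p) : Gm) = (Additive.ofMul (zetaUnit p) : Gm)
  have h1 : toUnit (Gm.ρ (g : GQ) (Additive.ofMul (zetaUnit p) : Gm)) = (g : GQ) • zetaUnit p := rfl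
  have h2 : (g : GQ) • zetaUnit p = zetaUnit p := by
    apply Units.ext
    show (g : GQ) (zeta p) = zeta p
    have hg : cycloChar p (g : GQ) = 1 := hχ g g.2
    have hs := Fermat.Agent.S55.GaloisLevelCyclo.cycloChar_spec' p (g : GQ)
      (zeta_spec p).pow_eq_one
    rw [hs, hg]
    have : Fact (1 < p) := ⟨(Fact.out : p.Prime).one_lt⟩
    simp [ZMod.val_one]
  exact congrArg (fun u : Qbarˣ => (Additive.ofMul u : Gm)) (h1.trans h2)

/-- **`𝔽_p ≅ μ_p` over `P`** (`χ_p` trivial on `P`). -/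
def muIso (hχ : ∀ g ∈ P, cycloChar p g = 1) :
    toInt (Rep.trivial (ZMod p) ↥P (ZMod p)) ≅ Rep.res P.subtype (muP p) :=
  trivialIsoOfCyclic p (Rep.res P.subtype (muP p)) (zetaMu p) (zetaMu_ne_zero p) (smul_zetaMu p)
    (exists_zsmul_eq p) (ρ_zetaMu p P hχ)

end

end Fermat.Agent.S55.Middle.MuIso
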