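/-
S55 / Middle, row M.fin (helper48), part 3: THE OUTPUT `Blocks.KFin p S` (and the literal fields
`fin₁`, `fin₂` of `Formal.BaseA (arithSite S) (ZMod p) (cycloChar p)`).

* `H¹` half: unconditional (`FinH1.finite_H1_triv`, finite-level Kummer theory).
* `H²` half: from the Kummer sequence `0 → μ_p → O_S → O_S → 0` over `(↥P, NBasis.sub)`
  (`LESGlue`), with
    - `H¹_LC(P; O_S)/p` finite of order `≤ #H¹_LC(P; O_S)[p] ≤ #H¹_LC(P; μ_p)` — no class group is
      needed: `H¹_LC` is a torsion group (`FinH2.h1_torsion`) whose `p`-torsion is the image of the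
      finite group `H¹_LC(P; μ_p)` (`FinH2.finite_quot_of_torsion`);
    - `H²_LC(P; O_S)[p]` finite: the Hasse principle `Blocks.HasseO p S` embeds it into the finite
      product of the `H²_LC(D_{q,t}; Ω_qˣ)[p]` over the places `(q, t)` of `K` above `S`
      (`LocalTorsFinite p S`, delivered by the local block: each factor is cyclic of order `p`);
  and the transfers `NBasis.sub ↔ subBasis` (`BasisChange`), `μ_p ≅ 𝔽_p` over `P ≤ ker χ_p`
  (`MuIso`), `ℤ`- versus `𝔽_p`-coefficients (`ScalarsLC`).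

Main results: `kFin : pPrime p ∈ S → HasseO p S → LocalTorsFinite p S → KFin p S`, `fin₁`, `fin₂`,
`localTorsFinite_of_cyclic`.
-/
import Mathlib
import Fermat.Agent.S55.Middle.FinH1
import Fermat.Agent.S55.Middle.FinH2
import Fermat.Agent.S55.Middle.BasisChange
import Fermat.Agent.S55.Middle.MuIso
import Fermat.Agent.S55.Middle.Blocks
import Fermat.Agent.S55.Middle.LocalLCCore
import Fermat.Agent.S55.Bridge.ScalarsLC
import Fermat.Agent.S55.Formal.PermSelfDualLC

set_option autoImplicit false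
set_option linter.unusedSectionVars false
set_option linter.style.haveILetI false

open CategoryTheory ExtCitation Module

namespace Fermat.Agent.S55.Middle.FinMain

noncomputable section

open Fermat.Agent.S55.Formal
open Fermat.Agent.S55.Formal.PreludeLC hiding GQ Qbar
open Fermat.Agent.S55.Middle.Defs Fermat.Agent.S55.Middle.KSite Fermat.Agent.S55.Middle.Blocks
open Fermat.Agent.S55.Middle.FinH2 Fermat.Agent.S55.Middle.LESGlue
open Fermat.Agent.S55.Middle.BasisChange Fermat.Agent.S55.Bridge.ScalarsLC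
open Fermat.Agent.S55.Bridge.ShapiroLC

/-! ### generic transfers -/

section Transfer

variable {C C' : Type*} [AddCommGroup C] [AddCommGroup C']

/-- the `n`-torsion is finite if it is so in an isomorphic group -/
theorem finite_tors_of_addEquiv (e : C ≃+ C') (n : ℕ) [Finite (tors C' n)] : Finite (tors C n) := by
  refine Finite.of_injective (fun x : tors C n => (⟨e x.1, by
    have hx : n • x.1 = 0 := x.2
    change n • e x.1 = 0
    rw [← map_nsmul, hx, map_zero]⟩ : tors C' n)) fun x y hxy => ?_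
  apply Subtype.ext
  exact e.injective (congrArg (fun z : tors C' n => (z : C')) hxy)

end Transfer

section BasisTransfer

variable {G : Type} [Group G] (𝒰 : NBasis G) (H : Subgroup G) (A : Rep.{0, 0, 0} ℤ ↥H)

/-- `H¹` over `subBasis` and over `NBasis.sub` coincide (open `H`). -/
def bc1 (hH : IsOpenSub 𝒰 H) : H1 (subBasis 𝒰 H) A ≃+ H1 (NBasis.sub 𝒰 H) A :=
  AddEquiv.ofBijective (idMor (subBasis_refines_sub 𝒰 H hH) A).h1.toAddMonoidHom
    (idMor_h1_bijective A (subBasis_refines_sub 𝒰 H hH) (sub_refines_subBasis 𝒰 H))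

/-- `H²` over `subBasis` and over `NBasis.sub` coincide (open `H`). -/
def bc2 (hH : IsOpenSub 𝒰 H) : H2 (subBasis 𝒰 H) A ≃+ H2 (NBasis.sub 𝒰 H) A :=
  AddEquiv.ofBijective (idMor (subBasis_refines_sub 𝒰 H hH) A).h2.toAddMonoidHom
    (idMor_h2_bijective A (subBasis_refines_sub 𝒰 H hH) (sub_refines_subBasis 𝒰 H))

end BasisTransfer

variable (p : ℕ) [hp : Fact p.Prime] (S : Finset Nat.Primes)

/-! ### the local input -/

/-- **Local input**: the `p`-torsion of `H²_LC(D_{q,t}; Ω_qˣ)` is finite at every place `(q, t)`,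
`q ∈ S`, of `K = ℚ̄^P`. -/
def LocalTorsFinite : Prop :=
  ∀ P : Subgroup GQ, Level p S P → ∀ (q : ↥S) (t : GQ),
    Finite (tors (H2 (basisLoc P q.1 t) (Fermat.Agent.S55.LM.Defs.Ox q.1 (Dloc P q.1 t))) p)

/-- pure additive form: an abelian group whose `p`-torsion is cyclic has finite `p`-torsion -/
theorem finite_tors_of_cyclic_aux {M : Type*} [AddCommGroup M]
    (h : ∀ x y : M, p • x = 0 → p • y = 0 → x ≠ 0 → ∃ n : ℤ, y = n • x) :
    Finite (tors M p) := by
  by_cases h0 : ∀ x : tors M p, x = 0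
  · have : Subsingleton (tors M p) := ⟨fun a b => by rw [h0 a, h0 b]⟩
    infer_instance
  · obtain ⟨x, hx⟩ := not_forall.1 h0
    have hx0 : (x : M) ≠ 0 := fun h' => hx (Subtype.ext h')
    have hpx : p • (x : M) = 0 := x.2
    have : NeZero p := ⟨hp.out.ne_zero⟩
    refine Finite.of_surjective
      (fun i : ZMod p => (⟨i.val • (x : M), by
        change p • (i.val • (x : M)) = 0
        rw [smul_comm, hpx, smul_zero]⟩ : tors M p)) fun y => ?_
    have hpy : p • (y : M) = 0 := y.2
    obtain ⟨n, hn⟩ := h x y hpx hpy hx0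
    have hdvd : (p : ℤ) ∣ n - (((n : ZMod p).val : ℕ) : ℤ) := by
      rw [← ZMod.intCast_eq_intCast_iff_dvd_sub]
      simp
    obtain ⟨c, hc⟩ := hdvd
    refine ⟨(n : ZMod p), Subtype.ext ?_⟩
    change (n : ZMod p).val • (x : M) = y
    generalize (n : ZMod p).val = r at hc ⊢
    have hnr : n = (r : ℤ) + c * ((p : ℕ) : ℤ) := by linarith
    rw [hn, hnr, add_zsmul, mul_zsmul, natCast_zsmul, natCast_zsmul, hpx, smul_zero, add_zero]

/-- the `k`-module structure of `H²_LC` (synthesised for generic `k`, to avoid the `ℤ`-module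
diamond when `k = ℤ`) -/
abbrev H2mod {k : Type} [CommRing k] {G : Type} [Group G] (𝒱 : NBasis G) (A : Rep.{0, 0, 0} k G) :
    Module k (H2 𝒱 A) := inferInstance

/-- cyclicity of the `p`-torsion (`LocalLCCore.H2TorsCyclic`, the output of the local core) gives
its finiteness. -/
theorem finite_tors_of_cyclic {G : Type} [Group G] (𝒱 : NBasis G) (A : Rep.{0, 0, 0} ℤ G)
    (h : LocalLCCore.H2TorsCyclic 𝒱 A ((p : ℕ) : ℤ)) : Finite (tors (H2 𝒱 A) p) := by
  refine finite_tors_of_cyclic_aux p fun x y hx hy hx0 => ?_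
  have e : ∀ (n : ℤ) (z : H2 𝒱 A), (H2mod 𝒱 A).smul n z = n • z :=
    fun n z => int_smul_eq_zsmul (H2mod 𝒱 A) n z
  obtain ⟨n, hn⟩ := h x y ((e _ x).trans ((natCast_zsmul x p).trans hx))
    ((e _ y).trans ((natCast_zsmul y p).trans hy)) hx0
  exact ⟨n, hn.trans (e n x)⟩

theorem localTorsFinite_of_cyclic
    (h : ∀ P : Subgroup GQ, Level p S P → ∀ (q : ↥S) (t : GQ),
      LocalLCCore.H2TorsCyclic (basisLoc P q.1 t)
        (Fermat.Agent.S55.LM.Defs.Ox q.1 (Dloc P q.1 t)) ((p : ℕ) : ℤ)) :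
    LocalTorsFinite p S :=
  fun P hP q t => finite_tors_of_cyclic p _ _ (h P hP q t)

/-! ### the output -/

variable {p S}

/-- `Level` gives openness in the three (defeq) vocabularies. -/
theorem isOpenSub_of_level {P : Subgroup GQ} (hL : Level p S P) :
    IsOpenSub (globalBasis S) P :=
  hL.isOpen

theorem nbasisIsOpen_of_level {P : Subgroup GQ} (hL : Level p S P) : (globalBasis S).IsOpen P :=
  hL.isOpen

/-- `H^i_LC(P; 𝔽_p) ≃ H^i_LC(P; μ_p)` (`i = 1`), from `subBasis`/`𝔽_p` to `NBasis.sub`/`μ_p`. -/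
def e1 {P : Subgroup GQ} (hL : Level p S P) :
    H1 (basisP S P) (kP p P) ≃+ H1 (bH S P) (muH P p) :=
  ((h1IntEquiv (basisP S P) (kP p P)).trans
    (PermSelfDualLC.h1Equiv (basisP S P) (MuIso.muIso p P hL.triv)).toAddEquiv).trans
    (bc1 (globalBasis S) P _ (isOpenSub_of_level hL))

/-- the same for `i = 2`. -/
def e2 {P : Subgroup GQ} (hL : Level p S P) :
    H2 (basisP S P) (kP p P) ≃+ H2 (bH S P) (muH P p) :=
  ((h2IntEquiv (basisP S P) (kP p P)).trans
    (PermSelfDualLC.h2Equiv (basisP S P) (MuIso.muIso p P hL.triv)).toAddEquiv).trans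
    (bc2 (globalBasis S) P _ (isOpenSub_of_level hL))

/-- `H¹_LC(P; μ_p)` is finite (unconditionally). -/
theorem finite_H1_mu {P : Subgroup GQ} (hL : Level p S P) : Finite (H1 (bH S P) (muH P p)) := by
  haveI : NeZero p := ⟨hp.out.ne_zero⟩
  haveI : Module.Finite (ZMod p) (H1 (basisP S P) (kP p P)) :=
    FinH1.finite_H1_triv S p P (nbasisIsOpen_of_level hL) hL.triv
  haveI : Finite (H1 (basisP S P) (kP p P)) := Module.finite_of_finite (ZMod p)
  exact Finite.of_equiv _ (e1 hL).toEquiv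

/-- `H²_LC(P; O_S)[p]` is finite, from the Hasse principle and the local input
(over `subBasis`). -/
theorem finite_tors_H2_OS (hH : HasseO p S) (hloc : LocalTorsFinite p S) {P : Subgroup GQ}
    (hL : Level p S P) : Finite (tors (H2 (basisP S P) (resP P (OS S))) p) := by
  haveI : P.FiniteIndex := LM.ShapiroPerm.finiteIndex_of_isOpen (globalBasis S) P (nbasisIsOpen_of_level hL)
  obtain ⟨R⟩ := nonempty_reps S P
  let D : R.Idx → Type := fun i => H2 (basisLoc P i.1.1 i.2.1)
    (Fermat.Agent.S55.LM.Defs.Ox i.1.1 (Dloc P i.1.1 i.2.1))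
  letI : ∀ i, AddCommGroup (D i) := fun i => inferInstanceAs (AddCommGroup (H2 (basisLoc P i.1.1 i.2.1)
    (Fermat.Agent.S55.LM.Defs.Ox i.1.1 (Dloc P i.1.1 i.2.1))))
  haveI : ∀ i : R.Idx, Finite (tors (D i) p) := fun i => hloc P hL i.1 i.2.1
  refine finite_tors_of_hasse (ι := R.Idx) (D := D)
    (fun i => (locOS S P i.1.1 i.2.1).h2.toAddMonoidHom) p ?_
  intro x hx hl
  exact hH P hL R x 1 (by rw [pow_one]; exact hx) hl

/-- the same over `NBasis.sub` (the basis of `LESGlue`). -/
theorem finite_tors_H2_oH (hH : HasseO p S) (hloc : LocalTorsFinite p S) {P : Subgroup GQ}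
    (hL : Level p S P) : Finite (tors (H2 (bH S P) (oH S P)) p) := by
  haveI := finite_tors_H2_OS hH hloc hL
  exact finite_tors_of_addEquiv (bc2 (globalBasis S) P (resP P (OS S)) (isOpenSub_of_level hL)).symm p

/-- **`H²_LC(P; μ_p)` is finite.** -/
theorem finite_H2_mu (hpS : pPrime p ∈ S) (hH : HasseO p S) (hloc : LocalTorsFinite p S)
    {P : Subgroup GQ} (hL : Level p S P) : Finite (H2 (bH S P) (muH P p)) := by
  haveI := finite_H1_mu hL
  haveI := finite_tors_H2_oH hH hloc hL
  exact finite_H2_mu_of_H1 p hpS (isOpenSub_of_level hL)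

/-- **(K-fin)**: the output `Blocks.KFin p S` of the Middle block, from the Hasse principle (C3)
and the local input. -/
theorem kFin (hpS : pPrime p ∈ S) (hH : HasseO p S) (hloc : LocalTorsFinite p S) : KFin p S := by
  intro P hL
  refine ⟨FinH1.finite_H1_triv S p P (nbasisIsOpen_of_level hL) hL.triv, ?_⟩
  haveI := finite_H2_mu hpS hH hloc hL
  haveI : Finite (H2 (basisP S P) (kP p P)) := Finite.of_equiv _ (e2 hL).symm.toEquiv
  exact Module.Finite.of_finite

/-- **`BaseA.fin₁` for the arithmetic site** (re-export of `FinH1.fin₁`). -/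
theorem fin₁ : ∀ P : Subgroup (ArithSite.arithSite S).G, (ArithSite.arithSite S).𝒰.IsOpen P →
    TrivOn (cycloChar p) P →
    Module.Finite (ZMod p) (H1 (ArithSite.arithSite S).𝒰 (perm (ZMod p) P)) :=
  FinH1.fin₁ S p

/-- **`BaseA.fin₂` for the arithmetic site** (literal field), from (C3) and the local input. -/
theorem fin₂ (hpS : pPrime p ∈ S) (hH : HasseO p S) (hloc : LocalTorsFinite p S) :
    ∀ P : Subgroup (ArithSite.arithSite S).G, (ArithSite.arithSite S).𝒰.IsOpen P →
      TrivOn (cycloChar p) P →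
      Module.Finite (ZMod p) (H2 (ArithSite.arithSite S).𝒰 (perm (ZMod p) P)) :=
  fun P hP hχ =>
    (LM.ShapiroPerm.finite_H2_perm_iff (globalBasis S) P hP).2
      ((kFin hpS hH hloc) P ⟨hP, hχ⟩).2

end

end Fermat.Agent.S55.Middle.FinMain
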