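/-
S55 / Middle / CycloTotRam (helper41): `p` is totally ramified in `ℚ(μ_p)`, in Prelude terms.

* `irreducible_cyclotomic_padic` : `Φ_p` is irreducible over `ℚ_[p]` (Eisenstein over `ℤ_[p]` + Gauss).
* `exists_algEquiv_pow` : for a primitive `p`-th root of unity `ζ` of `PadicAlgCl p` and `a` prime to
  `p` there is `τ ∈ Gal(PadicAlgCl p / ℚ_[p])` with `τ ζ = ζ ^ a`.
* `cycloChar_local_surjective` : `cycloChar p ∘ primeLocalToGlobal p` is onto `(ZMod p)ˣ`.
* `exists_local_mul_mem_ker`, `index_comap_ker` : `Γ_p` is transitive on `G_ℚ / ker χ_p`.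
-/
import Mathlib
import Fermat.Prelude.Def_ExtEndgame_ProductionDatum
import Fermat.Prelude.Def_ExtCitation_KummerBridge

set_option autoImplicit false
set_option linter.style.haveILetI false

open Polynomial ExtCitation

namespace Fermat.Agent.S55.Middle.CycloTotRam

local notation "Qbar" => AlgebraicClosure ℚ
local notation "GQ" => (AlgebraicClosure ℚ ≃ₐ[ℚ] AlgebraicClosure ℚ)

variable (p : ℕ) [Fact p.Prime]

/-- `(Φ_p)(X+1)` over `ℤ_[p]` is Eisenstein at `(p)`. -/
theorem isEisensteinAt_padicInt :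
    ((cyclotomic p ℤ_[p]).comp (X + 1)).IsEisensteinAt (Ideal.span {(p : ℤ_[p])}) := by
  have hp : p.Prime := Fact.out
  have hZ := cyclotomic_comp_X_add_one_isEisensteinAt p
  have hmap : ((cyclotomic p ℤ).comp (X + 1)).map (Int.castRingHom ℤ_[p]) =
      (cyclotomic p ℤ_[p]).comp (X + 1) := by
    rw [Polynomial.map_comp, map_cyclotomic]
    simp
  have hmonicZ : ((cyclotomic p ℤ).comp (X + 1)).Monic := by
    simpa using (cyclotomic.monic p ℤ).comp_X_add_C 1
  have hmonic : ((cyclotomic p ℤ_[p]).comp (X + 1)).Monic := by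
    simpa using (cyclotomic.monic p ℤ_[p]).comp_X_add_C 1
  have hdeg : ((cyclotomic p ℤ_[p]).comp (X + 1)).natDegree =
      ((cyclotomic p ℤ).comp (X + 1)).natDegree := by
    rw [← hmap, hmonicZ.natDegree_map]
  have hnotunit : ¬ IsUnit (p : ℤ_[p]) := by
    have := PadicInt.prime_p (p := p)
    exact this.not_isUnit
  refine hmonic.isEisensteinAt_of_mem_of_notMem ?_ ?_ ?_
  · intro h
    rw [Ideal.span_singleton_eq_top] at h
    exact hnotunit h
  · intro n hn
    rw [hdeg] at hn
    have h1 := hZ.mem hn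
    rw [← hmap, coeff_map]
    rw [Submodule.mem_span_singleton] at h1
    obtain ⟨c, hc⟩ := h1
    rw [Ideal.mem_span_singleton]
    refine ⟨(c : ℤ_[p]), ?_⟩
    rw [← hc]
    simp [mul_comm]
  · rw [← hmap, coeff_map]
    have h0 : ((cyclotomic p ℤ).comp (X + 1)).coeff 0 = p := by
      rw [coeff_zero_eq_eval_zero, eval_comp]
      simp [eval_one_cyclotomic_prime]
    rw [h0]
    simp only [eq_intCast, Int.cast_natCast]
    rw [Ideal.span_singleton_pow, Ideal.mem_span_singleton]
    rintro ⟨c, hc⟩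
    have hp0 : (p : ℤ_[p]) ≠ 0 := by
      exact_mod_cast hp.ne_zero
    have : (p : ℤ_[p]) * 1 = (p : ℤ_[p]) * ((p : ℤ_[p]) * c) := by
      rw [mul_one]; rw [sq] at hc; rw [← mul_assoc]; exact hc
    have h1 := mul_left_cancel₀ hp0 this
    exact hnotunit (IsUnit.of_mul_eq_one c h1.symm)

/-- `Φ_p` is irreducible over `ℤ_[p]`. -/
theorem irreducible_cyclotomic_padicInt : Irreducible (cyclotomic p ℤ_[p]) := by
  have hp : p.Prime := Fact.out
  have hmonic : ((cyclotomic p ℤ_[p]).comp (X + 1)).Monic := by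
    simpa using (cyclotomic.monic p ℤ_[p]).comp_X_add_C 1
  have hprime : (Ideal.span {(p : ℤ_[p])}).IsPrime := by
    rw [← PadicInt.maximalIdeal_eq_span_p]
    exact (IsLocalRing.maximalIdeal.isMaximal ℤ_[p]).isPrime
  have hdeg : 0 < ((cyclotomic p ℤ_[p]).comp (X + 1)).natDegree := by
    have h1 : ((cyclotomic p ℤ_[p]).comp (X + 1)).natDegree = (cyclotomic p ℤ_[p]).natDegree := by
      have := natDegree_comp (p := cyclotomic p ℤ_[p]) (q := X + 1)
      rw [this]
      have h2 : (X + 1 : ℤ_[p][X]).natDegree = 1 := by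
        have := natDegree_X_add_C (1 : ℤ_[p])
        simpa using this
      rw [h2, mul_one]
    rw [h1, natDegree_cyclotomic, Nat.totient_prime hp]
    exact Nat.sub_pos_of_lt hp.one_lt
  have hirr : Irreducible ((cyclotomic p ℤ_[p]).comp (X + 1)) :=
    (isEisensteinAt_padicInt p).irreducible hprime hmonic.isPrimitive hdeg
  -- transport along the automorphism `f ↦ f.comp (X + 1)`
  have he : ∀ f : ℤ_[p][X], Polynomial.algEquivAevalXAddC (1 : ℤ_[p]) f = f.comp (X + 1) := by
    intro f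
    simp [Polynomial.algEquivAevalXAddC, Polynomial.algEquivOfCompEqX, Polynomial.comp_eq_aeval]
  have : Irreducible (Polynomial.algEquivAevalXAddC (1 : ℤ_[p]) (cyclotomic p ℤ_[p])) := by
    rw [he]; exact hirr
  exact (MulEquiv.irreducible_iff
    ((Polynomial.algEquivAevalXAddC (1 : ℤ_[p])) : ℤ_[p][X] ≃* ℤ_[p][X])).1 this

/-- `Φ_p` is irreducible over `ℚ_[p]`. -/
theorem irreducible_cyclotomic_padic : Irreducible (cyclotomic p ℚ_[p]) := by
  have h := (Polynomial.Monic.irreducible_iff_irreducible_map_fraction_map (K := ℚ_[p])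
    (cyclotomic.monic p ℤ_[p])).1 (irreducible_cyclotomic_padicInt p)
  rwa [map_cyclotomic] at h

local instance normalPadicAlgCl_ctr : Normal ℚ_[p] (PadicAlgCl p) :=
  IsAlgClosure.normal ℚ_[p] (PadicAlgCl p)

/-- The minimal polynomial over `ℚ_[p]` of a primitive `p`-th root of unity is `Φ_p`. -/
theorem minpoly_eq_cyclotomic {ζ : PadicAlgCl p} (hζ : IsPrimitiveRoot ζ p) :
    minpoly ℚ_[p] ζ = cyclotomic p ℚ_[p] := by
  have hpos : 0 < p := (Fact.out : p.Prime).pos
  symm
  refine minpoly.eq_of_irreducible_of_monic (irreducible_cyclotomic_padic p) ?_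
    (cyclotomic.monic p _)
  rw [aeval_def, eval₂_eq_eval_map, map_cyclotomic]
  exact hζ.isRoot_cyclotomic hpos

/-- Conjugating automorphisms: `ζ ↦ ζ ^ a` for `a` prime to `p`. -/
theorem exists_algEquiv_pow {ζ : PadicAlgCl p} (hζ : IsPrimitiveRoot ζ p) {a : ℕ}
    (ha : a.Coprime p) :
    ∃ τ : PadicAlgCl p ≃ₐ[ℚ_[p]] PadicAlgCl p, τ ζ = ζ ^ a := by
  have h1 := minpoly_eq_cyclotomic p hζ
  have h2 := minpoly_eq_cyclotomic p (hζ.pow_of_coprime a ha)
  have hc : IsConjRoot ℚ_[p] (ζ ^ a) ζ := by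
    rw [isConjRoot_def, h1, h2]
  exact hc.exists_algEquiv

/-- The defining property of the Prelude's `cycloChar`. -/
theorem cycloChar_spec (σ : GQ) {t : Qbar} (ht : t ^ p = 1) :
    σ t = t ^ ((cycloChar p σ : ZMod p)).val := by
  haveI : NeZero p := ⟨(Fact.out : p.Prime).ne_zero⟩
  have hp0 : p ≠ 0 := (Fact.out : p.Prime).ne_zero
  have hu : IsUnit t := IsUnit.of_pow_eq_one ht hp0
  obtain ⟨u, rfl⟩ := hu
  have hu' : u ∈ rootsOfUnity p Qbar := by
    rw [mem_rootsOfUnity]
    exact Units.ext (by simpa using ht)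
  exact modularCyclotomicCharacter.spec (AlgebraicClosure ℚ) (card_rootsOfUnity_eq_self p)
    (σ : Qbar ≃+* Qbar) hu'

/-- **`p` is totally ramified in `ℚ(μ_p)`**: the mod `p` cyclotomic character restricted to the
local Galois group at `p` is onto. -/
theorem cycloChar_local_surjective :
    Function.Surjective ((cycloChar p).comp (primeLocalToGlobal (pPrime p))) := by
  haveI : NeZero p := ⟨(Fact.out : p.Prime).ne_zero⟩
  have hp : p.Prime := Fact.out
  intro a
  -- a primitive root of unity in `Qbar`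
  haveI : NeZero ((p : ℕ) : Qbar) := ⟨by exact_mod_cast hp.ne_zero⟩
  obtain ⟨ζ₀, hζ₀⟩ : ∃ ζ₀ : Qbar, IsPrimitiveRoot ζ₀ p :=
    HasEnoughRootsOfUnity.exists_primitiveRoot Qbar p
  -- its image in `PadicAlgCl p`
  have hζ : IsPrimitiveRoot (padicEmbedding p ζ₀) p :=
    hζ₀.map_of_injective (padicEmbedding p).toRingHom.injective
  have hcop : (a : ZMod p).val.Coprime p := by
    have hne : ((a : ZMod p)).val ≠ 0 := by
      rw [Ne, ZMod.val_eq_zero]
      exact a.ne_zero
    have hlt : (a : ZMod p).val < p := ZMod.val_lt _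
    exact (Nat.coprime_of_lt_prime hne hlt hp).symm
  obtain ⟨τ, hτ⟩ := exists_algEquiv_pow p hζ hcop
  let t : primeLocalGaloisGroup (pPrime p) := τ
  refine ⟨t, ?_⟩
  -- the restriction of `τ` to `Qbar`
  set σ : GQ := primeLocalToGlobal (pPrime p) t with hσ
  have h1 : padicEmbedding p (σ ζ₀) = τ (padicEmbedding p ζ₀) :=
    padicEmbedding_localGaloisToGlobal p τ ζ₀
  have h2 : σ ζ₀ = ζ₀ ^ (a : ZMod p).val := by
    apply (padicEmbedding p).toRingHom.injective
    change padicEmbedding p (σ ζ₀) = padicEmbedding p (ζ₀ ^ (a : ZMod p).val)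
    rw [h1, hτ, map_pow]
  have h3 : σ ζ₀ = ζ₀ ^ ((cycloChar p σ : ZMod p)).val :=
    cycloChar_spec p σ hζ₀.pow_eq_one
  have h4 : ((cycloChar p σ : ZMod p)).val = (a : ZMod p).val :=
    hζ₀.pow_inj (ZMod.val_lt _) (ZMod.val_lt _) (h3.symm.trans h2)
  change cycloChar p σ = a
  exact Units.ext (ZMod.val_injective p h4)

/-- Every coset of `ker χ_p` in `G_ℚ` meets the image of the local Galois group at `p`. -/
theorem exists_local_mul_mem_ker (g : GQ) :
    ∃ t : primeLocalGaloisGroup (pPrime p),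
      g⁻¹ * primeLocalToGlobal (pPrime p) t ∈ (cycloChar p).ker := by
  obtain ⟨t, ht⟩ := cycloChar_local_surjective p (cycloChar p g)
  refine ⟨t, ?_⟩
  rw [MonoidHom.mem_ker, map_mul, map_inv]
  have : cycloChar p (primeLocalToGlobal (pPrime p) t) = cycloChar p g := ht
  rw [this, inv_mul_cancel]

/-- `Γ_p` acts transitively on `G_ℚ / ker χ_p`. -/
theorem exists_local_smul_eq (x y : GQ ⧸ (cycloChar p).ker) :
    ∃ t : primeLocalGaloisGroup (pPrime p), primeLocalToGlobal (pPrime p) t • x = y := by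
  obtain ⟨g, rfl⟩ := QuotientGroup.mk_surjective x
  obtain ⟨h, rfl⟩ := QuotientGroup.mk_surjective y
  obtain ⟨t, ht⟩ := cycloChar_local_surjective p (cycloChar p h * (cycloChar p g)⁻¹)
  refine ⟨t, ?_⟩
  change ((primeLocalToGlobal (pPrime p) t * g : GQ) : GQ ⧸ (cycloChar p).ker) = (h : GQ ⧸ _)
  rw [QuotientGroup.eq, MonoidHom.mem_ker]
  have ht' : cycloChar p (primeLocalToGlobal (pPrime p) t) =
      cycloChar p h * (cycloChar p g)⁻¹ := ht
  simp only [map_mul, map_inv, mul_inv_rev]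
  rw [ht', mul_inv_rev, inv_inv, ← mul_assoc, inv_mul_cancel, one_mul, inv_mul_cancel]

/-- The pull-back of `ker χ_p` to the local Galois group at `p` has index `p - 1`. -/
theorem index_comap_ker :
    ((cycloChar p).ker.comap (primeLocalToGlobal (pPrime p))).index = p - 1 := by
  haveI : NeZero p := ⟨(Fact.out : p.Prime).ne_zero⟩
  have hp : p.Prime := Fact.out
  have h1 : (cycloChar p).ker.comap (primeLocalToGlobal (pPrime p)) =
      ((cycloChar p).comp (primeLocalToGlobal (pPrime p))).ker := by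
    ext t; simp [MonoidHom.mem_ker]
  rw [h1, Subgroup.index_ker]
  have h2 : ((cycloChar p).comp (primeLocalToGlobal (pPrime p))).range = ⊤ :=
    MonoidHom.range_eq_top.2 (cycloChar_local_surjective p)
  rw [h2, Nat.card_congr (Subgroup.topEquiv (G := (ZMod p)ˣ)).toEquiv, Nat.card_eq_fintype_card,
    ZMod.card_units_eq_totient, Nat.totient_prime hp]

end Fermat.Agent.S55.Middle.CycloTotRam
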