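/-
S55 / Middle / ResKillLevel (helper72): RESTRICTION TO THE LEVEL SUBGROUP KILLS THE LEVEL, LC language.

Generic `(G, 𝒰)`, `M : Rep k G`, `U ∈ 𝒰` normal of finite index, `H ≤ U` any subgroup, with the induced
basis `subBasis 𝒰 H` and the restriction morphism `Sylow.resMor H M 𝒰`:

* `res_ι₂_eq_zero` : `(resMor H M 𝒰).h2 (ι₂ 𝒰 M U hU y) = 0` for every `y : H²(G ⧸ U, M^U)`;
* `res_ι₁_eq_zero` : the same in degree `1`;
* `res_h2_eq_zero_of_mem_range` : a class in the image of `ι₂` of level `U` dies on `H ≤ U`.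

(The inflated cocycle is constant `= c(1,1)` on `H × H`, with value in `M^U`; a constant cocycle with
invariant value is the coboundary of the constant `1`-cochain.)
-/
import Mathlib
import Fermat.Agent.S55.Formal.LCLevelH
import Fermat.Agent.S55.Middle.Sylow

set_option autoImplicit false
set_option linter.style.haveILetI false
set_option linter.unusedSectionVars false

open CategoryTheory groupCohomology

namespace Fermat.Agent.S55.Middle.ResKillLevel

open Fermat.Agent.S55.Formal Fermat.Agent.S55.Formal.LCLevel Fermat.Agent.S55.Formal.LCLevelH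
open Fermat.Agent.S55.Bridge.ShapiroLC Fermat.Agent.S55.Middle.Sylow

noncomputable section

variable {k : Type} [CommRing k] {G : Type} [Group G] (𝒰 : NBasis G) (M : Rep.{0, 0, 0} k G)
variable (U : Subgroup G) [U.Normal] [Finite (G ⧸ U)] (hU : 𝒰.mem U) (H : Subgroup G)

/-- the constant `1`-cochain on `H` with a `U`-invariant value (`H ≤ U`) is level-constant. -/
theorem const_mem_C₁ (hHU : H ≤ U) (a : M.quotientToInvariants U) :
    (fun _ : H => ((a : M) : Rep.res H.subtype M)) ∈ C₁ (subBasis 𝒰 H) (Rep.res H.subtype M) :=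
  ⟨⊤, (subBasis 𝒰 H).top, fun s _ _ => ⟨rfl, a.2 ⟨(s : G), hHU s.2⟩⟩⟩

/-- **restriction to `H ≤ U` kills the classes of level `U`**, degree `2`. -/
theorem res_ι₂_eq_zero (hHU : H ≤ U) (y : groupCohomology.H2 (M.quotientToInvariants U)) :
    (resMor H M 𝒰).h2 (ι₂ 𝒰 M U hU y) = 0 := by
  obtain ⟨c, rfl⟩ := H2π_surjective (M.quotientToInvariants U) y
  rw [ι₂_π]
  -- the class is represented by the inflated cocycle
  have e : (resMor H M 𝒰).h2 (Hmid.mk (dC₁ 𝒰 M) (dC₂ 𝒰 M) (inflZ₂ 𝒰 M U hU c)) =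
      Hmid.of ((resMor H M 𝒰).c₂ (inflZ₂ 𝒰 M U hU c : ↥(C₂ 𝒰 M))) (by
        have h1 := LinearMap.congr_fun (resMor H M 𝒰).c₃_dC₂ (inflZ₂ 𝒰 M U hU c : ↥(C₂ 𝒰 M))
        simp only [LinearMap.comp_apply] at h1
        rw [← h1, LinearMap.mem_ker.1 (inflZ₂ 𝒰 M U hU c).2, map_zero]) := rfl
  rw [e, Hmid.of_eq_zero_iff]
  -- the constant cochain
  set a : M.quotientToInvariants U := c ((1 : G ⧸ U), (1 : G ⧸ U)) with ha
  refine ⟨⟨fun _ : H => ((a : M) : Rep.res H.subtype M), const_mem_C₁ 𝒰 M U H hHU a⟩, ?_⟩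
  apply Subtype.ext
  funext x
  have hx1 : (QuotientGroup.mk' U) ((x.1 : H) : G) = 1 :=
    (QuotientGroup.eq_one_iff _).2 (hHU x.1.2)
  have hx2 : (QuotientGroup.mk' U) ((x.2 : H) : G) = 1 :=
    (QuotientGroup.eq_one_iff _).2 (hHU x.2.2)
  have hR : (((resMor H M 𝒰).c₂ (inflZ₂ 𝒰 M U hU c : ↥(C₂ 𝒰 M)) :
      ↥(C₂ (subBasis 𝒰 H) (Rep.res H.subtype M))) : H × H → Rep.res H.subtype M) x = (a : M) := by
    show ((c ((QuotientGroup.mk' U) ((x.1 : H) : G), (QuotientGroup.mk' U) ((x.2 : H) : G)) :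
      M.quotientToInvariants U) : M) = (a : M)
    rw [hx1, hx2]
  rw [hR]
  show (d₁₂ (Rep.res H.subtype M)).hom (fun _ : H => ((a : M) : Rep.res H.subtype M)) x = (a : M)
  rw [d₁₂_hom_apply]
  show M.ρ ((x.1 : H) : G) (a : M) - (a : M) + (a : M) = (a : M)
  have hfix : M.ρ ((x.1 : H) : G) (a : M) = (a : M) := a.2 ⟨((x.1 : H) : G), hHU x.1.2⟩
  rw [hfix]
  abel

/-- a class in the image of the level `U` dies on every `H ≤ U`. -/
theorem res_h2_eq_zero_of_mem_range (hHU : H ≤ U) (x : Formal.H2 𝒰 M)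
    (hx : x ∈ LinearMap.range (ι₂ 𝒰 M U hU)) : (resMor H M 𝒰).h2 x = 0 := by
  obtain ⟨y, rfl⟩ := hx
  exact res_ι₂_eq_zero 𝒰 M U hU H hHU y

end

end Fermat.Agent.S55.Middle.ResKillLevel
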