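/-
S55 / Middle / M.cap (helper64): normalised valuations on `ℚ_S` and CAPITULATION.

Objects exactly as in `Middle/Units.lean` / `Middle/Defs.lean`: `Qbar = AlgebraicClosure ℚ`,
`InQS S x` (`x` lies in a finite extension of `ℚ` unramified outside `S`), valuation subrings `A` of
`Qbar` with `A.LiesOverPrime q`.

Main results (namespace `Fermat.Agent.S55.Middle.Cap`):
* `valuation_natCast_of_inertia_eq_bot` : at an unramified prime `P ∋ q` of a Galois number field,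
  `v_P(q) = exp (-1)`;
* `exists_ord` : (I) every `x ≠ 0` of `ℚ_S` is `q ^ n * (unit of A)` at every `A` over `q ∉ S`;
* `HasOrd A q x n`, `HasOrd.unique`, `HasOrd.mul/inv/pow/smul`;
* `ordAt A q x : ℤ` : the normalised valuation (`v(q) = 1`), with `hasOrd_ordAt`, `ordAt_eq`,
  `ordAt_mul`, `ordAt_inv`, `ordAt_pow`, `ordAt_self`, `ordAt_eq_zero_iff`, `ordAt_smul` (Galois
  equivariance), `ordAt_smul_of_fixed`;
* `isUnitOffS_iff_ordAt` : (K) the `S`-units of `ℚ_S` are the elements with all `ordAt = 0`;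
* `inQS_of_pow_eq`, `inQS_of_pow_pow_eq` : (CAP) `p ∈ S`, `x ∈ ℚ_Sˣ` with `p ^ k ∣ ordAt A q x`
  for all `A` off `S` ⟹ every `p ^ k`-th root `β` of `x` lies in `ℚ_S` and
  `ordAt A q x = p ^ k * ordAt A q β`;
* `exists_root_of_ordAt_eq` : (TF) pointwise form of "`Div / Prin` has no `p`-torsion".
-/
import Mathlib
import Fermat.Agent.Lib.InertiaNumberFieldPrime
import Fermat.Agent.S55.Bridge.Unram
import Fermat.Agent.S55.Middle.Units

set_option autoImplicit false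
set_option linter.style.haveILetI false

open scoped NumberField Pointwise
open IsDedekindDomain WithZero

namespace Fermat.Agent.S55.Middle.Cap

open Fermat.Agent.Lib.InertiaNumberField Fermat.Agent.Lib.InertiaNumberFieldPrime

section NF

variable {M : Type*} [Field M] [NumberField M] [IsGalois ℚ M]

/-- At a prime `P ∋ q` of a Galois number field with trivial inertia group, `q` is a uniformiser:
`v_P(q) = exp (-1)`. -/
theorem valuation_natCast_of_inertia_eq_bot (P : Ideal (𝓞 M)) [P.IsPrime] (h0 : P ≠ ⊥) {q : ℕ}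
    (hq : q.Prime) (hqP : (q : 𝓞 M) ∈ P) (hI : Ideal.inertia (M ≃ₐ[ℚ] M) P = ⊥) :
    (heightOne P h0).valuation M (q : M) = exp (-1 : ℤ) := by
  have := IsGaloisGroup.of_isFractionRing (M ≃ₐ[ℚ] M) ℤ (𝓞 M) ℚ M
  set p : Ideal ℤ := Ideal.span {(q : ℤ)} with hp
  have hpmax : p.IsMaximal := by
    have : Prime (q : ℤ) := Nat.prime_iff_prime_int.1 hq
    exact PrincipalIdealRing.isMaximal_of_irreducible this.irreducible
  have hunder : P.under ℤ = p := by
    symm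
    apply hpmax.eq_of_le (Ideal.IsPrime.ne_top inferInstance)
    rw [hp, Ideal.span_le, Set.singleton_subset_iff]
    show (q : ℤ) ∈ P.under ℤ
    rw [Ideal.under_def, Ideal.mem_comap]
    simpa using hqP
  have : P.LiesOver p := ⟨hunder.symm⟩
  have hp0 : p ≠ ⊥ := by
    rw [hp, Ne, Ideal.span_singleton_eq_bot]
    exact_mod_cast hq.ne_zero
  have : Finite (ℤ ⧸ p) := Ideal.finiteQuotientOfFreeOfNeBot p hp0
  have hcard := Ideal.card_inertia_eq_ramificationIdxIn (G := M ≃ₐ[ℚ] M) p P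
  rw [hI, Subgroup.card_bot, Ideal.ramificationIdxIn_eq_ramificationIdx p P (M ≃ₐ[ℚ] M)] at hcard
  have hmap : p.map (algebraMap ℤ (𝓞 M)) = Ideal.span {(q : 𝓞 M)} := by
    rw [hp, Ideal.map_span, Set.image_singleton]
    simp
  have hq0 : (q : 𝓞 M) ≠ 0 := by exact_mod_cast hq.ne_zero
  have hmap0 : p.map (algebraMap ℤ (𝓞 M)) ≠ ⊥ := by
    rw [hmap, Ne, Ideal.span_singleton_eq_bot]
    exact hq0
  have hmult := Ideal.IsDedekindDomain.ramificationIdx_eq_multiplicity p P hmap0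
  rw [← hcard, hmap] at hmult
  have h1 : (heightOne P h0).valuation M (q : M) = (heightOne P h0).intValuation (q : 𝓞 M) := by
    rw [← HeightOneSpectrum.valuation_of_algebraMap (K := M)]
    simp
  rw [h1, HeightOneSpectrum.intValuation_eq_exp_neg_multiplicity _ hq0]
  show exp (-((multiplicity P (Ideal.span {(q : 𝓞 M)}) : ℕ) : ℤ)) = _
  rw [← hmult]
  rfl

/-- For a nonzero element of a Galois number field and an unramified prime `P ∋ q` there is an
integer `n` with `v_P (x * q ^ (-n)) = 1`. -/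
theorem exists_valuation_mul_zpow_eq_one (P : Ideal (𝓞 M)) [P.IsPrime] (h0 : P ≠ ⊥) {q : ℕ}
    (hq : q.Prime) (hqP : (q : 𝓞 M) ∈ P) (hI : Ideal.inertia (M ≃ₐ[ℚ] M) P = ⊥) (x : M)
    (hx : x ≠ 0) :
    ∃ n : ℤ, (heightOne P h0).valuation M (x * (q : M) ^ (-n)) = 1 := by
  have hv := valuation_natCast_of_inertia_eq_bot P h0 hq hqP hI
  have hw0 : (heightOne P h0).valuation M x ≠ 0 := (Valuation.ne_zero_iff _).2 hx
  refine ⟨-(log ((heightOne P h0).valuation M x)), ?_⟩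
  rw [map_mul, map_zpow₀, hv, neg_neg, ← exp_zsmul, ← exp_log hw0, ← exp_add]
  simp

end NF

section QbarLevel

local notation "Qbar" => AlgebraicClosure ℚ

open Fermat.Agent.S55.Bridge.Unram Fermat.Agent.S55.Middle.Units
open Fermat.Agent.Lib

local instance instIsGaloisQbarCap : IsGalois ℚ Qbar :=
  Fermat.Agent.Lib.UnramifiedTrivial.isGalois_algebraicClosure_rat

/-- **(I) existence of the normalised valuation.**  An element `x ≠ 0` of `ℚ_S` has, at every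
valuation subring `A` of `ℚ̄` over a prime `q ∉ S`, the form `q ^ n * (unit of A)`. -/
theorem exists_ord {S : Finset Nat.Primes} {x : Qbar} (hx : InQS S x) (hx0 : x ≠ 0)
    (q : Nat.Primes) (hq : q ∉ S) (A : ValuationSubring Qbar) (hA : A.LiesOverPrime (q : ℕ)) :
    ∃ n : ℤ, x * ((q : ℕ) : Qbar) ^ (-n) ∈ A ∧ (x * ((q : ℕ) : Qbar) ^ (-n))⁻¹ ∈ A := by
  obtain ⟨F, hF, hxF⟩ := hx
  obtain ⟨N, hFN, hN, hGal, -⟩ := exists_isGalois_ge hF
  have hnf : NumberField N := numberField_of_finiteDimensional N hN.1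
  set ι : N →+* Qbar := algebraMap N Qbar with hι
  set B : ValuationSubring N := A.comap ι with hB
  have hBq : B.LiesOverPrime (q : ℕ) := by
    unfold ValuationSubring.LiesOverPrime
    rw [hB, InertiaRestrict.mem_nonunits_comap_iff, map_natCast]
    exact hA
  obtain ⟨P, hP, h0, hqP, hBP⟩ :=
    InertiaNumberFieldPrime.exists_eq_valSubringOf q.2.ne_zero hBq
  have hI : Ideal.inertia (N ≃ₐ[ℚ] N) P = ⊥ :=
    inertia_eq_bot_of_isUnramifiedOutside (K := ℚ) ι (by rw [hι, imageField_val]; exact hN)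
      q hq P hqP
  set x' : N := ⟨x, hFN hxF⟩ with hx'
  have hx'0 : x' ≠ 0 := by
    intro h
    exact hx0 (congrArg Subtype.val h)
  obtain ⟨n, hn⟩ := exists_valuation_mul_zpow_eq_one P h0 q.2 hqP hI x' hx'0
  refine ⟨n, ?_, ?_⟩
  · have h1 : x' * ((q : ℕ) : N) ^ (-n) ∈ B := by
      rw [hBP, InertiaNumberFieldPrime.mem_valSubringOf_iff, hn]
    rw [hB, ValuationSubring.mem_comap, map_mul, map_zpow₀, map_natCast] at h1
    exact h1
  · have h1 : (x' * ((q : ℕ) : N) ^ (-n))⁻¹ ∈ B := by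
      rw [hBP, InertiaNumberFieldPrime.mem_valSubringOf_iff, map_inv₀, hn, inv_one]
    rw [hB, ValuationSubring.mem_comap, map_inv₀, map_mul, map_zpow₀, map_natCast] at h1
    exact h1

/-! ### The normalised valuation `ordAt` -/

/-- `x = q ^ n * (unit of A)`. -/
def HasOrd (A : ValuationSubring Qbar) (q : ℕ) (x : Qbar) (n : ℤ) : Prop :=
  x * (q : Qbar) ^ (-n) ∈ A ∧ (x * (q : Qbar) ^ (-n))⁻¹ ∈ A

theorem hasOrd_zero_iff (A : ValuationSubring Qbar) (q : ℕ) (x : Qbar) :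
    HasOrd A q x 0 ↔ x ∈ A ∧ x⁻¹ ∈ A := by
  unfold HasOrd
  simp

theorem HasOrd.mul {A : ValuationSubring Qbar} {q : ℕ} {x y : Qbar} {n m : ℤ}
    (hq : (q : Qbar) ≠ 0) (hx : HasOrd A q x n) (hy : HasOrd A q y m) :
    HasOrd A q (x * y) (n + m) := by
  have e : x * y * (q : Qbar) ^ (-(n + m)) = (x * (q : Qbar) ^ (-n)) * (y * (q : Qbar) ^ (-m)) := by
    rw [neg_add, zpow_add₀ hq]
    ring
  unfold HasOrd
  rw [e, mul_inv]
  exact ⟨A.mul_mem _ _ hx.1 hy.1, A.mul_mem _ _ hx.2 hy.2⟩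

theorem HasOrd.inv {A : ValuationSubring Qbar} {q : ℕ} {x : Qbar} {n : ℤ}
    (hx : HasOrd A q x n) : HasOrd A q x⁻¹ (-n) := by
  have e : x⁻¹ * (q : Qbar) ^ (-(-n)) = (x * (q : Qbar) ^ (-n))⁻¹ := by
    rw [mul_inv, ← zpow_neg]
  unfold HasOrd
  rw [e, inv_inv]
  exact ⟨hx.2, hx.1⟩

theorem HasOrd.pow {A : ValuationSubring Qbar} {q : ℕ} {x : Qbar} {n : ℤ}
    (hx : HasOrd A q x n) (k : ℕ) : HasOrd A q (x ^ k) (k * n) := by
  have e : x ^ k * (q : Qbar) ^ (-((k : ℤ) * n)) = (x * (q : Qbar) ^ (-n)) ^ k := by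
    rw [mul_pow, ← zpow_natCast ((q : Qbar) ^ (-n)), ← zpow_mul, mul_comm (-n), neg_mul_eq_mul_neg]
  unfold HasOrd
  rw [e, ← inv_pow]
  exact ⟨pow_mem hx.1 k, pow_mem hx.2 k⟩

theorem hasOrd_self {A : ValuationSubring Qbar} {q : ℕ} (hq : (q : Qbar) ≠ 0) :
    HasOrd A q (q : Qbar) 1 := by
  unfold HasOrd
  rw [zpow_neg, zpow_one, mul_inv_cancel₀ hq, inv_one]
  exact ⟨A.one_mem, A.one_mem⟩

theorem valuation_eq_one_of_mem_of_inv_mem (A : ValuationSubring Qbar) {y : Qbar} (hy : y ≠ 0)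
    (h1 : y ∈ A) (h2 : y⁻¹ ∈ A) : A.valuation y = 1 := by
  have h1' := (A.valuation_le_one_iff _).2 h1
  have h2' := (A.valuation_le_one_iff _).2 h2
  have hne : A.valuation y ≠ 0 := (Valuation.ne_zero_iff _).2 hy
  rw [map_inv₀] at h2'
  exact le_antisymm h1' ((inv_le_one₀ (zero_lt_iff.2 hne)).1 h2')

theorem natCast_ne_zero_Qbar {q : ℕ} (hq : q ≠ 0) : (q : Qbar) ≠ 0 := Nat.cast_ne_zero.2 hq

/-- The valuation of an element with `HasOrd A q x n`. -/
theorem HasOrd.valuation_eq {A : ValuationSubring Qbar} {q : ℕ} (hq : q ≠ 0) {x : Qbar}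
    (hx0 : x ≠ 0) {n : ℤ} (hn : HasOrd A q x n) :
    A.valuation x = A.valuation (q : Qbar) ^ n := by
  have hq0 := natCast_ne_zero_Qbar hq
  have hy : x * (q : Qbar) ^ (-n) ≠ 0 := mul_ne_zero hx0 (zpow_ne_zero _ hq0)
  have h := valuation_eq_one_of_mem_of_inv_mem A hy hn.1 hn.2
  rw [map_mul, map_zpow₀, zpow_neg] at h
  have hv : A.valuation (q : Qbar) ^ n ≠ 0 := zpow_ne_zero _ ((Valuation.ne_zero_iff _).2 hq0)
  exact (mul_inv_eq_one₀ hv).1 h

/-- Uniqueness of the exponent. -/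
theorem HasOrd.unique {A : ValuationSubring Qbar} {q : ℕ} (hq : q ≠ 0) (hA : A.LiesOverPrime q)
    {x : Qbar} (hx0 : x ≠ 0) {n m : ℤ} (hn : HasOrd A q x n) (hm : HasOrd A q x m) : n = m := by
  have h1 := hn.valuation_eq hq hx0
  have h2 := hm.valuation_eq hq hx0
  rw [h1] at h2
  have hq0 := natCast_ne_zero_Qbar hq
  have hpos : 0 < A.valuation (q : Qbar) := zero_lt_iff.2 ((Valuation.ne_zero_iff _).2 hq0)
  have hlt : A.valuation (q : Qbar) < 1 := A.mem_nonunits_iff.1 hA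
  exact (zpow_right_inj₀ hpos hlt.ne).1 h2

/-- Galois equivariance. -/
theorem HasOrd.smul {A : ValuationSubring Qbar} {q : ℕ} {x : Qbar} {n : ℤ}
    (hx : HasOrd A q x n) (g : Qbar ≃ₐ[ℚ] Qbar) : HasOrd (g • A) q (g x) n := by
  have e : g x * (q : Qbar) ^ (-n) = g (x * (q : Qbar) ^ (-n)) := by
    rw [map_mul, map_zpow₀, map_natCast]
  unfold HasOrd
  rw [e, ← map_inv₀]
  constructor
  · rw [ValuationSubring.mem_pointwise_smul_iff_inv_smul_mem]
    show g⁻¹ (g _) ∈ A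
    rw [show g⁻¹ (g (x * (q : Qbar) ^ (-n))) = x * (q : Qbar) ^ (-n) from g.symm_apply_apply _]
    exact hx.1
  · rw [ValuationSubring.mem_pointwise_smul_iff_inv_smul_mem]
    show g⁻¹ (g _) ∈ A
    rw [show g⁻¹ (g ((x * (q : Qbar) ^ (-n))⁻¹)) = (x * (q : Qbar) ^ (-n))⁻¹ from
      g.symm_apply_apply _]
    exact hx.2

open Classical in
/-- The normalised valuation of `x` at `A` (over `q`): the `n` with `x = q ^ n * unit`
(junk value `0` if there is none or `x = 0`). -/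
noncomputable def ordAt (A : ValuationSubring Qbar) (q : ℕ) (x : Qbar) : ℤ :=
  if h : x ≠ 0 ∧ ∃ n : ℤ, HasOrd A q x n then h.2.choose else 0

theorem ordAt_eq {A : ValuationSubring Qbar} {q : ℕ} (hq : q ≠ 0) (hA : A.LiesOverPrime q)
    {x : Qbar} (hx0 : x ≠ 0) {n : ℤ} (hn : HasOrd A q x n) : ordAt A q x = n := by
  have h : x ≠ 0 ∧ ∃ n : ℤ, HasOrd A q x n := ⟨hx0, n, hn⟩
  unfold ordAt
  rw [dif_pos h]
  exact HasOrd.unique hq hA hx0 h.2.choose_spec hn

theorem hasOrd_ordAt {S : Finset Nat.Primes} {x : Qbar} (hx : InQS S x) (hx0 : x ≠ 0)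
    (q : Nat.Primes) (hq : q ∉ S) (A : ValuationSubring Qbar) (hA : A.LiesOverPrime (q : ℕ)) :
    HasOrd A (q : ℕ) x (ordAt A (q : ℕ) x) := by
  obtain ⟨n, hn⟩ := exists_ord hx hx0 q hq A hA
  have hn' : HasOrd A (q : ℕ) x n := hn
  rw [ordAt_eq q.2.ne_zero hA hx0 hn']
  exact hn'

section Ord

variable {S : Finset Nat.Primes} {q : Nat.Primes} (hq : q ∉ S) {A : ValuationSubring Qbar}
  (hA : A.LiesOverPrime (q : ℕ))

include hq hA

theorem ordAt_mul {x y : Qbar} (hx : InQS S x) (hx0 : x ≠ 0) (hy : InQS S y) (hy0 : y ≠ 0) :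
    ordAt A (q : ℕ) (x * y) = ordAt A (q : ℕ) x + ordAt A (q : ℕ) y :=
  ordAt_eq q.2.ne_zero hA (mul_ne_zero hx0 hy0)
    ((hasOrd_ordAt hx hx0 q hq A hA).mul (natCast_ne_zero_Qbar q.2.ne_zero)
      (hasOrd_ordAt hy hy0 q hq A hA))

theorem ordAt_inv {x : Qbar} (hx : InQS S x) (hx0 : x ≠ 0) :
    ordAt A (q : ℕ) x⁻¹ = -ordAt A (q : ℕ) x :=
  ordAt_eq q.2.ne_zero hA (inv_ne_zero hx0) (hasOrd_ordAt hx hx0 q hq A hA).inv

theorem ordAt_pow {x : Qbar} (hx : InQS S x) (hx0 : x ≠ 0) (k : ℕ) :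
    ordAt A (q : ℕ) (x ^ k) = k * ordAt A (q : ℕ) x :=
  ordAt_eq q.2.ne_zero hA (pow_ne_zero k hx0) ((hasOrd_ordAt hx hx0 q hq A hA).pow k)

omit hq in
theorem ordAt_self : ordAt A (q : ℕ) ((q : ℕ) : Qbar) = 1 :=
  ordAt_eq q.2.ne_zero hA (natCast_ne_zero_Qbar q.2.ne_zero)
    (hasOrd_self (natCast_ne_zero_Qbar q.2.ne_zero))

/-- `ordAt = 0` iff `x` is a unit of `A`. -/
theorem ordAt_eq_zero_iff {x : Qbar} (hx : InQS S x) (hx0 : x ≠ 0) :
    ordAt A (q : ℕ) x = 0 ↔ x ∈ A ∧ x⁻¹ ∈ A := by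
  constructor
  · intro h
    have := hasOrd_ordAt hx hx0 q hq A hA
    rw [h] at this
    exact (hasOrd_zero_iff A _ x).1 this
  · intro h
    exact ordAt_eq q.2.ne_zero hA hx0 ((hasOrd_zero_iff A _ x).2 h)

end Ord

/-- Galois equivariance of the normalised valuation. -/
theorem ordAt_smul {S : Finset Nat.Primes} {q : Nat.Primes} (hq : q ∉ S)
    {A : ValuationSubring Qbar} (hA : A.LiesOverPrime (q : ℕ)) {x : Qbar} (hx : InQS S x)
    (hx0 : x ≠ 0) (g : Qbar ≃ₐ[ℚ] Qbar) :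
    ordAt (g • A) (q : ℕ) (g x) = ordAt A (q : ℕ) x := by
  have hgA : (g • A).LiesOverPrime (q : ℕ) :=
    (Fermat.Agent.S55.GaloisLevel.liesOverPrime_smul_iff g A q).2 hA
  exact ordAt_eq q.2.ne_zero hgA ((map_ne_zero g).2 hx0) ((hasOrd_ordAt hx hx0 q hq A hA).smul g)

/-- If `g` fixes `x`, the normalised valuations of `x` at `A` and `g • A` agree. -/
theorem ordAt_smul_of_fixed {S : Finset Nat.Primes} {q : Nat.Primes} (hq : q ∉ S)
    {A : ValuationSubring Qbar} (hA : A.LiesOverPrime (q : ℕ)) {x : Qbar} (hx : InQS S x)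
    (hx0 : x ≠ 0) (g : Qbar ≃ₐ[ℚ] Qbar) (hg : g x = x) :
    ordAt (g • A) (q : ℕ) x = ordAt A (q : ℕ) x := by
  have := ordAt_smul hq hA hx hx0 g
  rwa [hg] at this

/-- **(K)** The `S`-units of `ℚ_S` are exactly the elements of `ℚ_Sˣ` all of whose normalised
valuations off `S` vanish. -/
theorem isUnitOffS_iff_ordAt {S : Finset Nat.Primes} {x : Qbar} (hx : InQS S x) (hx0 : x ≠ 0) :
    IsUnitOffS S x ↔ ∀ q : Nat.Primes, q ∉ S → ∀ A : ValuationSubring Qbar,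
      A.LiesOverPrime (q : ℕ) → ordAt A (q : ℕ) x = 0 := by
  constructor
  · intro h q hq A hA
    exact (ordAt_eq_zero_iff hq hA hx hx0).2 (h q hq A hA)
  · intro h q hq A hA
    exact (ordAt_eq_zero_iff hq hA hx hx0).1 (h q hq A hA)

/-! ### Capitulation -/

section Capitulation

variable (p : ℕ) [Fact p.Prime] {S : Finset Nat.Primes}

/-- Core local step: if `β ^ p = x`, `x` has `HasOrd A q x (p * m)`, and `σ` in the inertia group
of `A` (over `q ≠ p`) fixes `x`, then `σ` fixes `β`, and `HasOrd A q β m`. -/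
theorem apply_eq_of_hasOrd {q : ℕ} (hq : q.Prime) (hqp : q ≠ p) (A : ValuationSubring Qbar)
    (hA : A.LiesOverPrime q) {x β : Qbar} (hβ : β ^ p = x) {m : ℤ}
    (hord : HasOrd A q x (p * m)) :
    HasOrd A q β m ∧ ∀ σ : Qbar ≃ₐ[ℚ] Qbar, σ ∈ A.inertiaSubgroupIn ℚ → σ x = x → σ β = β := by
  have hpp : p.Prime := Fact.out
  have hp0 : p ≠ 0 := hpp.ne_zero
  have hq0 : (q : Qbar) ≠ 0 := natCast_ne_zero_Qbar hq.ne_zero
  set γ : Qbar := β * (q : Qbar) ^ (-m) with hγ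
  have hγp : γ ^ p = x * (q : Qbar) ^ (-((p : ℤ) * m)) := by
    rw [hγ, mul_pow, hβ, ← zpow_natCast ((q : Qbar) ^ (-m)), ← zpow_mul, mul_comm (-m),
      neg_mul_eq_mul_neg]
  have hγA : γ ∈ A := by
    have h1 := hord.1
    rw [← hγp, ← A.valuation_le_one_iff, map_pow] at h1
    rw [← A.valuation_le_one_iff]
    exact (pow_le_one_iff hp0).1 h1
  have hγinv : γ⁻¹ ∈ A := by
    have h1 := hord.2
    rw [← hγp, ← inv_pow, ← A.valuation_le_one_iff, map_pow] at h1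
    rw [← A.valuation_le_one_iff]
    exact (pow_le_one_iff hp0).1 h1
  refine ⟨⟨hγA, hγinv⟩, fun σ hσ hσx => ?_⟩
  have hfix : σ (γ ^ p) = γ ^ p := by
    rw [hγp, map_mul, map_zpow₀, map_natCast, hσx]
  have hσγ : σ γ = γ := apply_eq_of_mem_inertia_of_pow p hq hqp A hA hσ hγA hγinv hfix
  have hβγ : β = γ * (q : Qbar) ^ m := by
    rw [hγ, mul_assoc, ← zpow_add₀ hq0, neg_add_cancel, zpow_zero, mul_one]
  rw [hβγ, map_mul, map_zpow₀, map_natCast, hσγ]

/-- **Capitulation, one step** (`p ∈ S`): if `x ∈ ℚ_Sˣ` has all its normalised valuations off `S`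
divisible by `p`, then every `p`-th root `β` of `x` lies in `ℚ_S`, and
`ordAt A q x = p * ordAt A q β`. -/
theorem inQS_of_pow_eq (hpS : ExtCitation.pPrime p ∈ S) {x β : Qbar} (hx : InQS S x) (hx0 : x ≠ 0)
    (hβ : β ^ p = x)
    (hdiv : ∀ q : Nat.Primes, q ∉ S → ∀ A : ValuationSubring Qbar, A.LiesOverPrime (q : ℕ) →
      (p : ℤ) ∣ ordAt A (q : ℕ) x) :
    InQS S β ∧ ∀ q : Nat.Primes, q ∉ S → ∀ A : ValuationSubring Qbar, A.LiesOverPrime (q : ℕ) →
      ordAt A (q : ℕ) x = p * ordAt A (q : ℕ) β := by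
  have hpp : p.Prime := Fact.out
  have hβ0 : β ≠ 0 := by
    rintro rfl
    rw [zero_pow hpp.ne_zero] at hβ
    exact hx0 hβ.symm
  have hqp : ∀ q : Nat.Primes, q ∉ S → (q : ℕ) ≠ p := by
    intro q hq h
    apply hq
    have : q = ExtCitation.pPrime p := Subtype.ext h
    rw [this]; exact hpS
  have key : ∀ q : Nat.Primes, q ∉ S → ∀ A : ValuationSubring Qbar, A.LiesOverPrime (q : ℕ) →
      ∃ m : ℤ, ordAt A (q : ℕ) x = p * m ∧ HasOrd A (q : ℕ) β m ∧
        ∀ σ : Qbar ≃ₐ[ℚ] Qbar, σ ∈ A.inertiaSubgroupIn ℚ → σ x = x → σ β = β := by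
    intro q hq A hA
    obtain ⟨m, hm⟩ := hdiv q hq A hA
    have hord := hasOrd_ordAt hx hx0 q hq A hA
    rw [hm] at hord
    obtain ⟨h1, h2⟩ := apply_eq_of_hasOrd p q.2 (hqp q hq) A hA hβ hord
    exact ⟨m, hm, h1, h2⟩
  obtain ⟨F, hF, hxF⟩ := hx
  constructor
  · refine ⟨F ⊔ IntermediateField.adjoin ℚ {β}, ⟨?_, ?_⟩, ?_⟩
    · haveI := hF.1
      haveI : FiniteDimensional ℚ (IntermediateField.adjoin ℚ {β}) :=
        IntermediateField.adjoin.finiteDimensional (Algebra.IsIntegral.isIntegral β)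
      exact IntermediateField.finiteDimensional_sup F _
    · intro q hq A hA σ hσ
      rw [IntermediateField.fixingSubgroup_sup]
      refine ⟨hF.2 q hq A hA hσ, ?_⟩
      show σ ∈ (IntermediateField.adjoin ℚ {β}).fixingSubgroup
      rw [mem_fixingSubgroup_adjoin_simple_iff]
      have hσF := hF.2 q hq A hA hσ
      rw [IntermediateField.mem_fixingSubgroup_iff] at hσF
      obtain ⟨m, -, -, h3⟩ := key q hq A hA
      exact h3 σ hσ (hσF _ hxF)
    · exact (le_sup_right : IntermediateField.adjoin ℚ {β} ≤ F ⊔ IntermediateField.adjoin ℚ {β})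
        (IntermediateField.subset_adjoin ℚ _ rfl)
  · intro q hq A hA
    obtain ⟨m, h1, h2, -⟩ := key q hq A hA
    rw [h1, ordAt_eq q.2.ne_zero hA hβ0 h2]

/-- **Capitulation, `p ^ k` version.** -/
theorem inQS_of_pow_pow_eq (hpS : ExtCitation.pPrime p ∈ S) (k : ℕ) :
    ∀ {x β : Qbar}, InQS S x → x ≠ 0 → β ^ (p ^ k) = x →
    (∀ q : Nat.Primes, q ∉ S → ∀ A : ValuationSubring Qbar, A.LiesOverPrime (q : ℕ) →
      ((p : ℤ) ^ k) ∣ ordAt A (q : ℕ) x) →
    InQS S β ∧ ∀ q : Nat.Primes, q ∉ S → ∀ A : ValuationSubring Qbar, A.LiesOverPrime (q : ℕ) →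
      ordAt A (q : ℕ) x = (p : ℤ) ^ k * ordAt A (q : ℕ) β := by
  have hpp : p.Prime := Fact.out
  have hpz : (p : ℤ) ≠ 0 := by exact_mod_cast hpp.ne_zero
  induction k with
  | zero =>
    intro x β hx _ hβ _
    rw [pow_zero, pow_one] at hβ
    subst hβ
    exact ⟨hx, fun q _ A _ => by rw [pow_zero, one_mul]⟩
  | succ k ih =>
    intro x β hx hx0 hβ hdiv
    set y : Qbar := β ^ (p ^ k) with hy
    have hyp : y ^ p = x := by rw [hy, ← pow_mul, ← pow_succ, hβ]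
    have hy0 : y ≠ 0 := by
      rintro h
      rw [h, zero_pow hpp.ne_zero] at hyp
      exact hx0 hyp.symm
    obtain ⟨hyQ, hyord⟩ := inQS_of_pow_eq p hpS hx hx0 hyp (fun q hq A hA =>
      (Dvd.intro _ (pow_succ' (p : ℤ) k).symm).trans (hdiv q hq A hA))
    have hdivy : ∀ q : Nat.Primes, q ∉ S → ∀ A : ValuationSubring Qbar,
        A.LiesOverPrime (q : ℕ) → ((p : ℤ) ^ k) ∣ ordAt A (q : ℕ) y := by
      intro q hq A hA
      have h1 := hdiv q hq A hA
      rw [hyord q hq A hA, pow_succ'] at h1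
      exact (mul_dvd_mul_iff_left hpz).1 h1
    obtain ⟨hβQ, hβord⟩ := ih hyQ hy0 rfl hdivy
    refine ⟨hβQ, fun q hq A hA => ?_⟩
    rw [hyord q hq A hA, hβord q hq A hA, pow_succ']
    ring

/-- **`Div / Prin` has no `p`-torsion** (pointwise form, `p ∈ S`): if the normalised valuations of
`x ∈ ℚ_Sˣ` off `S` are `p ^ k * d`, then `d` is the family of normalised valuations of a
`p ^ k`-th root `β ∈ ℚ_Sˣ` of `x`. -/
theorem exists_root_of_ordAt_eq (hpS : ExtCitation.pPrime p ∈ S) (k : ℕ) {x : Qbar}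
    (hx : InQS S x) (hx0 : x ≠ 0) (d : Nat.Primes → ValuationSubring Qbar → ℤ)
    (hd : ∀ q : Nat.Primes, q ∉ S → ∀ A : ValuationSubring Qbar, A.LiesOverPrime (q : ℕ) →
      ordAt A (q : ℕ) x = (p : ℤ) ^ k * d q A) :
    ∃ β : Qbar, β ≠ 0 ∧ InQS S β ∧ β ^ (p ^ k) = x ∧
      ∀ q : Nat.Primes, q ∉ S → ∀ A : ValuationSubring Qbar, A.LiesOverPrime (q : ℕ) →
        ordAt A (q : ℕ) β = d q A := by
  have hpp : p.Prime := Fact.out
  have hpz : (p : ℤ) ^ k ≠ 0 := pow_ne_zero _ (by exact_mod_cast hpp.ne_zero)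
  obtain ⟨β, hβ⟩ := IsAlgClosed.exists_pow_nat_eq x (pow_pos hpp.pos k)
  have hβ0 : β ≠ 0 := by
    rintro rfl
    rw [zero_pow (pow_pos hpp.pos k).ne'] at hβ
    exact hx0 hβ.symm
  obtain ⟨hβQ, hβord⟩ := inQS_of_pow_pow_eq p hpS k hx hx0 hβ
    (fun q hq A hA => ⟨d q A, hd q hq A hA⟩)
  refine ⟨β, hβ0, hβQ, hβ, fun q hq A hA => ?_⟩
  have := hβord q hq A hA
  rw [hd q hq A hA] at this
  exact (mul_left_cancel₀ hpz this).symm

end Capitulation

end QbarLevel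

end Fermat.Agent.S55.Middle.Cap
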