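/-
S55 / Middle (helper63): the CORRECT divisor module of the colimit layer.

`G` a group with a basis `𝒰 : NBasis G`, `X` an ARBITRARY `G`-set (no condition on stabilisers;
in the application `X` = places of `ℚ_S` above primes outside `S`, stabilisers = decomposition
groups, which are NOT open).  `Div 𝒰 X` is the module of *smooth, compactly supported* functions
`X → ℤ`: invariant under some `U ∈ 𝒰` and supported on finitely many `G`-orbits (equivalently:
on finitely many `U`-orbits, as `U` has finite index), i.e. `colim_U ℤ[X/U]` along the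
"sum over the fibre" transition maps.  `G` acts by `(g f)(x) = f(g⁻¹ x)`.

* `comapBasis 𝒰 f` : the basis induced on the source of `f : H →* G`;
* `Div 𝒰 X : Rep ℤ G`, every vector smooth (`isLC₀`);
* `resMor 𝒰 X x` : the residue at `x`, a `Mor` to `(Stab x, induced basis, ℤ)`;
* `h1_vanish` : `H¹_LC(G; Div) = 0`, explicitly.
-/
import Fermat.Agent.S55.Formal.LC

set_option autoImplicit false

open CategoryTheory groupCohomology

namespace Fermat.Agent.S55.Middle.DivDef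

open Fermat.Agent.S55.Formal

variable {G : Type} [Group G]

/-- the basis induced on the source of a homomorphism -/
def comapBasis {H : Type} [Group H] (𝒰 : NBasis G) (f : H →* G) : NBasis H where
  mem V := ∃ U, 𝒰.mem U ∧ V = U.comap f
  normal := by
    rintro V ⟨U, hU, rfl⟩
    exact (𝒰.normal hU).comap f
  top := ⟨⊤, 𝒰.top, (Subgroup.comap_top f).symm⟩
  inf := by
    rintro _ _ ⟨U, hU, rfl⟩ ⟨V, hV, rfl⟩
    obtain ⟨W, hW, hle⟩ := 𝒰.inf hU hV
    refine ⟨W.comap f, ⟨W, hW, rfl⟩, ?_⟩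
    rw [← Subgroup.comap_inf]
    exact Subgroup.comap_mono hle
  finiteIndex := by
    rintro _ ⟨U, hU, rfl⟩
    have := 𝒰.finiteIndex hU
    have h2 : U.IsFiniteRelIndex f.range := Subgroup.isFiniteRelIndex_of_finiteIndex
    refine ⟨?_⟩
    rw [Subgroup.index_comap]
    exact Subgroup.relIndex_ne_zero

lemma isCont_comapBasis {H : Type} [Group H] (𝒰 : NBasis G) (f : H →* G) :
    IsCont 𝒰 (comapBasis 𝒰 f) f :=
  fun U hU => ⟨U.comap f, ⟨U, hU, rfl⟩, fun _ hs => hs⟩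

variable (𝒰 : NBasis G) (X : Type) [MulAction G X]

/-- smooth compactly supported functions -/
def IsDiv (f : X → ℤ) : Prop :=
  (∃ U, 𝒰.mem U ∧ ∀ u ∈ U, ∀ x, f (u • x) = f x) ∧
    ∃ F : Finset X, ∀ x, f x ≠ 0 → ∃ g : G, ∃ y ∈ F, x = g • y

/-- the submodule of smooth compactly supported functions -/
def divSub : Submodule ℤ (X → ℤ) where
  carrier := {f | IsDiv 𝒰 X f}
  add_mem' := by
    rintro a b ⟨⟨U, hU, ha⟩, ⟨F, hF⟩⟩ ⟨⟨V, hV, hb⟩, ⟨F', hF'⟩⟩
    obtain ⟨W, hW, hle⟩ := 𝒰.inf hU hV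
    classical
    refine ⟨⟨W, hW, fun u hu x => ?_⟩, ⟨F ∪ F', fun x hx => ?_⟩⟩
    · simp only [Pi.add_apply, ha u (hle hu).1 x, hb u (hle hu).2 x]
    · by_cases h : a x = 0
      · have hbx : b x ≠ 0 := by
          intro h'
          apply hx
          simp only [Pi.add_apply, h, h', add_zero]
        obtain ⟨g, y, hy, rfl⟩ := hF' x hbx
        exact ⟨g, y, Finset.mem_union_right _ hy, rfl⟩
      · obtain ⟨g, y, hy, rfl⟩ := hF x h
        exact ⟨g, y, Finset.mem_union_left _ hy, rfl⟩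
  zero_mem' := ⟨⟨⊤, 𝒰.top, fun _ _ _ => rfl⟩, ⟨∅, fun x hx => (hx rfl).elim⟩⟩
  smul_mem' := by
    rintro c a ⟨⟨U, hU, ha⟩, ⟨F, hF⟩⟩
    refine ⟨⟨U, hU, fun u hu x => ?_⟩, ⟨F, fun x hx => hF x fun h => hx ?_⟩⟩
    · simp only [Pi.smul_apply, ha u hu x]
    · simp only [Pi.smul_apply, h, smul_zero]

lemma mem_divSub_iff (f : X → ℤ) : f ∈ divSub 𝒰 X ↔ IsDiv 𝒰 X f := Iff.rfl

/-- translation of functions preserves `IsDiv` -/
lemma isDiv_translate (g : G) {f : X → ℤ} (hf : IsDiv 𝒰 X f) :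
    IsDiv 𝒰 X (fun x => f (g⁻¹ • x)) := by
  obtain ⟨⟨U, hU, ha⟩, ⟨F, hF⟩⟩ := hf
  refine ⟨⟨U, hU, fun u hu x => ?_⟩, ⟨F, fun x hx => ?_⟩⟩
  · have e : g⁻¹ • u • x = (g⁻¹ * u * g) • g⁻¹ • x := by
      simp only [smul_smul]
      congr 1
      group
    have hmem : g⁻¹ * u * g ∈ U := by
      have := (𝒰.normal hU).conj_mem u hu g⁻¹
      simpa using this
    show f (g⁻¹ • u • x) = f (g⁻¹ • x)
    rw [e, ha _ hmem]
  · obtain ⟨g', y, hy, h⟩ := hF _ hx
    refine ⟨g * g', y, hy, ?_⟩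
    rw [mul_smul, ← h, smul_inv_smul]

/-- the action of `G` on `divSub` -/
def divRho : Representation ℤ G ↥(divSub 𝒰 X) where
  toFun g :=
    { toFun := fun f => ⟨fun x => (f : X → ℤ) (g⁻¹ • x), isDiv_translate 𝒰 X g f.2⟩
      map_add' := fun a b => Subtype.ext (funext fun x => rfl)
      map_smul' := fun c a => Subtype.ext (funext fun x => rfl) }
  map_one' := by
    apply LinearMap.ext
    intro f
    apply Subtype.ext
    funext x
    simp
  map_mul' g h := by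
    apply LinearMap.ext
    intro f
    apply Subtype.ext
    funext x
    simp [mul_smul]

@[simp] lemma divRho_apply (g : G) (f : ↥(divSub 𝒰 X)) (x : X) :
    ((divRho 𝒰 X g f : ↥(divSub 𝒰 X)) : X → ℤ) x = (f : X → ℤ) (g⁻¹ • x) := rfl

/-- the divisor module: smooth compactly supported functions `X → ℤ` -/
noncomputable def Div : Rep.{0, 0, 0} ℤ G := Rep.of (divRho 𝒰 X)

/-- the underlying function of an element of `Div` -/
def toFun (f : Div 𝒰 X) : X → ℤ := ((show ↥(divSub 𝒰 X) from f) : X → ℤ)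

/-- build an element of `Div` -/
def mkDiv (f : X → ℤ) (hf : IsDiv 𝒰 X f) : Div 𝒰 X := (⟨f, hf⟩ : ↥(divSub 𝒰 X))

@[simp] lemma toFun_mkDiv (f : X → ℤ) (hf : IsDiv 𝒰 X f) : toFun 𝒰 X (mkDiv 𝒰 X f hf) = f := rfl

lemma isDiv_toFun (f : Div 𝒰 X) : IsDiv 𝒰 X (toFun 𝒰 X f) := (show ↥(divSub 𝒰 X) from f).2

lemma toFun_injective : Function.Injective (toFun 𝒰 X) := fun _ _ h => Subtype.ext h

@[ext] lemma div_ext {a b : Div 𝒰 X} (h : ∀ x, toFun 𝒰 X a x = toFun 𝒰 X b x) : a = b :=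
  toFun_injective 𝒰 X (funext h)

@[simp] lemma toFun_ρ (g : G) (f : Div 𝒰 X) (x : X) :
    toFun 𝒰 X ((Div 𝒰 X).ρ g f) x = toFun 𝒰 X f (g⁻¹ • x) := rfl

@[simp] lemma toFun_add (a b : Div 𝒰 X) (x : X) :
    toFun 𝒰 X (a + b) x = toFun 𝒰 X a x + toFun 𝒰 X b x := rfl

@[simp] lemma toFun_sub (a b : Div 𝒰 X) (x : X) :
    toFun 𝒰 X (a - b) x = toFun 𝒰 X a x - toFun 𝒰 X b x := rfl

@[simp] lemma toFun_neg (a : Div 𝒰 X) (x : X) : toFun 𝒰 X (-a) x = - toFun 𝒰 X a x := rfl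

@[simp] lemma toFun_zero (x : X) : toFun 𝒰 X (0 : Div 𝒰 X) x = 0 := rfl

/-- every vector of `Div` is smooth -/
lemma isLC₀ (f : Div 𝒰 X) : IsLC₀ 𝒰 (Div 𝒰 X) f := by
  obtain ⟨⟨U, hU, ha⟩, _⟩ := isDiv_toFun 𝒰 X f
  refine ⟨U, hU, fun s hs => ?_⟩
  ext x
  rw [toFun_ρ]
  exact ha _ (U.inv_mem hs) x

lemma C₀_eq_top : C₀ 𝒰 (Div 𝒰 X) = ⊤ := eq_top_iff.mpr fun m _ => isLC₀ 𝒰 X m

/-- evaluation at a point -/
def evalAt (x : X) : (Div 𝒰 X) →ₗ[ℤ] ℤ where
  toFun f := toFun 𝒰 X f x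
  map_add' _ _ := rfl
  map_smul' _ _ := rfl

@[simp] lemma evalAt_apply (x : X) (f : Div 𝒰 X) : evalAt 𝒰 X x f = toFun 𝒰 X f x := rfl

/-- the basis induced on the stabiliser of a point -/
abbrev stabBasis (x : X) : NBasis (MulAction.stabilizer G x) :=
  comapBasis 𝒰 (MulAction.stabilizer G x).subtype

/-- **residue at `x`**: restriction to the stabiliser of `x` followed by evaluation at `x`. -/
noncomputable def resMor (x : X) :
    Mor 𝒰 (Div 𝒰 X) (stabBasis 𝒰 X x) (Rep.trivial ℤ (MulAction.stabilizer G x) ℤ) where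
  f := (MulAction.stabilizer G x).subtype
  cont := isCont_comapBasis 𝒰 _
  φ := evalAt 𝒰 X x
  equivar g a := by
    have hg : (g : G)⁻¹ • x = x := by
      have := g.2
      rw [MulAction.mem_stabilizer_iff] at this
      rw [inv_smul_eq_iff, this]
    show toFun 𝒰 X ((Div 𝒰 X).ρ (g : G) a) x = toFun 𝒰 X a x
    rw [toFun_ρ, hg]

section H1

variable {𝒰 X}

/-- the cocycle relation, pointwise -/
private lemma coc_pt {c : G → Div 𝒰 X} (hc : (d₁₂ (Div 𝒰 X)).hom c = 0) (g h : G) (x : X) :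
    toFun 𝒰 X (c (g * h)) x = toFun 𝒰 X (c h) (g⁻¹ • x) + toFun 𝒰 X (c g) x := by
  have h1 : (Div 𝒰 X).ρ g (c h) - c (g * h) + c g = 0 := congr_fun hc (g, h)
  have h2 := congr_arg (fun a => toFun 𝒰 X a x) h1
  simp only [toFun_add, toFun_sub, toFun_ρ, toFun_zero] at h2
  linarith

private lemma coc_one {c : G → Div 𝒰 X} (hc : (d₁₂ (Div 𝒰 X)).hom c = 0) : c 1 = 0 := by
  ext x
  have := coc_pt hc 1 1 x
  simp only [mul_one, inv_one, one_smul] at this
  rw [toFun_zero]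
  linarith

private lemma coc_stab {c : G → Div 𝒰 X} (hc : (d₁₂ (Div 𝒰 X)).hom c = 0) {U : Subgroup G}
    (hU : 𝒰.mem U) (hlev : ∀ s ∈ U, ∀ g, c (g * s) = c g) (x₀ : X) (s : G) (hs : s • x₀ = x₀) :
    toFun 𝒰 X (c s) x₀ = 0 := by
  have hs' : s⁻¹ • x₀ = x₀ := by rw [inv_smul_eq_iff, hs]
  have hpow : ∀ n : ℕ, toFun 𝒰 X (c (s ^ n)) x₀ = n * toFun 𝒰 X (c s) x₀ := by
    intro n
    induction n with
    | zero => simp [coc_one hc]
    | succ n ih =>
      rw [pow_succ', coc_pt hc s (s ^ n) x₀, hs', ih]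
      push_cast
      ring
  have := 𝒰.normal hU
  have hfi := 𝒰.finiteIndex hU
  have hmem : s ^ U.index ∈ U := U.pow_index_mem s
  have h0 : c (s ^ U.index) = 0 := by
    have := hlev _ hmem 1
    rw [one_mul] at this
    rw [this, coc_one hc]
  have := hpow U.index
  rw [h0, toFun_zero] at this
  have hne : (U.index : ℤ) ≠ 0 := by exact_mod_cast hfi.index_ne_zero
  exact (mul_eq_zero.mp this.symm).resolve_left hne

private lemma coc_welldef {c : G → Div 𝒰 X} (hc : (d₁₂ (Div 𝒰 X)).hom c = 0) {U : Subgroup G}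
    (hU : 𝒰.mem U) (hlev : ∀ s ∈ U, ∀ g, c (g * s) = c g) (x₀ : X) (h h' : G)
    (hh : h • x₀ = h' • x₀) :
    toFun 𝒰 X (c h') (h • x₀) = toFun 𝒰 X (c h) (h • x₀) := by
  have hs : (h⁻¹ * h') • x₀ = x₀ := by rw [mul_smul, ← hh, inv_smul_smul]
  have e : h' = h * (h⁻¹ * h') := by group
  rw [e, coc_pt hc h (h⁻¹ * h') (h • x₀), inv_smul_smul, coc_stab hc hU hlev x₀ _ hs, zero_add]

/-- the chosen base point of the orbit of `x` -/
private noncomputable def base (x : X) : X := (Quotient.mk (MulAction.orbitRel G X) x).out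

private lemma exists_base (x : X) : ∃ h : G, h • base (G := G) x = x := by
  have h1 : (MulAction.orbitRel G X) (base (G := G) x) x :=
    Quotient.exact (Quotient.out_eq (Quotient.mk (MulAction.orbitRel G X) x))
  rw [MulAction.orbitRel_apply] at h1
  obtain ⟨g, hg⟩ := h1
  exact ⟨g⁻¹, by rw [← hg, inv_smul_smul]⟩

private lemma base_smul (g : G) (x : X) : base (G := G) (g • x) = base (G := G) x := by
  unfold base
  congr 1
  apply Quotient.sound
  show (MulAction.orbitRel G X) (g • x) x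
  rw [MulAction.orbitRel_apply]
  exact ⟨g, rfl⟩

/-- **`H¹_LC(G; Div) = 0`**, explicitly. -/
theorem h1_vanish (c : ↥(C₁ 𝒰 (Div 𝒰 X))) (hc : dC₁ 𝒰 (Div 𝒰 X) c = 0) :
    ∃ m : ↥(C₀ 𝒰 (Div 𝒰 X)), dC₀ 𝒰 (Div 𝒰 X) m = c := by
  classical
  have hc' : (d₁₂ (Div 𝒰 X)).hom (c : G → Div 𝒰 X) = 0 := congr_arg Subtype.val hc
  obtain ⟨U, hU, hlev0⟩ := c.2
  have hlev : ∀ s ∈ U, ∀ g, (c : G → Div 𝒰 X) (g * s) = (c : G → Div 𝒰 X) g :=
    fun s hs g => (hlev0 s hs g).1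
  set c' : G → Div 𝒰 X := (c : G → Div 𝒰 X) with hc'def
  have hU0 : ∀ u ∈ U, c' u = 0 := by
    intro u hu
    have := hlev u hu 1
    rw [one_mul] at this
    rw [this, coc_one hc']
  -- the primitive
  let pick : X → G := fun x => Classical.choose (exists_base (G := G) x)
  have pick_spec : ∀ x, pick x • base (G := G) x = x :=
    fun x => Classical.choose_spec (exists_base (G := G) x)
  let m0 : X → ℤ := fun x => - toFun 𝒰 X (c' (pick x)) x
  have m0_eq : ∀ (h : G) (x : X), h • base (G := G) x = x → m0 x = - toFun 𝒰 X (c' h) x := by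
    intro h x hx
    show - toFun 𝒰 X (c' (pick x)) x = - toFun 𝒰 X (c' h) x
    have hh : h • base (G := G) x = pick x • base (G := G) x := by rw [hx, pick_spec]
    have := coc_welldef hc' hU hlev (base (G := G) x) h (pick x) hh
    rw [hx] at this
    rw [this]
  have htriv : ∀ g x, m0 (g⁻¹ • x) - m0 x = toFun 𝒰 X (c' g) x := by
    intro g x
    have h1 : (g⁻¹ * pick x) • base (G := G) (g⁻¹ • x) = g⁻¹ • x := by
      rw [base_smul, mul_smul, pick_spec]
    rw [m0_eq _ _ h1, m0_eq _ _ (pick_spec x)]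
    have h2 := coc_pt hc' g (g⁻¹ * pick x) x
    rw [mul_inv_cancel_left] at h2
    linarith
  have hinv : ∀ u ∈ U, ∀ x, m0 (u • x) = m0 x := by
    intro u hu x
    have := htriv u⁻¹ x
    rw [inv_inv, hU0 _ (U.inv_mem hu), toFun_zero] at this
    linarith
  -- support
  have := 𝒰.finiteIndex hU
  let _ : Fintype (G ⧸ U) := Subgroup.fintypeQuotientOfFiniteIndex
  have hF : ∀ t : G, ∃ F : Finset X, ∀ x, toFun 𝒰 X (c' t) x ≠ 0 → ∃ g : G, ∃ y ∈ F, x = g • y :=
    fun t => (isDiv_toFun 𝒰 X (c' t)).2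
  choose F hFs using hF
  let T : Finset G := Finset.univ.image (Quotient.out : G ⧸ U → G)
  have hm0 : IsDiv 𝒰 X m0 := by
    refine ⟨⟨U, hU, hinv⟩, ⟨T.biUnion F, fun x hx => ?_⟩⟩
    obtain ⟨u, hu⟩ := QuotientGroup.mk_out_eq_mul U (pick x)
    have hct : c' ((pick x : G ⧸ U).out) = c' (pick x) := by rw [hu]; exact hlev _ u.2 _
    have hne : toFun 𝒰 X (c' ((pick x : G ⧸ U).out)) x ≠ 0 := by
      rw [hct]
      intro h0
      apply hx
      show - toFun 𝒰 X (c' (pick x)) x = 0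
      rw [h0, neg_zero]
    obtain ⟨g, y, hy, rfl⟩ := hFs _ _ hne
    refine ⟨g, y, ?_, rfl⟩
    rw [Finset.mem_biUnion]
    exact ⟨_, Finset.mem_image_of_mem _ (Finset.mem_univ _), hy⟩
  refine ⟨⟨mkDiv 𝒰 X m0 hm0, isLC₀ 𝒰 X _⟩, ?_⟩
  apply Subtype.ext
  funext g
  rw [dC₀_coe, d₀₁_hom_apply]
  ext x
  rw [toFun_sub, toFun_ρ, toFun_mkDiv]
  exact htriv g x

end H1

end Fermat.Agent.S55.Middle.DivDef
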