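/-
S55 / Middle / M.cap PART 2 (helper64): the DIVISOR MAP `ℚ_Sˣ → Div`.

`Xoff S` = places of `ℚ̄` off `S` = pairs `(q, A)`, `q ∉ S` a rational prime, `A` a valuation subring
of `ℚ̄` over `q`, with the action of `G_ℚ` (`g • (q, A) = (q, g • A)`); a subgroup `P ≤ G_ℚ` acts by
restriction (`Subgroup.instMulAction`).  For `P ≤ G_ℚ` of finite index and a basis `𝒱` of `↥P` finer
than the restriction of `globalBasis S` (`hfine : IsCont (globalBasis S) 𝒱 P.subtype`; holds for
`Defs.NBasis.sub` and for `ShapiroLC.subBasis`, see the last section):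

* `ordFun S x : Xoff S → ℤ`, `(q, A) ↦ ordAt A q x` (normalised valuations, `Middle/Cap.lean`);
* `isDiv_ordFun`, `isDiv_ordFun_sub` : it is a smooth compactly supported function (`DivDef.IsDiv`);
* `divOf`, `divMap hfine hfin : Rep.res P.subtype (Defs.KS S) ⟶ Div 𝒱 (Xoff S)`;
* `divOf_eq_zero_iff`, `exact_osToKS_divMap` : the kernel of `divMap` is `O_S`;
* `prinDiv hfine hfin : Rep.res P.subtype (Defs.PrinS S) ⟶ Div 𝒱 (Xoff S)`, `prinDiv_injective`;
* `exists_root_of_ordFun_eq`, `exists_divOf_eq_of_pow_nsmul` : (TF) `Div / Prin` has no `p`-torsion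
  for `p ∈ S`.
-/
import Fermat.Agent.S55.Middle.Cap
import Fermat.Agent.S55.Middle.Defs
import Fermat.Agent.S55.Middle.DivDef
import Fermat.Agent.S55.Middle.UnitsLES
import Fermat.Agent.S55.Bridge.ShapiroLC
import Fermat.Agent.Lib.InertiaBridge.Lift

set_option autoImplicit false
set_option linter.style.haveILetI false

open scoped Pointwise
open CategoryTheory

namespace Fermat.Agent.S55.Middle.CapDiv

open Fermat.Agent.S55.Formal
open Fermat.Agent.S55.Middle.Defs Fermat.Agent.S55.Middle.DivDef Fermat.Agent.S55.Middle.Cap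
open Fermat.Agent.Lib

local instance instIsGaloisQbarCapDiv : IsGalois ℚ Qbar :=
  Fermat.Agent.Lib.UnramifiedTrivial.isGalois_algebraicClosure_rat

variable (S : Finset Nat.Primes)

/-- The places of `ℚ̄` off `S`: pairs `(q, A)` with `q ∉ S` a rational prime and `A` a valuation
subring of `ℚ̄` over `q`. -/
def Xoff : Type :=
  {y : Nat.Primes × ValuationSubring Qbar // y.1 ∉ S ∧ y.2.LiesOverPrime (y.1 : ℕ)}

variable {S}

/-- the rational prime below a place -/
def Xoff.prime (y : Xoff S) : Nat.Primes := y.1.1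

/-- the valuation subring of a place -/
def Xoff.ring (y : Xoff S) : ValuationSubring Qbar := y.1.2

theorem Xoff.prime_notMem (y : Xoff S) : y.prime ∉ S := y.2.1

theorem Xoff.liesOver (y : Xoff S) : y.ring.LiesOverPrime (y.prime : ℕ) := y.2.2

@[ext] theorem Xoff.ext {y z : Xoff S} (h1 : y.prime = z.prime) (h2 : y.ring = z.ring) : y = z :=
  Subtype.ext (Prod.ext h1 h2)

noncomputable instance instMulActionXoff : MulAction GQ (Xoff S) where
  smul g y := ⟨(y.prime, g • y.ring),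
    ⟨y.prime_notMem, (Fermat.Agent.S55.GaloisLevel.liesOverPrime_smul_iff g y.ring _).2 y.liesOver⟩⟩
  one_smul y := Xoff.ext rfl (one_smul GQ y.ring)
  mul_smul g h y := Xoff.ext rfl (mul_smul g h y.ring)

@[simp] theorem Xoff.smul_prime (g : GQ) (y : Xoff S) : (g • y).prime = y.prime := rfl

@[simp] theorem Xoff.smul_ring (g : GQ) (y : Xoff S) : (g • y).ring = g • y.ring := rfl

/-- Places over the same rational prime are conjugate. -/
theorem Xoff.exists_smul_eq {y z : Xoff S} (h : y.prime = z.prime) : ∃ g : GQ, z = g • y := by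
  have hz : z.ring.LiesOverPrime (y.prime : ℕ) := by rw [h]; exact z.liesOver
  obtain ⟨g, hg⟩ := InertiaBridge.Lift.exists_smul_eq_of_liesOverPrime y.prime.2 y.liesOver hz
  exact ⟨g, Xoff.ext h.symm hg⟩

/-! ### Almost all places are unit places -/

/-- An integer prime to `q` is a unit of every valuation subring over `q`. -/
theorem intCast_inv_mem {q : ℕ} {A : ValuationSubring Qbar} (hA : A.LiesOverPrime q) {a : ℤ}
    (ha : IsCoprime a (q : ℤ)) : ((a : Qbar))⁻¹ ∈ A := by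
  have haA : (a : Qbar) ∈ A := FrobeniusIF.mem_of_isIntegral_int A (isIntegral_algebraMap (x := a))
  by_contra hinv
  have hnu : (a : Qbar) ∈ A.nonunits := by
    rw [InertiaRestrict.mem_nonunits_iff_inv]
    exact Or.inr hinv
  obtain ⟨u, v, huv⟩ := ha
  have h1 : (1 : Qbar) ∈ A.nonunits := by
    have e : (1 : Qbar) = (u : Qbar) * (a : Qbar) + (v : Qbar) * ((q : ℕ) : Qbar) := by
      have := congrArg (fun z : ℤ => (z : Qbar)) huv
      push_cast at this
      exact this.symm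
    rw [e, A.mem_nonunits_iff]
    refine Valuation.map_add_lt _ ?_ ?_
    · rw [← A.mem_nonunits_iff, mul_comm]
      exact FrobeniusIF.mul_mem_nonunits A hnu
        (FrobeniusIF.mem_of_isIntegral_int A (isIntegral_algebraMap (x := u)))
    · rw [← A.mem_nonunits_iff, mul_comm]
      exact FrobeniusIF.mul_mem_nonunits A hA
        (FrobeniusIF.mem_of_isIntegral_int A (isIntegral_algebraMap (x := v)))
  rw [A.mem_nonunits_iff, map_one] at h1
  exact lt_irrefl _ h1

/-- If `a • z` is integral and `a` is prime to `q`, then `z` lies in every valuation subring over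
`q`. -/
theorem mem_of_isIntegral_smul {q : ℕ} {A : ValuationSubring Qbar} (hA : A.LiesOverPrime q) {a : ℤ}
    (ha : IsCoprime a (q : ℤ)) {z : Qbar} (hz : IsIntegral ℤ (a • z)) : z ∈ A := by
  have ha0 : (a : Qbar) ≠ 0 := by
    intro h
    have h0 : a = 0 := by exact_mod_cast h
    rw [h0] at ha
    have hq : IsUnit (q : ℤ) := isCoprime_zero_left.1 ha
    have hq1 : (q : ℤ) = 1 ∨ (q : ℤ) = -1 := Int.isUnit_iff.1 hq
    unfold ValuationSubring.LiesOverPrime at hA
    rcases hq1 with h | h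
    · have : q = 1 := by exact_mod_cast h
      rw [this, Nat.cast_one, A.mem_nonunits_iff, map_one] at hA
      exact lt_irrefl _ hA
    · have : (0 : ℤ) ≤ (q : ℤ) := Int.natCast_nonneg q
      omega
  have e : z = (a • z) * ((a : Qbar))⁻¹ := by
    rw [zsmul_eq_mul, mul_comm (a : Qbar), mul_assoc, mul_inv_cancel₀ ha0, mul_one]
  rw [e]
  exact A.mul_mem _ _ (FrobeniusIF.mem_of_isIntegral_int A hz) (intCast_inv_mem hA ha)

/-- A nonzero algebraic number is a unit at all places of `ℚ̄` outside a finite set of rational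
primes. -/
theorem exists_finset_unit_off (x : Qbar) :
    ∃ B : Finset ℕ, ∀ q : ℕ, q.Prime → q ∉ B → ∀ A : ValuationSubring Qbar,
      A.LiesOverPrime q → x ∈ A ∧ x⁻¹ ∈ A := by
  have halg : ∀ z : Qbar, IsAlgebraic ℤ z := FrobeniusIF.isAlgebraic_int_algebraicClosure
  obtain ⟨a, ha0, ha⟩ := (halg x).exists_integral_multiple
  obtain ⟨b, hb0, hb⟩ := (halg x⁻¹).exists_integral_multiple
  refine ⟨(a * b).natAbs.primeFactors, fun q hq hqB A hA => ?_⟩
  have hndvd : ¬ (q : ℤ) ∣ a * b := by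
    intro hdvd
    apply hqB
    rw [Nat.mem_primeFactors]
    refine ⟨hq, Int.natCast_dvd.1 hdvd, ?_⟩
    rw [Ne, Int.natAbs_eq_zero]
    exact mul_ne_zero ha0 hb0
  have hqprime : Prime (q : ℤ) := Nat.prime_iff_prime_int.1 hq
  have hca : IsCoprime a (q : ℤ) :=
    ((Prime.coprime_iff_not_dvd hqprime).2 fun h => hndvd (h.mul_right b)).symm
  have hcb : IsCoprime b (q : ℤ) :=
    ((Prime.coprime_iff_not_dvd hqprime).2 fun h => hndvd (h.mul_left a)).symm
  exact ⟨mem_of_isIntegral_smul hA hca ha, mem_of_isIntegral_smul hA hcb hb⟩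

/-! ### The divisor of an element of `ℚ_Sˣ` -/

/-- the family of normalised valuations of `x` -/
noncomputable def ordFun (S : Finset Nat.Primes) (x : Qbar) : Xoff S → ℤ :=
  fun y => ordAt y.ring (y.prime : ℕ) x

theorem ordFun_apply (x : Qbar) (y : Xoff S) : ordFun S x y = ordAt y.ring (y.prime : ℕ) x := rfl

theorem isDiv_ordFun {x : Qbar} (hx : Units.InQS S x) (hx0 : x ≠ 0) :
    IsDiv (PreludeLC.globalBasis S) (Xoff S) (ordFun S x) := by
  classical
  constructor
  · obtain ⟨F, hF, hxF⟩ := hx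
    obtain ⟨U, hU, hle⟩ := PreludeLC.exists_mem_globalBasis_le S hF
    refine ⟨U, hU, fun u hu y => ?_⟩
    have hfix : u x = x := by
      have := hle hu
      rw [IntermediateField.mem_fixingSubgroup_iff] at this
      exact this x hxF
    exact ordAt_smul_of_fixed y.prime_notMem y.liesOver ⟨F, hF, hxF⟩ hx0 u hfix
  · obtain ⟨B, hB⟩ := exists_finset_unit_off x
    let B' : Finset ℕ := B.filter (fun q => ∃ y : Xoff S, (y.prime : ℕ) = q)
    refine ⟨B'.attach.image (fun q => (Finset.mem_filter.1 q.2).2.choose), fun y hy => ?_⟩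
    have hqB : (y.prime : ℕ) ∈ B := by
      by_contra hnot
      apply hy
      rw [ordFun_apply, ordAt_eq_zero_iff y.prime_notMem y.liesOver hx hx0]
      exact hB _ y.prime.2 hnot y.ring y.liesOver
    have hqB' : (y.prime : ℕ) ∈ B' := Finset.mem_filter.2 ⟨hqB, y, rfl⟩
    set r : Xoff S := (Finset.mem_filter.1 hqB').2.choose with hr
    have hrq : (r.prime : ℕ) = (y.prime : ℕ) := (Finset.mem_filter.1 hqB').2.choose_spec
    obtain ⟨g, hg⟩ := Xoff.exists_smul_eq (y := r) (z := y) (Subtype.ext hrq)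
    refine ⟨g, r, ?_, hg⟩
    rw [Finset.mem_image]
    exact ⟨⟨(y.prime : ℕ), hqB'⟩, Finset.mem_attach _ _, rfl⟩

/-! ### restriction to a subgroup of finite index -/

section Sub

variable (P : Subgroup GQ) (𝒱 : NBasis ↥P)

theorem isDiv_ordFun_sub (hfine : IsCont (PreludeLC.globalBasis S) 𝒱 P.subtype)
    (hfin : P.FiniteIndex) {x : Qbar} (hx : Units.InQS S x) (hx0 : x ≠ 0) :
    IsDiv 𝒱 (Xoff S) (ordFun S x) := by
  classical
  obtain ⟨⟨U, hU, hinv⟩, ⟨F, hF⟩⟩ := isDiv_ordFun hx hx0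
  constructor
  · obtain ⟨V, hV, hle⟩ := hfine U hU
    exact ⟨V, hV, fun u hu y => hinv (u : GQ) (hle u hu) y⟩
  · haveI := hfin
    haveI : Finite (GQ ⧸ P) := Subgroup.finite_quotient_of_finiteIndex
    haveI : Fintype (GQ ⧸ P) := Fintype.ofFinite _
    refine ⟨(Finset.univ ×ˢ F).image
      (fun a : (GQ ⧸ P) × Xoff S => (Quotient.out a.1)⁻¹ • a.2), fun y hy => ?_⟩
    obtain ⟨g, r, hr, rfl⟩ := hF y hy
    obtain ⟨h, hh⟩ := QuotientGroup.mk_out_eq_mul P g⁻¹
    refine ⟨h, (Quotient.out ((g⁻¹ : GQ) : GQ ⧸ P))⁻¹ • r, ?_, ?_⟩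
    · exact Finset.mem_image.2 ⟨(((g⁻¹ : GQ) : GQ ⧸ P), r),
        Finset.mem_product.2 ⟨Finset.mem_univ _, hr⟩, rfl⟩
    · rw [Subgroup.smul_def, smul_smul, hh]
      congr 1
      group

/-- the element of `ℚ̄` underlying an element of `ℚ_Sˣ` -/
def ksVal (x : Defs.KS S) : Qbar := ((UnitsLES.unitOf x : Qbarˣ) : Qbar)

theorem ksVal_ne_zero (x : Defs.KS S) : ksVal x ≠ 0 := (UnitsLES.unitOf x).ne_zero

theorem ksVal_inQS (x : Defs.KS S) : Units.InQS S (ksVal x) := UnitsLES.unitOf_mem x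

theorem ksVal_add (x y : Defs.KS S) : ksVal (x + y) = ksVal x * ksVal y := rfl

theorem ksVal_ρ (g : GQ) (x : Defs.KS S) : ksVal ((Defs.KS S).ρ g x) = g (ksVal x) := rfl

theorem ksVal_injective : Function.Injective (ksVal (S := S)) := fun _ _ h =>
  UnitsLES.unitOf_injective (_root_.Units.ext h)

/-! ### the divisor map `ℚ_Sˣ → Div` -/

section DivMap

variable {P : Subgroup GQ} {𝒱 : NBasis ↥P}
  (hfine : IsCont (PreludeLC.globalBasis S) 𝒱 P.subtype) (hfin : P.FiniteIndex)

/-- the divisor of an element of `ℚ_Sˣ` -/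
noncomputable def divOf (x : Defs.KS S) : Div 𝒱 (Xoff S) :=
  mkDiv 𝒱 (Xoff S) (ordFun S (ksVal x))
    (isDiv_ordFun_sub P 𝒱 hfine hfin (ksVal_inQS x) (ksVal_ne_zero x))

theorem toFun_divOf (x : Defs.KS S) (y : Xoff S) :
    toFun 𝒱 (Xoff S) (divOf hfine hfin x) y = ordAt y.ring (y.prime : ℕ) (ksVal x) := rfl

theorem divOf_add (x y : Defs.KS S) :
    divOf hfine hfin (x + y) = divOf hfine hfin x + divOf hfine hfin y := by
  apply div_ext
  intro z
  rw [toFun_add, toFun_divOf, toFun_divOf, toFun_divOf, ksVal_add,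
    ordAt_mul z.prime_notMem z.liesOver (ksVal_inQS x) (ksVal_ne_zero x) (ksVal_inQS y)
      (ksVal_ne_zero y)]

theorem divOf_ρ (g : ↥P) (x : Defs.KS S) :
    divOf hfine hfin ((Defs.KS S).ρ (g : GQ) x) = (Div 𝒱 (Xoff S)).ρ g (divOf hfine hfin x) := by
  apply div_ext
  intro z
  rw [toFun_ρ, toFun_divOf, toFun_divOf, ksVal_ρ]
  have e : z.ring = (g : GQ) • (g⁻¹ • z).ring := by
    rw [Subgroup.smul_def, Xoff.smul_ring, smul_smul]
    simp
  conv_lhs => rw [e]
  exact ordAt_smul (g⁻¹ • z).prime_notMem (g⁻¹ • z).liesOver (ksVal_inQS x) (ksVal_ne_zero x)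
    (g : GQ)

/-- **the divisor map** `ℚ_Sˣ ⟶ Div`, over a subgroup `P` of finite index of `G_ℚ` -/
noncomputable def divMap : Rep.res P.subtype (Defs.KS S) ⟶ Div 𝒱 (Xoff S) :=
  Rep.ofHom ⟨(AddMonoidHom.mk' (divOf hfine hfin) (divOf_add hfine hfin)).toIntLinearMap,
    fun g => LinearMap.ext fun x => divOf_ρ hfine hfin g x⟩

theorem divMap_apply (x : Defs.KS S) :
    (divMap hfine hfin).hom.toLinearMap x = divOf hfine hfin x := rfl

/-! ### the kernel: `S`-units -/

theorem divOf_eq_zero_iff (x : Defs.KS S) :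
    divOf hfine hfin x = 0 ↔ (show ↥(Defs.toSub (Defs.qsSubgroup S)) from x) ∈ Defs.osInKS S := by
  have h1 : divOf hfine hfin x = 0 ↔
      ∀ q : Nat.Primes, q ∉ S → ∀ A : ValuationSubring Qbar, A.LiesOverPrime (q : ℕ) →
        ordAt A (q : ℕ) (ksVal x) = 0 := by
    constructor
    · intro h q hq A hA
      have := congrArg (fun d => toFun 𝒱 (Xoff S) d ⟨(q, A), ⟨hq, hA⟩⟩) h
      exact this
    · intro h
      apply div_ext
      intro z
      rw [toFun_divOf]
      exact h z.prime z.prime_notMem z.ring z.liesOver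
  rw [h1, ← isUnitOffS_iff_ordAt (ksVal_inQS x) (ksVal_ne_zero x)]
  show _ ↔ Defs.InQS S (UnitsLES.unitOf x) ∧ Defs.IsSUnit S (UnitsLES.unitOf x)
  rw [UnitsLES.isSUnit_iff]
  exact ⟨fun h => ⟨UnitsLES.unitOf_mem x, h⟩, fun h => h.2⟩

theorem divMap_osToKS (x : Defs.OS S) :
    (divMap hfine hfin).hom.toLinearMap ((Defs.osToKS S).hom x) = 0 := by
  rw [divMap_apply, divOf_eq_zero_iff]
  exact UnitsLES.unitOf_mem x

/-- exactness of `O_S → ℚ_Sˣ → Div` -/
theorem exact_osToKS_divMap (x : Defs.KS S) :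
    (divMap hfine hfin).hom.toLinearMap x = 0 ↔ ∃ u : Defs.OS S, (Defs.osToKS S).hom u = x := by
  rw [divMap_apply, divOf_eq_zero_iff]
  constructor
  · intro h
    exact ⟨UnitsLES.ofUnitMem _ _ (UnitsLES.unitOf x) h, UnitsLES.unitOf_injective rfl⟩
  · rintro ⟨u, rfl⟩
    exact UnitsLES.unitOf_mem u

/-! ### the induced map on principal `S`-ideals -/

theorem osInKS_le_ker :
    Defs.osInKS S ≤ LinearMap.ker
      ((AddMonoidHom.mk' (divOf hfine hfin) (divOf_add hfine hfin)).toIntLinearMap :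
        Defs.KS S →ₗ[ℤ] Div 𝒱 (Xoff S)) := by
  intro x hx
  rw [LinearMap.mem_ker]
  exact (divOf_eq_zero_iff hfine hfin x).2 hx

/-- **principal `S`-ideals to divisors** -/
noncomputable def prinDiv : Rep.res P.subtype (Defs.PrinS S) ⟶ Div 𝒱 (Xoff S) :=
  Rep.ofHom ⟨(Defs.osInKS S).liftQ
      ((AddMonoidHom.mk' (divOf hfine hfin) (divOf_add hfine hfin)).toIntLinearMap :
        Defs.KS S →ₗ[ℤ] Div 𝒱 (Xoff S)) (osInKS_le_ker hfine hfin),
    fun g => by
      apply LinearMap.ext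
      intro c
      obtain ⟨b, rfl⟩ := (Defs.osInKS S).mkQ_surjective c
      exact divOf_ρ hfine hfin g b⟩

theorem prinDiv_ksToPrin (x : Defs.KS S) :
    (prinDiv hfine hfin).hom.toLinearMap ((Defs.ksToPrin S).hom x) = divOf hfine hfin x := rfl

theorem prinDiv_injective : Function.Injective (prinDiv hfine hfin).hom.toLinearMap := by
  rw [← LinearMap.ker_eq_bot, LinearMap.ker_eq_bot']
  intro c hc
  obtain ⟨b, rfl⟩ := (Defs.osInKS S).mkQ_surjective c
  have hb : divOf hfine hfin b = 0 := hc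
  exact (Submodule.Quotient.mk_eq_zero _).2 ((divOf_eq_zero_iff hfine hfin b).1 hb)

/-! ### `Div / Prin` has no `p`-torsion -/

section TF

variable (p : ℕ) [Fact p.Prime]

open Classical in
/-- extension by zero of a function on `Xoff S` to all pairs `(q, A)` -/
noncomputable def extendFun (f : Xoff S → ℤ) : Nat.Primes → ValuationSubring Qbar → ℤ :=
  fun q A => if h : q ∉ S ∧ A.LiesOverPrime (q : ℕ) then f ⟨(q, A), h⟩ else 0

theorem extendFun_apply (f : Xoff S → ℤ) (y : Xoff S) : extendFun f y.prime y.ring = f y := by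
  unfold extendFun
  exact (dif_pos (show y.prime ∉ S ∧ y.ring.LiesOverPrime (y.prime : ℕ) from y.2)).trans rfl

theorem toFun_nsmul (n : ℕ) (d : Div 𝒱 (Xoff S)) (y : Xoff S) :
    toFun 𝒱 (Xoff S) (n • d) y = n * toFun 𝒱 (Xoff S) d y := by
  have := map_nsmul (evalAt 𝒱 (Xoff S) y) n d
  simp only [evalAt_apply, nsmul_eq_mul] at this
  exact this

/-- function form: if the divisor of `x ∈ ℚ_Sˣ` is `p ^ k * f` (`p ∈ S`), then `x = z ^ (p ^ k)`
with `z ∈ ℚ_Sˣ` of divisor `f`. -/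
theorem exists_root_of_ordFun_eq (hpS : ExtCitation.pPrime p ∈ S) (k : ℕ) (x : Defs.KS S)
    (f : Xoff S → ℤ) (hf : ∀ y, ordFun S (ksVal x) y = (p : ℤ) ^ k * f y) :
    ∃ z : Defs.KS S, (p ^ k) • z = x ∧ ∀ y, ordFun S (ksVal z) y = f y := by
  obtain ⟨β, hβ0, hβQ, hβx, hβ⟩ := exists_root_of_ordAt_eq p hpS k (ksVal_inQS x) (ksVal_ne_zero x)
    (extendFun f) (fun q hq A hA => by
      rw [show extendFun f q A = f ⟨(q, A), ⟨hq, hA⟩⟩ from
        extendFun_apply f ⟨(q, A), ⟨hq, hA⟩⟩]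
      exact hf ⟨(q, A), ⟨hq, hA⟩⟩)
  refine ⟨UnitsLES.ofUnitMem (Defs.qsSubgroup S) (Defs.galStable_qsSubgroup S)
    (_root_.Units.mk0 β hβ0) hβQ, ?_, fun y => ?_⟩
  · apply ksVal_injective
    rw [← hβx]
    rfl
  · rw [ordFun_apply, ← extendFun_apply f y]
    exact hβ y.prime y.prime_notMem y.ring y.liesOver

/-- module form: `p ^ k • d ∈ divOf (ℚ_Sˣ) ⟹ d ∈ divOf (ℚ_Sˣ)` (`p ∈ S`) -/
theorem exists_divOf_eq_of_pow_nsmul (hpS : ExtCitation.pPrime p ∈ S) (k : ℕ) (x : Defs.KS S)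
    (d : Div 𝒱 (Xoff S)) (h : divOf hfine hfin x = (p ^ k) • d) :
    ∃ z : Defs.KS S, (p ^ k) • z = x ∧ divOf hfine hfin z = d := by
  obtain ⟨z, hz, hzf⟩ := exists_root_of_ordFun_eq p hpS k x (toFun 𝒱 (Xoff S) d) (fun y => by
    have := congrArg (fun e => toFun 𝒱 (Xoff S) e y) h
    simp only [toFun_nsmul] at this
    rw [ordFun_apply, ← toFun_divOf hfine hfin x y, this]
    push_cast
    rfl)
  exact ⟨z, hz, div_ext 𝒱 (Xoff S) fun y => hzf y⟩

end TF

end DivMap

end Sub

/-! ### the two standard restricted bases satisfy the hypotheses -/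

section Instances

variable (S)

theorem finiteIndex_of_isOpenSub {H : Subgroup GQ}
    (hH : Defs.IsOpenSub (PreludeLC.globalBasis S) H) : H.FiniteIndex := by
  obtain ⟨W, hW, hWH⟩ := hH
  haveI := (PreludeLC.globalBasis S).finiteIndex hW
  exact Subgroup.finiteIndex_of_le hWH

theorem isCont_sub {H : Subgroup GQ} (hH : Defs.IsOpenSub (PreludeLC.globalBasis S) H) :
    IsCont (PreludeLC.globalBasis S) (Defs.NBasis.sub (PreludeLC.globalBasis S) H) H.subtype :=
  UnitsLES.isCont_subtype _ hH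

theorem isCont_subBasis (P : Subgroup GQ) :
    IsCont (PreludeLC.globalBasis S)
      (Fermat.Agent.S55.Bridge.ShapiroLC.subBasis (PreludeLC.globalBasis S) P) P.subtype :=
  fun U hU => ⟨U.subgroupOf P, ⟨U, hU, rfl⟩, fun _ hs => hs⟩

end Instances

end Fermat.Agent.S55.Middle.CapDiv
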