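/-
S55 / Middle (helper63): the finite-level core of "Div / Prin is a torsion group".

`R` a Dedekind domain with fraction field `K` and FINITE class group.  For every finitely supported
exponent vector `δ` on the height one primes there are `n > 0` and `α ∈ Kˣ` with
`ord_v(α) = n · δ(v)` for ALL `v`  (`I = ∏ v^{δ v}`, `n = #Cl(R)`, `Iⁿ = (α)`).
Both in `FractionalIdeal.count` language and in valuation language
(`KummerVS.valuation_eq_exp_neg_count`).  Specialisation to rings of integers of number fields.
-/
import Mathlib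
import Fermat.Agent.S55.KummerVS

set_option autoImplicit false

open IsDedekindDomain nonZeroDivisors FractionalIdeal

namespace Fermat.Agent.S55.Middle.ClassTorsion

section Dedekind

variable {R : Type*} [CommRing R] [IsDedekindDomain R] (K : Type*) [Field K] [Algebra R K]
  [IsFractionRing R K]

/-- the fractional ideal `∏ v^{δ v}` -/
noncomputable def idealOf (δ : HeightOneSpectrum R →₀ ℤ) : FractionalIdeal R⁰ K :=
  δ.prod (fun v n => (v.asIdeal : FractionalIdeal R⁰ K) ^ n)

lemma idealOf_ne_zero (δ : HeightOneSpectrum R →₀ ℤ) : idealOf K δ ≠ 0 := by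
  unfold idealOf
  rw [Finsupp.prod, Finset.prod_ne_zero_iff]
  exact fun v _ => zpow_ne_zero _ (coeIdeal_ne_zero.mpr v.ne_bot)

lemma count_idealOf (δ : HeightOneSpectrum R →₀ ℤ) (v : HeightOneSpectrum R) :
    count K v (idealOf K δ) = δ v :=
  count_finsuppProd K v δ

/-- **Torsion of the divisor class group, finite level** (`count` form). -/
theorem exists_pos_nsmul_principal [Finite (ClassGroup R)] (δ : HeightOneSpectrum R →₀ ℤ) :
    ∃ n : ℕ, 0 < n ∧ ∃ α : K, α ≠ 0 ∧
      ∀ v : HeightOneSpectrum R, count K v (spanSingleton R⁰ α) = (n : ℤ) * δ v := by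
  classical
  have : Fintype (ClassGroup R) := Fintype.ofFinite _
  let I : (FractionalIdeal R⁰ K)ˣ := Units.mk0 (idealOf K δ) (idealOf_ne_zero K δ)
  set n := Fintype.card (ClassGroup R) with hn
  have hpow : ClassGroup.mk K (I ^ n) = 1 := by
    rw [map_pow, hn]
    exact pow_card_eq_one
  rw [ClassGroup.mk_eq_one_iff] at hpow
  obtain ⟨α, hα⟩ := hpow.principal
  have hIα : ((I ^ n : (FractionalIdeal R⁰ K)ˣ) : FractionalIdeal R⁰ K) = spanSingleton R⁰ α := by
    apply Subtype.coe_injective
    simp only [val_eq_coe, hα, coe_spanSingleton]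
  have hα0 : α ≠ 0 := by
    rintro rfl
    rw [spanSingleton_zero] at hIα
    exact (I ^ n).ne_zero hIα
  refine ⟨n, Fintype.card_pos, α, hα0, fun v => ?_⟩
  rw [← hIα, Units.val_pow_eq_pow_val, count_pow]
  show (n : ℤ) * count K v (idealOf K δ) = _
  rw [count_idealOf]

/-- **Torsion of the divisor class group, finite level** (valuation form). -/
theorem exists_pos_nsmul_principal_valuation [Finite (ClassGroup R)]
    (δ : HeightOneSpectrum R →₀ ℤ) :
    ∃ n : ℕ, 0 < n ∧ ∃ α : K, α ≠ 0 ∧
      ∀ v : HeightOneSpectrum R, v.valuation K α = WithZero.exp (-((n : ℤ) * δ v)) := by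
  obtain ⟨n, hn, α, hα, h⟩ := exists_pos_nsmul_principal K δ
  refine ⟨n, hn, α, hα, fun v => ?_⟩
  rw [Fermat.Agent.S55.KummerVS.valuation_eq_exp_neg_count K v hα, h v]

end Dedekind

section NumberField

open NumberField

/-- number field form -/
theorem exists_pos_nsmul_principal_numberField (F : Type*) [Field F] [NumberField F]
    (δ : HeightOneSpectrum (𝓞 F) →₀ ℤ) :
    ∃ n : ℕ, 0 < n ∧ ∃ α : F, α ≠ 0 ∧
      ∀ v : HeightOneSpectrum (𝓞 F), v.valuation F α = WithZero.exp (-((n : ℤ) * δ v)) :=
  exists_pos_nsmul_principal_valuation F δ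

end NumberField

end Fermat.Agent.S55.Middle.ClassTorsion
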