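/-
S55 / Middle (row M.perm, owner helper5): cohomology of SMOOTH PERMUTATION MODULES `ℤ[X]` in
degrees 1 and 2, in the level-constant cochain language of `Formal/LC.lean`
(explicit Shapiro lemma for permutation modules).

`G` a group with `𝒰 : NBasis G`, `X` a `G`-set which is *smooth* (every point is fixed by a basic
subgroup), `M : Rep k G` a model of `ℤ[X]`: an ADDITIVE equivalence `e : M ≃+ (X →₀ ℤ)` with
`e (g • m) x = e m (g⁻¹ • x)`  (e.g. `Rep.ofMulAction ℤ G X` with `MonoidAlgebra.coeffAddEquiv`).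
Only the additive structure of `M` is used, so `k` is arbitrary (`k = ℤ` in the applications) and no
`Module ℤ` instance enters the statements (no `AddCommGroup.toIntModule` diamond).

* `perm_H1_vanish`  : every LC `1`-cocycle with values in `M` is an LC coboundary.
* `perm_H2_inj`     : an LC `2`-cocycle whose `x`-coordinate restricted to `Stab x` is an LC
                      coboundary (values in `ℤ`, trivial action) for every `x` is an LC coboundary.
* `perm_H2_res`     : the converse.
* class forms: `subBasis`, `resMor`, `h1_eq_zero`, `h2_eq_zero_of_res`.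
-/
import Mathlib
import Fermat.Agent.S55.Formal.LC
import Fermat.Agent.S55.Bridge.ShapiroGeneric

set_option autoImplicit false

open CategoryTheory groupCohomology

namespace Fermat.Agent.S55.Middle.Perm

open Fermat.Agent.S55.Formal
open Fermat.Agent.S55.Bridge.ShapiroGeneric

variable {G : Type} [Group G] (𝒰 : NBasis G) (X : Type) [MulAction G X]

/-- A `G`-set is *smooth* if every point is fixed by a basic subgroup. -/
def IsSmoothSet : Prop := ∀ x : X, ∃ U, 𝒰.mem U ∧ ∀ s ∈ U, s • x = x

variable {𝒰 X}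

/-! ### generalities -/

/-- a function on `G` invariant under right translation by a subgroup of finite index has
finitely many values -/
lemma finite_range_of_invariant {α : Type*} {N : Subgroup G} [N.FiniteIndex] (F : G → α)
    (hF : ∀ g, ∀ s ∈ N, F (g * s) = F g) : (Set.range F).Finite := by
  have : Finite (G ⧸ N) := Subgroup.finite_quotient_of_finiteIndex
  refine (Set.finite_range (fun q : G ⧸ N => F (Quotient.out q))).subset ?_
  rintro _ ⟨g, rfl⟩
  refine ⟨(g : G ⧸ N), ?_⟩
  obtain ⟨s, hs, e⟩ := out_eq_mul N g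
  simp only [e, hF g s hs]

/-- orbits of a smooth `G`-set are finite -/
lemma finite_orbit (hX : IsSmoothSet 𝒰 X) (x : X) : (MulAction.orbit G x).Finite := by
  obtain ⟨U, hU, h⟩ := hX x
  have := 𝒰.finiteIndex hU
  have := finite_range_of_invariant (N := U) (fun g : G => g • x) (fun g s hs => by
    simp only [mul_smul, h s hs])
  exact this

/-- a common basic subgroup below finitely many basic subgroups -/
lemma exists_common {ι : Type*} (R : Finset ι) (N : ι → Subgroup G)
    (h : ∀ i ∈ R, 𝒰.mem (N i)) : ∃ W, 𝒰.mem W ∧ ∀ i ∈ R, W ≤ N i := by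
  classical
  induction R using Finset.induction_on with
  | empty => exact ⟨⊤, 𝒰.top, fun i hi => absurd hi (Finset.notMem_empty i)⟩
  | insert a s ha ih =>
    obtain ⟨W, hW, hle⟩ := ih (fun i hi => h i (Finset.mem_insert_of_mem hi))
    obtain ⟨W', hW', hle'⟩ := 𝒰.inf hW (h a (Finset.mem_insert_self a s))
    refine ⟨W', hW', fun i hi => ?_⟩
    rcases Finset.mem_insert.mp hi with rfl | hi
    · exact hle'.trans inf_le_right
    · exact (hle'.trans inf_le_left).trans (hle i hi)

/-! ### orbit representatives -/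

/-- the chosen representative of the orbit of `z` -/
noncomputable def rep (G : Type) [Group G] {X : Type} [MulAction G X] (z : X) : X :=
  (Quotient.mk (MulAction.orbitRel G X) z).out

lemma exists_smul_eq_rep (z : X) : ∃ g : G, g • z = rep G z := by
  have h : (MulAction.orbitRel G X) (rep G z) z := Quotient.mk_out (s := MulAction.orbitRel G X) z
  exact h

/-- a group element moving `z` to its representative -/
noncomputable def tau (G : Type) [Group G] {X : Type} [MulAction G X] (z : X) : G :=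
  (exists_smul_eq_rep (G := G) z).choose

lemma tau_smul (z : X) : tau G z • z = rep G z := (exists_smul_eq_rep (G := G) z).choose_spec

lemma rep_smul (g : G) (z : X) : rep G (g • z) = rep G z := by
  unfold rep
  congr 1
  exact Quotient.sound (MulAction.mem_orbit z g)

lemma inv_tau_smul_rep (z : X) : (tau G z)⁻¹ • rep G z = z := by
  rw [← tau_smul (G := G) z, inv_smul_smul]

lemma mem_orbit_rep (z : X) : z ∈ MulAction.orbit G (rep G z) :=
  ⟨(tau G z)⁻¹, inv_tau_smul_rep z⟩

/-- the set of points whose representative lies in a finite set is finite -/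
lemma finite_rep_mem (hX : IsSmoothSet 𝒰 X) (R : Finset X) : {z : X | rep G z ∈ R}.Finite := by
  have : {z : X | rep G z ∈ R} ⊆ ⋃ x ∈ R, MulAction.orbit G x := by
    intro z hz
    simp only [Set.mem_iUnion]
    exact ⟨rep G z, hz, mem_orbit_rep z⟩
  exact (Set.Finite.biUnion R.finite_toSet (fun x _ => finite_orbit hX x)).subset this


/-! ### the model -/

section Model

variable {k : Type} [CommRing k] {M : Rep.{0, 0, 0} k G} (e : M ≃+ (X →₀ ℤ))

omit [MulAction G X] in
/-- a finite set containing the supports of all values of an invariant function -/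
lemma exists_support_bound {N : Subgroup G} [N.FiniteIndex] (F : G → M)
    (hF : ∀ g, ∀ s ∈ N, F (g * s) = F g) :
    ∃ S : Finset X, ∀ g x, e (F g) x ≠ 0 → x ∈ S := by
  classical
  have hfin := finite_range_of_invariant F hF
  refine ⟨hfin.toFinset.biUnion (fun m => (e m).support), fun g x hx => ?_⟩
  simp only [Finset.mem_biUnion, Set.Finite.mem_toFinset, Set.mem_range, exists_exists_eq_and,
    Finsupp.mem_support_iff]
  exact ⟨g, hx⟩

end Model

/-! ### degree 1 -/

section DegreeOne

variable {k : Type} [CommRing k] {M : Rep.{0, 0, 0} k G} (e : M ≃+ (X →₀ ℤ))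

/-- **`H¹_LC(G, ℤ[X]) = 0`** for a smooth `G`-set `X`, in explicit form. -/
theorem perm_H1_vanish (hX : IsSmoothSet 𝒰 X)
    (he : ∀ (g : G) (m : M) (x : X), e (M.ρ g m) x = e m (g⁻¹ • x))
    (f : ↥(C₁ 𝒰 M)) (hf : dC₁ 𝒰 M f = 0) : ∃ m : ↥(C₀ 𝒰 M), dC₀ 𝒰 M m = f := by
  classical
  obtain ⟨N, hN, hfN⟩ := f.2
  have hNn := 𝒰.normal hN
  have hNf := 𝒰.finiteIndex hN
  -- coordinates
  set f₀ : G → X → ℤ := fun g x => e ((f : G → M) g) x with hf₀
  -- the cocycle identity in coordinates
  have hcoc : ∀ g h x, f₀ (g * h) x = f₀ h (g⁻¹ • x) + f₀ g x := by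
    intro g h x
    have h1 : (d₁₂ M).hom (f : G → M) (g, h) = 0 := by
      have := congrArg (fun c : ↥(C₂ 𝒰 M) => (c : G × G → M) (g, h)) hf
      simp only [dC₁_coe, ZeroMemClass.coe_zero, Pi.zero_apply] at this
      exact this
    rw [d₁₂_hom_apply] at h1
    have h2 := congrArg (fun m => e m x) h1
    simp only [map_add, map_sub, map_zero, Finsupp.coe_add, Finsupp.coe_sub, Pi.add_apply,
      Pi.sub_apply, Finsupp.coe_zero, Pi.zero_apply, he] at h2
    simp only [hf₀]
    linarith
  have hone : ∀ x, f₀ 1 x = 0 := by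
    intro x
    have := hcoc 1 1 x
    simp only [mul_one, inv_one, one_smul] at this
    linarith
  have hNzero : ∀ s ∈ N, ∀ x, f₀ s x = 0 := by
    intro s hs x
    have h1 : (f : G → M) (1 * s) = (f : G → M) 1 := (hfN s hs 1).1
    rw [one_mul] at h1
    simp only [hf₀, h1]
    exact hone x
  -- vanishing on stabilisers
  have hstab : ∀ (x : X) (u : G), u • x = x → f₀ u x = 0 := by
    intro x u hu
    have hpow : ∀ n : ℕ, f₀ (u ^ n) x = n * f₀ u x := by
      intro n
      induction n with
      | zero => simp [hone x]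
      | succ n ih =>
        have hux : u⁻¹ • x = x := by rw [inv_smul_eq_iff, hu]
        rw [pow_succ', hcoc, hux, ih]
        push_cast
        ring
    have hmem : u ^ N.index ∈ N := Subgroup.pow_index_mem N u
    have h0 := hNzero _ hmem x
    rw [hpow] at h0
    have hidx : (N.index : ℤ) ≠ 0 := by
      exact_mod_cast Subgroup.FiniteIndex.index_ne_zero
    exact (mul_eq_zero.mp h0).resolve_left hidx
  -- the bounding `0`-cochain
  set m₀ : X → ℤ := fun z => f₀ (tau G z) (rep G z) with hm₀
  obtain ⟨S, hS⟩ := exists_support_bound e (f : G → M) (fun g s hs => (hfN s hs g).1)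
  have hfin : (Function.support m₀).Finite := by
    refine (finite_rep_mem hX S).subset ?_
    intro z hz
    exact hS _ _ hz
  -- the key identity
  have key : ∀ g z, m₀ (g⁻¹ • z) - m₀ z = f₀ g z := by
    intro g z
    set a := tau G (g⁻¹ • z) with ha
    set b := tau G z with hb
    set x₀ := rep G z with hx₀
    have hax : a • g⁻¹ • z = x₀ := by
      rw [ha, tau_smul, rep_smul]
    have hbx : b • z = x₀ := tau_smul z
    have hbinv : b⁻¹ • x₀ = z := by rw [← hbx, inv_smul_smul]
    set u := a * g⁻¹ * b⁻¹ with hu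
    have hux : u • x₀ = x₀ := by
      rw [hu, mul_smul, mul_smul, hbinv, hax]
    have huinv : u⁻¹ • x₀ = x₀ := by rw [inv_smul_eq_iff, hux]
    have hau : a = u * (b * g) := by rw [hu]; group
    have h1 : m₀ (g⁻¹ • z) = f₀ a x₀ := by
      show f₀ (tau G (g⁻¹ • z)) (rep G (g⁻¹ • z)) = _
      rw [rep_smul]
    have h2 : m₀ z = f₀ b x₀ := rfl
    rw [h1, h2, hau, hcoc u (b * g) x₀, huinv, hstab x₀ u hux, hcoc b g x₀, hbinv]
    ring
  set m' : X →₀ ℤ := Finsupp.ofSupportFinite m₀ hfin with hm'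
  have hm'app : ∀ z, m' z = m₀ z := fun z => rfl
  have hρ : ∀ g z, e (M.ρ g (e.symm m')) z = m₀ (g⁻¹ • z) := by
    intro g z
    rw [he, AddEquiv.apply_symm_apply, hm'app]
  have hmem : e.symm m' ∈ C₀ 𝒰 M := by
    refine ⟨N, hN, fun s hs => ?_⟩
    apply e.injective
    ext z
    rw [hρ, AddEquiv.apply_symm_apply, hm'app]
    have := key s z
    rw [hNzero s hs z] at this
    linarith
  refine ⟨⟨e.symm m', hmem⟩, ?_⟩
  apply Subtype.ext
  funext g
  simp only [dC₀_coe, d₀₁_hom_apply]
  apply e.injective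
  ext z
  rw [map_sub, Finsupp.coe_sub, Pi.sub_apply, hρ, AddEquiv.apply_symm_apply, hm'app, key]

end DegreeOne


/-! ### degree 2 -/

section DegreeTwo

/-- The residue of a `2`-cochain (given by its coordinates `c₀`) at `x` is an LC coboundary:
the `x`-coordinate restricted to `Stab x` is `d b₀` for a `b₀ : Stab x → ℤ` invariant under a basic
subgroup `V ≤ Stab x`. -/
def IsResidueTrivial (𝒰 : NBasis G) (c₀ : G → G → X → ℤ) (x : X) : Prop :=
  ∃ V, 𝒰.mem V ∧ (∀ s ∈ V, s • x = x) ∧ ∃ b₀ : MulAction.stabilizer G x → ℤ,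
    (∀ u s : MulAction.stabilizer G x, (s : G) ∈ V → b₀ (u * s) = b₀ u) ∧
    ∀ u v : MulAction.stabilizer G x, c₀ u v x = b₀ v - b₀ (u * v) + b₀ u

/-- one orbit: explicit Shapiro (injectivity in degree 2) for the orbit of `x₀`, from
`ShapiroGeneric.shapiro_inj2`, plus invariance in the evaluation variable. -/
lemma orbit_step {N₀ : Subgroup G} (hN₀ : 𝒰.mem N₀) (c₀ : G → G → X → ℤ)
    (hinv : ∀ s ∈ N₀, ∀ g h x, c₀ (g * s) h x = c₀ g h x ∧ c₀ g (h * s) x = c₀ g h x)
    (hcoc : ∀ g h j x, c₀ h j (g⁻¹ • x) - c₀ (g * h) j x + c₀ g (h * j) x - c₀ g h x = 0)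
    (x₀ : X) (hres : IsResidueTrivial 𝒰 c₀ x₀) :
    ∃ N, 𝒰.mem N ∧ ∃ E : G → G → ℤ,
      (∀ u : G, u • x₀ = x₀ → ∀ g y, E g (u * y) = E g y) ∧
      (∀ s ∈ N, ∀ g y, E (g * s) y = E g y ∧ E g (y * s) = E g y) ∧
      ∀ g h y, c₀ g h (y⁻¹ • x₀) = E h (y * g) - E (g * h) y + E g y := by
  obtain ⟨V, hV, hVx, b₀, hb₀V, hb₀⟩ := hres
  obtain ⟨N, hN, hNle⟩ := 𝒰.inf hN₀ hV
  have hNn : N.Normal := 𝒰.normal hN
  have hNU : N ≤ MulAction.stabilizer G x₀ := fun s hs =>
    MulAction.mem_stabilizer_iff.mpr (hVx s (hNle hs).2)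
  let σ : Representation ℤ (MulAction.stabilizer G x₀) ℤ := Representation.trivial ℤ _ ℤ
  obtain ⟨r⟩ := exists_retraction (MulAction.stabilizer G x₀)
  let F : G → G → G → ℤ := fun g h y => c₀ g h (y⁻¹ • x₀)
  have hF : Eq2 σ F := by
    intro u g h y
    have hu : (u : G)⁻¹ • x₀ = x₀ := by
      rw [inv_smul_eq_iff]; exact (MulAction.mem_stabilizer_iff.mp u.2).symm
    simp only [F, σ, Representation.trivial_apply, mul_inv_rev, mul_smul, hu]
  have hFN : Fac2 N F := (fac2_iff N).mpr (fun g h s hs => by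
    constructor
    · funext y; exact (hinv s (hNle hs).1 g h _).1
    · funext y; exact (hinv s (hNle hs).1 g h _).2)
  have hc : δ2 F = 0 := by
    funext g h j y
    simp only [δ2, F, Pi.zero_apply, mul_inv_rev, mul_smul]
    exact hcoc g h j (y⁻¹ • x₀)
  have hcN : Fac1 (N.subgroupOf (MulAction.stabilizer G x₀)) b₀ :=
    (fac1_iff _).mpr (fun u s hs => hb₀V u s (hNle (Subgroup.mem_subgroupOf.mp hs)).2)
  have hSh : Sh2 F = dU1 σ b₀ := by
    funext u v
    simp only [Sh2, dU1, F, σ, Representation.trivial_apply, inv_one, one_smul]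
    exact hb₀ u v
  obtain ⟨E, hE1, hEN, hFE⟩ := shapiro_inj2 (σ := σ) r N hNU hF hFN hc hcN hSh
  have hE1' : ∀ g s, s ∈ N → E (g * s) = E g := (fac1_iff N).mp hEN
  have hFE' : ∀ g h y, F g h y = E h (y * g) - E (g * h) y + E g y := fun g h y => by
    rw [hFE]; rfl
  refine ⟨N, hN, E, ?_, ?_, hFE'⟩
  · intro u hu g y
    have := hE1 ⟨u, MulAction.mem_stabilizer_iff.mpr hu⟩ g y
    simpa only [σ, Representation.trivial_apply] using this
  · intro s hs g y
    refine ⟨congrFun (hE1' g s hs) y, ?_⟩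
    have h1 := hFE' s g y
    have h2 : E (s * g) = E g := by
      have e1 : s * g = g * (g⁻¹ * s * g) := by group
      rw [e1]
      exact hE1' g _ (hNn.conj_mem' s hs g)
    have h3 : E s = E 1 := by
      have := hE1' 1 s hs
      rwa [one_mul] at this
    have h4 : F s g y = F 1 g y := by
      have := ((fac2_iff N).mp hFN 1 g s hs).1
      rw [one_mul] at this
      exact congrFun this y
    have h5 := hFE' 1 g y
    simp only [mul_one, one_mul] at h5
    rw [h2, h3] at h1
    linarith

variable {k : Type} [CommRing k] {M : Rep.{0, 0, 0} k G} (e : M ≃+ (X →₀ ℤ))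

omit [MulAction G X] in
/-- a finite set containing the supports of all values of an invariant function of two variables -/
lemma exists_support_bound₂ {N : Subgroup G} [N.FiniteIndex] (F : G × G → M)
    (hF : ∀ g h, ∀ s ∈ N, F (g * s, h) = F (g, h) ∧ F (g, h * s) = F (g, h)) :
    ∃ S : Finset X, ∀ g h x, e (F (g, h)) x ≠ 0 → x ∈ S := by
  classical
  have : Finite (G ⧸ N) := Subgroup.finite_quotient_of_finiteIndex
  have hfin : (Set.range F).Finite := by
    refine (Set.finite_range (fun q : (G ⧸ N) × (G ⧸ N) =>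
      F (Quotient.out q.1, Quotient.out q.2))).subset ?_
    rintro _ ⟨⟨g, h⟩, rfl⟩
    refine ⟨((g : G ⧸ N), (h : G ⧸ N)), ?_⟩
    obtain ⟨s, hs, e1⟩ := out_eq_mul N g
    obtain ⟨t, ht, e2⟩ := out_eq_mul N h
    simp only [e1, e2, (hF g (h * t) s hs).1, (hF g h t ht).2]
  refine ⟨hfin.toFinset.biUnion (fun m => (e m).support), fun g h x hx => ?_⟩
  simp only [Finset.mem_biUnion, Set.Finite.mem_toFinset, Set.mem_range, exists_exists_eq_and,
    Finsupp.mem_support_iff]
  exact ⟨(g, h), hx⟩

/-- **Injectivity of residues on `H²_LC(G, ℤ[X])`**, explicit form: an LC `2`-cocycle all of whose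
residues are LC coboundaries is an LC coboundary. -/
theorem perm_H2_inj (hX : IsSmoothSet 𝒰 X)
    (he : ∀ (g : G) (m : M) (x : X), e (M.ρ g m) x = e m (g⁻¹ • x))
    (c : ↥(C₂ 𝒰 M)) (hc : dC₂ 𝒰 M c = 0)
    (hres : ∀ x, IsResidueTrivial 𝒰 (fun g h x => e ((c : G × G → M) (g, h)) x) x) :
    ∃ b : ↥(C₁ 𝒰 M), dC₁ 𝒰 M b = c := by
  classical
  obtain ⟨N₀, hN₀, hcN⟩ := c.2
  have hN₀f := 𝒰.finiteIndex hN₀
  set c₀ : G → G → X → ℤ := fun g h x => e ((c : G × G → M) (g, h)) x with hc₀
  have hinv : ∀ s ∈ N₀, ∀ g h x, c₀ (g * s) h x = c₀ g h x ∧ c₀ g (h * s) x = c₀ g h x := by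
    intro s hs g h x
    simp only [hc₀, (hcN s hs g h).1, (hcN s hs g h).2.1, and_self]
  have hcoc : ∀ g h j x,
      c₀ h j (g⁻¹ • x) - c₀ (g * h) j x + c₀ g (h * j) x - c₀ g h x = 0 := by
    intro g h j x
    have h1 : (d₂₃ M).hom (c : G × G → M) (g, h, j) = 0 := by
      have := congrArg (fun c : ↥(C₃ 𝒰 M) => (c : G × G × G → M) (g, h, j)) hc
      simp only [dC₂_coe, ZeroMemClass.coe_zero, Pi.zero_apply] at this
      exact this
    rw [d₂₃_hom_apply] at h1
    have h2 := congrArg (fun m => e m x) h1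
    simp only [map_add, map_sub, map_zero, Finsupp.coe_add, Finsupp.coe_sub, Pi.add_apply,
      Pi.sub_apply, Finsupp.coe_zero, Pi.zero_apply, he] at h2
    simp only [hc₀]
    linarith
  obtain ⟨S, hS⟩ := exists_support_bound₂ e (c : G × G → M)
    (fun g h s hs => ⟨(hcN s hs g h).1, (hcN s hs g h).2.1⟩)
  set R : Finset X := S.image (rep G) with hR
  have hRmem : ∀ g h z, c₀ g h z ≠ 0 → rep G z ∈ R := fun g h z hz =>
    Finset.mem_image_of_mem _ (hS g h z hz)
  -- per-orbit data
  have hstep := fun x₀ => orbit_step hN₀ c₀ hinv hcoc x₀ (hres x₀)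
  choose Nx hNx Ex hEstab hEN hEc using hstep
  obtain ⟨W, hW, hWle⟩ := exists_common R Nx (fun i _ => hNx i)
  set b₁ : G → X → ℤ := fun g z => if rep G z ∈ R then Ex (rep G z) g (tau G z) else 0 with hb₁
  have hb₁fin : ∀ g, (Function.support (b₁ g)).Finite := fun g =>
    (finite_rep_mem hX R).subset (fun z hz => by
      by_contra h
      exact hz (if_neg h))
  have htau : ∀ (g : G) (z : X), ∃ u : G, u • rep G z = rep G z ∧
      tau G (g⁻¹ • z) = u * (tau G z * g) := by
    intro g z
    refine ⟨tau G (g⁻¹ • z) * (tau G z * g)⁻¹, ?_, by group⟩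
    rw [mul_smul, mul_inv_rev, mul_smul, inv_tau_smul_rep, tau_smul, rep_smul]
  have hb₁shift : ∀ g h z,
      b₁ h (g⁻¹ • z) = if rep G z ∈ R then Ex (rep G z) h (tau G z * g) else 0 := by
    intro g h z
    simp only [hb₁, rep_smul]
    split_ifs with hRz
    · obtain ⟨u, hu, hτ⟩ := htau g z
      rw [hτ, hEstab _ u hu]
    · rfl
  have key : ∀ g h z, c₀ g h z = b₁ h (g⁻¹ • z) - b₁ (g * h) z + b₁ g z := by
    intro g h z
    rw [hb₁shift]
    by_cases hRz : rep G z ∈ R
    · simp only [hb₁, if_pos hRz]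
      have := hEc (rep G z) g h (tau G z)
      rw [inv_tau_smul_rep] at this
      exact this
    · simp only [hb₁, if_neg hRz]
      by_contra hne
      exact hRz (hRmem g h z (by simpa using hne))
  set b : G → M := fun g => e.symm (Finsupp.ofSupportFinite (b₁ g) (hb₁fin g)) with hb
  have hbapp : ∀ g z, e (b g) z = b₁ g z := by
    intro g z
    simp only [hb, AddEquiv.apply_symm_apply]
    rfl
  have hbmem : b ∈ C₁ 𝒰 M := by
    refine ⟨W, hW, fun s hs g => ⟨?_, ?_⟩⟩
    · apply e.injective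
      ext z
      rw [hbapp, hbapp]
      simp only [hb₁]
      split_ifs with hRz
      · exact (hEN _ s (hWle _ hRz hs) g _).1
      · rfl
    · apply e.injective
      ext z
      rw [he, hbapp, hbapp, hb₁shift]
      simp only [hb₁]
      split_ifs with hRz
      · exact (hEN _ s (hWle _ hRz hs) g _).2
      · rfl
  refine ⟨⟨b, hbmem⟩, ?_⟩
  apply Subtype.ext
  funext ⟨g, h⟩
  simp only [dC₁_coe, d₁₂_hom_apply]
  apply e.injective
  ext z
  simp only [map_add, map_sub, Finsupp.coe_add, Finsupp.coe_sub, Pi.add_apply, Pi.sub_apply, he,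
    hbapp]
  exact (key g h z).symm

end DegreeTwo

end Fermat.Agent.S55.Middle.Perm
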