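/-
S55 / Middle (helper63): INJECTIVITY OF RESIDUES on `H²_LC(G; Div)` for the correct divisor module
`Div 𝒰 X` of `Middle/DivDef.lean` (smooth compactly supported functions on an ARBITRARY `G`-set
`X`; stabilisers need not be open).

* `IsResTriv 𝒰 c₀ x` : the residue at `x` of the cochain with coordinates `c₀` is an LC coboundary
  on `Stab x` (induced basis, trivial coefficients `ℤ`);
* `orbit_step` : explicit Shapiro on one orbit, via `ShapiroGeneric.shapiro_inj2` applied to the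
  OPEN subgroup `Stab x₀ ⊔ N` (the stabiliser of the `N`-orbit of `x₀`), `N` below the level of
  the residue primitive;
* `div_H2_inj` : an LC `2`-cocycle with values in `Div` all of whose residues are LC coboundaries
  is an LC coboundary;
* `h2_eq_zero_of_res` : class form, with the residue maps `(resMor 𝒰 X x).h2`.
-/
import Mathlib
import Fermat.Agent.S55.Middle.DivDef
import Fermat.Agent.S55.Middle.Perm
import Fermat.Agent.S55.Bridge.ShapiroGeneric

set_option autoImplicit false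

open CategoryTheory groupCohomology

namespace Fermat.Agent.S55.Middle.DivH2

open Fermat.Agent.S55.Formal
open Fermat.Agent.S55.Bridge.ShapiroGeneric
open Fermat.Agent.S55.Middle.DivDef
open Fermat.Agent.S55.Middle.Perm (rep tau tau_smul rep_smul inv_tau_smul_rep exists_common)

variable {G : Type} [Group G] {𝒰 : NBasis G} {X : Type} [MulAction G X]

/-- The residue at `x` of a `2`-cochain (given by its coordinates `c₀`) is an LC coboundary:
the `x`-coordinate restricted to `Stab x` is `d b₀` for a `b₀ : Stab x → ℤ` invariant under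
`V ∩ Stab x` for a basic subgroup `V` (NOT assumed to lie in `Stab x`). -/
def IsResTriv (𝒰 : NBasis G) (c₀ : G → G → X → ℤ) (x : X) : Prop :=
  ∃ V, 𝒰.mem V ∧ ∃ b₀ : MulAction.stabilizer G x → ℤ,
    (∀ u s : MulAction.stabilizer G x, (s : G) ∈ V → b₀ (u * s) = b₀ u) ∧
    ∀ u v : MulAction.stabilizer G x, c₀ u v x = b₀ v - b₀ (u * v) + b₀ u

/-- one orbit: explicit Shapiro (injectivity in degree 2) for the orbit of `x₀`. -/
lemma orbit_step {N₀ : Subgroup G} (hN₀ : 𝒰.mem N₀) (c₀ : G → G → X → ℤ)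
    (hinv : ∀ s ∈ N₀, ∀ g h x, c₀ (g * s) h x = c₀ g h x ∧ c₀ g (h * s) x = c₀ g h x)
    (hinvX : ∀ s ∈ N₀, ∀ g h x, c₀ g h (s • x) = c₀ g h x)
    (hcoc : ∀ g h j x, c₀ h j (g⁻¹ • x) - c₀ (g * h) j x + c₀ g (h * j) x - c₀ g h x = 0)
    (x₀ : X) (hres : IsResTriv 𝒰 c₀ x₀) :
    ∃ N, 𝒰.mem N ∧ N ≤ N₀ ∧ ∃ E : G → G → ℤ,
      (∀ u : G, u • x₀ = x₀ → ∀ g y, E g (u * y) = E g y) ∧
      (∀ s ∈ N, ∀ g y, E (g * s) y = E g y ∧ E g (y * s) = E g y) ∧
      ∀ g h y, c₀ g h (y⁻¹ • x₀) = E h (y * g) - E (g * h) y + E g y := by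
  unfold IsResTriv at hres
  set S : Subgroup G := MulAction.stabilizer G x₀ with hS
  obtain ⟨V, hV, b₀, hb₀V, hb₀⟩ := hres
  obtain ⟨N, hN, hNle⟩ := 𝒰.inf hN₀ hV
  have hNn : N.Normal := 𝒰.normal hN
  set U : Subgroup G := S ⊔ N with hU
  have hNU : N ≤ U := le_sup_right
  have hSU : S ≤ U := le_sup_left
  -- decomposition of elements of `U`
  have hdec : ∀ u : U, ∃ s : S, ∃ n : G, n ∈ N ∧ (s : G) * n = (u : G) := by
    intro u
    have hu : (u : G) ∈ ((S ⊔ N : Subgroup G) : Set G) := u.2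
    rw [Subgroup.mul_normal, Set.mem_mul] at hu
    obtain ⟨s, hs, n, hn, e⟩ := hu
    exact ⟨⟨s, hs⟩, n, hn, e⟩
  -- `U` moves `x₀` inside its `N`-orbit
  have hUx : ∀ u ∈ U, ∃ n ∈ N, u⁻¹ • x₀ = n • x₀ := by
    intro u hu
    obtain ⟨s, n, hn, e⟩ := hdec ⟨u, hu⟩
    refine ⟨n⁻¹, N.inv_mem hn, ?_⟩
    have e' : u = (s : G) * n := e.symm
    have hs : (s : G)⁻¹ • x₀ = x₀ := by
      rw [inv_smul_eq_iff]; exact (MulAction.mem_stabilizer_iff.mp s.2).symm
    rw [e', mul_inv_rev, mul_smul, hs]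
  choose sOf nOf hnOf hsn using hdec
  let cU : U → ℤ := fun u => b₀ (sOf u)
  have hcU : ∀ (s : S) (n : G), n ∈ N → ∀ u : U, (s : G) * n = (u : G) → cU u = b₀ s := by
    intro s n hn u e
    have h1 : ((sOf u : S) : G) * nOf u = (s : G) * n := by rw [hsn u, e]
    have h2 : ((sOf u)⁻¹ * s : S) = (⟨nOf u * n⁻¹, by
        have : ((sOf u : S) : G)⁻¹ * (s : G) = nOf u * n⁻¹ := by
          rw [inv_mul_eq_iff_eq_mul, ← mul_assoc, h1, mul_assoc, mul_inv_cancel, mul_one]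
        rw [← this]
        exact S.mul_mem (S.inv_mem (sOf u).2) s.2⟩ : S) := by
      apply Subtype.ext
      show ((sOf u : S) : G)⁻¹ * (s : G) = nOf u * n⁻¹
      rw [inv_mul_eq_iff_eq_mul, ← mul_assoc, h1, mul_assoc, mul_inv_cancel, mul_one]
    have h3 : (((sOf u)⁻¹ * s : S) : G) ∈ V := by
      rw [h2]
      exact (hNle (N.mul_mem (hnOf u) (N.inv_mem hn))).2
    have h4 := hb₀V (sOf u) ((sOf u)⁻¹ * s) h3
    rw [mul_inv_cancel_left] at h4
    exact h4.symm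
  let σ : Representation ℤ U ℤ := Representation.trivial ℤ _ ℤ
  obtain ⟨r⟩ := exists_retraction U
  let F : G → G → G → ℤ := fun g h y => c₀ g h (y⁻¹ • x₀)
  have hF : Eq2 σ F := by
    intro u g h y
    obtain ⟨n, hn, e⟩ := hUx u u.2
    have hconj : y⁻¹ * n * y ∈ N₀ := by
      have := hNn.conj_mem n hn y⁻¹
      rw [inv_inv] at this
      exact (hNle this).1
    have e2 : ((u : G) * y)⁻¹ • x₀ = (y⁻¹ * n * y) • y⁻¹ • x₀ := by
      rw [mul_inv_rev, mul_smul, e]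
      simp only [smul_smul]
      congr 1
      group
    simp only [F, σ, Representation.trivial_apply]
    rw [e2, hinvX _ hconj]
  have hFN : Fac2 N F := (fac2_iff N).mpr (fun g h s hs => by
    constructor
    · funext y; exact (hinv s (hNle hs).1 g h _).1
    · funext y; exact (hinv s (hNle hs).1 g h _).2)
  have hc : δ2 F = 0 := by
    funext g h j y
    simp only [δ2, F, Pi.zero_apply, mul_inv_rev, mul_smul]
    exact hcoc g h j (y⁻¹ • x₀)
  have hcN : Fac1 (N.subgroupOf U) cU :=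
    (fac1_iff _).mpr (fun u m hm => by
      have hm' : ((m : U) : G) ∈ N := Subgroup.mem_subgroupOf.mp hm
      have e : ((sOf u : S) : G) * (nOf u * (m : G)) = ((u * m : U) : G) := by
        rw [← mul_assoc, hsn u]; rfl
      exact hcU (sOf u) _ (N.mul_mem (hnOf u) hm') (u * m) e)
  have hSh : Sh2 F = dU1 σ cU := by
    funext u v
    simp only [Sh2, dU1, F, σ, Representation.trivial_apply, inv_one, one_smul]
    have eu := hsn u
    have ev := hsn v
    have h1 : c₀ (u : G) (v : G) x₀ = c₀ (sOf u : G) (sOf v : G) x₀ := by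
      rw [← eu, ← ev, (hinv _ (hNle (hnOf u)).1 _ _ _).1, (hinv _ (hNle (hnOf v)).1 _ _ _).2]
    have h2 : cU (u * v) = b₀ (sOf u * sOf v) := by
      refine hcU (sOf u * sOf v) (((sOf v : S) : G)⁻¹ * nOf u * (sOf v : G) * nOf v) ?_ (u * v) ?_
      · refine N.mul_mem ?_ (hnOf v)
        have := hNn.conj_mem (nOf u) (hnOf u) ((sOf v : S) : G)⁻¹
        rwa [inv_inv] at this
      · show ((sOf u : S) : G) * ((sOf v : S) : G) *
            (((sOf v : S) : G)⁻¹ * nOf u * (sOf v : G) * nOf v) = (u : G) * (v : G)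
        rw [← eu, ← ev]
        group
    rw [h1, h2, hb₀ (sOf u) (sOf v)]
  obtain ⟨E, hE1, hEN, hFE⟩ := shapiro_inj2 (σ := σ) r N hNU hF hFN hc hcN hSh
  have hE1' : ∀ g s, s ∈ N → E (g * s) = E g := (fac1_iff N).mp hEN
  have hFE' : ∀ g h y, F g h y = E h (y * g) - E (g * h) y + E g y := fun g h y => by
    rw [hFE]; rfl
  have hEU : ∀ u ∈ U, ∀ g y, E g (u * y) = E g y := by
    intro u hu g y
    have := hE1 ⟨u, hu⟩ g y
    simpa only [σ, Representation.trivial_apply] using this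
  refine ⟨N, hN, fun s hs => (hNle hs).1, E, ?_, ?_, hFE'⟩
  · intro u hu g y
    exact hEU u (hSU (MulAction.mem_stabilizer_iff.mpr hu)) g y
  · intro s hs g y
    refine ⟨congrFun (hE1' g s hs) y, ?_⟩
    have e1 : y * s = (y * s * y⁻¹) * y := by group
    rw [e1]
    exact hEU _ (hNU (hNn.conj_mem s hs y)) g y

/-- a finite set of points whose `G`-orbits contain the supports of all values of an LC
`2`-cochain with values in `Div` -/
lemma exists_support_bound₂ {N : Subgroup G} [N.FiniteIndex] (F : G × G → Div 𝒰 X)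
    (hF : ∀ g h, ∀ s ∈ N, F (g * s, h) = F (g, h) ∧ F (g, h * s) = F (g, h)) :
    ∃ S : Finset X, ∀ g h x, toFun 𝒰 X (F (g, h)) x ≠ 0 → ∃ g' : G, ∃ y ∈ S, x = g' • y := by
  classical
  have : Finite (G ⧸ N) := Subgroup.finite_quotient_of_finiteIndex
  have hfin : (Set.range F).Finite := by
    refine (Set.finite_range (fun q : (G ⧸ N) × (G ⧸ N) =>
      F (Quotient.out q.1, Quotient.out q.2))).subset ?_
    rintro _ ⟨⟨g, h⟩, rfl⟩
    refine ⟨((g : G ⧸ N), (h : G ⧸ N)), ?_⟩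
    obtain ⟨s, hs, e1⟩ := out_eq_mul N g
    obtain ⟨t, ht, e2⟩ := out_eq_mul N h
    simp only [e1, e2, (hF g (h * t) s hs).1, (hF g h t ht).2]
  have hsupp : ∀ m : Div 𝒰 X, ∃ T : Finset X, ∀ x, toFun 𝒰 X m x ≠ 0 →
      ∃ g' : G, ∃ y ∈ T, x = g' • y := fun m => (isDiv_toFun 𝒰 X m).2
  choose T hT using hsupp
  refine ⟨hfin.toFinset.biUnion T, fun g h x hx => ?_⟩
  obtain ⟨g', y, hy, e⟩ := hT _ x hx
  refine ⟨g', y, ?_, e⟩
  rw [Finset.mem_biUnion]
  exact ⟨F (g, h), by simp, hy⟩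

/-- **Injectivity of residues on `H²_LC(G; Div)`**, explicit form: an LC `2`-cocycle with values in
`Div 𝒰 X` all of whose residues are LC coboundaries is an LC coboundary.  No hypothesis on the
`G`-set `X`. -/
theorem div_H2_inj (c : ↥(C₂ 𝒰 (Div 𝒰 X))) (hc : dC₂ 𝒰 (Div 𝒰 X) c = 0)
    (hres : ∀ x, IsResTriv 𝒰
      (fun g h x => toFun 𝒰 X ((c : G × G → Div 𝒰 X) (g, h)) x) x) :
    ∃ b : ↥(C₁ 𝒰 (Div 𝒰 X)), dC₁ 𝒰 (Div 𝒰 X) b = c := by
  classical
  obtain ⟨N₀, hN₀, hcN⟩ := c.2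
  have hN₀f := 𝒰.finiteIndex hN₀
  have hN₀n := 𝒰.normal hN₀
  set c₀ : G → G → X → ℤ := fun g h x => toFun 𝒰 X ((c : G × G → Div 𝒰 X) (g, h)) x with hc₀
  have hinv : ∀ s ∈ N₀, ∀ g h x, c₀ (g * s) h x = c₀ g h x ∧ c₀ g (h * s) x = c₀ g h x := by
    intro s hs g h x
    simp only [hc₀, (hcN s hs g h).1, (hcN s hs g h).2.1, and_self]
  have hinvX : ∀ s ∈ N₀, ∀ g h x, c₀ g h (s • x) = c₀ g h x := by
    intro s hs g h x
    have h1 := (hcN s⁻¹ (N₀.inv_mem hs) g h).2.2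
    have h2 := congrArg (fun m => toFun 𝒰 X m x) h1
    simp only [toFun_ρ, inv_inv] at h2
    exact h2
  have hcoc : ∀ g h j x,
      c₀ h j (g⁻¹ • x) - c₀ (g * h) j x + c₀ g (h * j) x - c₀ g h x = 0 := by
    intro g h j x
    have h1 : (Div 𝒰 X).ρ g ((c : G × G → Div 𝒰 X) (h, j)) - (c : G × G → Div 𝒰 X) (g * h, j)
        + (c : G × G → Div 𝒰 X) (g, h * j) - (c : G × G → Div 𝒰 X) (g, h) = 0 := by
      have := congrArg (fun c : ↥(C₃ 𝒰 (Div 𝒰 X)) => (c : G × G × G → Div 𝒰 X) (g, h, j)) hc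
      exact this
    have h2 := congrArg (fun m => toFun 𝒰 X m x) h1
    simp only [toFun_add, toFun_sub, toFun_ρ, toFun_zero] at h2
    exact h2
  obtain ⟨S, hS⟩ := exists_support_bound₂ (c : G × G → Div 𝒰 X)
    (fun g h s hs => ⟨(hcN s hs g h).1, (hcN s hs g h).2.1⟩)
  set R : Finset X := S.image (rep G) with hR
  have hRmem : ∀ g h z, c₀ g h z ≠ 0 → rep G z ∈ R := by
    intro g h z hz
    obtain ⟨g', y, hy, rfl⟩ := hS g h z hz
    rw [rep_smul]
    exact Finset.mem_image_of_mem _ hy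
  -- per-orbit data
  have hstep := fun x₀ => orbit_step hN₀ c₀ hinv hinvX hcoc x₀ (hres x₀)
  choose Nx hNx hNxle Ex hEstab hEN hEc using hstep
  obtain ⟨W, hW, hWle⟩ := exists_common R Nx (fun i _ => hNx i)
  have hWn := 𝒰.normal hW
  set b₁ : G → X → ℤ := fun g z => if rep G z ∈ R then Ex (rep G z) g (tau G z) else 0 with hb₁
  -- change of the chosen mover
  have htau : ∀ (g : G) (z : X), ∃ u : G, u • rep G z = rep G z ∧
      tau G (g⁻¹ • z) = u * (tau G z * g) := by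
    intro g z
    refine ⟨tau G (g⁻¹ • z) * (tau G z * g)⁻¹, ?_, by group⟩
    rw [mul_smul, mul_inv_rev, mul_smul, inv_tau_smul_rep, tau_smul, rep_smul]
  have hb₁shift : ∀ g h z,
      b₁ h (g⁻¹ • z) = if rep G z ∈ R then Ex (rep G z) h (tau G z * g) else 0 := by
    intro g h z
    simp only [hb₁, rep_smul]
    split_ifs with hRz
    · obtain ⟨u, hu, hτ⟩ := htau g z
      rw [hτ, hEstab _ u hu]
    · rfl
  have key : ∀ g h z, c₀ g h z = b₁ h (g⁻¹ • z) - b₁ (g * h) z + b₁ g z := by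
    intro g h z
    rw [hb₁shift]
    by_cases hRz : rep G z ∈ R
    · simp only [hb₁, if_pos hRz]
      have := hEc (rep G z) g h (tau G z)
      rw [inv_tau_smul_rep] at this
      exact this
    · simp only [hb₁, if_neg hRz]
      by_contra hne
      exact hRz (hRmem g h z (by simpa using hne))
  -- invariance of `b₁ g` under `W`
  have hb₁W : ∀ s ∈ W, ∀ g z, b₁ g (s • z) = b₁ g z := by
    intro s hs g z
    have h1 := hb₁shift s⁻¹ g z
    rw [inv_inv] at h1
    rw [h1]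
    simp only [hb₁]
    split_ifs with hRz
    · exact (hEN _ s⁻¹ (hWle _ hRz (W.inv_mem hs)) g _).2
    · rfl
  have hb₁div : ∀ g, IsDiv 𝒰 X (b₁ g) := by
    intro g
    refine ⟨⟨W, hW, fun u hu x => hb₁W u hu g x⟩, ⟨R, fun z hz => ?_⟩⟩
    have hRz : rep G z ∈ R := by
      by_contra h
      exact hz (if_neg h)
    exact ⟨(tau G z)⁻¹, rep G z, hRz, (inv_tau_smul_rep z).symm⟩
  set b : G → Div 𝒰 X := fun g => mkDiv 𝒰 X (b₁ g) (hb₁div g) with hb
  have hbapp : ∀ g z, toFun 𝒰 X (b g) z = b₁ g z := fun g z => rfl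
  have hbmem : b ∈ C₁ 𝒰 (Div 𝒰 X) := by
    refine ⟨W, hW, fun s hs g => ⟨?_, ?_⟩⟩
    · ext z
      rw [hbapp, hbapp]
      simp only [hb₁]
      split_ifs with hRz
      · exact (hEN _ s (hWle _ hRz hs) g _).1
      · rfl
    · ext z
      rw [toFun_ρ, hbapp, hbapp]
      exact hb₁W s⁻¹ (W.inv_mem hs) g z
  refine ⟨⟨b, hbmem⟩, ?_⟩
  apply Subtype.ext
  funext ⟨g, h⟩
  simp only [dC₁_coe, d₁₂_hom_apply]
  ext z
  simp only [toFun_add, toFun_sub, toFun_ρ, hbapp]
  exact (key g h z).symm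

/-- the residue of a cocycle is a coboundary, in the `Mor` language, gives `IsResTriv` -/
lemma isResTriv_of_resMor (c : ↥(C₂ 𝒰 (Div 𝒰 X))) (x : X)
    (h : ∃ b : ↥(C₁ (stabBasis 𝒰 X x) (Rep.trivial ℤ (MulAction.stabilizer G x) ℤ)),
      dC₁ (stabBasis 𝒰 X x) (Rep.trivial ℤ (MulAction.stabilizer G x) ℤ) b =
        (resMor 𝒰 X x).c₂ c) :
    IsResTriv 𝒰 (fun g h x => toFun 𝒰 X ((c : G × G → Div 𝒰 X) (g, h)) x) x := by
  obtain ⟨b, hb⟩ := h
  obtain ⟨V', ⟨V, hV, rfl⟩, hbV⟩ := b.2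
  refine ⟨V, hV, (b : MulAction.stabilizer G x → ℤ), ?_, ?_⟩
  · intro u s hs
    exact (hbV s (Subgroup.mem_comap.mpr hs) u).1
  · intro u v
    have h1 := congrArg (fun f : ↥(C₂ (stabBasis 𝒰 X x)
      (Rep.trivial ℤ (MulAction.stabilizer G x) ℤ)) =>
        (f : MulAction.stabilizer G x × MulAction.stabilizer G x → ℤ) (u, v)) hb
    simp only [dC₁_coe, d₁₂_hom_apply, Mor.c₂_coe, Mor.p₂_apply] at h1
    rw [eq_comm]
    exact h1

/-- **Injectivity of residues on `H²_LC(G; Div)`**, class form: a class all of whose residues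
`(resMor 𝒰 X x).h2` vanish is zero. -/
theorem h2_eq_zero_of_res (ξ : H2 𝒰 (Div 𝒰 X))
    (h : ∀ x, (resMor 𝒰 X x).h2 ξ = 0) : ξ = 0 := by
  obtain ⟨c, hc, rfl⟩ := Hmid.exists_of ξ
  rw [Hmid.of_eq_zero_iff]
  refine div_H2_inj c hc (fun x => isResTriv_of_resMor c x ?_)
  have h1 := h x
  rw [Mor.h2, Hmid.mapOfComm_of (hb' := by
    have := LinearMap.congr_fun (resMor 𝒰 X x).c₃_dC₂ c
    simp only [LinearMap.comp_apply] at this
    rw [← this, hc, map_zero]), Hmid.of_eq_zero_iff] at h1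
  exact h1

end Fermat.Agent.S55.Middle.DivH2
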