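/-
S55 / Middle (helper63): the pure-cohomology consequences [2c], [2d] of capitulation, GENERIC.

`ι : A ⟶ B` an injective morphism of `G`-modules (application: `A = Prin`, `B = Div`),
`H¹_LC(G; B) = 0` (explicit form, e.g. `DivDef.h1_vanish`), and the capitulation hypothesis
`cap : ∀ d : B, ∃ n coprime to p, n • d ∈ range ι`  (`B / A` is torsion prime to `p`).  Then

* `h1_killed`  : every class of `H¹_LC(G; A)` is killed by some `n` coprime to `p`;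
  hence `h1_no_p_torsion`, `h1_p_divisible`;
* `h2_killed`  : every class `e` of `H²_LC(G; A)` with `ι_* e = 0` is killed by some `n` coprime
  to `p`; hence `h2_eq_zero_of_p_torsion` : `p^k • e = 0 → ι_* e = 0 → e = 0`.
No quotient module and no long exact sequence is needed.
-/
import Mathlib
import Fermat.Agent.S55.Formal.LC

set_option autoImplicit false

open CategoryTheory groupCohomology

namespace Fermat.Agent.S55.Middle.DivLES

open Fermat.Agent.S55.Formal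

variable {k : Type} [CommRing k] {G : Type} [Group G] (𝒰 : NBasis G)
  {A B : Rep.{0, 0, 0} k G} (ι : A ⟶ B)

/-- the coefficient map as a function -/
abbrev iot : A → B := fun a => ι.hom.toLinearMap a

lemma iot_ρ (g : G) (a : A) : iot ι (A.ρ g a) = B.ρ g (iot ι a) := Rep.hom_comm_apply ι g a

lemma iot_add (a b : A) : iot ι (a + b) = iot ι a + iot ι b := map_add _ a b
lemma iot_sub (a b : A) : iot ι (a - b) = iot ι a - iot ι b := map_sub _ a b
lemma iot_nsmul (n : ℕ) (a : A) : iot ι (n • a) = n • iot ι a := map_nsmul _ n a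

/-- finitely many values of an LC `1`-cochain -/
lemma finite_range_C₁ (b : ↥(C₁ 𝒰 B)) : (Set.range (b : G → B)).Finite := by
  obtain ⟨U, hU, h⟩ := b.2
  have := 𝒰.finiteIndex hU
  have : Finite (G ⧸ U) := Subgroup.finite_quotient_of_finiteIndex
  refine (Set.finite_range (fun q : G ⧸ U => (b : G → B) (Quotient.out q))).subset ?_
  rintro _ ⟨g, rfl⟩
  refine ⟨(g : G ⧸ U), ?_⟩
  obtain ⟨s, hs⟩ := QuotientGroup.mk_out_eq_mul U g
  simp only [hs, (h s s.2 g).1]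

variable {ι} {𝒰}

/-- **[2c], core**: every class of `H¹_LC(G; A)` is killed by an integer prime to `p`. -/
theorem h1_killed (p : ℕ) (hinj : Function.Injective (iot ι))
    (h1B : ∀ c : ↥(C₁ 𝒰 B), dC₁ 𝒰 B c = 0 → ∃ m : ↥(C₀ 𝒰 B), dC₀ 𝒰 B m = c)
    (cap : ∀ d : B, ∃ n : ℕ, n.Coprime p ∧ ∃ a : A, iot ι a = n • d)
    (y : H1 𝒰 A) : ∃ n : ℕ, n.Coprime p ∧ n • y = 0 := by
  obtain ⟨c, hc, rfl⟩ := Hmid.exists_of y
  let α := Mor.ofHom 𝒰 ι
  have hc' : dC₁ 𝒰 B (α.c₁ c) = 0 := by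
    have := LinearMap.congr_fun α.c₂_dC₁ c
    simp only [LinearMap.comp_apply] at this
    rw [← this, hc, map_zero]
  obtain ⟨m, hm⟩ := h1B _ hc'
  obtain ⟨n, hn, a, ha⟩ := cap (m : B)
  refine ⟨n, hn, ?_⟩
  have hasm : a ∈ C₀ 𝒰 A := by
    obtain ⟨U, hU, hfix⟩ := m.2
    refine ⟨U, hU, fun s hs => hinj ?_⟩
    rw [iot_ρ, ha, map_nsmul, hfix s hs]
  have hda : dC₀ 𝒰 A ⟨a, hasm⟩ = n • c := by
    apply Subtype.ext
    funext g
    apply hinj
    have h1 : (dC₀ 𝒰 B m : G → B) g = (α.c₁ c : G → B) g := by rw [hm]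
    simp only [dC₀_coe, d₀₁_hom_apply] at h1
    show iot ι (A.ρ g a - a) = iot ι (n • (c : G → A) g)
    rw [iot_sub, iot_ρ, ha, iot_nsmul, map_nsmul, ← smul_sub, h1]
    rfl
  have : n • (Hmid.of c hc : H1 𝒰 A) = Hmid.of (n • c) (by rw [map_nsmul, hc, smul_zero]) :=
    (map_nsmul (Hmid.mk (dC₀ 𝒰 A) (dC₁ 𝒰 A)) n ⟨c, LinearMap.mem_ker.mpr hc⟩).symm
  rw [this, Hmid.of_eq_zero_iff]
  exact ⟨⟨a, hasm⟩, hda⟩

/-- **[2d], core**: a class of `H²_LC(G; A)` with zero image in `H²_LC(G; B)` is killed by an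
integer prime to `p`. -/
theorem h2_killed (p : ℕ) (hinj : Function.Injective (iot ι))
    (cap : ∀ d : B, ∃ n : ℕ, n.Coprime p ∧ ∃ a : A, iot ι a = n • d)
    (e : H2 𝒰 A) (he : (Mor.ofHom 𝒰 ι).h2 e = 0) : ∃ n : ℕ, n.Coprime p ∧ n • e = 0 := by
  classical
  obtain ⟨c, hc, rfl⟩ := Hmid.exists_of e
  let α := Mor.ofHom 𝒰 ι
  have hc' : dC₂ 𝒰 B (α.c₂ c) = 0 := by
    have := LinearMap.congr_fun α.c₃_dC₂ c
    simp only [LinearMap.comp_apply] at this
    rw [← this, hc, map_zero]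
  rw [Mor.h2, Hmid.mapOfComm_of (hb' := hc'), Hmid.of_eq_zero_iff] at he
  obtain ⟨b, hb⟩ := he
  -- a common multiplier
  choose nOf hnOf haOf using cap
  have hfin := finite_range_C₁ 𝒰 b
  set N : ℕ := ∏ v ∈ hfin.toFinset, nOf v with hN
  have hNcop : N.Coprime p := Nat.Coprime.prod_left (fun v _ => hnOf v)
  have hex : ∀ g, ∃ a : A, iot ι a = N • (b : G → B) g := by
    intro g
    have hmem : (b : G → B) g ∈ hfin.toFinset := by simp
    obtain ⟨t, ht⟩ := Finset.dvd_prod_of_mem nOf hmem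
    obtain ⟨a, ha⟩ := haOf ((b : G → B) g)
    refine ⟨t • a, ?_⟩
    rw [iot_nsmul, ha, smul_smul, hN, ht, mul_comm]
  choose b' hb' using hex
  obtain ⟨U, hU, hbU⟩ := b.2
  have hb'mem : b' ∈ C₁ 𝒰 A := by
    refine ⟨U, hU, fun s hs g => ⟨hinj ?_, hinj ?_⟩⟩
    · rw [hb', hb', (hbU s hs g).1]
    · rw [iot_ρ, hb', map_nsmul, (hbU s hs g).2]
  refine ⟨N, hNcop, ?_⟩
  have hd : dC₁ 𝒰 A ⟨b', hb'mem⟩ = N • c := by
    apply Subtype.ext
    funext ⟨g, h⟩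
    apply hinj
    have h1 : (dC₁ 𝒰 B b : G × G → B) (g, h) = (α.c₂ c : G × G → B) (g, h) := by rw [hb]
    simp only [dC₁_coe, d₁₂_hom_apply] at h1
    show iot ι (A.ρ g (b' h) - b' (g * h) + b' g) = iot ι (N • (c : G × G → A) (g, h))
    rw [iot_add, iot_sub, iot_ρ, hb', hb', hb', iot_nsmul, map_nsmul, ← smul_sub, ← smul_add, h1]
    rfl
  have : N • (Hmid.of c hc : H2 𝒰 A) = Hmid.of (N • c) (by rw [map_nsmul, hc, smul_zero]) :=
    (map_nsmul (Hmid.mk (dC₁ 𝒰 A) (dC₂ 𝒰 A)) N ⟨c, LinearMap.mem_ker.mpr hc⟩).symm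
  rw [this, Hmid.of_eq_zero_iff]
  exact ⟨⟨b', hb'mem⟩, hd⟩

section Arith

variable {M : Type*} [AddCommGroup M]

/-- an element killed by two coprime integers is zero -/
lemma eq_zero_of_coprime_nsmul {n m : ℕ} (h : n.Coprime m) {y : M} (hn : n • y = 0)
    (hm : m • y = 0) : y = 0 := by
  have h1 : addOrderOf y ∣ n := addOrderOf_dvd_of_nsmul_eq_zero hn
  have h2 : addOrderOf y ∣ m := addOrderOf_dvd_of_nsmul_eq_zero hm
  have h3 : addOrderOf y ∣ 1 := by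
    have := Nat.dvd_gcd h1 h2
    rwa [h.gcd_eq_one] at this
  exact AddMonoid.addOrderOf_eq_one_iff.mp (Nat.dvd_one.mp h3)

/-- an element killed by an integer prime to `p` is divisible by `p` -/
lemma exists_nsmul_eq_of_coprime {n p : ℕ} (h : n.Coprime p) {y : M} (hn : n • y = 0) :
    ∃ y' : M, p • y' = y := by
  have hco : IsCoprime (n : ℤ) (p : ℤ) := Nat.isCoprime_iff_coprime.mpr h
  obtain ⟨a, b, hab⟩ := hco
  refine ⟨b • y, ?_⟩
  have h1 : (n : ℤ) • y = 0 := by rw [natCast_zsmul, hn]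
  calc p • b • y = (p : ℤ) • b • y := (natCast_zsmul _ _).symm
    _ = (b * p) • y := by rw [smul_smul, mul_comm]
    _ = (1 - a * n) • y := by rw [← hab]; congr 1; ring
    _ = y := by rw [sub_smul, one_smul, mul_smul, h1, smul_zero, sub_zero]

end Arith

/-- **[2c]**: `H¹_LC(G; A)` has no `p`-power torsion. -/
theorem h1_no_p_torsion (p : ℕ) (hinj : Function.Injective (iot ι))
    (h1B : ∀ c : ↥(C₁ 𝒰 B), dC₁ 𝒰 B c = 0 → ∃ m : ↥(C₀ 𝒰 B), dC₀ 𝒰 B m = c)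
    (cap : ∀ d : B, ∃ n : ℕ, n.Coprime p ∧ ∃ a : A, iot ι a = n • d)
    (y : H1 𝒰 A) (j : ℕ) (hy : (p ^ j) • y = 0) : y = 0 := by
  obtain ⟨n, hn, hny⟩ := h1_killed p hinj h1B cap y
  exact eq_zero_of_coprime_nsmul (Nat.Coprime.pow_right j hn) hny hy

/-- **[2c]**: `H¹_LC(G; A)` is `p`-divisible. -/
theorem h1_p_divisible (p : ℕ) (hinj : Function.Injective (iot ι))
    (h1B : ∀ c : ↥(C₁ 𝒰 B), dC₁ 𝒰 B c = 0 → ∃ m : ↥(C₀ 𝒰 B), dC₀ 𝒰 B m = c)
    (cap : ∀ d : B, ∃ n : ℕ, n.Coprime p ∧ ∃ a : A, iot ι a = n • d)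
    (y : H1 𝒰 A) : ∃ y' : H1 𝒰 A, p • y' = y := by
  obtain ⟨n, hn, hny⟩ := h1_killed p hinj h1B cap y
  exact exists_nsmul_eq_of_coprime hn hny

/-- **[2d]**: a `p`-power torsion class of `H²_LC(G; A)` with zero image in `H²_LC(G; B)` is
zero. -/
theorem h2_eq_zero_of_p_torsion (p : ℕ) (hinj : Function.Injective (iot ι))
    (cap : ∀ d : B, ∃ n : ℕ, n.Coprime p ∧ ∃ a : A, iot ι a = n • d)
    (e : H2 𝒰 A) (j : ℕ) (hpe : (p ^ j) • e = 0) (he : (Mor.ofHom 𝒰 ι).h2 e = 0) : e = 0 := by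
  obtain ⟨n, hn, hne⟩ := h2_killed p hinj cap e he
  exact eq_zero_of_coprime_nsmul (Nat.Coprime.pow_right j hn) hne hpe

end Fermat.Agent.S55.Middle.DivLES
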