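/-
S55 / Middle / M.cap PART 3 (helper64): `Div / Prin` IS TORSION, and the `cap` hypothesis of
`Middle/DivLES.lean` for the real objects.

`P ≤ G_ℚ` open for `globalBasis S`, `𝒱` a basis of `↥P` equivalent to the restriction of
`globalBasis S` (`hfine`, `hcoarse`; true for `Defs.NBasis.sub` and `ShapiroLC.subBasis`, see
`hcoarse_sub`, `hcoarse_subBasis`), `Xoff S`, `divOf`, `prinDiv` as in `Middle/CapDiv.lean`.

* `Below N y v`, `exists_below`, `Below.exists_smul_eq` : the prime `v` of a finite Galois level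
  `N` below a place `y` of `ℚ̄`;
* `ordAt_eq_neg_log` : DICTIONARY `ordAt y.ring y.prime x = - log v(x)` for `x ∈ N`, `N`
  unramified outside `S`;
* `exists_pos_mul_eq_ordFun(_of_invariant)`, `exists_pos_nsmul_eq_divOf` : (TORSION) every divisor
  has a positive multiple which is principal (finiteness of the class group of `N`, via
  `ClassTorsion.exists_pos_nsmul_principal_numberField` of helper63);
* `cap` : for `p ∈ S` every divisor has a multiple PRIME TO `p` which is principal
  (TORSION + (TF) of `CapDiv`), literally the hypothesis `cap` of `DivLES`;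
* `h1_prin_no_p_torsion`, `h1_prin_p_divisible`, `h2_prin_eq_zero_of_p_torsion`,
  `h2_prin_eq_zero_of_res` : the consequences for `H^i_LC(P; Prin_S)`.
-/
import Fermat.Agent.S55.Middle.CapDiv
import Fermat.Agent.S55.Middle.ClassTorsion
import Fermat.Agent.S55.Middle.DivLES
import Fermat.Agent.S55.Middle.DivH2
import Fermat.Agent.Lib.InertiaRestrict

set_option autoImplicit false
set_option linter.style.haveILetI false
set_option linter.unusedSectionVars false

open scoped NumberField Pointwise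
open CategoryTheory IsDedekindDomain WithZero

namespace Fermat.Agent.S55.Middle.CapTorsion

open Fermat.Agent.S55.Formal
open Fermat.Agent.S55.Middle.Defs Fermat.Agent.S55.Middle.DivDef Fermat.Agent.S55.Middle.Cap
open Fermat.Agent.S55.Middle.CapDiv
open Fermat.Agent.Lib Fermat.Agent.Lib.InertiaNumberField Fermat.Agent.Lib.InertiaNumberFieldPrime
open Fermat.Agent.S55.Bridge.Unram

local instance instIsGaloisQbarCapTorsion : IsGalois ℚ Qbar :=
  Fermat.Agent.Lib.UnramifiedTrivial.isGalois_algebraicClosure_rat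

/-- A valuation subring of `ℚ̄` lies over at most one prime number. -/
theorem liesOverPrime_unique {A : ValuationSubring Qbar} {q q' : ℕ} (hq : q.Prime)
    (hq' : q'.Prime) (h : A.LiesOverPrime q) (h' : A.LiesOverPrime q') : q = q' := by
  by_contra hne
  have hcop : IsCoprime ((q' : ℕ) : ℤ) (q : ℤ) := by
    rw [Nat.isCoprime_iff_coprime]
    exact (Nat.coprime_primes hq' hq).2 (Ne.symm hne)
  have hinv : (((q' : ℕ) : ℤ) : Qbar)⁻¹ ∈ A := intCast_inv_mem h hcop
  unfold ValuationSubring.LiesOverPrime at h'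
  rw [InertiaRestrict.mem_nonunits_iff_inv] at h'
  rcases h' with h0 | h1
  · exact hq'.ne_zero (by exact_mod_cast h0)
  · apply h1
    simpa using hinv

variable {S : Finset Nat.Primes}
variable (N : IntermediateField ℚ Qbar) [NumberField N] [IsGalois ℚ N]

/-- `v` is the prime of `N` below the place `y` of `ℚ̄`. -/
def Below (y : Xoff S) (v : HeightOneSpectrum (𝓞 N)) : Prop :=
  y.ring.comap (algebraMap N Qbar) = (v.valuation N).valuationSubring

theorem comap_liesOverPrime (y : Xoff S) :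
    (y.ring.comap (algebraMap N Qbar)).LiesOverPrime (y.prime : ℕ) := by
  unfold ValuationSubring.LiesOverPrime
  rw [InertiaRestrict.mem_nonunits_comap_iff, map_natCast]
  exact y.liesOver

theorem exists_below (y : Xoff S) :
    ∃ v : HeightOneSpectrum (𝓞 N), Below N y v ∧ ((y.prime : ℕ) : 𝓞 N) ∈ v.asIdeal := by
  obtain ⟨P, hP, h0, hqP, hBP⟩ :=
    InertiaNumberFieldPrime.exists_eq_valSubringOf y.prime.2.ne_zero (comap_liesOverPrime N y)
  exact ⟨heightOne P h0, hBP, hqP⟩

theorem Below.prime_eq {y y' : Xoff S} {v : HeightOneSpectrum (𝓞 N)} (h : Below N y v)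
    (h' : Below N y' v) : y.prime = y'.prime := by
  have h1 := comap_liesOverPrime N y
  have h2 := comap_liesOverPrime N y'
  rw [h', ← h] at h2
  unfold ValuationSubring.LiesOverPrime at h2
  rw [InertiaRestrict.mem_nonunits_comap_iff, map_natCast] at h2
  exact Subtype.ext (liesOverPrime_unique y.prime.2 y'.prime.2 y.liesOver h2)

theorem Below.exists_smul_eq {y y' : Xoff S} {v : HeightOneSpectrum (𝓞 N)} (h : Below N y v)
    (h' : Below N y' v) : ∃ u : GQ, u ∈ N.fixingSubgroup ∧ y' = u • y := by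
  obtain ⟨ρ, hρ⟩ := InertiaRestrict.exists_smul_eq_of_comap_eq N y.ring y'.ring (h.trans h'.symm)
  refine ⟨ρ.restrictScalars ℚ, ?_, Xoff.ext (h.prime_eq N h').symm ?_⟩
  · rw [IntermediateField.mem_fixingSubgroup_iff]
    intro x hx
    exact ρ.commutes ⟨x, hx⟩
  · rw [Xoff.smul_ring, InertiaRestrict.restrictScalars_smul, hρ]

/-- **Dictionary**: for `x ∈ N`, `N / ℚ` finite Galois unramified outside `S`, the normalised
valuation of `x` at a place `y` off `S` is `- log v(x)` for the prime `v` of `N` below `y`. -/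
theorem ordAt_eq_neg_log (hN : N.IsUnramifiedOutside S) {y : Xoff S}
    {v : HeightOneSpectrum (𝓞 N)} (h : Below N y v) (x : N) (hx : x ≠ 0) :
    ordAt y.ring (y.prime : ℕ) ((x : N) : Qbar) = -(log (v.valuation N x)) := by
  have hBq := comap_liesOverPrime N y
  have hqv : ((y.prime : ℕ) : 𝓞 N) ∈ v.asIdeal := by
    have h1 : ((y.prime : ℕ) : N) ∈ (v.valuation N).valuationSubring.nonunits := by
      rw [← h]
      exact hBq
    rw [ValuationSubring.mem_nonunits_iff] at h1
    have h2 : v.valuation N ((y.prime : ℕ) : N) < 1 :=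
      ((Valuation.isEquiv_valuation_valuationSubring (v.valuation N)).lt_one_iff_lt_one).2 h1
    have h3 : v.valuation N (algebraMap (𝓞 N) N ((y.prime : ℕ) : 𝓞 N)) < 1 := by
      rw [map_natCast]; exact h2
    exact (v.valuation_lt_one_iff_mem _).1 h3
  haveI : v.asIdeal.IsPrime := v.isPrime
  have hI : Ideal.inertia (N ≃ₐ[ℚ] N) v.asIdeal = ⊥ :=
    inertia_eq_bot_of_isUnramifiedOutside (K := ℚ) (algebraMap N Qbar)
      (by rw [imageField_val]; exact hN) y.prime y.prime_notMem v.asIdeal hqv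
  have hv : v.valuation N ((y.prime : ℕ) : N) = exp (-1 : ℤ) :=
    valuation_natCast_of_inertia_eq_bot v.asIdeal v.ne_bot y.prime.2 hqv hI
  have hw0 : v.valuation N x ≠ 0 := (Valuation.ne_zero_iff _).2 hx
  set n : ℤ := -(log (v.valuation N x)) with hn
  have hone : v.valuation N (x * ((y.prime : ℕ) : N) ^ (-n)) = 1 := by
    rw [map_mul, map_zpow₀, hv, hn, neg_neg, ← exp_zsmul, ← exp_log hw0, ← exp_add]
    simp
  have hord : HasOrd y.ring (y.prime : ℕ) ((x : N) : Qbar) n := by
    constructor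
    · have h1 : x * ((y.prime : ℕ) : N) ^ (-n) ∈ y.ring.comap (algebraMap N Qbar) := by
        rw [h, Valuation.mem_valuationSubring_iff, hone]
      rw [ValuationSubring.mem_comap, map_mul, map_zpow₀, map_natCast] at h1
      exact h1
    · have h1 : (x * ((y.prime : ℕ) : N) ^ (-n))⁻¹ ∈ y.ring.comap (algebraMap N Qbar) := by
        rw [h, Valuation.mem_valuationSubring_iff, map_inv₀, hone, inv_one]
      rw [ValuationSubring.mem_comap, map_inv₀, map_mul, map_zpow₀, map_natCast] at h1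
      exact h1
  have hx0 : ((x : N) : Qbar) ≠ 0 := fun h0 => hx (Subtype.ext h0)
  exact ordAt_eq y.prime.2.ne_zero y.liesOver hx0 hord

/-! ### descent of an invariant function to the primes of `N` -/

open Classical in
/-- the function on the primes of `N` induced by a function on `Xoff S` -/
noncomputable def deltaFun (f : Xoff S → ℤ) (v : HeightOneSpectrum (𝓞 N)) : ℤ :=
  if h : ∃ y : Xoff S, Below N y v then f h.choose else 0

theorem deltaFun_eq {f : Xoff S → ℤ}
    (hinv : ∀ u : GQ, u ∈ N.fixingSubgroup → ∀ y, f (u • y) = f y) {y : Xoff S}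
    {v : HeightOneSpectrum (𝓞 N)} (h : Below N y v) : deltaFun N f v = f y := by
  have hex : ∃ y : Xoff S, Below N y v := ⟨y, h⟩
  unfold deltaFun
  rw [dif_pos hex]
  obtain ⟨u, hu, huy⟩ := Below.exists_smul_eq N hex.choose_spec h
  rw [huy, hinv u hu]

theorem finite_support_deltaFun {f : Xoff S → ℤ} (B : Finset ℕ)
    (hB : ∀ y : Xoff S, f y ≠ 0 → (y.prime : ℕ) ∈ B) :
    (Function.support (deltaFun N f)).Finite := by
  classical
  have hsub : Function.support (deltaFun N f) ⊆
      ⋃ q ∈ (B.filter Nat.Prime : Finset ℕ),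
        {v : HeightOneSpectrum (𝓞 N) | v.asIdeal ∣ Ideal.span {((q : ℕ) : 𝓞 N)}} := by
    intro v hv
    rw [Function.mem_support] at hv
    unfold deltaFun at hv
    by_cases hex : ∃ y : Xoff S, Below N y v
    · rw [dif_pos hex] at hv
      have hq := hB _ hv
      obtain ⟨v', hv', hqv'⟩ := exists_below N hex.choose
      have hvv' : v' = v := by
        have e : (v'.valuation N).valuationSubring = (v.valuation N).valuationSubring :=
          hv'.symm.trans hex.choose_spec
        have hle : ∀ a b : HeightOneSpectrum (𝓞 N),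
            (a.valuation N).valuationSubring = (b.valuation N).valuationSubring →
              a.asIdeal ≤ b.asIdeal := by
          intro a b hab x hxa
          have h1 : a.valuation N (algebraMap (𝓞 N) N x) < 1 := (a.valuation_lt_one_iff_mem x).2 hxa
          by_contra hxb
          have h2 : b.valuation N (algebraMap (𝓞 N) N x) = 1 := (b.valuation_eq_one_iff_notMem).2 hxb
          have hx0 : algebraMap (𝓞 N) N x ≠ 0 := by
            intro h0
            rw [h0, map_zero] at h2
            exact zero_ne_one h2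
          have h3 : (algebraMap (𝓞 N) N x)⁻¹ ∈ (b.valuation N).valuationSubring := by
            rw [Valuation.mem_valuationSubring_iff, map_inv₀, h2, inv_one]
          rw [← hab, Valuation.mem_valuationSubring_iff, map_inv₀] at h3
          have hpos : 0 < a.valuation N (algebraMap (𝓞 N) N x) :=
            zero_lt_iff.2 ((Valuation.ne_zero_iff _).2 hx0)
          have h4 : 1 ≤ a.valuation N (algebraMap (𝓞 N) N x) := (inv_le_one₀ hpos).1 h3
          exact absurd h1 (not_lt.2 h4)
        exact HeightOneSpectrum.ext (le_antisymm (hle v' v e) (hle v v' e.symm))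
      rw [Set.mem_iUnion₂]
      refine ⟨(hex.choose.prime : ℕ), Finset.mem_filter.2 ⟨hq, hex.choose.prime.2⟩, ?_⟩
      show v.asIdeal ∣ Ideal.span {((hex.choose.prime : ℕ) : 𝓞 N)}
      rw [Ideal.dvd_span_singleton]
      subst hvv'
      exact hqv'
    · rw [dif_neg hex] at hv
      exact (hv rfl).elim
  refine Set.Finite.subset ?_ hsub
  refine Set.Finite.biUnion (Finset.finite_toSet _) fun q hq => ?_
  apply Ideal.finite_factors
  rw [Ne, Ideal.zero_eq_bot, Ideal.span_singleton_eq_bot]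
  exact Nat.cast_ne_zero.2 (Finset.mem_filter.1 hq).2.ne_zero

/-! ### `Div / Prin` is a torsion group -/

/-- **Torsion of `Div / Prin`, function form, at level `N`.** -/
theorem exists_pos_mul_eq_ordFun_of_invariant (hN : N.IsUnramifiedOutside S) {f : Xoff S → ℤ}
    (hinv : ∀ u : GQ, u ∈ N.fixingSubgroup → ∀ y, f (u • y) = f y) (B : Finset ℕ)
    (hB : ∀ y : Xoff S, f y ≠ 0 → (y.prime : ℕ) ∈ B) :
    ∃ n : ℕ, 0 < n ∧ ∃ x : Qbar, x ≠ 0 ∧ Units.InQS S x ∧
      ∀ y, ordFun S x y = (n : ℤ) * f y := by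
  obtain ⟨n, hn, α, hα, hval⟩ := ClassTorsion.exists_pos_nsmul_principal_numberField N
    (Finsupp.ofSupportFinite (deltaFun N f) (finite_support_deltaFun N B hB))
  refine ⟨n, hn, (α : Qbar), fun h0 => hα (Subtype.ext h0), ⟨N, hN, α.2⟩, fun y => ?_⟩
  obtain ⟨v, hv, -⟩ := exists_below N y
  rw [ordFun_apply, ordAt_eq_neg_log N hN hv α hα, hval v, log_exp, neg_neg,
    Finsupp.ofSupportFinite_coe, deltaFun_eq N hinv hv]

section Open

variable {P : Subgroup GQ} {𝒱 : NBasis ↥P}

/-- **Torsion of `Div / Prin`, function form**: every smooth compactly supported function on the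
places off `S` has a positive multiple which is the divisor of an element of `ℚ_Sˣ`. -/
theorem exists_pos_mul_eq_ordFun (hP : Defs.IsOpenSub (PreludeLC.globalBasis S) P)
    (hcoarse : ∀ V, 𝒱.mem V → ∃ U, (PreludeLC.globalBasis S).mem U ∧ U.subgroupOf P ≤ V)
    {f : Xoff S → ℤ} (hf : IsDiv 𝒱 (Xoff S) f) :
    ∃ n : ℕ, 0 < n ∧ ∃ x : Qbar, x ≠ 0 ∧ Units.InQS S x ∧
      ∀ y, ordFun S x y = (n : ℤ) * f y := by
  classical
  obtain ⟨⟨V, hV, hinvV⟩, ⟨F, hF⟩⟩ := hf
  obtain ⟨U, hU, hUV⟩ := hcoarse V hV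
  obtain ⟨W, hW, hWP⟩ := hP
  obtain ⟨F₁, hF₁, -, rfl⟩ := (PreludeLC.mem_globalBasis_iff S U).1 hU
  obtain ⟨F₂, hF₂, -, rfl⟩ := (PreludeLC.mem_globalBasis_iff S W).1 hW
  obtain ⟨N, hle, hN, hGal, -⟩ := exists_isGalois_ge (hF₁.sup hF₂)
  haveI : NumberField N := numberField_of_finiteDimensional N hN.1
  haveI := hGal
  have hinv : ∀ u : GQ, u ∈ N.fixingSubgroup → ∀ y, f (u • y) = f y := by
    intro u hu y
    have hu12 : u ∈ (F₁ ⊔ F₂).fixingSubgroup := IntermediateField.fixingSubgroup_antitone hle hu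
    rw [IntermediateField.fixingSubgroup_sup] at hu12
    have huP : u ∈ P := hWP hu12.2
    have huV : (⟨u, huP⟩ : ↥P) ∈ V := hUV (Subgroup.mem_subgroupOf.2 hu12.1)
    exact hinvV ⟨u, huP⟩ huV y
  refine exists_pos_mul_eq_ordFun_of_invariant N hN hinv (F.image fun r => (r.prime : ℕ)) ?_
  intro y hy
  obtain ⟨g, r, hr, rfl⟩ := hF y hy
  exact Finset.mem_image.2 ⟨r, hr, rfl⟩

variable (hfine : IsCont (PreludeLC.globalBasis S) 𝒱 P.subtype) (hfin : P.FiniteIndex)

/-- **`Div / Prin` is torsion** (module form). -/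
theorem exists_pos_nsmul_eq_divOf (hP : Defs.IsOpenSub (PreludeLC.globalBasis S) P)
    (hcoarse : ∀ V, 𝒱.mem V → ∃ U, (PreludeLC.globalBasis S).mem U ∧ U.subgroupOf P ≤ V)
    (d : Div 𝒱 (Xoff S)) :
    ∃ n : ℕ, 0 < n ∧ ∃ x : Defs.KS S, divOf hfine hfin x = n • d := by
  obtain ⟨n, hn, x, hx0, hxQ, hx⟩ := exists_pos_mul_eq_ordFun hP hcoarse (isDiv_toFun 𝒱 (Xoff S) d)
  refine ⟨n, hn, UnitsLES.ofUnitMem (Defs.qsSubgroup S) (Defs.galStable_qsSubgroup S)
    (_root_.Units.mk0 x hx0) (show _root_.Units.mk0 x hx0 ∈ Defs.qsSubgroup S from hxQ), ?_⟩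
  apply div_ext
  intro y
  rw [toFun_nsmul]
  exact hx y

/-- **Capitulation, in the form used by `DivLES`**: for `p ∈ S`, `Div / Prin` is a torsion group
without `p`-torsion: every divisor has a multiple prime to `p` which is principal. -/
theorem cap (p : ℕ) [Fact p.Prime] (hpS : ExtCitation.pPrime p ∈ S)
    (hP : Defs.IsOpenSub (PreludeLC.globalBasis S) P)
    (hcoarse : ∀ V, 𝒱.mem V → ∃ U, (PreludeLC.globalBasis S).mem U ∧ U.subgroupOf P ≤ V)
    (d : Div 𝒱 (Xoff S)) :
    ∃ n : ℕ, n.Coprime p ∧ ∃ a : Rep.res P.subtype (Defs.PrinS S),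
      (prinDiv hfine hfin).hom.toLinearMap a = n • d := by
  have hpp : p.Prime := Fact.out
  obtain ⟨n, hn, x, hx⟩ := exists_pos_nsmul_eq_divOf hfine hfin hP hcoarse d
  obtain ⟨k, m, hm, rfl⟩ := Nat.exists_eq_pow_mul_and_not_dvd hn.ne' p hpp.ne_one
  have hx' : divOf hfine hfin x = (p ^ k) • (m • d) := by rw [hx, mul_smul]
  obtain ⟨z, -, hz⟩ := exists_divOf_eq_of_pow_nsmul hfine hfin p hpS k x (m • d) hx'
  refine ⟨m, ((Nat.Prime.coprime_iff_not_dvd hpp).2 hm).symm, (Defs.ksToPrin S).hom z, ?_⟩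
  rw [← hz]
  rfl

/-! ### consequences for the cohomology of `Prin_S` (`DivLES`, `DivH2`) -/

section Consequences

variable (p : ℕ) [Fact p.Prime] (hpS : ExtCitation.pPrime p ∈ S)
  (hP : Defs.IsOpenSub (PreludeLC.globalBasis S) P)
  (hcoarse : ∀ V, 𝒱.mem V → ∃ U, (PreludeLC.globalBasis S).mem U ∧ U.subgroupOf P ≤ V)

include hfine hfin hpS hP hcoarse

/-- `H¹_LC(P; Prin_S)` has no `p`-torsion (`p ∈ S`). -/
theorem h1_prin_no_p_torsion (y : H1 𝒱 (Rep.res P.subtype (Defs.PrinS S))) (j : ℕ)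
    (hy : (p ^ j) • y = 0) : y = 0 :=
  DivLES.h1_no_p_torsion p (prinDiv_injective hfine hfin) DivDef.h1_vanish
    (cap hfine hfin p hpS hP hcoarse) y j hy

/-- `H¹_LC(P; Prin_S)` is `p`-divisible (`p ∈ S`). -/
theorem h1_prin_p_divisible (y : H1 𝒱 (Rep.res P.subtype (Defs.PrinS S))) :
    ∃ y' : H1 𝒱 (Rep.res P.subtype (Defs.PrinS S)), p • y' = y :=
  DivLES.h1_p_divisible p (prinDiv_injective hfine hfin) DivDef.h1_vanish
    (cap hfine hfin p hpS hP hcoarse) y

/-- A `p`-primary class of `H²_LC(P; Prin_S)` dying in `H²_LC(P; Div)` vanishes. -/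
theorem h2_prin_eq_zero_of_p_torsion (e : H2 𝒱 (Rep.res P.subtype (Defs.PrinS S))) (j : ℕ)
    (hpe : (p ^ j) • e = 0) (he : (Mor.ofHom 𝒱 (prinDiv hfine hfin)).h2 e = 0) : e = 0 :=
  DivLES.h2_eq_zero_of_p_torsion p (prinDiv_injective hfine hfin)
    (cap hfine hfin p hpS hP hcoarse) e j hpe he

/-- A `p`-primary class of `H²_LC(P; Prin_S)` all of whose residues (at the places off `S`)
vanish is zero. -/
theorem h2_prin_eq_zero_of_res (e : H2 𝒱 (Rep.res P.subtype (Defs.PrinS S))) (j : ℕ)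
    (hpe : (p ^ j) • e = 0)
    (hres : ∀ y : Xoff S,
      (DivDef.resMor 𝒱 (Xoff S) y).h2 ((Mor.ofHom 𝒱 (prinDiv hfine hfin)).h2 e) = 0) : e = 0 :=
  h2_prin_eq_zero_of_p_torsion hfine hfin p hpS hP hcoarse e j hpe
    (DivH2.h2_eq_zero_of_res _ hres)

end Consequences

end Open

/-! ### the two standard restricted bases satisfy `hcoarse` -/

section Instances

variable (S)

theorem hcoarse_sub (H : Subgroup GQ) :
    ∀ V, (Defs.NBasis.sub (PreludeLC.globalBasis S) H).mem V →
      ∃ U, (PreludeLC.globalBasis S).mem U ∧ U.subgroupOf H ≤ V := by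
  rintro V (rfl | ⟨W, hW, -, rfl⟩)
  · exact ⟨⊤, (PreludeLC.globalBasis S).top, le_top⟩
  · exact ⟨W, hW, le_rfl⟩

theorem hcoarse_subBasis (P : Subgroup GQ) :
    ∀ V, (Fermat.Agent.S55.Bridge.ShapiroLC.subBasis (PreludeLC.globalBasis S) P).mem V →
      ∃ U, (PreludeLC.globalBasis S).mem U ∧ U.subgroupOf P ≤ V := by
  rintro V ⟨N, hN, rfl⟩
  exact ⟨N, hN, le_rfl⟩

end Instances

end Fermat.Agent.S55.Middle.CapTorsion
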