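/-
S55 / Middle (helper64): LOCAL TRIVIALITY OFF `S` (`LToff`) via the divisor map, and the hypotheses
`hoff`, `hLTsmul`, `hres`, `hP`, `hPdiv` of `Middle/HasseInst.lean`, `Middle/Image.lean`,
`Middle/ImageLevel.lean` for the REAL objects.

Generic basis `𝒱` of `↥P` (`hfine`, `hfin`, `hP`, `hcoarse` as in `CapDiv` / `CapTorsion`), then the two
standard languages: `KSite` (`basisP S P`, `resP P _`, `IsOpenS S P`) and `HasseInst`
(`Defs.NBasis.sub (globalBasis S) H`, `(Rep.resFunctor H.subtype).obj _`, `Defs.IsOpenSub`).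

* `LToff hfine hfin z` : the image of `z ∈ H²_LC(P; ℚ_Sˣ)` in `H²_LC(P; Div)` vanishes;
* `ltoff_of_os` (= `hoff`) : classes coming from `O_S` are locally trivial off `S`;
* `ltoff_nsmul` (= `hLTsmul`);
* `toPrin_eq_zero_of_ltoff` (= `hres`) : a `p`-primary class of `H²_LC(P; ℚ_Sˣ)` which is locally
  trivial off `S` dies in `H²_LC(P; Prin_S)` (`p ∈ S`).
-/
import Fermat.Agent.S55.Middle.CapTorsion
import Fermat.Agent.S55.Formal.Functor

set_option autoImplicit false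

open CategoryTheory ExtCitation

namespace Fermat.Agent.S55.Middle.CapLToff

open Fermat.Agent.S55.Formal
open Fermat.Agent.S55.Middle.Defs
open Fermat.Agent.S55.Middle.CapDiv Fermat.Agent.S55.Middle.CapTorsion

variable {S : Finset Nat.Primes} {P : Subgroup GQ} {𝒱 : NBasis ↥P}
  (hfine : IsCont (PreludeLC.globalBasis S) 𝒱 P.subtype) (hfin : P.FiniteIndex)

/-- `z ∈ H²_LC(P; ℚ_Sˣ)` is locally trivial off `S`: its image in `H²_LC(P; Div)` vanishes. -/
def LToff (z : H2 𝒱 (Rep.res P.subtype (KS S))) : Prop :=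
  (Mor.ofHom 𝒱 (divMap hfine hfin)).h2 z = 0

theorem osToKS_divMap :
    (Rep.resFunctor P.subtype).map (osToKS S) ≫ divMap hfine hfin = 0 := by
  apply Rep.hom_ext
  apply Representation.IntertwiningMap.ext
  apply LinearMap.ext
  intro x
  exact divMap_osToKS hfine hfin x

theorem ksToPrin_prinDiv :
    (Rep.resFunctor P.subtype).map (ksToPrin S) ≫ prinDiv hfine hfin = divMap hfine hfin := rfl

theorem comp_h2_eq_zero :
    (Mor.ofHom 𝒱 (divMap hfine hfin)).h2 ∘ₗ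
        (Mor.ofHom 𝒱 ((Rep.resFunctor P.subtype).map (osToKS S))).h2 = 0 := by
  have h : (Mor.ofHom 𝒱 ((Rep.resFunctor P.subtype).map (osToKS S) ≫ divMap hfine hfin)).h2 =
      (Mor.ofHom 𝒱 (divMap hfine hfin)).h2 ∘ₗ
        (Mor.ofHom 𝒱 ((Rep.resFunctor P.subtype).map (osToKS S))).h2 :=
    Functor.ofHom_comp_h2 𝒱 _ _
  have h0 : (Mor.ofHom 𝒱 ((Rep.resFunctor P.subtype).map (osToKS S) ≫
      divMap hfine hfin)).h2 =
      (Mor.ofHom 𝒱 (0 : Rep.res P.subtype (OS S) ⟶ DivDef.Div 𝒱 (Xoff S))).h2 :=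
    (congrArg (fun m => (Mor.ofHom 𝒱 m).h2) (osToKS_divMap hfine hfin))
  have h1 : (Mor.ofHom 𝒱 (0 : Rep.res P.subtype (OS S) ⟶ DivDef.Div 𝒱 (Xoff S))).h2 = 0 :=
    Functor.ofHom_zero_h2 𝒱
  exact h.symm.trans (h0.trans h1)

/-- **`hoff`**: classes coming from `O_S` are locally trivial off `S`. -/
theorem ltoff_of_os (x : H2 𝒱 (Rep.res P.subtype (OS S))) :
    LToff hfine hfin ((Mor.ofHom 𝒱 ((Rep.resFunctor P.subtype).map (osToKS S))).h2 x) := by
  have := LinearMap.congr_fun (comp_h2_eq_zero hfine hfin) x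
  exact this

/-- **`hLTsmul`** -/
theorem ltoff_nsmul (n : ℕ) (z : H2 𝒱 (Rep.res P.subtype (KS S))) (hz : LToff hfine hfin z) :
    LToff hfine hfin (n • z) := by
  unfold LToff at hz ⊢
  rw [map_nsmul, hz, smul_zero]

theorem comp_h2_toPrin :
    (Mor.ofHom 𝒱 (prinDiv hfine hfin)).h2 ∘ₗ
        (Mor.ofHom 𝒱 ((Rep.resFunctor P.subtype).map (ksToPrin S))).h2 =
      (Mor.ofHom 𝒱 (divMap hfine hfin)).h2 := by
  have h : (Mor.ofHom 𝒱 ((Rep.resFunctor P.subtype).map (ksToPrin S) ≫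
      prinDiv hfine hfin)).h2 = (Mor.ofHom 𝒱 (prinDiv hfine hfin)).h2 ∘ₗ
        (Mor.ofHom 𝒱 ((Rep.resFunctor P.subtype).map (ksToPrin S))).h2 :=
    Functor.ofHom_comp_h2 𝒱 _ _
  have h0 : (Mor.ofHom 𝒱 ((Rep.resFunctor P.subtype).map (ksToPrin S) ≫
      prinDiv hfine hfin)).h2 = (Mor.ofHom 𝒱 (divMap hfine hfin)).h2 :=
    (congrArg (fun m => (Mor.ofHom 𝒱 m).h2) (ksToPrin_prinDiv hfine hfin))
  exact h.symm.trans h0

/-- **`hres`**: a `p`-primary class of `H²_LC(P; ℚ_Sˣ)` locally trivial off `S` dies in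
`H²_LC(P; Prin_S)`. -/
theorem toPrin_eq_zero_of_ltoff (p : ℕ) [Fact p.Prime] (hpS : pPrime p ∈ S)
    (hP : Defs.IsOpenSub (PreludeLC.globalBasis S) P)
    (hcoarse : ∀ V, 𝒱.mem V → ∃ U, (PreludeLC.globalBasis S).mem U ∧ U.subgroupOf P ≤ V)
    (z : H2 𝒱 (Rep.res P.subtype (KS S))) (hz : ∃ n : ℕ, p ^ n • z = 0)
    (hoff : LToff hfine hfin z) :
    (Mor.ofHom 𝒱 ((Rep.resFunctor P.subtype).map (ksToPrin S))).h2 z = 0 := by
  obtain ⟨n, hn⟩ := hz
  refine h2_prin_eq_zero_of_p_torsion hfine hfin p hpS hP hcoarse _ n ?_ ?_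
  · exact (map_nsmul (Mor.ofHom 𝒱 ((Rep.resFunctor P.subtype).map (ksToPrin S))).h2 (p ^ n)
      z).symm.trans ((congrArg (Mor.ofHom 𝒱 ((Rep.resFunctor P.subtype).map (ksToPrin S))).h2
        hn).trans (map_zero _))
  · have := LinearMap.congr_fun (comp_h2_toPrin hfine hfin) z
    exact this.trans hoff

/-! ### the `HasseInst` language: `Defs.NBasis.sub (globalBasis S) H`, `hH : Defs.IsOpenSub _ H` -/

section SubLang

variable (S) {H : Subgroup GQ} (hH : Defs.IsOpenSub (PreludeLC.globalBasis S) H)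

/-- local triviality off `S` over `Defs.NBasis.sub (globalBasis S) H` -/
abbrev LToffSub (z : H2 (Defs.NBasis.sub (PreludeLC.globalBasis S) H)
    ((Rep.resFunctor H.subtype).obj (KS S))) : Prop :=
  LToff (isCont_sub S hH) (finiteIndex_of_isOpenSub S hH) z

/-- `hoff` of `HasseInst.hasse` / `Image.image_iff` -/
theorem hoff_sub (x : H2 (Defs.NBasis.sub (PreludeLC.globalBasis S) H)
    ((Rep.resFunctor H.subtype).obj (OS S))) :
    LToffSub S hH ((Mor.ofHom (Defs.NBasis.sub (PreludeLC.globalBasis S) H)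
      ((Rep.resFunctor H.subtype).map (osToKS S))).h2 x) :=
  ltoff_of_os _ _ x

/-- `hLTsmul` of `Image.image_iff` -/
theorem hLTsmul_sub (n : ℕ) (z : H2 (Defs.NBasis.sub (PreludeLC.globalBasis S) H)
    ((Rep.resFunctor H.subtype).obj (KS S))) (hz : LToffSub S hH z) : LToffSub S hH (n • z) :=
  ltoff_nsmul _ _ n z hz

/-- `hres` of `Image.image_iff` -/
theorem hres_sub (p : ℕ) [Fact p.Prime] (hpS : pPrime p ∈ S)
    (z : H2 (Defs.NBasis.sub (PreludeLC.globalBasis S) H)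
      ((Rep.resFunctor H.subtype).obj (KS S))) (hz : ∃ n : ℕ, p ^ n • z = 0)
    (hoff : LToffSub S hH z) :
    (Mor.ofHom (Defs.NBasis.sub (PreludeLC.globalBasis S) H)
      ((Rep.resFunctor H.subtype).map (ksToPrin S))).h2 z = 0 :=
  toPrin_eq_zero_of_ltoff _ _ p hpS hH (hcoarse_sub S H) z hz hoff

include hH in
/-- `hP` of `HasseInst.hasse` -/
theorem hP_sub (p : ℕ) [Fact p.Prime] (hpS : pPrime p ∈ S)
    (e : H1 (Defs.NBasis.sub (PreludeLC.globalBasis S) H)
      ((Rep.resFunctor H.subtype).obj (PrinS S))) (he : p • e = 0) : e = 0 :=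
  h1_prin_no_p_torsion (isCont_sub S hH) (finiteIndex_of_isOpenSub S hH) p hpS hH
    (hcoarse_sub S H) e 1 (by rw [pow_one]; exact he)

include hH in
/-- `hPdiv` of `Image.image_iff` -/
theorem hPdiv_sub (p : ℕ) [Fact p.Prime] (hpS : pPrime p ∈ S)
    (e : H1 (Defs.NBasis.sub (PreludeLC.globalBasis S) H)
      ((Rep.resFunctor H.subtype).obj (PrinS S))) :
    ∃ e' : H1 (Defs.NBasis.sub (PreludeLC.globalBasis S) H)
      ((Rep.resFunctor H.subtype).obj (PrinS S)), p • e' = e :=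
  h1_prin_p_divisible (isCont_sub S hH) (finiteIndex_of_isOpenSub S hH) p hpS hH
    (hcoarse_sub S H) e

end SubLang

/-! ### the `KSite` language: `subBasis (globalBasis S) P` -/

section SubBasisLang

open Fermat.Agent.S55.Bridge.ShapiroLC

variable (S) {P : Subgroup GQ} (hP : Defs.IsOpenSub (PreludeLC.globalBasis S) P)

/-- local triviality off `S` over `subBasis (globalBasis S) P` (`= KSite.basisP S P`) -/
abbrev LToffP (z : H2 (subBasis (PreludeLC.globalBasis S) P) (Rep.res P.subtype (KS S))) : Prop :=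
  LToff (isCont_subBasis S P) (finiteIndex_of_isOpenSub S hP) z

theorem hoff_P (x : H2 (subBasis (PreludeLC.globalBasis S) P) (Rep.res P.subtype (OS S))) :
    LToffP S hP ((Mor.ofHom (subBasis (PreludeLC.globalBasis S) P)
      ((Rep.resFunctor P.subtype).map (osToKS S))).h2 x) :=
  ltoff_of_os _ _ x

theorem hLTsmul_P (n : ℕ) (z : H2 (subBasis (PreludeLC.globalBasis S) P)
    (Rep.res P.subtype (KS S))) (hz : LToffP S hP z) : LToffP S hP (n • z) :=
  ltoff_nsmul _ _ n z hz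

theorem hres_P (p : ℕ) [Fact p.Prime] (hpS : pPrime p ∈ S)
    (z : H2 (subBasis (PreludeLC.globalBasis S) P) (Rep.res P.subtype (KS S)))
    (hz : ∃ n : ℕ, p ^ n • z = 0) (hoff : LToffP S hP z) :
    (Mor.ofHom (subBasis (PreludeLC.globalBasis S) P)
      ((Rep.resFunctor P.subtype).map (ksToPrin S))).h2 z = 0 :=
  toPrin_eq_zero_of_ltoff _ _ p hpS hP (hcoarse_subBasis S P) z hz hoff

include hP in
theorem hP_P (p : ℕ) [Fact p.Prime] (hpS : pPrime p ∈ S)
    (e : H1 (subBasis (PreludeLC.globalBasis S) P) (Rep.res P.subtype (PrinS S)))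
    (he : p • e = 0) : e = 0 :=
  h1_prin_no_p_torsion (isCont_subBasis S P) (finiteIndex_of_isOpenSub S hP) p hpS hP
    (hcoarse_subBasis S P) e 1 (by rw [pow_one]; exact he)

include hP in
theorem hPdiv_P (p : ℕ) [Fact p.Prime] (hpS : pPrime p ∈ S)
    (e : H1 (subBasis (PreludeLC.globalBasis S) P) (Rep.res P.subtype (PrinS S))) :
    ∃ e' : H1 (subBasis (PreludeLC.globalBasis S) P) (Rep.res P.subtype (PrinS S)),
      p • e' = e :=
  h1_prin_p_divisible (isCont_subBasis S P) (finiteIndex_of_isOpenSub S hP) p hpS hP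
    (hcoarse_subBasis S P) e

end SubBasisLang

end Fermat.Agent.S55.Middle.CapLToff
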