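/-
S55 / Middle, row M.hbnH3.cycloPow (helper81), LEAF 2 of helper21's (HBN-H3) colimit row.

The cyclotomic field `ℚ(μ_{p^k})` inside `Qbar = AlgebraicClosure ℚ`:

* `cycloPowField p k`                      : `ℚ` adjoined all `t` with `t ^ (p ^ k) = 1`;
* `normal_cycloPowField`                   : it is normal over `ℚ`;
* `cycloPowField_isUnramifiedOutside`      : it is unramified outside any `S ∋ p`;
* `exists_primitiveRoot_cycloPowField`     : it contains a primitive `p ^ k`-th root of unity;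
* `exists_pow_mem_fixingSubgroup`          : if `cycloChar p σ = 1` then some `σ ^ (p ^ j)`
                                             fixes `ℚ(μ_{p^k})` pointwise.
-/
import Mathlib
import Fermat.Agent.S55.GaloisLevelCyclo

set_option autoImplicit false
set_option linter.unusedSectionVars false
set_option linter.style.haveILetI false
open scoped Pointwise

namespace Fermat.Agent.S55.Middle.CycloPow

open Fermat.Agent.Lib.InertiaRestrict Fermat.Agent.Lib.FrobeniusIF ExtCitation
  Fermat.Agent.S55.GaloisLevel Fermat.Agent.S55.GaloisLevelCyclo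

local notation "Qbar" => AlgebraicClosure ℚ
local notation "GQ" => (AlgebraicClosure ℚ ≃ₐ[ℚ] AlgebraicClosure ℚ)

local instance isAlgebraicQbar_cp : Algebra.IsAlgebraic ℚ (AlgebraicClosure ℚ) :=
  AlgebraicClosure.isAlgebraic ℚ
local instance isAlgClosureQbar_cp : IsAlgClosure ℚ (AlgebraicClosure ℚ) :=
  ⟨inferInstance, inferInstance⟩
local instance normalQbar_cp : Normal ℚ (AlgebraicClosure ℚ) :=
  IsAlgClosure.normal ℚ (AlgebraicClosure ℚ)

variable (p : ℕ) [Fact p.Prime] (k : ℕ)

/-- The cyclotomic field `ℚ(μ_{p^k})` inside `Qbar`. -/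
noncomputable def cycloPowField : IntermediateField ℚ Qbar :=
  IntermediateField.adjoin ℚ {t : Qbar | t ^ (p ^ k) = 1}

theorem pow_pos_aux : 0 < p ^ k := pow_pos (Fact.out : p.Prime).pos k

theorem mem_cycloPowField_of_pow_eq_one {t : Qbar} (ht : t ^ (p ^ k) = 1) :
    t ∈ cycloPowField p k :=
  IntermediateField.subset_adjoin ℚ _ ht

theorem finite_rootsOfUnity_pow_set : {t : Qbar | t ^ (p ^ k) = 1}.Finite := by
  have hp0 : 0 < p ^ k := pow_pos_aux p k
  have : {t : Qbar | t ^ (p ^ k) = 1} =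
      ((Polynomial.nthRootsFinset (p ^ k) (1 : Qbar) : Finset Qbar) : Set Qbar) := by
    ext t
    simp [Polynomial.mem_nthRootsFinset hp0]
  rw [this]
  exact Finset.finite_toSet _

theorem finiteDimensional_cycloPowField : FiniteDimensional ℚ (cycloPowField p k) := by
  haveI : Finite {t : Qbar | t ^ (p ^ k) = 1} := (finite_rootsOfUnity_pow_set p k).to_subtype
  refine IntermediateField.finiteDimensional_adjoin (fun t _ => ?_)
  exact (Algebra.IsAlgebraic.isAlgebraic (R := ℚ) t).isIntegral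

/-- An automorphism fixing a generating set pointwise fixes the generated field. -/
theorem mem_fixingSubgroup_adjoin_of_forall (τ : GQ) (s : Set Qbar) (h : ∀ t ∈ s, τ t = t) :
    τ ∈ (IntermediateField.adjoin ℚ s).fixingSubgroup := by
  have hle : IntermediateField.adjoin ℚ s ≤ IntermediateField.fixedField (Subgroup.zpowers τ) := by
    rw [IntermediateField.adjoin_le_iff]
    intro t ht
    rw [SetLike.mem_coe, IntermediateField.mem_fixedField_iff]
    intro f hf
    obtain ⟨n, rfl⟩ := Subgroup.mem_zpowers_iff.1 hf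
    have hstab : τ ∈ MulAction.stabilizer GQ t := h t ht
    exact (Subgroup.zpow_mem _ hstab n : τ ^ n ∈ MulAction.stabilizer GQ t)
  exact (IntermediateField.le_iff_le _ _).1 hle (Subgroup.mem_zpowers τ)

/-- `ℚ(μ_{p^k})` is normal over `ℚ`. -/
theorem normal_cycloPowField' :
    @Normal ℚ ↥(cycloPowField p k) _ _ (IntermediateField.algebra' (cycloPowField p k)) := by
  rw [IntermediateField.normal_iff_forall_map_le]
  intro σ
  rw [cycloPowField, IntermediateField.adjoin_map, IntermediateField.adjoin_le_iff]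
  rintro _ ⟨t, ht, rfl⟩
  refine IntermediateField.subset_adjoin ℚ _ ?_
  change (σ t) ^ (p ^ k) = 1
  rw [← map_pow, (ht : t ^ (p ^ k) = 1), map_one]

/-- `ℚ(μ_{p^k})` is normal over `ℚ` (with whatever `ℚ`-algebra instance is inferred). -/
theorem normal_cycloPowField : Normal ℚ ↥(cycloPowField p k) := by
  convert normal_cycloPowField' p k
  exact Subsingleton.elim _ _

/-- `ℚ(μ_{p^k})` contains a primitive `p ^ k`-th root of unity. -/
theorem exists_primitiveRoot_cycloPowField :
    ∃ ζ : ↥(cycloPowField p k), IsPrimitiveRoot ζ (p ^ k) := by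
  haveI : NeZero (p : ℚ) := ⟨by exact_mod_cast (Fact.out : p.Prime).ne_zero⟩
  obtain ⟨ζ, hζ⟩ := HasEnoughRootsOfUnity.exists_primitiveRoot Qbar (p ^ k)
  refine ⟨⟨ζ, mem_cycloPowField_of_pow_eq_one p k hζ.pow_eq_one⟩, ?_⟩
  exact IsPrimitiveRoot.of_map_of_injective (f := algebraMap ↥(cycloPowField p k) Qbar)
    (by simpa using hζ) (algebraMap ↥(cycloPowField p k) Qbar).injective

/-- A `p`-power root of unity congruent to `1` modulo the maximal ideal of a valuation subring in
which `p` is a unit is equal to `1`. -/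
theorem eq_one_of_pow_prime_pow_eq_one (A : ValuationSubring Qbar)
    (hpA : (p : Qbar) ∉ A.nonunits) :
    ∀ (k : ℕ) (u : Qbar), u ^ (p ^ k) = 1 → u - 1 ∈ A.nonunits → u = 1 := by
  have hp0 : p ≠ 0 := (Fact.out : p.Prime).ne_zero
  intro k
  induction k with
  | zero =>
    intro u hu _
    simpa using hu
  | succ k ih =>
    intro u hu hmem
    have hk0 : p ^ (k + 1) ≠ 0 := pow_ne_zero _ hp0
    have huA : u ∈ A := by
      have : IsIntegral ℤ u :=
        ⟨Polynomial.X ^ (p ^ (k + 1)) - 1, Polynomial.monic_X_pow_sub_C 1 hk0, by simp [hu]⟩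
      exact mem_of_isIntegral_int A this
    have hup : (u ^ p) ^ (p ^ k) = 1 := by
      rw [← pow_mul, ← pow_succ']
      exact hu
    have hmem' : u ^ p - 1 ∈ A.nonunits := by
      have hj : u ^ p - 1 = (u - 1) * (∑ i ∈ Finset.range p, u ^ i) := by
        have := geom_sum_mul u p
        linear_combination -this
      rw [hj]
      exact mul_mem_nonunits A hmem (sum_mem fun i _ => pow_mem huA i)
    have h1 : u ^ p = 1 := ih (u ^ p) hup hmem'
    by_contra hne
    exact hpA (natCast_mem_nonunits_of_root p A h1 hne hmem)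

/-- If `A` lies over a prime `q ≠ p` then `p` is a unit of `A`. -/
theorem natCast_not_mem_nonunits {q : ℕ} (hq : q.Prime) (hqp : q ≠ p)
    (A : ValuationSubring Qbar) (hA : A.LiesOverPrime q) : (p : Qbar) ∉ A.nonunits := by
  have hpp : p.Prime := Fact.out
  intro hpA
  have hcop : IsCoprime (p : ℤ) (q : ℤ) := by
    rw [Int.isCoprime_iff_gcd_eq_one, Int.gcd_natCast_natCast]
    exact (Nat.coprime_primes hpp hq).2 (Ne.symm hqp)
  obtain ⟨a, b, hab⟩ := hcop
  have h1 : (1 : Qbar) ∈ A.nonunits := by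
    have e : (1 : Qbar) = (a : Qbar) * (p : Qbar) + (b : Qbar) * (q : Qbar) := by
      have := congrArg (fun z : ℤ => (z : Qbar)) hab
      push_cast at this
      exact this.symm
    rw [e, A.mem_nonunits_iff]
    refine Valuation.map_add_lt _ ?_ ?_
    · rw [← A.mem_nonunits_iff, mul_comm]
      exact mul_mem_nonunits A hpA (mem_of_isIntegral_int A (isIntegral_algebraMap (x := a)))
    · rw [← A.mem_nonunits_iff, mul_comm]
      exact mul_mem_nonunits A hA (mem_of_isIntegral_int A (isIntegral_algebraMap (x := b)))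
  rw [A.mem_nonunits_iff, map_one] at h1
  exact lt_irrefl _ h1

/-- Inertia at a prime `q ≠ p` fixes every `p`-power root of unity. -/
theorem apply_eq_of_mem_inertia {q : ℕ} (hq : q.Prime) (hqp : q ≠ p)
    (A : ValuationSubring Qbar) (hA : A.LiesOverPrime q) {σ : GQ}
    (hσ : σ ∈ A.inertiaSubgroupIn ℚ) {t : Qbar} (ht : t ^ (p ^ k) = 1) : σ t = t := by
  have hp0 : p ≠ 0 := (Fact.out : p.Prime).ne_zero
  have hk0 : p ^ k ≠ 0 := pow_ne_zero _ hp0
  have htA : t ∈ A := by
    have : IsIntegral ℤ t :=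
      ⟨Polynomial.X ^ (p ^ k) - 1, Polynomial.monic_X_pow_sub_C 1 hk0, by simp [ht]⟩
    exact mem_of_isIntegral_int A this
  have ht0 : t ≠ 0 := by
    rintro rfl
    rw [zero_pow hk0] at ht
    exact zero_ne_one ht
  have htinv : t⁻¹ ∈ A := by
    have : t⁻¹ = t ^ (p ^ k - 1) := by
      rw [eq_comm, ← mul_eq_one_iff_eq_inv₀ ht0, ← pow_succ,
        Nat.sub_add_cancel (Nat.one_le_iff_ne_zero.2 hk0), ht]
    rw [this]
    exact pow_mem htA _
  set u : Qbar := σ t * t⁻¹ with hu
  have hup : u ^ (p ^ k) = 1 := by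
    rw [hu, mul_pow, ← map_pow, ht, map_one, inv_pow, ht, inv_one, mul_one]
  have hmem : u - 1 ∈ A.nonunits := by
    have h1 : u - 1 = (σ t - t) * t⁻¹ := by
      rw [hu, sub_mul, mul_inv_cancel₀ ht0]
    rw [h1]
    exact mul_mem_nonunits A (apply_sub_mem_nonunits hσ htA) htinv
  have h1 : u = 1 :=
    eq_one_of_pow_prime_pow_eq_one p A (natCast_not_mem_nonunits p hq hqp A hA) k u hup hmem
  rw [hu, mul_inv_eq_one₀ ht0] at h1
  exact h1

/-- `ℚ(μ_{p^k})` is unramified outside any `S ∋ p`. -/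
theorem cycloPowField_isUnramifiedOutside {S : Finset Nat.Primes} (hpS : pPrime p ∈ S) :
    (cycloPowField p k).IsUnramifiedOutside S := by
  refine ⟨finiteDimensional_cycloPowField p k, fun q hq A hA σ hσ => ?_⟩
  have hqp : (q : ℕ) ≠ p := by
    rintro h
    apply hq
    have : q = pPrime p := Subtype.ext h
    rw [this]; exact hpS
  exact mem_fixingSubgroup_adjoin_of_forall σ _
    (fun t ht => apply_eq_of_mem_inertia p k q.2 hqp A hA hσ ht)

/-- If `τ t = u * t` with `τ u = u` then `τ ^ n` maps `t` to `u ^ n * t`. -/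
theorem pow_apply_of_apply_eq_mul (τ : GQ) {t u : Qbar} (ht : τ t = u * t) (hu : τ u = u) (n : ℕ) :
    (τ ^ n) t = u ^ n * t := by
  induction n with
  | zero => simp
  | succ n ih =>
    rw [pow_succ', AlgEquiv.mul_apply, ih, map_mul, map_pow, hu, ht, pow_succ]
    ring

/-- If `σ` fixes the `p`-th roots of unity, then `σ ^ (p ^ j)` fixes the `p ^ (j+1)`-th roots of
unity. -/
theorem pow_prime_pow_apply_eq (σ : GQ) (hσ : ∀ t : Qbar, t ^ p = 1 → σ t = t) :
    ∀ (j : ℕ) (t : Qbar), t ^ (p ^ (j + 1)) = 1 → (σ ^ (p ^ j)) t = t := by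
  have hp0 : p ≠ 0 := (Fact.out : p.Prime).ne_zero
  intro j
  induction j with
  | zero =>
    intro t ht
    simpa using hσ t (by simpa using ht)
  | succ j ih =>
    intro t ht
    set τ : GQ := σ ^ (p ^ j) with hτ
    have ht0 : t ≠ 0 := by
      rintro rfl
      simp [hp0] at ht
    -- `t ^ p` is a `p ^ (j+1)`-th root of unity, hence fixed by `τ`
    have htp : (t ^ p) ^ (p ^ (j + 1)) = 1 := by
      rw [← pow_mul, ← pow_succ']
      exact ht
    have hfix : τ (t ^ p) = t ^ p := ih (t ^ p) htp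
    set u : Qbar := τ t * t⁻¹ with hu
    have hup : u ^ p = 1 := by
      rw [hu, mul_pow, ← map_pow, hfix, inv_pow, mul_inv_cancel₀ (pow_ne_zero _ ht0)]
    have hτt : τ t = u * t := by
      rw [hu, mul_assoc, inv_mul_cancel₀ ht0, mul_one]
    have hτu : τ u = u := by
      refine ih u ?_
      rw [pow_succ', pow_mul, hup, one_pow]
    have := pow_apply_of_apply_eq_mul τ hτt hτu p
    rw [hup, one_mul, hτ, ← pow_mul, ← pow_succ] at this
    exact this

/-- If `cycloChar p σ = 1`, a `p`-power power of `σ` fixes `ℚ(μ_{p^k})` pointwise. -/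
theorem exists_pow_mem_fixingSubgroup (σ : GQ) (hσ : cycloChar p σ = 1) :
    ∃ j : ℕ, σ ^ (p ^ j) ∈ (cycloPowField p k).fixingSubgroup := by
  have hfix : ∀ t : Qbar, t ^ p = 1 → σ t = t := by
    intro t ht
    rw [cycloChar_spec' p σ ht, hσ]
    haveI : Fact (1 < p) := ⟨(Fact.out : p.Prime).one_lt⟩
    simp [ZMod.val_one]
  refine ⟨k, mem_fixingSubgroup_adjoin_of_forall _ _ (fun t ht => ?_)⟩
  refine pow_prime_pow_apply_eq p σ hfix k t ?_
  rw [pow_succ, pow_mul, (ht : t ^ (p ^ k) = 1), one_pow]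

/-! ### Extras -/

/-- `ℚ(μ_{p^k})` is Galois over `ℚ`. -/
theorem isGalois_cycloPowField : IsGalois ℚ ↥(cycloPowField p k) := by
  haveI := normal_cycloPowField p k
  exact ⟨⟩

/-- The tower `ℚ(μ_{p^k}) ⊆ ℚ(μ_{p^k'})` for `k ≤ k'`. -/
theorem cycloPowField_mono {k k' : ℕ} (h : k ≤ k') : cycloPowField p k ≤ cycloPowField p k' := by
  rw [cycloPowField, IntermediateField.adjoin_le_iff]
  intro t ht
  refine mem_cycloPowField_of_pow_eq_one p k' ?_
  obtain ⟨d, rfl⟩ := Nat.exists_eq_add_of_le h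
  rw [pow_add, pow_mul, (ht : t ^ (p ^ k) = 1), one_pow]

/-- `ℚ(μ_p) ⊆ ℚ(μ_{p^(k+1)})`. -/
theorem cycloField_le_cycloPowField : cycloField p ≤ cycloPowField p (k + 1) := by
  rw [cycloField, IntermediateField.adjoin_le_iff]
  intro t ht
  refine mem_cycloPowField_of_pow_eq_one p (k + 1) ?_
  rw [pow_succ', pow_mul, (ht : t ^ p = 1), one_pow]

/-- The fixing subgroup of `ℚ(μ_{p^k})` is normal in `G_ℚ`. -/
theorem normal_fixingSubgroup_cycloPowField : (cycloPowField p k).fixingSubgroup.Normal := by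
  refine ⟨fun s hs g => ?_⟩
  refine mem_fixingSubgroup_adjoin_of_forall _ _ (fun t ht => ?_)
  rw [IntermediateField.mem_fixingSubgroup_iff] at hs
  have h1 : (g⁻¹ : GQ) t ∈ cycloPowField p k := by
    refine mem_cycloPowField_of_pow_eq_one p k ?_
    rw [← map_pow, (ht : t ^ (p ^ k) = 1), map_one]
  have h2 := hs _ h1
  simp only [AlgEquiv.mul_apply]
  rw [h2]
  change g (g⁻¹ t) = t
  rw [← AlgEquiv.mul_apply, mul_inv_cancel, AlgEquiv.one_apply]

/-- Every element of `G_ℚ` in the kernel of the mod-`p` cyclotomic character has `p`-power order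
modulo the fixing subgroup of `ℚ(μ_{p^k})` (explicit exponent `k`). -/
theorem pow_mem_fixingSubgroup (σ : GQ) (hσ : cycloChar p σ = 1) :
    σ ^ (p ^ k) ∈ (cycloPowField p k).fixingSubgroup := by
  have hfix : ∀ t : Qbar, t ^ p = 1 → σ t = t := by
    intro t ht
    rw [cycloChar_spec' p σ ht, hσ]
    haveI : Fact (1 < p) := ⟨(Fact.out : p.Prime).one_lt⟩
    simp [ZMod.val_one]
  refine mem_fixingSubgroup_adjoin_of_forall _ _ (fun t ht => ?_)
  refine pow_prime_pow_apply_eq p σ hfix k t ?_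
  rw [pow_succ, pow_mul, (ht : t ^ (p ^ k) = 1), one_pow]

end Fermat.Agent.S55.Middle.CycloPow
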