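/-
S55 / Middle / CycloGrowLevel (helper24): the cyclotomic LEVELS of the `K`-site and the uniform
growth statement over a system of representatives `R : KSite.Reps S P`.

* `fixRoots_eq_fixingSubgroup` : `CycloGrowIndex.fixRoots (p^m) = (CycloPow.cycloPowField p m).fixingSubgroup`;
* `fixRoots_mem_globalBasis`   : it is a member of `globalBasis S` when `p ∈ S`
                                 (helper81's `cycloPowField_isUnramifiedOutside`);
* `cycloLevel_mem_basisP`      : `(fixRoots (p^m)).subgroupOf P ∈ basisP S P`;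
* `index_cycloLevel_dvd`       : `[P : P ∩ fixRoots (p^m)] ∣ p^(m-1)` in `subgroupOf` form;
* `finiteIndex_of_isOpenS`     : an `S`-open subgroup has finite index;
* `exists_cycloLevel`          : for `P` open with `χ_p|P = 1`, `R : Reps S P`, `k`: ONE `m₀` such
   that for all `m ≥ m₀`, all places `i = (q, t) : R.Idx` and all `P' ≤ P ⊓ fixRoots (p^m)`:
   `p^k ∣ [Dloc P q t : Dloc P' q t]`.
-/
import Fermat.Agent.S55.Middle.KSite
import Fermat.Agent.S55.Middle.CycloPow
import Fermat.Agent.S55.Middle.CycloGrowIndex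

set_option autoImplicit false
set_option linter.style.haveILetI false
set_option linter.unusedSectionVars false

namespace Fermat.Agent.S55.Middle.CycloGrowLevel

open Fermat.Agent.S55.Formal Fermat.Agent.S55.Formal.PreludeLC
  Fermat.Agent.S55.Bridge.ShapiroLC Fermat.Agent.S55.Bridge.Mackey
  Fermat.Agent.S55.Middle.KSite Fermat.Agent.S55.Middle.CycloPow
  Fermat.Agent.S55.Middle.CycloGrowIndex ExtCitation

local notation "Qbar" => AlgebraicClosure ℚ
local notation "GQ" => (AlgebraicClosure ℚ ≃ₐ[ℚ] AlgebraicClosure ℚ)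

variable (p : ℕ) [hp : Fact p.Prime]

theorem fixRoots_eq_fixingSubgroup (m : ℕ) :
    fixRoots (p ^ m) = (cycloPowField p m).fixingSubgroup := by
  ext g
  rw [mem_fixRoots]
  constructor
  · intro h
    exact mem_fixingSubgroup_adjoin_of_forall g _ (fun t ht => h t ht)
  · intro h ζ hζ
    rw [IntermediateField.mem_fixingSubgroup_iff] at h
    exact h ζ (mem_cycloPowField_of_pow_eq_one p m hζ)

variable {S : Finset Nat.Primes}

theorem fixRoots_mem_globalBasis (hpS : pPrime p ∈ S) (m : ℕ) :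
    (globalBasis S).mem (fixRoots (p ^ m)) :=
  ⟨cycloPowField p m, cycloPowField_isUnramifiedOutside p m hpS,
    normal_fixingSubgroup_cycloPowField p m, fixRoots_eq_fixingSubgroup p m⟩

theorem cycloLevel_mem_basisP (hpS : pPrime p ∈ S) (P : Subgroup GQ) (m : ℕ) :
    (basisP S P).mem ((fixRoots (p ^ m)).subgroupOf P) :=
  ⟨fixRoots (p ^ m), fixRoots_mem_globalBasis p hpS m, rfl⟩

theorem index_cycloLevel_dvd (P : Subgroup GQ) (hPχ : ∀ g ∈ P, cycloChar p g = 1) {m : ℕ}
    (hm : 0 < m) : ((fixRoots (p ^ m)).subgroupOf P).index ∣ p ^ (m - 1) :=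
  relIndex_fixRoots_dvd p P hPχ hm

theorem finiteIndex_of_isOpenS {P : Subgroup GQ} (hP : IsOpenS S P) : P.FiniteIndex := by
  obtain ⟨N, hN, hNP⟩ := hP
  haveI := (globalBasis S).finiteIndex hN
  exact Subgroup.finiteIndex_of_le hNP

/-- **Uniform cyclotomic level** for all places of the `K`-site above `S`. -/
theorem exists_cycloLevel (hodd : Odd p) {P : Subgroup GQ} (hP : IsOpenS S P)
    (hPχ : ∀ g ∈ P, cycloChar p g = 1) (R : Reps S P) (k : ℕ) :
    ∃ m₀ : ℕ, ∀ m, m₀ ≤ m → ∀ i : R.Idx, ∀ P' : Subgroup GQ, P' ≤ P → P' ≤ fixRoots (p ^ m) →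
      p ^ k ∣ ((Dloc P' i.1.1 i.2.1).subgroupOf (Dloc P i.1.1 i.2.1)).index := by
  classical
  haveI := finiteIndex_of_isOpenS hP
  have hPfin : P.index ≠ 0 := Subgroup.FiniteIndex.index_ne_zero
  refine ⟨Finset.univ.sup (fun i : R.Idx =>
    k + lossAt p i.1.1 + padicValNat p (Dloc P i.1.1 i.2.1).index), ?_⟩
  intro m hm i P' hP' hfix
  have hmi : k + lossAt p i.1.1 + padicValNat p (Dloc P i.1.1 i.2.1).index ≤ m :=
    le_trans (Finset.le_sup (f := fun i : R.Idx =>
      k + lossAt p i.1.1 + padicValNat p (Dloc P i.1.1 i.2.1).index) (Finset.mem_univ i)) hm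
  exact pow_dvd_index_subgroupOf p hodd i.1.1 P hPfin hPχ i.2.1 k m hmi P' hP'
    (fun g hg => mem_fixRoots.1 (hfix hg))

/-- the same for the cyclotomic level `P ⊓ fixRoots (p^m)` itself, together with its properties -/
theorem exists_cycloLevel' (hodd : Odd p) (hpS : pPrime p ∈ S) {P : Subgroup GQ}
    (hP : IsOpenS S P) (hPχ : ∀ g ∈ P, cycloChar p g = 1) (R : Reps S P) (k : ℕ) :
    ∃ m : ℕ, 0 < m ∧ (globalBasis S).mem (fixRoots (p ^ m)) ∧
      ((fixRoots (p ^ m)).subgroupOf P).index ∣ p ^ (m - 1) ∧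
      ∀ i : R.Idx, p ^ k ∣ ((Dloc (P ⊓ fixRoots (p ^ m)) i.1.1 i.2.1).subgroupOf
        (Dloc P i.1.1 i.2.1)).index := by
  obtain ⟨m₀, h⟩ := exists_cycloLevel p hodd hP hPχ R k
  refine ⟨m₀ + 1, Nat.succ_pos _, fixRoots_mem_globalBasis p hpS _,
    index_cycloLevel_dvd p P hPχ (Nat.succ_pos _), fun i => ?_⟩
  exact h (m₀ + 1) (Nat.le_succ _) i _ inf_le_left inf_le_right

end Fermat.Agent.S55.Middle.CycloGrowLevel
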