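/-
S55 / Middle / Hasse (helper94): the ABSTRACT SKELETON of step (C3) of the Middle plan
(helper17, report 1585).  Mathlib only; no cochains occur here.

Notation of the plan: `O` = `S`-units of `ℚ_S`, `Kx = ℚ_Sˣ`, `Prin = Kx/O`, `μ = μ_p`; all cohomology
groups are LC cohomology groups of an open subgroup `U = Gal(ℚ̄/K)`.  The two long exact sequences

  (Kum)  `H¹(O) -p→ H¹(O) -k→ H²(μ) -j→ H²(O)`,      (Div)  `H¹(Kx) = 0 → H¹(Prin) -d→ H²(O) -i→ H²(Kx)`

enter only through the exactness statements used below.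

* `hasse_O` : a `p`-primary class of `H²(O)` whose image in `H²(Kx)` is locally trivial at the places
  of `S` vanishes  (inputs: off-`S` local triviality is automatic, (HBN-inj), `H¹(Prin)` has no
  `p`-torsion, `d` injective).
* `sha_le_range` : the locally trivial classes of `H²(μ)` come from `H¹(O)` under the Kummer map.
* `card_sha_le`, `finrank_sha_le` : hence `dim Ш²(μ_p) ≤ dim Cl[p]` as soon as `H¹(O)` embeds into a
  finite group `Cl`.
* `exists_injective_of_exact` : the embedding `H¹(O) ↪ Div^U / im(Kˣ)` from `H¹(Kx) = 0`.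
-/
import Mathlib

set_option autoImplicit false

namespace Fermat.Agent.S55.Middle.Hasse

/-- No `p`-torsion implies no `p^n`-torsion. -/
theorem eq_zero_of_pow_smul_eq_zero {A : Type*} [AddCommGroup A] {p : ℕ}
    (h : ∀ a : A, p • a = 0 → a = 0) : ∀ (n : ℕ) (a : A), p ^ n • a = 0 → a = 0 := by
  intro n
  induction n with
  | zero => intro a ha; simpa using ha
  | succ n ih =>
    intro a ha
    apply ih
    apply h
    rw [← mul_smul, ← pow_succ']
    exact ha

section Skeleton

variable {H1O H2mu H2O H2K H1P : Type*} [AddCommGroup H1O] [AddCommGroup H2mu]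
  [AddCommGroup H2O] [AddCommGroup H2K] [AddCommGroup H1P]

/-- **(C3), first half.**  A `p`-primary class `x ∈ H²(O)` whose image in `H²(Kx)` is locally
trivial at the places of `S` is zero.

* `hex`  : exactness of (Div) at `H²(O)`;
* `hd`   : `d : H¹(Prin) → H²(O)` is injective (`H¹(Kx) = 0`, Hilbert 90);
* `hP`   : `H¹(Prin)` has no `p`-torsion (capitulation);
* `hoff` : classes coming from `O` are locally trivial off `S` (unramified, unit valued);
* `hbn`  : (HBN-inj) in colimit form. -/
theorem hasse_O (p : ℕ) (i : H2O →+ H2K) (d : H1P →+ H2O)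
    (hex : ∀ x : H2O, i x = 0 → ∃ e : H1P, d e = x)
    (hd : Function.Injective d)
    (hP : ∀ e : H1P, p • e = 0 → e = 0)
    (LTS LToff : H2K → Prop)
    (hoff : ∀ x : H2O, LToff (i x))
    (hbn : ∀ z : H2K, (∃ n : ℕ, p ^ n • z = 0) → LTS z → LToff z → z = 0)
    (x : H2O) (hx : ∃ n : ℕ, p ^ n • x = 0) (hloc : LTS (i x)) : x = 0 := by
  obtain ⟨n, hn⟩ := hx
  have hz : i x = 0 :=
    hbn (i x) ⟨n, by rw [← map_nsmul, hn, map_zero]⟩ hloc (hoff x)
  obtain ⟨e, rfl⟩ := hex x hz
  have he : p ^ n • e = 0 := hd (by rw [map_nsmul, hn, map_zero])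
  rw [eq_zero_of_pow_smul_eq_zero hP n e he, map_zero]

/-- **(C3), second half.**  The classes of `H²(μ)` which are locally trivial at `S` (a subgroup
`Sha`) lie in the image of the Kummer connecting map `k : H¹(O) → H²(μ)`.

* `hmu` : `H²(μ)` is killed by `p`;
* `hkj` : exactness of (Kum) at `H²(μ)`;
* `hSha`: compatibility of the two notions of local triviality (row `M.loccompare`). -/
theorem sha_le_range (p : ℕ) (k : H1O →+ H2mu) (j : H2mu →+ H2O) (i : H2O →+ H2K)
    (d : H1P →+ H2O)
    (hmu : ∀ y : H2mu, p • y = 0)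
    (hkj : ∀ y : H2mu, j y = 0 → ∃ a : H1O, k a = y)
    (hex : ∀ x : H2O, i x = 0 → ∃ e : H1P, d e = x)
    (hd : Function.Injective d)
    (hP : ∀ e : H1P, p • e = 0 → e = 0)
    (LTS LToff : H2K → Prop)
    (hoff : ∀ x : H2O, LToff (i x))
    (hbn : ∀ z : H2K, (∃ n : ℕ, p ^ n • z = 0) → LTS z → LToff z → z = 0)
    (Sha : AddSubgroup H2mu) (hSha : ∀ y ∈ Sha, LTS (i (j y))) :
    Sha ≤ k.range := by
  intro y hy
  have hx : j y = 0 :=
    hasse_O p i d hex hd hP LTS LToff hoff hbn (j y)
      ⟨1, by rw [pow_one, ← map_nsmul, hmu, map_zero]⟩ (hSha y hy)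
  obtain ⟨a, rfl⟩ := hkj y hx
  exact ⟨a, rfl⟩

end Skeleton

section Count

variable {A : Type*} [AddCommGroup A]

/-- For a finite abelian group, `[A : pA] = #A[p]`. -/
theorem index_range_nsmul_eq_card_ker [Finite A] (p : ℕ) :
    (nsmulAddMonoidHom (α := A) p).range.index = Nat.card (nsmulAddMonoidHom (α := A) p).ker := by
  set f := nsmulAddMonoidHom (α := A) p
  have h1 : Nat.card f.ker * f.ker.index = Nat.card A := f.ker.card_mul_index
  have h2 : Nat.card f.range * f.range.index = Nat.card A := f.range.card_mul_index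
  have h3 : f.ker.index = Nat.card f.range := AddSubgroup.index_ker f
  have hpos : 0 < Nat.card f.range := Nat.card_pos
  rw [h3, mul_comm] at h1
  exact Nat.eq_of_mul_eq_mul_left hpos (h2.trans h1.symm)

variable {B : Type*} [AddCommGroup B]

/-- If `k : A → B` with `B` killed by `p` and `A ↪ Cl` finite, every subgroup of the range of `k` has
at most `#Cl[p]` elements. -/
theorem card_sha_le (p : ℕ) (k : A →+ B) (hB : ∀ y : B, p • y = 0)
    {Cl : Type*} [AddCommGroup Cl] [Finite Cl] (ι : A →+ Cl) (hι : Function.Injective ι)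
    (Sha : AddSubgroup B) (h : Sha ≤ k.range) :
    Nat.card Sha ≤ Nat.card {x : Cl // p • x = 0} := by
  have : Finite A := Finite.of_injective ι hι
  set f := nsmulAddMonoidHom (α := A) p with hf
  have hfin : Finite k.range := by
    rw [AddMonoidHom.range_eq_map]
    exact Finite.Set.finite_image _ _
  -- `Sha ≤ range k`
  have h1 : Nat.card Sha ≤ Nat.card k.range := AddSubgroup.card_le_of_le h
  -- `#range k = [A : ker k] ≤ [A : pA]`
  have h2 : Nat.card k.range = k.ker.index := (AddSubgroup.index_ker k).symm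
  have hle : f.range ≤ k.ker := by
    rintro _ ⟨a, rfl⟩
    rw [AddMonoidHom.mem_ker, hf, nsmulAddMonoidHom_apply, map_nsmul, hB]
  have h3 : k.ker.index ∣ f.range.index := AddSubgroup.index_dvd_of_le hle
  have h4 : f.range.index ≠ 0 := AddSubgroup.index_ne_zero_of_finite
  have h5 : k.ker.index ≤ f.range.index := Nat.le_of_dvd (Nat.pos_of_ne_zero h4) h3
  -- `[A : pA] = #A[p] ≤ #Cl[p]`
  have h6 : f.range.index = Nat.card f.ker := index_range_nsmul_eq_card_ker p
  have h7 : Nat.card f.ker ≤ Nat.card {x : Cl // p • x = 0} := by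
    refine Nat.card_le_card_of_injective
      (fun a : f.ker => (⟨ι a, ?_⟩ : {x : Cl // p • x = 0})) ?_
    · have ha : p • (a : A) = 0 := by
        have h := a.2
        rw [AddMonoidHom.mem_ker] at h
        exact h
      rw [← map_nsmul, ha, map_zero]
    · intro a b hab
      apply Subtype.ext
      apply hι
      exact congrArg Subtype.val hab
  omega

/-- Dimension form: a finite `𝔽_p`-vector space with at most `p ^ c` elements has dimension `≤ c`. -/
theorem finrank_le_of_card_le (p : ℕ) [Fact p.Prime] {V : Type*} [AddCommGroup V]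
    [Module (ZMod p) V] [Finite V] {c : ℕ} (h : Nat.card V ≤ p ^ c) :
    Module.finrank (ZMod p) V ≤ c := by
  have h1 : Nat.card V = p ^ Module.finrank (ZMod p) V := by
    rw [Module.natCard_eq_pow_finrank (K := ZMod p) (V := V), Nat.card_zmod]
  rw [h1] at h
  exact (Nat.pow_le_pow_iff_right (Fact.out : p.Prime).one_lt).1 h

end Count

section Embedding

variable {H0K H0P H1O D : Type*} [AddCommGroup H0K] [AddCommGroup H0P] [AddCommGroup H1O]
  [AddCommGroup D]

/-- From the exact sequence `H⁰(Kx) -π→ H⁰(Prin) -δ→ H¹(O) → H¹(Kx) = 0` and an embedding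
`ν : H⁰(Prin) ↪ D` (divisors), `H¹(O)` embeds into `D / ν(π(H⁰(Kx)))` (the `S`-class group of `K`). -/
theorem exists_injective_of_exact (π : H0K →+ H0P) (δ : H0P →+ H1O) (ν : H0P →+ D)
    (hδ : Function.Surjective δ) (hex : ∀ x : H0P, δ x = 0 → ∃ a : H0K, π a = x)
    (hπδ : ∀ a : H0K, δ (π a) = 0) (hν : Function.Injective ν) :
    ∃ ι : H1O →+ D ⧸ (ν.comp π).range, Function.Injective ι ∧
      ∀ x : H0P, ι (δ x) = QuotientAddGroup.mk (ν x) := by
  classical
  -- the map `H0P → D ⧸ _` kills `ker δ`, so it descends along the surjection `δ`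
  set q : H0P →+ D ⧸ (ν.comp π).range := (QuotientAddGroup.mk' _).comp ν with hq
  have hker : δ.ker ≤ q.ker := by
    intro x hx
    obtain ⟨a, rfl⟩ := hex x hx
    rw [AddMonoidHom.mem_ker, hq, AddMonoidHom.comp_apply, QuotientAddGroup.mk'_apply,
      QuotientAddGroup.eq_zero_iff]
    exact ⟨a, rfl⟩
  -- descend
  let e : H0P ⧸ δ.ker ≃+ H1O := QuotientAddGroup.quotientKerEquivOfSurjective δ hδ
  let ι : H1O →+ D ⧸ (ν.comp π).range :=
    (QuotientAddGroup.lift δ.ker q hker).comp e.symm.toAddMonoidHom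
  have hι : ∀ x : H0P, ι (δ x) = QuotientAddGroup.mk (ν x) := by
    intro x
    have : e.symm (δ x) = QuotientAddGroup.mk x := by
      rw [AddEquiv.symm_apply_eq]
      rfl
    simp only [ι, AddMonoidHom.comp_apply, AddEquiv.coe_toAddMonoidHom, this,
      QuotientAddGroup.lift_mk]
    rfl
  refine ⟨ι, ?_, hι⟩
  rw [injective_iff_map_eq_zero]
  intro y hy
  obtain ⟨x, rfl⟩ := hδ y
  rw [hι, QuotientAddGroup.eq_zero_iff] at hy
  obtain ⟨a, ha⟩ := hy
  have : π a = x := hν ha
  rw [← this, hπδ]

end Embedding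

end Fermat.Agent.S55.Middle.Hasse
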