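/-
S55 / Middle / Image (helper37): the ABSTRACT SKELETON of step (C4) of the Middle plan
(helper17, report 1585), in the style of `Middle/Hasse.lean`.  Mathlib only; no cochains occur here.

Notation of the plan: `O` = `S`-units of `ℚ_S`, `Kx = ℚ_Sˣ`, `Prin = Kx/O`; all cohomology groups are
LC cohomology groups of an open subgroup `U = Gal(ℚ̄/K)`.  The (Div) long exact sequence

  `H¹(Prin) -d→ H²(O) -i→ H²(Kx) -π→ H²(Prin)`

enters only through the exactness statements used below.  `A = ⊕_{v ∈ S_K} Br(K_v)` is the group of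
local components at `S`, `locK : H²(Kx) → A`; `LToff z` = "`z` is locally trivial at all places off
`S`".  The reciprocity law enters through a predicate `R : A → Prop` ("`Λ_k a = 0`") on the
`p^k`-torsion of `A`:

* `hrecip` (reciprocity):  `z` of `p`-power order, locally trivial off `S` ⇒ `R (locK z)`;
* `hexist` (existence, from (HBN-coker)+(HBN-single) on a cyclotomic layer): `p^k a = 0`, `R a` ⇒
  `a = locK z` for a `z` of `p`-power order, locally trivial off `S`.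

Results:
* `lift_torsion`     : a `p^k`-torsion class of `H²(Kx)` killed by `π` lifts to a `p^k`-torsion class
  of `H²(O)`  (uses only that `p` is invertible on `H¹(Prin)`);
* `image_iff`        : **(C4)**  `a ∈ A[p^k]` is the local component of a class of `H²(O)[p^k]` iff
  `R a`;
* `exists_lift_mod`  : the cokernel statement `(A-G3)`: if `A[p]/{R}` is generated by one element
  `a₀`, every `a ∈ A[p]` is `n • a₀ +` (local component of a class in `H²(O)[p]`);
* `divisible`        : `H²(O)(p)` is `p`-divisible.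
-/
import Mathlib
import Fermat.Agent.S55.Middle.Hasse

set_option autoImplicit false

namespace Fermat.Agent.S55.Middle.Image

open Fermat.Agent.S55.Middle.Hasse

section Lift

variable {H1P H2O H2K H2P : Type*} [AddCommGroup H1P] [AddCommGroup H2O] [AddCommGroup H2K]
  [AddCommGroup H2P]

/-- If `p` is surjective on `H`, so is `p ^ k`. -/
theorem exists_pow_smul_eq {H : Type*} [AddCommGroup H] {p : ℕ}
    (h : ∀ e : H, ∃ e' : H, p • e' = e) : ∀ (k : ℕ) (e : H), ∃ e' : H, p ^ k • e' = e := by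
  intro k
  induction k with
  | zero => intro e; exact ⟨e, by simp⟩
  | succ k ih =>
    intro e
    obtain ⟨e₁, he₁⟩ := h e
    obtain ⟨e₂, he₂⟩ := ih e₁
    exact ⟨e₂, by rw [pow_succ', mul_smul, he₂, he₁]⟩

/-- **Lifting with control of the order.**  A class `z ∈ H²(Kx)` with `p^k z = 0` and `π z = 0` is
`i x` for some `x ∈ H²(O)` with `p^k x = 0`.

* `hexK` : exactness of (Div) at `H²(Kx)`;
* `hex`  : exactness of (Div) at `H²(O)`;
* `hid`  : `i ∘ d = 0`;
* `hPdiv`: `H¹(Prin)` is `p`-divisible (it is a torsion group without `p`-torsion). -/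
theorem lift_torsion (p k : ℕ) (i : H2O →+ H2K) (π : H2K →+ H2P) (d : H1P →+ H2O)
    (hexK : ∀ z : H2K, π z = 0 → ∃ x : H2O, i x = z)
    (hex : ∀ x : H2O, i x = 0 → ∃ e : H1P, d e = x)
    (hid : ∀ e : H1P, i (d e) = 0)
    (hPdiv : ∀ e : H1P, ∃ e' : H1P, p • e' = e)
    (z : H2K) (hz : p ^ k • z = 0) (hπ : π z = 0) :
    ∃ x : H2O, p ^ k • x = 0 ∧ i x = z := by
  obtain ⟨x₀, hx₀⟩ := hexK z hπ
  have h1 : i (p ^ k • x₀) = 0 := by rw [map_nsmul, hx₀, hz]
  obtain ⟨e, he⟩ := hex _ h1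
  obtain ⟨e', he'⟩ := exists_pow_smul_eq hPdiv k e
  refine ⟨x₀ - d e', ?_, ?_⟩
  · rw [smul_sub, ← map_nsmul, he', he, sub_self]
  · rw [map_sub, hid, sub_zero, hx₀]

end Lift

section Image

variable {H1P H2O H2K H2P A : Type*} [AddCommGroup H1P] [AddCommGroup H2O] [AddCommGroup H2K]
  [AddCommGroup H2P] [AddCommGroup A]

/-- **(C4).**  For `a ∈ A` with `p^k a = 0`:  `a` is the local component (at `S`) of a class of
`H²(O)[p^k]` iff `R a` (the reciprocity relation `Λ_k a = 0`).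

* `hoff`   : classes coming from `O` are locally trivial off `S`;
* `hres`   : (C2) a class of `p`-power order of `H²(Kx)` which is locally trivial off `S` has zero
  residues, hence dies in `H²(Prin)`;
* `hbn`    : (HBN-inj) in colimit form;
* `hLTsmul`: local triviality off `S` is stable under multiples;
* `hrecip`, `hexist`: see the header. -/
theorem image_iff (p k : ℕ) (i : H2O →+ H2K) (π : H2K →+ H2P) (d : H1P →+ H2O)
    (hexK : ∀ z : H2K, π z = 0 → ∃ x : H2O, i x = z)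
    (hex : ∀ x : H2O, i x = 0 → ∃ e : H1P, d e = x)
    (hid : ∀ e : H1P, i (d e) = 0)
    (hPdiv : ∀ e : H1P, ∃ e' : H1P, p • e' = e)
    (locK : H2K →+ A) (LToff : H2K → Prop)
    (hoff : ∀ x : H2O, LToff (i x))
    (hLTsmul : ∀ (n : ℕ) (z : H2K), LToff z → LToff (n • z))
    (hres : ∀ z : H2K, (∃ n : ℕ, p ^ n • z = 0) → LToff z → π z = 0)
    (hbn : ∀ z : H2K, (∃ n : ℕ, p ^ n • z = 0) → locK z = 0 → LToff z → z = 0)
    (R : A → Prop)
    (hrecip : ∀ z : H2K, (∃ n : ℕ, p ^ n • z = 0) → LToff z → p ^ k • locK z = 0 → R (locK z))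
    (hexist : ∀ a : A, p ^ k • a = 0 → R a →
      ∃ z : H2K, (∃ n : ℕ, p ^ n • z = 0) ∧ LToff z ∧ locK z = a)
    (a : A) (ha : p ^ k • a = 0) :
    (∃ x : H2O, p ^ k • x = 0 ∧ locK (i x) = a) ↔ R a := by
  constructor
  · rintro ⟨x, hx, rfl⟩
    exact hrecip (i x) ⟨k, by rw [← map_nsmul, hx, map_zero]⟩ (hoff x) ha
  · intro hR
    obtain ⟨z, ⟨n, hn⟩, hzoff, rfl⟩ := hexist a ha hR
    -- `p^k z = 0` by (HBN-inj)
    have hz : p ^ k • z = 0 := by
      refine hbn _ ⟨n, ?_⟩ (by rw [map_nsmul, ha]) (hLTsmul _ _ hzoff)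
      rw [smul_comm, hn, smul_zero]
    obtain ⟨x, hx, hix⟩ :=
      lift_torsion p k i π d hexK hex hid hPdiv z hz (hres z ⟨n, hn⟩ hzoff)
    exact ⟨x, hx, by rw [hix]⟩

/-- **The cokernel statement (A-G3).**  If `A[p]` is generated modulo `{R}` by one element `a₀`, then
every `a ∈ A[p]` differs from a multiple of `a₀` by the local component of a class in `H²(O)[p]`
(so the cokernel of `loc² : H²(μ_p) → ⊕_{v ∈ S_K} H²(K_v, μ_p)` is generated by one element). -/
theorem exists_lift_mod (p : ℕ) (i : H2O →+ H2K) (π : H2K →+ H2P) (d : H1P →+ H2O)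
    (hexK : ∀ z : H2K, π z = 0 → ∃ x : H2O, i x = z)
    (hex : ∀ x : H2O, i x = 0 → ∃ e : H1P, d e = x)
    (hid : ∀ e : H1P, i (d e) = 0)
    (hPdiv : ∀ e : H1P, ∃ e' : H1P, p • e' = e)
    (locK : H2K →+ A) (LToff : H2K → Prop)
    (hoff : ∀ x : H2O, LToff (i x))
    (hLTsmul : ∀ (n : ℕ) (z : H2K), LToff z → LToff (n • z))
    (hres : ∀ z : H2K, (∃ n : ℕ, p ^ n • z = 0) → LToff z → π z = 0)
    (hbn : ∀ z : H2K, (∃ n : ℕ, p ^ n • z = 0) → locK z = 0 → LToff z → z = 0)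
    (R : A → Prop)
    (hrecip : ∀ z : H2K, (∃ n : ℕ, p ^ n • z = 0) → LToff z → p ^ 1 • locK z = 0 → R (locK z))
    (hexist : ∀ a : A, p ^ 1 • a = 0 → R a →
      ∃ z : H2K, (∃ n : ℕ, p ^ n • z = 0) ∧ LToff z ∧ locK z = a)
    (a₀ : A) (ha₀ : p • a₀ = 0)
    (hgen : ∀ a : A, p • a = 0 → ∃ n : ℕ, R (a - n • a₀))
    (a : A) (ha : p • a = 0) :
    ∃ (n : ℕ) (x : H2O), p • x = 0 ∧ locK (i x) = a - n • a₀ := by
  obtain ⟨n, hn⟩ := hgen a ha
  have h1 : p ^ 1 • (a - n • a₀) = 0 := by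
    rw [pow_one, smul_sub, ha, smul_comm, ha₀, smul_zero, sub_zero]
  obtain ⟨x, hx, hxa⟩ := (image_iff p 1 i π d hexK hex hid hPdiv locK LToff hoff hLTsmul hres hbn R
    hrecip hexist (a - n • a₀) h1).mpr hn
  exact ⟨n, x, by simpa using hx, hxa⟩

/-- **`H²(O)(p)` is `p`-divisible.**  `R k` is the reciprocity relation on `A[p^k]`.

* `hdivA` : `A(p)` is `p`-divisible (each `Br(K_v)(p) = ℚ_p/ℤ_p`);
* `hadj`  : if `b ∈ A[p^(k+1)]` and `R (k+1) (p b)` then `b` can be corrected by a `p`-torsion element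
  `t` so that `R (k+1) (b - t)`  (unit coefficients + cyclicity of the cokernel);
* `hmono` : `R k a → R (k+1) a` on `A[p^k]` is NOT assumed: it follows from `hrecip`. -/
theorem divisible (p : ℕ) (i : H2O →+ H2K) (π : H2K →+ H2P) (d : H1P →+ H2O)
    (hexK : ∀ z : H2K, π z = 0 → ∃ x : H2O, i x = z)
    (hex : ∀ x : H2O, i x = 0 → ∃ e : H1P, d e = x)
    (hid : ∀ e : H1P, i (d e) = 0)
    (hd : Function.Injective d)
    (hP : ∀ e : H1P, p • e = 0 → e = 0)
    (hPdiv : ∀ e : H1P, ∃ e' : H1P, p • e' = e)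
    (locK : H2K →+ A) (LToff : H2K → Prop)
    (hoff : ∀ x : H2O, LToff (i x))
    (hLTsmul : ∀ (n : ℕ) (z : H2K), LToff z → LToff (n • z))
    (hres : ∀ z : H2K, (∃ n : ℕ, p ^ n • z = 0) → LToff z → π z = 0)
    (hbn : ∀ z : H2K, (∃ n : ℕ, p ^ n • z = 0) → locK z = 0 → LToff z → z = 0)
    (R : ℕ → A → Prop)
    (hrecip : ∀ (k : ℕ) (z : H2K), (∃ n : ℕ, p ^ n • z = 0) → LToff z → p ^ k • locK z = 0 →
      R k (locK z))
    (hexist : ∀ (k : ℕ) (a : A), p ^ k • a = 0 → R k a →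
      ∃ z : H2K, (∃ n : ℕ, p ^ n • z = 0) ∧ LToff z ∧ locK z = a)
    (hdivA : ∀ (k : ℕ) (a : A), p ^ k • a = 0 → ∃ b : A, p • b = a)
    (hadj : ∀ (k : ℕ) (b : A), p ^ (k + 1) • b = 0 → R (k + 1) (p • b) →
      ∃ t : A, p • t = 0 ∧ R (k + 1) (b - t))
    (x : H2O) (hx : ∃ k : ℕ, p ^ k • x = 0) :
    ∃ y : H2O, (∃ k : ℕ, p ^ k • y = 0) ∧ p • y = x := by
  obtain ⟨k, hk⟩ := hx
  set a : A := locK (i x) with ha
  have hak : p ^ k • a = 0 := by rw [ha, ← map_nsmul, ← map_nsmul, hk, map_zero, map_zero]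
  have hak1 : p ^ (k + 1) • a = 0 := by rw [pow_succ', mul_smul, hak, smul_zero]
  -- `R (k+1) a` by reciprocity at level `k + 1`
  have hRa : R (k + 1) a :=
    hrecip (k + 1) (i x) ⟨k, by rw [← map_nsmul, hk, map_zero]⟩ (hoff x) hak1
  obtain ⟨b₀, hb₀⟩ := hdivA k a hak
  have hb₀k : p ^ (k + 1) • b₀ = 0 := by rw [pow_succ, mul_smul, hb₀, hak]
  obtain ⟨t, ht, hRt⟩ := hadj k b₀ hb₀k (by rw [hb₀]; exact hRa)
  have hbk : p ^ (k + 1) • (b₀ - t) = 0 := by
    rw [smul_sub, hb₀k, pow_succ, mul_smul, ht, smul_zero, sub_zero]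
  obtain ⟨y, hy, hya⟩ := (image_iff p (k + 1) i π d hexK hex hid hPdiv locK LToff hoff hLTsmul hres
    hbn (R (k + 1)) (hrecip (k + 1)) (hexist (k + 1)) (b₀ - t) hbk).mpr hRt
  refine ⟨y, ⟨k + 1, hy⟩, ?_⟩
  -- `p y - x` is of `p`-power order and locally trivial at `S`, hence zero by Hasse (C3)
  have hzero : p • y - x = 0 := by
    refine hasse_O p i d hex hd hP (fun z => locK z = 0) LToff hoff
      (fun z hz h1 h2 => hbn z hz h1 h2) (p • y - x) ⟨k + 1, ?_⟩ ?_
    · rw [smul_sub, smul_comm, hy, smul_zero, pow_succ', mul_smul, hk, smul_zero, sub_zero]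
    · rw [map_sub, map_sub, map_nsmul, map_nsmul, hya, smul_sub, hb₀, ht, sub_zero, ← ha, sub_self]
  exact sub_eq_zero.mp hzero

end Image

end Fermat.Agent.S55.Middle.Image
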