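/-
S55 / MIDDLE block, row M.h90 (helper94): HILBERT 90 IN THE LIMIT, generic form (Mathlib only).

`G` a group acting on a field `Ω` by ring automorphisms, `V ≤ G` a normal subgroup of finite index
which is *closed* for the action: every `g ∉ V` moves some `V`-fixed element of `Ω`.  Then every
`1`-cocycle `f : G → Ωˣ` of level `V` (`f (g * s) = f g` for `s ∈ V`) is the coboundary of a
`V`-fixed element:  `f g = g β / β`.

Proof: Dedekind's independence of the characters `z ↦ g z` (`g ∈ G/V`) on the multiplicative monoid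
of `V`-fixed elements, and the usual Poincaré series `b = ∑_{x ∈ G/V} f(x) x(z)`.
No identification of `G/V` with a group of field automorphisms, no Galois theory.

Used for: `G = Gal(ℚ̄/K)` acting on `ℚ̄` (global, `Middle/H90.lean`), and for open subgroups of the
local Galois groups acting on `PadicAlgCl q`.
-/
import Mathlib

set_option autoImplicit false

namespace Fermat.Agent.S55.Middle.H90Generic

variable {G : Type*} [Group G] {Ω : Type*} [Field Ω] [MulSemiringAction G Ω]

/-- the multiplicative monoid of `V`-fixed elements -/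
def fixSubmonoid (V : Subgroup G) : Submonoid Ω where
  carrier := {z | ∀ s ∈ V, s • z = z}
  one_mem' := fun s _ => smul_one s
  mul_mem' := fun {a b} ha hb s hs => by
    rw [smul_mul', ha s hs, hb s hs]

lemma mem_fixSubmonoid (V : Subgroup G) (z : Ω) :
    z ∈ fixSubmonoid (Ω := Ω) V ↔ ∀ s ∈ V, s • z = z := Iff.rfl

/-- the character `z ↦ g z` on the `V`-fixed elements -/
def chi (V : Subgroup G) (g : G) : ↥(fixSubmonoid (Ω := Ω) V) →* Ω where
  toFun z := g • (z : Ω)
  map_one' := smul_one g
  map_mul' a b := smul_mul' g (a : Ω) (b : Ω)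

@[simp] lemma chi_apply (V : Subgroup G) (g : G) (z : ↥(fixSubmonoid (Ω := Ω) V)) :
    chi V g z = g • (z : Ω) := rfl

/-- on `V`-fixed elements, `g * s` acts as `g` for `s ∈ V` -/
lemma mul_smul_fixed (V : Subgroup G) (g : G) {s : G} (hs : s ∈ V)
    (z : ↥(fixSubmonoid (Ω := Ω) V)) : (g * s) • (z : Ω) = g • (z : Ω) := by
  rw [mul_smul, z.2 s hs]

lemma out_eq_mul (V : Subgroup G) (g : G) :
    ∃ s ∈ V, (QuotientGroup.mk g : G ⧸ V).out = g * s := by
  refine ⟨g⁻¹ * (QuotientGroup.mk g : G ⧸ V).out, ?_, by group⟩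
  exact QuotientGroup.eq.mp (QuotientGroup.out_eq' _).symm

/-- **Hilbert 90 for a closed normal subgroup of finite index.** -/
theorem hilbert90_of_closed (V : Subgroup G) [V.Normal] [Finite (G ⧸ V)]
    (hV : ∀ g : G, g ∉ V → ∃ z : Ω, (∀ s ∈ V, s • z = z) ∧ g • z ≠ z)
    (f : G → Ωˣ) (hcoc : ∀ g h, (f (g * h) : Ω) = f g * g • (f h : Ω))
    (hlev : ∀ g, ∀ s ∈ V, f (g * s) = f g) :
    ∃ β : Ωˣ, (∀ s ∈ V, s • (β : Ω) = β) ∧ ∀ g, (f g : Ω) * β = g • (β : Ω) := by
  classical
  have : Fintype (G ⧸ V) := Fintype.ofFinite _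
  -- the characters attached to the cosets are pairwise distinct
  have hinj : Function.Injective (fun x : G ⧸ V => chi (Ω := Ω) V x.out) := by
    intro x y hxy
    by_contra hne
    have hnot : x.out⁻¹ * y.out ∉ V := by
      intro hmem
      apply hne
      have := (QuotientGroup.eq (s := V)).2 hmem
      rwa [QuotientGroup.out_eq', QuotientGroup.out_eq'] at this
    obtain ⟨z, hz, hzne⟩ := hV _ hnot
    apply hzne
    have h1 : x.out • z = y.out • z := by
      have := DFunLike.congr_fun hxy (⟨z, hz⟩ : ↥(fixSubmonoid (Ω := Ω) V))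
      simpa using this
    rw [mul_smul, ← h1, inv_smul_smul]
  -- Dedekind
  have hli : LinearIndependent Ω
      (fun x : G ⧸ V => (chi (Ω := Ω) V x.out : ↥(fixSubmonoid (Ω := Ω) V) → Ω)) :=
    (linearIndependent_monoidHom ↥(fixSubmonoid (Ω := Ω) V) Ω).comp _ hinj
  have hex : ∃ z : ↥(fixSubmonoid (Ω := Ω) V),
      ∑ x : G ⧸ V, (f x.out : Ω) * x.out • (z : Ω) ≠ 0 := by
    by_contra hcon
    push Not at hcon
    have h0 : ∑ x : G ⧸ V, (f x.out : Ω) •
        (chi (Ω := Ω) V x.out : ↥(fixSubmonoid (Ω := Ω) V) → Ω) = 0 := by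
      funext z
      simp only [Finset.sum_apply, Pi.smul_apply, smul_eq_mul, chi_apply, Pi.zero_apply]
      exact hcon z
    have := (Fintype.linearIndependent_iff.1 hli) (fun x => (f x.out : Ω)) h0 (1 : G ⧸ V)
    exact (f (1 : G ⧸ V).out).ne_zero this
  obtain ⟨z, hb⟩ := hex
  set F : G ⧸ V → Ω := fun y => (f y.out : Ω) * y.out • (z : Ω) with hF
  set b : Ω := ∑ x : G ⧸ V, F x with hbdef
  -- the key identity `f h * h b = b`
  have key : ∀ h : G, (f h : Ω) * h • b = b := by
    intro h
    have step : ∀ x : G ⧸ V, (f h : Ω) * h • F x = F ((QuotientGroup.mk h : G ⧸ V) * x) := by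
      intro x
      obtain ⟨s, hs, hout⟩ := out_eq_mul V (h * x.out)
      have hmk : (QuotientGroup.mk (h * x.out) : G ⧸ V) = (QuotientGroup.mk h : G ⧸ V) * x := by
        rw [QuotientGroup.mk_mul, QuotientGroup.out_eq']
      rw [hmk] at hout
      simp only [hF]
      rw [hout, hlev _ s hs, mul_smul_fixed V _ hs, smul_mul', ← mul_assoc, ← hcoc, mul_smul]
    calc (f h : Ω) * h • b = ∑ x : G ⧸ V, (f h : Ω) * h • F x := by
          rw [hbdef, Finset.smul_sum, Finset.mul_sum]
      _ = ∑ x : G ⧸ V, F ((QuotientGroup.mk h : G ⧸ V) * x) :=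
          Finset.sum_congr rfl fun x _ => step x
      _ = b := by
          rw [hbdef]
          exact Equiv.sum_comp (Equiv.mulLeft (QuotientGroup.mk h : G ⧸ V)) F
  -- `f 1 = 1`
  have hf1 : f 1 = 1 := by
    have h := hcoc 1 1
    rw [mul_one, one_smul] at h
    have h2 : (f 1 : Ω) * 1 = f 1 * f 1 := by rw [mul_one]; exact h
    have h3 := mul_left_cancel₀ (f 1).ne_zero h2
    exact Units.ext h3.symm
  have hfix : ∀ s ∈ V, s • b = b := by
    intro s hs
    have h := key s
    have hfs : f s = 1 := by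
      have := hlev 1 s hs
      rwa [one_mul, hf1] at this
    rwa [hfs, Units.val_one, one_mul] at h
  refine ⟨(Units.mk0 b hb)⁻¹, ?_, ?_⟩
  · intro s hs
    rw [Units.val_inv_eq_inv_val, Units.val_mk0, smul_inv'', hfix s hs]
  · intro g
    rw [Units.val_inv_eq_inv_val, Units.val_mk0, smul_inv'']
    have hgb : g • b ≠ 0 := by
      intro h0
      have := key g
      rw [h0, mul_zero] at this
      exact hb this.symm
    field_simp
    exact key g

end Fermat.Agent.S55.Middle.H90Generic
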