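/-
S55 / MIDDLE block, row M.h90 (helper94): HILBERT 90 FOR LEVEL-CONSTANT COHOMOLOGY, i.e. the first
half of (C1) of the Middle plan:  `H¹_LC(U; ℚ_Sˣ) = 0`.

* `lc_hilbert90` : GENERIC form.  `G'` a group with basis `𝒰'`, `ι : G' →* GQ`, `M : Rep ℤ G'` with an
  injective additive-to-multiplicative equivariant map `u : M → ℚ̄ˣ`, such that cofinally many basic
  subgroups are of the form `ι ⁻¹ Gal(ℚ̄/F)` and every unit fixed by such a subgroup lies in `u(M)`.
  Then every LC `1`-cocycle of `M` is an LC coboundary.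
* `h90_KS`  : the instance `M = Rep.res H.subtype (Defs.KS S)` over an open subgroup `H ≤ GQ` with
  the basis `Defs.NBasis.sub (globalBasis S) H`.
* `h90_Kx`  : the same for `Units.Kx S` (helper24's model of `ℚ_Sˣ`).
-/
import Fermat.Agent.S55.Middle.H90Generic
import Fermat.Agent.S55.Middle.Defs
import Fermat.Agent.S55.Formal.PreludeLC

set_option autoImplicit false

open CategoryTheory groupCohomology

namespace Fermat.Agent.S55.Middle.H90

open Fermat.Agent.S55.Formal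

local notation "Qbar" => AlgebraicClosure ℚ
local notation "GQ" => (AlgebraicClosure ℚ ≃ₐ[ℚ] AlgebraicClosure ℚ)

local instance isAlgebraicQbar_h90 : Algebra.IsAlgebraic ℚ (AlgebraicClosure ℚ) :=
  AlgebraicClosure.isAlgebraic ℚ
local instance isAlgClosureQbar_h90 : IsAlgClosure ℚ (AlgebraicClosure ℚ) :=
  ⟨inferInstance, inferInstance⟩
local instance normalQbar_h90 : Normal ℚ (AlgebraicClosure ℚ) :=
  IsAlgClosure.normal ℚ (AlgebraicClosure ℚ)
local instance isGaloisQbar_h90 : IsGalois ℚ (AlgebraicClosure ℚ) := ⟨⟩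

section generic

variable {G' : Type} [Group G'] (𝒰' : NBasis G') (ι : G' →* GQ) (M : Rep.{0, 0, 0} ℤ G')

/-- **Hilbert 90 for LC cohomology, generic form.** -/
theorem lc_hilbert90 (u : M → Qbarˣ) (hu_add : ∀ a b : M, u (a + b) = u a * u b)
    (hu_inj : Function.Injective u)
    (hu_equiv : ∀ (g : G') (a : M), ((u (M.ρ g a) : Qbarˣ) : Qbar) = ι g ((u a : Qbarˣ) : Qbar))
    (hbasis : ∀ V, 𝒰'.mem V → ∃ (V' : Subgroup G') (F : IntermediateField ℚ Qbar),
      𝒰'.mem V' ∧ V' ≤ V ∧ V' = F.fixingSubgroup.comap ι ∧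
        ∀ β : Qbarˣ, (∀ s ∈ V', ι s (β : Qbar) = β) → ∃ m : M, u m = β)
    (f : ↥(C₁ 𝒰' M)) (hf : dC₁ 𝒰' M f = 0) : ∃ m : ↥(C₀ 𝒰' M), dC₀ 𝒰' M m = f := by
  obtain ⟨f, V, hV, hlev⟩ := f
  obtain ⟨V', F, hV', hle, hVF, hsat⟩ := hbasis V hV
  haveI : V'.Normal := 𝒰'.normal hV'
  haveI : V'.FiniteIndex := 𝒰'.finiteIndex hV'
  haveI : Finite (G' ⧸ V') := Subgroup.finite_quotient_of_finiteIndex
  let _ : MulSemiringAction G' Qbar := MulSemiringAction.compHom Qbar ι
  have hsmul : ∀ (g : G') (z : Qbar), g • z = ι g z := fun _ _ => rfl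
  have hu_zero : u 0 = 1 := by
    have h := hu_add 0 0
    rw [add_zero] at h
    have h2 : u 0 * 1 = u 0 * u 0 := by rw [mul_one]; exact h
    exact (mul_left_cancel h2).symm
  have hu_neg : ∀ a : M, u (-a) = (u a)⁻¹ := by
    intro a
    have h := hu_add a (-a)
    rw [add_neg_cancel, hu_zero] at h
    exact eq_inv_of_mul_eq_one_right h.symm
  have hu_sub : ∀ a b : M, u (a - b) = u a / u b := by
    intro a b
    rw [sub_eq_add_neg, hu_add, hu_neg, div_eq_mul_inv]
  -- the cocycle identity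
  have hf' : (d₁₂ M).hom f = 0 := congrArg Subtype.val hf
  have hcoc : ∀ g h : G', M.ρ g (f h) - f (g * h) + f g = 0 := by
    intro g h
    have := congrFun hf' (g, h)
    rw [d₁₂_hom_apply] at this
    exact this
  have hcoc' : ∀ g h : G', f (g * h) = f g + M.ρ g (f h) := by
    intro g h
    have := hcoc g h
    have h2 : f (g * h) = M.ρ g (f h) + f g := by
      rw [sub_add_eq_add_sub, sub_eq_zero] at this
      exact this.symm
    rw [h2, add_comm]
  -- apply the generic Hilbert 90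
  have hclosed : ∀ g : G', g ∉ V' → ∃ z : Qbar, (∀ s ∈ V', s • z = z) ∧ g • z ≠ z := by
    intro g hg
    rw [hVF, Subgroup.mem_comap, IntermediateField.mem_fixingSubgroup_iff] at hg
    push Not at hg
    obtain ⟨z, hzF, hz⟩ := hg
    refine ⟨z, fun s hs => ?_, hz⟩
    rw [hVF, Subgroup.mem_comap, IntermediateField.mem_fixingSubgroup_iff] at hs
    exact hs z hzF
  obtain ⟨β, hβfix, hβ⟩ := H90Generic.hilbert90_of_closed (G := G') (Ω := Qbar) V' hclosed
    (fun g => u (f g))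
    (fun g h => by
      rw [hcoc' g h, hu_add, Units.val_mul, hsmul, hu_equiv])
    (fun g s hs => by rw [(hlev s (hle hs) g).1])
  obtain ⟨m, hm⟩ := hsat β (fun s hs => hβfix s hs)
  have hmfix : ∀ s ∈ V', M.ρ s m = m := by
    intro s hs
    apply hu_inj
    apply Units.ext
    rw [hu_equiv, hm]
    exact hβfix s hs
  refine ⟨⟨m, V', hV', hmfix⟩, ?_⟩
  apply Subtype.ext
  rw [dC₀_coe]
  funext g
  show (d₀₁ M).hom m g = f g
  rw [d₀₁_hom_apply]
  apply hu_inj
  apply Units.ext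
  rw [hu_sub, Units.val_div_eq_div_val, hu_equiv, hm]
  have h1 := hβ g
  rw [hsmul] at h1
  rw [← h1]
  field_simp

end generic

/-! ### the instance `ℚ_Sˣ` over an open subgroup -/

section KS

variable (S : Finset Nat.Primes)

/-- an element of `ℚ̄ˣ` fixed by `Gal(ℚ̄/F)` lies in `F` -/
lemma mem_of_fixed (F : IntermediateField ℚ Qbar) (β : Qbar)
    (h : ∀ s ∈ F.fixingSubgroup, s β = β) : β ∈ F := by
  rw [← InfiniteGalois.fixedField_fixingSubgroup F, IntermediateField.mem_fixedField_iff]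
  exact h

/-- the cofinal family of levels of the restricted basis -/
lemma exists_level (H : Subgroup GQ) (hH : Defs.IsOpenSub (PreludeLC.globalBasis S) H)
    (V : Subgroup ↥H) (hV : (Defs.NBasis.sub (PreludeLC.globalBasis S) H).mem V) :
    ∃ (V' : Subgroup ↥H) (F : IntermediateField ℚ Qbar),
      (Defs.NBasis.sub (PreludeLC.globalBasis S) H).mem V' ∧ V' ≤ V ∧
      V' = F.fixingSubgroup.comap H.subtype ∧ F.IsUnramifiedOutside S ∧ F.fixingSubgroup ≤ H := by
  rcases hV with rfl | ⟨W, hW, hWH, rfl⟩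
  · obtain ⟨W0, hW0, hW0H⟩ := hH
    obtain ⟨F, hF, hn, rfl⟩ := hW0
    exact ⟨F.fixingSubgroup.subgroupOf H, F, Or.inr ⟨_, ⟨F, hF, hn, rfl⟩, hW0H, rfl⟩, le_top, rfl,
      hF, hW0H⟩
  · obtain ⟨F, hF, hn, rfl⟩ := hW
    exact ⟨F.fixingSubgroup.subgroupOf H, F, Or.inr ⟨_, ⟨F, hF, hn, rfl⟩, hWH, rfl⟩, le_rfl, rfl,
      hF, hWH⟩

/-- **Hilbert 90**: `H¹_LC(H; ℚ_Sˣ) = 0` for every open subgroup `H ≤ GQ` (model `Defs.KS`). -/
theorem h90_KS (H : Subgroup GQ) (hH : Defs.IsOpenSub (PreludeLC.globalBasis S) H)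
    (f : ↥(C₁ (Defs.NBasis.sub (PreludeLC.globalBasis S) H) (Rep.res H.subtype (Defs.KS S))))
    (hf : dC₁ (Defs.NBasis.sub (PreludeLC.globalBasis S) H) (Rep.res H.subtype (Defs.KS S)) f = 0) :
    ∃ m : ↥(C₀ (Defs.NBasis.sub (PreludeLC.globalBasis S) H) (Rep.res H.subtype (Defs.KS S))),
      dC₀ (Defs.NBasis.sub (PreludeLC.globalBasis S) H) (Rep.res H.subtype (Defs.KS S)) m = f := by
  refine lc_hilbert90 (Defs.NBasis.sub (PreludeLC.globalBasis S) H) H.subtype
    (Rep.res H.subtype (Defs.KS S))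
    (fun a => Defs.toUnit (Subtype.val (show ↥(Defs.toSub (Defs.qsSubgroup S)) from a)))
    (fun a b => rfl) (fun a b h => Subtype.ext h) (fun g a => rfl) ?_ f hf
  intro V hV
  obtain ⟨V', F, hV', hle, hVF, hF, hFH⟩ := exists_level S H hH V hV
  refine ⟨V', F, hV', hle, hVF, fun β hβ => ?_⟩
  have hβF : (β : Qbar) ∈ F := by
    apply mem_of_fixed F
    intro s hs
    have hs' : (⟨s, hFH hs⟩ : ↥H) ∈ V' := by
      rw [hVF]
      exact hs
    exact hβ _ hs'
  exact ⟨⟨Additive.ofMul β, ⟨F, hF, hβF⟩⟩, rfl⟩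

end KS

end Fermat.Agent.S55.Middle.H90
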