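/-
S55 / MIDDLE block (helper17): the closed Prop `Blocks.H90Kx` (C1), literally:
`H¹_LC(P; ℚ_Sˣ) = 0` over `basisP S P = subBasis (globalBasis S) P`, from helper94's `H90.h90_KS`
(over `Defs.NBasis.sub`) and the change of basis `BasisChange.vanish₁_of_refines`.
-/
import Fermat.Agent.S55.Middle.Blocks
import Fermat.Agent.S55.Middle.BasisChange
import Fermat.Agent.S55.Middle.H90

set_option autoImplicit false

open CategoryTheory groupCohomology

namespace Fermat.Agent.S55.Middle.BlocksC1

open Fermat.Agent.S55.Formal
open Fermat.Agent.S55.Formal.PreludeLC hiding GQ Qbar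
open Fermat.Agent.S55.Middle.Defs Fermat.Agent.S55.Middle.KSite

variable (S : Finset Nat.Primes)

/-- `IsOpenS` (KSite) and `Defs.IsOpenSub` agree by definition. -/
theorem isOpenSub_of_isOpenS {P : Subgroup GQ} (hP : IsOpenS S P) :
    Defs.IsOpenSub (globalBasis S) P := hP

/-- **(C1)** `Blocks.H90Kx`, literally. -/
theorem h90Kx : Blocks.H90Kx S := by
  intro P hP
  exact BasisChange.vanish₁_of_refines (resP P (KS S))
    (BasisChange.sub_refines_subBasis (globalBasis S) P)
    (BasisChange.subBasis_refines_sub (globalBasis S) P (isOpenSub_of_isOpenS S hP))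
    (H90.h90_KS S P (isOpenSub_of_isOpenS S hP))

end Fermat.Agent.S55.Middle.BlocksC1
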