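/-
S55 / Middle / M.lesGlue, basis-generic version (helper24).  Same content as `Middle/LESGlue.lean`,
but for an ARBITRARY basis `𝒱 : NBasis ↥H` of a subgroup `H ≤ GQ` such that the inclusion is
continuous (`hc : IsCont (globalBasis S) 𝒱 H.subtype`).  Instances:

* `𝒱 = Bridge.ShapiroLC.subBasis (globalBasis S) H` (the canonical basis of `Middle/Blocks`,
  decision (2) of report 1807), `hc = isCont_subBasis S H` (any subgroup `H`, no openness needed);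
* `𝒱 = Defs.NBasis.sub (globalBasis S) H`, `hc = UnitsLES.isCont_subtype _ hH` (open `H`).

The two LC long exact sequences (Div) `0 → O → Kx → Prin → 0` and (Kum) `0 → μ_p → O -p→ O → 0` over
`(↥H, 𝒱)` as `AddMonoidHom`s with exactness in the literal shapes of the abstract skeletons
`Middle/Hasse.lean`, `Middle/Image.lean`, `Middle/H3.lean`.
-/
import Mathlib
import Fermat.Agent.S55.Middle.LESGlue
import Fermat.Agent.S55.Bridge.ShapiroLC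

set_option autoImplicit false
set_option linter.unusedSectionVars false

open CategoryTheory ExtCitation

namespace Fermat.Agent.S55.Middle.LESGlueV

open Fermat.Agent.S55.Formal Fermat.Agent.S55.Formal.SmoothLift Fermat.Agent.S55.Formal.PreludeLC
open Fermat.Agent.S55.Formal.CoefExactSmooth
open Fermat.Agent.S55.Middle Fermat.Agent.S55.Middle.UnitsLES
open Fermat.Agent.S55.Middle.LESGlue (h0_nsmul h1_nsmul h2_nsmul h3_nsmul h1_id h2_id h3_id nsmul_muP)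

noncomputable section

/-! ### the objects over a subgroup `H ≤ GQ` with a basis `𝒱` -/

variable (S : Finset Nat.Primes) (H : Subgroup Defs.GQ) (𝒱 : NBasis ↥H)

/-- `μ_p` over `H` -/
abbrev muH (p : ℕ) : Rep.{0, 0, 0} ℤ ↥H := Rep.res H.subtype (Defs.muP p)
/-- the `S`-units of `ℚ_S` over `H` -/
abbrev oH : Rep.{0, 0, 0} ℤ ↥H := Rep.res H.subtype (Defs.OS S)
/-- `ℚ_Sˣ` over `H` -/
abbrev kH : Rep.{0, 0, 0} ℤ ↥H := Rep.res H.subtype (Defs.KS S)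
/-- `ℚ_Sˣ / O` over `H` -/
abbrev prH : Rep.{0, 0, 0} ℤ ↥H := Rep.res H.subtype (Defs.PrinS S)

/-- `O → Kx` over `H` -/
abbrev φi : oH S H ⟶ kH S H := (Rep.resFunctor H.subtype).map (Defs.osToKS S)
/-- `Kx → Prin` over `H` -/
abbrev φπ : kH S H ⟶ prH S H := (Rep.resFunctor H.subtype).map (Defs.ksToPrin S)
/-- `μ_p → O` over `H` -/
abbrev φj (p : ℕ) [Fact p.Prime] (hpS : pPrime p ∈ S) : muH H p ⟶ oH S H :=
  (Rep.resFunctor H.subtype).map (muToOS S p hpS)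
/-- `p : O → O` over `H` -/
abbrev φp (n : ℕ) : oH S H ⟶ oH S H := (Rep.resFunctor H.subtype).map (powOS S n)

/-! ### (Div): the maps -/

section DivMaps

/-- `H⁰(O) → H⁰(Kx)` -/
def i₀ : ↥(H0 𝒱 (oH S H)) →+ ↥(H0 𝒱 (kH S H)) :=
  (Mor.ofHom 𝒱 (φi S H)).h0.toAddMonoidHom
/-- `H¹(O) → H¹(Kx)` -/
def i₁ : H1 𝒱 (oH S H) →+ H1 𝒱 (kH S H) :=
  (Mor.ofHom 𝒱 (φi S H)).h1.toAddMonoidHom
/-- `H²(O) → H²(Kx)` -/
def i₂ : H2 𝒱 (oH S H) →+ H2 𝒱 (kH S H) :=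
  (Mor.ofHom 𝒱 (φi S H)).h2.toAddMonoidHom
/-- `H³(O) → H³(Kx)` -/
def i₃ : H3 𝒱 (oH S H) →+ H3 𝒱 (kH S H) :=
  (Mor.ofHom 𝒱 (φi S H)).h3.toAddMonoidHom

/-- `H⁰(Kx) → H⁰(Prin)` -/
def π₀ : ↥(H0 𝒱 (kH S H)) →+ ↥(H0 𝒱 (prH S H)) :=
  (Mor.ofHom 𝒱 (φπ S H)).h0.toAddMonoidHom
/-- `H¹(Kx) → H¹(Prin)` -/
def π₁ : H1 𝒱 (kH S H) →+ H1 𝒱 (prH S H) :=
  (Mor.ofHom 𝒱 (φπ S H)).h1.toAddMonoidHom
/-- `H²(Kx) → H²(Prin)` -/
def π₂ : H2 𝒱 (kH S H) →+ H2 𝒱 (prH S H) :=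
  (Mor.ofHom 𝒱 (φπ S H)).h2.toAddMonoidHom
/-- `H³(Kx) → H³(Prin)` -/
def π₃ : H3 𝒱 (kH S H) →+ H3 𝒱 (prH S H) :=
  (Mor.ofHom 𝒱 (φπ S H)).h3.toAddMonoidHom

variable {S H 𝒱}
variable (hc : IsCont (globalBasis S) 𝒱 H.subtype)

/-- connecting map `H⁰(Prin) → H¹(O)` -/
def d₀ : ↥(H0 𝒱 (prH S H)) →+ H1 𝒱 (oH S H) :=
  (δ₀ (SES.res H.subtype hc (divSES S))).toAddMonoidHom
/-- connecting map `H¹(Prin) → H²(O)` -/
def d₁ : H1 𝒱 (prH S H) →+ H2 𝒱 (oH S H) :=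
  (δ₁ (SES.res H.subtype hc (divSES S))).toAddMonoidHom
/-- connecting map `H²(Prin) → H³(O)` -/
def d₂ : H2 𝒱 (prH S H) →+ H3 𝒱 (oH S H) :=
  (δ₂ (SES.res H.subtype hc (divSES S))).toAddMonoidHom

end DivMaps

/-! ### (Div): exactness -/

section DivExact

variable {S H 𝒱}
variable (hc : IsCont (globalBasis S) 𝒱 H.subtype)
include hc

theorem i₀_injective : Function.Injective (i₀ S H 𝒱) := h0_injective (SES.res H.subtype hc (divSES S))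

theorem π₀_i₀ (x : ↥(H0 𝒱 (oH S H))) : π₀ S H 𝒱 (i₀ S H 𝒱 x) = 0 :=
  (exact_h0_h0 (SES.res H.subtype hc (divSES S)) _).2 ⟨x, rfl⟩
theorem exists_i₀_of_π₀ (z : ↥(H0 𝒱 (kH S H))) (hz : π₀ S H 𝒱 z = 0) :
    ∃ x, i₀ S H 𝒱 x = z := (exact_h0_h0 (SES.res H.subtype hc (divSES S)) z).1 hz

theorem d₀_π₀ (z : ↥(H0 𝒱 (kH S H))) : d₀ hc (π₀ S H 𝒱 z) = 0 :=
  (exact_h0_δ₀ (SES.res H.subtype hc (divSES S)) _).2 ⟨z, rfl⟩
theorem exists_π₀_of_d₀ (e : ↥(H0 𝒱 (prH S H))) (he : d₀ hc e = 0) :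
    ∃ z, π₀ S H 𝒱 z = e := (exact_h0_δ₀ (SES.res H.subtype hc (divSES S)) e).1 he

theorem i₁_d₀ (e : ↥(H0 𝒱 (prH S H))) : i₁ S H 𝒱 (d₀ hc e) = 0 :=
  (exact_δ₀_h1 (SES.res H.subtype hc (divSES S)) _).2 ⟨e, rfl⟩
theorem exists_d₀_of_i₁ (x : H1 𝒱 (oH S H)) (hx : i₁ S H 𝒱 x = 0) :
    ∃ e, d₀ hc e = x := (exact_δ₀_h1 (SES.res H.subtype hc (divSES S)) x).1 hx

theorem π₁_i₁ (x : H1 𝒱 (oH S H)) : π₁ S H 𝒱 (i₁ S H 𝒱 x) = 0 :=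
  (exact_h1_h1 (SES.res H.subtype hc (divSES S)) _).2 ⟨x, rfl⟩
theorem exists_i₁_of_π₁ (z : H1 𝒱 (kH S H)) (hz : π₁ S H 𝒱 z = 0) :
    ∃ x, i₁ S H 𝒱 x = z := (exact_h1_h1 (SES.res H.subtype hc (divSES S)) z).1 hz

theorem d₁_π₁ (z : H1 𝒱 (kH S H)) : d₁ hc (π₁ S H 𝒱 z) = 0 :=
  (exact_h1_δ₁ (SES.res H.subtype hc (divSES S)) _).2 ⟨z, rfl⟩
theorem exists_π₁_of_d₁ (e : H1 𝒱 (prH S H)) (he : d₁ hc e = 0) :
    ∃ z, π₁ S H 𝒱 z = e := (exact_h1_δ₁ (SES.res H.subtype hc (divSES S)) e).1 he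

/-- `hid` of the skeletons -/
theorem i₂_d₁ (e : H1 𝒱 (prH S H)) : i₂ S H 𝒱 (d₁ hc e) = 0 :=
  (exact_δ₁_h2 (SES.res H.subtype hc (divSES S)) _).2 ⟨e, rfl⟩
/-- `hex` of the skeletons: exactness of (Div) at `H²(O)` -/
theorem exists_d₁_of_i₂ (x : H2 𝒱 (oH S H)) (hx : i₂ S H 𝒱 x = 0) :
    ∃ e, d₁ hc e = x := (exact_δ₁_h2 (SES.res H.subtype hc (divSES S)) x).1 hx

theorem π₂_i₂ (x : H2 𝒱 (oH S H)) : π₂ S H 𝒱 (i₂ S H 𝒱 x) = 0 :=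
  (exact_h2_h2 (SES.res H.subtype hc (divSES S)) _).2 ⟨x, rfl⟩
/-- `hexK` of the skeletons: exactness of (Div) at `H²(Kx)` -/
theorem exists_i₂_of_π₂ (z : H2 𝒱 (kH S H)) (hz : π₂ S H 𝒱 z = 0) :
    ∃ x, i₂ S H 𝒱 x = z := (exact_h2_h2 (SES.res H.subtype hc (divSES S)) z).1 hz

/-- `hdπ` of the skeletons -/
theorem d₂_π₂ (z : H2 𝒱 (kH S H)) : d₂ hc (π₂ S H 𝒱 z) = 0 :=
  (exact_h2_δ₂ (SES.res H.subtype hc (divSES S)) _).2 ⟨z, rfl⟩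
theorem exists_π₂_of_d₂ (e : H2 𝒱 (prH S H)) (he : d₂ hc e = 0) :
    ∃ z, π₂ S H 𝒱 z = e := (exact_h2_δ₂ (SES.res H.subtype hc (divSES S)) e).1 he

theorem i₃_d₂ (e : H2 𝒱 (prH S H)) : i₃ S H 𝒱 (d₂ hc e) = 0 :=
  (exact_δ₂_h3 (SES.res H.subtype hc (divSES S)) _).2 ⟨e, rfl⟩
/-- `hex3` of the skeletons: exactness of (Div) at `H³(O)` -/
theorem exists_d₂_of_i₃ (y : H3 𝒱 (oH S H)) (hy : i₃ S H 𝒱 y = 0) :
    ∃ e, d₂ hc e = y := (exact_δ₂_h3 (SES.res H.subtype hc (divSES S)) y).1 hy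

theorem π₃_i₃ (y : H3 𝒱 (oH S H)) : π₃ S H 𝒱 (i₃ S H 𝒱 y) = 0 :=
  (exact_h3_h3 (SES.res H.subtype hc (divSES S)) _).2 ⟨y, rfl⟩
theorem exists_i₃_of_π₃ (z : H3 𝒱 (kH S H)) (hz : π₃ S H 𝒱 z = 0) :
    ∃ y, i₃ S H 𝒱 y = z := (exact_h3_h3 (SES.res H.subtype hc (divSES S)) z).1 hz

/-- `d₀` is onto as soon as `H¹(Kx) = 0` (Hilbert 90) -/
theorem d₀_surjective (h90 : ∀ z : H1 𝒱 (kH S H), z = 0) :
    Function.Surjective (d₀ hc) := fun x =>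
  exists_d₀_of_i₁ hc x (h90 _)

/-- `d₁` is injective as soon as `H¹(Kx) = 0` (Hilbert 90): `hd` of the skeletons -/
theorem d₁_injective (h90 : ∀ z : H1 𝒱 (kH S H), z = 0) :
    Function.Injective (d₁ hc) := by
  rw [injective_iff_map_eq_zero]
  intro e he
  obtain ⟨z, rfl⟩ := exists_π₁_of_d₁ hc e he
  rw [h90 z, map_zero]

end DivExact


/-! ### (Kum): the maps -/

section KumMaps

variable (p : ℕ) [Fact p.Prime] (hpS : pPrime p ∈ S)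

/-- `H⁰(μ_p) → H⁰(O)` -/
def j₀ : ↥(H0 𝒱 (muH H p)) →+ ↥(H0 𝒱 (oH S H)) :=
  (Mor.ofHom 𝒱 (φj S H p hpS)).h0.toAddMonoidHom
/-- `H¹(μ_p) → H¹(O)` -/
def j₁ : H1 𝒱 (muH H p) →+ H1 𝒱 (oH S H) :=
  (Mor.ofHom 𝒱 (φj S H p hpS)).h1.toAddMonoidHom
/-- `H²(μ_p) → H²(O)` -/
def j₂ : H2 𝒱 (muH H p) →+ H2 𝒱 (oH S H) :=
  (Mor.ofHom 𝒱 (φj S H p hpS)).h2.toAddMonoidHom
/-- `H³(μ_p) → H³(O)` -/
def j₃ : H3 𝒱 (muH H p) →+ H3 𝒱 (oH S H) :=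
  (Mor.ofHom 𝒱 (φj S H p hpS)).h3.toAddMonoidHom

variable {S H 𝒱}
variable (hc : IsCont (globalBasis S) 𝒱 H.subtype)

/-- Kummer connecting map `H⁰(O) → H¹(μ_p)` -/
def k₀ : ↥(H0 𝒱 (oH S H)) →+ H1 𝒱 (muH H p) :=
  (δ₀ (SES.res H.subtype hc (kummerSES S p hpS))).toAddMonoidHom
/-- Kummer connecting map `H¹(O) → H²(μ_p)` -/
def k₁ : H1 𝒱 (oH S H) →+ H2 𝒱 (muH H p) :=
  (δ₁ (SES.res H.subtype hc (kummerSES S p hpS))).toAddMonoidHom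
/-- Kummer connecting map `H²(O) → H³(μ_p)` -/
def k₂ : H2 𝒱 (oH S H) →+ H3 𝒱 (muH H p) :=
  (δ₂ (SES.res H.subtype hc (kummerSES S p hpS))).toAddMonoidHom

end KumMaps

/-! ### the `p`-th power map induces multiplication by `p` -/

section Pow

lemma φp_hom_apply (n : ℕ) (a : oH S H) : (φp S H n).hom a = n • (𝟙 (oH S H) : oH S H ⟶ oH S H).hom a := by
  change ((n : ℤ) • (a : Defs.OS S)) = n • a
  rw [natCast_zsmul]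

theorem pow_h0 (n : ℕ) (x : ↥(H0 𝒱 (oH S H))) :
    (Mor.ofHom 𝒱 (φp S H n)).h0 x = n • x := by
  rw [h0_nsmul 𝒱 (𝟙 _) (φp S H n) n (φp_hom_apply S H n)]
  rfl

theorem pow_h1 (n : ℕ) (x : H1 𝒱 (oH S H)) :
    (Mor.ofHom 𝒱 (φp S H n)).h1 x = n • x := by
  rw [h1_nsmul 𝒱 (𝟙 _) (φp S H n) n (φp_hom_apply S H n), h1_id]

theorem pow_h2 (n : ℕ) (x : H2 𝒱 (oH S H)) :
    (Mor.ofHom 𝒱 (φp S H n)).h2 x = n • x := by
  rw [h2_nsmul 𝒱 (𝟙 _) (φp S H n) n (φp_hom_apply S H n), h2_id]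

theorem pow_h3 (n : ℕ) (x : H3 𝒱 (oH S H)) :
    (Mor.ofHom 𝒱 (φp S H n)).h3 x = n • x := by
  rw [h3_nsmul 𝒱 (𝟙 _) (φp S H n) n (φp_hom_apply S H n), h3_id]

lemma id_muH_apply (p : ℕ) (a : muH H p) :
    (𝟙 (muH H p) : muH H p ⟶ muH H p).hom a = (p + 1) • (𝟙 (muH H p) : muH H p ⟶ muH H p).hom a := by
  change a = (p + 1) • a
  rw [add_smul, one_smul]
  have : p • a = 0 := nsmul_muP p a
  rw [this, zero_add]

/-- `hmu`: `H¹(μ_p)` is killed by `p` -/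
theorem nsmul_H1_mu (p : ℕ) (y : H1 𝒱 (muH H p)) : p • y = 0 := by
  have h := h1_nsmul 𝒱 (𝟙 _) (𝟙 _) (p + 1) (id_muH_apply H p) y
  rw [h1_id, add_smul, one_smul] at h
  exact (add_eq_right.1 h.symm)

/-- `hmu`: `H²(μ_p)` is killed by `p` -/
theorem nsmul_H2_mu (p : ℕ) (y : H2 𝒱 (muH H p)) : p • y = 0 := by
  have h := h2_nsmul 𝒱 (𝟙 _) (𝟙 _) (p + 1) (id_muH_apply H p) y
  rw [h2_id, add_smul, one_smul] at h
  exact (add_eq_right.1 h.symm)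

/-- `hmu`: `H³(μ_p)` is killed by `p` -/
theorem nsmul_H3_mu (p : ℕ) (y : H3 𝒱 (muH H p)) : p • y = 0 := by
  have h := h3_nsmul 𝒱 (𝟙 _) (𝟙 _) (p + 1) (id_muH_apply H p) y
  rw [h3_id, add_smul, one_smul] at h
  exact (add_eq_right.1 h.symm)

end Pow

/-! ### (Kum): exactness -/

section KumExact

variable {S H 𝒱}
variable (p : ℕ) [Fact p.Prime] (hpS : pPrime p ∈ S) (hc : IsCont (globalBasis S) 𝒱 H.subtype)
include hc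

theorem j₀_injective : Function.Injective (j₀ S H 𝒱 p hpS) := h0_injective (SES.res H.subtype hc (kummerSES S p hpS))

theorem nsmul_j₀ (y : ↥(H0 𝒱 (muH H p))) : p • j₀ S H 𝒱 p hpS y = 0 := by
  rw [← pow_h0]
  exact (exact_h0_h0 (SES.res H.subtype hc (kummerSES S p hpS)) _).2 ⟨y, rfl⟩
theorem exists_j₀_of_nsmul (x : ↥(H0 𝒱 (oH S H))) (hx : p • x = 0) :
    ∃ y, j₀ S H 𝒱 p hpS y = x := by
  rw [← pow_h0] at hx
  exact (exact_h0_h0 (SES.res H.subtype hc (kummerSES S p hpS)) x).1 hx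

theorem k₀_nsmul (x : ↥(H0 𝒱 (oH S H))) : k₀ p hpS hc (p • x) = 0 := by
  rw [← pow_h0]
  exact (exact_h0_δ₀ (SES.res H.subtype hc (kummerSES S p hpS)) _).2 ⟨x, rfl⟩
theorem exists_nsmul_of_k₀ (x : ↥(H0 𝒱 (oH S H))) (hx : k₀ p hpS hc x = 0) :
    ∃ x', p • x' = x := by
  obtain ⟨x', hx'⟩ := (exact_h0_δ₀ (SES.res H.subtype hc (kummerSES S p hpS)) x).1 hx
  exact ⟨x', by rw [← pow_h0]; exact hx'⟩

theorem j₁_k₀ (x : ↥(H0 𝒱 (oH S H))) : j₁ S H 𝒱 p hpS (k₀ p hpS hc x) = 0 :=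
  (exact_δ₀_h1 (SES.res H.subtype hc (kummerSES S p hpS)) _).2 ⟨x, rfl⟩
theorem exists_k₀_of_j₁ (y : H1 𝒱 (muH H p)) (hy : j₁ S H 𝒱 p hpS y = 0) :
    ∃ x, k₀ p hpS hc x = y := (exact_δ₀_h1 (SES.res H.subtype hc (kummerSES S p hpS)) y).1 hy

theorem nsmul_j₁ (y : H1 𝒱 (muH H p)) : p • j₁ S H 𝒱 p hpS y = 0 := by
  rw [← pow_h1]
  exact (exact_h1_h1 (SES.res H.subtype hc (kummerSES S p hpS)) _).2 ⟨y, rfl⟩
theorem exists_j₁_of_nsmul (a : H1 𝒱 (oH S H)) (ha : p • a = 0) :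
    ∃ y, j₁ S H 𝒱 p hpS y = a := by
  rw [← pow_h1] at ha
  exact (exact_h1_h1 (SES.res H.subtype hc (kummerSES S p hpS)) a).1 ha

theorem k₁_nsmul (a : H1 𝒱 (oH S H)) : k₁ p hpS hc (p • a) = 0 := by
  rw [← pow_h1]
  exact (exact_h1_δ₁ (SES.res H.subtype hc (kummerSES S p hpS)) _).2 ⟨a, rfl⟩
theorem exists_nsmul_of_k₁ (a : H1 𝒱 (oH S H)) (ha : k₁ p hpS hc a = 0) :
    ∃ a', p • a' = a := by
  obtain ⟨a', ha'⟩ := (exact_h1_δ₁ (SES.res H.subtype hc (kummerSES S p hpS)) a).1 ha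
  exact ⟨a', by rw [← pow_h1]; exact ha'⟩

theorem j₂_k₁ (a : H1 𝒱 (oH S H)) : j₂ S H 𝒱 p hpS (k₁ p hpS hc a) = 0 :=
  (exact_δ₁_h2 (SES.res H.subtype hc (kummerSES S p hpS)) _).2 ⟨a, rfl⟩
/-- `hkj` of the skeletons: exactness of (Kum) at `H²(μ_p)` -/
theorem exists_k₁_of_j₂ (y : H2 𝒱 (muH H p)) (hy : j₂ S H 𝒱 p hpS y = 0) :
    ∃ a, k₁ p hpS hc a = y := (exact_δ₁_h2 (SES.res H.subtype hc (kummerSES S p hpS)) y).1 hy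

theorem nsmul_j₂ (y : H2 𝒱 (muH H p)) : p • j₂ S H 𝒱 p hpS y = 0 := by
  rw [← pow_h2]
  exact (exact_h2_h2 (SES.res H.subtype hc (kummerSES S p hpS)) _).2 ⟨y, rfl⟩
theorem exists_j₂_of_nsmul (x : H2 𝒱 (oH S H)) (hx : p • x = 0) :
    ∃ y, j₂ S H 𝒱 p hpS y = x := by
  rw [← pow_h2] at hx
  exact (exact_h2_h2 (SES.res H.subtype hc (kummerSES S p hpS)) x).1 hx

/-- `hkp` of the skeletons -/
theorem k₂_nsmul (x : H2 𝒱 (oH S H)) : k₂ p hpS hc (p • x) = 0 := by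
  rw [← pow_h2]
  exact (exact_h2_δ₂ (SES.res H.subtype hc (kummerSES S p hpS)) _).2 ⟨x, rfl⟩
theorem exists_nsmul_of_k₂ (x : H2 𝒱 (oH S H)) (hx : k₂ p hpS hc x = 0) :
    ∃ x', p • x' = x := by
  obtain ⟨x', hx'⟩ := (exact_h2_δ₂ (SES.res H.subtype hc (kummerSES S p hpS)) x).1 hx
  exact ⟨x', by rw [← pow_h2]; exact hx'⟩

theorem j₃_k₂ (x : H2 𝒱 (oH S H)) : j₃ S H 𝒱 p hpS (k₂ p hpS hc x) = 0 :=
  (exact_δ₂_h3 (SES.res H.subtype hc (kummerSES S p hpS)) _).2 ⟨x, rfl⟩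
/-- `hexmu` of the skeletons: exactness of (Kum) at `H³(μ_p)` -/
theorem exists_k₂_of_j₃ (w : H3 𝒱 (muH H p)) (hw : j₃ S H 𝒱 p hpS w = 0) :
    ∃ x, k₂ p hpS hc x = w := (exact_δ₂_h3 (SES.res H.subtype hc (kummerSES S p hpS)) w).1 hw

theorem nsmul_j₃ (w : H3 𝒱 (muH H p)) : p • j₃ S H 𝒱 p hpS w = 0 := by
  rw [← pow_h3]
  exact (exact_h3_h3 (SES.res H.subtype hc (kummerSES S p hpS)) _).2 ⟨w, rfl⟩
theorem exists_j₃_of_nsmul (y : H3 𝒱 (oH S H)) (hy : p • y = 0) :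
    ∃ w, j₃ S H 𝒱 p hpS w = y := by
  rw [← pow_h3] at hy
  exact (exact_h3_h3 (SES.res H.subtype hc (kummerSES S p hpS)) y).1 hy

end KumExact


/-! ### the two standard bases -/

section Instances

open Fermat.Agent.S55.Bridge.ShapiroLC in
/-- the inclusion is continuous for `subBasis` (any subgroup) -/
theorem isCont_subBasis :
    IsCont (globalBasis S) (Fermat.Agent.S55.Bridge.ShapiroLC.subBasis (globalBasis S) H)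
      H.subtype :=
  fun N hN => ⟨N.subgroupOf H, ⟨N, hN, rfl⟩, fun _ hs => hs⟩

variable {S H} in
/-- the inclusion is continuous for `Defs.NBasis.sub` (open subgroup) -/
theorem isCont_sub (hH : Defs.IsOpenSub (globalBasis S) H) :
    IsCont (globalBasis S) (Defs.NBasis.sub (globalBasis S) H) H.subtype :=
  isCont_subtype _ hH

end Instances

end

end Fermat.Agent.S55.Middle.LESGlueV
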