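/-
S55 / Middle (helper64): the closed Prop `Blocks.PrinTorsion p S` ((C2), first half) PROVED, for
`p ∈ S`: `H¹_LC(P; Prin_S)` has no `p`-torsion and is `p`-divisible, for every open `P ≤ G_ℚ`
(basis `KSite.basisP S P = subBasis (globalBasis S) P`).  Also the `H²` statement of (C2) in the
same language.
-/
import Fermat.Agent.S55.Middle.Blocks
import Fermat.Agent.S55.Middle.CapTorsion

set_option autoImplicit false

open CategoryTheory ExtCitation

namespace Fermat.Agent.S55.Middle.PrinTorsionProof

open Fermat.Agent.S55.Formal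
open Fermat.Agent.S55.Middle.Defs Fermat.Agent.S55.Middle.KSite
open Fermat.Agent.S55.Middle.CapDiv Fermat.Agent.S55.Middle.CapTorsion

variable (p : ℕ) [Fact p.Prime] (S : Finset Nat.Primes)

/-- **(C2)**: `Blocks.PrinTorsion p S` holds for `p ∈ S`. -/
theorem prinTorsion (hpS : pPrime p ∈ S) : Blocks.PrinTorsion p S := fun P hP =>
  ⟨fun y j hy =>
      h1_prin_no_p_torsion (isCont_subBasis S P) (finiteIndex_of_isOpenSub S hP) p hpS hP
        (hcoarse_subBasis S P) y j hy,
    fun y =>
      h1_prin_p_divisible (isCont_subBasis S P) (finiteIndex_of_isOpenSub S hP) p hpS hP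
        (hcoarse_subBasis S P) y⟩

/-- the divisor map on `Prin_S` over the `K`-site basis -/
noncomputable abbrev prinDivP (P : Subgroup GQ) (hP : IsOpenS S P) :
    resP P (PrinS S) ⟶ DivDef.Div (basisP S P) (Xoff S) :=
  prinDiv (isCont_subBasis S P) (finiteIndex_of_isOpenSub S hP)

/-- the divisor map on `ℚ_Sˣ` over the `K`-site basis -/
noncomputable abbrev divMapP (P : Subgroup GQ) (hP : IsOpenS S P) :
    resP P (KS S) ⟶ DivDef.Div (basisP S P) (Xoff S) :=
  divMap (isCont_subBasis S P) (finiteIndex_of_isOpenSub S hP)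

/-- **(C2), degree 2**: a `p`-primary class of `H²_LC(P; Prin_S)` whose residues at all places off
`S` vanish is zero (`p ∈ S`). -/
theorem h2_prin_eq_zero (hpS : pPrime p ∈ S) (P : Subgroup GQ) (hP : IsOpenS S P)
    (e : H2 (basisP S P) (resP P (PrinS S))) (j : ℕ) (hpe : p ^ j • e = 0)
    (hres : ∀ y : Xoff S, (DivDef.resMor (basisP S P) (Xoff S) y).h2
      ((Mor.ofHom (basisP S P) (prinDivP S P hP)).h2 e) = 0) : e = 0 :=
  h2_prin_eq_zero_of_res (isCont_subBasis S P) (finiteIndex_of_isOpenSub S hP) p hpS hP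
    (hcoarse_subBasis S P) e j hpe hres

/-- the divisor map factors through `Prin_S` -/
theorem ksToPrin_prinDivP (P : Subgroup GQ) (hP : IsOpenS S P) :
    (Rep.resFunctor P.subtype).map (ksToPrin S) ≫ prinDivP S P hP = divMapP S P hP := rfl

end Fermat.Agent.S55.Middle.PrinTorsionProof
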