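/-
S55 / MIDDLE block, row HbnColim part (A) (helper94): the LES STEP of the Hasse principle for `O_S`,
literally over the `K`-site basis `KSite.basisP S P = subBasis (globalBasis S) P`.

`Blocks.HasseO p S` follows from `p ∈ S` (⇒ `Blocks.PrinTorsion p S`, helper64, and
`Blocks.H90Kx S`, `BlocksC1.h90Kx`) as soon as one knows

  (HBN)  a `p`-primary class `x ∈ H²_LC(P; O_S)` which is locally trivial at the places of `K`
         above `S` has image `i₂ x = 0` in `H²_LC(P; ℚ_Sˣ)`

(the "passage to finite level + Hasse principle for `H²(Gal(L/K), Lˣ)`" half, row HbnColim (B)).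

* `H1_KS_eq_zero`  : `H¹_LC(P; ℚ_Sˣ) = 0` in the `∀ z, z = 0` form over `basisP`;
* `locKS_i₂`       : `locKS ∘ i₂ = locOS` on `H²` (so `LTSO R x ↔ LTSKx R (i₂ x)`);
* `hasseO_of_i₂`   : (HBN) ⇒ `Blocks.HasseO p S`;
* `hasseO_of_hbnKx`: the same with (HBN) stated for classes `z = i₂ x` of `H²_LC(P; ℚ_Sˣ)`.
-/
import Fermat.Agent.S55.Middle.Blocks
import Fermat.Agent.S55.Middle.BlocksC1
import Fermat.Agent.S55.Middle.PrinTorsionProof
import Fermat.Agent.S55.Middle.LESGlueV

set_option autoImplicit false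
set_option linter.unusedSectionVars false

open CategoryTheory ExtCitation

namespace Fermat.Agent.S55.Middle.HasseOStep

open Fermat.Agent.S55.Formal
open Fermat.Agent.S55.Formal.PreludeLC hiding GQ Qbar
open Fermat.Agent.S55.Middle.Defs Fermat.Agent.S55.Middle.KSite
open Fermat.Agent.S55.Middle.Blocks Fermat.Agent.S55.Middle.LESGlueV

variable (p : ℕ) [Fact p.Prime] (S : Finset Nat.Primes)

/-- **Hilbert 90** over the `K`-site basis, in the `∀ z, z = 0` form. -/
theorem H1_KS_eq_zero {P : Subgroup GQ} (hP : IsOpenS S P)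
    (z : H1 (basisP S P) (kH S P)) : z = 0 := by
  obtain ⟨f, hf, rfl⟩ := Hmid.exists_of z
  rw [Hmid.of_eq_zero_iff]
  obtain ⟨m, hm⟩ := BlocksC1.h90Kx S P hP f hf
  exact ⟨m, hm⟩

/-- localisation of `O_S` factors through localisation of `ℚ_Sˣ`. -/
theorem locOS_eq (P : Subgroup GQ) (q : Nat.Primes) (t : GQ) :
    locOS S P q t = (Mor.ofHom (basisP S P) (φi S P)).comp (locKS S P q t) :=
  Functor.mor_ext rfl rfl

/-- `locKS ∘ i₂ = locOS` on `H²`. -/
theorem locKS_i₂ (P : Subgroup GQ) (q : Nat.Primes) (t : GQ)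
    (x : H2 (basisP S P) (resP P (OS S))) :
    (locKS S P q t).h2 (i₂ S P (basisP S P) x) = (locOS S P q t).h2 x := by
  rw [locOS_eq, Functor.comp_h2]
  rfl

/-- `x` is locally trivial at `S` iff its image in `H²_LC(P; ℚ_Sˣ)` is. -/
theorem ltsKx_i₂_iff {P : Subgroup GQ} (R : Reps S P) (x : H2 (basisP S P) (resP P (OS S))) :
    LTSKx R (i₂ S P (basisP S P) x) ↔ LTSO R x := by
  constructor
  · intro h i
    rw [← locKS_i₂]
    exact h i
  · intro h i
    rw [locKS_i₂]
    exact h i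

/-- **(C3) from (HBN)**: the LES step. -/
theorem hasseO_of_i₂ (hpS : pPrime p ∈ S)
    (hbn : ∀ (P : Subgroup GQ), Level p S P → ∀ R : Reps S P,
      ∀ (x : H2 (basisP S P) (resP P (OS S))) (j : ℕ), p ^ j • x = 0 → LTSO R x →
        i₂ S P (basisP S P) x = 0) :
    Blocks.HasseO p S := by
  intro P hP R x j hx hlt
  have hc := isCont_subBasis S P
  have h90 : ∀ z : H1 (basisP S P) (kH S P), z = 0 := H1_KS_eq_zero S hP.isOpen
  obtain ⟨e, rfl⟩ := exists_d₁_of_i₂ hc x (hbn P hP R x j hx hlt)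
  have he : d₁ hc (p ^ j • e) = 0 := by
    rw [map_nsmul]
    exact hx
  have he' : p ^ j • e = 0 := d₁_injective hc h90 (by rw [he, map_zero])
  rw [(PrinTorsionProof.prinTorsion p S hpS P hP.isOpen).1 e j he', map_zero]

/-- **(C3) from (HBN)**, with (HBN) stated for `p`-primary classes `z = i₂ x` of
`H²_LC(P; ℚ_Sˣ)` which are locally trivial at the places above `S`. -/
theorem hasseO_of_hbnKx (hpS : pPrime p ∈ S)
    (hbn : ∀ (P : Subgroup GQ), Level p S P → ∀ R : Reps S P,
      ∀ (x : H2 (basisP S P) (resP P (OS S))) (j : ℕ), p ^ j • x = 0 →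
        LTSKx R (i₂ S P (basisP S P) x) → i₂ S P (basisP S P) x = 0) :
    Blocks.HasseO p S :=
  hasseO_of_i₂ p S hpS fun P hP R x j hx hlt =>
    hbn P hP R x j hx ((ltsKx_i₂_iff S R x).2 hlt)

end Fermat.Agent.S55.Middle.HasseOStep
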