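/-
S55 / MIDDLE block (helper38): the localisation morphisms of the `K`-site depend on the
representative `t` of the double coset `P \ G_ℚ / Γ_q` only up to canonical identifications.

For `t' = v · t · ι_q(d)` (`v ∈ P`, `d ∈ Γ_q`):

  `locSub S P q t' = (inner automorphism by v) ≫ locSub S P q t ≫ Θ`,

where `Θ = conjLoc P q t v d : (Dloc P q t, Ωˣ) → (Dloc P q t', Ωˣ)` is conjugation by `d`
(`d' ↦ d d' d⁻¹`, coefficients `a ↦ d⁻¹ a`).  Since inner automorphisms act trivially on
`H²_LC` (`Formal/InnerLC`), `(locKS S P q t').h2 z = Θ.h2 ((locKS S P q t).h2 z)`; hence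

* `locKS_h2_eq_zero_all`  : `LTSKx R z → ∀ q ∈ S, ∀ t, (locKS S P q t).h2 z = 0`;
* `locKS_h2_nsmul_all`    : the same for "killed by `n`";
* the `locOS` analogues.
-/
import Fermat.Agent.S55.Middle.Blocks
import Fermat.Agent.S55.Formal.InnerLC

set_option autoImplicit false
set_option linter.unusedSectionVars false
set_option linter.style.haveILetI false

open CategoryTheory groupCohomology ExtCitation

namespace Fermat.Agent.S55.Middle.LocCover

noncomputable section

open Fermat.Agent.S55.Formal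
open Fermat.Agent.S55.Formal.PreludeLC hiding GQ Qbar
open Fermat.Agent.S55.Bridge.ShapiroLC Fermat.Agent.S55.Bridge.Mackey
open Fermat.Agent.S55.Middle.Defs Fermat.Agent.S55.Middle.KSite
open Fermat.Agent.S55.Middle.Blocks
open Fermat.Agent.S55.LM.Defs Fermat.Agent.S55.Formal.InnerLC

attribute [local instance] Fermat.Agent.S55.LM.Defs.fact_q

variable (S : Finset Nat.Primes) (P : Subgroup GQ) (q : Nat.Primes) (t : GQ) (v : ↥P)
  (d : primeLocalGaloisGroup q)

/-- the representative `t' = v · t · ι_q(d)` of the same double coset. -/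
abbrev tw : GQ := (v : GQ) * t * primeLocalToGlobal q d

theorem conj_mem_Dloc (d' : primeLocalGaloisGroup q) (hd' : d' ∈ Dloc P q (tw P q t v d)) :
    d * d' * d⁻¹ ∈ Dloc P q t := by
  have h : tw P q t v d * primeLocalToGlobal q d' * (tw P q t v d)⁻¹ ∈ P := hd'
  show t * primeLocalToGlobal q (d * d' * d⁻¹) * t⁻¹ ∈ P
  have e : t * primeLocalToGlobal q (d * d' * d⁻¹) * t⁻¹ =
      (v : GQ)⁻¹ * (tw P q t v d * primeLocalToGlobal q d' * (tw P q t v d)⁻¹) * (v : GQ) := by
    simp only [tw, map_mul, map_inv]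
    group
  rw [e]
  exact P.mul_mem (P.mul_mem (P.inv_mem v.2) h) v.2

/-- conjugation by `d`: `Dloc P q t' →* Dloc P q t`. -/
def conjD : ↥(Dloc P q (tw P q t v d)) →* ↥(Dloc P q t) where
  toFun d' := ⟨d * (d' : primeLocalGaloisGroup q) * d⁻¹, conj_mem_Dloc P q t v d _ d'.2⟩
  map_one' := Subtype.ext (by simp)
  map_mul' a b := Subtype.ext (by
    show d * ((a : primeLocalGaloisGroup q) * b) * d⁻¹ = d * a * d⁻¹ * (d * b * d⁻¹)
    group)

theorem ρ_conj_units (d g : primeLocalGaloisGroup q) (a : unitsRep q) :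
    (unitsRep q).ρ d⁻¹ ((unitsRep q).ρ (d * g * d⁻¹) a) =
      (unitsRep q).ρ g ((unitsRep q).ρ d⁻¹ a) := by
  rw [← Module.End.mul_apply, ← map_mul, ← Module.End.mul_apply, ← map_mul]
  congr 2
  group

/-- the identification `Θ` of the local situations at `t` and at `t' = v t ι(d)`. -/
def conjLoc : Mor (basisLoc P q t) (Ox q (Dloc P q t)) (basisLoc P q (tw P q t v d))
    (Ox q (Dloc P q (tw P q t v d))) where
  f := conjD P q t v d
  cont := by
    rintro _ ⟨W, hW, rfl⟩
    refine ⟨W.subgroupOf _, ⟨W, hW, rfl⟩, fun s hs => ?_⟩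
    exact ((Vq q).normal hW).conj_mem _ hs d
  φ := (unitsRep q).ρ d⁻¹
  equivar g a := ρ_conj_units q d (g : primeLocalGaloisGroup q) a

/-- the coefficient maps: `emb_{t'} = d⁻¹ ∘ emb_t ∘ v⁻¹`. -/
theorem embLin_tw (x : Gm) :
    embLin q (tw P q t v d) x =
      (unitsRep q).ρ d⁻¹ (embLin q t (Gm.ρ ((v : GQ)⁻¹) x)) := by
  apply Fermat.Agent.S55.LM.Defs.toU_injective
  apply Units.ext
  rw [Fermat.Agent.S55.LM.Defs.coe_unitsRep_ρ, toU_embLin, toU_embLin, coe_embUnits, coe_embUnits]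
  have h1 : ((toUnit (Gm.ρ ((v : GQ)⁻¹) x) : Qbarˣ) : Qbar) =
      ((v : GQ)⁻¹ : GQ) ((toUnit x : Qbarˣ) : Qbar) := rfl
  rw [h1]
  have h2 : ((tw P q t v d)⁻¹ : GQ) ((toUnit x : Qbarˣ) : Qbar) =
      primeLocalToGlobal q d⁻¹ ((t⁻¹ : GQ) (((v : GQ)⁻¹ : GQ) ((toUnit x : Qbarˣ) : Qbar))) := by
    have e : (tw P q t v d)⁻¹ = primeLocalToGlobal q d⁻¹ * t⁻¹ * (v : GQ)⁻¹ := by
      simp only [tw, map_inv]
      group
    rw [e]
    simp only [AlgEquiv.mul_apply]
  rw [h2]
  exact padicEmbedding_localGaloisToGlobal (q : ℕ) _ _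

/-- **Change of representative**: `loc_{t'} = inner(v) ≫ loc_t ≫ Θ`. -/
theorem locSub_tw (H : Subgroup Qbarˣ) (hH : GalStable H) :
    locSub S P q (tw P q t v d) H hH =
      (innerMor (basisP S P) (resP P (subRep H hH)) v).comp
        ((locSub S P q t H hH).comp (conjLoc P q t v d)) := by
  apply Functor.mor_ext
  · apply MonoidHom.ext
    intro d'
    apply Subtype.ext
    show tw P q t v d * primeLocalToGlobal q (d' : primeLocalGaloisGroup q) * (tw P q t v d)⁻¹ =
      (v : GQ) * (t * primeLocalToGlobal q (d * (d' : primeLocalGaloisGroup q) * d⁻¹) * t⁻¹) *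
        (v : GQ)⁻¹
    simp only [tw, map_mul, map_inv]
    group
  · apply LinearMap.ext
    intro a
    exact embLin_tw P q t v d _

/-- on `H²`: `loc_{t'} z = Θ (loc_t z)` (inner automorphisms act trivially). -/
theorem locSub_tw_h2 (H : Subgroup Qbarˣ) (hH : GalStable H)
    (z : H2 (basisP S P) (resP P (subRep H hH))) :
    (locSub S P q (tw P q t v d) H hH).h2 z =
      (conjLoc P q t v d).h2 ((locSub S P q t H hH).h2 z) := by
  have h := congrArg Mor.h2 (locSub_tw S P q t v d H hH)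
  rw [Functor.comp_h2, Functor.comp_h2] at h
  have h' : (locSub S P q (tw P q t v d) H hH).h2 z =
      (conjLoc P q t v d).h2 ((locSub S P q t H hH).h2
        ((innerMor (basisP S P) (resP P (subRep H hH)) v).h2 z)) := LinearMap.congr_fun h z
  rw [innerMor_h2] at h'
  exact h'

theorem locKS_tw_h2 (z : H2 (basisP S P) (resP P (KS S))) :
    (locKS S P q (tw P q t v d)).h2 z = (conjLoc P q t v d).h2 ((locKS S P q t).h2 z) :=
  locSub_tw_h2 S P q t v d _ (galStable_qsSubgroup S) z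

theorem locOS_tw_h2 (x : H2 (basisP S P) (resP P (OS S))) :
    (locOS S P q (tw P q t v d)).h2 x = (conjLoc P q t v d).h2 ((locOS S P q t).h2 x) :=
  locSub_tw_h2 S P q t v d _
    (galStable_inf (galStable_qsSubgroup S) (galStable_sUnitSubgroup S)) x

variable {S P}

/-- **All representatives**: if the local components of `z ∈ H²_LC(P; ℚ_Sˣ)` at the chosen
representatives `R` are killed by `n`, so are the local components at every `t : G_ℚ`. -/
theorem locKS_nsmul_all (R : Reps S P) (n : ℕ) (z : H2 (basisP S P) (resP P (KS S)))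
    (h : ∀ i : R.Idx, n • (locKS S P i.1.1 i.2.1).h2 z = 0) (q : ↥S) (t' : GQ) :
    n • (locKS S P q.1 t').h2 z = 0 := by
  obtain ⟨t, ht, v, d, rfl⟩ := R.covers q t'
  have e := locKS_tw_h2 S P q.1 t v d z
  have h0 := h ⟨q, ⟨t, ht⟩⟩
  calc n • (locKS S P q.1 ((v : GQ) * t * primeLocalToGlobal q.1 d)).h2 z
      = n • (conjLoc P q.1 t v d).h2 ((locKS S P q.1 t).h2 z) := congrArg (n • ·) e
    _ = (conjLoc P q.1 t v d).h2 (n • (locKS S P q.1 t).h2 z) := (map_nsmul _ _ _).symm
    _ = 0 := (congrArg _ h0).trans (map_zero _)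

/-- `LTSKx R z` gives the vanishing of the local components at every `t : G_ℚ`. -/
theorem locKS_eq_zero_all (R : Reps S P) (z : H2 (basisP S P) (resP P (KS S)))
    (h : LTSKx R z) (q : ↥S) (t' : GQ) : (locKS S P q.1 t').h2 z = 0 := by
  have := locKS_nsmul_all R 1 z (fun i => by rw [one_smul]; exact h i) q t'
  rwa [one_smul] at this

/-- the `O_S`-analogue of `locKS_nsmul_all`. -/
theorem locOS_nsmul_all (R : Reps S P) (n : ℕ) (x : H2 (basisP S P) (resP P (OS S)))
    (h : ∀ i : R.Idx, n • (locOS S P i.1.1 i.2.1).h2 x = 0) (q : ↥S) (t' : GQ) :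
    n • (locOS S P q.1 t').h2 x = 0 := by
  obtain ⟨t, ht, v, d, rfl⟩ := R.covers q t'
  have e := locOS_tw_h2 S P q.1 t v d x
  have h0 := h ⟨q, ⟨t, ht⟩⟩
  calc n • (locOS S P q.1 ((v : GQ) * t * primeLocalToGlobal q.1 d)).h2 x
      = n • (conjLoc P q.1 t v d).h2 ((locOS S P q.1 t).h2 x) := congrArg (n • ·) e
    _ = (conjLoc P q.1 t v d).h2 (n • (locOS S P q.1 t).h2 x) := (map_nsmul _ _ _).symm
    _ = 0 := (congrArg _ h0).trans (map_zero _)

/-- `LTSO R x` gives the vanishing of the local components at every `t : G_ℚ`. -/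
theorem locOS_eq_zero_all (R : Reps S P) (x : H2 (basisP S P) (resP P (OS S)))
    (h : LTSO R x) (q : ↥S) (t' : GQ) : (locOS S P q.1 t').h2 x = 0 := by
  have := locOS_nsmul_all R 1 x (fun i => by rw [one_smul]; exact h i) q t'
  rwa [one_smul] at this

end

end Fermat.Agent.S55.Middle.LocCover
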