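/-
S55 / Middle layer, row M.dictH3 (helper60): the DEGREE-3 CLASS-LEVEL part of the level dictionary.

`Middle/Dict.lean` (helper67) compares LC cohomology with the finite levels at the level of
cocycles in degrees `1, 2, 3` and at the level of Mathlib's cohomology classes in degrees `1, 2`
(Mathlib has `H1π`, `H2π`, but no low-degree API for `H³`).  With `Coh/H3Pi.lean`
(`H3π`, `H3π_surjective`, `H3π_eq_zero_iff`, `map_H3π`) we complete the picture in degree `3`:

* `inflH3 𝒰 M hV : groupCohomology (Inv M V) 3 →ₗ[k] H3 𝒰 M`, `inflH3_π`;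
* `exists_inflH3` : every LC `H³`-class is inflated from a finite level;
* `transH3 M h := groupCohomology.map (qmap h) (transHom M h) 3`, `transH3_π`, `inflH3_transH3`;
* `inflH3_eq_zero_iff` : the kernel of inflation = classes dying at a deeper level;
* `h3_inflH3` : naturality with respect to a morphism of situations `Mor`;
* `H3_eq_zero_of_levels`, `inflH3_eq_zero_of_trans`.
-/
import Mathlib
import Fermat.Agent.S55.Middle.Dict
import Fermat.Agent.S55.Coh.H3Pi

set_option autoImplicit false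
set_option linter.unusedSectionVars false
set_option linter.unusedVariables false

open CategoryTheory groupCohomology Fermat.Agent.S55.Formal

namespace Fermat.Agent.S55.Middle.DictH3

open Fermat.Agent.S55.Middle.Dict Fermat.Agent.S55.Coh.H3Pi

noncomputable section

variable {k : Type} [CommRing k] {G : Type} [Group G]

/-- `Dict.Z₃` is `H3Pi.cocycles₃` (both are the kernel of the same explicit `d₃₄`). -/
lemma Z₃_eq_cocycles₃ {V : Subgroup G} [V.Normal] (A : Rep.{0, 0, 0} k (G ⧸ V)) :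
    Z₃ A = cocycles₃ A := rfl

section Infl

variable (𝒰 : NBasis G) (M : Rep.{0, 0, 0} k G) {V : Subgroup G} [V.Normal] (hV : 𝒰.mem V)

/-- inflation `H³(G ⧸ V, M^V) → H³` of LC cochains -/
def inflH3 : groupCohomology (Inv M V) 3 →ₗ[k] H3 𝒰 M :=
  (LinearMap.ker (H3π (Inv M V))).liftQ (cl₃ 𝒰 M hV) (fun x hx => by
      rw [LinearMap.mem_ker] at hx ⊢
      obtain ⟨b, hb⟩ := (H3π_eq_zero_iff (A := Inv M V) x).mp hx
      refine (cl₃_eq_zero_iff 𝒰 M hV x).mpr ⟨V, inferInstance, hV, le_rfl, b, ?_⟩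
      rw [hb]
      exact (trans₃_refl M _).symm) ∘ₗ
    ((H3π (Inv M V)).quotKerEquivOfSurjective (H3π_surjective _)).symm.toLinearMap

@[simp] theorem inflH3_π (x : cocycles₃ (Inv M V)) :
    inflH3 𝒰 M hV (H3π (Inv M V) x) = cl₃ 𝒰 M hV x := by
  unfold inflH3
  rw [LinearMap.comp_apply]
  have : ((H3π (Inv M V)).quotKerEquivOfSurjective (H3π_surjective _)).symm
      (H3π (Inv M V) x) = Submodule.Quotient.mk x := by
    rw [LinearEquiv.symm_apply_eq]
    rfl
  erw [this]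
  rfl

end Infl

section Main

variable (𝒰 : NBasis G) (M : Rep.{0, 0, 0} k G)

/-- every LC `H³` class is inflated from Mathlib's `H³` of a finite level -/
theorem exists_inflH3 (x : H3 𝒰 M) :
    ∃ (V : Subgroup G) (_ : V.Normal) (hV : 𝒰.mem V) (y : groupCohomology (Inv M V) 3),
      inflH3 𝒰 M hV y = x := by
  obtain ⟨V, hN, hV, x', rfl⟩ := exists_cl₃ 𝒰 M x
  exact ⟨V, hN, hV, H3π (Inv M V) x', inflH3_π 𝒰 M hV x'⟩

variable {V W : Subgroup G} [V.Normal] [W.Normal] (h : W ≤ V)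

/-- Mathlib's map `H³(G ⧸ V, M^V) → H³(G ⧸ W, M^W)` for `W ≤ V` -/
def transH3 : groupCohomology (Inv M V) 3 →ₗ[k] groupCohomology (Inv M W) 3 :=
  (groupCohomology.map (qmap h) (transHom M h) 3).hom

lemma mapCocycles₃_eq (x : cocycles₃ (Inv M V)) :
    mapCocycles₃ (qmap h) (transHom M h) x = transZ₃ M h x :=
  Subtype.ext rfl

theorem transH3_π (x : cocycles₃ (Inv M V)) :
    transH3 M h (H3π (Inv M V) x) = H3π (Inv M W) (transZ₃ M h x) := by
  rw [← mapCocycles₃_eq]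
  exact map_H3π (qmap h) (transHom M h) x

variable (hV : 𝒰.mem V) (hW : 𝒰.mem W)

theorem inflH3_transH3 (y : groupCohomology (Inv M V) 3) :
    inflH3 𝒰 M hW (transH3 M h y) = inflH3 𝒰 M hV y := by
  obtain ⟨x, rfl⟩ := H3π_surjective (Inv M V) y
  rw [transH3_π, inflH3_π, inflH3_π]
  exact cl₃_transZ₃ M h 𝒰 hV hW x

/-- the kernel of inflation on `H³`: classes dying at a deeper level -/
theorem inflH3_eq_zero_iff (y : groupCohomology (Inv M V) 3) :
    inflH3 𝒰 M hV y = 0 ↔ ∃ (W : Subgroup G) (_ : W.Normal) (_ : 𝒰.mem W) (h : W ≤ V),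
      transH3 M h y = 0 := by
  obtain ⟨x, rfl⟩ := H3π_surjective (Inv M V) y
  rw [inflH3_π, cl₃_eq_zero_iff]
  constructor
  · rintro ⟨W, hN, hW, hle, b, hb⟩
    refine ⟨W, hN, hW, hle, ?_⟩
    rw [transH3_π]
    exact (H3π_eq_zero_iff _).mpr ⟨b, hb⟩
  · rintro ⟨W, hN, hW, hle, h0⟩
    rw [transH3_π] at h0
    obtain ⟨b, hb⟩ := (H3π_eq_zero_iff _).mp h0
    exact ⟨W, hN, hW, hle, b, hb⟩

/-- a class dying at a deeper level has zero inflation -/
theorem inflH3_eq_zero_of_trans (hW' : 𝒰.mem W) (y : groupCohomology (Inv M V) 3)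
    (h0 : transH3 M h y = 0) : inflH3 𝒰 M hV y = 0 :=
  (inflH3_eq_zero_iff 𝒰 M hV y).mpr ⟨W, inferInstance, hW', h, h0⟩

end Main

section Vanishing

variable (𝒰 : NBasis G) (M : Rep.{0, 0, 0} k G)

/-- `H³` of LC cochains vanishes if every finite-level class dies at a deeper level. -/
theorem H3_eq_zero_of_levels
    (hlev : ∀ (V : Subgroup G) (_ : V.Normal) (_ : 𝒰.mem V) (y : groupCohomology (Inv M V) 3),
      ∃ (W : Subgroup G) (_ : W.Normal) (_ : 𝒰.mem W) (h : W ≤ V), transH3 M h y = 0)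
    (x : H3 𝒰 M) : x = 0 := by
  obtain ⟨V, hN, hV, y, rfl⟩ := exists_inflH3 𝒰 M x
  exact (inflH3_eq_zero_iff 𝒰 M hV y).mpr (hlev V hN hV y)

/-- torsion form: if for every finite-level class `y` killed by `n` dies at a deeper level, then
`H³` of LC cochains has no nonzero element killed by `n`... stated for an arbitrary predicate on
classes that is stable under the transition maps. -/
theorem H3_eq_zero_of_levels_of_pred
    (P : ∀ (V : Subgroup G) [V.Normal], groupCohomology (Inv M V) 3 → Prop)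
    (x : H3 𝒰 M)
    (hx : ∃ (V : Subgroup G) (_ : V.Normal) (hV : 𝒰.mem V) (y : groupCohomology (Inv M V) 3),
      inflH3 𝒰 M hV y = x ∧ P V y)
    (hlev : ∀ (V : Subgroup G) (_ : V.Normal) (_ : 𝒰.mem V) (y : groupCohomology (Inv M V) 3),
      P V y → ∃ (W : Subgroup G) (_ : W.Normal) (_ : 𝒰.mem W) (h : W ≤ V), transH3 M h y = 0) :
    x = 0 := by
  obtain ⟨V, hN, hV, y, rfl, hP⟩ := hx
  exact (inflH3_eq_zero_iff 𝒰 M hV y).mpr (hlev V hN hV y hP)

/-- a class of LC `H³` killed by a scalar `c` is inflated from a finite-level class killed by `c` -/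
theorem exists_inflH3_smul_eq_zero (c : k) (x : H3 𝒰 M) (hx : c • x = 0) :
    ∃ (V : Subgroup G) (_ : V.Normal) (hV : 𝒰.mem V) (y : groupCohomology (Inv M V) 3),
      inflH3 𝒰 M hV y = x ∧ c • y = 0 := by
  obtain ⟨V, hN, hV, y, rfl⟩ := exists_inflH3 𝒰 M x
  rw [← map_smul] at hx
  obtain ⟨W, hNW, hW, hle, h0⟩ := (inflH3_eq_zero_iff 𝒰 M hV (c • y)).mp hx
  refine ⟨W, hNW, hW, transH3 M hle y, inflH3_transH3 𝒰 M hle hV hW y, ?_⟩
  rw [← map_smul]
  exact h0

/-- the same for natural multiples -/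
theorem exists_inflH3_nsmul_eq_zero (n : ℕ) (x : H3 𝒰 M) (hx : n • x = 0) :
    ∃ (V : Subgroup G) (_ : V.Normal) (hV : 𝒰.mem V) (y : groupCohomology (Inv M V) 3),
      inflH3 𝒰 M hV y = x ∧ n • y = 0 := by
  obtain ⟨V, hN, hV, y, rfl⟩ := exists_inflH3 𝒰 M x
  rw [← map_nsmul] at hx
  obtain ⟨W, hNW, hW, hle, h0⟩ := (inflH3_eq_zero_iff 𝒰 M hV (n • y)).mp hx
  refine ⟨W, hNW, hW, transH3 M hle y, inflH3_transH3 𝒰 M hle hV hW y, ?_⟩
  rw [← map_nsmul]
  exact h0

/-- **no `n`-torsion in LC `H³`** as soon as every finite-level class killed by `n` dies at a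
deeper level (the colimit form of (HBN-H3)). -/
theorem H3_torsion_eq_zero_of_levels (n : ℕ)
    (hlev : ∀ (V : Subgroup G) (_ : V.Normal) (_ : 𝒰.mem V) (y : groupCohomology (Inv M V) 3),
      n • y = 0 → ∃ (W : Subgroup G) (_ : W.Normal) (_ : 𝒰.mem W) (h : W ≤ V),
        transH3 M h y = 0)
    (x : H3 𝒰 M) (hx : n • x = 0) : x = 0 := by
  obtain ⟨V, hN, hV, y, rfl, hy⟩ := exists_inflH3_nsmul_eq_zero 𝒰 M n x hx
  exact (inflH3_eq_zero_iff 𝒰 M hV y).mpr (hlev V hN hV y hy)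

end Vanishing

/-! ### Naturality -/

section MorNat

variable {G' : Type} [Group G'] {𝒰 : NBasis G} {A : Rep.{0, 0, 0} k G} {𝒰' : NBasis G'}
  {B : Rep.{0, 0, 0} k G'} (α : Mor 𝒰 A 𝒰' B)
  {V : Subgroup G} [V.Normal] {V' : Subgroup G'} [V'.Normal] (hle : ∀ s ∈ V', α.f s ∈ V)

lemma mapCocycles₃_lvl (x : cocycles₃ (Inv A V)) :
    mapCocycles₃ (qf α hle) (lvlHom α hle) x = lvlZ₃ α hle x :=
  Subtype.ext rfl

variable (hV : 𝒰.mem V) (hV' : 𝒰'.mem V')

/-- naturality of `inflH3` -/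
theorem h3_inflH3 (y : groupCohomology (Inv A V) 3) :
    α.h3 (inflH3 𝒰 A hV y) =
      inflH3 𝒰' B hV' ((groupCohomology.map (qf α hle) (lvlHom α hle) 3).hom y) := by
  obtain ⟨x, rfl⟩ := H3π_surjective (Inv A V) y
  have e : (groupCohomology.map (qf α hle) (lvlHom α hle) 3).hom (H3π (Inv A V) x) =
      H3π (Inv B V') (lvlZ₃ α hle x) := by
    rw [← mapCocycles₃_lvl]
    exact map_H3π (qf α hle) (lvlHom α hle) x
  rw [e, inflH3_π, inflH3_π]
  exact h3_cl₃ α hle hV hV' x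

end MorNat

end

end Fermat.Agent.S55.Middle.DictH3
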