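/-
S55 / Middle (helper60): row M.sylowRel — the RELATIVE Sylow reduction for nested open subgroups
`H ≤ P ≤ G`, both regarded as subgroups of the ambient group `G` (think `G = GQ`,
`P = Gal(ℚ̄/K)`, `H = Gal(ℚ̄/K')` the preimage of a Sylow subgroup of `Gal(L/K)`).

`Middle/Sylow.lean` (helper66) treats `H ≤ G` with the bases `𝒰` and `subBasis 𝒰 H`.  Applied to
the ambient group `↥P` it produces the doubly nested situation
`(↥(H.subgroupOf P), subBasis (subBasis 𝒰 P) (H.subgroupOf P))`; here we identify it with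
`(↥H, subBasis 𝒰 H)` and obtain the statements directly in the language of subgroups of `G`:

* `resPH 𝒰 M hHP : Mor (subBasis 𝒰 P) (res P M) (subBasis 𝒰 H) (res H M)` (restriction);
* `nestIso`, `nestIsoInv` and `nestIso_h1/h2/h3_injective` (the identification);
* `resPH_eq` : `resPH = (Sylow.resMor …).comp nestIso`;
* `eq_zero_of_res_rel_h1/h2/h3` : a class of `H^i_LC(P; M)` killed by an integer prime to
  `[P : H]` and with zero restriction to `H` vanishes;
* `exists_sylow_open` : between a level `N ∈ 𝒰`, `N ≤ P`, and `P` there is an `H` with `H/N` a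
  `p`-group and `[P : H]` prime to `p`;
* `H3_pow_torsion_eq_zero` : **`H³_LC(P; M)` has no `p^k`-torsion as soon as, for every open
  `H ≤ P`, every finite-level class of `p^k`-torsion with `p`-group quotient dies at a deeper
  level** (the passage from (HBN-H3) for `p`-power degree to the colimit statement).
-/
import Mathlib
import Fermat.Agent.S55.Formal.LC
import Fermat.Agent.S55.Formal.Functor
import Fermat.Agent.S55.Bridge.ShapiroLC
import Fermat.Agent.S55.Middle.Sylow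
import Fermat.Agent.S55.Middle.DictH3
import Fermat.Agent.S55.SylowLevel

set_option autoImplicit false
set_option linter.unusedSectionVars false
set_option linter.unusedVariables false
set_option linter.style.haveILetI false

open CategoryTheory groupCohomology

namespace Fermat.Agent.S55.Middle.SylowRel

open Fermat.Agent.S55.Formal Fermat.Agent.S55.Bridge.ShapiroLC
open Fermat.Agent.S55.Middle.Dict Fermat.Agent.S55.Middle.DictH3
open Fermat.Agent.S55.Formal.Functor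

noncomputable section

variable {k : Type} [CommRing k] {G : Type} [Group G] (𝒰 : NBasis G) (M : Rep.{0, 0, 0} k G)
variable {H P : Subgroup G} (hHP : H ≤ P)

/-- restriction from `P` to `H`, both subgroups of `G`. -/
def resPH : Mor (subBasis 𝒰 P) (Rep.res P.subtype M) (subBasis 𝒰 H) (Rep.res H.subtype M) where
  f := Subgroup.inclusion hHP
  cont := by
    rintro _ ⟨N, hN, rfl⟩
    exact ⟨N.subgroupOf H, ⟨N, hN, rfl⟩, fun s hs => hs⟩
  φ := LinearMap.id
  equivar _ _ := rfl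

@[simp] lemma resPH_f : (resPH 𝒰 M hHP).f = Subgroup.inclusion hHP := rfl
@[simp] lemma resPH_φ : (resPH 𝒰 M hHP).φ = LinearMap.id := rfl

/-- the nested copy of `H` inside `↥P`. -/
abbrev nest (H P : Subgroup G) : Subgroup ↥P := H.subgroupOf P

/-- the nested situation `(↥(H.subgroupOf P), …)` maps to `(↥H, subBasis 𝒰 H)`. -/
def nestIso : Mor (subBasis (subBasis 𝒰 P) (nest H P))
    (Rep.res (nest H P).subtype (Rep.res P.subtype M)) (subBasis 𝒰 H) (Rep.res H.subtype M) where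
  f := (Subgroup.subgroupOfEquivOfLe hHP).symm.toMonoidHom
  cont := by
    rintro _ ⟨_, ⟨N, hN, rfl⟩, rfl⟩
    exact ⟨N.subgroupOf H, ⟨N, hN, rfl⟩, fun s hs => hs⟩
  φ := LinearMap.id
  equivar _ _ := rfl

/-- the inverse identification. -/
def nestIsoInv : Mor (subBasis 𝒰 H) (Rep.res H.subtype M)
    (subBasis (subBasis 𝒰 P) (nest H P)) (Rep.res (nest H P).subtype (Rep.res P.subtype M)) where
  f := (Subgroup.subgroupOfEquivOfLe hHP).toMonoidHom
  cont := by
    rintro _ ⟨N, hN, rfl⟩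
    exact ⟨(N.subgroupOf P).subgroupOf (nest H P), ⟨N.subgroupOf P, ⟨N, hN, rfl⟩, rfl⟩,
      fun s hs => hs⟩
  φ := LinearMap.id
  equivar _ _ := rfl

/-- `nestIso` followed by `nestIsoInv` is the identity. -/
lemma nestIso_comp_inv :
    (nestIso 𝒰 M hHP).comp (nestIsoInv 𝒰 M hHP) =
      Mor.ofHom (subBasis (subBasis 𝒰 P) (nest H P))
        (𝟙 (Rep.res (nest H P).subtype (Rep.res P.subtype M))) := by
  apply mor_ext
  · ext x
    rfl
  · rfl

lemma nestIsoInv_h1_nestIso (x) :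
    (nestIsoInv 𝒰 M hHP).h1 ((nestIso 𝒰 M hHP).h1 x) = x := by
  have h := comp_h1 (nestIso 𝒰 M hHP) (nestIsoInv 𝒰 M hHP)
  rw [nestIso_comp_inv, ofHom_id_h1] at h
  exact (LinearMap.congr_fun h x).symm

lemma nestIsoInv_h2_nestIso (x) :
    (nestIsoInv 𝒰 M hHP).h2 ((nestIso 𝒰 M hHP).h2 x) = x := by
  have h := comp_h2 (nestIso 𝒰 M hHP) (nestIsoInv 𝒰 M hHP)
  rw [nestIso_comp_inv, ofHom_id_h2] at h
  exact (LinearMap.congr_fun h x).symm

lemma nestIsoInv_h3_nestIso (x) :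
    (nestIsoInv 𝒰 M hHP).h3 ((nestIso 𝒰 M hHP).h3 x) = x := by
  have h := comp_h3 (nestIso 𝒰 M hHP) (nestIsoInv 𝒰 M hHP)
  rw [nestIso_comp_inv, ofHom_id_h3] at h
  exact (LinearMap.congr_fun h x).symm

lemma nestIso_h1_injective : Function.Injective (nestIso 𝒰 M hHP).h1 :=
  Function.LeftInverse.injective (nestIsoInv_h1_nestIso 𝒰 M hHP)

lemma nestIso_h2_injective : Function.Injective (nestIso 𝒰 M hHP).h2 :=
  Function.LeftInverse.injective (nestIsoInv_h2_nestIso 𝒰 M hHP)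

lemma nestIso_h3_injective : Function.Injective (nestIso 𝒰 M hHP).h3 :=
  Function.LeftInverse.injective (nestIsoInv_h3_nestIso 𝒰 M hHP)

/-- the restriction `P → H` is helper66's restriction for `H.subgroupOf P ≤ ↥P` followed by the
identification. -/
lemma resPH_eq :
    resPH 𝒰 M hHP =
      (Sylow.resMor (nest H P) (Rep.res P.subtype M) (subBasis 𝒰 P)).comp (nestIso 𝒰 M hHP) := by
  apply mor_ext
  · ext x
    rfl
  · rfl

lemma nest_open (hH : ∃ N, 𝒰.mem N ∧ N ≤ H) :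
    ∃ N', (subBasis 𝒰 P).mem N' ∧ N' ≤ nest H P := by
  obtain ⟨N, hN, hle⟩ := hH
  exact ⟨N.subgroupOf P, ⟨N, hN, rfl⟩, fun x hx => hle hx⟩

lemma nest_index : (nest H P).index = H.relIndex P := rfl

/-- **relative Sylow reduction**, degree 1. -/
theorem eq_zero_of_res_rel_h1 (hH : ∃ N, 𝒰.mem N ∧ N ≤ H) {m : ℕ}
    (hm : Nat.Coprime m (H.relIndex P)) (x : H1 (subBasis 𝒰 P) (Rep.res P.subtype M))
    (hmx : m • x = 0) (hx : (resPH 𝒰 M hHP).h1 x = 0) : x = 0 := by
  rw [resPH_eq, comp_h1, LinearMap.comp_apply] at hx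
  have h0 := nestIso_h1_injective 𝒰 M hHP (hx.trans (map_zero _).symm)
  exact Sylow.eq_zero_of_res_h1 (nest H P) (Rep.res P.subtype M) (subBasis 𝒰 P)
    (nest_open 𝒰 hH) hm x hmx h0

/-- **relative Sylow reduction**, degree 2. -/
theorem eq_zero_of_res_rel_h2 (hH : ∃ N, 𝒰.mem N ∧ N ≤ H) {m : ℕ}
    (hm : Nat.Coprime m (H.relIndex P)) (x : H2 (subBasis 𝒰 P) (Rep.res P.subtype M))
    (hmx : m • x = 0) (hx : (resPH 𝒰 M hHP).h2 x = 0) : x = 0 := by
  rw [resPH_eq, comp_h2, LinearMap.comp_apply] at hx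
  have h0 := nestIso_h2_injective 𝒰 M hHP (hx.trans (map_zero _).symm)
  exact Sylow.eq_zero_of_res_h2 (nest H P) (Rep.res P.subtype M) (subBasis 𝒰 P)
    (nest_open 𝒰 hH) hm x hmx h0

/-- **relative Sylow reduction**, degree 3. -/
theorem eq_zero_of_res_rel_h3 (hH : ∃ N, 𝒰.mem N ∧ N ≤ H) {m : ℕ}
    (hm : Nat.Coprime m (H.relIndex P)) (x : H3 (subBasis 𝒰 P) (Rep.res P.subtype M))
    (hmx : m • x = 0) (hx : (resPH 𝒰 M hHP).h3 x = 0) : x = 0 := by
  rw [resPH_eq, comp_h3, LinearMap.comp_apply] at hx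
  have h0 := nestIso_h3_injective 𝒰 M hHP (hx.trans (map_zero _).symm)
  exact Sylow.eq_zero_of_res_h3 (nest H P) (Rep.res P.subtype M) (subBasis 𝒰 P)
    (nest_open 𝒰 hH) hm x hmx h0

/-! ### existence of the Sylow level -/

/-- between a level `N ∈ 𝒰`, `N ≤ P`, and `P` there is a subgroup `H` with `H/N` a `p`-group and
`[P : H]` prime to `p`. -/
theorem exists_sylow_open (p : ℕ) [Fact p.Prime] {N : Subgroup G} (hN : 𝒰.mem N) (hNP : N ≤ P) :
    ∃ H : Subgroup G, N ≤ H ∧ H ≤ P ∧ ¬ p ∣ H.relIndex P ∧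
      ∀ h ∈ H, ∃ j : ℕ, h ^ (p ^ j) ∈ N := by
  haveI := 𝒰.normal hN
  haveI := 𝒰.finiteIndex hN
  haveI : (N.subgroupOf P).Normal := inferInstance
  haveI : (N.subgroupOf P).FiniteIndex := inferInstance
  obtain ⟨U, hNU, _, hpU, hUp⟩ := SylowLevel.exists_level p (N.subgroupOf P)
  refine ⟨U.map P.subtype, ?_, ?_, ?_, ?_⟩
  · intro n hn
    exact ⟨⟨n, hNP hn⟩, hNU (show (⟨n, hNP hn⟩ : ↥P) ∈ N.subgroupOf P from hn), rfl⟩
  · rintro _ ⟨u, _, rfl⟩
    exact u.2
  · have : (U.map P.subtype).subgroupOf P = U :=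
      Subgroup.comap_map_eq_self_of_injective P.subtype_injective U
    show ¬ p ∣ ((U.map P.subtype).subgroupOf P).index
    rw [this]
    exact hpU
  · rintro _ ⟨u, hu, rfl⟩
    obtain ⟨j, hj⟩ := hUp u hu
    exact ⟨j, hj⟩

/-- the `p`-power condition of `exists_sylow_open` says that the quotient is a `p`-group. -/
lemma isPGroup_quotient {Γ : Type*} [Group Γ] (p : ℕ) (V : Subgroup Γ) [V.Normal]
    (h : ∀ g : Γ, ∃ j : ℕ, g ^ (p ^ j) ∈ V) : IsPGroup p (Γ ⧸ V) := by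
  intro q
  induction q using QuotientGroup.induction_on with
  | H g =>
    obtain ⟨j, hj⟩ := h g
    exact ⟨j, by rw [← QuotientGroup.mk_pow]; exact (QuotientGroup.eq_one_iff _).mpr hj⟩

/-- … hence its order is a power of `p`. -/
lemma exists_card_quotient_eq_pow {Γ : Type*} [Group Γ] (p : ℕ) [Fact p.Prime] (V : Subgroup Γ)
    [V.Normal] [V.FiniteIndex] (h : ∀ g : Γ, ∃ j : ℕ, g ^ (p ^ j) ∈ V) :
    ∃ m : ℕ, Nat.card (Γ ⧸ V) = p ^ m := by
  haveI : Finite (Γ ⧸ V) := Subgroup.finite_quotient_of_finiteIndex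
  exact (isPGroup_quotient p V h).exists_card_eq

/-! ### `H³` has no `p`-power torsion, from the `p`-group levels -/

/-- The finite-level input: over the open subgroup `H`, every class of `p^k`-torsion at a level
with `p`-group quotient dies at a deeper level. -/
def PLevelsDie (p k : ℕ) (H : Subgroup G) : Prop :=
  ∀ (V' : Subgroup ↥H) (_ : V'.Normal) (_ : (subBasis 𝒰 H).mem V'),
    (∀ h : ↥H, ∃ j : ℕ, h ^ (p ^ j) ∈ V') →
    ∀ y : groupCohomology (Inv (Rep.res H.subtype M) V') 3, (p ^ k) • y = 0 →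
      ∃ (W' : Subgroup ↥H) (_ : W'.Normal) (_ : (subBasis 𝒰 H).mem W') (h : W' ≤ V'),
        transH3 (Rep.res H.subtype M) h y = 0

/-- **`H³_LC(P; M)` has no `p^k`-torsion** if for every open `H ≤ P` the finite-level classes of
`p^k`-torsion with `p`-group quotient die at a deeper level. -/
theorem H3_pow_torsion_eq_zero (p k : ℕ) [Fact p.Prime] (hP : ∃ N, 𝒰.mem N ∧ N ≤ P)
    (hfin : ∀ H : Subgroup G, H ≤ P → (∃ N, 𝒰.mem N ∧ N ≤ H) → PLevelsDie 𝒰 M p k H)
    (x : H3 (subBasis 𝒰 P) (Rep.res P.subtype M)) (hx : (p ^ k) • x = 0) : x = 0 := by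
  obtain ⟨V, hVn, hV, y, rfl, hy⟩ :=
    exists_inflH3_nsmul_eq_zero (subBasis 𝒰 P) (Rep.res P.subtype M) (p ^ k) x hx
  obtain ⟨N₁, hN₁, rfl⟩ := hV
  obtain ⟨N₀, hN₀, hN₀P⟩ := hP
  obtain ⟨N, hN, hle⟩ := 𝒰.inf hN₁ hN₀
  have hNP : N ≤ P := fun n hn => hN₀P (hle hn).2
  haveI := 𝒰.normal hN
  haveI : (N.subgroupOf P).Normal := inferInstance
  have hVW : N.subgroupOf P ≤ N₁.subgroupOf P := fun s hs => (hle hs).1
  have hV1 : (subBasis 𝒰 P).mem (N₁.subgroupOf P) := ⟨N₁, hN₁, rfl⟩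
  have hV2 : (subBasis 𝒰 P).mem (N.subgroupOf P) := ⟨N, hN, rfl⟩
  rw [← inflH3_transH3 (subBasis 𝒰 P) (Rep.res P.subtype M) hVW hV1 hV2 y]
  set y' := transH3 (Rep.res P.subtype M) hVW y with hy'
  have hy'0 : (p ^ k) • y' = 0 := by rw [hy', ← map_nsmul, hy, map_zero]
  obtain ⟨H, hNH, hHP, hpH, hHp⟩ := exists_sylow_open 𝒰 p hN hNP
  have hHo : ∃ N, 𝒰.mem N ∧ N ≤ H := ⟨N, hN, hNH⟩
  have hcop : Nat.Coprime (p ^ k) (H.relIndex P) :=
    Nat.Coprime.pow_left k ((Nat.Prime.coprime_iff_not_dvd Fact.out).mpr hpH)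
  apply eq_zero_of_res_rel_h3 𝒰 M hHP hHo hcop
  · rw [← map_nsmul, hy'0, map_zero]
  · haveI : (N.subgroupOf H).Normal := inferInstance
    have hV3 : (subBasis 𝒰 H).mem (N.subgroupOf H) := ⟨N, hN, rfl⟩
    have hle' : ∀ s ∈ N.subgroupOf H, (resPH 𝒰 M hHP).f s ∈ N.subgroupOf P := fun s hs => hs
    rw [h3_inflH3 (resPH 𝒰 M hHP) hle' hV2 hV3 y']
    set y'' := (groupCohomology.map (qf (resPH 𝒰 M hHP) hle')
      (lvlHom (resPH 𝒰 M hHP) hle') 3).hom y' with hy''
    have hy''0 : (p ^ k) • y'' = 0 := by rw [hy'', ← map_nsmul, hy'0, map_zero]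
    have hpg : ∀ h : ↥H, ∃ j : ℕ, h ^ (p ^ j) ∈ N.subgroupOf H := by
      intro h
      obtain ⟨j, hj⟩ := hHp h.1 h.2
      exact ⟨j, by simpa [Subgroup.mem_subgroupOf] using hj⟩
    exact (inflH3_eq_zero_iff (subBasis 𝒰 H) (Rep.res H.subtype M) hV3 y'').mpr
      (hfin H hHP hHo (N.subgroupOf H) inferInstance hV3 hpg y'' hy''0)

end

end Fermat.Agent.S55.Middle.SylowRel
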