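/-
S55 / MIDDLE block, ImageInst hub leaf `hdesc` (helper38).

`H ≤ P ≤ G_ℚ`.  Restriction from the `K`-site of `P` to the `K`-site of `H` is compatible with
the localisation morphisms `locKS / locOS` and with `i₂ : H²(O_S) → H²(ℚ_Sˣ)`:

* `locRes hHP q t` : the local restriction `(Dloc P q t, Ωˣ) → (Dloc H q t, Ωˣ)`;
* `locKS_resPH`, `locOS_resPH` : the squares `locKS_H ∘ res = locRes ∘ locKS_P`;
* `i₂_resPH` : `i₂` commutes with restriction;
* `locRes_ι₂_eq_zero` : a local class coming from the finite level `Dloc N q t` dies on `Dloc N q t`;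
* `locRes_eq_zero_of_pow` : a `p^k`-torsion local class dies on `Dloc N q t` as soon as
  `p^k ∣ [Dloc P q t : Dloc N q t]`;
* `hdesc` : **descent**: a `p`-primary class `z = i₂ x` of `H²_LC(P; ℚ_Sˣ)` whose local components
  at `S` are killed by `p^k` comes from the finite level `N` (`N ∈ globalBasis S`, `N ≤ P`,
  `p^k ∣` all local degrees of `N` in `P` above `S`), by the Hasse principle `Blocks.HasseO` for `N`
  and inflation–restriction.
-/
import Fermat.Agent.S55.Middle.HasseOStep
import Fermat.Agent.S55.Middle.LCInfRes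
import Fermat.Agent.S55.Middle.SylowRel
import Fermat.Agent.S55.Middle.DictBridge
import Fermat.Agent.S55.LM.TorsLevel
import Fermat.Agent.S55.Middle.LocCover

set_option autoImplicit false
set_option linter.unusedSectionVars false
set_option linter.style.haveILetI false

open CategoryTheory groupCohomology ExtCitation

namespace Fermat.Agent.S55.Middle.ImageDesc

noncomputable section

open Fermat.Agent.S55.Formal
open Fermat.Agent.S55.Formal.PreludeLC hiding GQ Qbar
open Fermat.Agent.S55.Bridge.ShapiroLC Fermat.Agent.S55.Bridge.Mackey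
open Fermat.Agent.S55.Middle.Defs Fermat.Agent.S55.Middle.KSite
open Fermat.Agent.S55.Middle.Blocks Fermat.Agent.S55.Middle.LESGlueV
open Fermat.Agent.S55.LM.Defs

attribute [local instance] Fermat.Agent.S55.LM.Defs.fact_q

variable (S : Finset Nat.Primes) {P H : Subgroup GQ} (hHP : H ≤ P) (q : Nat.Primes) (t : GQ)

include hHP in

/-- the local groups are monotone in `P` -/
theorem Dloc_mono : Dloc H q t ≤ Dloc P q t := fun _ hd => hHP hd

/-- local restriction `(Dloc P q t, Ωˣ) → (Dloc H q t, Ωˣ)` -/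
def locRes : Mor (basisLoc P q t) (Ox q (Dloc P q t)) (basisLoc H q t) (Ox q (Dloc H q t)) :=
  SylowRel.resPH (Vq q) (unitsRep q) (Dloc_mono hHP q t)

/-- global restriction, `ℚ_Sˣ` -/
abbrev resKS : Mor (basisP S P) (resP P (KS S)) (basisP S H) (resP H (KS S)) :=
  SylowRel.resPH (globalBasis S) (KS S) hHP

/-- global restriction, `O_S` -/
abbrev resOS : Mor (basisP S P) (resP P (OS S)) (basisP S H) (resP H (OS S)) :=
  SylowRel.resPH (globalBasis S) (OS S) hHP

/-- localisation commutes with restriction (`ℚ_Sˣ`). -/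
theorem locKS_resPH :
    (resKS S hHP).comp (locKS S H q t) = (locKS S P q t).comp (locRes hHP q t) :=
  Functor.mor_ext rfl rfl

/-- localisation commutes with restriction (`O_S`). -/
theorem locOS_resPH :
    (resOS S hHP).comp (locOS S H q t) = (locOS S P q t).comp (locRes hHP q t) :=
  Functor.mor_ext rfl rfl

theorem locKS_resPH_h2 (z : H2 (basisP S P) (resP P (KS S))) :
    (locKS S H q t).h2 ((resKS S hHP).h2 z) = (locRes hHP q t).h2 ((locKS S P q t).h2 z) := by
  have h := congrArg Mor.h2 (locKS_resPH S hHP q t)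
  rw [Functor.comp_h2, Functor.comp_h2] at h
  exact LinearMap.congr_fun h z

/-- `i₂` commutes with restriction. -/
theorem i₂_resPH (x : H2 (basisP S P) (resP P (OS S))) :
    i₂ S H (basisP S H) ((resOS S hHP).h2 x) = (resKS S hHP).h2 (i₂ S P (basisP S P) x) := by
  have h : (resOS S hHP).comp (Mor.ofHom (basisP S H) (φi S H)) =
      (Mor.ofHom (basisP S P) (φi S P)).comp (resKS S hHP) := Functor.mor_ext rfl rfl
  have h' := congrArg Mor.h2 h
  rw [Functor.comp_h2, Functor.comp_h2] at h'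
  exact LinearMap.congr_fun h' x

/-! ### the local step: torsion classes die on a deep enough level -/

section LocalStep

variable {N : Subgroup GQ} (hNP : N ≤ P)

/-- for `N` normal in `G_ℚ` the local group `Dloc N q t` is the preimage of `N`. -/
theorem Dloc_eq_comap [N.Normal] : Dloc N q t = N.comap (primeLocalToGlobal q) := by
  ext d
  show t * primeLocalToGlobal q d * t⁻¹ ∈ N ↔ primeLocalToGlobal q d ∈ N
  constructor
  · intro h
    have := Subgroup.Normal.conj_mem (inferInstance : N.Normal) _ h t⁻¹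
    simpa [mul_assoc] using this
  · intro h
    exact Subgroup.Normal.conj_mem (inferInstance : N.Normal) _ h t

/-- `Dloc N q t` is a member of the local basis when `N` is a member of the global basis. -/
theorem mem_Vq_Dloc (hN : (globalBasis S).mem N) : (Vq q).mem (Dloc N q t) := by
  obtain ⟨F, hF, hn, rfl⟩ := hN
  haveI := hn
  rw [Dloc_eq_comap]
  exact ⟨F, hF.1, hn, rfl⟩

/-- the finite level of `Dloc P q t` cut out by `N`. -/
abbrev lvlLoc (N P : Subgroup GQ) (q : Nat.Primes) (t : GQ) : Subgroup ↥(Dloc P q t) :=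
  (Dloc N q t).subgroupOf (Dloc P q t)

theorem mem_basisLoc_lvlLoc (hN : (globalBasis S).mem N) :
    (basisLoc P q t).mem (lvlLoc N P q t) :=
  ⟨Dloc N q t, mem_Vq_Dloc S q t hN, rfl⟩

/-- the local restriction is `Mor.res` along the inclusion. -/
theorem locRes_h2_eq (a : H2 (basisLoc P q t) (Ox q (Dloc P q t))) :
    (locRes hNP q t).h2 a =
      (Mor.res (basisLoc P q t) (basisLoc N q t) (Subgroup.inclusion (Dloc_mono hNP q t))
        (locRes hNP q t).cont (Ox q (Dloc P q t))).h2 a := rfl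

/-- a local class coming from the finite level cut out by `N` dies on `Dloc N q t`. -/
theorem locRes_ι₂_eq_zero (hN : (globalBasis S).mem N)
    [(lvlLoc N P q t).Normal] [Finite (↥(Dloc P q t) ⧸ lvlLoc N P q t)]
    (y : groupCohomology.H2 ((Ox q (Dloc P q t)).quotientToInvariants (lvlLoc N P q t))) :
    (locRes hNP q t).h2
      (LCLevelH.ι₂ (basisLoc P q t) (Ox q (Dloc P q t)) (lvlLoc N P q t)
        (mem_basisLoc_lvlLoc S q t hN) y) = 0 := by
  obtain ⟨c, rfl⟩ := Dict.H2π_surjective _ y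
  rw [← DictBridge.inflH2_eq_ι₂, Dict.inflH2_π, locRes_h2_eq]
  refine LCInfRes.res_cl₂_eq_zero (basisLoc P q t) (Ox q (Dloc P q t)) (basisLoc N q t)
    (Subgroup.inclusion (Dloc_mono hNP q t)) (mem_basisLoc_lvlLoc S q t hN) ?_ _ c
  intro g
  constructor
  · intro hg
    exact ⟨⟨(g : primeLocalGaloisGroup q), hg⟩, Subtype.ext rfl⟩
  · rintro ⟨n, rfl⟩
    exact n.2

/-- a `p^k`-torsion local class dies on `Dloc N q t` as soon as `p^k` divides the local degree. -/
theorem locRes_eq_zero_of_pow (hN : (globalBasis S).mem N)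
    (F : Fermat.Agent.S55.LM.Out.Facts q (Dloc P q t)) {p k : ℕ}
    (hk : p ^ k ∣ (lvlLoc N P q t).index)
    (a : H2 (basisLoc P q t) (Ox q (Dloc P q t))) (ha : p ^ k • a = 0) :
    (locRes hNP q t).h2 a = 0 := by
  have hmem : (basisLoc P q t).mem (lvlLoc N P q t) := mem_basisLoc_lvlLoc S q t hN
  haveI : (lvlLoc N P q t).Normal := (basisLoc P q t).normal hmem
  haveI : (lvlLoc N P q t).FiniteIndex := (basisLoc P q t).finiteIndex hmem
  haveI : Finite (↥(Dloc P q t) ⧸ lvlLoc N P q t) := Subgroup.finite_quotient_of_finiteIndex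
  obtain ⟨y, rfl⟩ := Fermat.Agent.S55.LM.TorsLevel.mem_range_ι₂_Ox_pow q (Dloc P q t) F
    (lvlLoc N P q t) hmem hk a ha
  exact locRes_ι₂_eq_zero S q t hNP hN y

end LocalStep


/-! ### the global step -/

section GlobalStep

variable (p : ℕ) [Fact p.Prime] {N : Subgroup GQ} (hNP : N ≤ P)

include hNP in
/-- `N ∈ globalBasis S`, `N ≤ P` inherits the standing hypotheses from `P`. -/
theorem level_of_le (hN : (globalBasis S).mem N) (hP : Level p S P) : Level p S N :=
  ⟨⟨N, hN, le_rfl⟩, fun g hg => hP.triv g (hNP hg)⟩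

/-- restriction preserves torsion. -/
theorem nsmul_resOS (n : ℕ) (x : H2 (basisP S P) (resP P (OS S))) (hx : n • x = 0) :
    n • (resOS S hNP).h2 x = 0 :=
  (map_nsmul (resOS S hNP).h2 n x).symm.trans ((congrArg (resOS S hNP).h2 hx).trans (map_zero _))

/-- the local component at `(q, t)` of the restriction to `N` of `i₂ x` vanishes as soon as the
local component over `P` is killed by `p^k` and `p^k` divides the local degree. -/
theorem locOS_res_eq_zero (hN : (globalBasis S).mem N) (q : Nat.Primes) (t : GQ)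
    (F : Fermat.Agent.S55.LM.Out.Facts q (Dloc P q t)) (k : ℕ)
    (hk : p ^ k ∣ (lvlLoc N P q t).index)
    (x : H2 (basisP S P) (resP P (OS S)))
    (hloc : p ^ k • (locKS S P q t).h2 (i₂ S P (basisP S P) x) = 0) :
    (locOS S N q t).h2 ((resOS S hNP).h2 x) = 0 := by
  have e1 : (locOS S N q t).h2 ((resOS S hNP).h2 x) =
      (locKS S N q t).h2 (i₂ S N (basisP S N) ((resOS S hNP).h2 x)) :=
    (HasseOStep.locKS_i₂ S N q t ((resOS S hNP).h2 x)).symm
  have e2 : i₂ S N (basisP S N) ((resOS S hNP).h2 x) =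
      (resKS S hNP).h2 (i₂ S P (basisP S P) x) := i₂_resPH S hNP x
  have e3 := locKS_resPH_h2 S hNP q t (i₂ S P (basisP S P) x)
  have e4 := locRes_eq_zero_of_pow S q t hNP hN F hk _ hloc
  have e5 : (locKS S N q t).h2 (i₂ S N (basisP S N) ((resOS S hNP).h2 x)) =
      (locKS S N q t).h2 ((resKS S hNP).h2 (i₂ S P (basisP S P) x)) :=
    congrArg (locKS S N q t).h2 e2
  exact e1.trans (e5.trans (e3.trans e4))

set_option maxHeartbeats 1000000 in
/-- **Restriction to a deep level kills `p`-primary classes with bounded local torsion.**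
`x ∈ H²_LC(P; O_S)` of `p`-power order whose local components at `S` (all `t`) are killed by `p^k`
restricts to `0` on `N`, if `p^k` divides all local degrees of `N` in `P` above `S`. -/
theorem res_i₂_eq_zero (hO : Blocks.HasseO p S) (hN : (globalBasis S).mem N) (hP : Level p S P)
    (F : ∀ (q : ↥S) (t : GQ), Fermat.Agent.S55.LM.Out.Facts q.1 (Dloc P q.1 t)) (k : ℕ)
    (hk : ∀ (q : ↥S) (t : GQ), p ^ k ∣ (lvlLoc N P q.1 t).index)
    (x : H2 (basisP S P) (resP P (OS S))) (j : ℕ) (hx : p ^ j • x = 0)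
    (hloc : ∀ (q : ↥S) (t : GQ), p ^ k • (locKS S P q.1 t).h2 (i₂ S P (basisP S P) x) = 0) :
    (resKS S hNP).h2 (i₂ S P (basisP S P) x) = 0 := by
  haveI : N.FiniteIndex := (globalBasis S).finiteIndex hN
  obtain ⟨R'⟩ := nonempty_reps S N
  have hlts : LTSO R' ((resOS S hNP).h2 x) := fun i =>
    locOS_res_eq_zero S p hNP hN i.1.1 i.2.1 (F i.1 i.2.1) k (hk i.1 i.2.1) x (hloc i.1 i.2.1)
  have h0 : (resOS S hNP).h2 x = 0 :=
    hO N (level_of_le S p hNP hN hP) R' ((resOS S hNP).h2 x) j (nsmul_resOS S hNP _ x hx) hlts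
  have e2 : i₂ S N (basisP S N) ((resOS S hNP).h2 x) =
      (resKS S hNP).h2 (i₂ S P (basisP S P) x) := i₂_resPH S hNP x
  exact e2.symm.trans ((congrArg (i₂ S N (basisP S N)) h0).trans (map_zero _))

end GlobalStep

/-! ### inflation–restriction: the descent -/

section Descent

variable {N : Subgroup GQ} (hNP : N ≤ P)

/-- the finite level of `↥P` cut out by `N`. -/
abbrev lvlP (N P : Subgroup GQ) : Subgroup ↥P := N.subgroupOf P

theorem mem_basisP_lvlP (hN : (globalBasis S).mem N) : (basisP S P).mem (lvlP N P) :=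
  ⟨N, hN, rfl⟩

/-- global restriction is `Mor.res` along the inclusion. -/
theorem resKS_h2_eq (z : H2 (basisP S P) (resP P (KS S))) :
    (resKS S hNP).h2 z =
      (Mor.res (basisP S P) (basisP S N) (Subgroup.inclusion hNP) (resKS S hNP).cont
        (resP P (KS S))).h2 z := rfl

/-- **Inflation–restriction** for `ℚ_Sˣ` over the `K`-site: a class of `H²_LC(P; ℚ_Sˣ)` whose
restriction to `N` vanishes comes from the finite level `N` (Hilbert 90 for `N`). -/
theorem exists_inflH2_of_resKS_eq_zero (hN : (globalBasis S).mem N) [(lvlP N P).Normal]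
    (z : H2 (basisP S P) (resP P (KS S))) (hz : (resKS S hNP).h2 z = 0) :
    ∃ y : groupCohomology.H2 (Dict.Inv (resP P (KS S)) (lvlP N P)),
      Dict.inflH2 (basisP S P) (resP P (KS S)) (mem_basisP_lvlP S hN) y = z := by
  refine LCInfRes.exists_inflH2_of_res_eq_zero (basisP S P) (resP P (KS S)) (basisP S N)
    (Subgroup.inclusion hNP) (mem_basisP_lvlP S hN) ?_ (resKS S hNP).cont ?_ ?_ z
    ((resKS_h2_eq S hNP z).symm.trans hz)
  · intro g
    constructor
    · intro hg
      exact ⟨⟨(g : GQ), hg⟩, Subtype.ext rfl⟩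
    · rintro ⟨n, rfl⟩
      exact n.2
  · rintro W ⟨U, hU, rfl⟩
    exact ⟨U.subgroupOf P, ⟨U, hU, rfl⟩, fun n hn => hn⟩
  · exact BlocksC1.h90Kx S N ⟨N, hN, le_rfl⟩

end Descent

/-! ### `hdesc` -/

section Main

variable (p : ℕ) [Fact p.Prime] {N : Subgroup GQ}

/-- **Descent (`hdesc` of `ImageLevel.adj_of_level / not_rel_of_level`), `O_S`-form.**
`P` with `Level p S P`, `N ∈ globalBasis S`, `N ≤ P`, such that `p^k` divides all local degrees of
`N` in `P` above `S`.  If `x ∈ H²_LC(P; O_S)` has `p`-power order and the local components of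
`i₂ x ∈ H²_LC(P; ℚ_Sˣ)` at the places `R` above `S` are killed by `p^k`, then `i₂ x` comes from
the finite level `N`. -/
theorem hdesc (hO : Blocks.HasseO p S) (hN : (globalBasis S).mem N) (hNP : N ≤ P)
    (hP : Level p S P) [(lvlP N P).Normal] (R : Reps S P)
    (F : ∀ (q : ↥S) (t : GQ), Fermat.Agent.S55.LM.Out.Facts q.1 (Dloc P q.1 t)) (k : ℕ)
    (hk : ∀ (q : ↥S) (t : GQ), p ^ k ∣ (lvlLoc N P q.1 t).index)
    (x : H2 (basisP S P) (resP P (OS S))) (j : ℕ) (hx : p ^ j • x = 0)
    (hloc : ∀ i : R.Idx, p ^ k • (locKS S P i.1.1 i.2.1).h2 (i₂ S P (basisP S P) x) = 0) :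
    ∃ y : groupCohomology.H2 (Dict.Inv (resP P (KS S)) (lvlP N P)),
      Dict.inflH2 (basisP S P) (resP P (KS S)) (mem_basisP_lvlP S hN) y =
        i₂ S P (basisP S P) x :=
  exists_inflH2_of_resKS_eq_zero S hNP hN _
    (res_i₂_eq_zero S p hNP hO hN hP F k hk x j hx
      (LocCover.locKS_nsmul_all R (p ^ k) _ hloc))

/-- **Descent**, for a class `z ∈ H²_LC(P; ℚ_Sˣ)` which is `i₂` of a `p`-primary class (what
`Image.lift_torsion` produces from `off z = 0`), with `ι₂` of `Formal/LCLevelH`. -/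
theorem hdesc_ι₂ (hO : Blocks.HasseO p S) (hN : (globalBasis S).mem N) (hNP : N ≤ P)
    (hP : Level p S P) [(lvlP N P).Normal] [Finite (↥P ⧸ lvlP N P)] (R : Reps S P)
    (F : ∀ (q : ↥S) (t : GQ), Fermat.Agent.S55.LM.Out.Facts q.1 (Dloc P q.1 t)) (k : ℕ)
    (hk : ∀ (q : ↥S) (t : GQ), p ^ k ∣ (lvlLoc N P q.1 t).index)
    (z : H2 (basisP S P) (resP P (KS S)))
    (hz : ∃ (x : H2 (basisP S P) (resP P (OS S))) (j : ℕ),
      p ^ j • x = 0 ∧ i₂ S P (basisP S P) x = z)
    (hloc : ∀ i : R.Idx, p ^ k • (locKS S P i.1.1 i.2.1).h2 z = 0) :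
    ∃ y : groupCohomology.H2 ((resP P (KS S)).quotientToInvariants (lvlP N P)),
      LCLevelH.ι₂ (basisP S P) (resP P (KS S)) (lvlP N P) (mem_basisP_lvlP S hN) y = z := by
  obtain ⟨x, j, hx, rfl⟩ := hz
  obtain ⟨y, hy⟩ := hdesc S p hO hN hNP hP R F k hk x j hx hloc
  refine ⟨y, ?_⟩
  rw [← DictBridge.inflH2_eq_ι₂]
  exact hy

end Main

end

end Fermat.Agent.S55.Middle.ImageDesc
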