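/-
S55 / MIDDLE block, ImageInst hub, leaf (W2) "descent" (helper38): the final forms of `hdesc`.

On top of `Middle/ImageDesc.lean`:

* `dvd_index_all`       : for `N` normal in `G_ℚ` the local index `[Dloc P q t : Dloc N q t]` only
  depends on the double coset of `t` (`index_lvlLoc_tw`); so divisibility at the representatives
  `R : Reps S P` gives it at all `(q, t)`, `q ∈ S`;
* `exists_os_lift`      : a `p`-primary class `z ∈ H²_LC(P; ℚ_Sˣ)` which is locally trivial off `S`
  (`CapLToff.LToffP`) is `i₂ x` for a `p`-primary `x ∈ H²_LC(P; O_S)` (`Image.lift_torsion`);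
* `hdesc_of_dvd`        : descent at ONE level `N ∈ globalBasis S`, `N ≤ P`, with `p^k ∣` the local
  indices at the representatives: `z` `p`-primary, `LToffP z`, `p^k • locK_i z = 0` (`i : R.Idx`)
  ⇒ `z = ι₂ (lvlP N P) y`;
* `hdesc_cyclo`         : **descent to every deep cyclotomic level**: there is `m₀` such that for all
  `m ≥ m₀` and all `N ∈ globalBasis S`, `N ≤ P`, `N ≤ fixRoots (p^m)` the same holds;
* `hdesc_field_of_dvd`, `hdesc_field` : the same in the field language of `GaloisDictModel` /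
  `LocS.Statement`: `z = ι₂ (lvl P L) ((cohIsoExt S P L hKL hL hle 2).inv y)`,
  `y ∈ H²(Gal(L'/K), L'ˣ)`.

`Blocks.HasseO p S` stays a hypothesis (`UnramOffAdapter.hasseO` discharges it).
-/
import Fermat.Agent.S55.Middle.ImageDesc
import Fermat.Agent.S55.Middle.CycloGrowLevel
import Fermat.Agent.S55.Middle.CapLToff
import Fermat.Agent.S55.Middle.Image
import Fermat.Agent.S55.Middle.GaloisDictModel
import Fermat.Agent.S55.LM.DlocFields

set_option autoImplicit false
set_option linter.unusedSectionVars false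
set_option linter.style.haveILetI false

open CategoryTheory groupCohomology ExtCitation

namespace Fermat.Agent.S55.Middle.ImageDescField

noncomputable section

open Fermat.Agent.S55.Formal
open Fermat.Agent.S55.Formal.PreludeLC hiding GQ Qbar
open Fermat.Agent.S55.Bridge.ShapiroLC Fermat.Agent.S55.Bridge.Mackey
open Fermat.Agent.S55.Middle.Defs Fermat.Agent.S55.Middle.KSite
open Fermat.Agent.S55.Middle.Blocks Fermat.Agent.S55.Middle.LESGlueV
open Fermat.Agent.S55.LM.Defs Fermat.Agent.S55.Middle.ImageDesc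
open Fermat.Agent.S55.Middle.LocCover

attribute [local instance] Fermat.Agent.S55.LM.Defs.fact_q

variable {S : Finset Nat.Primes} {P N : Subgroup GQ}

/-! ### the local index does not depend on the representative -/

section Index

variable (q : Nat.Primes) (t : GQ) (v : ↥P) (d : primeLocalGaloisGroup q)

theorem conjD_surjective : Function.Surjective (conjD P q t v d) := by
  rintro ⟨e, he⟩
  have he' : t * primeLocalToGlobal q e * t⁻¹ ∈ P := he
  have hmem : d⁻¹ * e * d ∈ Dloc P q (tw P q t v d) := by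
    show tw P q t v d * primeLocalToGlobal q (d⁻¹ * e * d) * (tw P q t v d)⁻¹ ∈ P
    have e1 : tw P q t v d * primeLocalToGlobal q (d⁻¹ * e * d) * (tw P q t v d)⁻¹ =
        (v : GQ) * (t * primeLocalToGlobal q e * t⁻¹) * (v : GQ)⁻¹ := by
      simp only [LocCover.tw, map_mul, map_inv]
      group
    rw [e1]
    exact P.mul_mem (P.mul_mem v.2 he') (P.inv_mem v.2)
  refine ⟨⟨d⁻¹ * e * d, hmem⟩, Subtype.ext ?_⟩
  show d * (d⁻¹ * e * d) * d⁻¹ = e
  group

theorem mem_Dloc_iff_of_normal [N.Normal] (s : GQ) (e : primeLocalGaloisGroup q) :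
    e ∈ Dloc N q s ↔ primeLocalToGlobal q e ∈ N := by
  have h := Dloc_eq_comap (N := N) q s
  rw [h]
  rfl

theorem comap_conjD_lvlLoc [N.Normal] :
    (lvlLoc N P q t).comap (conjD P q t v d) = lvlLoc N P q (tw P q t v d) := by
  ext d'
  show d * (d' : primeLocalGaloisGroup q) * d⁻¹ ∈ Dloc N q t ↔
    (d' : primeLocalGaloisGroup q) ∈ Dloc N q (tw P q t v d)
  rw [mem_Dloc_iff_of_normal, mem_Dloc_iff_of_normal]
  rw [map_mul, map_mul, map_inv]
  constructor
  · intro h
    have := Subgroup.Normal.conj_mem (inferInstance : N.Normal) _ h (primeLocalToGlobal q d)⁻¹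
    simpa [mul_assoc] using this
  · intro h
    exact Subgroup.Normal.conj_mem (inferInstance : N.Normal) _ h (primeLocalToGlobal q d)

/-- the local index at `t' = v t ι(d)` equals the local index at `t`. -/
theorem index_lvlLoc_tw [N.Normal] :
    (lvlLoc N P q (tw P q t v d)).index = (lvlLoc N P q t).index := by
  rw [← comap_conjD_lvlLoc q t v d]
  exact Subgroup.index_comap_of_surjective _ (conjD_surjective q t v d)

/-- divisibility of the local indices at the representatives gives it at every `t`. -/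
theorem dvd_index_all [N.Normal] (R : Reps S P) (n : ℕ)
    (h : ∀ i : R.Idx, n ∣ (lvlLoc N P i.1.1 i.2.1).index) (q : ↥S) (t' : GQ) :
    n ∣ (lvlLoc N P q.1 t').index := by
  obtain ⟨t, ht, v, d, rfl⟩ := R.covers q t'
  have e := index_lvlLoc_tw (N := N) q.1 t v d
  rw [show (lvlLoc N P q.1 ((v : GQ) * t * primeLocalToGlobal q.1 d)).index =
    (lvlLoc N P q.1 t).index from e]
  exact h ⟨q, ⟨t, ht⟩⟩

end Index

/-! ### from `off z = 0` to `z = i₂ x` with `x` of `p`-power order -/

section Lift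

variable (S) (p : ℕ) [Fact p.Prime]

/-- a `p`-primary class of `H²_LC(P; ℚ_Sˣ)` which is locally trivial off `S` is `i₂` of a
`p`-primary class of `H²_LC(P; O_S)`. -/
theorem exists_os_lift (hpS : pPrime p ∈ S) (hP : IsOpenS S P)
    (z : H2 (basisP S P) (resP P (KS S))) (hz : ∃ n : ℕ, p ^ n • z = 0)
    (hoff : CapLToff.LToffP S (BlocksC1.isOpenSub_of_isOpenS S hP) z) :
    ∃ (x : H2 (basisP S P) (resP P (OS S))) (j : ℕ),
      p ^ j • x = 0 ∧ i₂ S P (basisP S P) x = z := by
  obtain ⟨n, hn⟩ := hz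
  have hc := LESGlueV.isCont_subBasis (S := S) (H := P)
  have hπ : π₂ S P (basisP S P) z = 0 :=
    CapLToff.hres_P S (BlocksC1.isOpenSub_of_isOpenS S hP) p hpS z ⟨n, hn⟩ hoff
  obtain ⟨x, hx, hxz⟩ := Image.lift_torsion p n (i₂ S P (basisP S P)) (π₂ S P (basisP S P))
    (d₁ hc) (exists_i₂_of_π₂ hc) (exists_d₁_of_i₂ hc) (i₂_d₁ hc)
    (CapLToff.hPdiv_P S (BlocksC1.isOpenSub_of_isOpenS S hP) p hpS) z hn hπ
  exact ⟨x, n, hx, hxz⟩

end Lift


section Cyclo

variable (S) (p : ℕ) [Fact p.Prime]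

/-- **Descent at a level with enough local index**: the local divisibility is only needed at the
representatives, `z` is only assumed `p`-primary and locally trivial off `S`. -/
theorem hdesc_of_dvd (hpS : pPrime p ∈ S) (hO : Blocks.HasseO p S)
    (hP : Level p S P) (R : Reps S P) (k : ℕ) (hN : (globalBasis S).mem N) (hNP : N ≤ P)
    [(lvlP N P).Normal] [Finite (↥P ⧸ lvlP N P)]
    (h1 : ∀ i : R.Idx, p ^ k ∣ (lvlLoc N P i.1.1 i.2.1).index)
    (z : H2 (basisP S P) (resP P (KS S))) (hz : ∃ n : ℕ, p ^ n • z = 0)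
    (hoff : CapLToff.LToffP S (BlocksC1.isOpenSub_of_isOpenS S hP.isOpen) z)
    (hloc : ∀ i : R.Idx, p ^ k • (locKS S P i.1.1 i.2.1).h2 z = 0) :
    ∃ y : groupCohomology.H2 ((resP P (KS S)).quotientToInvariants (lvlP N P)),
      LCLevelH.ι₂ (basisP S P) (resP P (KS S)) (lvlP N P) (mem_basisP_lvlP S hN) y = z := by
  haveI : N.Normal := (globalBasis S).normal hN
  have hk : ∀ (q : ↥S) (t : GQ), p ^ k ∣ (lvlLoc N P q.1 t).index :=
    dvd_index_all R (p ^ k) h1
  have F : ∀ (q : ↥S) (t : GQ), Fermat.Agent.S55.LM.Out.Facts q.1 (Dloc P q.1 t) :=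
    fun q t => Fermat.Agent.S55.LM.DlocFields.facts_Dloc S P q.1 t hP.isOpen
  have hz' := exists_os_lift S p hpS hP.isOpen z hz hoff
  exact hdesc_ι₂ S p hO hN hNP hP R F k hk z hz' hloc

open Fermat.Agent.S55.Middle.CycloGrowIndex in
theorem hdesc_cyclo (hodd : Odd p) (hpS : pPrime p ∈ S) (hO : Blocks.HasseO p S)
    (hP : Level p S P) (R : Reps S P) (k : ℕ) :
    ∃ m₀ : ℕ, ∀ m, m₀ ≤ m → ∀ (N : Subgroup GQ) (hN : (globalBasis S).mem N), N ≤ P →
      N ≤ fixRoots (p ^ m) →
      ∀ [(lvlP N P).Normal] [Finite (↥P ⧸ lvlP N P)] (z : H2 (basisP S P) (resP P (KS S))),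
        (∃ n : ℕ, p ^ n • z = 0) →
        CapLToff.LToffP S (BlocksC1.isOpenSub_of_isOpenS S hP.isOpen) z →
        (∀ i : R.Idx, p ^ k • (locKS S P i.1.1 i.2.1).h2 z = 0) →
        ∃ y : groupCohomology.H2 ((resP P (KS S)).quotientToInvariants (lvlP N P)),
          LCLevelH.ι₂ (basisP S P) (resP P (KS S)) (lvlP N P) (mem_basisP_lvlP S hN) y = z :=
  (CycloGrowLevel.exists_cycloLevel p hodd hP.isOpen hP.triv R k).imp
    fun _ h m hm N hN hNP hfix _ _ z hz hoff hloc =>
      hdesc_of_dvd S p hpS hO hP R k hN hNP (fun i => h m hm i N hNP hfix) z hz hoff hloc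

end Cyclo

/-! ### the field language of `GaloisDictModel` / `LocS.Statement` -/

section Field

open Fermat.Agent.S55.Middle.GaloisDict Fermat.Agent.S55.Middle.GaloisDictModel
open Fermat.Agent.S55.Formal.LCLevelH

variable (S) (p : ℕ) [Fact p.Prime]

/-- the fixing subgroup of a normal level field is a member of the global basis. -/
theorem mem_globalBasis_fixingSubgroup (L : IntermediateField ℚ Qbar) [Normal ℚ L]
    (hL : L.IsUnramifiedOutside S) : (globalBasis S).mem L.fixingSubgroup :=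
  ⟨L, hL, by rw [← resL_ker L]; infer_instance, rfl⟩

/-- **Descent, field form.**  `z ∈ H²_LC(P; ℚ_Sˣ)` `p`-primary, locally trivial off `S`, with local
components at the representatives killed by `p^k`; `L` a level field whose local degrees over
`K = ℚ̄^P` at the representatives are all divisible by `p^k`.  Then `z` is the inflation of a class
`y ∈ H²(Gal(L'/K), L'ˣ)`. -/
theorem hdesc_field_of_dvd (hpS : pPrime p ∈ S) (hO : Blocks.HasseO p S)
    (hP : Level p S P) (R : Reps S P) (k : ℕ)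
    (L : IntermediateField ℚ Qbar) [Normal ℚ L] (hL : L.IsUnramifiedOutside S)
    (hle : L.fixingSubgroup ≤ P) (hKL : K₀ P ≤ L) [Finite (↥P ⧸ lvl P L)]
    (hV : (basisP S P).mem (lvl P L))
    (h1 : ∀ i : R.Idx, p ^ k ∣ (lvlLoc L.fixingSubgroup P i.1.1 i.2.1).index)
    (z : H2 (basisP S P) (resP P (KS S))) (hz : ∃ n : ℕ, p ^ n • z = 0)
    (hoff : CapLToff.LToffP S (BlocksC1.isOpenSub_of_isOpenS S hP.isOpen) z)
    (hloc : ∀ i : R.Idx, p ^ k • (locKS S P i.1.1 i.2.1).h2 z = 0) :
    ∃ y : groupCohomology (Rep.ofAlgebraAutOnUnits ↥(K₀ P) ↥(Lext P L hKL)) 2,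
      ι₂ (basisP S P) (resP P (KS S)) (lvl P L) hV
        ((cohIsoExt S P L hKL hL hle 2).inv.hom y) = z := by
  obtain ⟨y₀, hy₀⟩ := hdesc_of_dvd S p hpS hO hP R k (mem_globalBasis_fixingSubgroup S L hL) hle
    h1 z hz hoff hloc
  refine ⟨(cohIsoExt S P L hKL hL hle 2).hom.hom y₀, ?_⟩
  have e : (cohIsoExt S P L hKL hL hle 2).inv.hom ((cohIsoExt S P L hKL hL hle 2).hom.hom y₀) = y₀ :=
    Iso.hom_inv_id_apply (cohIsoExt S P L hKL hL hle 2) y₀
  rw [e]
  exact hy₀

open Fermat.Agent.S55.Middle.CycloGrowIndex in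
/-- **Descent to deep level fields.**  There is `m₀` such that every level field `L ⊇ K(μ_{p^m})`,
`m ≥ m₀`, works in `hdesc_field_of_dvd`. -/
theorem hdesc_field (hodd : Odd p) (hpS : pPrime p ∈ S) (hO : Blocks.HasseO p S)
    (hP : Level p S P) (R : Reps S P) (k : ℕ) :
    ∃ m₀ : ℕ, ∀ m, m₀ ≤ m →
      ∀ (L : IntermediateField ℚ Qbar) [Normal ℚ L] (hL : L.IsUnramifiedOutside S)
        (hle : L.fixingSubgroup ≤ P) (hKL : K₀ P ≤ L) [Finite (↥P ⧸ lvl P L)]
        (hV : (basisP S P).mem (lvl P L)), L.fixingSubgroup ≤ fixRoots (p ^ m) →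
      ∀ (z : H2 (basisP S P) (resP P (KS S))), (∃ n : ℕ, p ^ n • z = 0) →
        CapLToff.LToffP S (BlocksC1.isOpenSub_of_isOpenS S hP.isOpen) z →
        (∀ i : R.Idx, p ^ k • (locKS S P i.1.1 i.2.1).h2 z = 0) →
        ∃ y : groupCohomology (Rep.ofAlgebraAutOnUnits ↥(K₀ P) ↥(Lext P L hKL)) 2,
          ι₂ (basisP S P) (resP P (KS S)) (lvl P L) hV
            ((cohIsoExt S P L hKL hL hle 2).inv.hom y) = z :=
  (CycloGrowLevel.exists_cycloLevel p hodd hP.isOpen hP.triv R k).imp
    fun _ h m hm L _ hL hle hKL _ hV hfix z hz hoff hloc =>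
      hdesc_field_of_dvd S p hpS hO hP R k L hL hle hKL hV
        (fun i => h m hm i L.fixingSubgroup hle hfix) z hz hoff hloc

end Field

end

end Fermat.Agent.S55.Middle.ImageDescField
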