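/-
S55 / Middle / H3 (helper37): the ABSTRACT SKELETON of step (C5) of the Middle plan
(helper17, report 1585), in the style of `Middle/Hasse.lean`.  Mathlib only; no cochains occur here.

Notation of the plan: `O` = `S`-units of `ℚ_S`, `Kx = ℚ_Sˣ`, `Prin = Kx/O`, `μ = μ_p`; all cohomology
groups are LC cohomology groups of an open subgroup `U = Gal(ℚ̄/K)`.  The long exact sequences

  (Div)  `H²(Kx) -π→ H²(Prin) -d→ H³(O) -i→ H³(Kx)`,      (Kum)  `H²(O) -p→ H²(O) -k→ H³(μ) -j→ H³(O)`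

enter only through the exactness statements used below.

* `exists_primary_add_coprime` : splitting of a torsion element into its `p`-primary and prime-to-`p`
  parts.
* `h3O_eq_zero` : **(C5), first half**: `H³(O)(p) = 0`  (inputs: (HBN-H3) in colimit form,
  injectivity of the residues on `H²(Prin)(p)`, realisation of residues by classes of `H²(Kx)(p)`).
* `h3mu_eq_zero` : **(C5), second half = (A-V) global**: `H³(μ_p) = 0`  (inputs: `H³(O)(p) = 0`,
  `p`-divisibility of `H²(O)(p)`).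
-/
import Mathlib

set_option autoImplicit false

namespace Fermat.Agent.S55.Middle.H3

/-- A torsion element is the sum of an element of `p`-power order and an element of order prime
to `p`. -/
theorem exists_primary_add_coprime {H : Type*} [AddCommGroup H] (p : ℕ) [hp : Fact p.Prime]
    (x : H) (hx : ∃ N : ℕ, 0 < N ∧ N • x = 0) :
    ∃ xp x' : H, x = xp + x' ∧ (∃ n : ℕ, p ^ n • xp = 0) ∧
      (∃ m : ℕ, Nat.Coprime m p ∧ m • x' = 0) := by
  obtain ⟨N, hN, hNx⟩ := hx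
  obtain ⟨a, m, hm, rfl⟩ := Nat.exists_eq_pow_mul_and_not_dvd hN.ne' p hp.out.ne_one
  have hcop : Nat.Coprime (p ^ a) m :=
    Nat.Coprime.pow_left a ((Nat.Prime.coprime_iff_not_dvd hp.out).mpr hm)
  have hbez : ((p ^ a : ℕ) : ℤ) * Nat.gcdA (p ^ a) m + (m : ℤ) * Nat.gcdB (p ^ a) m = 1 := by
    have := Nat.gcd_eq_gcd_ab (p ^ a) m
    rw [hcop] at this
    exact_mod_cast this.symm
  set u : ℤ := Nat.gcdA (p ^ a) m
  set v : ℤ := Nat.gcdB (p ^ a) m
  have hNx' : (((p ^ a * m : ℕ) : ℤ)) • x = 0 := by rw [natCast_zsmul]; exact hNx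
  refine ⟨((m : ℤ) * v) • x, (((p ^ a : ℕ) : ℤ) * u) • x, ?_, ⟨a, ?_⟩, ⟨m, ?_, ?_⟩⟩
  · rw [← add_smul, add_comm, hbez, one_smul]
  · rw [← natCast_zsmul, ← mul_smul]
    have : ((p ^ a : ℕ) : ℤ) * ((m : ℤ) * v) = v * ((p ^ a * m : ℕ) : ℤ) := by push_cast; ring
    rw [this, mul_smul, hNx', smul_zero]
  · exact (Nat.Prime.coprime_iff_not_dvd hp.out).mpr hm |>.symm
  · rw [← natCast_zsmul, ← mul_smul]
    have : (m : ℤ) * (((p ^ a : ℕ) : ℤ) * u) = u * ((p ^ a * m : ℕ) : ℤ) := by push_cast; ring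
    rw [this, mul_smul, hNx', smul_zero]

/-- An element killed by `p ^ n` and by an `m` prime to `p` is zero. -/
theorem eq_zero_of_pow_smul_of_coprime_smul {H : Type*} [AddCommGroup H] (p : ℕ)
    (x : H) (n m : ℕ) (hm : Nat.Coprime m p) (h1 : p ^ n • x = 0) (h2 : m • x = 0) : x = 0 := by
  have hcop : Nat.Coprime (p ^ n) m := Nat.Coprime.pow_left n hm.symm
  have hbez : ((p ^ n : ℕ) : ℤ) * Nat.gcdA (p ^ n) m + (m : ℤ) * Nat.gcdB (p ^ n) m = 1 := by
    have := Nat.gcd_eq_gcd_ab (p ^ n) m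
    rw [hcop] at this
    exact_mod_cast this.symm
  have h1' : ((p ^ n : ℕ) : ℤ) • x = 0 := by rw [natCast_zsmul]; exact h1
  have h2' : (m : ℤ) • x = 0 := by rw [natCast_zsmul]; exact h2
  calc x = (1 : ℤ) • x := (one_smul _ _).symm
    _ = (((p ^ n : ℕ) : ℤ) * Nat.gcdA (p ^ n) m + (m : ℤ) * Nat.gcdB (p ^ n) m) • x := by rw [hbez]
    _ = 0 := by
      rw [add_smul, mul_comm, mul_smul, h1', smul_zero, mul_comm, mul_smul, h2', smul_zero,
        add_zero]

section Skeleton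

variable {H2K H2P H3O H3K Res : Type*} [AddCommGroup H2K] [AddCommGroup H2P] [AddCommGroup H3O]
  [AddCommGroup H3K] [AddCommGroup Res]

/-- **(C5), first half: `H³(O)(p) = 0`.**

* `hdπ`, `hex3` : (Div) is a complex at `H²(Prin)` and exact at `H³(O)`;
* `hH3K`  : (HBN-H3) in colimit form: `H³(Kx)` has no element of `p`-power order;
* `htors` : `H²(Prin)` is a torsion group;
* `hρinj` : (C2) the residue map `ρ` is injective on the elements of `p`-power order of `H²(Prin)`;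
* `hreal` : (C4 for a larger set `T ⊇ S` + local residue isomorphism) the residues of an element of
  `p`-power order of `H²(Prin)` are the residues of a class of `p`-power order of `H²(Kx)`. -/
theorem h3O_eq_zero (p : ℕ) [hp : Fact p.Prime] (π : H2K →+ H2P) (d : H2P →+ H3O) (i : H3O →+ H3K)
    (ρ : H2P →+ Res)
    (hdπ : ∀ z : H2K, d (π z) = 0)
    (hex3 : ∀ y : H3O, i y = 0 → ∃ e : H2P, d e = y)
    (hH3K : ∀ y : H3K, (∃ n : ℕ, p ^ n • y = 0) → y = 0)
    (htors : ∀ e : H2P, ∃ N : ℕ, 0 < N ∧ N • e = 0)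
    (hρinj : ∀ e : H2P, (∃ n : ℕ, p ^ n • e = 0) → ρ e = 0 → e = 0)
    (hreal : ∀ e : H2P, (∃ n : ℕ, p ^ n • e = 0) →
      ∃ z : H2K, (∃ n : ℕ, p ^ n • z = 0) ∧ ρ (π z) = ρ e)
    (y : H3O) (hy : ∃ n : ℕ, p ^ n • y = 0) : y = 0 := by
  obtain ⟨n, hn⟩ := hy
  have hiy : i y = 0 := hH3K (i y) ⟨n, by rw [← map_nsmul, hn, map_zero]⟩
  obtain ⟨e, rfl⟩ := hex3 y hiy
  -- split `e` into its `p`-primary and prime-to-`p` parts
  obtain ⟨ep, e', rfl, ⟨a, ha⟩, ⟨m, hm, hm'⟩⟩ := exists_primary_add_coprime p e (htors e)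
  -- the prime-to-`p` part dies in `H³(O)`
  have he' : d e' = 0 := by
    refine eq_zero_of_pow_smul_of_coprime_smul p (d e') (n + a) m hm ?_
      (by rw [← map_nsmul, hm', map_zero])
    have h1 : p ^ (n + a) • d (ep + e') = 0 := by rw [pow_add, mul_comm, mul_smul, hn, smul_zero]
    have h2 : p ^ (n + a) • d ep = 0 := by
      rw [← map_nsmul, pow_add, mul_smul, ha, smul_zero, map_zero]
    rw [map_add, smul_add, h2, zero_add] at h1
    exact h1
  -- the `p`-primary part comes from `H²(Kx)`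
  obtain ⟨z, ⟨b, hb⟩, hz⟩ := hreal ep ⟨a, ha⟩
  have hzep : π z = ep := by
    have h0 : π z - ep = 0 := by
      refine hρinj _ ⟨a + b, ?_⟩ (by rw [map_sub, hz, sub_self])
      rw [smul_sub, pow_add, mul_smul, ← map_nsmul, hb, map_zero, smul_zero, mul_comm, mul_smul, ha,
        smul_zero, sub_zero]
    exact sub_eq_zero.mp h0
  rw [map_add, he', add_zero, ← hzep, hdπ]

variable {H2O H3mu : Type*} [AddCommGroup H2O] [AddCommGroup H3mu]

/-- **(C5), second half: `H³(μ_p) = 0`** (this is (A-V) global).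

* `hmu`   : `H³(μ)` is killed by `p`;
* `hkp`, `hexmu` : (Kum) is a complex at `H²(O)` and exact at `H³(μ)`;
* `htorsO`: `H²(O)` is a torsion group;
* `hdiv`  : (C4) `H²(O)(p)` is `p`-divisible;
* `h3O`   : `H³(O)(p) = 0`. -/
theorem h3mu_eq_zero (p : ℕ) [hp : Fact p.Prime] (k : H2O →+ H3mu) (j : H3mu →+ H3O)
    (hmu : ∀ w : H3mu, p • w = 0)
    (hkp : ∀ x : H2O, k (p • x) = 0)
    (hexmu : ∀ w : H3mu, j w = 0 → ∃ x : H2O, k x = w)
    (htorsO : ∀ x : H2O, ∃ N : ℕ, 0 < N ∧ N • x = 0)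
    (hdiv : ∀ x : H2O, (∃ n : ℕ, p ^ n • x = 0) → ∃ y : H2O, p • y = x)
    (h3O : ∀ y : H3O, (∃ n : ℕ, p ^ n • y = 0) → y = 0)
    (w : H3mu) : w = 0 := by
  have hjw : j w = 0 := h3O (j w) ⟨1, by rw [pow_one, ← map_nsmul, hmu, map_zero]⟩
  obtain ⟨x, rfl⟩ := hexmu w hjw
  obtain ⟨xp, x', rfl, hxp, ⟨m, hm, hm'⟩⟩ := exists_primary_add_coprime p x (htorsO x)
  obtain ⟨y, rfl⟩ := hdiv xp hxp
  have hx' : k x' = 0 :=
    eq_zero_of_pow_smul_of_coprime_smul p (k x') 1 m hm (by rw [pow_one]; exact hmu _)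
      (by rw [← map_nsmul, hm', map_zero])
  rw [map_add, hkp, hx', add_zero]

end Skeleton

end Fermat.Agent.S55.Middle.H3
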