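/-
S55 / Middle / ImageLevel (helper37): the ABSTRACT FINITE-LEVEL CORE of steps (C4) and (C5) of the
Middle plan (helper17, reports 1585 and 1807).  Mathlib + `Middle/Image` + `Middle/H3`; plain abelian
groups, no cochains.

Convention of report 1807 (3b): "locally trivial off `S`" for a class `z ∈ H²(Kx)` means
`off z = 0`, where `off : H²(Kx) → H²(Div)` is induced by the valuations `Kx → Div`.  The relation
`R` of `Middle/Image` is taken TAUTOLOGICAL:

  `Rel p locK off a`  :=  `a = locK z` for some `z` of `p`-power order with `off z = 0`,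

so `hrecip`/`hexist` of `Image.image_iff` are trivial and ALL class field theory enters through the
two statements `hadj` (for divisibility) and `hgen` (for (A-G3)), which are proved here from
"level data" (one cyclotomic layer `L = K_m`):

* `H2L = H²(G_L, Lˣ)`, `infl : H2L → H²(Kx)`;
* `AL = ⊕_{v ∈ S_K} H²(G_L, (L ⊗ K_v)ˣ)`, `BL = ⊕_{v ∉ S_K} …`, `locL : H2L → AL`, `offL : H2L → BL`;
* `jA : AL → A` (local inflation, injective), `jB : BL → H²(Div)` with the two compatibilities;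
* `Λ : AL × BL → C`, `ker Λ = range (locL, offL)` [(HBN-coker)], the `p`-torsion of `C` cyclic,
  and an element `b₀ ∈ AL[p]` (supported at one place `v₀ ∈ S_K`) with `Λ b₀ ≠ 0` [(HBN-single)];
* descent: a class `z` of `p`-power order with `off z = 0` and `p^k • locK z = 0` comes from `H2L`
  [(HBN-inj) over `K_m` + inflation–restriction + `p^k ∣ n_v`].

Results: `adj_of_level`, `gen_of_level`, `not_rel_of_level` (no single support),
`real_of_level` (the realisation statement of (C5)), and the specialisations `image_iff_rel`,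
`exists_lift_mod_rel`, `divisible_rel`, `h3O_eq_zero_rel` of the skeletons.
-/
import Mathlib
import Fermat.Agent.S55.Middle.Image
import Fermat.Agent.S55.Middle.H3

set_option autoImplicit false

namespace Fermat.Agent.S55.Middle.ImageLevel

open Fermat.Agent.S55.Middle.Image Fermat.Agent.S55.Middle.H3

section Rel

variable {H2K A Dv : Type*} [AddCommGroup H2K] [AddCommGroup A] [AddCommGroup Dv]

/-- The tautological reciprocity relation: `a` is the `S`-component of a class of `p`-power order of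
`H²(Kx)` which is locally trivial off `S`. -/
def Rel (p : ℕ) (locK : H2K →+ A) (off : H2K →+ Dv) (a : A) : Prop :=
  ∃ z : H2K, (∃ n : ℕ, p ^ n • z = 0) ∧ off z = 0 ∧ locK z = a

theorem rel_recip (p : ℕ) (locK : H2K →+ A) (off : H2K →+ Dv) (z : H2K)
    (hz : ∃ n : ℕ, p ^ n • z = 0) (hoff : off z = 0) : Rel p locK off (locK z) :=
  ⟨z, hz, hoff, rfl⟩

theorem rel_zero (p : ℕ) (locK : H2K →+ A) (off : H2K →+ Dv) : Rel p locK off 0 :=
  ⟨0, ⟨0, by simp⟩, map_zero _, map_zero _⟩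

theorem Rel.add {p : ℕ} {locK : H2K →+ A} {off : H2K →+ Dv} {a b : A}
    (ha : Rel p locK off a) (hb : Rel p locK off b) : Rel p locK off (a + b) := by
  obtain ⟨z, ⟨n, hn⟩, hz, rfl⟩ := ha
  obtain ⟨w, ⟨m, hm⟩, hw, rfl⟩ := hb
  refine ⟨z + w, ⟨n + m, ?_⟩, by rw [map_add, hz, hw, add_zero], map_add _ _ _⟩
  have h1 : p ^ (n + m) • z = 0 := by rw [pow_add, mul_comm, mul_smul, hn, smul_zero]
  have h2 : p ^ (n + m) • w = 0 := by rw [pow_add, mul_smul, hm, smul_zero]
  rw [smul_add, h1, h2, add_zero]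

theorem Rel.neg {p : ℕ} {locK : H2K →+ A} {off : H2K →+ Dv} {a : A}
    (ha : Rel p locK off a) : Rel p locK off (-a) := by
  obtain ⟨z, ⟨n, hn⟩, hz, rfl⟩ := ha
  exact ⟨-z, ⟨n, by rw [smul_neg, hn, neg_zero]⟩, by rw [map_neg, hz, neg_zero], map_neg _ _⟩

theorem Rel.sub {p : ℕ} {locK : H2K →+ A} {off : H2K →+ Dv} {a b : A}
    (ha : Rel p locK off a) (hb : Rel p locK off b) : Rel p locK off (a - b) := by
  rw [sub_eq_add_neg]
  exact ha.add hb.neg

end Rel

section Level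

variable {H2K A Dv H2L AL BL C : Type*} [AddCommGroup H2K] [AddCommGroup A] [AddCommGroup Dv]
  [AddCommGroup H2L] [AddCommGroup AL] [AddCommGroup BL] [AddCommGroup C]

/-- **`hadj` from level data.**  `b ∈ A[p^(k+1)]` with `Rel (p • b)` can be corrected by a
`p`-torsion element `t` so that `Rel (b - t)`.

* `hpow`  : `H2L` is killed by a power of `p` (the degree of `L/K`);
* `hcA`, `hcB` : compatibility of the finite-level components with the LC-level ones;
* `hjA`   : local inflation is injective;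
* `htors` : `A[p^(k+1)]` comes from level `L` (`p^(k+1) ∣ n_v` for all `v ∈ S_K`);
* `hdesc` : descent to level `L`;
* `hker`  : (HBN-coker) `ker Λ = range (locL, offL)`;
* `hC`    : the `p`-torsion of `C` is cyclic;
* `b₀`    : (HBN-single) a `p`-torsion element of `AL` not killed by `Λ`. -/
theorem adj_of_level (p k : ℕ) (locK : H2K →+ A) (off : H2K →+ Dv)
    (infl : H2L →+ H2K) (locL : H2L →+ AL) (offL : H2L →+ BL) (jA : AL →+ A) (jB : BL →+ Dv)
    (Λ : AL × BL →+ C) (m : ℕ)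
    (hpow : ∀ y : H2L, p ^ m • y = 0)
    (hcA : ∀ y : H2L, locK (infl y) = jA (locL y))
    (hcB : ∀ y : H2L, off (infl y) = jB (offL y))
    (hjA : Function.Injective jA) (hjB : Function.Injective jB)
    (htors : ∀ a : A, p ^ (k + 1) • a = 0 → ∃ b : AL, jA b = a)
    (hdesc : ∀ z : H2K, (∃ n : ℕ, p ^ n • z = 0) → off z = 0 → p ^ (k + 1) • locK z = 0 →
      ∃ y : H2L, infl y = z)
    (hker : ∀ x : AL × BL, Λ x = 0 ↔ ∃ y : H2L, (locL y, offL y) = x)
    (hC : ∀ c c' : C, p • c = 0 → p • c' = 0 → c ≠ 0 → ∃ n : ℕ, c' = n • c)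
    (b₀ : AL) (hb₀ : p • b₀ = 0) (hΛb₀ : Λ (b₀, 0) ≠ 0)
    (b : A) (hb : p ^ (k + 1) • b = 0) (hR : Rel p locK off (p • b)) :
    ∃ t : A, p • t = 0 ∧ Rel p locK off (b - t) := by
  obtain ⟨z, hz, hzoff, hzb⟩ := hR
  obtain ⟨bL, rfl⟩ := htors b hb
  -- descend `z` to level `L`
  have hzk : p ^ (k + 1) • locK z = 0 := by
    rw [hzb, smul_comm, hb, smul_zero]
  obtain ⟨y, rfl⟩ := hdesc z hz hzoff hzk
  have hy1 : locL y = p • bL := hjA (by rw [← hcA, hzb, map_nsmul])
  have hy2 : offL y = 0 := hjB (by rw [← hcB, hzoff, map_zero])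
  -- `p • Λ (bL, 0) = 0`
  have hΛ : p • Λ (bL, 0) = 0 := by
    rw [← map_nsmul]
    refine (hker _).2 ⟨y, ?_⟩
    rw [hy1, hy2]
    simp
  have hΛ0 : p • Λ (b₀, 0) = 0 := by
    rw [← map_nsmul]
    have : p • ((b₀, 0) : AL × BL) = 0 := by
      ext
      · simpa using hb₀
      · simp
    rw [this, map_zero]
  obtain ⟨n, hn⟩ := hC _ _ hΛ0 hΛ hΛb₀
  -- correct by `n • b₀`
  have hΛ' : Λ (bL - n • b₀, 0) = 0 := by
    have : ((bL - n • b₀, 0) : AL × BL) = (bL, 0) - n • (b₀, 0) := by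
      ext <;> simp
    rw [this, map_sub, map_nsmul, hn, sub_self]
  obtain ⟨y', hy'⟩ := (hker _).1 hΛ'
  have hy'1 : locL y' = bL - n • b₀ := congrArg Prod.fst hy'
  have hy'2 : offL y' = 0 := congrArg Prod.snd hy'
  refine ⟨jA (n • b₀), ?_, infl y', ⟨m, ?_⟩, ?_, ?_⟩
  · rw [← map_nsmul, smul_comm, hb₀, smul_zero, map_zero]
  · rw [← map_nsmul, hpow, map_zero]
  · rw [hcB, hy'2, map_zero]
  · rw [hcA, hy'1, map_sub]

/-- **`hgen` from level data** (`k = 0`, i.e. `A[p]`): modulo `Rel`, `A[p]` is generated by `jA b₀`. -/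
theorem gen_of_level (p : ℕ) (locK : H2K →+ A) (off : H2K →+ Dv)
    (infl : H2L →+ H2K) (locL : H2L →+ AL) (offL : H2L →+ BL) (jA : AL →+ A) (jB : BL →+ Dv)
    (Λ : AL × BL →+ C) (m : ℕ)
    (hpow : ∀ y : H2L, p ^ m • y = 0)
    (hcA : ∀ y : H2L, locK (infl y) = jA (locL y))
    (hcB : ∀ y : H2L, off (infl y) = jB (offL y))
    (hjA : Function.Injective jA)
    (htors : ∀ a : A, p • a = 0 → ∃ b : AL, jA b = a)
    (hker : ∀ x : AL × BL, Λ x = 0 ↔ ∃ y : H2L, (locL y, offL y) = x)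
    (hC : ∀ c c' : C, p • c = 0 → p • c' = 0 → c ≠ 0 → ∃ n : ℕ, c' = n • c)
    (b₀ : AL) (hb₀ : p • b₀ = 0) (hΛb₀ : Λ (b₀, 0) ≠ 0)
    (a : A) (ha : p • a = 0) :
    ∃ n : ℕ, Rel p locK off (a - n • jA b₀) := by
  obtain ⟨bL, rfl⟩ := htors a ha
  have hbL : p • bL = 0 := hjA (by rw [map_nsmul, ha, map_zero])
  have hΛ : p • Λ (bL, 0) = 0 := by
    rw [← map_nsmul]
    have : p • ((bL, 0) : AL × BL) = 0 := by
      ext
      · simpa using hbL
      · simp
    rw [this, map_zero]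
  have hΛ0 : p • Λ (b₀, 0) = 0 := by
    rw [← map_nsmul]
    have : p • ((b₀, 0) : AL × BL) = 0 := by
      ext
      · simpa using hb₀
      · simp
    rw [this, map_zero]
  obtain ⟨n, hn⟩ := hC _ _ hΛ0 hΛ hΛb₀
  have hΛ' : Λ (bL - n • b₀, 0) = 0 := by
    have : ((bL - n • b₀, 0) : AL × BL) = (bL, 0) - n • (b₀, 0) := by
      ext <;> simp
    rw [this, map_sub, map_nsmul, hn, sub_self]
  obtain ⟨y', hy'⟩ := (hker _).1 hΛ'
  have hy'1 : locL y' = bL - n • b₀ := congrArg Prod.fst hy'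
  have hy'2 : offL y' = 0 := congrArg Prod.snd hy'
  refine ⟨n, infl y', ⟨m, ?_⟩, ?_, ?_⟩
  · rw [← map_nsmul, hpow, map_zero]
  · rw [hcB, hy'2, map_zero]
  · rw [hcA, hy'1, map_sub, map_nsmul]

/-- **No single support.**  If `b ∈ AL` is not killed by `Λ` (e.g. `b ≠ 0` supported at one place, by
(HBN-single)), then `jA b`, if of order dividing `p^k`, is NOT the `S`-component of a class of
`p`-power order which is locally trivial off `S`. -/
theorem not_rel_of_level (p k : ℕ) (locK : H2K →+ A) (off : H2K →+ Dv)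
    (infl : H2L →+ H2K) (locL : H2L →+ AL) (offL : H2L →+ BL) (jA : AL →+ A) (jB : BL →+ Dv)
    (Λ : AL × BL →+ C)
    (hcA : ∀ y : H2L, locK (infl y) = jA (locL y))
    (hcB : ∀ y : H2L, off (infl y) = jB (offL y))
    (hjA : Function.Injective jA) (hjB : Function.Injective jB)
    (hdesc : ∀ z : H2K, (∃ n : ℕ, p ^ n • z = 0) → off z = 0 → p ^ k • locK z = 0 →
      ∃ y : H2L, infl y = z)
    (hker : ∀ x : AL × BL, Λ x = 0 ↔ ∃ y : H2L, (locL y, offL y) = x)
    (b : AL) (hb : p ^ k • jA b = 0) (hΛb : Λ (b, 0) ≠ 0) :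
    ¬ Rel p locK off (jA b) := by
  rintro ⟨z, hz, hzoff, hzb⟩
  obtain ⟨y, rfl⟩ := hdesc z hz hzoff (by rw [hzb, hb])
  have hy1 : locL y = b := hjA (by rw [← hcA, hzb])
  have hy2 : offL y = 0 := hjB (by rw [← hcB, hzoff, map_zero])
  exact hΛb ((hker _).2 ⟨y, by rw [hy1, hy2]⟩)

/-- **Realisation (for (C5)).**  A class `d ∈ H²(Div)` coming from level `L` (`d = jB b`) is `off z`
for a class `z ∈ H²(Kx)` of `p`-power order, provided the `S`-components reach `-Λ (0, b)`
(`hreach`; from cyclicity of `C` and `p^k ∣ n_{v₀}`). -/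
theorem real_of_level (p : ℕ) (off : H2K →+ Dv)
    (infl : H2L →+ H2K) (locL : H2L →+ AL) (offL : H2L →+ BL) (jB : BL →+ Dv)
    (Λ : AL × BL →+ C) (m : ℕ)
    (hpow : ∀ y : H2L, p ^ m • y = 0)
    (hcB : ∀ y : H2L, off (infl y) = jB (offL y))
    (hker : ∀ x : AL × BL, Λ x = 0 ↔ ∃ y : H2L, (locL y, offL y) = x)
    (b : BL) (hreach : ∃ a : AL, Λ (a, 0) = -Λ (0, b)) :
    ∃ z : H2K, (∃ n : ℕ, p ^ n • z = 0) ∧ off z = jB b := by
  obtain ⟨a, ha⟩ := hreach
  have hΛ : Λ (a, b) = 0 := by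
    have : ((a, b) : AL × BL) = (a, 0) + (0, b) := by ext <;> simp
    rw [this, map_add, ha, neg_add_cancel]
  obtain ⟨y, hy⟩ := (hker _).1 hΛ
  have hy2 : offL y = b := congrArg Prod.snd hy
  exact ⟨infl y, ⟨m, by rw [← map_nsmul, hpow, map_zero]⟩, by rw [hcB, hy2]⟩

end Level

section Cyclic

variable {C : Type*} [AddCommGroup C]

/-- In a finite cyclic group the `p`-torsion is cyclic (`ℕ`-multiple form, the shape of `hC`). -/
theorem exists_nsmul_of_prime_torsion [IsAddCyclic C] [Finite C] (p : ℕ) [hp : Fact p.Prime]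
    (c c' : C) (hc : p • c = 0) (hc' : p • c' = 0) (hc0 : c ≠ 0) : ∃ n : ℕ, c' = n • c := by
  classical
  -- the `p`-torsion subgroup has at most `p` elements
  let T : AddSubgroup C := (nsmulAddMonoidHom (α := C) p).ker
  have hcT : c ∈ T := hc
  have hc'T : c' ∈ T := hc'
  let _ : Fintype C := Fintype.ofFinite C
  have hcardT : Nat.card T ≤ p := by
    have h1 := IsAddCyclic.card_nsmul_eq_zero_le (α := C) hp.out.pos
    have h2 : Nat.card T = (Finset.univ.filter fun a : C => p • a = 0).card := by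
      rw [Nat.card_eq_fintype_card, Fintype.card_subtype]
      congr 1
      ext a
      simp only [Finset.mem_filter, Finset.mem_univ, true_and]
      rfl
    rw [h2]
    exact h1
  have hle : AddSubgroup.zmultiples c ≤ T := by
    rw [AddSubgroup.zmultiples_le]
    exact hcT
  have hord : addOrderOf c = p := by
    have h1 : addOrderOf c ∣ p := addOrderOf_dvd_of_nsmul_eq_zero hc
    rcases (Nat.dvd_prime hp.out).1 h1 with h | h
    · exact absurd (AddMonoid.addOrderOf_eq_one_iff.1 h) hc0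
    · exact h
  have hcardz : Nat.card (AddSubgroup.zmultiples c) = p := by
    rw [Nat.card_zmultiples, hord]
  have heq : AddSubgroup.zmultiples c = T := by
    apply AddSubgroup.eq_of_le_of_card_ge hle
    rw [hcardz]
    exact hcardT
  have : c' ∈ AddSubgroup.zmultiples c := by rw [heq]; exact hc'T
  obtain ⟨n, hn⟩ := AddSubgroup.mem_zmultiples_iff.1 this
  -- replace the integer `n` by `n mod p`
  refine ⟨(n % p).toNat, ?_⟩
  have hp0 : (p : ℤ) ≠ 0 := by exact_mod_cast hp.out.ne_zero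
  have hnn : 0 ≤ n % p := Int.emod_nonneg _ hp0
  have h1 : ((n % p).toNat : ℤ) = n % p := Int.toNat_of_nonneg hnn
  rw [← natCast_zsmul, h1, ← hn]
  have h2 : n = n % p + p * (n / p) := (Int.emod_add_mul_ediv n p).symm
  conv_lhs => rw [h2]
  rw [add_smul, mul_comm, mul_smul, natCast_zsmul, hc, smul_zero, add_zero]

/-- In a finite cyclic group `C`, the image of an injective homomorphism from a finite group `T`
contains every element killed by a divisor of `#T` (the shape of `hreach` in `real_of_level`). -/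
theorem exists_of_nsmul_eq_zero [IsAddCyclic C] [Finite C] {T : Type*} [AddCommGroup T] [Finite T]
    (σ : T →+ C) (hσ : Function.Injective σ) (n : ℕ) (hn : n ∣ Nat.card T) (c : C)
    (hc : n • c = 0) : ∃ t : T, σ t = c := by
  classical
  let _ : Fintype C := Fintype.ofFinite C
  set N := Nat.card T with hN
  have hNpos : 0 < N := Nat.card_pos
  -- the `N`-torsion subgroup of `C`
  let K : AddSubgroup C := (nsmulAddMonoidHom (α := C) N).ker
  have hcardK : Nat.card K ≤ N := by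
    have h1 := IsAddCyclic.card_nsmul_eq_zero_le (α := C) hNpos
    have h2 : Nat.card K = (Finset.univ.filter fun a : C => N • a = 0).card := by
      rw [Nat.card_eq_fintype_card, Fintype.card_subtype]
      congr 1
      ext a
      simp only [Finset.mem_filter, Finset.mem_univ, true_and]
      rfl
    rw [h2]
    exact h1
  have hle : σ.range ≤ K := by
    rintro _ ⟨t, rfl⟩
    show N • σ t = 0
    rw [← map_nsmul, hN, card_nsmul_eq_zero', map_zero]
  have hcardR : Nat.card σ.range = N := by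
    rw [hN]
    exact Nat.card_congr (Equiv.ofInjective σ hσ).symm
  have heq : σ.range = K := by
    apply AddSubgroup.eq_of_le_of_card_ge hle
    rw [hcardR]
    exact hcardK
  have hcK : c ∈ K := by
    show N • c = 0
    obtain ⟨e, he⟩ := hn
    rw [he, mul_comm, mul_smul, hc, smul_zero]
  rw [← heq] at hcK
  exact hcK

end Cyclic

section Specialise

variable {H1P H2O H2K H2P A Dv : Type*} [AddCommGroup H1P] [AddCommGroup H2O] [AddCommGroup H2K]
  [AddCommGroup H2P] [AddCommGroup A] [AddCommGroup Dv]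

/-- **(C4)** with the tautological relation and `LToff z := off z = 0`. -/
theorem image_iff_rel (p k : ℕ) (i : H2O →+ H2K) (π : H2K →+ H2P) (d : H1P →+ H2O)
    (hexK : ∀ z : H2K, π z = 0 → ∃ x : H2O, i x = z)
    (hex : ∀ x : H2O, i x = 0 → ∃ e : H1P, d e = x)
    (hid : ∀ e : H1P, i (d e) = 0)
    (hPdiv : ∀ e : H1P, ∃ e' : H1P, p • e' = e)
    (locK : H2K →+ A) (off : H2K →+ Dv)
    (hoff : ∀ x : H2O, off (i x) = 0)
    (hres : ∀ z : H2K, (∃ n : ℕ, p ^ n • z = 0) → off z = 0 → π z = 0)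
    (hbn : ∀ z : H2K, (∃ n : ℕ, p ^ n • z = 0) → locK z = 0 → off z = 0 → z = 0)
    (a : A) (ha : p ^ k • a = 0) :
    (∃ x : H2O, p ^ k • x = 0 ∧ locK (i x) = a) ↔ Rel p locK off a :=
  image_iff p k i π d hexK hex hid hPdiv locK (fun z => off z = 0) hoff
    (fun n z hz => by rw [map_nsmul, hz, smul_zero]) hres hbn (Rel p locK off)
    (fun z hz hzoff _ => rel_recip p locK off z hz hzoff)
    (fun _ _ h => h) a ha

/-- **(A-G3)** with the tautological relation. -/
theorem exists_lift_mod_rel (p : ℕ) (i : H2O →+ H2K) (π : H2K →+ H2P) (d : H1P →+ H2O)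
    (hexK : ∀ z : H2K, π z = 0 → ∃ x : H2O, i x = z)
    (hex : ∀ x : H2O, i x = 0 → ∃ e : H1P, d e = x)
    (hid : ∀ e : H1P, i (d e) = 0)
    (hPdiv : ∀ e : H1P, ∃ e' : H1P, p • e' = e)
    (locK : H2K →+ A) (off : H2K →+ Dv)
    (hoff : ∀ x : H2O, off (i x) = 0)
    (hres : ∀ z : H2K, (∃ n : ℕ, p ^ n • z = 0) → off z = 0 → π z = 0)
    (hbn : ∀ z : H2K, (∃ n : ℕ, p ^ n • z = 0) → locK z = 0 → off z = 0 → z = 0)
    (a₀ : A) (ha₀ : p • a₀ = 0)
    (hgen : ∀ a : A, p • a = 0 → ∃ n : ℕ, Rel p locK off (a - n • a₀))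
    (a : A) (ha : p • a = 0) :
    ∃ (n : ℕ) (x : H2O), p • x = 0 ∧ locK (i x) = a - n • a₀ :=
  exists_lift_mod p i π d hexK hex hid hPdiv locK (fun z => off z = 0) hoff
    (fun n z hz => by rw [map_nsmul, hz, smul_zero]) hres hbn (Rel p locK off)
    (fun z hz hzoff _ => rel_recip p locK off z hz hzoff)
    (fun _ _ h => h) a₀ ha₀ hgen a ha

/-- **`H²(O)(p)` is `p`-divisible**, with the tautological relation. -/
theorem divisible_rel (p : ℕ) (i : H2O →+ H2K) (π : H2K →+ H2P) (d : H1P →+ H2O)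
    (hexK : ∀ z : H2K, π z = 0 → ∃ x : H2O, i x = z)
    (hex : ∀ x : H2O, i x = 0 → ∃ e : H1P, d e = x)
    (hid : ∀ e : H1P, i (d e) = 0)
    (hd : Function.Injective d)
    (hP : ∀ e : H1P, p • e = 0 → e = 0)
    (hPdiv : ∀ e : H1P, ∃ e' : H1P, p • e' = e)
    (locK : H2K →+ A) (off : H2K →+ Dv)
    (hoff : ∀ x : H2O, off (i x) = 0)
    (hres : ∀ z : H2K, (∃ n : ℕ, p ^ n • z = 0) → off z = 0 → π z = 0)
    (hbn : ∀ z : H2K, (∃ n : ℕ, p ^ n • z = 0) → locK z = 0 → off z = 0 → z = 0)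
    (hdivA : ∀ (k : ℕ) (a : A), p ^ k • a = 0 → ∃ b : A, p • b = a)
    (hadj : ∀ (k : ℕ) (b : A), p ^ (k + 1) • b = 0 → Rel p locK off (p • b) →
      ∃ t : A, p • t = 0 ∧ Rel p locK off (b - t))
    (x : H2O) (hx : ∃ k : ℕ, p ^ k • x = 0) :
    ∃ y : H2O, (∃ k : ℕ, p ^ k • y = 0) ∧ p • y = x :=
  divisible p i π d hexK hex hid hd hP hPdiv locK (fun z => off z = 0) hoff
    (fun n z hz => by rw [map_nsmul, hz, smul_zero]) hres hbn (fun _ => Rel p locK off)
    (fun _ z hz hzoff _ => rel_recip p locK off z hz hzoff)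
    (fun _ _ _ h => h) hdivA hadj x hx

variable {H3O H3K : Type*} [AddCommGroup H3O] [AddCommGroup H3K]

/-- **(C5), first half**, with `Res = H²(Div)`, `ρ = (Prin → Div)_*`, `off = (Kx → Div)_* = ρ ∘ π`
and the realisation statement in the form "every class of `p`-power order of `H²(Div)` is `off z`
for a class `z` of `p`-power order of `H²(Kx)`". -/
theorem h3O_eq_zero_rel (p : ℕ) [hp : Fact p.Prime] (π : H2K →+ H2P) (d : H2P →+ H3O)
    (i : H3O →+ H3K) (ρ : H2P →+ Dv) (off : H2K →+ Dv)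
    (hρπ : ∀ z : H2K, ρ (π z) = off z)
    (hdπ : ∀ z : H2K, d (π z) = 0)
    (hex3 : ∀ y : H3O, i y = 0 → ∃ e : H2P, d e = y)
    (hH3K : ∀ y : H3K, (∃ n : ℕ, p ^ n • y = 0) → y = 0)
    (htors : ∀ e : H2P, ∃ N : ℕ, 0 < N ∧ N • e = 0)
    (hρinj : ∀ e : H2P, (∃ n : ℕ, p ^ n • e = 0) → ρ e = 0 → e = 0)
    (hrealD : ∀ e : Dv, (∃ n : ℕ, p ^ n • e = 0) →
      ∃ z : H2K, (∃ n : ℕ, p ^ n • z = 0) ∧ off z = e)
    (y : H3O) (hy : ∃ n : ℕ, p ^ n • y = 0) : y = 0 := by
  refine h3O_eq_zero p π d i ρ hdπ hex3 hH3K htors hρinj (fun e he => ?_) y hy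
  obtain ⟨n, hn⟩ := he
  obtain ⟨z, hz, hze⟩ := hrealD (ρ e) ⟨n, by rw [← map_nsmul, hn, map_zero]⟩
  exact ⟨z, hz, by rw [hρπ, hze]⟩

end Specialise

end Fermat.Agent.S55.Middle.ImageLevel
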