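/-
S55 / Middle / ImageFamRel (helper16): the ABSTRACT BRIDGE between the FAMILY language of
`Middle/ImageFiniteCore` / `ImageFiniteClosed` (helper34: `Fam`, `locFam`, `IsGlobal`, `SuppIn`) and the
`Rel` language of `Middle/ImageLevel` (`Rel p locK off`), i.e. steps (iii)-(v) of the usage note of
report 2316, once and for all, for plain abelian groups.  Mathlib + `Middle/ImageLevel` only.

LC side: `H2K` (`= H²_LC(P; ℚ_Sˣ)`), `A i` (`= BrLoc R i`, `i : I = R.Idx`), `Dv` (`= H²_LC(P; Div)`),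
`locK : H2K →+ Π i, A i`, `off : H2K →+ Dv`.

Level side (may be chosen AFTER the witness): `H2L` (`= H²(Gal(L/K), Lˣ)`), places `X` (`= Pl K`),
local groups `F x` (`= HJ K L x`), `locFam : H2L →+ Π x, F x`, `infl : H2L →+ H2K`,
`inS : X → Prop` (`x.1 ∈ S`), `pl : I → X` (`= LocSFam.plOf R`), `famOf` (`= LocSFam.famOf`),
`jA i : F (pl i) →+ A i` (`LocS.statement`), with

* `hcov`   : every place in `S` is a `pl i` (`LocSFam.exists_plOf_eq`);
* `hfpl`, `hfoff` : `famOf b (pl i) = b i`, `famOf b x = 0` off `S`;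
* `hcA`    : `locK (infl y) i = jA i (locFam y (pl i))`, `hjA` : `jA i` injective;
* `hoff₁`  : `locFam y` supported in `S` ⇒ `off (infl y) = 0`     (LOC-off, `hcB` + support);
* `hoff₂`  : `off (infl y) = 0` ⇒ `locFam y` supported in `S`     (LOC-off, `hjB`);
* `hpow`   : `p ^ m` kills `H2L`.

Family facts (from `ImageFiniteClosed`): `hcyc` (the `p`-torsion of `Fam/Global` is cyclic, generated
by `famOf β₀`) and `hsingle` (a nonzero family supported at one place of `S` is not global).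

Results (all PER WITNESS `y`, so the level may depend on the class at hand):
* `adj_of_fam`     : the conclusion of `ImageLevel.adj_of_level` (→ `hadj` of `divisible_rel`);
* `gen_of_fam`     : the conclusion of `ImageLevel.gen_of_level` (→ `hgen` of `exists_lift_mod_rel`);
* `nss_of_fam`     : no single support for the class `infl y`.
-/
import Mathlib
import Fermat.Agent.S55.Middle.ImageLevel

set_option autoImplicit false
set_option linter.unusedSectionVars false

namespace Fermat.Agent.S55.Middle.ImageFamRel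

open Fermat.Agent.S55.Middle.ImageLevel

variable {H2K Dv H2L : Type*} [AddCommGroup H2K] [AddCommGroup Dv] [AddCommGroup H2L]
  {I : Type*} {A : I → Type*} [∀ i, AddCommGroup (A i)]
  {X : Type*} {F : X → Type*} [∀ x, AddCommGroup (F x)]

/-- Two families which agree at the places `pl i` and off `S` are equal (coverage). -/
theorem fam_ext (inS : X → Prop) (pl : I → X) (hcov : ∀ x, inS x → ∃ i, pl i = x)
    (c c' : ∀ x, F x) (h1 : ∀ i, c (pl i) = c' (pl i)) (h2 : ∀ x, ¬ inS x → c x = c' x) :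
    c = c' := by
  funext x
  by_cases hx : inS x
  · obtain ⟨i, rfl⟩ := hcov x hx
    exact h1 i
  · exact h2 x hx

/-- the tuple `(jA i (b i))_i` as an additive function of the tuple `b`. -/
def tupA (pl : I → X) (jA : ∀ i, F (pl i) →+ A i) (b : ∀ i, F (pl i)) : ∀ i, A i :=
  fun i => jA i (b i)

theorem tupA_nsmul (pl : I → X) (jA : ∀ i, F (pl i) →+ A i) (n : ℕ) (b : ∀ i, F (pl i)) :
    tupA pl jA (n • b) = n • tupA pl jA b := by
  funext i
  show jA i (n • b i) = n • jA i (b i)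
  rw [map_nsmul]

theorem tupA_sub (pl : I → X) (jA : ∀ i, F (pl i) →+ A i) (b b' : ∀ i, F (pl i)) :
    tupA pl jA (b - b') = tupA pl jA b - tupA pl jA b' := by
  funext i
  show jA i (b i - b' i) = jA i (b i) - jA i (b' i)
  rw [map_sub]

/-- **Key step**: a global class whose family is `famOf bL - n • famOf β₀` gives `Rel` for the tuple
`tupA bL - n • tupA β₀`. -/
theorem rel_of_locFam_eq (p : ℕ) (locK : H2K →+ (∀ i, A i)) (off : H2K →+ Dv)
    (infl : H2L →+ H2K) (locFam : H2L →+ (∀ x, F x)) (inS : X → Prop) (pl : I → X)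
    (famOf : (∀ i, F (pl i)) → (∀ x, F x)) (jA : ∀ i, F (pl i) →+ A i) (m : ℕ)
    (hfpl : ∀ b i, famOf b (pl i) = b i) (hfoff : ∀ b x, ¬ inS x → famOf b x = 0)
    (hcA : ∀ y i, locK (infl y) i = jA i (locFam y (pl i)))
    (hoff₁ : ∀ y, (∀ x, ¬ inS x → locFam y x = 0) → off (infl y) = 0)
    (hpow : ∀ y : H2L, p ^ m • y = 0)
    (bL β₀ : ∀ i, F (pl i)) (n : ℕ) (y' : H2L)
    (hy' : locFam y' = famOf bL - n • famOf β₀) :
    Rel p locK off (tupA pl jA bL - n • tupA pl jA β₀) := by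
  refine ⟨infl y', ⟨m, ?_⟩, ?_, ?_⟩
  · rw [← map_nsmul, hpow, map_zero]
  · apply hoff₁
    intro x hx
    rw [hy', Pi.sub_apply, Pi.smul_apply, hfoff bL x hx, hfoff β₀ x hx, smul_zero, sub_zero]
  · funext i
    rw [hcA, hy', Pi.sub_apply, Pi.smul_apply, hfpl, hfpl, map_sub, map_nsmul]
    rfl

/-- **`hadj`, family form, for one witness.**  `b = tupA bL` (lifted to the level by `htors`), `y` a
level class with `off (infl y) = 0` and `locK (infl y) = p • b` (from `hdesc`).  Then `b` can be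
corrected by the `p`-torsion tuple `t = n • tupA β₀` so that `Rel (b - t)`.

* `hcyc` : `ImageFiniteClosed.exists_isGlobal_sub_nsmul_single/_place` with `c₀ = famOf β₀`. -/
theorem adj_of_fam (p : ℕ) (locK : H2K →+ (∀ i, A i)) (off : H2K →+ Dv)
    (infl : H2L →+ H2K) (locFam : H2L →+ (∀ x, F x)) (inS : X → Prop) (pl : I → X)
    (famOf : (∀ i, F (pl i)) → (∀ x, F x)) (jA : ∀ i, F (pl i) →+ A i) (m : ℕ)
    (hcov : ∀ x, inS x → ∃ i, pl i = x)
    (hfpl : ∀ b i, famOf b (pl i) = b i) (hfoff : ∀ b x, ¬ inS x → famOf b x = 0)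
    (hjA : ∀ i, Function.Injective (jA i))
    (hcA : ∀ y i, locK (infl y) i = jA i (locFam y (pl i)))
    (hoff₁ : ∀ y, (∀ x, ¬ inS x → locFam y x = 0) → off (infl y) = 0)
    (hoff₂ : ∀ y, off (infl y) = 0 → ∀ x, ¬ inS x → locFam y x = 0)
    (hpow : ∀ y : H2L, p ^ m • y = 0)
    (β₀ : ∀ i, F (pl i)) (hβ₀ : p • β₀ = 0)
    (hcyc : ∀ c : (∀ x, F x), (∀ x, ¬ inS x → c x = 0) → (∃ y, locFam y = p • c) →
      ∃ (n : ℕ) (y' : H2L), locFam y' = c - n • famOf β₀)
    (bL : ∀ i, F (pl i)) (y : H2L) (hyoff : off (infl y) = 0)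
    (hyb : locK (infl y) = p • tupA pl jA bL) :
    ∃ t : (∀ i, A i), p • t = 0 ∧ Rel p locK off (tupA pl jA bL - t) := by
  -- `p • famOf bL = locFam y`
  have hglob : locFam y = p • famOf bL := by
    refine fam_ext inS pl hcov _ _ (fun i => ?_) (fun x hx => ?_)
    · apply hjA i
      have h1 : jA i (locFam y (pl i)) = p • jA i (bL i) := by
        rw [← hcA, hyb]
        rfl
      have h2 : (p • famOf bL) (pl i) = p • bL i := by
        rw [Pi.smul_apply, hfpl]
      rw [h1, h2, map_nsmul]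
    · rw [hoff₂ y hyoff x hx, Pi.smul_apply, hfoff bL x hx, smul_zero]
  obtain ⟨n, y', hy'⟩ := hcyc (famOf bL) (fun x hx => hfoff bL x hx) ⟨y, hglob⟩
  refine ⟨n • tupA pl jA β₀, ?_, ?_⟩
  · have h0 : tupA pl jA (0 : ∀ i, F (pl i)) = 0 := by
      funext i
      exact map_zero (jA i)
    rw [smul_comm, ← tupA_nsmul, hβ₀, h0, smul_zero]
  · exact rel_of_locFam_eq p locK off infl locFam inS pl famOf jA m hfpl hfoff hcA hoff₁ hpow
      bL β₀ n y' hy'

/-- **`hgen`, family form** (`k = 0`): a `p`-torsion tuple `a = tupA bL` is, modulo `Rel`, a multiple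
of `a₀ = tupA β₀`. -/
theorem gen_of_fam (p : ℕ) (locK : H2K →+ (∀ i, A i)) (off : H2K →+ Dv)
    (infl : H2L →+ H2K) (locFam : H2L →+ (∀ x, F x)) (inS : X → Prop) (pl : I → X)
    (famOf : (∀ i, F (pl i)) → (∀ x, F x)) (jA : ∀ i, F (pl i) →+ A i) (m : ℕ)
    (hcov : ∀ x, inS x → ∃ i, pl i = x)
    (hfpl : ∀ b i, famOf b (pl i) = b i) (hfoff : ∀ b x, ¬ inS x → famOf b x = 0)
    (hjA : ∀ i, Function.Injective (jA i))
    (hcA : ∀ y i, locK (infl y) i = jA i (locFam y (pl i)))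
    (hoff₁ : ∀ y, (∀ x, ¬ inS x → locFam y x = 0) → off (infl y) = 0)
    (hpow : ∀ y : H2L, p ^ m • y = 0)
    (β₀ : ∀ i, F (pl i))
    (hcyc : ∀ c : (∀ x, F x), (∀ x, ¬ inS x → c x = 0) → (∃ y, locFam y = p • c) →
      ∃ (n : ℕ) (y' : H2L), locFam y' = c - n • famOf β₀)
    (bL : ∀ i, F (pl i)) (ha : p • tupA pl jA bL = 0) :
    ∃ n : ℕ, Rel p locK off (tupA pl jA bL - n • tupA pl jA β₀) := by
  have hbL : ∀ i, p • bL i = 0 := by
    intro i
    apply hjA i
    rw [map_nsmul, map_zero]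
    exact congrFun ha i
  have hglob : locFam 0 = p • famOf bL := by
    rw [map_zero]
    refine fam_ext inS pl hcov _ _ (fun i => ?_) (fun x hx => ?_)
    · rw [Pi.smul_apply, hfpl, hbL]
      rfl
    · rw [Pi.smul_apply, hfoff bL x hx, smul_zero]
      rfl
  obtain ⟨n, y', hy'⟩ := hcyc (famOf bL) (fun x hx => hfoff bL x hx) ⟨0, hglob⟩
  exact ⟨n, rel_of_locFam_eq p locK off infl locFam inS pl famOf jA m hfpl hfoff hcA hoff₁ hpow
    bL β₀ n y' hy'⟩

/-- **No single support, family form, for one witness.**  `y` a level class with `off (infl y) = 0`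
whose `S`-components vanish at all `i ≠ i₀`: then the component at `i₀` vanishes too.

* `hsingle` : `ImageFiniteClosed.not_isGlobal_of_single` at `x₀ = pl i₀`, `c = famOf β`. -/
theorem nss_of_fam (locK : H2K →+ (∀ i, A i)) (off : H2K →+ Dv)
    (infl : H2L →+ H2K) (locFam : H2L →+ (∀ x, F x)) (inS : X → Prop) (pl : I → X)
    (famOf : (∀ i, F (pl i)) → (∀ x, F x)) (jA : ∀ i, F (pl i) →+ A i)
    (hcov : ∀ x, inS x → ∃ i, pl i = x)
    (hfpl : ∀ b i, famOf b (pl i) = b i) (hfoff : ∀ b x, ¬ inS x → famOf b x = 0)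
    (hjA : ∀ i, Function.Injective (jA i))
    (hcA : ∀ y i, locK (infl y) i = jA i (locFam y (pl i)))
    (hoff₂ : ∀ y, off (infl y) = 0 → ∀ x, ¬ inS x → locFam y x = 0)
    (hsingle : ∀ (β : ∀ i, F (pl i)) (i₀ : I), (∀ i, i ≠ i₀ → β i = 0) → β i₀ ≠ 0 →
      ¬ ∃ y, locFam y = famOf β)
    (y : H2L) (hyoff : off (infl y) = 0) (i₀ : I)
    (hy : ∀ i, i ≠ i₀ → locK (infl y) i = 0) : locK (infl y) i₀ = 0 := by
  set β : ∀ i, F (pl i) := fun i => locFam y (pl i) with hβ
  have hβ0 : ∀ i, i ≠ i₀ → β i = 0 := by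
    intro i hi
    apply hjA i
    rw [map_zero, ← hcA]
    exact hy i hi
  have hglob : locFam y = famOf β := by
    refine fam_ext inS pl hcov _ _ (fun i => ?_) (fun x hx => ?_)
    · rw [hfpl]
    · rw [hoff₂ y hyoff x hx, hfoff β x hx]
  by_contra hne
  have hβi₀ : β i₀ ≠ 0 := by
    intro h0
    apply hne
    rw [hcA]
    show jA i₀ (β i₀) = 0
    rw [h0, map_zero]
  exact hsingle β i₀ hβ0 hβi₀ ⟨y, hglob⟩

end Fermat.Agent.S55.Middle.ImageFamRel
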