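/-
S55 / MIDDLE block (helper56), row (U2): **`T`-unit classes are locally trivial at the places
outside `T`**, in the two literal forms used by Middle (C3)/(C4)/`hbn`:

* `locH_eq_zero_of_isTUnitClass` : `HbnCoker.IsTUnitClass K L T z`, `q ∉ T`, `L/K` unramified
  outside `T` (e.g. `Blocks2.AdmissibleQ K L p T`)  ⟹  `locH K L (Kloc K q 𝔪) 2 z = 0`;
* `locH_map_EntoLxn_eq_zero` : the same for the image of any `x : H²(Gal(L/K), En K L T)` under
  `UnitsToL.EntoLxn K L T hT`.

Both are corollaries of `Global/UnitClassUnram.locH_H2π_eq_zero`.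
-/
import Mathlib
import Fermat.Agent.S55.Global.UnitClassUnram
import Fermat.Agent.S55.Middle.HbnCoker
import Fermat.Agent.S55.Middle.UnitsToL

set_option autoImplicit false
set_option linter.unusedSectionVars false

namespace Fermat.Agent.S55.Middle.UnitClassUnramT

open CategoryTheory CategoryTheory.Limits groupCohomology NumberField IsDedekindDomain
  TensorProduct
open Fermat.Agent.S55.Global.Objects Fermat.Agent.S55.Global.Objects2
open Fermat.Agent.S55.Global.Blocks2 Fermat.Agent.S55.Global.Blocks3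
open Fermat.Agent.S55.Global

variable (K L : Type) [Field K] [NumberField K] [Field L] [NumberField L] [Algebra K L]
  [IsGalois K L]
variable (T : Finset Nat.Primes) (q : Nat.Primes) (𝔪 : Ideal (Ksemi K q)) [h𝔪 : 𝔪.IsMaximal]

/-- **(U2), `IsTUnitClass` form.** -/
theorem locH_eq_zero_of_isTUnitClass (hqT : q ∉ T)
    (hram : ∀ w : Place L, (∃ σ : L ≃ₐ[K] L, σ ∈ w.asIdeal.inertia (L ≃ₐ[K] L) ∧ σ ≠ 1) →
      w ∈ placesAboveQ L T)
    {z : groupCohomology (Rep.ofAlgebraAutOnUnits K L) 2} (hz : HbnCoker.IsTUnitClass K L T z) :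
    locH K L (Kloc K q 𝔪) 2 z = 0 := by
  obtain ⟨f, rfl, hf⟩ := hz
  exact UnitClassUnram.locH_H2π_eq_zero K L T q 𝔪 hqT hram f hf

/-- Same, from `Blocks2.AdmissibleQ`. -/
theorem locH_eq_zero_of_isTUnitClass_of_admissibleQ {p : ℕ} (hadm : AdmissibleQ K L p T)
    (hqT : q ∉ T)
    {z : groupCohomology (Rep.ofAlgebraAutOnUnits K L) 2} (hz : HbnCoker.IsTUnitClass K L T z) :
    locH K L (Kloc K q 𝔪) 2 z = 0 :=
  locH_eq_zero_of_isTUnitClass K L T q 𝔪 hqT hadm.ram hz

/-- Same, from `Blocks2.Setting`. -/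
theorem locH_eq_zero_of_isTUnitClass_of_setting {p : ℕ} (hS : Setting p K L T)
    (hqT : q ∉ T)
    {z : groupCohomology (Rep.ofAlgebraAutOnUnits K L) 2} (hz : HbnCoker.IsTUnitClass K L T z) :
    locH K L (Kloc K q 𝔪) 2 z = 0 :=
  locH_eq_zero_of_isTUnitClass K L T q 𝔪 hqT hS.adm.ram hz

/-- The image of `H²(Gal(L/K), En K L T)` in `H²(Gal(L/K), Lˣ)` consists of `T`-unit classes. -/
theorem isTUnitClass_map_EntoLxn (hT : T.Nonempty) (x : groupCohomology (En K L T) 2) :
    HbnCoker.IsTUnitClass K L T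
      (groupCohomology.map (MonoidHom.id (L ≃ₐ[K] L)) (UnitsToL.EntoLxn K L T hT) 2 x) := by
  induction x using H2_induction_on with
  | h f' =>
    refine ⟨mapCocycles₂ (MonoidHom.id (L ≃ₐ[K] L)) (UnitsToL.EntoLxn K L T hT) f', ?_, ?_⟩
    · have h := congrArg (fun t => t.hom f')
        (H2π_comp_map (MonoidHom.id (L ≃ₐ[K] L)) (UnitsToL.EntoLxn K L T hT))
      simp only [ModuleCat.hom_comp, LinearMap.comp_apply] at h
      exact h.symm
    · intro g h
      exact UnitsToL.unitOf_mem L T (f' (g, h))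

/-- **(U2), `En` form** (helper17's literal). -/
theorem locH_map_EntoLxn_eq_zero (hT : T.Nonempty) (hqT : q ∉ T)
    (hram : ∀ w : Place L, (∃ σ : L ≃ₐ[K] L, σ ∈ w.asIdeal.inertia (L ≃ₐ[K] L) ∧ σ ≠ 1) →
      w ∈ placesAboveQ L T)
    (x : groupCohomology (En K L T) 2) :
    locH K L (Kloc K q 𝔪) 2
      (groupCohomology.map (MonoidHom.id (L ≃ₐ[K] L)) (UnitsToL.EntoLxn K L T hT) 2 x) = 0 :=
  locH_eq_zero_of_isTUnitClass K L T q 𝔪 hqT hram (isTUnitClass_map_EntoLxn K L T hT x)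

end Fermat.Agent.S55.Middle.UnitClassUnramT
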