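import Fermat.Agent.S55.Middle.ImageFiniteLocal
import Fermat.Agent.S55.Middle.UnitClassUnramT
import Fermat.Agent.S55.Global.FinalClosed

/-!
# S55 / Middle, (C4)/(C5) hub: the finite-level core, UNCONDITIONAL (helper34)

All three closed hypotheses of `ImageFiniteCore` are theorems on main:

* `unitClassUnram p : ImageFiniteCore.UnitClassUnram p`   (row (U2), helper56 `UnitClassUnramT`);
* `Global.FinalClosed.h2CyclicIn p : Blocks4.H2CyclicIn p`  (row 152);
* `Global.Final.noSingleSupport p`.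

So for `K ∋ ζ_p`, `p` odd, `L/K` Galois of `p`-power degree, in the family language of
`ImageFiniteCore` (`Pl K`, `Fam K L`, `locFam`, `IsGlobal`, `SuppIn`):

* `not_isGlobal_of_single`           : a nonzero family supported at one place is not global;
* `exists_isGlobal_sub_nsmul`        : the `p`-torsion of `Fam / Global` is cyclic;
* `exists_isGlobal_sub_nsmul_single` : the same with a one-place generator `b₀`;
* `exists_isGlobal_sub_nsmul_place`  : the same, `b₀` produced from `p ∣ #Stab(m)`;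
* `exists_isGlobal_add_single`, `exists_isGlobal_add_place` : realisation.
-/

set_option autoImplicit false
set_option linter.unusedSectionVars false

open CategoryTheory CategoryTheory.Limits groupCohomology NumberField IsDedekindDomain TensorProduct
open scoped Pointwise

namespace Fermat.Agent.S55.Middle.ImageFiniteClosed

open Fermat.Agent.S55.Global.Objects Fermat.Agent.S55.Global.Objects2
open Fermat.Agent.S55.Global.Blocks2 Fermat.Agent.S55.Global.Blocks3
open Fermat.Agent.S55.Global.Blocks4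
open Fermat.Agent.S55.Middle.ImageFiniteCore

/-- Row (U2) in the shape consumed by `ImageFiniteCore`. -/
theorem unitClassUnram (p : ℕ) : UnitClassUnram p := by
  intro K L _ _ _ _ _ _ T hS z hz q hq 𝔪 h𝔪
  haveI := h𝔪
  exact UnitClassUnramT.locH_eq_zero_of_isTUnitClass_of_setting K L T q 𝔪 hS hq hz

/-- Row 152, first half: `Blocks4.H2CyclicIn p`, unconditionally (`Global/FinalClosed`). -/
theorem h2CyclicIn (p : ℕ) : H2CyclicIn p := Global.FinalClosed.h2CyclicIn p

variable {K : Type} [Field K] [NumberField K]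
variable {L : Type} [Field L] [NumberField L] [Algebra K L] [IsGalois K L]
variable {p : ℕ}

/-- **(HBN-single), family form.** -/
theorem not_isGlobal_of_single (hp : p.Prime) (hodd : p ≠ 2)
    (hζ : ∃ ζ : K, IsPrimitiveRoot ζ p) (hpp : ∃ n : ℕ, Module.finrank K L = p ^ n)
    (x₀ : Pl K) (c : Fam K L) (hsupp : ∀ x : Pl K, x ≠ x₀ → c x = 0) (h0 : c x₀ ≠ 0) :
    ¬ IsGlobal c :=
  ImageFiniteCore.not_isGlobal_of_single hp hodd hζ hpp (Global.Final.noSingleSupport p) x₀ c
    hsupp h0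

/-- **(HBN-coker), family form: the `p`-torsion of `Fam / Global` is cyclic.** -/
theorem exists_isGlobal_sub_nsmul (hp : p.Prime) (hodd : p ≠ 2)
    (hζ : ∃ ζ : K, IsPrimitiveRoot ζ p) (hpp : ∃ n : ℕ, Module.finrank K L = p ^ n)
    (S : Finset Nat.Primes) (c c₀ : Fam K L) (hc : SuppIn S c) (hc₀ : SuppIn S c₀)
    (hpc : IsGlobal (p • c)) (hpc₀ : IsGlobal (p • c₀)) (hng : ¬ IsGlobal c₀) :
    ∃ n : ℕ, IsGlobal (c - n • c₀) :=
  ImageFiniteCore.exists_isGlobal_sub_nsmul hp hodd hζ hpp (h2CyclicIn p) (unitClassUnram p) S c c₀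
    hc hc₀ hpc hpc₀ hng

/-- `adj_of_level` / `gen_of_level`, family form with a one-place generator. -/
theorem exists_isGlobal_sub_nsmul_single [DecidableEq (Pl K)] (hp : p.Prime) (hodd : p ≠ 2)
    (hζ : ∃ ζ : K, IsPrimitiveRoot ζ p) (hpp : ∃ n : ℕ, Module.finrank K L = p ^ n)
    (S : Finset Nat.Primes) (c : Fam K L) (hc : SuppIn S c) (hpc : IsGlobal (p • c))
    (x₀ : Pl K) (hx₀ : x₀.1 ∈ S) (b₀ : HJ K L x₀) (hb₀ : p • b₀ = 0) (hne : b₀ ≠ 0) :
    ∃ n : ℕ, IsGlobal (c - n • (Pi.single x₀ b₀ : Fam K L)) :=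
  ImageFiniteCore.exists_isGlobal_sub_nsmul_single hp hodd hζ hpp (h2CyclicIn p)
    (unitClassUnram p) (Global.Final.noSingleSupport p) S c hc hpc x₀ hx₀ b₀ hb₀ hne

/-- The same, the generator being produced from `p ∣ #Stab(m)`. -/
theorem exists_isGlobal_sub_nsmul_place [DecidableEq (Pl K)] (hp : p.Prime) (hodd : p ≠ 2)
    (hζ : ∃ ζ : K, IsPrimitiveRoot ζ p) (hpp : ∃ n : ℕ, Module.finrank K L = p ^ n)
    (S : Finset Nat.Primes) (x₀ : Pl K) (hx₀ : x₀.1 ∈ S)
    (m : Ideal (L ⊗[K] Kloc K x₀.1 x₀.2.asIdeal)) [m.IsMaximal]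
    (hdvd : p ∣ Nat.card (MulAction.stabilizer (L ≃ₐ[K] L) m)) :
    ∃ b₀ : HJ K L x₀, p • b₀ = 0 ∧ b₀ ≠ 0 ∧
      ∀ c : Fam K L, SuppIn S c → IsGlobal (p • c) →
        ∃ n : ℕ, IsGlobal (c - n • (Pi.single x₀ b₀ : Fam K L)) :=
  ImageFiniteLocal.exists_isGlobal_sub_nsmul_place hp hodd hζ hpp (h2CyclicIn p)
    (unitClassUnram p) (Global.Final.noSingleSupport p) S x₀ hx₀ m hdvd

/-- **Realisation (for (C5)).** -/
theorem exists_isGlobal_add_single [DecidableEq (Pl K)] (hp : p.Prime) (hodd : p ≠ 2)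
    (hζ : ∃ ζ : K, IsPrimitiveRoot ζ p) (hpp : ∃ n : ℕ, Module.finrank K L = p ^ n)
    (S : Finset Nat.Primes) (c : Fam K L) (hc : SuppIn S c) (k : ℕ) (hk : p ^ k • c = 0)
    (x₀ : Pl K) [Finite (HJ K L x₀)] (hcard : p ^ k ∣ Nat.card (HJ K L x₀)) :
    ∃ a : HJ K L x₀, IsGlobal (c + Pi.single x₀ a) :=
  ImageFiniteCore.exists_isGlobal_add_single hp hodd hζ hpp (h2CyclicIn p) (unitClassUnram p)
    (Global.Final.noSingleSupport p) S c hc k hk x₀ hcard

/-- Realisation, paying at a place whose decomposition group has order divisible by `p ^ k`. -/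
theorem exists_isGlobal_add_place [DecidableEq (Pl K)] (hp : p.Prime) (hodd : p ≠ 2)
    (hζ : ∃ ζ : K, IsPrimitiveRoot ζ p) (hpp : ∃ n : ℕ, Module.finrank K L = p ^ n)
    (S : Finset Nat.Primes) (c : Fam K L) (hc : SuppIn S c) (k : ℕ) (hk : p ^ k • c = 0)
    (x₀ : Pl K) (m : Ideal (L ⊗[K] Kloc K x₀.1 x₀.2.asIdeal)) [m.IsMaximal]
    (hdvd : p ^ k ∣ Nat.card (MulAction.stabilizer (L ≃ₐ[K] L) m)) :
    ∃ a : HJ K L x₀, IsGlobal (c + Pi.single x₀ a) :=
  ImageFiniteLocal.exists_isGlobal_add_place hp hodd hζ hpp (h2CyclicIn p) (unitClassUnram p)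
    (Global.Final.noSingleSupport p) S c hc k hk x₀ m hdvd

end Fermat.Agent.S55.Middle.ImageFiniteClosed
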