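/-
S55 / Middle / ImageLevelB (helper19, hedge of row M.image): the abstract finite-level core of
(C4)/(C5) in the form in which the finite-level suppliers deliver it: the auxiliary finite set of
rational primes `T ⊇ S` (over which the idele-class statements (HBN-coker) hold) DEPENDS ON THE CLASS
which is descended, whereas the `S`-part `AL = ⊕_{v ∈ S_K} H²(G, J_v)` of the finite level, the local
inflation `jA : AL → A` and the single-place class `b₀` do not.

* `TDatum` : the finite-level data at one auxiliary set `T` (index `t`):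
  `H2E = H²(G, E_{L,T})`, `H2J = H²(G, J_{L,T})`, `e : H2E → H2J`, `infl : H2E → H²_LC(Kx)`,
  `Λ : H2J → C` with `ker Λ = range e` [(HBN-coker)], the inclusion/projection `inS`/`prS` of the
  `S`-components, `single` [(HBN-single), from (G-iv)], and the two compatibilities with the
  LC-level maps `locK` (row (LOC-S)) and `off` (row (LOC-off), in the weak form
  "a `T`-unit class without `(T ∖ S)`-components is locally trivial off `S`").
* `adj_of_levelT`, `gen_of_levelT`, `nss_of_levelT` : the three consumers, in the shapes of the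
  hypotheses `hadj`, `hgen` of `ImageLevel.divisible_rel`, `ImageLevel.exists_lift_mod_rel` and of the
  no-single-support statement.

Mathlib + `Middle/ImageLevel` only.
-/
import Mathlib
import Fermat.Agent.S55.Middle.ImageLevel

set_option autoImplicit false

namespace Fermat.Agent.S55.Middle.ImageLevelB

open Fermat.Agent.S55.Middle.ImageLevel

variable {H2K A Dv AL : Type*} [AddCommGroup H2K] [AddCommGroup A] [AddCommGroup Dv]
  [AddCommGroup AL]

/-- The finite-level data at one auxiliary set of primes `T ⊇ S`. -/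
structure TDatum (p : ℕ) (locK : H2K →+ A) (off : H2K →+ Dv) (jA : AL →+ A) (Single : AL → Prop)
    (H2E H2J C : Type*) [AddCommGroup H2E] [AddCommGroup H2J] [AddCommGroup C] where
  /-- `H²(G, E_{L,T}) → H²(G, J_{L,T})` -/
  e : H2E →+ H2J
  /-- `H²(G, E_{L,T}) → H²(G, Lˣ) → H²_LC(P; Kx)` -/
  infl : H2E →+ H2K
  /-- the reciprocity functional of (HBN-coker) -/
  Λ : H2J →+ C
  /-- inclusion of the `S`-components -/
  inS : AL →+ H2J
  /-- projection to the `S`-components -/
  prS : H2J →+ AL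
  pr_in : ∀ b : AL, prS (inS b) = b
  /-- (HBN-coker) -/
  ker : ∀ a : H2J, Λ a = 0 ↔ ∃ y : H2E, e y = a
  /-- the `p`-torsion of `C` is cyclic -/
  cyc : ∀ c c' : C, p • c = 0 → p • c' = 0 → c ≠ 0 → ∃ n : ℕ, c' = n • c
  /-- (HBN-single) -/
  single : ∀ b : AL, Single b → Λ (inS b) = 0 → b = 0
  /-- finite-level classes are of `p`-power order -/
  tors : ∀ y : H2E, ∃ m : ℕ, p ^ m • infl y = 0
  /-- (LOC-S) -/
  compA : ∀ y : H2E, locK (infl y) = jA (prS (e y))
  /-- (LOC-off), weak form -/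
  compB : ∀ y : H2E, e y = inS (prS (e y)) → off (infl y) = 0

section Consumers

variable {ι : Type*} {H2E H2J C : ι → Type*} [∀ t, AddCommGroup (H2E t)]
  [∀ t, AddCommGroup (H2J t)] [∀ t, AddCommGroup (C t)]
  {p : ℕ} {locK : H2K →+ A} {off : H2K →+ Dv} {jA : AL →+ A} {Single : AL → Prop}

/-- Inside one datum: a class `b ∈ AL` with `Λ (inS b) = 0` is realised by a class of `p`-power order
which is locally trivial off `S`. -/
theorem rel_of_Λ_eq_zero {H2E' H2J' C' : Type*} [AddCommGroup H2E'] [AddCommGroup H2J']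
    [AddCommGroup C'] (D : TDatum p locK off jA Single H2E' H2J' C') (b : AL)
    (hb : D.Λ (D.inS b) = 0) : Rel p locK off (jA b) := by
  obtain ⟨y, hy⟩ := (D.ker _).1 hb
  have h1 : D.prS (D.e y) = b := by rw [hy, D.pr_in]
  have h2 : D.e y = D.inS (D.prS (D.e y)) := by rw [h1, hy]
  exact ⟨D.infl y, D.tors y, D.compB y h2, by rw [D.compA, h1]⟩

/-- **`hadj` from level data, `T` depending on the class.** -/
theorem adj_of_levelT (k : ℕ)
    (D : ∀ t : ι, TDatum p locK off jA Single (H2E t) (H2J t) (C t))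
    (hjA : Function.Injective jA)
    (htors : ∀ a : A, p ^ (k + 1) • a = 0 → ∃ b : AL, jA b = a)
    (hdesc : ∀ z : H2K, (∃ n : ℕ, p ^ n • z = 0) → off z = 0 → p ^ (k + 1) • locK z = 0 →
      ∃ (t : ι) (y : H2E t), (D t).infl y = z ∧ (D t).e y = (D t).inS ((D t).prS ((D t).e y)))
    (b₀ : AL) (hb₀ : p • b₀ = 0) (hb₀s : Single b₀) (hb₀n : b₀ ≠ 0)
    (b : A) (hb : p ^ (k + 1) • b = 0) (hR : Rel p locK off (p • b)) :
    ∃ t : A, p • t = 0 ∧ Rel p locK off (b - t) := by
  obtain ⟨z, hz, hzoff, hzb⟩ := hR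
  obtain ⟨bL, rfl⟩ := htors b hb
  have hzk : p ^ (k + 1) • locK z = 0 := by rw [hzb, smul_comm, hb, smul_zero]
  obtain ⟨t, y, rfl, hy⟩ := hdesc z hz hzoff hzk
  have hy1 : (D t).prS ((D t).e y) = p • bL := hjA (by rw [← (D t).compA, hzb, map_nsmul])
  -- `p • Λ (inS bL) = 0`
  have hΛ : p • (D t).Λ ((D t).inS bL) = 0 := by
    rw [← map_nsmul, ← map_nsmul, ← hy1, ← hy]
    exact ((D t).ker _).2 ⟨y, rfl⟩
  have hΛ0 : p • (D t).Λ ((D t).inS b₀) = 0 := by
    rw [← map_nsmul, ← map_nsmul, hb₀, map_zero, map_zero]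
  have hne : (D t).Λ ((D t).inS b₀) ≠ 0 := fun h => hb₀n ((D t).single b₀ hb₀s h)
  obtain ⟨n, hn⟩ := (D t).cyc _ _ hΛ0 hΛ hne
  have hΛ' : (D t).Λ ((D t).inS (bL - n • b₀)) = 0 := by
    rw [map_sub, map_sub, map_nsmul, map_nsmul, hn, sub_self]
  refine ⟨jA (n • b₀), ?_, ?_⟩
  · rw [← map_nsmul, smul_comm, hb₀, smul_zero, map_zero]
  · rw [← map_sub]
    exact rel_of_Λ_eq_zero (D t) _ hΛ'

/-- **`hgen` from level data** (one fixed auxiliary set `t`): modulo `Rel`, `A[p]` is generated by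
`jA b₀`. -/
theorem gen_of_levelT (t : ι)
    (D : ∀ t : ι, TDatum p locK off jA Single (H2E t) (H2J t) (C t))
    (hjA : Function.Injective jA)
    (htors : ∀ a : A, p • a = 0 → ∃ b : AL, jA b = a)
    (b₀ : AL) (hb₀ : p • b₀ = 0) (hb₀s : Single b₀) (hb₀n : b₀ ≠ 0)
    (a : A) (ha : p • a = 0) :
    ∃ n : ℕ, Rel p locK off (a - n • jA b₀) := by
  obtain ⟨bL, rfl⟩ := htors a ha
  have hbL : p • bL = 0 := hjA (by rw [map_nsmul, ha, map_zero])
  have hΛ : p • (D t).Λ ((D t).inS bL) = 0 := by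
    rw [← map_nsmul, ← map_nsmul, hbL, map_zero, map_zero]
  have hΛ0 : p • (D t).Λ ((D t).inS b₀) = 0 := by
    rw [← map_nsmul, ← map_nsmul, hb₀, map_zero, map_zero]
  have hne : (D t).Λ ((D t).inS b₀) ≠ 0 := fun h => hb₀n ((D t).single b₀ hb₀s h)
  obtain ⟨n, hn⟩ := (D t).cyc _ _ hΛ0 hΛ hne
  have hΛ' : (D t).Λ ((D t).inS (bL - n • b₀)) = 0 := by
    rw [map_sub, map_sub, map_nsmul, map_nsmul, hn, sub_self]
  refine ⟨n, ?_⟩
  rw [← map_nsmul, ← map_sub]
  exact rel_of_Λ_eq_zero (D t) _ hΛ'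

/-- **No single support.**  A class `z` of `p`-power order, locally trivial off `S`, whose
`S`-component is `jA b` with `b` supported at a single place, has trivial `S`-component. -/
theorem nss_of_levelT (k : ℕ)
    (D : ∀ t : ι, TDatum p locK off jA Single (H2E t) (H2J t) (C t))
    (hjA : Function.Injective jA)
    (hdesc : ∀ z : H2K, (∃ n : ℕ, p ^ n • z = 0) → off z = 0 → p ^ (k + 1) • locK z = 0 →
      ∃ (t : ι) (y : H2E t), (D t).infl y = z ∧ (D t).e y = (D t).inS ((D t).prS ((D t).e y)))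
    (z : H2K) (hz : ∃ n : ℕ, p ^ n • z = 0) (hoff : off z = 0) (hk : p ^ (k + 1) • locK z = 0)
    (b : AL) (hb : jA b = locK z) (hS : Single b) : locK z = 0 := by
  obtain ⟨t, y, rfl, hy⟩ := hdesc z hz hoff hk
  have h1 : (D t).prS ((D t).e y) = b := hjA (by rw [← (D t).compA, hb])
  have h2 : (D t).Λ ((D t).inS b) = 0 := by
    rw [← h1, ← hy]
    exact ((D t).ker _).2 ⟨y, rfl⟩
  rw [← hb, (D t).single b hS h2, map_zero]

end Consumers

end Fermat.Agent.S55.Middle.ImageLevelB
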