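/-
S55 / Middle / ImageInstB (helper19, hedge of row M.image): the LAST STEP of the (C4) hub for the REAL
objects of the `K`-site.

For `P` with `Blocks.Level p S P` and `R : Reps S P`:
`H2O = H²_LC(P; O_S)`, `H2K = H²_LC(P; ℚ_Sˣ)`, `A = Π_{i : R.Idx} H²_LC(D_i; Ω^×)`,
`locK : H2K → A` (the localisations `locKS`), `off : H2K → H²_LC(P; Div)` (the divisor map).

* `hbn_of_hasseO` : (HBN-inj) in colimit form for `ℚ_Sˣ`, from `Blocks.HasseO p S` (C3), (C2), (C1);
* `LevelInput p hP R k` : the FINITE-LEVEL INPUT of the hub at depth `k` — a family of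
  `ImageLevelB.TDatum` (one for every admissible auxiliary set `T ⊇ S`), the `S`-part `AL` of the
  finite level with its local inflation `jA`, `p^(k+1)`-torsion comes from the level (`tors`), descent
  (`desc`), and a non-trivial `p`-torsion class `b₀` supported at a single place;
* `imageNSS_of_input`, `imageG3_of_input`, `h2ODivisible_of_input` : the three literal outputs
  `Blocks2.ImageNSS p S`, `Blocks2.ImageG3 p S`, `Blocks.H2ODivisible p S` from `Blocks.HasseO p S`
  and level inputs.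
-/
import Fermat.Agent.S55.Middle.Blocks2
import Fermat.Agent.S55.Middle.HasseOStep
import Fermat.Agent.S55.Middle.CapLToff
import Fermat.Agent.S55.Middle.ImageLevelB

set_option autoImplicit false
set_option linter.unusedSectionVars false

open CategoryTheory ExtCitation

namespace Fermat.Agent.S55.Middle.ImageInstB

noncomputable section

open Fermat.Agent.S55.Formal
open Fermat.Agent.S55.Formal.PreludeLC hiding GQ Qbar
open Fermat.Agent.S55.Middle.Defs Fermat.Agent.S55.Middle.KSite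
open Fermat.Agent.S55.Middle.Blocks Fermat.Agent.S55.Middle.Blocks2
open Fermat.Agent.S55.Middle.LESGlueV
open Fermat.Agent.S55.Middle.ImageLevel Fermat.Agent.S55.Middle.ImageLevelB

variable (p : ℕ) [Fact p.Prime] {S : Finset Nat.Primes} {P : Subgroup GQ}

/-! ### the objects -/

/-- `A = Π_i H²_LC(D_i; Ω^×)` -/
def ALoc (R : Reps S P) : Type := ∀ i : R.Idx, BrLoc R i

instance instAddCommGroupALoc (R : Reps S P) : AddCommGroup (ALoc R) :=
  @Pi.addCommGroup R.Idx (fun i => BrLoc R i) (fun _ => inferInstance)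

lemma ALoc_ext (R : Reps S P) {a b : ALoc R} (h : ∀ i, a i = b i) : a = b := funext h

@[simp] lemma ALoc_zero_apply (R : Reps S P) (i : R.Idx) : (0 : ALoc R) i = 0 := rfl

@[simp] lemma ALoc_nsmul_apply (R : Reps S P) (n : ℕ) (a : ALoc R) (i : R.Idx) :
    (n • a) i = n • a i := rfl

@[simp] lemma ALoc_sub_apply (R : Reps S P) (a b : ALoc R) (i : R.Idx) :
    (a - b) i = a i - b i := rfl

/-- `locK : H²_LC(P; ℚ_Sˣ) → A`, the localisations at the places of `K` above `S`. -/
def locK (R : Reps S P) : H2 (basisP S P) (resP P (KS S)) →+ ALoc R where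
  toFun z i := (locKS S P i.1.1 i.2.1).h2 z
  map_zero' := by
    funext i
    exact map_zero _
  map_add' x y := by
    funext i
    exact map_add _ x y

@[simp] lemma locK_apply (R : Reps S P) (z : H2 (basisP S P) (resP P (KS S))) (i : R.Idx) :
    locK R z i = (locKS S P i.1.1 i.2.1).h2 z := rfl

/-- `H²_LC(P; Div)` -/
abbrev H2Div (S : Finset Nat.Primes) (P : Subgroup GQ) : Type :=
  H2 (basisP S P) (DivDef.Div (basisP S P) (CapDiv.Xoff S))

/-- `off : H²_LC(P; ℚ_Sˣ) → H²_LC(P; Div)`, induced by the divisor map. -/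
def off (hP : IsOpenS S P) : H2 (basisP S P) (resP P (KS S)) →+ H2Div S P :=
  (Mor.ofHom (basisP S P) (PrinTorsionProof.divMapP S P hP)).h2.toAddMonoidHom

lemma off_eq_zero_iff (hP : IsOpenS S P) (z : H2 (basisP S P) (resP P (KS S))) :
    off hP z = 0 ↔ CapLToff.LToffP S hP z := Iff.rfl

/-! ### the LC-level hypotheses of the skeletons for the real objects -/

section LC

variable (hpS : pPrime p ∈ S) (hP : IsOpenS S P)

theorem hexK (z : H2 (basisP S P) (kH S P)) (hz : π₂ S P (basisP S P) z = 0) :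
    ∃ x, i₂ S P (basisP S P) x = z :=
  exists_i₂_of_π₂ (isCont_subBasis S P) z hz

theorem hex (x : H2 (basisP S P) (oH S P)) (hx : i₂ S P (basisP S P) x = 0) :
    ∃ e, d₁ (isCont_subBasis S P) e = x :=
  exists_d₁_of_i₂ (isCont_subBasis S P) x hx

theorem hid (e : H1 (basisP S P) (prH S P)) :
    i₂ S P (basisP S P) (d₁ (isCont_subBasis S P) e) = 0 :=
  i₂_d₁ (isCont_subBasis S P) e

include hP in
theorem hd : Function.Injective (d₁ (S := S) (H := P) (isCont_subBasis S P)) :=
  d₁_injective (isCont_subBasis S P) (HasseOStep.H1_KS_eq_zero S hP)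

include hpS hP in
theorem hPt (e : H1 (basisP S P) (prH S P)) (he : p • e = 0) : e = 0 :=
  CapLToff.hP_P S hP p hpS e he

include hpS hP in
theorem hPdiv (e : H1 (basisP S P) (prH S P)) : ∃ e' : H1 (basisP S P) (prH S P), p • e' = e :=
  CapLToff.hPdiv_P S hP p hpS e

theorem hoff (x : H2 (basisP S P) (oH S P)) : off hP (i₂ S P (basisP S P) x) = 0 :=
  CapLToff.hoff_P S hP x

include hpS in
theorem hres (z : H2 (basisP S P) (kH S P)) (hz : ∃ n : ℕ, p ^ n • z = 0) (h : off hP z = 0) :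
    π₂ S P (basisP S P) z = 0 :=
  CapLToff.hres_P S hP p hpS z hz h

/-- `locOS = locK ∘ i₂`, componentwise. -/
theorem locK_i₂ (R : Reps S P) (x : H2 (basisP S P) (oH S P)) (i : R.Idx) :
    locK R (i₂ S P (basisP S P) x) i = (locOS S P i.1.1 i.2.1).h2 x :=
  HasseOStep.locKS_i₂ S P i.1.1 i.2.1 x

end LC

/-- **(HBN-inj), colimit form, for `ℚ_Sˣ`**: a `p`-primary class of `H²_LC(P; ℚ_Sˣ)` which is locally
trivial at the places above `S` and off `S` vanishes.  From (C3) `Blocks.HasseO p S`. -/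
theorem hbn_of_hasseO (hpS : pPrime p ∈ S) (hH : Blocks.HasseO p S) (hP : Level p S P)
    (R : Reps S P) (z : H2 (basisP S P) (kH S P)) (hz : ∃ n : ℕ, p ^ n • z = 0)
    (hloc : locK R z = 0) (hzoff : off hP.isOpen z = 0) : z = 0 := by
  obtain ⟨n, hn⟩ := hz
  have hπ : π₂ S P (basisP S P) z = 0 := hres p hpS hP.isOpen z ⟨n, hn⟩ hzoff
  obtain ⟨x, hx, rfl⟩ := Image.lift_torsion p n (i₂ S P (basisP S P)) (π₂ S P (basisP S P))
    (d₁ (isCont_subBasis S P)) hexK hex hid (hPdiv p hpS hP.isOpen) z hn hπ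
  have hlt : LTSO R x := fun i => by
    rw [← locK_i₂ R x i, hloc]
    rfl
  rw [hH P hP R x n hx hlt, map_zero]

/-! ### the finite-level input -/

/-- **The finite-level input of the (C4) hub at depth `k`** (for the places `R` of `K = ℚ̄^P`):
one level `L/K` (a cyclotomic layer whose local degrees at the places above `S` are divisible by
`p^(k+1)`), its `S`-part `AL` with the local inflation `jA`, and for every admissible auxiliary set
of primes an `ImageLevelB.TDatum`. -/
structure LevelInput (hP : IsOpenS S P) (R : Reps S P) (k : ℕ) where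
  /-- `⊕_{v ∈ S_K} H²(Gal(L/K), (L ⊗ K_v)ˣ)` -/
  AL : Type
  [instAL : AddCommGroup AL]
  /-- local inflation -/
  jA : AL →+ ALoc R
  /-- supported at a single place -/
  Single : AL → Prop
  /-- the admissible auxiliary sets of primes -/
  ι : Type
  H2E : ι → Type
  H2J : ι → Type
  C : ι → Type
  [instE : ∀ t, AddCommGroup (H2E t)]
  [instJ : ∀ t, AddCommGroup (H2J t)]
  [instC : ∀ t, AddCommGroup (C t)]
  D : ∀ t : ι, TDatum p (locK R) (off hP) jA Single (H2E t) (H2J t) (C t)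
  t₀ : ι
  jA_inj : Function.Injective jA
  tors : ∀ a : ALoc R, p ^ (k + 1) • a = 0 → ∃ b : AL, jA b = a
  desc : ∀ z : H2 (basisP S P) (resP P (KS S)), (∃ n : ℕ, p ^ n • z = 0) → off hP z = 0 →
    p ^ (k + 1) • locK R z = 0 →
      ∃ (t : ι) (y : H2E t), (D t).infl y = z ∧ (D t).e y = (D t).inS ((D t).prS ((D t).e y))
  single_of_supp : ∀ (b : AL) (i₀ : R.Idx), (∀ i : R.Idx, i ≠ i₀ → jA b i = 0) → Single b
  b₀ : AL
  b₀_tors : p • b₀ = 0
  b₀_single : Single b₀
  b₀_ne : b₀ ≠ 0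

attribute [instance] LevelInput.instAL LevelInput.instE LevelInput.instJ LevelInput.instC

/-! ### the three outputs -/

section Outputs

variable {p}
variable (hpS : pPrime p ∈ S) (hH : Blocks.HasseO p S) (hP : Level p S P) (R : Reps S P)

include hpS hH in
/-- **(C4-NSS)** for one `(P, R)`. -/
theorem nss_of_input (I : LevelInput p hP.isOpen R 0)
    (x : H2 (basisP S P) (resP P (OS S))) (hx : p • x = 0) (i₀ : R.Idx)
    (h : ∀ i : R.Idx, i ≠ i₀ → (locOS S P i.1.1 i.2.1).h2 x = 0) :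
    (locOS S P i₀.1.1 i₀.2.1).h2 x = 0 := by
  set z := i₂ S P (basisP S P) x with hz
  have hz1 : p ^ 1 • z = 0 := by rw [pow_one, hz, ← map_nsmul, hx, map_zero]
  have hk : p ^ (0 + 1) • locK R z = 0 := by rw [← map_nsmul, zero_add, hz1, map_zero]
  obtain ⟨b, hb⟩ := I.tors (locK R z) hk
  have hS : I.Single b := I.single_of_supp b i₀ fun i hi => by
    rw [hb, hz, locK_i₂]
    exact h i hi
  have h0 := nss_of_levelT 0 I.D I.jA_inj I.desc z ⟨1, hz1⟩ (hoff hP.isOpen x) hk b hb hS
  rw [← locK_i₂ R x i₀, ← hz, h0]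
  rfl

include hpS hH in
/-- **(C4-G3)** for one `(P, R)`. -/
theorem g3_of_input (I : LevelInput p hP.isOpen R 0) :
    ∃ a₀ : ∀ i : R.Idx, BrLoc R i, (∀ i, p • a₀ i = 0) ∧
      ∀ a : ∀ i : R.Idx, BrLoc R i, (∀ i, p • a i = 0) →
        ∃ (n : ℕ) (x : H2 (basisP S P) (resP P (OS S))), p • x = 0 ∧
          ∀ i : R.Idx, (locOS S P i.1.1 i.2.1).h2 x = a i - n • a₀ i := by
  have ha₀ : p • I.jA I.b₀ = 0 := by rw [← map_nsmul, I.b₀_tors, map_zero]
  refine ⟨I.jA I.b₀, fun i => congrFun ha₀ i, fun (a : ALoc R) ha => ?_⟩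
  have ha' : p • a = 0 := funext ha
  have htors : ∀ a : ALoc R, p • a = 0 → ∃ b : I.AL, I.jA b = a := fun a ha =>
    I.tors a (by rw [zero_add, pow_one]; exact ha)
  obtain ⟨n, x, hx, hxa⟩ := exists_lift_mod_rel p (i₂ S P (basisP S P)) (π₂ S P (basisP S P))
    (d₁ (isCont_subBasis S P)) hexK hex hid (hPdiv p hpS hP.isOpen) (locK R) (off hP.isOpen)
    (hoff hP.isOpen) (hres p hpS hP.isOpen) (hbn_of_hasseO p hpS hH hP R) (I.jA I.b₀) ha₀
    (gen_of_levelT I.t₀ I.D I.jA_inj htors I.b₀ I.b₀_tors I.b₀_single I.b₀_ne) a ha'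
  refine ⟨n, x, hx, fun i => ?_⟩
  rw [← locK_i₂ R x i, hxa]
  rfl

include hpS hH in
/-- **(C4-div)** for one `(P, R)`: the `p`-primary part of `H²_LC(P; O_S)` is `p`-divisible. -/
theorem divisible_of_input (I : ∀ k : ℕ, LevelInput p hP.isOpen R k)
    (hdivA : ∀ (i : R.Idx) (k : ℕ) (a : BrLoc R i), p ^ k • a = 0 → ∃ b : BrLoc R i, p • b = a)
    (x : H2 (basisP S P) (resP P (OS S))) (j : ℕ) (hx : p ^ j • x = 0) :
    ∃ x' : H2 (basisP S P) (resP P (OS S)), p ^ (j + 1) • x' = 0 ∧ p • x' = x := by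
  have hdivA' : ∀ (k : ℕ) (a : ALoc R), p ^ k • a = 0 → ∃ b : ALoc R, p • b = a := by
    intro k a ha
    choose b hb using fun i => hdivA i k (a i) (congrFun ha i)
    exact ⟨b, funext hb⟩
  obtain ⟨y, -, hy⟩ := divisible_rel p (i₂ S P (basisP S P)) (π₂ S P (basisP S P))
    (d₁ (isCont_subBasis S P)) hexK hex hid (hd hP.isOpen) (hPt p hpS hP.isOpen)
    (hPdiv p hpS hP.isOpen) (locK R) (off hP.isOpen) (hoff hP.isOpen) (hres p hpS hP.isOpen)
    (hbn_of_hasseO p hpS hH hP R) hdivA'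
    (fun k b hb hR => adj_of_levelT k (I k).D (I k).jA_inj (I k).tors (I k).desc (I k).b₀
      (I k).b₀_tors (I k).b₀_single (I k).b₀_ne b hb hR) x ⟨j, hx⟩
  exact ⟨y, by rw [pow_succ, mul_smul, hy, hx], hy⟩

end Outputs

/-! ### closed forms -/

/-- **`Blocks2.ImageNSS p S`** from (C3) and level inputs at depth `0`. -/
theorem imageNSS_of_input (hpS : pPrime p ∈ S) (hH : Blocks.HasseO p S)
    (hI : ∀ (P : Subgroup GQ) (hP : Level p S P) (R : Reps S P),
      Nonempty (LevelInput p hP.isOpen R 0)) : ImageNSS p S := by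
  intro P hP R x hx i₀ h
  obtain ⟨I⟩ := hI P hP R
  exact nss_of_input hpS hH hP R I x hx i₀ h

/-- **`Blocks2.ImageG3 p S`** from (C3) and level inputs at depth `0`. -/
theorem imageG3_of_input (hpS : pPrime p ∈ S) (hH : Blocks.HasseO p S)
    (hI : ∀ (P : Subgroup GQ) (hP : Level p S P) (R : Reps S P),
      Nonempty (LevelInput p hP.isOpen R 0)) : ImageG3 p S := by
  intro P hP R
  obtain ⟨I⟩ := hI P hP R
  exact g3_of_input hpS hH hP R I

/-- **`Blocks.H2ODivisible p S`** from (C3), level inputs at every depth (for ONE system of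
representatives `R` per `P`) and the divisibility of the local groups `H²_LC(D_i; Ω^×)(p)`. -/
theorem h2ODivisible_of_input (hpS : pPrime p ∈ S) (hH : Blocks.HasseO p S)
    (hI : ∀ (P : Subgroup GQ) (hP : Level p S P), ∃ R : Reps S P,
      (∀ k : ℕ, Nonempty (LevelInput p hP.isOpen R k)) ∧
      ∀ (i : R.Idx) (k : ℕ) (a : BrLoc R i), p ^ k • a = 0 → ∃ b : BrLoc R i, p • b = a) :
    Blocks.H2ODivisible p S := by
  intro P hP x j hx
  obtain ⟨R, hR, hdivA⟩ := hI P hP
  exact divisible_of_input hpS hH hP R (fun k => (hR k).some) hdivA x j hx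

end

end Fermat.Agent.S55.Middle.ImageInstB
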