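/-
S55 / MIDDLE block, row (LOC-S) (helper14): PAIR-EQUIVALENCE glue.

* `cohomologyIso_trans`, `cohomologyIso_symm` : cohomology of a composite / inverse `PairEquiv`;
* `pairSub`, `pairExt S H L hKL hL hle` : helper67's global dictionary
  `(↥H ⧸ lvl H L, (KS S)^{lvl}) ≅ (Gal(L'/K), L'ˣ)` (`K = K₀ H`, `L' = Lext H L hKL`) as ONE `PairEquiv`,
  with `pairExt_cohomologyIso : (pairExt …).cohomologyIso n = cohIsoExt S H L hKL hL hle n` and the
  element-level formulas `pairExt_e_mk` (the class of `h` acts on `L'` as `h`), `pairExt_φ_coe` (the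
  underlying element of `ℚ̄ˣ` is unchanged).
-/
import Fermat.Agent.S55.Middle.GaloisDictModel
import Fermat.Agent.S55.LM.GaloisDict
import Fermat.Agent.S55.LM.Defs

set_option autoImplicit false
set_option linter.unusedSectionVars false
set_option linter.style.haveILetI false

open CategoryTheory groupCohomology ExtCitation

namespace Fermat.Agent.S55.Middle.LocSPairs

noncomputable section

open Fermat.Agent.S55.Coh.PairEquiv

/-! ### generic: cohomology of a composite of pair equivalences -/

section Generic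

universe u

variable {k : Type u} [CommRing k] {G'' G' G : Type u} [Group G''] [Group G'] [Group G]
variable {C : Rep k G''} {B : Rep k G'} {A : Rep k G}

theorem cohomologyIso_trans (h₁ : PairEquiv C B) (h₂ : PairEquiv B A) (n : ℕ) :
    (h₁.trans h₂).cohomologyIso n = h₁.cohomologyIso n ≪≫ h₂.cohomologyIso n := by
  apply Iso.ext
  show groupCohomology.map ((h₁.e.trans h₂.e).symm : G →* G'') _ n =
    groupCohomology.map (h₁.e.symm : G' →* G'') _ n ≫ groupCohomology.map (h₂.e.symm : G →* G') _ n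
  rw [← groupCohomology.map_comp]
  exact groupCohomology.map_congr (by ext; rfl) (by ext; rfl) n

theorem cohomologyIso_symm (h : PairEquiv B A) (n : ℕ) :
    h.symm.cohomologyIso n = (h.cohomologyIso n).symm := by
  apply Iso.ext
  show groupCohomology.map (h.e.symm.symm : G' →* G) _ n = groupCohomology.map (h.e : G' →* G) _ n
  exact groupCohomology.map_congr (by ext; rfl) (by ext; rfl) n

end Generic

/-! ### the global dictionary as ONE pair equivalence -/

section Global

open Fermat.Agent.S55.Formal Fermat.Agent.S55.Formal.PreludeLC Fermat.Agent.S55.Middle.Defs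
open Fermat.Agent.S55.Middle.Dict Fermat.Agent.S55.Middle.GaloisDict
open Fermat.Agent.S55.Middle.GaloisDictModel

variable (S : Finset Nat.Primes) (H : Subgroup Defs.GQ) (L : IntermediateField ℚ Defs.Qbar)
  [Normal ℚ L] (hKL : K₀ H ≤ L) (hL : L.IsUnramifiedOutside S) (hle : L.fixingSubgroup ≤ H)

/-- `(H̄, Lˣ|_{H̄}) ≅ (Gal(L/L^{H̄}), Lˣ)` -/
def pairSub [FiniteDimensional ℚ ↥L] :
    PairEquiv (LxH H L) (Rep.ofAlgebraAutOnUnits (baseField H L) ↥L) where
  e := IntermediateField.subgroupEquivAlgEquiv (Hbar H L)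
  φ := LinearEquiv.refl ℤ _
  comm _ _ := rfl

include hL in
/-- helper67's dictionary `(↥H ⧸ V, (KS S)^V) ≅ (Gal(L'/K), L'ˣ)` as a single pair equivalence. -/
def pairExt :
    PairEquiv (Inv (KSH S H) (lvl H L)) (Rep.ofAlgebraAutOnUnits ↥(K₀ H) ↥(Lext H L hKL)) :=
  haveI : FiniteDimensional ℚ ↥L := hL.1
  (pairKS S H L hL hle).trans ((pairSub H L).trans
    (pairOfRingEquiv (toExt H L hKL) (toExt_range H L hKL)))

theorem pairExt_cohomologyIso (n : ℕ) :
    (pairExt S H L hKL hL hle).cohomologyIso n = cohIsoExt S H L hKL hL hle n := by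
  haveI : FiniteDimensional ℚ ↥L := hL.1
  unfold pairExt
  rw [cohomologyIso_trans, cohomologyIso_trans]
  show _ = (cohIso S H L hL hle n ≪≫ _) ≪≫ _
  rw [Iso.trans_assoc]
  rfl

/-- the group part: the class of `h` acts on `L'` as `h`. -/
theorem pairExt_e_mk (h : ↥H) (y : ↥(Lext H L hKL)) :
    (((pairExt S H L hKL hL hle).e (QuotientGroup.mk h) y : ↥(Lext H L hKL)) : Defs.Qbar) =
      (h : Defs.GQ) (y : Defs.Qbar) := by
  haveI : FiniteDimensional ℚ ↥L := hL.1
  show ((resL L h.1 ⟨(y : Defs.Qbar), y.2⟩ : ↥L) : Defs.Qbar) = _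
  rw [resL_apply_coe]

/-- the coefficient part: the underlying element of `ℚ̄ˣ` is unchanged. -/
theorem pairExt_φ_coe (a : Inv (KSH S H) (lvl H L)) :
    (((Additive.toMul ((pairExt S H L hKL hL hle).φ a) : (↥(Lext H L hKL))ˣ) :
      ↥(Lext H L hKL)) : Defs.Qbar) =
      ((uOf H L (galStable_qsSubgroup S) a : Defs.Qbarˣ) : Defs.Qbar) := by
  haveI : FiniteDimensional ℚ ↥L := hL.1
  have := unitsIncl_ksEquiv S H L hL hle a
  rw [← this]
  rfl

end Global

end

end Fermat.Agent.S55.Middle.LocSPairs
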