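/-
S55 / MIDDLE block, ROW (LOC-S) of helper17 #1935 (helper14): THE THEOREM `LocS.statement : LocS.Statement S P`.

For `P ≤ G_ℚ`, `L/ℚ` finite Galois unramified outside `S` with `Gal(ℚ̄/L) ≤ P`, `K = ℚ̄^P`, `L' = L/K`,
a prime `q` and `t : G_ℚ`, `𝔪 = mAt P q t` (the place of `K` cut out by `x ↦ padicEmbedding q (t⁻¹ x)`):
there is an INJECTIVE additive map

  `jA : H²(Gal(L'/K), (L' ⊗[K] K_𝔪)ˣ) → H²_LC(Dloc P q t; Ω_qˣ)`

with `jA (locH K L' K_𝔪 2 z) = (locKS S P q t).h2 (ι₂ (cohIsoExt⁻¹ z))` for all `z ∈ H²(Gal(L'/K), L'ˣ)`.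

Ingredients: `Middle/LocSHom` (abstract core), `Middle/LocSPairs.pairExt` (helper67's global dictionary
as a `PairEquiv`), helper39's `Coh/SemilocalExplicit` (explicit semilocal Shapiro in the field model
`jGenGroupHom`, `jGenHom`, `jGenMap_bijective₂`), helper92's `LM/DlocDict`, `LM/DlocLevelMap`
(`pairDloc`, `baseField_Dloc_of_isOpenS`, `mem_levelField_levelSub_iff`) and `Coh/PairSameCarrier`,
helper90's `LM/Iota2Inj.ι₂_injective_Ox`, helper79's `Middle/SemilocalCompare` (`idealQ`, `quotEquivQ`).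

Also: `isGalois_Lext`, `numberField_Lext`, `numberField_K₀` (instances needed by consumers),
`exists_jA_semi` (the same statement for ANY model `F` of the completion inside `Ω_q`),
`loc_eq_zero_iff` (consumer form).
-/
import Fermat.Agent.S55.Middle.LocSDefs
import Fermat.Agent.S55.Coh.SemilocalExplicit
import Fermat.Agent.S55.Coh.PairSameCarrier
import Fermat.Agent.S55.LM.DlocLevelMap
import Fermat.Agent.S55.LM.Iota2Inj
import Fermat.Agent.S55.Middle.LocSPairs
import Fermat.Agent.S55.Middle.LocSHom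

set_option autoImplicit false
set_option linter.unusedSectionVars false
set_option linter.style.haveILetI false

open CategoryTheory groupCohomology ExtCitation

namespace Fermat.Agent.S55.Middle.LocS

noncomputable section

open Fermat.Agent.S55.Formal
open Fermat.Agent.S55.Formal.PreludeLC hiding GQ Qbar
open Fermat.Agent.S55.Middle.Defs
open Fermat.Agent.S55.Middle.KSite Fermat.Agent.S55.Middle.GaloisDict
open Fermat.Agent.S55.Middle.GaloisDictModel
open Fermat.Agent.S55.Global.Blocks3 Fermat.Agent.S55.Global.Objects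
open Fermat.Agent.S55.Formal.LCLevelH
open Fermat.Agent.S55.Middle.SemilocalCompare Fermat.Agent.S55.Middle.CompletionCompare
open Fermat.Agent.S55.LM.DlocDict Fermat.Agent.S55.LM.DlocLevelMap
open Fermat.Agent.S55.Coh.SemilocalExplicit Fermat.Agent.S55.Coh.PairSameCarrier
open Fermat.Agent.S55.Coh.PairEquiv
open Fermat.Agent.S55.Middle.LocSPairs

attribute [local instance] Fermat.Agent.S55.LM.Defs.fact_q

variable (S : Finset Nat.Primes) (P : Subgroup GQ)

/-! ### the fields `K = ℚ̄^P`, `L' = L/K` -/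

section Fields

variable (L : IntermediateField ℚ Qbar) (hKL : K₀ P ≤ L)

/-- `toExt` as a `ℚ`-algebra isomorphism. -/
def toExtAlg : ↥L ≃ₐ[ℚ] ↥(Lext P L hKL) :=
  { toExt P L hKL with commutes' := fun _ => rfl }

theorem normal_Lext [Normal ℚ L] : Normal ↥(K₀ P) ↥(Lext P L hKL) := by
  haveI : Normal ℚ ↥(Lext P L hKL) := Normal.of_algEquiv (toExtAlg P L hKL)
  exact Normal.tower_top_of_normal ℚ ↥(K₀ P) ↥(Lext P L hKL)

theorem isGalois_Lext [Normal ℚ L] : IsGalois ↥(K₀ P) ↥(Lext P L hKL) := by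
  haveI := normal_Lext P L hKL
  exact ⟨⟩

theorem numberField_Lext [FiniteDimensional ℚ L] : NumberField ↥(Lext P L hKL) where
  to_charZero := inferInstance
  to_finiteDimensional := (toExtAlg P L hKL).toLinearEquiv.finiteDimensional

include hKL in
theorem numberField_K₀ [FiniteDimensional ℚ L] : NumberField ↥(K₀ P) where
  to_charZero := inferInstance
  to_finiteDimensional := by
    haveI : FiniteDimensional ℚ ↥L := inferInstance
    exact Module.Finite.of_injective (IntermediateField.inclusion hKL).toLinearMap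
      (IntermediateField.inclusion hKL).injective

end Fields

/-! ### the completion `F = Kloc K q (mAt P q t)` inside `Ω_q` -/

section Completion

attribute [local instance] Algebra.TensorProduct.rightAlgebra

variable [NumberField ↥(K₀ P)] (q : Nat.Primes) (t : GQ)

/-- the embedding `K_𝔪 → Ω_q` of the completion at `𝔪 = mAt P q t` (through helper79's
`quotEquivQ`). -/
def klocEmb : Kloc ↥(K₀ P) q (mAt P q t) →+* PadicAlgCl (q : ℕ) :=
  ((localFieldOf (eAt P q t)).val : ↥(localFieldOf (eAt P q t)) →+* PadicAlgCl (q : ℕ)).comp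
    (quotEquivQ (eAt P q t)).toRingEquiv.toRingHom

lemma klocEmb_mk (b : Ksemi ↥(K₀ P) q) :
    klocEmb P q t (Ideal.Quotient.mk (mAt P q t) b) =
      ((psiQ (eAt P q t) b : ↥(localFieldOf (eAt P q t))) : PadicAlgCl (q : ℕ)) := rfl

lemma range_klocEmb :
    Set.range (klocEmb P q t) = ((localFieldOf (eAt P q t) : IntermediateField _ _) :
      Set (PadicAlgCl (q : ℕ))) := by
  ext x
  constructor
  · rintro ⟨y, rfl⟩
    exact ((quotEquivQ (eAt P q t)) y).2
  · intro hx
    exact ⟨(quotEquivQ (eAt P q t)).symm ⟨x, hx⟩, by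
      show (((quotEquivQ (eAt P q t)) ((quotEquivQ (eAt P q t)).symm ⟨x, hx⟩) :
        ↥(localFieldOf (eAt P q t))) : PadicAlgCl (q : ℕ)) = x
      rw [AlgEquiv.apply_symm_apply]⟩

end Completion

/-! ### instances: `K → F → Ω_q` -/

section Data

variable [NumberField ↥(K₀ P)] (q : Nat.Primes) (t : GQ)

/-- `F = K_𝔪` is a field -/
@[reducible] def fieldKloc : Field (Kloc ↥(K₀ P) q (mAt P q t)) := Ideal.Quotient.field (mAt P q t)

/-- `Ω_q` as an `F`-algebra -/
@[reducible] def algKlocOm : Algebra (Kloc ↥(K₀ P) q (mAt P q t)) (PadicAlgCl (q : ℕ)) :=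
  (klocEmb P q t).toAlgebra

/-- `Ω_q` as a `K`-algebra through `eAt P q t` -/
@[reducible] def algKOm : Algebra ↥(K₀ P) (PadicAlgCl (q : ℕ)) := (eAt P q t).toAlgebra

theorem tower_K_Kloc_Om :
    letI := fieldKloc P q t
    letI := algKlocOm P q t
    letI := algKOm P q t
    IsScalarTower ↥(K₀ P) (Kloc ↥(K₀ P) q (mAt P q t)) (PadicAlgCl (q : ℕ)) := by
  letI := fieldKloc P q t
  letI := algKlocOm P q t
  letI := algKOm P q t
  refine IsScalarTower.of_algebraMap_eq fun x => ?_
  show eAt P q t x = klocEmb P q t (Ideal.Quotient.mk (mAt P q t) (x ⊗ₜ[ℚ] (1 : ℚ_[(q : ℕ)])))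
  rw [klocEmb_mk, coe_psiQ_tmul, map_one, mul_one]

end Data

/-! ### the two field models have the same carriers -/

section Carriers

theorem coe_adjoin_eq {F₀ F Ω : Type} [Field F₀] [Field F] [Field Ω] [Algebra F₀ Ω] [Algebra F Ω]
    (T : Set Ω)
    (h1 : Set.range (algebraMap F₀ Ω) ⊆ Set.range (algebraMap F Ω))
    (h2 : Set.range (algebraMap F Ω) ⊆ (IntermediateField.adjoin F₀ T : Set Ω)) :
    (IntermediateField.adjoin F T : Set Ω) = (IntermediateField.adjoin F₀ T : Set Ω) := by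
  have e1 : (IntermediateField.adjoin F T : Set Ω) =
      (Subfield.closure (Set.range (algebraMap F Ω) ∪ T) : Set Ω) := rfl
  have e2 : (IntermediateField.adjoin F₀ T : Set Ω) =
      (Subfield.closure (Set.range (algebraMap F₀ Ω) ∪ T) : Set Ω) := rfl
  apply Set.Subset.antisymm
  · rw [e1]
    have : Subfield.closure (Set.range (algebraMap F Ω) ∪ T) ≤
        (IntermediateField.adjoin F₀ T).toSubfield := by
      rw [Subfield.closure_le]
      rintro x (hx | hx)
      · exact h2 hx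
      · exact IntermediateField.subset_adjoin F₀ T hx
    exact this
  · rw [e1, e2]
    have : Subfield.closure (Set.range (algebraMap F₀ Ω) ∪ T) ≤
        Subfield.closure (Set.range (algebraMap F Ω) ∪ T) := by
      apply Subfield.closure_mono
      rintro x (hx | hx)
      · exact Or.inl (h1 hx)
      · exact Or.inr hx
    exact this

end Carriers

/-! ### the semi-abstract theorem: `F` any model of the completion inside `Ω_q` -/

section Semi

variable (L : IntermediateField ℚ Qbar) [Normal ℚ L] (hL : L.IsUnramifiedOutside S)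
  (hle : L.fixingSubgroup ≤ P) (hKL : K₀ P ≤ L)
  [NumberField ↥(K₀ P)] [NumberField ↥(Lext P L hKL)] [IsGalois ↥(K₀ P) ↥(Lext P L hKL)]
  (q : Nat.Primes) (t : GQ)

include hL in
theorem fixingSubgroup_mem : (globalBasis S).mem L.fixingSubgroup := by
  refine ⟨L, hL, ?_, rfl⟩
  rw [← resL_ker L]
  infer_instance

instance fixingSubgroup_normal' : L.fixingSubgroup.Normal := by
  rw [← resL_ker L]
  infer_instance

/-- `κ_t` intertwines `emb q t` with the local Galois action. -/
theorem emb_kappa (d : ↥(Dloc P q t)) (x : Qbar) :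
    emb q t (((kappa P q t d : ↥P) : GQ) x) =
      Fermat.Agent.S55.LM.Defs.toAut q (d : primeLocalGaloisGroup q) (emb q t x) := by
  rw [emb_apply, emb_apply]
  have h1 : ((kappa P q t d : ↥P) : GQ) x =
      t (primeLocalToGlobal q (d : primeLocalGaloisGroup q) ((t⁻¹ : GQ) x)) := rfl
  rw [h1, ← AlgEquiv.mul_apply t⁻¹ t, inv_mul_cancel, AlgEquiv.one_apply]
  exact padicEmbedding_localGaloisToGlobal (q : ℕ) _ _

end Semi

section SemiMain

variable (L : IntermediateField ℚ Qbar) [Normal ℚ L] (hL : L.IsUnramifiedOutside S)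
  (hle : L.fixingSubgroup ≤ P) (hKL : K₀ P ≤ L)
  [NumberField ↥(K₀ P)] [NumberField ↥(Lext P L hKL)] [IsGalois ↥(K₀ P) ↥(Lext P L hKL)]
  (q : Nat.Primes) (t : GQ)
  {F : Type} [Field F] [Algebra ↥(K₀ P) F] [Algebra F (PadicAlgCl (q : ℕ))]
  [Algebra ↥(K₀ P) (PadicAlgCl (q : ℕ))] [IsScalarTower ↥(K₀ P) F (PadicAlgCl (q : ℕ))]
  (e : ↥(Lext P L hKL) →ₐ[↥(K₀ P)] PadicAlgCl (q : ℕ))
  (he : ∀ y : ↥(Lext P L hKL), e y = emb q t (y : Qbar))
  (hF : Set.range (algebraMap F (PadicAlgCl (q : ℕ))) =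
    Set.range (algebraMap ↥(Fermat.Agent.S55.LM.GaloisDict.baseField (q : ℕ) (Dloc P q t))
      (PadicAlgCl (q : ℕ))))
  (hE : ((genField (F := F) e : IntermediateField F (PadicAlgCl (q : ℕ))) :
      Set (PadicAlgCl (q : ℕ))) =
    ((Fermat.Agent.S55.LM.GaloisDict.levelField (q : ℕ) (levelSub P q t L.fixingSubgroup) :
      IntermediateField _ (PadicAlgCl (q : ℕ))) : Set (PadicAlgCl (q : ℕ))))

/-- the local dictionary `pl` of `LocSAbs`: `(Dloc ⧸ W, (Ωˣ)^W) ≅ (Gal(F(eL)/F), F(eL)ˣ)`. -/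
def plSemi :
    PairEquiv (Dict.Inv (Fermat.Agent.S55.LM.Defs.Ox q (Dloc P q t))
        (levelSub P q t L.fixingSubgroup))
      (Rep.ofAlgebraAutOnUnits F (genField (F := F) e)) :=
  (pairDloc S P q t L.fixingSubgroup ⟨L.fixingSubgroup, fixingSubgroup_mem S L hL, hle⟩
      (fixingSubgroup_mem S L hL)).trans
    (pairSame (genField (F := F) e)
      (Fermat.Agent.S55.LM.GaloisDict.levelField (q : ℕ) (levelSub P q t L.fixingSubgroup))
      hF hE).symm

theorem hleW : ∀ s ∈ levelSub P q t L.fixingSubgroup, (locKS S P q t).f s ∈ lvl P L :=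
  fun _ hs => hs

include he in
theorem c1Semi (d : ↥(Dloc P q t) ⧸ levelSub P q t L.fixingSubgroup) :
    (pairExt S P L hKL hL hle).e (Dict.qf (locKS S P q t) (hleW S P L q t) d) =
      jGenGroupHom ↥(K₀ P) ↥(Lext P L hKL) F e ((plSemi S P L hL hle hKL q t e hF hE).e d) := by
  induction d using QuotientGroup.induction_on with
  | H d₀ =>
    apply AlgEquiv.ext
    intro y
    apply e.toRingHom.injective
    show e _ = e _
    rw [jGenGroupHom_spec, he]
    have hP : IsOpenS S P := ⟨L.fixingSubgroup, fixingSubgroup_mem S L hL, hle⟩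
    have hR : ((((plSemi S P L hL hle hKL q t e hF hE).e
        (QuotientGroup.mk d₀)) (toGen e y) : genField (F := F) e) : PadicAlgCl (q : ℕ)) =
        Fermat.Agent.S55.LM.Defs.toAut q (d₀ : primeLocalGaloisGroup q) (e y) :=
      resDloc_apply S P q t L.fixingSubgroup hP d₀
        (ringEquiv (genField (F := F) e) _ hE (toGen e y))
    rw [hR, he, ← emb_kappa]
    congr 1
    exact pairExt_e_mk S P L hKL hL hle (kappa P q t d₀) y

include he in
theorem c2Semi (a : Dict.Inv (resP P (KS S)) (lvl P L)) :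
    (plSemi S P L hL hle hKL q t e hF hE).φ (Dict.lvl₀ (locKS S P q t) (hleW S P L q t) a) =
      (jGenHom ↥(K₀ P) ↥(Lext P L hKL) F e).hom
        ((LxToJ ↥(K₀ P) ↥(Lext P L hKL) F).hom ((pairExt S P L hKL hL hle).φ a)) := by
  refine Eq.trans ?_ (jGenHom_apply ↥(K₀ P) ↥(Lext P L hKL) F e _).symm
  apply Additive.toMul.injective
  apply Units.ext
  apply Subtype.ext
  have hLHS : (((Additive.toMul ((plSemi S P L hL hle hKL q t e hF hE).φ
      ((Dict.lvl₀ (locKS S P q t) (hleW S P L q t)) a)) : (genField (F := F) e)ˣ) :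
        genField (F := F) e) : PadicAlgCl (q : ℕ)) =
      emb q t ((uOf P L (galStable_qsSubgroup S) a : Qbarˣ) : Qbar) :=
    @Fermat.Agent.S55.LM.GaloisDict.invEquiv_coe (q : ℕ) _ (Dloc P q t)
      (levelSub P q t L.fixingSubgroup) (levelSub_normal P q t L.fixingSubgroup)
      ((Dict.lvl₀ (locKS S P q t) (hleW S P L q t)) a)
  refine hLHS.trans ?_
  symm
  show ((psiL e ((((Additive.toMul ((pairExt S P L hKL hL hle).φ a) : (↥(Lext P L hKL))ˣ) :
      ↥(Lext P L hKL))) ⊗ₜ[↥(K₀ P)] (1 : F)) : genField (F := F) e) : PadicAlgCl (q : ℕ)) = _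
  rw [psiL_tmul_one]
  show e _ = _
  rw [he, pairExt_φ_coe]

include he hF hE in
/-- **Row (LOC-S), semi-abstract form**: `F` any field over `K` with a `K`-embedding into `Ω_q`
whose image is the fixed field of `Dloc P q t`. -/
theorem exists_jA_semi [Finite (↥P ⧸ lvl P L)] (hV : (basisP S P).mem (lvl P L)) :
    ∃ jA : groupCohomology (JRep ↥(K₀ P) ↥(Lext P L hKL) F) 2 →+
        H2 (basisLoc P q t) (Fermat.Agent.S55.LM.Defs.Ox q (Dloc P q t)),
      Function.Injective jA ∧
      ∀ z : groupCohomology (Rep.ofAlgebraAutOnUnits ↥(K₀ P) ↥(Lext P L hKL)) 2,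
        jA ((locH ↥(K₀ P) ↥(Lext P L hKL) F 2).hom z) =
          (locKS S P q t).h2 (ι₂ (basisP S P) (resP P (KS S)) (lvl P L) hV
            ((cohIsoExt S P L hKL hL hle 2).inv.hom z)) := by
  have hN := fixingSubgroup_mem S L hL
  have hW : (basisLoc P q t).mem (levelSub P q t L.fixingSubgroup) :=
    levelSub_mem_basisLoc S P q t _ hN
  haveI : Finite (↥(Dloc P q t) ⧸ levelSub P q t L.fixingSubgroup) :=
    DictBridge.finite_quotient _ hW
  have hinj : Function.Injective (Dict.inflH2 (basisLoc P q t)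
      (Fermat.Agent.S55.LM.Defs.Ox q (Dloc P q t)) hW) := by
    rw [LocSAbs.inflH2_eq_ι₂]
    exact Fermat.Agent.S55.LM.Iota2Inj.ι₂_injective_Ox q (Dloc P q t) _ hW
  refine ⟨(LocSHom.jA hW (jGenGroupHom ↥(K₀ P) ↥(Lext P L hKL) F e)
    (jGenHom ↥(K₀ P) ↥(Lext P L hKL) F e)
    (plSemi S P L hL hle hKL q t e hF hE)).toAddMonoidHom, ?_, ?_⟩
  · exact LocSHom.jA_injective hW _ _ _ hinj (jGenMap_bijective₂ ↥(K₀ P) ↥(Lext P L hKL) F e).1
  · intro z
    have key := LocSHom.jA_loc (locKS S P q t) (hleW S P L q t) hV hW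
      (pairExt S P L hKL hL hle) (LxToJ ↥(K₀ P) ↥(Lext P L hKL) F)
      (jGenGroupHom ↥(K₀ P) ↥(Lext P L hKL) F e) (jGenHom ↥(K₀ P) ↥(Lext P L hKL) F e)
      (plSemi S P L hL hle hKL q t e hF hE)
      (c1Semi S P L hL hle hKL q t e he hF hE) (c2Semi S P L hL hle hKL q t e he hF hE) z
    rw [LocSAbs.inflH2_eq_ι₂, pairExt_cohomologyIso] at key
    exact key

end SemiMain

/-! ### the theorem -/

section Final

variable (q : Nat.Primes) (t : GQ)

theorem range_eAt :
    Set.range (eAt P q t) = emb q t '' ((K₀ P : IntermediateField ℚ Qbar) : Set Qbar) := by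
  ext x
  constructor
  · rintro ⟨y, rfl⟩
    exact ⟨(y : Qbar), y.2, rfl⟩
  · rintro ⟨y, hy, rfl⟩
    exact ⟨⟨y, hy⟩, rfl⟩

theorem localFieldOf_eAt : localFieldOf (eAt P q t) = locField q t (K₀ P) := by
  unfold localFieldOf locField
  rw [range_eAt]

variable (L : IntermediateField ℚ Qbar) (hKL : K₀ P ≤ L)

/-- the embedding `L' → Ω_q`, `y ↦ padicEmbedding q (t⁻¹ y)` -/
def eLring : ↥(Lext P L hKL) →+* PadicAlgCl (q : ℕ) :=
  (emb q t).comp (algebraMap ↥(Lext P L hKL) Qbar)

theorem range_eLring :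
    Set.range (eLring P q t L hKL) = emb q t '' (L : Set Qbar) := by
  ext x
  constructor
  · rintro ⟨y, rfl⟩
    exact ⟨(y : Qbar), y.2, rfl⟩
  · rintro ⟨y, hy, rfl⟩
    exact ⟨⟨y, hy⟩, rfl⟩

/-- **ROW (LOC-S)** of helper17 #1935. -/
theorem statement : Statement S P := by
  intro L _ hL hle hKL _ _ _ hV q t
  letI := fieldKloc P q t
  letI := algKlocOm P q t
  letI := algKOm P q t
  haveI := tower_K_Kloc_Om P q t
  haveI := isGalois_Lext P L hKL
  let e : ↥(Lext P L hKL) →ₐ[↥(K₀ P)] PadicAlgCl (q : ℕ) :=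
    { toRingHom := eLring P q t L hKL
      commutes' := fun _ => rfl }
  have he : ∀ y : ↥(Lext P L hKL), e y = emb q t (y : Qbar) := fun _ => rfl
  have hP : IsOpenS S P := ⟨L.fixingSubgroup, fixingSubgroup_mem S L hL, hle⟩
  have hF : Set.range (algebraMap (Kloc ↥(K₀ P) q (mAt P q t)) (PadicAlgCl (q : ℕ))) =
      Set.range (algebraMap ↥(Fermat.Agent.S55.LM.GaloisDict.baseField (q : ℕ) (Dloc P q t))
        (PadicAlgCl (q : ℕ))) := by
    show Set.range (klocEmb P q t) = _
    rw [range_klocEmb, localFieldOf_eAt, ← baseField_Dloc_of_isOpenS S P q t hP]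
    exact (Subtype.range_coe).symm
  have hT : Set.range e = emb q t '' (L : Set Qbar) := range_eLring P q t L hKL
  have hE : ((genField (F := Kloc ↥(K₀ P) q (mAt P q t)) e :
      IntermediateField (Kloc ↥(K₀ P) q (mAt P q t)) (PadicAlgCl (q : ℕ))) :
        Set (PadicAlgCl (q : ℕ))) =
      ((Fermat.Agent.S55.LM.GaloisDict.levelField (q : ℕ) (levelSub P q t L.fixingSubgroup) :
        IntermediateField _ (PadicAlgCl (q : ℕ))) : Set (PadicAlgCl (q : ℕ))) := by
    have h0 : ((genField (F := Kloc ↥(K₀ P) q (mAt P q t)) e :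
        IntermediateField (Kloc ↥(K₀ P) q (mAt P q t)) (PadicAlgCl (q : ℕ))) :
          Set (PadicAlgCl (q : ℕ))) =
        (IntermediateField.adjoin ℚ_[(q : ℕ)] (Set.range e) : Set (PadicAlgCl (q : ℕ))) := by
      apply coe_adjoin_eq (F₀ := ℚ_[(q : ℕ)])
      · show Set.range (algebraMap ℚ_[(q : ℕ)] (PadicAlgCl (q : ℕ))) ⊆ Set.range (klocEmb P q t)
        rw [range_klocEmb]
        rintro _ ⟨c, rfl⟩
        exact (localFieldOf (eAt P q t)).algebraMap_mem c
      · show Set.range (klocEmb P q t) ⊆ _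
        rw [range_klocEmb, localFieldOf_eAt, hT]
        apply IntermediateField.adjoin.mono
        exact Set.image_mono hKL
    rw [h0, hT]
    ext x
    exact (mem_levelField_levelSub_iff P q t L hle x).symm
  exact exists_jA_semi S P L hL hle hKL q t e he hF hE hV

end Final

/-! ### consumer form -/

section Consumer

open Fermat.Agent.S55.Middle.LocS

/-- **Consumer form of (LOC-S)**: the LC localisation at `(q, t)` of the class `ι₂ (cohIsoExt⁻¹ z)`
vanishes iff the finite-level local component of `z` at the place `mAt P q t` of `K` vanishes. -/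
theorem loc_eq_zero_iff (L : IntermediateField ℚ Qbar) [Normal ℚ L] (hL : L.IsUnramifiedOutside S)
    (hle : L.fixingSubgroup ≤ P) (hKL : K₀ P ≤ L)
    [NumberField ↥(K₀ P)] [NumberField ↥(Lext P L hKL)] [Finite (↥P ⧸ lvl P L)]
    (hV : (basisP S P).mem (lvl P L)) (q : Nat.Primes) (t : GQ)
    (z : groupCohomology (Rep.ofAlgebraAutOnUnits ↥(K₀ P) ↥(Lext P L hKL)) 2) :
    (locKS S P q t).h2 (ι₂ (basisP S P) (resP P (KS S)) (lvl P L) hV
        ((cohIsoExt S P L hKL hL hle 2).inv.hom z)) = 0 ↔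
      (locH ↥(K₀ P) ↥(Lext P L hKL) (Kloc ↥(K₀ P) q (mAt P q t)) 2).hom z = 0 := by
  obtain ⟨jA, hinj, hc⟩ := statement S P L hL hle hKL hV q t
  rw [← hc z]
  constructor
  · intro h
    exact hinj (h.trans (map_zero jA).symm)
  · intro h
    rw [h, map_zero]

end Consumer

end

end Fermat.Agent.S55.Middle.LocS
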