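/-
S55 / MIDDLE block, ROW (LOC-S) with the RANGE CLAUSE (helper14), for the `htors`/`hbL` hypothesis of
`ImageLevel.adj_of_level` (helper85 #2305):

`StatementR S P` = `LocS.Statement S P` + a third conjunct: the range of `jA` is the range of the
local inflation `ι₂` at the level `W = levelSub P q t L.fixingSubgroup` of `Dloc P q t`
(`= (lvl P L).comap κ_t`), i.e. every class of `H²(Dloc ⧸ W, (Ωˣ)^W)` is hit.

* `statementR S P : StatementR S P` (unconditional), `StatementR.toStatement`.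
-/
import Fermat.Agent.S55.Middle.LocS

set_option autoImplicit false
set_option linter.unusedSectionVars false
set_option linter.style.haveILetI false

open CategoryTheory groupCohomology ExtCitation

namespace Fermat.Agent.S55.Middle.LocSR

noncomputable section

open Fermat.Agent.S55.Formal
open Fermat.Agent.S55.Formal.PreludeLC hiding GQ Qbar
open Fermat.Agent.S55.Middle.Defs
open Fermat.Agent.S55.Middle.KSite Fermat.Agent.S55.Middle.GaloisDict
open Fermat.Agent.S55.Middle.GaloisDictModel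
open Fermat.Agent.S55.Global.Blocks3 Fermat.Agent.S55.Global.Objects
open Fermat.Agent.S55.Formal.LCLevelH
open Fermat.Agent.S55.Middle.SemilocalCompare Fermat.Agent.S55.Middle.CompletionCompare
open Fermat.Agent.S55.LM.DlocDict Fermat.Agent.S55.LM.DlocLevelMap
open Fermat.Agent.S55.Coh.SemilocalExplicit Fermat.Agent.S55.Coh.PairSameCarrier
open Fermat.Agent.S55.Coh.PairEquiv
open Fermat.Agent.S55.Middle.LocSPairs
open Fermat.Agent.S55.Middle.LocS

attribute [local instance] Fermat.Agent.S55.LM.Defs.fact_q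

variable (S : Finset Nat.Primes) (P : Subgroup GQ)

/-- ROW (LOC-S) with the range clause. -/
def StatementR : Prop :=
  ∀ (L : IntermediateField ℚ Qbar) [Normal ℚ L] (hL : L.IsUnramifiedOutside S)
    (hle : L.fixingSubgroup ≤ P) (hKL : K₀ P ≤ L)
    [NumberField ↥(K₀ P)] [NumberField ↥(Lext P L hKL)] [Finite (↥P ⧸ lvl P L)]
    (hV : (basisP S P).mem (lvl P L)) (q : Nat.Primes) (t : GQ),
    ∃ jA : groupCohomology (Jloc ↥(K₀ P) ↥(Lext P L hKL) q (mAt P q t)) 2 →+
        H2 (basisLoc P q t) (Fermat.Agent.S55.LM.Defs.Ox q (Dloc P q t)),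
      Function.Injective jA ∧
      (∀ z : groupCohomology (Rep.ofAlgebraAutOnUnits ↥(K₀ P) ↥(Lext P L hKL)) 2,
        jA ((locH ↥(K₀ P) ↥(Lext P L hKL) (Kloc ↥(K₀ P) q (mAt P q t)) 2).hom z) =
          (locKS S P q t).h2 (ι₂ (basisP S P) (resP P (KS S)) (lvl P L) hV
            ((cohIsoExt S P L hKL hL hle 2).inv.hom z))) ∧
      ∀ (hW : (basisLoc P q t).mem (levelSub P q t L.fixingSubgroup))
        [Finite (↥(Dloc P q t) ⧸ levelSub P q t L.fixingSubgroup)]
        (y : groupCohomology.H2 ((Fermat.Agent.S55.LM.Defs.Ox q (Dloc P q t)).quotientToInvariants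
          (levelSub P q t L.fixingSubgroup))),
        ∃ b, jA b = ι₂ (basisLoc P q t) (Fermat.Agent.S55.LM.Defs.Ox q (Dloc P q t))
          (levelSub P q t L.fixingSubgroup) hW y

variable {S P}

theorem StatementR.toStatement (h : StatementR S P) : LocS.Statement S P := by
  intro L _ hL hle hKL _ _ _ hV q t
  obtain ⟨jA, h1, h2, _⟩ := h L hL hle hKL hV q t
  exact ⟨jA, h1, h2⟩

variable (S P)

section AbsRange

open Fermat.Agent.S55.Middle.Dict

variable {k : Type} [CommRing k] {D : Type} [Group D]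
variable {𝒱 : NBasis D} {B : Rep.{0, 0, 0} k D}
variable {W : Subgroup D} [W.Normal] (hW : 𝒱.mem W)
variable {G Gw : Type} [Group G] [Group Gw] {J : Rep.{0, 0, 0} k G}
variable (g : Gw →* G) {Y : Rep.{0, 0, 0} k Gw} (pr : Rep.res g J ⟶ Y)
variable (pl : PairEquiv (Inv B W) Y)

/-- the range of `LocSHom.jA` is the range of the local inflation when the explicit Shapiro map
is surjective. -/
theorem jA_range (hsurj : Function.Surjective (groupCohomology.map g pr 2).hom)
    (y : groupCohomology.H2 (Inv B W)) :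
    ∃ b, LocSHom.jA hW g pr pl b = inflH2 𝒱 B hW y := by
  obtain ⟨b, hb⟩ := hsurj ((pl.cohomologyIso 2).hom.hom y)
  refine ⟨b, ?_⟩
  rw [LocSHom.jA_apply, hb, Iso.hom_inv_id_apply]

end AbsRange

section SemiMain

variable (L : IntermediateField ℚ Qbar) [Normal ℚ L] (hL : L.IsUnramifiedOutside S)
  (hle : L.fixingSubgroup ≤ P) (hKL : K₀ P ≤ L)
  [NumberField ↥(K₀ P)] [NumberField ↥(Lext P L hKL)] [IsGalois ↥(K₀ P) ↥(Lext P L hKL)]
  (q : Nat.Primes) (t : GQ)
  {F : Type} [Field F] [Algebra ↥(K₀ P) F] [Algebra F (PadicAlgCl (q : ℕ))]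
  [Algebra ↥(K₀ P) (PadicAlgCl (q : ℕ))] [IsScalarTower ↥(K₀ P) F (PadicAlgCl (q : ℕ))]
  (e : ↥(Lext P L hKL) →ₐ[↥(K₀ P)] PadicAlgCl (q : ℕ))
  (he : ∀ y : ↥(Lext P L hKL), e y = emb q t (y : Qbar))
  (hF : Set.range (algebraMap F (PadicAlgCl (q : ℕ))) =
    Set.range (algebraMap ↥(Fermat.Agent.S55.LM.GaloisDict.baseField (q : ℕ) (Dloc P q t))
      (PadicAlgCl (q : ℕ))))
  (hE : ((genField (F := F) e : IntermediateField F (PadicAlgCl (q : ℕ))) :
      Set (PadicAlgCl (q : ℕ))) =
    ((Fermat.Agent.S55.LM.GaloisDict.levelField (q : ℕ) (levelSub P q t L.fixingSubgroup) :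
      IntermediateField _ (PadicAlgCl (q : ℕ))) : Set (PadicAlgCl (q : ℕ))))

include hL in
theorem hWsemi : (basisLoc P q t).mem (levelSub P q t L.fixingSubgroup) :=
  levelSub_mem_basisLoc S P q t _ (fixingSubgroup_mem S L hL)

/-- the comparison map `jA` of `LocS.exists_jA_semi`, as a definite linear map. -/
def jASemi : groupCohomology (JRep ↥(K₀ P) ↥(Lext P L hKL) F) 2 →ₗ[ℤ]
    H2 (basisLoc P q t) (Fermat.Agent.S55.LM.Defs.Ox q (Dloc P q t)) :=
  LocSHom.jA (hWsemi S P L hL q t) (jGenGroupHom ↥(K₀ P) ↥(Lext P L hKL) F e)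
    (jGenHom ↥(K₀ P) ↥(Lext P L hKL) F e) (plSemi S P L hL hle hKL q t e hF hE)

theorem inflH2_injective_semi :
    Function.Injective (Dict.inflH2 (basisLoc P q t)
      (Fermat.Agent.S55.LM.Defs.Ox q (Dloc P q t)) (hWsemi S P L hL q t)) := by
  haveI : Finite (↥(Dloc P q t) ⧸ levelSub P q t L.fixingSubgroup) :=
    DictBridge.finite_quotient _ (hWsemi S P L hL q t)
  rw [LocSAbs.inflH2_eq_ι₂]
  exact Fermat.Agent.S55.LM.Iota2Inj.ι₂_injective_Ox q (Dloc P q t) _ (hWsemi S P L hL q t)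

theorem jASemi_injective : Function.Injective (jASemi S P L hL hle hKL q t e hF hE) :=
  LocSHom.jA_injective (hWsemi S P L hL q t) _ _ _ (inflH2_injective_semi S P L hL q t)
    (jGenMap_bijective₂ ↥(K₀ P) ↥(Lext P L hKL) F e).1

include he in
theorem jASemi_loc [Finite (↥P ⧸ lvl P L)] (hV : (basisP S P).mem (lvl P L))
    (z : groupCohomology (Rep.ofAlgebraAutOnUnits ↥(K₀ P) ↥(Lext P L hKL)) 2) :
    jASemi S P L hL hle hKL q t e hF hE ((locH ↥(K₀ P) ↥(Lext P L hKL) F 2).hom z) =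
      (locKS S P q t).h2 (ι₂ (basisP S P) (resP P (KS S)) (lvl P L) hV
        ((cohIsoExt S P L hKL hL hle 2).inv.hom z)) := by
  have key := LocSHom.jA_loc (locKS S P q t) (hleW S P L q t) hV (hWsemi S P L hL q t)
    (pairExt S P L hKL hL hle) (LxToJ ↥(K₀ P) ↥(Lext P L hKL) F)
    (jGenGroupHom ↥(K₀ P) ↥(Lext P L hKL) F e) (jGenHom ↥(K₀ P) ↥(Lext P L hKL) F e)
    (plSemi S P L hL hle hKL q t e hF hE)
    (c1Semi S P L hL hle hKL q t e he hF hE) (c2Semi S P L hL hle hKL q t e he hF hE) z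
  rw [LocSAbs.inflH2_eq_ι₂, pairExt_cohomologyIso] at key
  exact key

theorem jASemi_range (hW : (basisLoc P q t).mem (levelSub P q t L.fixingSubgroup))
    [Finite (↥(Dloc P q t) ⧸ levelSub P q t L.fixingSubgroup)]
    (y : groupCohomology.H2 ((Fermat.Agent.S55.LM.Defs.Ox q (Dloc P q t)).quotientToInvariants
      (levelSub P q t L.fixingSubgroup))) :
    ∃ b, jASemi S P L hL hle hKL q t e hF hE b =
      ι₂ (basisLoc P q t) (Fermat.Agent.S55.LM.Defs.Ox q (Dloc P q t))
        (levelSub P q t L.fixingSubgroup) hW y := by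
  rw [← LocSAbs.inflH2_eq_ι₂]
  exact jA_range (hWsemi S P L hL q t) _ _ (plSemi S P L hL hle hKL q t e hF hE)
    (jGenMap_bijective₂ ↥(K₀ P) ↥(Lext P L hKL) F e).2 y

include he hF hE in
/-- `LocS.exists_jA_semi` with the range clause. -/
theorem exists_jA_semi_range [Finite (↥P ⧸ lvl P L)] (hV : (basisP S P).mem (lvl P L)) :
    ∃ jA : groupCohomology (JRep ↥(K₀ P) ↥(Lext P L hKL) F) 2 →+
        H2 (basisLoc P q t) (Fermat.Agent.S55.LM.Defs.Ox q (Dloc P q t)),
      Function.Injective jA ∧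
      (∀ z : groupCohomology (Rep.ofAlgebraAutOnUnits ↥(K₀ P) ↥(Lext P L hKL)) 2,
        jA ((locH ↥(K₀ P) ↥(Lext P L hKL) F 2).hom z) =
          (locKS S P q t).h2 (ι₂ (basisP S P) (resP P (KS S)) (lvl P L) hV
            ((cohIsoExt S P L hKL hL hle 2).inv.hom z))) ∧
      ∀ (hW : (basisLoc P q t).mem (levelSub P q t L.fixingSubgroup))
        [Finite (↥(Dloc P q t) ⧸ levelSub P q t L.fixingSubgroup)]
        (y : groupCohomology.H2 ((Fermat.Agent.S55.LM.Defs.Ox q (Dloc P q t)).quotientToInvariants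
          (levelSub P q t L.fixingSubgroup))),
        ∃ b, jA b = ι₂ (basisLoc P q t) (Fermat.Agent.S55.LM.Defs.Ox q (Dloc P q t))
          (levelSub P q t L.fixingSubgroup) hW y :=
  ⟨(jASemi S P L hL hle hKL q t e hF hE).toAddMonoidHom,
    jASemi_injective S P L hL hle hKL q t e hF hE,
    jASemi_loc S P L hL hle hKL q t e he hF hE hV,
    fun hW _ y => jASemi_range S P L hL hle hKL q t e hF hE hW y⟩

end SemiMain

/-- **ROW (LOC-S) with the range clause**, unconditional. -/
theorem statementR : StatementR S P := by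
  intro L _ hL hle hKL _ _ _ hV q t
  letI := fieldKloc P q t
  letI := algKlocOm P q t
  letI := algKOm P q t
  haveI := tower_K_Kloc_Om P q t
  haveI := isGalois_Lext P L hKL
  let e : ↥(Lext P L hKL) →ₐ[↥(K₀ P)] PadicAlgCl (q : ℕ) :=
    { toRingHom := eLring P q t L hKL
      commutes' := fun _ => rfl }
  have he : ∀ y : ↥(Lext P L hKL), e y = emb q t (y : Qbar) := fun _ => rfl
  have hP : IsOpenS S P := ⟨L.fixingSubgroup, fixingSubgroup_mem S L hL, hle⟩
  have hF : Set.range (algebraMap (Kloc ↥(K₀ P) q (mAt P q t)) (PadicAlgCl (q : ℕ))) =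
      Set.range (algebraMap ↥(Fermat.Agent.S55.LM.GaloisDict.baseField (q : ℕ) (Dloc P q t))
        (PadicAlgCl (q : ℕ))) := by
    show Set.range (klocEmb P q t) = _
    rw [range_klocEmb, localFieldOf_eAt, ← baseField_Dloc_of_isOpenS S P q t hP]
    exact (Subtype.range_coe).symm
  have hT : Set.range e = emb q t '' (L : Set Qbar) := range_eLring P q t L hKL
  have hE : ((genField (F := Kloc ↥(K₀ P) q (mAt P q t)) e :
      IntermediateField (Kloc ↥(K₀ P) q (mAt P q t)) (PadicAlgCl (q : ℕ))) :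
        Set (PadicAlgCl (q : ℕ))) =
      ((Fermat.Agent.S55.LM.GaloisDict.levelField (q : ℕ) (levelSub P q t L.fixingSubgroup) :
        IntermediateField _ (PadicAlgCl (q : ℕ))) : Set (PadicAlgCl (q : ℕ))) := by
    have h0 : ((genField (F := Kloc ↥(K₀ P) q (mAt P q t)) e :
        IntermediateField (Kloc ↥(K₀ P) q (mAt P q t)) (PadicAlgCl (q : ℕ))) :
          Set (PadicAlgCl (q : ℕ))) =
        (IntermediateField.adjoin ℚ_[(q : ℕ)] (Set.range e) : Set (PadicAlgCl (q : ℕ))) := by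
      apply coe_adjoin_eq (F₀ := ℚ_[(q : ℕ)])
      · show Set.range (algebraMap ℚ_[(q : ℕ)] (PadicAlgCl (q : ℕ))) ⊆ Set.range (klocEmb P q t)
        rw [range_klocEmb]
        rintro _ ⟨c, rfl⟩
        exact (localFieldOf (eAt P q t)).algebraMap_mem c
      · show Set.range (klocEmb P q t) ⊆ _
        rw [range_klocEmb, localFieldOf_eAt, hT]
        apply IntermediateField.adjoin.mono
        exact Set.image_mono hKL
    rw [h0, hT]
    ext x
    exact (mem_levelField_levelSub_iff P q t L hle x).symm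
  exact exists_jA_semi_range S P L hL hle hKL q t e he hF hE hV

end

end Fermat.Agent.S55.Middle.LocSR
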