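/-
S55 / MIDDLE block, ImageInst hub (helper37), the `jA / hcA / hjA / range` leg (helper14), from
`LocSR.statementR` (ROW (LOC-S) with the range clause).

For `P ≤ G_ℚ`, representatives `R : Reps S P`, a finite Galois level `L ⊇ K = K₀ P`
(`L' = Lext P L hKL`), the products over the places `i = (q, t) ∈ R.Idx` of `K` above `S`:

* `A R      = Π_i H²_LC(D_i; Ω^×)`           (`Blocks2.BrLoc R i`),
* `AL …     = Π_i H²(Gal(L'/K), (L' ⊗[K] K_{𝔪_i})ˣ)`, `𝔪_i = mAt P q t`,
* `locK : H²_LC(P; KS S) →+ A R`, `infl : H²(Gal(L'/K), L'ˣ) →+ H²_LC(P; KS S)` (`ι₂ ∘ cohIsoExt⁻¹`),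
  `locL : H²(Gal(L'/K), L'ˣ) →+ AL`, `jA : AL →+ A R`,

with `hcA : locK (infl y) = jA (locL y)`, `hjA : Injective jA` and the range clause
`jA_range : every tuple of classes inflated from the levels `W_i = (lvl P L).comap κ_i` is in the range
of `jA`.  These are literally the hypotheses `hcA`, `hjA` (and the input of `htors`/`hbL`) of
`ImageLevel.adj_of_level`, `gen_of_level`, `not_rel_of_level`, `real_of_level`.
-/
import Fermat.Agent.S55.Middle.LocSR
import Fermat.Agent.S55.Middle.Blocks2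

set_option autoImplicit false
set_option linter.unusedSectionVars false
set_option linter.style.haveILetI false

open CategoryTheory groupCohomology ExtCitation

namespace Fermat.Agent.S55.Middle.ImageLocS

noncomputable section

open Fermat.Agent.S55.Formal
open Fermat.Agent.S55.Formal.PreludeLC hiding GQ Qbar
open Fermat.Agent.S55.Middle.Defs
open Fermat.Agent.S55.Middle.KSite Fermat.Agent.S55.Middle.GaloisDict
open Fermat.Agent.S55.Middle.GaloisDictModel
open Fermat.Agent.S55.Global.Blocks3 Fermat.Agent.S55.Global.Objects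
open Fermat.Agent.S55.Formal.LCLevelH
open Fermat.Agent.S55.LM.DlocDict
open Fermat.Agent.S55.Middle.LocS Fermat.Agent.S55.Middle.LocSR

attribute [local instance] Fermat.Agent.S55.LM.Defs.fact_q

variable {S : Finset Nat.Primes} {P : Subgroup GQ} (R : Reps S P)

/-- `A = Π_i H²_LC(D_i; Ω^×)` over the places of `K` above `S`. -/
abbrev A : Type := ∀ i : R.Idx, Blocks2.BrLoc R i

/-- the product group structure on `A` (typeclass search does not find the dependent `Pi` instance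
by itself). -/
instance instAddCommGroupA : AddCommGroup (A R) :=
  @Pi.addCommGroup R.Idx (fun i => Blocks2.BrLoc R i)
    (fun i => (inferInstance : AddCommGroup (Blocks2.BrLoc R i)))

/-- the localisation `H²_LC(P; KS S) →+ A`. -/
def locK : H2 (basisP S P) (resP P (KS S)) →+ A R where
  toFun z i := (locKS S P i.1.1 i.2.1).h2 z
  map_zero' := funext fun i => map_zero (locKS S P i.1.1 i.2.1).h2
  map_add' x y := funext fun i => map_add (locKS S P i.1.1 i.2.1).h2 x y

@[simp] lemma locK_apply (z : H2 (basisP S P) (resP P (KS S))) (i : R.Idx) :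
    locK R z i = (locKS S P i.1.1 i.2.1).h2 z := rfl

variable (L : IntermediateField ℚ Qbar) [Normal ℚ L] (hL : L.IsUnramifiedOutside S)
  (hle : L.fixingSubgroup ≤ P) (hKL : K₀ P ≤ L)
  [NumberField ↥(K₀ P)] [NumberField ↥(Lext P L hKL)] [Finite (↥P ⧸ lvl P L)]
  (hV : (basisP S P).mem (lvl P L))

/-- `AL = Π_i H²(Gal(L'/K), (L' ⊗[K] K_{𝔪_i})ˣ)`. -/
abbrev AL : Type :=
  ∀ i : R.Idx, groupCohomology (Jloc ↥(K₀ P) ↥(Lext P L hKL) i.1.1 (mAt P i.1.1 i.2.1)) 2

/-- inflation from the level `L`: `ι₂ ∘ cohIsoExt⁻¹`. -/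
def infl : groupCohomology (Rep.ofAlgebraAutOnUnits ↥(K₀ P) ↥(Lext P L hKL)) 2 →+
    H2 (basisP S P) (resP P (KS S)) :=
  ((ι₂ (basisP S P) (resP P (KS S)) (lvl P L) hV).toAddMonoidHom).comp
    ((cohIsoExt S P L hKL hL hle 2).inv.hom : _ →ₗ[ℤ] _).toAddMonoidHom

lemma infl_apply (z : groupCohomology (Rep.ofAlgebraAutOnUnits ↥(K₀ P) ↥(Lext P L hKL)) 2) :
    infl L hL hle hKL hV z = ι₂ (basisP S P) (resP P (KS S)) (lvl P L) hV
      ((cohIsoExt S P L hKL hL hle 2).inv.hom z) := rfl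

/-- the finite-level localisation `H²(Gal(L'/K), L'ˣ) →+ AL`. -/
def locL : groupCohomology (Rep.ofAlgebraAutOnUnits ↥(K₀ P) ↥(Lext P L hKL)) 2 →+
    AL R L hKL where
  toFun z i := (locH ↥(K₀ P) ↥(Lext P L hKL) (Kloc ↥(K₀ P) i.1.1 (mAt P i.1.1 i.2.1)) 2).hom z
  map_zero' := funext fun _ => map_zero _
  map_add' x y := funext fun _ => map_add _ x y

@[simp] lemma locL_apply (z : groupCohomology (Rep.ofAlgebraAutOnUnits ↥(K₀ P) ↥(Lext P L hKL)) 2)
    (i : R.Idx) :
    locL R L hKL z i =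
      (locH ↥(K₀ P) ↥(Lext P L hKL) (Kloc ↥(K₀ P) i.1.1 (mAt P i.1.1 i.2.1)) 2).hom z := rfl

/-- the component `jA_i` (chosen from `LocSR.statementR`). -/
def jAi (i : R.Idx) :
    groupCohomology (Jloc ↥(K₀ P) ↥(Lext P L hKL) i.1.1 (mAt P i.1.1 i.2.1)) 2 →+
      Blocks2.BrLoc R i :=
  Classical.choose (statementR S P L hL hle hKL hV i.1.1 i.2.1)

theorem jAi_injective (i : R.Idx) : Function.Injective (jAi R L hL hle hKL hV i) :=
  (Classical.choose_spec (statementR S P L hL hle hKL hV i.1.1 i.2.1)).1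

theorem jAi_loc (i : R.Idx)
    (z : groupCohomology (Rep.ofAlgebraAutOnUnits ↥(K₀ P) ↥(Lext P L hKL)) 2) :
    jAi R L hL hle hKL hV i
        ((locH ↥(K₀ P) ↥(Lext P L hKL) (Kloc ↥(K₀ P) i.1.1 (mAt P i.1.1 i.2.1)) 2).hom z) =
      (locKS S P i.1.1 i.2.1).h2 (ι₂ (basisP S P) (resP P (KS S)) (lvl P L) hV
        ((cohIsoExt S P L hKL hL hle 2).inv.hom z)) :=
  (Classical.choose_spec (statementR S P L hL hle hKL hV i.1.1 i.2.1)).2.1 z

theorem jAi_range (i : R.Idx)
    (hW : (basisLoc P i.1.1 i.2.1).mem (levelSub P i.1.1 i.2.1 L.fixingSubgroup))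
    [Finite (↥(Dloc P i.1.1 i.2.1) ⧸ levelSub P i.1.1 i.2.1 L.fixingSubgroup)]
    (y : groupCohomology.H2
      ((Fermat.Agent.S55.LM.Defs.Ox i.1.1 (Dloc P i.1.1 i.2.1)).quotientToInvariants
        (levelSub P i.1.1 i.2.1 L.fixingSubgroup))) :
    ∃ b, jAi R L hL hle hKL hV i b =
      ι₂ (basisLoc P i.1.1 i.2.1) (Fermat.Agent.S55.LM.Defs.Ox i.1.1 (Dloc P i.1.1 i.2.1))
        (levelSub P i.1.1 i.2.1 L.fixingSubgroup) hW y :=
  (Classical.choose_spec (statementR S P L hL hle hKL hV i.1.1 i.2.1)).2.2 hW y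

/-- `jA : AL →+ A`, componentwise. -/
def jA : AL R L hKL →+ A R where
  toFun b i := jAi R L hL hle hKL hV i (b i)
  map_zero' := funext fun i => map_zero (jAi R L hL hle hKL hV i)
  map_add' x y := funext fun i => map_add (jAi R L hL hle hKL hV i) (x i) (y i)

@[simp] lemma jA_apply (b : AL R L hKL) (i : R.Idx) :
    jA R L hL hle hKL hV b i = jAi R L hL hle hKL hV i (b i) := rfl

/-- **`hjA`**: `jA` is injective. -/
theorem hjA : Function.Injective (jA R L hL hle hKL hV) := by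
  intro b b' h
  funext i
  exact jAi_injective R L hL hle hKL hV i (congrFun h i)

/-- **`hcA`**: `locK (infl y) = jA (locL y)`. -/
theorem hcA (y : groupCohomology (Rep.ofAlgebraAutOnUnits ↥(K₀ P) ↥(Lext P L hKL)) 2) :
    locK R (infl L hL hle hKL hV y) = jA R L hL hle hKL hV (locL R L hKL y) := by
  funext i
  exact (jAi_loc R L hL hle hKL hV i y).symm

/-- **range clause**: every tuple of classes inflated from the levels
`W_i = levelSub P q t L.fixingSubgroup` of the local groups is in the range of `jA`. -/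
theorem jA_range
    (hW : ∀ i : R.Idx, (basisLoc P i.1.1 i.2.1).mem (levelSub P i.1.1 i.2.1 L.fixingSubgroup))
    [∀ i : R.Idx, Finite (↥(Dloc P i.1.1 i.2.1) ⧸ levelSub P i.1.1 i.2.1 L.fixingSubgroup)]
    (y : ∀ i : R.Idx, groupCohomology.H2
      ((Fermat.Agent.S55.LM.Defs.Ox i.1.1 (Dloc P i.1.1 i.2.1)).quotientToInvariants
        (levelSub P i.1.1 i.2.1 L.fixingSubgroup))) :
    ∃ b : AL R L hKL, ∀ i : R.Idx, jA R L hL hle hKL hV b i =
      ι₂ (basisLoc P i.1.1 i.2.1) (Fermat.Agent.S55.LM.Defs.Ox i.1.1 (Dloc P i.1.1 i.2.1))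
        (levelSub P i.1.1 i.2.1 L.fixingSubgroup) (hW i) (y i) := by
  have h : ∀ i : R.Idx, ∃ bi, jAi R L hL hle hKL hV i bi =
      ι₂ (basisLoc P i.1.1 i.2.1) (Fermat.Agent.S55.LM.Defs.Ox i.1.1 (Dloc P i.1.1 i.2.1))
        (levelSub P i.1.1 i.2.1 L.fixingSubgroup) (hW i) (y i) :=
    fun i => jAi_range R L hL hle hKL hV i (hW i) (y i)
  exact ⟨fun i => Classical.choose (h i), fun i => Classical.choose_spec (h i)⟩

/-- componentwise form of the range clause. -/
theorem jA_range_of (a : A R)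
    (ha : ∀ i : R.Idx, ∃ (hW : (basisLoc P i.1.1 i.2.1).mem
        (levelSub P i.1.1 i.2.1 L.fixingSubgroup))
      (_ : Finite (↥(Dloc P i.1.1 i.2.1) ⧸ levelSub P i.1.1 i.2.1 L.fixingSubgroup))
      (y : groupCohomology.H2
        ((Fermat.Agent.S55.LM.Defs.Ox i.1.1 (Dloc P i.1.1 i.2.1)).quotientToInvariants
          (levelSub P i.1.1 i.2.1 L.fixingSubgroup))),
      a i = ι₂ (basisLoc P i.1.1 i.2.1) (Fermat.Agent.S55.LM.Defs.Ox i.1.1 (Dloc P i.1.1 i.2.1))
        (levelSub P i.1.1 i.2.1 L.fixingSubgroup) hW y) :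
    ∃ b : AL R L hKL, jA R L hL hle hKL hV b = a := by
  have h : ∀ i : R.Idx, ∃ bi, jAi R L hL hle hKL hV i bi = a i := by
    intro i
    obtain ⟨hW, hfin, y, hy⟩ := ha i
    obtain ⟨bi, hbi⟩ := jAi_range R L hL hle hKL hV i hW y
    exact ⟨bi, hbi.trans hy.symm⟩
  exact ⟨fun i => Classical.choose (h i), funext fun i => Classical.choose_spec (h i)⟩

end

end Fermat.Agent.S55.Middle.ImageLocS
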