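/-
S55 / Middle / M.lcTorsion (helper24): LC cohomology in positive degrees is a TORSION group.

For a group `G` with a basis `𝒰` of normal subgroups of finite index and ANY `M : Rep k G`, every class
of `H¹`, `H²`, `H³` (LC cohomology of `Formal/LC.lean`) is killed by a positive integer, namely the
index `[G : U]` of a level `U` of a representing cocycle.  Proof: the explicit averaging cochain
`h(g₁,…,g_{n-1}) = Σ_{t ∈ G/U} f(g₁,…,g_{n-1},t)`, `[G:U] • f = ± d h`.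

These are the hypotheses `htors`, `htorsO` of `Middle/H3.lean` (`h3O_eq_zero`, `h3mu_eq_zero`).
-/
import Mathlib
import Fermat.Agent.S55.Formal.LC

set_option autoImplicit false
set_option linter.unusedSectionVars false
set_option linter.style.haveILetI false

open CategoryTheory groupCohomology

namespace Fermat.Agent.S55.Middle.LCTorsion

open Fermat.Agent.S55.Formal

noncomputable section

variable {k : Type} [CommRing k] {G : Type} [Group G]

/-! ### sums over `G ⧸ U` -/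

section Sum

variable (M : Rep.{0, 0, 0} k G) (U : Subgroup G) [U.FiniteIndex]

/-- sum over coset representatives of `G ⧸ U` -/
def cs (θ : G → M) : M :=
  letI := U.fintypeQuotientOfFiniteIndex
  ∑ q : G ⧸ U, θ q.out

lemma out_smul_eq (g : G) (q : G ⧸ U) : ∃ s ∈ U, (g • q).out = g * q.out * s := by
  refine ⟨(g * q.out)⁻¹ * (g • q).out, ?_, by group⟩
  rw [← QuotientGroup.eq]
  rw [QuotientGroup.out_eq']
  conv_rhs => rw [← QuotientGroup.out_eq' q]
  rfl

lemma cs_mul_left {θ : G → M} (hθ : ∀ c s, s ∈ U → θ (c * s) = θ c) (g : G) :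
    cs M U (fun c => θ (g * c)) = cs M U θ := by
  unfold cs
  letI := U.fintypeQuotientOfFiniteIndex
  have h1 : ∀ q : G ⧸ U, θ (g * q.out) = θ ((g • q).out) := by
    intro q
    obtain ⟨s, hs, hsq⟩ := out_smul_eq U g q
    rw [hsq, hθ _ _ hs]
  calc ∑ q : G ⧸ U, θ (g * q.out) = ∑ q : G ⧸ U, θ ((g • q).out) :=
        Finset.sum_congr rfl fun q _ => h1 q
    _ = ∑ q : G ⧸ U, θ q.out :=
        Equiv.sum_comp (MulAction.toPerm g : Equiv.Perm (G ⧸ U)) (fun q => θ q.out)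

lemma cs_const (a : M) : cs M U (fun _ => a) = U.index • a := by
  unfold cs
  letI := U.fintypeQuotientOfFiniteIndex
  rw [Finset.sum_const, Finset.card_univ, Subgroup.index_eq_card, Nat.card_eq_fintype_card]

lemma cs_add (θ₁ θ₂ : G → M) : cs M U (fun c => θ₁ c + θ₂ c) = cs M U θ₁ + cs M U θ₂ := by
  unfold cs
  exact Finset.sum_add_distrib

lemma cs_sub (θ₁ θ₂ : G → M) : cs M U (fun c => θ₁ c - θ₂ c) = cs M U θ₁ - cs M U θ₂ := by
  unfold cs
  exact Finset.sum_sub_distrib _ _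

lemma cs_ρ (g : G) (θ : G → M) : cs M U (fun c => M.ρ g (θ c)) = M.ρ g (cs M U θ) := by
  unfold cs
  exact (map_sum (M.ρ g) _ _).symm

lemma cs_zero : cs M U (fun _ => (0 : M)) = 0 := by
  unfold cs
  exact Finset.sum_const_zero

lemma cs_congr {θ₁ θ₂ : G → M} (h : ∀ c, θ₁ c = θ₂ c) : cs M U θ₁ = cs M U θ₂ := by
  have : θ₁ = θ₂ := funext h
  rw [this]

end Sum

/-! ### the theorems -/

variable (𝒰 : NBasis G) (M : Rep.{0, 0, 0} k G)

lemma of_congr {X Y Z : Type} [AddCommGroup X] [Module k X] [AddCommGroup Y] [Module k Y]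
    [AddCommGroup Z] [Module k Z] {f : X →ₗ[k] Y} {g : Y →ₗ[k] Z} {b b' : Y} (h : b = b')
    (hb : g b = 0) (hb' : g b' = 0) : (Hmid.of b hb : Hmid f g) = Hmid.of b' hb' := by
  subst h
  rfl

/-- a multiple of a class is zero as soon as the multiple of the cocycle is a coboundary -/
lemma nsmul_of_eq_zero {X Y Z : Type} [AddCommGroup X] [Module k X] [AddCommGroup Y] [Module k Y]
    [AddCommGroup Z] [Module k Z] {f : X →ₗ[k] Y} {g : Y →ₗ[k] Z} (N : ℕ) {b : Y} (hb : g b = 0)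
    (a : X) (ha : f a = N • b) : N • (Hmid.of b hb : Hmid f g) = 0 := by
  rw [← Nat.cast_smul_eq_nsmul k, ← Hmid.of_smul, Hmid.of_eq_zero_iff]
  exact ⟨a, by rw [ha, Nat.cast_smul_eq_nsmul]⟩

/-- the class of a `1`-cocycle of level `U` is killed by `[G : U]` -/
theorem index_smul_H1 (f : ↥(C₁ 𝒰 M)) (hf : dC₁ 𝒰 M f = 0) {U : Subgroup G} (hU : 𝒰.mem U)
    (hlev : ∀ s ∈ U, ∀ g, (f : G → M) (g * s) = (f : G → M) g ∧ M.ρ s ((f : G → M) g) = (f : G → M) g) :
    U.index • (Hmid.of f hf : H1 𝒰 M) = 0 := by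
  haveI := 𝒰.finiteIndex hU
  -- the averaging element
  set m : M := cs M U (f : G → M) with hm
  have hmem : -m ∈ C₀ 𝒰 M := by
    refine ⟨U, hU, fun s hs => ?_⟩
    rw [map_neg, hm, ← cs_ρ]
    congr 1
    exact cs_congr M U fun c => (hlev s hs c).2
  refine nsmul_of_eq_zero U.index hf ⟨-m, hmem⟩ ?_
  apply Subtype.ext
  funext g
  -- cocycle identity summed over the last variable
  have hcoc : ∀ t : G, M.ρ g ((f : G → M) t) - (f : G → M) (g * t) + (f : G → M) g = 0 := by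
    intro t
    have := congrFun (congrArg Subtype.val hf) (g, t)
    simpa [d₁₂_hom_apply] using this
  have hsum := cs_congr M U hcoc
  rw [cs_add, cs_sub, cs_ρ, cs_const, cs_zero,
    cs_mul_left M U (θ := (f : G → M)) (fun c s hs => (hlev s hs c).1) g] at hsum
  change (d₀₁ M).hom (-m) g = (U.index • (f : G → M)) g
  rw [d₀₁_hom_apply, Pi.smul_apply, map_neg]
  rw [← hm] at hsum
  have : U.index • (f : G → M) g = m - M.ρ g m := by
    rw [eq_sub_iff_add_eq, add_comm]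
    rw [← sub_eq_zero, ← hsum]
    abel
  rw [this]
  abel

/-- **`H¹` is torsion.** -/
theorem torsion_H1 (x : H1 𝒰 M) : ∃ N : ℕ, 0 < N ∧ N • x = 0 := by
  obtain ⟨f, hf, rfl⟩ := Hmid.exists_of x
  obtain ⟨U, hU, hlev⟩ := f.2
  haveI := 𝒰.finiteIndex hU
  exact ⟨U.index, Nat.pos_of_ne_zero Subgroup.FiniteIndex.index_ne_zero,
    index_smul_H1 𝒰 M f hf hU hlev⟩

/-- the class of a `2`-cocycle of level `U` is killed by `[G : U]` -/
theorem index_smul_H2 (f : ↥(C₂ 𝒰 M)) (hf : dC₂ 𝒰 M f = 0) {U : Subgroup G} (hU : 𝒰.mem U)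
    (hlev : ∀ s ∈ U, ∀ g h, (f : G × G → M) (g * s, h) = (f : G × G → M) (g, h) ∧
      (f : G × G → M) (g, h * s) = (f : G × G → M) (g, h) ∧
      M.ρ s ((f : G × G → M) (g, h)) = (f : G × G → M) (g, h)) :
    U.index • (Hmid.of f hf : H2 𝒰 M) = 0 := by
  haveI := 𝒰.finiteIndex hU
  haveI := 𝒰.normal hU
  -- the averaging cochain
  set h : G → M := fun g => cs M U (fun t => (f : G × G → M) (g, t)) with hh
  have hmem : h ∈ C₁ 𝒰 M := by
    refine ⟨U, hU, fun s hs g => ⟨?_, ?_⟩⟩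
    · exact cs_congr M U fun c => (hlev s hs g c).1
    · rw [hh]
      simp only
      rw [← cs_ρ]
      exact cs_congr M U fun c => (hlev s hs g c).2.2
  refine nsmul_of_eq_zero U.index hf ⟨h, hmem⟩ ?_
  apply Subtype.ext
  funext ⟨g₁, g₂⟩
  have hcoc : ∀ t : G, M.ρ g₁ ((f : G × G → M) (g₂, t)) - (f : G × G → M) (g₁ * g₂, t)
      + (f : G × G → M) (g₁, g₂ * t) - (f : G × G → M) (g₁, g₂) = 0 := by
    intro t
    have := congrFun (congrArg Subtype.val hf) (g₁, g₂, t)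
    simpa [d₂₃_hom_apply] using this
  have hsum := cs_congr M U hcoc
  rw [cs_sub, cs_add, cs_sub, cs_ρ, cs_const, cs_zero,
    cs_mul_left M U (θ := fun t => (f : G × G → M) (g₁, t))
      (fun c s hs => (hlev s hs g₁ c).2.1) g₂] at hsum
  change (d₁₂ M).hom h (g₁, g₂) = (U.index • (f : G × G → M)) (g₁, g₂)
  rw [d₁₂_hom_apply, Pi.smul_apply]
  simp only [hh]
  rw [← sub_eq_zero, ← hsum]

/-- **`H²` is torsion.** -/
theorem torsion_H2 (x : H2 𝒰 M) : ∃ N : ℕ, 0 < N ∧ N • x = 0 := by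
  obtain ⟨f, hf, rfl⟩ := Hmid.exists_of x
  obtain ⟨U, hU, hlev⟩ := f.2
  haveI := 𝒰.finiteIndex hU
  exact ⟨U.index, Nat.pos_of_ne_zero Subgroup.FiniteIndex.index_ne_zero,
    index_smul_H2 𝒰 M f hf hU hlev⟩

/-- the class of a `3`-cocycle of level `U` is killed by `[G : U]` -/
theorem index_smul_H3 (f : ↥(C₃ 𝒰 M)) (hf : dC₃ 𝒰 M f = 0) {U : Subgroup G} (hU : 𝒰.mem U)
    (hlev : ∀ s ∈ U, ∀ g h j, (f : G × G × G → M) (g * s, h, j) = (f : G × G × G → M) (g, h, j) ∧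
      (f : G × G × G → M) (g, h * s, j) = (f : G × G × G → M) (g, h, j) ∧
      (f : G × G × G → M) (g, h, j * s) = (f : G × G × G → M) (g, h, j) ∧
      M.ρ s ((f : G × G × G → M) (g, h, j)) = (f : G × G × G → M) (g, h, j)) :
    U.index • (Hmid.of f hf : H3 𝒰 M) = 0 := by
  haveI := 𝒰.finiteIndex hU
  haveI := 𝒰.normal hU
  set h : G × G → M := fun g => cs M U (fun t => (f : G × G × G → M) (g.1, g.2, t)) with hh
  have hmem : -h ∈ C₂ 𝒰 M := by
    refine Submodule.neg_mem _ ⟨U, hU, fun s hs g g' => ⟨?_, ?_, ?_⟩⟩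
    · exact cs_congr M U fun c => (hlev s hs g g' c).1
    · exact cs_congr M U fun c => (hlev s hs g g' c).2.1
    · rw [hh]
      simp only
      rw [← cs_ρ]
      exact cs_congr M U fun c => (hlev s hs g g' c).2.2.2
  refine nsmul_of_eq_zero U.index hf ⟨-h, hmem⟩ ?_
  apply Subtype.ext
  funext ⟨g₁, g₂, g₃⟩
  have hcoc : ∀ t : G, M.ρ g₁ ((f : G × G × G → M) (g₂, g₃, t))
      - (f : G × G × G → M) (g₁ * g₂, g₃, t) + (f : G × G × G → M) (g₁, g₂ * g₃, t)
      - (f : G × G × G → M) (g₁, g₂, g₃ * t) + (f : G × G × G → M) (g₁, g₂, g₃) = 0 := by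
    intro t
    have := congrFun hf (g₁, g₂, g₃, t)
    simpa [d₃₄_apply] using this
  have hsum := cs_congr M U hcoc
  rw [cs_add, cs_sub, cs_add, cs_sub, cs_ρ, cs_const, cs_zero,
    cs_mul_left M U (θ := fun t => (f : G × G × G → M) (g₁, g₂, t))
      (fun c s hs => (hlev s hs g₁ g₂ c).2.2.1) g₃] at hsum
  change (d₂₃ M).hom (-h) (g₁, g₂, g₃) = (U.index • (f : G × G × G → M)) (g₁, g₂, g₃)
  rw [map_neg, Pi.neg_apply, d₂₃_hom_apply, Pi.smul_apply]
  simp only [hh]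
  rw [neg_eq_iff_add_eq_zero, ← hsum]


/-- **`H³` is torsion.** -/
theorem torsion_H3 (x : H3 𝒰 M) : ∃ N : ℕ, 0 < N ∧ N • x = 0 := by
  obtain ⟨f, hf, rfl⟩ := Hmid.exists_of x
  obtain ⟨U, hU, hlev⟩ := f.2
  haveI := 𝒰.finiteIndex hU
  exact ⟨U.index, Nat.pos_of_ne_zero Subgroup.FiniteIndex.index_ne_zero,
    index_smul_H3 𝒰 M f hf hU hlev⟩

end

end Fermat.Agent.S55.Middle.LCTorsion
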