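/-
S55 / Middle / M.h3, instantiation of the FIRST HALF of (C5) for the real objects (helper58, second
seat for helper37): over `(↥P, basisP S P)`, `Level p S P`, with the literal modules
`resP P (OS S / KS S / PrinS S)` and `Div (basisP S P) (Xoff S)`:

* `off hfin : H²_LC(P; ℚ_Sˣ) →+ H²_LC(P; Div)` (from `CapDiv.divMap`), `rho hfin : H²_LC(P; Prin) →+
  H²_LC(P; Div)` (from `CapDiv.prinDiv`), `rho_π₂ : rho (π₂ z) = off z`;
* closed hypothesis-Props `H3KxTorsionFree p S` ((HBN-H3) colimit form, row M.hbnH3.level) and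
  `RealOff p S` (realisation of residues, `ImageLevel.real_of_level`);
* `rho_injective_on_primary` : (C2)[2d], unconditional from `CapTorsion`;
* `h3OTorsion (hpS) : H3KxTorsionFree p S → RealOff p S → Blocks.H3OTorsion p S`, by
  `H3.h3O_eq_zero` fed with the (Div) long exact sequence of `Middle/LESGlueV.lean`
  (`π₂`, `d₂`, `i₃`, `d₂_π₂`, `exists_d₂_of_i₃`) and `LCTorsion.torsion_H2`.
-/
import Fermat.Agent.S55.Middle.Blocks
import Fermat.Agent.S55.Middle.H3
import Fermat.Agent.S55.Middle.LESGlueV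
import Fermat.Agent.S55.Middle.LCTorsion
import Fermat.Agent.S55.Middle.CapTorsion

set_option autoImplicit false

open CategoryTheory ExtCitation

namespace Fermat.Agent.S55.Middle.H3OInst

open Fermat.Agent.S55.Formal
open Fermat.Agent.S55.Formal.PreludeLC hiding GQ Qbar
open Fermat.Agent.S55.Middle Fermat.Agent.S55.Middle.KSite
open Fermat.Agent.S55.Middle.Defs (GQ KS OS PrinS)
open Fermat.Agent.S55.Middle.DivDef (Div)
open Fermat.Agent.S55.Middle.CapDiv (Xoff)

noncomputable section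

/-- the divisor module over `(↥P, basisP S P)` -/
abbrev DivP (S : Finset Nat.Primes) (P : Subgroup GQ) : Rep.{0, 0, 0} ℤ ↥P :=
  Div (basisP S P) (Xoff S)

section Maps

variable {S : Finset Nat.Primes} {P : Subgroup GQ}

/-- `off : H²_LC(P; ℚ_Sˣ) → H²_LC(P; Div)`, induced by the divisor map. -/
def off (hfin : P.FiniteIndex) :
    H2 (basisP S P) (resP P (KS S)) →+ H2 (basisP S P) (DivP S P) :=
  (Mor.ofHom (basisP S P) (CapDiv.divMap (CapDiv.isCont_subBasis S P) hfin)).h2.toAddMonoidHom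

/-- `ρ : H²_LC(P; Prin) → H²_LC(P; Div)`, induced by `Prin ↪ Div`. -/
def rho (hfin : P.FiniteIndex) :
    H2 (basisP S P) (resP P (PrinS S)) →+ H2 (basisP S P) (DivP S P) :=
  (Mor.ofHom (basisP S P) (CapDiv.prinDiv (CapDiv.isCont_subBasis S P) hfin)).h2.toAddMonoidHom

/-- `ρ ∘ π = off`. -/
theorem rho_π₂ (hfin : P.FiniteIndex) (z : H2 (basisP S P) (resP P (KS S))) :
    rho hfin (LESGlueV.π₂ S P (basisP S P) z) = off hfin z := by
  obtain ⟨b, hb, rfl⟩ := Hmid.exists_of z
  rfl

theorem level_finiteIndex {p : ℕ} [Fact p.Prime] (hP : Blocks.Level p S P) : P.FiniteIndex :=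
  CapDiv.finiteIndex_of_isOpenSub S hP.isOpen

end Maps

variable (p : ℕ) [Fact p.Prime] (S : Finset Nat.Primes)

/-- **(HBN-H3), colimit form** (row M.hbnH3.level, helper21 `h3Kx_torsion_free`):
`H³_LC(P; ℚ_Sˣ)` has no `p`-power torsion. -/
def H3KxTorsionFree : Prop :=
  ∀ (P : Subgroup GQ), Blocks.Level p S P →
    ∀ (x : H3 (basisP S P) (resP P (KS S))) (j : ℕ), p ^ j • x = 0 → x = 0

/-- **Realisation of residues** ((C4) for larger `T ⊋ S` + local residue isomorphism,
`ImageLevel.real_of_level`): the image in `H²_LC(P; Div)` of a `p`-primary class of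
`H²_LC(P; Prin)` is `off z` for a `p`-primary class `z` of `H²_LC(P; ℚ_Sˣ)`. -/
def RealOff : Prop :=
  ∀ (P : Subgroup GQ) (hP : Blocks.Level p S P) (e : H2 (basisP S P) (resP P (PrinS S))),
    (∃ n : ℕ, p ^ n • e = 0) →
      ∃ z : H2 (basisP S P) (resP P (KS S)), (∃ n : ℕ, p ^ n • z = 0) ∧
        off (level_finiteIndex hP) z = rho (level_finiteIndex hP) e

variable {S}

/-- **(C2) [2d] for the real objects** (unconditional, from `CapTorsion`): `ρ` is injective on the
`p`-primary part of `H²_LC(P; Prin)`. -/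
theorem rho_injective_on_primary (hpS : pPrime p ∈ S) {P : Subgroup GQ} (hP : Blocks.Level p S P)
    (e : H2 (basisP S P) (resP P (PrinS S))) (he : ∃ n : ℕ, p ^ n • e = 0)
    (h : rho (level_finiteIndex hP) e = 0) : e = 0 := by
  obtain ⟨n, hn⟩ := he
  exact CapTorsion.h2_prin_eq_zero_of_p_torsion (CapDiv.isCont_subBasis S P) (level_finiteIndex hP)
    p hpS hP.isOpen (CapTorsion.hcoarse_subBasis S P) e n hn h

/-- **(C5), first half, for the real objects**: `H³_LC(P; O_S)` has no `p`-torsion. -/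
theorem h3OTorsion (hpS : pPrime p ∈ S) (h3K : H3KxTorsionFree p S) (hreal : RealOff p S) :
    Blocks.H3OTorsion p S := by
  intro P hP x hx
  have hc := LESGlueV.isCont_subBasis S P
  have hfin := level_finiteIndex hP
  refine H3.h3O_eq_zero p (LESGlueV.π₂ S P (basisP S P)) (LESGlueV.d₂ hc)
    (LESGlueV.i₃ S P (basisP S P)) (rho hfin)
    (LESGlueV.d₂_π₂ hc) (LESGlueV.exists_d₂_of_i₃ hc)
    (fun y hy => ?_)
    (LCTorsion.torsion_H2 _ _)
    (fun e he h => rho_injective_on_primary p hpS hP e he h)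
    (fun e he => ?_) x ⟨1, by rwa [pow_one]⟩
  · obtain ⟨n, hn⟩ := hy
    exact h3K P hP y n hn
  · obtain ⟨z, hz, hzρ⟩ := hreal P hP e he
    exact ⟨z, hz, by rw [rho_π₂]; exact hzρ⟩

end

end Fermat.Agent.S55.Middle.H3OInst
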