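import Fermat.Agent.S55.Middle.HbnCokerIn
import Fermat.Agent.S55.Middle.ImageLevel
import Fermat.Agent.S55.Global.CycloSettingExists
import Fermat.Agent.S55.Global.LocalProdCoh
import Fermat.Agent.S55.Global.HeredityDown

/-!
# S55 / Middle, (C4)/(C5) hub: the FINITE-LEVEL CORE in pure Global language (helper34)

Remedy of report #2265 (helper93): in `ImageLevel.adj_of_level / gen_of_level / real_of_level` the
pair (`hker`, `hdesc`) hides a `T`-compatibility which nothing provides; the admissible set `T` has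
to be chosen AFTER the classes at hand.  This file does that once and for all, and states the result
WITHOUT any `T`, in terms of the localisations `Blocks3.locH K L (Kloc K q 𝔪) 2` only.

`K ∋ ζ_p`, `p` odd, `L/K` Galois of `p`-power degree, `G = Gal(L/K)`.

* `Pl K`       : all finite places of `K` (`Σ q, MaximalSpectrum (K ⊗ ℚ_q)`);
* `Fam K L`    : families of local classes `c x ∈ H²(G, Jloc K L x)`, `x : Pl K`;
* `locFam`     : `H²(G, Lˣ) →+ Fam K L`, the family of all localisations;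
* `IsGlobal c` : `c = locFam y` for some `y`;
* `SuppIn S c` : `c` vanishes at the places above the primes `q ∉ S`.

Main results (hypotheses: the closed Props `Blocks4.H2CyclicIn p`, `Blocks3.NoSingleSupport p` and
`UnitClassUnram p` = "a `T`-unit class is locally trivial off `T`", row (U2)):

* `not_isGlobal_single`  (HBN-single): a nonzero family supported at ONE place is not global;
* `exists_isGlobal_sub_nsmul` (HBN-coker, `p`-torsion of the cokernel is cyclic): finitely
  supported `c`, `c₀` with `p • c`, `p • c₀` global and `c₀` not global ⇒ `c - n • c₀` global for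
  some `n` — this is `adj_of_level` (`p • c = locFam y`) and `gen_of_level` (`p • c = 0`) at once;
* `exists_isGlobal_add_single` (realisation, for (C5)): a finitely supported `c` with `p^k • c = 0`
  becomes global after changing it at ONE place `x₀` with `p^k ∣ #H²(G, Jloc K L x₀)`.
-/

set_option autoImplicit false
set_option linter.unusedSectionVars false
set_option linter.style.haveILetI false

open CategoryTheory CategoryTheory.Limits groupCohomology NumberField IsDedekindDomain TensorProduct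

namespace Fermat.Agent.S55.Middle.ImageFiniteCore

open Fermat.Agent.S55.Global.Objects Fermat.Agent.S55.Global.Objects2
open Fermat.Agent.S55.Global.Blocks2 Fermat.Agent.S55.Global.Blocks3
open Fermat.Agent.S55.Global.Blocks4
open Fermat.Agent.S55.Global.LocalProd Fermat.Agent.S55.Global.LocalProdCoh
open Fermat.Agent.S55.Middle Fermat.Agent.S55.Middle.HasseH2 Fermat.Agent.S55.Middle.HbnCoker

/-- **Row (U2), Global language**: in a `Setting` (so `L/K` is unramified outside `T`), a `T`-unit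
class of `H²(Gal(L/K), Lˣ)` is locally trivial at every place of `K` above a prime `q ∉ T`. -/
def UnitClassUnram (p : ℕ) : Prop :=
  ∀ (K L : Type) [Field K] [NumberField K] [Field L] [NumberField L] [Algebra K L] [IsGalois K L]
    (T : Finset Nat.Primes), Setting p K L T →
    ∀ z : groupCohomology (Rep.ofAlgebraAutOnUnits K L) 2, IsTUnitClass K L T z →
      ∀ (q : Nat.Primes), q ∉ T → ∀ (𝔪 : Ideal (Ksemi K q)), 𝔪.IsMaximal →
        locH K L (Kloc K q 𝔪) 2 z = 0

section fam

variable (K : Type) [Field K] [NumberField K]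
variable (L : Type) [Field L] [NumberField L] [Algebra K L]

/-- All finite places of `K`: pairs `(q, 𝔪)`, `𝔪` a maximal ideal of `K ⊗[ℚ] ℚ_[q]`. -/
abbrev Pl : Type := Σ q : Nat.Primes, MaximalSpectrum (Ksemi K q)

/-- The local group `H²(Gal(L/K), (L ⊗[K] K_𝔪)ˣ)` at the place `x`. -/
abbrev HJ (x : Pl K) : Type := groupCohomology (Jloc K L x.1 x.2.asIdeal) 2

/-- Families of local classes. -/
abbrev Fam : Type := ∀ x : Pl K, HJ K L x

/-- The family of all localisations of a global class. -/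
noncomputable def locFam : groupCohomology (Rep.ofAlgebraAutOnUnits K L) 2 →+ Fam K L :=
  AddMonoidHom.mk' (fun y x => (locH K L (Kloc K x.1 x.2.asIdeal) 2).hom y)
    (fun y z => by
      funext x
      exact _root_.map_add _ y z)

theorem locFam_apply (y : groupCohomology (Rep.ofAlgebraAutOnUnits K L) 2) (x : Pl K) :
    locFam K L y x = (locH K L (Kloc K x.1 x.2.asIdeal) 2).hom y := rfl

variable {K L}

/-- `c` is the family of localisations of a global class. -/
def IsGlobal (c : Fam K L) : Prop := ∃ y, locFam K L y = c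

/-- `c` vanishes at all places above the primes outside `S`. -/
def SuppIn (S : Finset Nat.Primes) (c : Fam K L) : Prop := ∀ x : Pl K, x.1 ∉ S → c x = 0

theorem SuppIn.mono {S S' : Finset Nat.Primes} (h : S ⊆ S') {c : Fam K L} (hc : SuppIn S c) :
    SuppIn S' c := fun x hx => hc x (fun h' => hx (h h'))

theorem SuppIn.add {S : Finset Nat.Primes} {c d : Fam K L} (hc : SuppIn S c) (hd : SuppIn S d) :
    SuppIn S (c + d) := fun x hx => by rw [Pi.add_apply, hc x hx, hd x hx, add_zero]

theorem SuppIn.sub {S : Finset Nat.Primes} {c d : Fam K L} (hc : SuppIn S c) (hd : SuppIn S d) :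
    SuppIn S (c - d) := fun x hx => by rw [Pi.sub_apply, hc x hx, hd x hx, sub_zero]

theorem SuppIn.nsmul {S : Finset Nat.Primes} {c : Fam K L} (hc : SuppIn S c) (n : ℕ) :
    SuppIn S (n • c) := fun x hx => by rw [Pi.smul_apply, hc x hx, smul_zero]

theorem isGlobal_zero : IsGlobal (0 : Fam K L) := ⟨0, map_zero _⟩

theorem IsGlobal.add {c d : Fam K L} (hc : IsGlobal c) (hd : IsGlobal d) : IsGlobal (c + d) := by
  obtain ⟨y, rfl⟩ := hc
  obtain ⟨z, rfl⟩ := hd
  exact ⟨y + z, map_add _ _ _⟩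

theorem IsGlobal.neg {c : Fam K L} (hc : IsGlobal c) : IsGlobal (-c) := by
  obtain ⟨y, rfl⟩ := hc
  exact ⟨-y, map_neg _ _⟩

theorem IsGlobal.sub {c d : Fam K L} (hc : IsGlobal c) (hd : IsGlobal d) : IsGlobal (c - d) := by
  rw [sub_eq_add_neg]
  exact hc.add hd.neg

theorem IsGlobal.nsmul {c : Fam K L} (hc : IsGlobal c) (n : ℕ) : IsGlobal (n • c) := by
  obtain ⟨y, rfl⟩ := hc
  exact ⟨n • y, map_nsmul _ _ _⟩

end fam

section core

variable {K : Type} [Field K] [NumberField K]
variable {L : Type} [Field L] [NumberField L] [Algebra K L]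

/-- Restriction of a family to the places above `T`. -/
noncomputable def restrT (T : Finset Nat.Primes) : Fam K L →+
    (∀ x : PlaceIdx K T, groupCohomology (Jloc K L (x.1 : Nat.Primes) x.2.asIdeal) 2) :=
  AddMonoidHom.mk' (fun c x => c ⟨x.1.1, x.2⟩) (fun _ _ => rfl)

/-- The class of `H²(G, Jn K L T)` whose components at the places above `T` are those of `c`. -/
noncomputable def toJn (T : Finset Nat.Primes) : Fam K L →+ groupCohomology (Jn K L T) 2 :=
  (cohEquivLoc K L T 2).symm.toAddMonoidHom.comp (restrT T)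

theorem cohEquivLoc_toJn (T : Finset Nat.Primes) (c : Fam K L) (x : PlaceIdx K T) :
    cohEquivLoc K L T 2 (toJn T c) x = c ⟨x.1.1, x.2⟩ := by
  show cohEquivLoc K L T 2 ((cohEquivLoc K L T 2).symm (restrT T c)) x = _
  rw [AddEquiv.apply_symm_apply]
  rfl

/-- For a global class, `toJn` of its family of localisations is its image in `H²(G, Jn K L T)`. -/
theorem toJn_locFam (T : Finset Nat.Primes)
    (y : groupCohomology (Rep.ofAlgebraAutOnUnits K L) 2) :
    toJn T (locFam K L y) =
      (groupCohomology.map (MonoidHom.id (L ≃ₐ[K] L)) (LxToJn K L T) 2).hom y := by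
  show (cohEquivLoc K L T 2).symm (restrT T (locFam K L y)) = _
  rw [AddEquiv.symm_apply_eq]
  funext x
  exact (cohEquivLoc_map_incl K L T (LxToJn K L T) (LxToJn_apply K L T) 2 y x).symm

variable {p : ℕ} {T : Finset Nat.Primes}

/-- **Kernel of the reciprocity functional, family form.**  A family supported in `T` which is
killed by `Λ_T` is global (the `T`-unit class provided by (HBN-coker) is locally trivial off `T`
by (U2)). -/
theorem isGlobal_of_apply_eq_zero [IsGalois K L] (hunr : UnitClassUnram p) (hS : Setting p K L T)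
    (Λ : groupCohomology (Jn K L T) 2 →+ ZMod (Module.finrank K L))
    (hΛ : ∀ a, Λ a = 0 ↔ ∃ z, IsTUnitClass K L T z ∧
        (groupCohomology.map (MonoidHom.id (L ≃ₐ[K] L)) (LxToJn K L T) 2).hom z = a)
    (c : Fam K L) (hc : SuppIn T c) (h0 : Λ (toJn T c) = 0) : IsGlobal c := by
  obtain ⟨z, hz, hza⟩ := (hΛ _).1 h0
  refine ⟨z, ?_⟩
  funext x
  by_cases hx : x.1 ∈ T
  · have h1 := congrArg (fun a => cohEquivLoc K L T 2 a ⟨⟨x.1, hx⟩, x.2⟩) hza
    simp only [cohEquivLoc_toJn] at h1
    rw [← h1]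
    exact (cohEquivLoc_map_incl K L T (LxToJn K L T) (LxToJn_apply K L T) 2 z
      ⟨⟨x.1, hx⟩, x.2⟩).symm
  · rw [hc x hx]
    exact hunr K L T hS z hz x.1 hx x.2.asIdeal x.2.isMaximal

/-- A `T`-unit class is killed by `Λ_T`. -/
theorem apply_toJn_locFam_eq_zero
    (Λ : groupCohomology (Jn K L T) 2 →+ ZMod (Module.finrank K L))
    (hΛ : ∀ a, Λ a = 0 ↔ ∃ z, IsTUnitClass K L T z ∧
        (groupCohomology.map (MonoidHom.id (L ≃ₐ[K] L)) (LxToJn K L T) 2).hom z = a)
    (y : groupCohomology (Rep.ofAlgebraAutOnUnits K L) 2) (hy : IsTUnitClass K L T y) :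
    Λ (toJn T (locFam K L y)) = 0 := by
  rw [toJn_locFam]
  exact (hΛ _).2 ⟨y, hy, rfl⟩

end core

section main

variable {K : Type} [Field K] [NumberField K]
variable {L : Type} [Field L] [NumberField L] [Algebra K L] [IsGalois K L]
variable {p : ℕ}

/-- **(HBN-single), family form.**  A family supported at ONE place and nonzero there is not
global. -/
theorem not_isGlobal_of_single (hp : p.Prime) (hodd : p ≠ 2)
    (hζ : ∃ ζ : K, IsPrimitiveRoot ζ p) (hpp : ∃ n : ℕ, Module.finrank K L = p ^ n)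
    (hnss : NoSingleSupport p) (x₀ : Pl K) (c : Fam K L)
    (hsupp : ∀ x : Pl K, x ≠ x₀ → c x = 0) (h0 : c x₀ ≠ 0) : ¬ IsGlobal c := by
  rintro ⟨y, rfl⟩
  apply h0
  refine hnss K L hp hodd hζ hpp y x₀.1 x₀.2.asIdeal x₀.2.isMaximal (fun q 𝔪 h𝔪 hne => ?_)
  refine hsupp ⟨q, ⟨𝔪, h𝔪⟩⟩ ?_
  rintro rfl
  exact hne ⟨rfl, rfl⟩

/-- **(HBN-coker), family form: the `p`-torsion of `Fam / Global` is cyclic.**  For finitely
supported families `c`, `c₀` with `p • c` and `p • c₀` global and `c₀` NOT global, some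
`c - n • c₀` is global.  (`adj_of_level`: `p • c = locFam y`; `gen_of_level`: `p • c = 0`.) -/
theorem exists_isGlobal_sub_nsmul (hp : p.Prime) (hodd : p ≠ 2)
    (hζ : ∃ ζ : K, IsPrimitiveRoot ζ p) (hpp : ∃ n : ℕ, Module.finrank K L = p ^ n)
    (h2 : H2CyclicIn p) (hunr : UnitClassUnram p)
    (S : Finset Nat.Primes) (c c₀ : Fam K L) (hc : SuppIn S c) (hc₀ : SuppIn S c₀)
    (hpc : IsGlobal (p • c)) (hpc₀ : IsGlobal (p • c₀)) (hng : ¬ IsGlobal c₀) :
    ∃ n : ℕ, IsGlobal (c - n • c₀) := by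
  classical
  haveI : Fact p.Prime := ⟨hp⟩
  obtain ⟨y, hy⟩ := hpc
  obtain ⟨y₀, hy₀⟩ := hpc₀
  obtain ⟨T₁, hT₁⟩ := exists_finset_isTUnitClass (K := K) (L := L) y
  obtain ⟨T₂, hT₂⟩ := exists_finset_isTUnitClass (K := K) (L := L) y₀
  obtain ⟨F, M, _, _, _, _, _, _, _, _, _, _, _, _, -, -, -, -, hex⟩ :=
    Global.CycloSettingExists.exists_cycloSetting hp hodd K L hζ hpp
  obtain ⟨T, hTT, hC⟩ := hex (S ∪ T₁ ∪ T₂)
  have hST : S ⊆ T := (Finset.subset_union_left.trans Finset.subset_union_left).trans hTT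
  have hT₁T : T₁ ⊆ T := (Finset.subset_union_right.trans Finset.subset_union_left).trans hTT
  have hT₂T : T₂ ⊆ T := Finset.subset_union_right.trans hTT
  have hS : Setting p K L T := Global.HeredityDown.setting_quotient K L M hC.big
  obtain ⟨Λ, hΛ⟩ := HbnCokerIn.hbnCoker_Jn_in h2 hC
  have h1 : Λ (toJn T (p • c)) = 0 := by
    rw [← hy]
    exact apply_toJn_locFam_eq_zero Λ hΛ y (hT₁ T hT₁T)
  have h1' : Λ (toJn T (p • c₀)) = 0 := by
    rw [← hy₀]
    exact apply_toJn_locFam_eq_zero Λ hΛ y₀ (hT₂ T hT₂T)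
  have hΛ0 : Λ (toJn T c₀) ≠ 0 := fun h =>
    hng (isGlobal_of_apply_eq_zero hunr hS Λ hΛ c₀ (hc₀.mono hST) h)
  have e1 : p • Λ (toJn T c) = 0 := by rw [← map_nsmul, ← map_nsmul, h1]
  have e2 : p • Λ (toJn T c₀) = 0 := by rw [← map_nsmul, ← map_nsmul, h1']
  haveI : NeZero (Module.finrank K L) := by
    obtain ⟨n, hn⟩ := hpp
    exact ⟨by rw [hn]; exact pow_ne_zero _ hp.ne_zero⟩
  obtain ⟨n, hn⟩ := ImageLevel.exists_nsmul_of_prime_torsion p
    (Λ (toJn T c₀)) (Λ (toJn T c)) e2 e1 hΛ0
  refine ⟨n, isGlobal_of_apply_eq_zero hunr hS Λ hΛ (c - n • c₀)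
    ((hc.sub (hc₀.nsmul n)).mono hST) ?_⟩
  rw [map_sub, map_nsmul, map_sub, map_nsmul, hn, sub_self]

/-- **Realisation (for (C5)).**  A finitely supported family `c` killed by `p ^ k` becomes global
after modifying it at ONE place `x₀` whose local group is finite of order divisible by `p ^ k`. -/
theorem exists_isGlobal_add_single [DecidableEq (Pl K)] (hp : p.Prime) (hodd : p ≠ 2)
    (hζ : ∃ ζ : K, IsPrimitiveRoot ζ p) (hpp : ∃ n : ℕ, Module.finrank K L = p ^ n)
    (h2 : H2CyclicIn p) (hunr : UnitClassUnram p) (hnss : NoSingleSupport p)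
    (S : Finset Nat.Primes) (c : Fam K L) (hc : SuppIn S c) (k : ℕ) (hk : p ^ k • c = 0)
    (x₀ : Pl K) [Finite (HJ K L x₀)] (hcard : p ^ k ∣ Nat.card (HJ K L x₀)) :
    ∃ a : HJ K L x₀, IsGlobal (c + Pi.single x₀ a) := by
  haveI : Fact p.Prime := ⟨hp⟩
  obtain ⟨F, M, _, _, _, _, _, _, _, _, _, _, _, _, -, -, -, -, hex⟩ :=
    Global.CycloSettingExists.exists_cycloSetting hp hodd K L hζ hpp
  obtain ⟨T, hTT, hC⟩ := hex (S ∪ {x₀.1})
  have hST : S ⊆ T := Finset.subset_union_left.trans hTT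
  have hx₀T : x₀.1 ∈ T := hTT (Finset.mem_union_right _ (Finset.mem_singleton_self _))
  have hS : Setting p K L T := Global.HeredityDown.setting_quotient K L M hC.big
  obtain ⟨Λ, hΛ⟩ := HbnCokerIn.hbnCoker_Jn_in h2 hC
  haveI : NeZero (Module.finrank K L) := by
    obtain ⟨n, hn⟩ := hpp
    exact ⟨by rw [hn]; exact pow_ne_zero _ hp.ne_zero⟩
  -- the functional on the local group at `x₀`
  let σ : HJ K L x₀ →+ ZMod (Module.finrank K L) :=
    (Λ.comp (toJn T)).comp (AddMonoidHom.single (fun x : Pl K => HJ K L x) x₀)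
  have hsuppσ : ∀ a : HJ K L x₀, SuppIn T (Pi.single x₀ a : Fam K L) := by
    intro a x hx
    have hne : x ≠ x₀ := by
      rintro rfl
      exact hx hx₀T
    exact Pi.single_eq_of_ne hne a
  have hσ : Function.Injective σ := by
    rw [injective_iff_map_eq_zero]
    intro a ha
    by_contra hne
    have hglob : IsGlobal (Pi.single x₀ a : Fam K L) :=
      isGlobal_of_apply_eq_zero hunr hS Λ hΛ _ (hsuppσ a) ha
    refine not_isGlobal_of_single hp hodd hζ hpp hnss x₀ _ (fun x hx => ?_) ?_ hglob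
    · exact Pi.single_eq_of_ne hx a
    · rw [Pi.single_eq_same]
      exact hne
  have hkΛ : p ^ k • (-(Λ (toJn T c))) = 0 := by
    rw [smul_neg, ← map_nsmul, ← map_nsmul, hk, map_zero, map_zero, neg_zero]
  obtain ⟨a, ha⟩ := ImageLevel.exists_of_nsmul_eq_zero σ hσ (p ^ k) hcard _ hkΛ
  refine ⟨a, isGlobal_of_apply_eq_zero hunr hS Λ hΛ _ ((hc.mono hST).add (hsuppσ a)) ?_⟩
  rw [map_add, map_add]
  have : Λ (toJn T (Pi.single x₀ a)) = -(Λ (toJn T c)) := ha
  rw [this, add_neg_cancel]

/-- **`adj_of_level` / `gen_of_level`, family form with a one-place generator.**  `c` finitely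
supported with `p • c` global; `b₀ ≠ 0` a `p`-torsion class at ONE place `x₀` above `S`.  Then
`c - n • b₀` (at `x₀`) is global for some `n`. -/
theorem exists_isGlobal_sub_nsmul_single [DecidableEq (Pl K)] (hp : p.Prime) (hodd : p ≠ 2)
    (hζ : ∃ ζ : K, IsPrimitiveRoot ζ p) (hpp : ∃ n : ℕ, Module.finrank K L = p ^ n)
    (h2 : H2CyclicIn p) (hunr : UnitClassUnram p) (hnss : NoSingleSupport p)
    (S : Finset Nat.Primes) (c : Fam K L) (hc : SuppIn S c) (hpc : IsGlobal (p • c))
    (x₀ : Pl K) (hx₀ : x₀.1 ∈ S) (b₀ : HJ K L x₀) (hb₀ : p • b₀ = 0) (hne : b₀ ≠ 0) :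
    ∃ n : ℕ, IsGlobal (c - n • (Pi.single x₀ b₀ : Fam K L)) := by
  have hsupp : SuppIn S (Pi.single x₀ b₀ : Fam K L) := by
    intro x hx
    have hne' : x ≠ x₀ := by
      rintro rfl
      exact hx hx₀
    exact Pi.single_eq_of_ne hne' b₀
  have hp0 : p • (Pi.single x₀ b₀ : Fam K L) = 0 := by
    funext x
    by_cases hx : x = x₀
    · subst hx
      rw [Pi.smul_apply, Pi.single_eq_same, hb₀]
      rfl
    · rw [Pi.smul_apply, Pi.single_eq_of_ne hx, smul_zero]
      rfl
  refine exists_isGlobal_sub_nsmul hp hodd hζ hpp h2 hunr S c _ hc hsupp hpc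
    (by rw [hp0]; exact isGlobal_zero) ?_
  refine not_isGlobal_of_single hp hodd hζ hpp hnss x₀ _ (fun x hx => ?_) ?_
  · exact Pi.single_eq_of_ne hx b₀
  · rw [Pi.single_eq_same]
    exact hne

end main

end Fermat.Agent.S55.Middle.ImageFiniteCore
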