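/-
S55 / Middle layer, row M.osDict (helper67; (R3) of helper17 #2117, leaf (B1) of HbnColim):
the `O_S`-LEVEL GALOIS DICTIONARY.

`H ≤ GQ` open of `S`-level, `K = K₀ H = ℚ̄^H`, `L/ℚ` finite Galois unramified outside `S` with
`Gal(ℚ̄/L) ≤ H`, `L' = Lext H L hKL` (`L` as an extension of `K`), `V = lvl H L`.

* generic: `exists_factor` (a morphism of representations with values in the image of an injective
  morphism factors through it), `homφ`, `cohomologyIso_hom`, `cohomologyIso_trans`,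
  `exists_map_factor` (the same on cohomology, through an isomorphism of pairs);
* `pairResSub`, `pairExt : PairEquiv (Inv (KSH S H) V) (Rep.ofAlgebraAutOnUnits K L')` with
  `cohIsoExt_hom : (cohIsoExt ..).hom = (pairExt ..).cohomologyIso.hom`; `extUnit`, `extUnit_coe`;
* `OSH`, `osKS`, `osMor`, `osLvl`; `mem_EUnitsQ_of_os` : the unit of `L'` attached to a
  `V`-invariant of `O_S` is an `S`-unit (`EUnitsQ L' S`, `Global/Objects2`);
* `exists_level_map` : `Hⁿ(↥H ⧸ V, (O_S)^V) → Hⁿ(Gal(L'/K), L'ˣ)` factors through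
  `Hⁿ(Gal(L'/K), E_{L',S})` (`En K L' S`, `UnitsToL.EntoLxn`);
* `numberField_K₀`, `numberField_Lext`, `isGalois_Lext`, `finiteDimensional_Lext`, `card_gal_Lext`,
  `finrank_Lext : [L' : K] = #(↥H ⧸ V)`;
* **`exists_finite_level_H2_OS`** : for `x ∈ H²_LC(H; O_S)` killed by `n`, the image of `x` in
  `H²_LC(H; ℚ_Sˣ)` is `ι₂ (cohIsoExt⁻¹ (EntoLxn_* e))` for a class `e ∈ H²(Gal(L'/K), E_{L',S})`
  killed by `n` (`z = i(x)` is a `T`-unit class at a finite level, `T = S`).
-/
import Fermat.Agent.S55.Middle.GaloisDictModel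
import Fermat.Agent.S55.Middle.UnitsToL
import Fermat.Agent.S55.Middle.SUnitDict
import Fermat.Agent.S55.Global.TransitionQ

set_option autoImplicit false
set_option linter.unusedSectionVars false
set_option linter.style.haveILetI false

open CategoryTheory groupCohomology

namespace Fermat.Agent.S55.Middle.OSDict

noncomputable section

open Fermat.Agent.S55.Formal Fermat.Agent.S55.Formal.PreludeLC Fermat.Agent.S55.Middle.Defs
open Fermat.Agent.S55.Middle.Dict Fermat.Agent.S55.Middle.GaloisDict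
open Fermat.Agent.S55.Middle.GaloisDictModel
open Fermat.Agent.S55.Formal.LCLevelH
open Fermat.Agent.S55.Coh.PairEquiv

section Generic

variable {k G : Type} [CommRing k] [Group G]

/-- a morphism with values in the image of an injective morphism factors through it -/
theorem exists_factor {X A B : Rep.{0,0,0} k G} (ι : B ⟶ A) (hι : Function.Injective ι.hom) (Φ : X ⟶ A)
    (h : ∀ x : X, ∃ b : B, ι.hom b = Φ.hom x) : ∃ Ψ : X ⟶ B, Ψ ≫ ι = Φ := by
  choose f hf using h
  have hadd : ∀ x y, f (x + y) = f x + f y := fun x y => hι (by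
    rw [map_add, hf, hf, hf, map_add])
  have hsmul : ∀ (c : k) x, f (c • x) = c • f x := fun c x => hι (by
    rw [map_smul, hf, hf, map_smul])
  refine ⟨Rep.ofHom ⟨⟨⟨f, hadd⟩, hsmul⟩, fun g => ?_⟩, ?_⟩
  · ext x
    apply hι
    show ι.hom (f (X.ρ g x)) = ι.hom (B.ρ g (f x))
    rw [hf, Rep.hom_comm_apply, Rep.hom_comm_apply, hf]
  · ext x
    exact hf x

variable {G' G₀ : Type} [Group G'] [Group G₀]

/-- the morphism of representations underlying an isomorphism of pairs -/
def homφ {B : Rep.{0,0,0} k G'} {A : Rep.{0,0,0} k G} (h : PairEquiv B A) :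
    Rep.res (h.e.symm : G →* G') B ⟶ A :=
  Rep.ofHom ⟨h.φ, fun g => by
    ext x
    have := h.comm (h.e.symm g) x
    rw [MulEquiv.apply_symm_apply] at this
    exact this⟩

lemma cohomologyIso_hom {B : Rep.{0,0,0} k G'} {A : Rep.{0,0,0} k G} (h : PairEquiv B A) (n : ℕ) :
    (h.cohomologyIso n).hom = groupCohomology.map (h.e.symm : G →* G') (homφ h) n := rfl

/-- composition of isomorphisms of pairs induces the composition on cohomology -/
lemma cohomologyIso_trans {G'' : Type} [Group G''] {C : Rep.{0,0,0} k G''} {B : Rep.{0,0,0} k G'}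
    {A : Rep.{0,0,0} k G} (h₁ : PairEquiv C B) (h₂ : PairEquiv B A) (n : ℕ) :
    ((h₁.trans h₂).cohomologyIso n).hom = (h₁.cohomologyIso n).hom ≫ (h₂.cohomologyIso n).hom := by
  rw [cohomologyIso_hom, cohomologyIso_hom, cohomologyIso_hom, ← groupCohomology.map_comp]
  exact groupCohomology.map_congr rfl rfl n

/-- **Factorisation on cohomology**: if `h.φ ∘ α` has values in the image of an injective
`ι : A₀ ⟶ A`, then `Hⁿ(α)` followed by `Hⁿ(h)` factors through `Hⁿ(ι)`. -/
theorem exists_map_factor {B₀ : Rep.{0,0,0} k G₀} {B : Rep.{0,0,0} k G'} {A₀ A : Rep.{0,0,0} k G}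
    (h : PairEquiv B A) (f₀ : G' →* G₀) (α : Rep.res f₀ B₀ ⟶ B) (ι : A₀ ⟶ A)
    (hι : Function.Injective ι.hom)
    (hval : ∀ b₀ : B₀, ∃ a₀ : A₀, ι.hom a₀ = h.φ (α.hom b₀)) (n : ℕ) :
    ∃ T : groupCohomology B₀ n ⟶ groupCohomology A₀ n,
      groupCohomology.map f₀ α n ≫ (h.cohomologyIso n).hom =
        T ≫ groupCohomology.map (MonoidHom.id G) ι n := by
  obtain ⟨Ψ, hΨ⟩ := exists_factor (X := Rep.res (f₀.comp (h.e.symm : G →* G')) B₀) ι hι
    ((Rep.resFunctor (h.e.symm : G →* G')).map α ≫ homφ h) hval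
  refine ⟨groupCohomology.map (f₀.comp (h.e.symm : G →* G')) Ψ n, ?_⟩
  rw [cohomologyIso_hom, ← groupCohomology.map_comp, ← groupCohomology.map_comp]
  refine groupCohomology.map_congr rfl ?_ n
  rw [← hΨ]
  rfl

end Generic

/-! ### The composite isomorphism of pairs behind `cohIsoExt` -/

section PairExt

/-- `Local.Transport.resSubIso` as an isomorphism of pairs -/
def pairResSub (K E : Type) [Field K] [Field E] [Algebra K E] [FiniteDimensional K E]
    (H : Subgroup (E ≃ₐ[K] E)) :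
    PairEquiv (Rep.res H.subtype (Rep.ofAlgebraAutOnUnits K E))
      (Rep.ofAlgebraAutOnUnits (IntermediateField.fixedField H) E) where
  e := IntermediateField.subgroupEquivAlgEquiv H
  φ := LinearEquiv.refl ℤ _
  comm _ _ := rfl

lemma resSubIso_eq (K E : Type) [Field K] [Field E] [Algebra K E] [FiniteDimensional K E]
    (H : Subgroup (E ≃ₐ[K] E)) (n : ℕ) :
    Fermat.Agent.S55.Local.Transport.resSubIso K E H n = (pairResSub K E H).cohomologyIso n := rfl

variable (S : Finset Nat.Primes) (H : Subgroup Defs.GQ) (L : IntermediateField ℚ Defs.Qbar)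
  [Normal ℚ L] (hKL : K₀ H ≤ L) (hL : L.IsUnramifiedOutside S) (hle : L.fixingSubgroup ≤ H)

/-- the isomorphism of pairs `(↥H ⧸ V, (KS S)^V) ≅ (Gal(L'/K), L'ˣ)` -/
def pairExt : PairEquiv (Inv (KSH S H) (lvl H L))
    (Rep.ofAlgebraAutOnUnits ↥(K₀ H) ↥(Lext H L hKL)) :=
  haveI : FiniteDimensional ℚ ↥L := hL.1
  ((pairKS S H L hL hle).trans (pairResSub ℚ ↥L (Hbar H L))).trans
    (pairOfRingEquiv (toExt H L hKL) (toExt_range H L hKL))

lemma cohIsoExt_hom (n : ℕ) :
    (cohIsoExt S H L hKL hL hle n).hom = ((pairExt S H L hKL hL hle).cohomologyIso n).hom := by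
  unfold pairExt
  rw [cohomologyIso_trans, cohomologyIso_trans]
  rfl

/-- the unit of `L'` attached to a `V`-invariant element of `KS S` -/
def extUnit (b : Inv (KSH S H) (lvl H L)) : (↥(Lext H L hKL))ˣ :=
  Additive.toMul (α := (↥(Lext H L hKL))ˣ) ((pairExt S H L hKL hL hle).φ b)

lemma pairExt_φ_eq (b : Inv (KSH S H) (lvl H L)) :
    (pairExt S H L hKL hL hle).φ b =
      (Additive.ofMul (extUnit S H L hKL hL hle b) : Additive (↥(Lext H L hKL))ˣ) := rfl

/-- the unit of `ℚ̄` underlying `pairExt.φ` -/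
lemma extUnit_coe (b : Inv (KSH S H) (lvl H L)) :
    Units.map (algebraMap ↥(Lext H L hKL) Defs.Qbar : ↥(Lext H L hKL) →* Defs.Qbar)
      (extUnit S H L hKL hL hle b) = uOf H L (galStable_qsSubgroup S) b := by
  rw [← unitsIncl_ksEquiv S H L hL hle b]
  exact Units.ext rfl

end PairExt

/-! ### The `S`-units -/

section OS

open Fermat.Agent.S55.Global.Objects Fermat.Agent.S55.Global.Objects2
open Fermat.Agent.S55.Middle.UnitsToL

variable (S : Finset Nat.Primes) (H : Subgroup Defs.GQ) (L : IntermediateField ℚ Defs.Qbar)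
  [Normal ℚ L] (hKL : K₀ H ≤ L) (hL : L.IsUnramifiedOutside S) (hle : L.fixingSubgroup ≤ H)

/-- the coefficient module `OS S` over `↥H` -/
abbrev OSH : Rep.{0, 0, 0} ℤ ↥H := Rep.res H.subtype (OS S)

/-- `O_S ⟶ ℚ_Sˣ` over `↥H` -/
def osKS : OSH S H ⟶ KSH S H := (Rep.resFunctor H.subtype).map (osToKS S)

/-- `O_S ⟶ ℚ_Sˣ` over `↥H` as a morphism of situations -/
def osMor : Mor (NBasis.sub (globalBasis S) H) (OSH S H) (NBasis.sub (globalBasis S) H) (KSH S H) :=
  Mor.ofHom _ (osKS S H)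

lemma osMor_le : ∀ s ∈ lvl H L, (osMor S H).f s ∈ lvl H L := fun _ hs => hs

/-- the level map `(O_S)^V → (ℚ_Sˣ)^V` -/
abbrev osLvl : Rep.res (qf (osMor S H) (osMor_le S H L)) (Inv (OSH S H) (lvl H L)) ⟶
    Inv (KSH S H) (lvl H L) :=
  lvlHom (osMor S H) (osMor_le S H L)

lemma uOf_osLvl (a : Inv (OSH S H) (lvl H L)) :
    uOf H L (galStable_qsSubgroup S) ((osLvl S H L).hom a) =
      uOf H L (galStable_inf (galStable_qsSubgroup S) (galStable_sUnitSubgroup S)) a := rfl

variable [NumberField ↥(K₀ H)] [NumberField ↥(Lext H L hKL)]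

/-- the unit of `L'` attached to an invariant of `O_S` is an `S`-unit -/
theorem mem_EUnitsQ_of_os (a : Inv (OSH S H) (lvl H L)) :
    extUnit S H L hKL hL hle ((osLvl S H L).hom a) ∈ EUnitsQ ↥(Lext H L hKL) S := by
  rw [Fermat.Agent.S55.Global.TransitionQ.EUnitsQ_eq]
  refine (Fermat.Agent.S55.Middle.SUnitDict.isSUnitAt_iff
    (algebraMap ↥(Lext H L hKL) Defs.Qbar) S _).mp ?_
  intro q hq A hA
  rw [extUnit_coe, uOf_osLvl]
  exact (uOf_mem H L _ a).2 q hq A hA

variable (hS : S.Nonempty)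

/-- **Level-wise `O_S`-dictionary**: under the Galois dictionary `cohIsoExt`, the image of
`Hⁿ(↥H ⧸ V, (O_S)^V)` in `Hⁿ(Gal(L'/K), L'ˣ)` comes from `Hⁿ(Gal(L'/K), E_{L',S})`. -/
theorem exists_level_map (n : ℕ) :
    ∃ T : groupCohomology (Inv (OSH S H) (lvl H L)) n ⟶
        groupCohomology (En ↥(K₀ H) ↥(Lext H L hKL) S) n,
      groupCohomology.map (qf (osMor S H) (osMor_le S H L)) (osLvl S H L) n ≫
          (cohIsoExt S H L hKL hL hle n).hom =
        T ≫ groupCohomology.map (MonoidHom.id (↥(Lext H L hKL) ≃ₐ[↥(K₀ H)] ↥(Lext H L hKL)))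
          (EntoLxn ↥(K₀ H) ↥(Lext H L hKL) S hS) n := by
  rw [cohIsoExt_hom]
  refine exists_map_factor (pairExt S H L hKL hL hle) (qf (osMor S H) (osMor_le S H L))
    (osLvl S H L) (EntoLxn ↥(K₀ H) ↥(Lext H L hKL) S hS)
    (EntoLxn_injective ↥(K₀ H) ↥(Lext H L hKL) S hS) (fun b₀ => ?_) n
  obtain ⟨a, ha⟩ := mem_range_EQtoLxQ ↥(Lext H L hKL) S hS _
    (mem_EUnitsQ_of_os S H L hKL hL hle b₀)
  exact ⟨a, ha⟩

end OS

/-! ### Every LC class of `O_S` over `↥H` is an `S`-unit class of a finite Galois layer -/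

section Classes

open Fermat.Agent.S55.Global.Objects Fermat.Agent.S55.Global.Objects2
open Fermat.Agent.S55.Middle.UnitsToL

variable {S : Finset Nat.Primes} {H : Subgroup Defs.GQ}

theorem numberField_K₀ (hH : IsOpenSub (globalBasis S) H) : NumberField ↥(K₀ H) := by
  haveI : FiniteDimensional ℚ ↥(K₀ H) := (fixedField_of_isOpenSub hH).1.1
  exact { to_charZero := inferInstance, to_finiteDimensional := inferInstance }

theorem numberField_Lext (L : IntermediateField ℚ Defs.Qbar) [Normal ℚ L] (hKL : K₀ H ≤ L)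
    (hL : L.IsUnramifiedOutside S) : NumberField ↥(Lext H L hKL) := by
  haveI : FiniteDimensional ℚ ↥L := hL.1
  refine { to_charZero := inferInstance, to_finiteDimensional := ?_ }
  exact Module.Finite.of_surjective
    ((toExt H L hKL : ↥L →+* ↥(Lext H L hKL)).toRatAlgHom.toLinearMap) (toExt H L hKL).surjective

set_option maxHeartbeats 1600000 in
/-- every class `x` of `H²_LC(H; O_S)` killed by `n`: its image in `H²_LC(H; ℚ_Sˣ)` is inflated
(`ι₂`, through the Galois dictionary `cohIsoExt`) from the image of a class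
`e ∈ H²(Gal(L'/K), E_{L',S})` killed by `n`, for a finite Galois `L/ℚ` unramified outside `S`. -/
theorem exists_finite_level_H2_OS (hH : IsOpenSub (globalBasis S) H) (hS : S.Nonempty)
    (x : H2 (NBasis.sub (globalBasis S) H) (OSH S H)) (n : ℕ) (hx : n • x = 0) :
    ∃ (L : IntermediateField ℚ Defs.Qbar) (_ : Normal ℚ L) (hL : L.IsUnramifiedOutside S)
      (hle : L.fixingSubgroup ≤ H) (hKL : K₀ H ≤ L)
      (hV : (NBasis.sub (globalBasis S) H).mem (lvl H L)) (_ : Finite (↥H ⧸ lvl H L))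
      (_ : NumberField ↥(K₀ H)) (_ : NumberField ↥(Lext H L hKL))
      (e : groupCohomology (En ↥(K₀ H) ↥(Lext H L hKL) S) 2), n • e = 0 ∧
      (osMor S H).h2 x = ι₂ (NBasis.sub (globalBasis S) H) (KSH S H) (lvl H L) hV
        ((cohIsoExt S H L hKL hL hle 2).inv
          ((groupCohomology.map (MonoidHom.id (↥(Lext H L hKL) ≃ₐ[↥(K₀ H)] ↥(Lext H L hKL)))
            (EntoLxn ↥(K₀ H) ↥(Lext H L hKL) S hS) 2).hom e)) := by
  obtain ⟨V, hVn, hV, y₀, rfl⟩ := exists_inflH2 (NBasis.sub (globalBasis S) H) (OSH S H) x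
  haveI := hVn
  have h0 : inflH2 (NBasis.sub (globalBasis S) H) (OSH S H) hV (n • y₀) = 0 := by
    rw [map_nsmul, hx]
  obtain ⟨W, hWn, hW, hWV, hW0⟩ :=
    (inflH2_eq_zero_iff (NBasis.sub (globalBasis S) H) (OSH S H) hV (n • y₀)).mp h0
  haveI := hWn
  obtain ⟨L, hN, hL, hle, hmem, hLW⟩ := exists_galois_level hH hW
  haveI := hN
  have hLV : lvl H L ≤ V := hLW.trans hWV
  have hKL : K₀ H ≤ L := fixedField_le_of_le hle
  haveI hfin : Finite (↥H ⧸ lvl H L) := DictBridge.finite_quotient _ hmem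
  haveI hK : NumberField ↥(K₀ H) := numberField_K₀ hH
  haveI hL' : NumberField ↥(Lext H L hKL) := numberField_Lext L hKL hL
  obtain ⟨T, hT⟩ := exists_level_map S H L hKL hL hle hS 2
  set y₁ := transH2 (OSH S H) hLV y₀ with hy₁
  have h1 : n • y₁ = 0 := by
    have : transH2 (OSH S H) hLV (n • y₀) = 0 :=
      calc transH2 (OSH S H) hLV (n • y₀)
          = transH2 (OSH S H) hLW (transH2 (OSH S H) hWV (n • y₀)) :=
            (transH2_transH2 (OSH S H) hWV hLW (n • y₀)).symm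
        _ = transH2 (OSH S H) hLW 0 := congrArg (transH2 (OSH S H) hLW) hW0
        _ = 0 := map_zero _
    rw [hy₁, ← map_nsmul, this]
  refine ⟨L, hN, hL, hle, hKL, hmem, hfin, hK, hL', T.hom y₁, ?_, ?_⟩
  · rw [← map_nsmul, h1, map_zero]
  · have h2 : (cohIsoExt S H L hKL hL hle 2).hom.hom
        ((groupCohomology.map (qf (osMor S H) (osMor_le S H L)) (osLvl S H L) 2).hom y₁) =
        (groupCohomology.map (MonoidHom.id (↥(Lext H L hKL) ≃ₐ[↥(K₀ H)] ↥(Lext H L hKL)))
          (EntoLxn ↥(K₀ H) ↥(Lext H L hKL) S hS) 2).hom (T.hom y₁) :=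
      congrArg (fun t => t.hom y₁) hT
    have h3 := congrArg (fun t => (cohIsoExt S H L hKL hL hle 2).inv.hom t) h2
    simp only [Iso.hom_inv_id_apply] at h3
    rw [← DictBridge.inflH2_eq_ι₂,
      ← inflH2_transH2 (NBasis.sub (globalBasis S) H) (OSH S H) hLV hV hmem y₀,
      h2_inflH2 (osMor S H) (osMor_le S H L) hmem hmem]
    congr 1

end Classes

/-! ### Galois-theoretic facts about `L'/K` -/

section Facts

variable (S : Finset Nat.Primes) (H : Subgroup Defs.GQ) (L : IntermediateField ℚ Defs.Qbar)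
  [Normal ℚ L] (hKL : K₀ H ≤ L) (hL : L.IsUnramifiedOutside S) (hle : L.fixingSubgroup ≤ H)

theorem isGalois_Lext : IsGalois ↥(K₀ H) ↥(Lext H L hKL) := by
  haveI : IsGalois ℚ ↥L := ⟨⟩
  haveI : IsGalois ℚ ↥(Lext H L hKL) :=
    IsGalois.of_algEquiv ((toExt H L hKL).toRatAlgEquiv)
  exact IsGalois.tower_top_of_isGalois ℚ ↥(K₀ H) ↥(Lext H L hKL)

include hL in
theorem finiteDimensional_Lext : FiniteDimensional ↥(K₀ H) ↥(Lext H L hKL) := by
  haveI : NumberField ↥(Lext H L hKL) := numberField_Lext L hKL hL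
  exact Module.Finite.of_restrictScalars_finite ℚ ↥(K₀ H) ↥(Lext H L hKL)

include hL hle in
theorem card_gal_Lext :
    Nat.card (↥(Lext H L hKL) ≃ₐ[↥(K₀ H)] ↥(Lext H L hKL)) = Nat.card (↥H ⧸ lvl H L) :=
  (Nat.card_congr (pairExt S H L hKL hL hle).e.toEquiv).symm

include hL hle in
theorem finrank_Lext : Module.finrank ↥(K₀ H) ↥(Lext H L hKL) = Nat.card (↥H ⧸ lvl H L) := by
  haveI := isGalois_Lext H L hKL
  haveI := finiteDimensional_Lext S H L hKL hL
  rw [← IsGalois.card_aut_eq_finrank, card_gal_Lext S H L hKL hL hle]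

end Facts

end

end Fermat.Agent.S55.Middle.OSDict
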