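/-
S55 / Middle layer, row M.galoisDict.trans (helper67): TRANSITION COMPATIBILITY of the Galois
dictionary `GaloisDictModel.cohIsoExt` in every degree.

`H ≤ GQ`, `K = K₀ H`, `L ≤ L₂` finite Galois over `ℚ`, unramified outside `S`, fixing subgroups in
`H`; `L' = Lext H L hKL`, `L₂' = Lext H L₂ hKL₂` (as extensions of `K` inside `ℚ̄`).

* `pairExt_e_apply_coe` : the automorphism of `L'` attached to `h ∈ H` is `x ↦ h x`;
* `Lext_le`, `algebraLext` (reducible def: the inclusion `L' → L₂'` as an algebra),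
  `algebraLext_coe`, `isScalarTower_Lext`, `normal_Lext`: the canonical instances;
* for ANY instances `[Algebra L' L₂'] [IsScalarTower K L' L₂'] [Normal K L']` with
  `halg : ∀ x, (algebraMap L' L₂' x : ℚ̄) = x` (`fun _ => rfl` for `algebraLext`):
  `pairExt_e_qmap`, `pairExt_φ_trans₀`, `transUnits`, `inflLxn_eq`,
  **`cohIsoExt_trans'`** (morphism form), **`inflLxn_cohIsoExt`** (element form, any degree),
  `inflLxn_cohIsoExt_two` (`Dict.transH2`), `inflLxn_cohIsoExt_three` (`DictH3.transH3`),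
  `map_trans_eq_zero_iff`, `transH2_eq_zero_iff`, `transH3_eq_zero_iff` : a finite-level class dies at
  the deeper level `L₂` iff its Galois avatar dies under `TransitionQ.inflLxn K L' L₂' n`.
-/
import Fermat.Agent.S55.Middle.OSDict
import Fermat.Agent.S55.Middle.DictH3

set_option autoImplicit false
set_option linter.unusedSectionVars false
set_option linter.style.haveILetI false

open CategoryTheory groupCohomology

namespace Fermat.Agent.S55.Middle.GaloisDictTrans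

noncomputable section

open Fermat.Agent.S55.Formal Fermat.Agent.S55.Formal.PreludeLC Fermat.Agent.S55.Middle.Defs
open Fermat.Agent.S55.Middle.Dict Fermat.Agent.S55.Middle.GaloisDict
open Fermat.Agent.S55.Middle.GaloisDictModel Fermat.Agent.S55.Middle.OSDict
open Fermat.Agent.S55.Coh.PairEquiv
open Fermat.Agent.S55.Global.Objects Fermat.Agent.S55.Global.Objects2
open Fermat.Agent.S55.Global.TransitionQ

section One

variable (S : Finset Nat.Primes) (H : Subgroup Defs.GQ) (L : IntermediateField ℚ Defs.Qbar)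
  [Normal ℚ L] (hKL : K₀ H ≤ L) (hL : L.IsUnramifiedOutside S) (hle : L.fixingSubgroup ≤ H)

/-- the automorphism of `L'` attached to `h ∈ H` acts as `h` on the underlying elements of `ℚ̄` -/
lemma pairExt_e_apply_coe (h : ↥H) (x : ↥(Lext H L hKL)) :
    ((((pairExt S H L hKL hL hle).e (h : ↥H ⧸ lvl H L)) x : ↥(Lext H L hKL)) : Defs.Qbar) =
      h.1 (x : Defs.Qbar) := by
  show ((resL L h.1 ⟨(x : Defs.Qbar), x.2⟩ : ↥L) : Defs.Qbar) = _
  rw [resL_apply_coe]

end One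

section Two

variable (S : Finset Nat.Primes) (H : Subgroup Defs.GQ) (L L₂ : IntermediateField ℚ Defs.Qbar)
  [Normal ℚ L] [Normal ℚ L₂] (hKL : K₀ H ≤ L) (hKL₂ : K₀ H ≤ L₂) (hLL : L ≤ L₂)
  (hL : L.IsUnramifiedOutside S) (hL₂ : L₂.IsUnramifiedOutside S)
  (hle : L.fixingSubgroup ≤ H) (hle₂ : L₂.fixingSubgroup ≤ H)

include hLL in
lemma Lext_le : Lext H L hKL ≤ Lext H L₂ hKL₂ := fun _ hx => hLL hx

/-- the canonical `L'`-algebra structure of `L₂'` (inclusion inside `ℚ̄`) -/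
@[reducible] def algebraLext : Algebra ↥(Lext H L hKL) ↥(Lext H L₂ hKL₂) :=
  (IntermediateField.inclusion (Lext_le H L L₂ hKL hKL₂ hLL)).toRingHom.toAlgebra

lemma algebraLext_coe (x : ↥(Lext H L hKL)) :
    letI := algebraLext H L L₂ hKL hKL₂ hLL
    ((algebraMap ↥(Lext H L hKL) ↥(Lext H L₂ hKL₂) x : ↥(Lext H L₂ hKL₂)) : Defs.Qbar) =
      (x : Defs.Qbar) := rfl

theorem isScalarTower_Lext :
    letI := algebraLext H L L₂ hKL hKL₂ hLL
    IsScalarTower ↥(K₀ H) ↥(Lext H L hKL) ↥(Lext H L₂ hKL₂) :=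
  letI := algebraLext H L L₂ hKL hKL₂ hLL
  IsScalarTower.of_algebraMap_eq (fun _ => rfl)

theorem normal_Lext : Normal ↥(K₀ H) ↥(Lext H L hKL) :=
  haveI := isGalois_Lext H L hKL
  inferInstance

variable [NumberField ↥(K₀ H)] [NumberField ↥(Lext H L hKL)] [NumberField ↥(Lext H L₂ hKL₂)]
  [Algebra ↥(Lext H L hKL) ↥(Lext H L₂ hKL₂)]
  [IsScalarTower ↥(K₀ H) ↥(Lext H L hKL) ↥(Lext H L₂ hKL₂)] [Normal ↥(K₀ H) ↥(Lext H L hKL)]
  (halg : ∀ x : ↥(Lext H L hKL),
    ((algebraMap ↥(Lext H L hKL) ↥(Lext H L₂ hKL₂) x : ↥(Lext H L₂ hKL₂)) : Defs.Qbar) =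
      (x : Defs.Qbar))

include halg in
/-- the group isomorphisms of the dictionary are compatible with restriction -/
lemma pairExt_e_qmap (q : ↥H ⧸ lvl H L₂) :
    (pairExt S H L hKL hL hle).e (qmap (lvl_le_of_le H L L₂ hLL) q) =
      rnHom ↥(K₀ H) ↥(Lext H L hKL) ↥(Lext H L₂ hKL₂) ((pairExt S H L₂ hKL₂ hL₂ hle₂).e q) := by
  induction q using QuotientGroup.induction_on with
  | H h =>
    ext x
    have h1 := rnHom_commutes ↥(K₀ H) ↥(Lext H L hKL) ↥(Lext H L₂ hKL₂)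
      ((pairExt S H L₂ hKL₂ hL₂ hle₂).e (h : ↥H ⧸ lvl H L₂)) x
    have h2 := congrArg (fun y : ↥(Lext H L₂ hKL₂) => (y : Defs.Qbar)) h1
    simp only [halg, pairExt_e_apply_coe] at h2
    rw [h2]
    exact pairExt_e_apply_coe S H L hKL hL hle h x

include halg in
/-- the module isomorphisms of the dictionary are compatible with the transition maps -/
lemma pairExt_φ_trans₀ (b : Inv (KSH S H) (lvl H L)) :
    (pairExt S H L₂ hKL₂ hL₂ hle₂).φ (trans₀ (KSH S H) (lvl_le_of_le H L L₂ hLL) b) =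
      (transLxn ↥(K₀ H) ↥(Lext H L hKL) ↥(Lext H L₂ hKL₂)).hom
        ((pairExt S H L hKL hL hle).φ b) := by
  rw [pairExt_φ_eq, pairExt_φ_eq]
  show (Additive.ofMul (extUnit S H L₂ hKL₂ hL₂ hle₂ _) : Additive (↥(Lext H L₂ hKL₂))ˣ) =
    Additive.ofMul (Fermat.Agent.S55.Global.Transition.baseUnits ↥(Lext H L hKL) ↥(Lext H L₂ hKL₂)
      (extUnit S H L hKL hL hle b))
  congr 1
  apply Units.ext
  apply Subtype.ext
  have h1 := congrArg (fun u : Defs.Qbarˣ => (u : Defs.Qbar))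
    (extUnit_coe S H L₂ hKL₂ hL₂ hle₂ (trans₀ (KSH S H) (lvl_le_of_le H L L₂ hLL) b))
  have h2 := congrArg (fun u : Defs.Qbarˣ => (u : Defs.Qbar)) (extUnit_coe S H L hKL hL hle b)
  have h3 := halg ((extUnit S H L hKL hL hle b : (↥(Lext H L hKL))ˣ) : ↥(Lext H L hKL))
  exact h1.trans (h2.symm.trans h3.symm)

/-- `TransitionQ.transLxn` with Mathlib's `Rep.ofAlgebraAutOnUnits` as source and target -/
def transUnits : Rep.res (rnHom ↥(K₀ H) ↥(Lext H L hKL) ↥(Lext H L₂ hKL₂))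
      (Rep.ofAlgebraAutOnUnits ↥(K₀ H) ↥(Lext H L hKL)) ⟶
    Rep.ofAlgebraAutOnUnits ↥(K₀ H) ↥(Lext H L₂ hKL₂) :=
  transLxn ↥(K₀ H) ↥(Lext H L hKL) ↥(Lext H L₂ hKL₂)

lemma inflLxn_eq (n : ℕ) :
    inflLxn ↥(K₀ H) ↥(Lext H L hKL) ↥(Lext H L₂ hKL₂) n =
      groupCohomology.map (rnHom ↥(K₀ H) ↥(Lext H L hKL) ↥(Lext H L₂ hKL₂))
        (transUnits H L L₂ hKL hKL₂) n := rfl

include halg in
/-- **Transition compatibility of the Galois dictionary** in every degree (`map` form). -/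
theorem cohIsoExt_trans' (n : ℕ) :
    groupCohomology.map (qmap (lvl_le_of_le H L L₂ hLL))
        (transHom (KSH S H) (lvl_le_of_le H L L₂ hLL)) n ≫
      (cohIsoExt S H L₂ hKL₂ hL₂ hle₂ n).hom =
    (cohIsoExt S H L hKL hL hle n).hom ≫
      groupCohomology.map (rnHom ↥(K₀ H) ↥(Lext H L hKL) ↥(Lext H L₂ hKL₂))
        (transUnits H L L₂ hKL hKL₂) n := by
  rw [cohIsoExt_hom, cohIsoExt_hom, cohomologyIso_hom, cohomologyIso_hom,
    ← groupCohomology.map_comp, ← groupCohomology.map_comp]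
  refine groupCohomology.map_congr ?_ ?_ n
  · ext τ : 1
    show qmap (lvl_le_of_le H L L₂ hLL) ((pairExt S H L₂ hKL₂ hL₂ hle₂).e.symm τ) =
      (pairExt S H L hKL hL hle).e.symm
        (rnHom ↥(K₀ H) ↥(Lext H L hKL) ↥(Lext H L₂ hKL₂) τ)
    rw [MulEquiv.eq_symm_apply, pairExt_e_qmap S H L L₂ hKL hKL₂ hLL hL hL₂ hle hle₂ halg,
      MulEquiv.apply_symm_apply]
  · ext b
    exact pairExt_φ_trans₀ S H L L₂ hKL hKL₂ hLL hL hL₂ hle hle₂ halg b

include halg in
/-- **Transition compatibility of the Galois dictionary**, element form with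
`TransitionQ.inflLxn`. -/
theorem inflLxn_cohIsoExt (n : ℕ) (y : groupCohomology (Inv (KSH S H) (lvl H L)) n) :
    (inflLxn ↥(K₀ H) ↥(Lext H L hKL) ↥(Lext H L₂ hKL₂) n).hom
        ((cohIsoExt S H L hKL hL hle n).hom.hom y) =
      (cohIsoExt S H L₂ hKL₂ hL₂ hle₂ n).hom.hom
        ((groupCohomology.map (qmap (lvl_le_of_le H L L₂ hLL))
          (transHom (KSH S H) (lvl_le_of_le H L L₂ hLL)) n).hom y) := by
  have h := congrArg (fun t => t.hom y)
    (cohIsoExt_trans' S H L L₂ hKL hKL₂ hLL hL hL₂ hle hle₂ halg n)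
  exact h.symm

include halg in
/-- degree `2`, with `Dict.transH2` -/
theorem inflLxn_cohIsoExt_two (y : groupCohomology.H2 (Inv (KSH S H) (lvl H L))) :
    (inflLxn ↥(K₀ H) ↥(Lext H L hKL) ↥(Lext H L₂ hKL₂) 2).hom
        ((cohIsoExt S H L hKL hL hle 2).hom.hom y) =
      (cohIsoExt S H L₂ hKL₂ hL₂ hle₂ 2).hom.hom
        (transH2 (KSH S H) (lvl_le_of_le H L L₂ hLL) y) :=
  inflLxn_cohIsoExt S H L L₂ hKL hKL₂ hLL hL hL₂ hle hle₂ halg 2 y

include halg in
/-- degree `3`, with `DictH3.transH3` -/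
theorem inflLxn_cohIsoExt_three (y : groupCohomology (Inv (KSH S H) (lvl H L)) 3) :
    (inflLxn ↥(K₀ H) ↥(Lext H L hKL) ↥(Lext H L₂ hKL₂) 3).hom
        ((cohIsoExt S H L hKL hL hle 3).hom.hom y) =
      (cohIsoExt S H L₂ hKL₂ hL₂ hle₂ 3).hom.hom
        (Fermat.Agent.S55.Middle.DictH3.transH3 (KSH S H) (lvl_le_of_le H L L₂ hLL) y) :=
  inflLxn_cohIsoExt S H L L₂ hKL hKL₂ hLL hL hL₂ hle hle₂ halg 3 y

include halg hL₂ hle₂ in
/-- a finite-level class dies at the deeper level `L₂` iff its Galois avatar dies under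
`inflLxn` (every degree). -/
theorem map_trans_eq_zero_iff (n : ℕ) (y : groupCohomology (Inv (KSH S H) (lvl H L)) n) :
    (groupCohomology.map (qmap (lvl_le_of_le H L L₂ hLL))
        (transHom (KSH S H) (lvl_le_of_le H L L₂ hLL)) n).hom y = 0 ↔
      (inflLxn ↥(K₀ H) ↥(Lext H L hKL) ↥(Lext H L₂ hKL₂) n).hom
        ((cohIsoExt S H L hKL hL hle n).hom.hom y) = 0 := by
  rw [inflLxn_cohIsoExt S H L L₂ hKL hKL₂ hLL hL hL₂ hle hle₂ halg n y]
  constructor
  · intro h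
    rw [h]
    exact map_zero _
  · intro h
    have h1 := congrArg (fun t => (cohIsoExt S H L₂ hKL₂ hL₂ hle₂ n).inv.hom t) h
    simp only [Iso.hom_inv_id_apply] at h1
    exact h1.trans (map_zero _)

include halg hL₂ hle₂ in
theorem transH2_eq_zero_iff (y : groupCohomology.H2 (Inv (KSH S H) (lvl H L))) :
    transH2 (KSH S H) (lvl_le_of_le H L L₂ hLL) y = 0 ↔
      (inflLxn ↥(K₀ H) ↥(Lext H L hKL) ↥(Lext H L₂ hKL₂) 2).hom
        ((cohIsoExt S H L hKL hL hle 2).hom.hom y) = 0 :=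
  map_trans_eq_zero_iff S H L L₂ hKL hKL₂ hLL hL hL₂ hle hle₂ halg 2 y

include halg hL₂ hle₂ in
theorem transH3_eq_zero_iff (y : groupCohomology (Inv (KSH S H) (lvl H L)) 3) :
    Fermat.Agent.S55.Middle.DictH3.transH3 (KSH S H) (lvl_le_of_le H L L₂ hLL) y = 0 ↔
      (inflLxn ↥(K₀ H) ↥(Lext H L hKL) ↥(Lext H L₂ hKL₂) 3).hom
        ((cohIsoExt S H L hKL hL hle 3).hom.hom y) = 0 :=
  map_trans_eq_zero_iff S H L L₂ hKL hKL₂ hLL hL hL₂ hle hle₂ halg 3 y

end Two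

end

end Fermat.Agent.S55.Middle.GaloisDictTrans
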