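/-
S55 / Middle (helper5): the divisor module `Div 𝒰 X` of `Middle/DivDef.lean` AT FINITE LEVEL.

* `exists_primitive` : a pointwise `1`-cocycle `c : H → X → ℤ` of level `N` (`N` normal of finite
  index in `H`) is a pointwise coboundary, with control of the support of the primitive;
* `isZero_H1_rel` : `H¹(V/W, Div^W) = 0` (Mathlib `groupCohomology`) for `W ≤ V`, `W ∈ 𝒰`;
* `ι₂_div_injective` : the level map `ι₂ : H²(G ⧸ V, Div^V) → H²_LC(G; Div)` is INJECTIVE for every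
  `V ∈ 𝒰`;
* `ofHom_h2_ι₂_eq_zero_iff` : for `ord : A ⟶ Div 𝒰 X`, a class `y` of level `V` of `A` dies in
  `H²_LC(G; Div)` iff its image in `H²(G ⧸ V, Div^V)` (finite group, Mathlib cohomology) vanishes.
-/
import Mathlib
import Fermat.Agent.S55.Middle.DivDef
import Fermat.Agent.S55.Formal.LCLevelInj
import Fermat.Agent.S55.Bridge.LevelNat
import Fermat.Agent.S55.Middle.DivH2

set_option autoImplicit false
set_option linter.unusedSectionVars false

open CategoryTheory groupCohomology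

namespace Fermat.Agent.S55.Middle.DivLevel

open Fermat.Agent.S55.Formal Fermat.Agent.S55.Formal.LCLevel Fermat.Agent.S55.Formal.LCLevelH
  Fermat.Agent.S55.Formal.LCLevelInj
open Fermat.Agent.S55.Middle.DivDef

section Generic

variable {H : Type} [Group H] {X : Type} [MulAction H X]

/-- the chosen base point of the orbit of `x` -/
private noncomputable def base (x : X) : X := (Quotient.mk (MulAction.orbitRel H X) x).out

private lemma exists_base (x : X) : ∃ h : H, h • base (H := H) x = x := by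
  have h1 : (MulAction.orbitRel H X) (base (H := H) x) x :=
    Quotient.exact (Quotient.out_eq (Quotient.mk (MulAction.orbitRel H X) x))
  rw [MulAction.orbitRel_apply] at h1
  obtain ⟨g, hg⟩ := h1
  exact ⟨g⁻¹, by rw [← hg, inv_smul_smul]⟩

private lemma base_smul (g : H) (x : X) : base (H := H) (g • x) = base (H := H) x := by
  unfold base
  congr 1
  apply Quotient.sound
  show (MulAction.orbitRel H X) (g • x) x
  rw [MulAction.orbitRel_apply]
  exact ⟨g, rfl⟩

/-- **Pointwise `H¹ = 0` for functions on an `H`-set**: a cocycle `c : H → X → ℤ`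
(`c (g h) x = c h (g⁻¹ x) + c g x`) which is constant on the cosets of a normal subgroup `N` of
finite index is a coboundary `c g x = m (g⁻¹ x) - m x`; the support of `m` is contained in the
union of the supports of finitely many `c t`. -/
theorem exists_primitive (N : Subgroup H) [N.Normal] [N.FiniteIndex] (c : H → X → ℤ)
    (hcoc : ∀ g h x, c (g * h) x = c h (g⁻¹ • x) + c g x)
    (hlev : ∀ n ∈ N, ∀ g, c (g * n) = c g) :
    ∃ m : X → ℤ, (∀ g x, m (g⁻¹ • x) - m x = c g x) ∧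
      ∃ T : Finset H, ∀ x, m x ≠ 0 → ∃ t ∈ T, c t x ≠ 0 := by
  classical
  have hone : ∀ x, c 1 x = 0 := by
    intro x
    have := hcoc 1 1 x
    simp only [mul_one, inv_one, one_smul] at this
    linarith
  have hstab : ∀ (x₀ : X) (s : H), s • x₀ = x₀ → c s x₀ = 0 := by
    intro x₀ s hs
    have hs' : s⁻¹ • x₀ = x₀ := by rw [inv_smul_eq_iff, hs]
    have hpow : ∀ n : ℕ, c (s ^ n) x₀ = n * c s x₀ := by
      intro n
      induction n with
      | zero => simp [hone]
      | succ n ih =>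
        rw [pow_succ', hcoc s (s ^ n) x₀, hs', ih]
        push_cast
        ring
    have hmem : s ^ N.index ∈ N := N.pow_index_mem s
    have h0 : c (s ^ N.index) = c 1 := by
      have := hlev _ hmem 1
      rwa [one_mul] at this
    have := hpow N.index
    rw [h0, hone] at this
    have hne : (N.index : ℤ) ≠ 0 := by
      exact_mod_cast (Subgroup.FiniteIndex.index_ne_zero (H := N))
    exact (mul_eq_zero.mp this.symm).resolve_left hne
  have hwd : ∀ (x₀ : X) (h h' : H), h • x₀ = h' • x₀ → c h' (h • x₀) = c h (h • x₀) := by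
    intro x₀ h h' hh
    have hs : (h⁻¹ * h') • x₀ = x₀ := by rw [mul_smul, ← hh, inv_smul_smul]
    have e : h' = h * (h⁻¹ * h') := by group
    rw [e, hcoc h (h⁻¹ * h') (h • x₀), inv_smul_smul, hstab x₀ _ hs, zero_add]
  let pick : X → H := fun x => Classical.choose (exists_base (H := H) x)
  have pick_spec : ∀ x, pick x • base (H := H) x = x :=
    fun x => Classical.choose_spec (exists_base (H := H) x)
  let m0 : X → ℤ := fun x => - c (pick x) x
  have m0_eq : ∀ (h : H) (x : X), h • base (H := H) x = x → m0 x = - c h x := by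
    intro h x hx
    show - c (pick x) x = - c h x
    have hh : h • base (H := H) x = pick x • base (H := H) x := by rw [hx, pick_spec]
    have := hwd (base (H := H) x) h (pick x) hh
    rw [hx] at this
    rw [this]
  have htriv : ∀ g x, m0 (g⁻¹ • x) - m0 x = c g x := by
    intro g x
    have h1 : (g⁻¹ * pick x) • base (H := H) (g⁻¹ • x) = g⁻¹ • x := by
      rw [base_smul, mul_smul, pick_spec]
    rw [m0_eq _ _ h1, m0_eq _ _ (pick_spec x)]
    have h2 := hcoc g (g⁻¹ * pick x) x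
    rw [mul_inv_cancel_left] at h2
    linarith
  let _ : Fintype (H ⧸ N) := Subgroup.fintypeQuotientOfFiniteIndex
  refine ⟨m0, htriv, Finset.univ.image (Quotient.out : H ⧸ N → H), fun x hx => ?_⟩
  obtain ⟨u, hu⟩ := QuotientGroup.mk_out_eq_mul N (pick x)
  refine ⟨((pick x : H) : H ⧸ N).out, Finset.mem_image_of_mem _ (Finset.mem_univ _), ?_⟩
  rw [hu, hlev _ u.2]
  intro h0
  apply hx
  show - c (pick x) x = 0
  rw [h0, neg_zero]

end Generic

variable {G : Type} [Group G] (𝒰 : NBasis G) (X : Type) [MulAction G X]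

/-- **`H¹(V/W, Div^W) = 0`** for `W ≤ V` normal, `W ∈ 𝒰` (Mathlib group cohomology of the finite
group `V/W ≤ G ⧸ W`). -/
theorem isZero_H1_rel (V W : Subgroup G) [V.Normal] [W.Normal] (hW : 𝒰.mem W) (hle : W ≤ V) :
    Limits.IsZero (groupCohomology.H1
      (Rep.res (relSub V W).subtype ((Div 𝒰 X).quotientToInvariants W))) := by
  classical
  have := 𝒰.finiteIndex hW
  set A := Rep.res (relSub V W).subtype ((Div 𝒰 X).quotientToInvariants W) with hA
  suffices hsub : Subsingleton (groupCohomology.H1 A) from ModuleCat.isZero_of_subsingleton _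
  suffices hz : ∀ y : groupCohomology.H1 A, y = 0 from ⟨fun a b => by rw [hz a, hz b]⟩
  intro y
  induction y using H1_induction_on with
  | h c =>
    rw [H1π_eq_zero_iff]
    -- the lifted pointwise cocycle on `V`
    let q : ↥V → ↥(relSub V W) := fun u => ⟨QuotientGroup.mk (u : G), mk_mem_relSub V W u.2⟩
    have hq_mul : ∀ u u' : ↥V, q (u * u') = q u * q u' := fun u u' => rfl
    let cD : ↥V → Div 𝒰 X := fun u => ((c (q u) : (Div 𝒰 X).quotientToInvariants W).1 : Div 𝒰 X)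
    let ct : ↥V → X → ℤ := fun u => toFun 𝒰 X (cD u)
    have hcc := (mem_cocycles₁_iff (c : ↥(relSub V W) → A)).1 c.2
    have hcoc : ∀ g h x, ct (g * h) x = ct h (g⁻¹ • x) + ct g x := by
      intro g h x
      have h1 := hcc (q g) (q h)
      have h2 : cD (g * h) = (Div 𝒰 X).ρ (g : G) (cD h) + cD g := by
        have := congrArg (fun a : A => ((a : (Div 𝒰 X).quotientToInvariants W).1 : Div 𝒰 X)) h1
        exact this
      show toFun 𝒰 X (cD (g * h)) x = toFun 𝒰 X (cD h) (g⁻¹ • x) + toFun 𝒰 X (cD g) x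
      rw [h2, toFun_add, toFun_ρ]
      rfl
    have hlev : ∀ n ∈ W.subgroupOf V, ∀ g, ct (g * n) = ct g := by
      intro n hn g
      have : q (g * n) = q g := by
        apply Subtype.ext
        show (QuotientGroup.mk ((g : G) * (n : G)) : G ⧸ W) = QuotientGroup.mk (g : G)
        exact QuotientGroup.mk_mul_of_mem _ (Subgroup.mem_subgroupOf.1 hn)
      show toFun 𝒰 X (cD (g * n)) = toFun 𝒰 X (cD g)
      show toFun 𝒰 X ((c (q (g * n)) : (Div 𝒰 X).quotientToInvariants W).1 : Div 𝒰 X) = _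
      rw [this]
    obtain ⟨m, hm, T, hT⟩ := exists_primitive (W.subgroupOf V) ct hcoc hlev
    -- `m` is `W`-invariant
    have hone : ∀ w : G, ∀ hw : w ∈ W, ∀ x, ct ⟨w, hle hw⟩ x = 0 := by
      intro w hw x
      have h1 : ct ((1 : ↥V) * ⟨w, hle hw⟩) = ct 1 :=
        hlev ⟨w, hle hw⟩ (Subgroup.mem_subgroupOf.2 hw) 1
      rw [one_mul] at h1
      rw [h1]
      have := hcoc 1 1 x
      simp only [mul_one, inv_one, one_smul] at this
      linarith
    have hinv : ∀ w ∈ W, ∀ x, m (w • x) = m x := by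
      intro w hw x
      have := hm ⟨w⁻¹, hle (W.inv_mem hw)⟩ x
      rw [hone w⁻¹ (W.inv_mem hw)] at this
      have e : (⟨w⁻¹, hle (W.inv_mem hw)⟩ : ↥V)⁻¹ • x = w • x := by
        show ((w⁻¹)⁻¹ : G) • x = w • x
        rw [inv_inv]
      rw [e] at this
      linarith
    -- support
    have hF : ∀ t : ↥V, ∃ F : Finset X, ∀ x, ct t x ≠ 0 → ∃ g : G, ∃ y ∈ F, x = g • y :=
      fun t => (isDiv_toFun 𝒰 X (cD t)).2
    choose F hFs using hF
    have hmdiv : IsDiv 𝒰 X m := by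
      refine ⟨⟨W, hW, hinv⟩, ⟨T.biUnion F, fun x hx => ?_⟩⟩
      obtain ⟨t, ht, htx⟩ := hT x hx
      obtain ⟨g, y, hy, rfl⟩ := hFs t _ htx
      exact ⟨g, y, Finset.mem_biUnion.2 ⟨t, ht, hy⟩, rfl⟩
    have hminv : mkDiv 𝒰 X m hmdiv ∈
        Representation.invariants ((Div 𝒰 X).ρ.comp W.subtype) := by
      intro w
      ext x
      show toFun 𝒰 X ((Div 𝒰 X).ρ (w : G) (mkDiv 𝒰 X m hmdiv)) x = _
      rw [toFun_ρ, toFun_mkDiv]
      exact hinv _ (W.inv_mem w.2) x
    refine ⟨(⟨mkDiv 𝒰 X m hmdiv, hminv⟩ : (Div 𝒰 X).quotientToInvariants W), ?_⟩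
    funext z
    obtain ⟨z, u, hu, rfl⟩ := z
    rw [d₀₁_hom_apply]
    apply Subtype.ext
    ext x
    have := hm ⟨u, hu⟩ x
    exact this

/-- **The level maps of `Div` are injective**: `ι₂ : H²(G ⧸ V, Div^V) → H²_LC(G; Div)`. -/
theorem ι₂_div_injective (V : Subgroup G) [V.Normal] [Finite (G ⧸ V)] (hV : 𝒰.mem V) :
    Function.Injective (ι₂ 𝒰 (Div 𝒰 X) V hV) :=
  LCLevelInj.ι₂_injective (Div 𝒰 X) V 𝒰 hV
    (fun W hW hle _ => isZero_H1_rel 𝒰 X V W hW hle)

/-! ### coefficient morphisms at finite level -/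

section Coef

variable {𝒰}
variable {k : Type} [CommRing k] {A B : Rep.{0, 0, 0} k G} (V : Subgroup G) [V.Normal]

/-- a coefficient morphism on the `V`-invariants, as a morphism of `G ⧸ V`-representations -/
noncomputable abbrev levelHom (φ : A ⟶ B) :
    A.quotientToInvariants V ⟶ B.quotientToInvariants V :=
  (Rep.quotientToInvariantsFunctor k V).map φ

@[simp] lemma levelHom_apply_coe (φ : A ⟶ B) (m : A.quotientToInvariants V) :
    (((levelHom V φ).hom m : B.quotientToInvariants V).1 : B) = φ.hom (m.1 : A) := rfl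

/-- the map `H²(G ⧸ V, A^V) → H²(G ⧸ V, B^V)` induced by a coefficient morphism -/
noncomputable def levelH2 (φ : A ⟶ B) :
    groupCohomology.H2 (A.quotientToInvariants V) →ₗ[k]
      groupCohomology.H2 (B.quotientToInvariants V) :=
  (groupCohomology.map (MonoidHom.id (G ⧸ V)) (levelHom V φ) 2).hom

lemma levelH2_π (φ : A ⟶ B) (c : cocycles₂ (A.quotientToInvariants V)) :
    levelH2 V φ (H2π _ c) = H2π _ (mapCocycles₂ (A := A.quotientToInvariants V)
      (B := B.quotientToInvariants V) (MonoidHom.id (G ⧸ V)) (levelHom V φ) c) :=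
  H2π_comp_map_apply (A := A.quotientToInvariants V)
    (B := B.quotientToInvariants V) (MonoidHom.id (G ⧸ V)) (levelHom V φ) c

variable [Finite (G ⧸ V)] (hV : 𝒰.mem V)

/-- **Naturality of `ι₂` in the coefficients.** -/
theorem ofHom_h2_ι₂ (φ : A ⟶ B) (y : groupCohomology.H2 (A.quotientToInvariants V)) :
    (Mor.ofHom 𝒰 φ).h2 (ι₂ 𝒰 A V hV y) = ι₂ 𝒰 B V hV (levelH2 V φ y) := by
  induction y using H2_induction_on with
  | h c =>
    rw [levelH2_π, ι₂_π, ι₂_π]
    have hz : dC₂ 𝒰 A (inflZ₂ 𝒰 A V hV c : ↥(C₂ 𝒰 A)) = 0 :=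
      LinearMap.mem_ker.mp (inflZ₂ 𝒰 A V hV c).2
    have hz' : dC₂ 𝒰 B ((Mor.ofHom 𝒰 φ).c₂ (inflZ₂ 𝒰 A V hV c : ↥(C₂ 𝒰 A))) = 0 := by
      have := LinearMap.congr_fun (Mor.ofHom 𝒰 φ).c₃_dC₂ (inflZ₂ 𝒰 A V hV c : ↥(C₂ 𝒰 A))
      simp only [LinearMap.comp_apply] at this
      rw [← this, hz, map_zero]
    show (Hmid.of ((Mor.ofHom 𝒰 φ).c₂ (inflZ₂ 𝒰 A V hV c : ↥(C₂ 𝒰 A))) hz' : H2 𝒰 B) = _
    show Hmid.mk _ _ _ = Hmid.mk _ _ _
    congr 1

end Coef

/-- **LC-triviality in `Div` is a finite-level statement**: for `ord : A ⟶ Div 𝒰 X` and a class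
`y` of level `V`, the image of `ι₂ y` in `H²_LC(G; Div)` vanishes iff the image of `y` in
`H²(G ⧸ V, Div^V)` (Mathlib cohomology of the finite group `G ⧸ V`) vanishes. -/
theorem ofHom_h2_ι₂_eq_zero_iff {A : Rep.{0, 0, 0} ℤ G} (ord : A ⟶ Div 𝒰 X)
    (V : Subgroup G) [V.Normal] [Finite (G ⧸ V)] (hV : 𝒰.mem V)
    (y : groupCohomology.H2 (A.quotientToInvariants V)) :
    (Mor.ofHom 𝒰 ord).h2 (ι₂ 𝒰 A V hV y) = 0 ↔ levelH2 V ord y = 0 := by
  rw [ofHom_h2_ι₂ V hV ord y]
  constructor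
  · intro h0
    exact ι₂_div_injective 𝒰 X V hV (h0.trans (map_zero _).symm)
  · intro h0
    rw [h0, map_zero]

section Res

attribute [-instance] AddCommGroup.toIntModule

/-- **Residue criterion at finite level** (the direction "finite level ⇒ LC" of the off-`S`
dictionary): let `c` be a `2`-cocycle of the finite group `G ⧸ V` with values in `A^V` and
`ord : A ⟶ Div 𝒰 X`.  If for every point `x` the `x`-coordinate of `ord ∘ c`, restricted to the
image of `Stab x` in `G ⧸ V`, is the coboundary of some `β : G ⧸ V → ℤ`, then the image of the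
class of `c` in `H²_LC(G; Div)` vanishes. -/
theorem ofHom_h2_ι₂_eq_zero_of_res {A : Rep.{0, 0, 0} ℤ G} (ord : A ⟶ Div 𝒰 X)
    (V : Subgroup G) [V.Normal] [Finite (G ⧸ V)] (hV : 𝒰.mem V)
    (c : cocycles₂ (A.quotientToInvariants V))
    (hres : ∀ x : X, ∃ β : G ⧸ V → ℤ, ∀ s t : G, s • x = x → t • x = x →
      toFun 𝒰 X (ord.hom ((c ((s : G ⧸ V), (t : G ⧸ V)) : A.quotientToInvariants V).1 : A)) x =
        β (t : G ⧸ V) - β ((s * t : G) : G ⧸ V) + β (s : G ⧸ V)) :
    (Mor.ofHom 𝒰 ord).h2 (ι₂ 𝒰 A V hV (H2π _ c)) = 0 := by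
  rw [ι₂_π]
  have hz : dC₂ 𝒰 A (inflZ₂ 𝒰 A V hV c : ↥(C₂ 𝒰 A)) = 0 :=
    LinearMap.mem_ker.mp (inflZ₂ 𝒰 A V hV c).2
  have hz' : dC₂ 𝒰 (Div 𝒰 X) ((Mor.ofHom 𝒰 ord).c₂ (inflZ₂ 𝒰 A V hV c : ↥(C₂ 𝒰 A))) = 0 := by
    have := LinearMap.congr_fun (Mor.ofHom 𝒰 ord).c₃_dC₂ (inflZ₂ 𝒰 A V hV c : ↥(C₂ 𝒰 A))
    simp only [LinearMap.comp_apply] at this
    rw [← this, hz, map_zero]
  show (Hmid.of ((Mor.ofHom 𝒰 ord).c₂ (inflZ₂ 𝒰 A V hV c : ↥(C₂ 𝒰 A))) hz' :
    H2 𝒰 (Div 𝒰 X)) = 0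
  rw [Hmid.of_eq_zero_iff]
  refine DivH2.div_H2_inj _ hz' (fun x => ?_)
  obtain ⟨β, hβ⟩ := hres x
  refine ⟨V, hV, fun u => β ((u : G) : G ⧸ V), ?_, ?_⟩
  · intro u s hs
    show β (((u : G) * (s : G) : G) : G ⧸ V) = β ((u : G) : G ⧸ V)
    rw [QuotientGroup.mk_mul_of_mem _ hs]
  · intro u v
    exact hβ u v u.2 v.2

/-- the same criterion, for the finite-level class in `H²(G ⧸ V, Div^V)`. -/
theorem levelH2_eq_zero_of_res {A : Rep.{0, 0, 0} ℤ G} (ord : A ⟶ Div 𝒰 X)
    (V : Subgroup G) [V.Normal] [Finite (G ⧸ V)] (hV : 𝒰.mem V)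
    (c : cocycles₂ (A.quotientToInvariants V))
    (hres : ∀ x : X, ∃ β : G ⧸ V → ℤ, ∀ s t : G, s • x = x → t • x = x →
      toFun 𝒰 X (ord.hom ((c ((s : G ⧸ V), (t : G ⧸ V)) : A.quotientToInvariants V).1 : A)) x =
        β (t : G ⧸ V) - β ((s * t : G) : G ⧸ V) + β (s : G ⧸ V)) :
    levelH2 V ord (H2π _ c) = 0 :=
  (ofHom_h2_ι₂_eq_zero_iff 𝒰 X ord V hV _).1 (ofHom_h2_ι₂_eq_zero_of_res 𝒰 X ord V hV c hres)

end Res

end Fermat.Agent.S55.Middle.DivLevel
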