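/-
S55 / Middle / ROW (LOC-off), part 1 (helper99): the ANALYTIC CORE.

`F` a field of characteristic zero (a number field in the application), `q` a prime,
`Ω = PadicAlgCl q`.  Every `ℚ`-algebra hom `f : F → Ω` extends to the semilocal algebra
`F ⊗[ℚ] ℚ_[q]` (`semiHom q f`, `l ⊗ c ↦ f l * c`).

* `exists_approx` : `F` is dense in `F ⊗[ℚ] ℚ_[q]` for the (semi)norms `‖semiHom q f ·‖`
  (simultaneously for two homs);
* `norm_semiHom_congr` : the seminorm `‖semiHom q f ·‖` only depends on the norm `‖f ·‖` on `F`;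
* `exists_zpow_norm_semiHom` : if the norm of `f` on `Fˣ` takes values in `q ^ ℤ` (unramified case),
  so does `‖semiHom q f ·‖` on elements with nonzero image;
* `ordN q x = - Int.log q ‖x‖`, the normalised additive valuation, with `ordN_eq`, `ordN_mul`.
-/
import Mathlib
import Fermat.Agent.S55.Bridge.LocalGlobal

set_option autoImplicit false
set_option linter.unusedSectionVars false

open scoped TensorProduct

namespace Fermat.Agent.S55.Middle.LocOffNorm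

noncomputable section

variable (q : ℕ) [Fact q.Prime]

local instance instTowerQQqPadic_lo : IsScalarTower ℚ ℚ_[q] (PadicAlgCl q) :=
  IsScalarTower.of_algebraMap_eq' (Subsingleton.elim _ _)

/-- `ℚ_[q] → PadicAlgCl q` as a `ℚ`-algebra hom -/
def baseHom : ℚ_[q] →ₐ[ℚ] PadicAlgCl q :=
  (Algebra.ofId ℚ_[q] (PadicAlgCl q)).restrictScalars ℚ

@[simp] theorem baseHom_apply (c : ℚ_[q]) :
    baseHom q c = algebraMap ℚ_[q] (PadicAlgCl q) c := rfl

theorem norm_baseHom (c : ℚ_[q]) : ‖baseHom q c‖ = ‖c‖ := PadicAlgCl.norm_extends q c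

variable {F : Type} [Field F] [Algebra ℚ F]

/-- the extension of `f : F → PadicAlgCl q` to the semilocal algebra `F ⊗[ℚ] ℚ_[q]` -/
def semiHom (f : F →ₐ[ℚ] PadicAlgCl q) : F ⊗[ℚ] ℚ_[q] →ₐ[ℚ] PadicAlgCl q :=
  Algebra.TensorProduct.productMap f (baseHom q)

@[simp] theorem semiHom_tmul (f : F →ₐ[ℚ] PadicAlgCl q) (l : F) (c : ℚ_[q]) :
    semiHom q f (l ⊗ₜ[ℚ] c) = f l * algebraMap ℚ_[q] (PadicAlgCl q) c := by
  simp [semiHom]

theorem semiHom_tmul_one (f : F →ₐ[ℚ] PadicAlgCl q) (l : F) :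
    semiHom q f (l ⊗ₜ[ℚ] (1 : ℚ_[q])) = f l := by
  simp

/-- `semiHom` and precomposition with an automorphism of `F` acting on the left factor -/
theorem semiHom_congr_left (f : F →ₐ[ℚ] PadicAlgCl q) (σ : F ≃ₐ[ℚ] F) (b : F ⊗[ℚ] ℚ_[q]) :
    semiHom q f (Algebra.TensorProduct.congr σ (AlgEquiv.refl : ℚ_[q] ≃ₐ[ℚ] ℚ_[q]) b) =
      semiHom q (f.comp (σ : F →ₐ[ℚ] F)) b := by
  induction b using TensorProduct.induction_on with
  | zero => simp
  | tmul l c => simp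
  | add x y hx hy => rw [map_add, map_add, map_add, hx, hy]

/-- **Density**: `F` is dense in `F ⊗[ℚ] ℚ_[q]`, simultaneously for two embeddings. -/
theorem exists_approx (f f' : F →ₐ[ℚ] PadicAlgCl q) (b : F ⊗[ℚ] ℚ_[q]) {ε : ℝ} (hε : 0 < ε) :
    ∃ u : F, ‖f u - semiHom q f b‖ < ε ∧ ‖f' u - semiHom q f' b‖ < ε := by
  induction b using TensorProduct.induction_on with
  | zero => exact ⟨0, by simpa using hε, by simpa using hε⟩
  | tmul l c =>
    set M : ℝ := max ‖f l‖ ‖f' l‖ + 1 with hM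
    have hMpos : 0 < M := by
      have : 0 ≤ max ‖f l‖ ‖f' l‖ := le_max_of_le_left (norm_nonneg _)
      linarith
    obtain ⟨r, hr⟩ := Padic.rat_dense q c (div_pos hε hMpos)
    refine ⟨(algebraMap ℚ F r) * l, ?_, ?_⟩
    · rw [semiHom_tmul, map_mul, AlgHom.commutes]
      have e : algebraMap ℚ (PadicAlgCl q) r * f l - f l * algebraMap ℚ_[q] (PadicAlgCl q) c =
          f l * algebraMap ℚ_[q] (PadicAlgCl q) ((r : ℚ_[q]) - c) := by
        rw [map_sub, IsScalarTower.algebraMap_apply ℚ ℚ_[q] (PadicAlgCl q) r]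
        have : algebraMap ℚ ℚ_[q] r = (r : ℚ_[q]) := rfl
        rw [this]
        ring
      rw [e, norm_mul, PadicAlgCl.norm_extends, norm_sub_rev]
      have h1 : ‖f l‖ < M := by
        have : ‖f l‖ ≤ max ‖f l‖ ‖f' l‖ := le_max_left _ _
        linarith
      calc ‖f l‖ * ‖c - (r : ℚ_[q])‖ ≤ M * ‖c - (r : ℚ_[q])‖ :=
            mul_le_mul_of_nonneg_right h1.le (norm_nonneg _)
        _ < M * (ε / M) := mul_lt_mul_of_pos_left hr hMpos
        _ = ε := by field_simp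
    · rw [semiHom_tmul, map_mul, AlgHom.commutes]
      have e : algebraMap ℚ (PadicAlgCl q) r * f' l - f' l * algebraMap ℚ_[q] (PadicAlgCl q) c =
          f' l * algebraMap ℚ_[q] (PadicAlgCl q) ((r : ℚ_[q]) - c) := by
        rw [map_sub, IsScalarTower.algebraMap_apply ℚ ℚ_[q] (PadicAlgCl q) r]
        have : algebraMap ℚ ℚ_[q] r = (r : ℚ_[q]) := rfl
        rw [this]
        ring
      rw [e, norm_mul, PadicAlgCl.norm_extends, norm_sub_rev]
      have h1 : ‖f' l‖ < M := by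
        have : ‖f' l‖ ≤ max ‖f l‖ ‖f' l‖ := le_max_right _ _
        linarith
      calc ‖f' l‖ * ‖c - (r : ℚ_[q])‖ ≤ M * ‖c - (r : ℚ_[q])‖ :=
            mul_le_mul_of_nonneg_right h1.le (norm_nonneg _)
        _ < M * (ε / M) := mul_lt_mul_of_pos_left hr hMpos
        _ = ε := by field_simp
  | add x y hx hy =>
    obtain ⟨u, hu1, hu2⟩ := hx
    obtain ⟨v, hv1, hv2⟩ := hy
    refine ⟨u + v, ?_, ?_⟩
    · have e : f (u + v) - semiHom q f (x + y) =
          (f u - semiHom q f x) + (f v - semiHom q f y) := by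
        rw [map_add, map_add]; ring
      rw [e]
      exact lt_of_le_of_lt (IsUltrametricDist.norm_add_le_max _ _) (max_lt hu1 hv1)
    · have e : f' (u + v) - semiHom q f' (x + y) =
          (f' u - semiHom q f' x) + (f' v - semiHom q f' y) := by
        rw [map_add, map_add]; ring
      rw [e]
      exact lt_of_le_of_lt (IsUltrametricDist.norm_add_le_max _ _) (max_lt hu2 hv2)

/-- The seminorm `‖semiHom q f ·‖` on `F ⊗[ℚ] ℚ_[q]` only depends on the norm induced by `f`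
on `F`. -/
theorem norm_semiHom_congr (f f' : F →ₐ[ℚ] PadicAlgCl q) (h : ∀ x : F, ‖f x‖ = ‖f' x‖)
    (b : F ⊗[ℚ] ℚ_[q]) : ‖semiHom q f b‖ = ‖semiHom q f' b‖ := by
  by_contra hne
  have hpos : 0 < |‖semiHom q f b‖ - ‖semiHom q f' b‖| / 2 := by
    have : ‖semiHom q f b‖ - ‖semiHom q f' b‖ ≠ 0 := sub_ne_zero.2 hne
    positivity
  obtain ⟨u, hu1, hu2⟩ := exists_approx q f f' b hpos
  have h1 : |‖f u‖ - ‖semiHom q f b‖| < |‖semiHom q f b‖ - ‖semiHom q f' b‖| / 2 :=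
    lt_of_le_of_lt (abs_norm_sub_norm_le _ _) hu1
  have h2 : |‖f' u‖ - ‖semiHom q f' b‖| < |‖semiHom q f b‖ - ‖semiHom q f' b‖| / 2 :=
    lt_of_le_of_lt (abs_norm_sub_norm_le _ _) hu2
  rw [← h u] at h2
  have h3 : |‖semiHom q f b‖ - ‖semiHom q f' b‖| ≤
      |‖f u‖ - ‖semiHom q f b‖| + |‖f u‖ - ‖semiHom q f' b‖| := by
    have : ‖semiHom q f b‖ - ‖semiHom q f' b‖ =
        -(‖f u‖ - ‖semiHom q f b‖) + (‖f u‖ - ‖semiHom q f' b‖) := by ring
    rw [this]
    calc |-(‖f u‖ - ‖semiHom q f b‖) + (‖f u‖ - ‖semiHom q f' b‖)|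
        ≤ |-(‖f u‖ - ‖semiHom q f b‖)| + |‖f u‖ - ‖semiHom q f' b‖| := abs_add_le _ _
      _ = _ := by rw [abs_neg]
  linarith

/-- two homs with the same unit ball on `F` give the same seminorm on `F ⊗[ℚ] ℚ_[q]` -/
theorem norm_semiHom_congr_of_unitBall (f f' : F →ₐ[ℚ] PadicAlgCl q)
    (h : ∀ x : F, ‖f x‖ ≤ 1 ↔ ‖f' x‖ ≤ 1) (b : F ⊗[ℚ] ℚ_[q]) :
    ‖semiHom q f b‖ = ‖semiHom q f' b‖ :=
  norm_semiHom_congr q f f'
    (Fermat.Agent.S55.Bridge.LocalGlobal.norm_eq_of_unitBall_eq (q := q) f.toRingHom f'.toRingHom h) b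

/-- every element with nonzero image has the norm of an element of `F` -/
theorem exists_norm_eq (f : F →ₐ[ℚ] PadicAlgCl q) (b : F ⊗[ℚ] ℚ_[q])
    (hb : semiHom q f b ≠ 0) : ∃ u : F, u ≠ 0 ∧ ‖f u‖ = ‖semiHom q f b‖ := by
  have hpos : 0 < ‖semiHom q f b‖ := norm_pos_iff.2 hb
  obtain ⟨u, hu, -⟩ := exists_approx q f f b hpos
  have hnorm : ‖f u‖ = ‖semiHom q f b‖ := by
    have e : f u = semiHom q f b + (f u - semiHom q f b) := by ring
    rw [e]
    have hne : ‖semiHom q f b‖ ≠ ‖f u - semiHom q f b‖ := (ne_of_lt hu).symm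
    rw [IsUltrametricDist.norm_add_eq_max_of_norm_ne_norm hne, max_eq_left hu.le]
  refine ⟨u, ?_, hnorm⟩
  rintro rfl
  rw [map_zero, norm_zero] at hnorm
  exact (ne_of_gt hpos) hnorm.symm

/-- **Integrality of the valuation** (unramified case). -/
theorem exists_zpow_norm_semiHom (f : F →ₐ[ℚ] PadicAlgCl q)
    (hint : ∀ u : F, u ≠ 0 → ∃ n : ℤ, ‖f u‖ = (q : ℝ) ^ (-n)) (b : F ⊗[ℚ] ℚ_[q])
    (hb : semiHom q f b ≠ 0) : ∃ n : ℤ, ‖semiHom q f b‖ = (q : ℝ) ^ (-n) := by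
  obtain ⟨u, hu0, hu⟩ := exists_norm_eq q f b hb
  obtain ⟨n, hn⟩ := hint u hu0
  exact ⟨n, hu ▸ hn⟩

/-- the normalised additive valuation of an element of `PadicAlgCl q` (meaningful when the norm
lies in `q ^ ℤ`) -/
def ordN (x : PadicAlgCl q) : ℤ := - Int.log q ‖x‖

theorem ordN_eq {x : PadicAlgCl q} {n : ℤ} (h : ‖x‖ = (q : ℝ) ^ (-n)) : ordN q x = n := by
  have hq : 1 < q := (Fact.out : q.Prime).one_lt
  rw [ordN, h, Int.log_zpow hq, neg_neg]

theorem ordN_mul {x y : PadicAlgCl q} {n m : ℤ} (hx : ‖x‖ = (q : ℝ) ^ (-n))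
    (hy : ‖y‖ = (q : ℝ) ^ (-m)) : ordN q (x * y) = ordN q x + ordN q y := by
  have hq0 : (q : ℝ) ≠ 0 := by
    have := (Fact.out : q.Prime).pos
    positivity
  have hxy : ‖x * y‖ = (q : ℝ) ^ (-(n + m)) := by
    rw [norm_mul, hx, hy, ← zpow_add₀ hq0]
    congr 1
    ring
  rw [ordN_eq q hx, ordN_eq q hy, ordN_eq q hxy]

theorem ordN_one : ordN q (1 : PadicAlgCl q) = 0 := by
  apply ordN_eq
  simp

end

end Fermat.Agent.S55.Middle.LocOffNorm
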