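/-
S55 / Middle / ROW (LOC-off), part 2 (helper99): the VALUATION MAP on the semilocal units.

`L : IntermediateField ℚ ℚ̄` normal over `ℚ`, unramified outside `S`; `T` a finite set of rational
primes.  For `b : (L ⊗[ℚ] ℚ_T)ˣ` (`= JQ L T` of the Global block, `ℚ_T = ∏_{q ∈ T} ℚ_[q]`) and a place
`y = (q, A) ∈ Xoff S` (`q ∉ S`, `A` a valuation subring of `ℚ̄` over `q`):

  `valT L T b y = ` the normalised `A`-adic valuation of the `q`-component of `b`   (`0` if `q ∉ T`),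

computed as `ordN` of the image of `b` under `L ⊗[ℚ] ℚ_T → L ⊗[ℚ] ℚ_[q] → PadicAlgCl q`,
`l ⊗ c ↦ padicEmbedding q (t⁻¹ l) * c`, where `A = t • padicPlace q` (independent of `t`).

* `valT_mul` : additivity;  `valT_smul` : `valT (σ_g • b) y = valT b (g⁻¹ • y)` (`σ_g = g|_L`);
* `valT_inclUnits` : on `u ∈ Lˣ` it is `ordAt A q u` (helper64's normalised valuation) at the places
  over `T`, and `0` elsewhere;
* `isDiv_valT`, `isDiv_valT_sub` : `valT L T b` is a smooth compactly supported function on `Xoff S`.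
-/
import Mathlib
import Fermat.Agent.S55.Middle.LocOffNorm
import Fermat.Agent.S55.Middle.CapDiv
import Fermat.Agent.S55.Global.Objects2

set_option autoImplicit false
set_option linter.unusedSectionVars false
set_option linter.style.haveILetI false

open scoped TensorProduct Pointwise

namespace Fermat.Agent.S55.Middle.LocOffVal

noncomputable section

open Fermat.Agent.S55.Formal
open Fermat.Agent.S55.Middle.Defs Fermat.Agent.S55.Middle.DivDef Fermat.Agent.S55.Middle.Cap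
open Fermat.Agent.S55.Middle.CapDiv Fermat.Agent.S55.Middle.LocOffNorm
open Fermat.Agent.S55.Global.Objects Fermat.Agent.S55.Global.Objects2
open Fermat.Agent.S55.Bridge.LocalGlobal (norm_natCast_q)

local instance isAlgebraicQbar_lov : Algebra.IsAlgebraic ℚ (AlgebraicClosure ℚ) :=
  AlgebraicClosure.isAlgebraic ℚ
local instance isAlgClosureQbar_lov : IsAlgClosure ℚ (AlgebraicClosure ℚ) :=
  ⟨inferInstance, inferInstance⟩
local instance normalQbar_lov : Normal ℚ (AlgebraicClosure ℚ) :=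
  IsAlgClosure.normal ℚ (AlgebraicClosure ℚ)
local instance isGaloisQbar_lov : IsGalois ℚ (AlgebraicClosure ℚ) := ⟨⟩

/-! ### the base place and its conjugates -/

section Place

variable (q : ℕ) [Fact q.Prime]

theorem padicPlace_liesOver : (padicPlace q).LiesOverPrime q := by
  unfold ValuationSubring.LiesOverPrime
  rw [Fermat.Agent.Lib.InertiaRestrict.mem_nonunits_iff_inv]
  right
  rw [mem_padicPlace_iff, map_inv₀, map_natCast, nnnorm_inv, not_le]
  have h1 : ‖((q : ℕ) : PadicAlgCl q)‖₊ = (q : NNReal)⁻¹ := by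
    ext
    push_cast
    exact norm_natCast_q
  rw [h1, inv_inv]
  exact_mod_cast (Fact.out : q.Prime).one_lt

/-- membership in a conjugate of the base place, in terms of the `q`-adic norm -/
theorem mem_smul_padicPlace_iff (t : GQ) (x : Qbar) :
    x ∈ t • padicPlace q ↔ ‖padicEmbedding q (t⁻¹ x)‖ ≤ 1 := by
  rw [ValuationSubring.mem_pointwise_smul_iff_inv_smul_mem, mem_padicPlace_iff]
  rfl

/-- every place over `q` is a conjugate of the base place -/
theorem exists_smul_padicPlace {A : ValuationSubring Qbar} (hA : A.LiesOverPrime q) :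
    ∃ t : GQ, A = t • padicPlace q :=
  Fermat.Agent.Lib.InertiaBridge.Lift.exists_smul_eq_of_liesOverPrime (Fact.out : q.Prime)
    (padicPlace_liesOver q) hA

open Classical in
/-- a chosen `t` with `A = t • padicPlace q` (junk `1` if `A` is not over `q`) -/
def tOf (A : ValuationSubring Qbar) : GQ :=
  if h : ∃ t : GQ, A = t • padicPlace q then h.choose else 1

theorem tOf_spec {A : ValuationSubring Qbar} (hA : A.LiesOverPrime q) :
    A = tOf q A • padicPlace q := by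
  have h := exists_smul_padicPlace q hA
  unfold tOf
  rw [dif_pos h]
  exact h.choose_spec

/-- the norm of `x` at a conjugate place from `HasOrd` -/
theorem norm_of_hasOrd (t : GQ) {x : Qbar} (hx : x ≠ 0) {n : ℤ}
    (h : HasOrd (t • padicPlace q) q x n) :
    ‖padicEmbedding q (t⁻¹ x)‖ = (q : ℝ) ^ (-n) := by
  obtain ⟨h1, h2⟩ := h
  rw [mem_smul_padicPlace_iff] at h1 h2
  have hq0 : ((q : ℕ) : Qbar) ≠ 0 := Nat.cast_ne_zero.2 (Fact.out : q.Prime).ne_zero
  have hqR : (q : ℝ) ≠ 0 := Nat.cast_ne_zero.2 (Fact.out : q.Prime).ne_zero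
  set z : PadicAlgCl q := padicEmbedding q (t⁻¹ x) with hz
  have hz0 : z ≠ 0 := by
    rw [hz, Ne, map_eq_zero]
    intro h0
    apply hx
    have := congrArg (fun w => t w) h0
    simpa using this
  have e1 : padicEmbedding q (t⁻¹ (x * ((q : ℕ) : Qbar) ^ (-n))) =
      z * ((q : ℕ) : PadicAlgCl q) ^ (-n) := by
    rw [map_mul, map_mul, map_zpow₀, map_zpow₀, map_natCast, map_natCast]
  rw [e1, norm_mul, norm_zpow, norm_natCast_q] at h1
  have e2 : padicEmbedding q (t⁻¹ (x * ((q : ℕ) : Qbar) ^ (-n))⁻¹) =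
      (z * ((q : ℕ) : PadicAlgCl q) ^ (-n))⁻¹ := by
    rw [map_inv₀, map_inv₀, e1]
  rw [e2, norm_inv, norm_mul, norm_zpow, norm_natCast_q] at h2
  have hpos : 0 < ‖z‖ * ((q : ℝ)⁻¹) ^ (-n) := by
    have : 0 < ‖z‖ := norm_pos_iff.2 hz0
    have : 0 < ((q : ℝ)⁻¹) ^ (-n) := by positivity
    positivity
  have h3 : ‖z‖ * ((q : ℝ)⁻¹) ^ (-n) = 1 := by
    apply le_antisymm h1
    rwa [inv_le_one₀ hpos] at h2
  have h4 : ((q : ℝ)⁻¹) ^ (-n) = (q : ℝ) ^ n := by
    rw [inv_zpow, zpow_neg, inv_inv]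
  rw [h4] at h3
  rw [zpow_neg]
  field_simp
  linarith

end Place

/-! ### the local embeddings of `L` -/

section Emb

variable {L : Type} [Field L] [NumberField L] (ι : L →+* Qbar) (q : ℕ) [Fact q.Prime]

/-- `l ↦ padicEmbedding q (t⁻¹ (ι l))` -/
def embT (t : GQ) : L →ₐ[ℚ] PadicAlgCl q :=
  (((padicEmbedding q).toRingHom.comp ((t⁻¹ : GQ) : Qbar →+* Qbar)).comp ι).toRatAlgHom

@[simp] theorem embT_apply (t : GQ) (l : L) :
    embT ι q t l = padicEmbedding q (t⁻¹ (ι l)) := rfl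

theorem norm_embT_le_one_iff (t : GQ) (l : L) :
    ‖embT ι q t l‖ ≤ 1 ↔ ι l ∈ t • padicPlace q := by
  rw [mem_smul_padicPlace_iff, embT_apply]

/-- the seminorm on `L ⊗[ℚ] ℚ_[q]` attached to a conjugate `t • padicPlace q` only depends on the
place -/
theorem norm_semiHom_embT_congr {t t' : GQ} (h : t • padicPlace q = t' • padicPlace q)
    (b : L ⊗[ℚ] ℚ_[q]) :
    ‖semiHom q (embT ι q t) b‖ = ‖semiHom q (embT ι q t') b‖ := by
  apply norm_semiHom_congr_of_unitBall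
  intro x
  rw [norm_embT_le_one_iff, norm_embT_le_one_iff, h]

/-- precomposition with an automorphism `σ` of `L` induced by `g : G_ℚ` -/
theorem embT_comp (t g : GQ) (σ : L ≃ₐ[ℚ] L) (hσ : ∀ l, ι (σ l) = g (ι l)) :
    (embT ι q t).comp (σ : L →ₐ[ℚ] L) = embT ι q (g⁻¹ * t) := by
  apply AlgHom.ext
  intro l
  simp only [AlgHom.comp_apply, AlgEquiv.coe_toAlgHom, embT_apply]
  rw [hσ, mul_inv_rev, inv_inv]
  rfl

end Emb

/-! ### the valuation map -/

section Val

variable {S : Finset Nat.Primes} {L : Type} [Field L] [NumberField L] (ι : L →+* Qbar)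
  (T : Finset Nat.Primes)

/-- the projection `L ⊗[ℚ] ℚ_T → L ⊗[ℚ] ℚ_[q]`, `q ∈ T` -/
def projT (q : Nat.Primes) (hq : q ∈ T) : L ⊗[ℚ] QT T →ₐ[ℚ] L ⊗[ℚ] ℚ_[((q : Nat.Primes) : ℕ)] :=
  Algebra.TensorProduct.map (AlgHom.id ℚ L)
    (Pi.evalAlgHom ℚ (fun p : T => ℚ_[((p : Nat.Primes) : ℕ)]) ⟨q, hq⟩)

@[simp] theorem projT_tmul (q : Nat.Primes) (hq : q ∈ T) (l : L) (c : QT T) :
    projT (L := L) T q hq (l ⊗ₜ[ℚ] c) = l ⊗ₜ[ℚ] c ⟨q, hq⟩ := rfl

theorem projT_smul (q : Nat.Primes) (hq : q ∈ T) (σ : L ≃ₐ[ℚ] L) (b : L ⊗[ℚ] QT T) :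
    projT (L := L) T q hq (σ • b) =
      Algebra.TensorProduct.congr σ (AlgEquiv.refl : ℚ_[((q : Nat.Primes) : ℕ)] ≃ₐ[ℚ] _)
        (projT (L := L) T q hq b) := by
  induction b using TensorProduct.induction_on with
  | zero => simp
  | tmul l c => rfl
  | add x y hx hy => rw [smul_add, map_add, map_add, map_add, hx, hy]

/-- the local component of `b` at the place `t • padicPlace q` over `q ∈ T`, in `PadicAlgCl q` -/
def locAt (q : Nat.Primes) (hq : q ∈ T) (t : GQ) (b : L ⊗[ℚ] QT T) : PadicAlgCl (q : ℕ) :=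
  semiHom (q : ℕ) (embT ι (q : ℕ) t) (projT (L := L) T q hq b)

theorem locAt_mul (q : Nat.Primes) (hq : q ∈ T) (t : GQ) (b b' : L ⊗[ℚ] QT T) :
    locAt ι T q hq t (b * b') = locAt ι T q hq t b * locAt ι T q hq t b' := by
  unfold locAt
  rw [map_mul, map_mul]

theorem locAt_one (q : Nat.Primes) (hq : q ∈ T) (t : GQ) :
    locAt ι T q hq t (1 : L ⊗[ℚ] QT T) = 1 := by
  unfold locAt
  rw [Algebra.TensorProduct.one_def, projT_tmul]
  have : (1 : QT T) ⟨q, hq⟩ = (1 : ℚ_[((q : Nat.Primes) : ℕ)]) := rfl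
  rw [this, semiHom_tmul_one, map_one]

theorem locAt_unit_ne_zero (q : Nat.Primes) (hq : q ∈ T) (t : GQ) (b : (L ⊗[ℚ] QT T)ˣ) :
    locAt ι T q hq t (b : L ⊗[ℚ] QT T) ≠ 0 := by
  intro h
  have h1 : locAt ι T q hq t ((b : L ⊗[ℚ] QT T) * ((b⁻¹ : (L ⊗[ℚ] QT T)ˣ) : L ⊗[ℚ] QT T)) = 1 := by
    rw [Units.mul_inv, locAt_one]
  rw [locAt_mul, h, zero_mul] at h1
  exact zero_ne_one h1

theorem locAt_tmul_one (q : Nat.Primes) (hq : q ∈ T) (t : GQ) (l : L) :
    locAt ι T q hq t (l ⊗ₜ[ℚ] (1 : QT T)) = padicEmbedding (q : ℕ) (t⁻¹ (ι l)) := by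
  unfold locAt
  rw [projT_tmul]
  have : (1 : QT T) ⟨q, hq⟩ = (1 : ℚ_[((q : Nat.Primes) : ℕ)]) := rfl
  rw [this, semiHom_tmul_one, embT_apply]

/-- dependence on the place only -/
theorem norm_locAt_congr (q : Nat.Primes) (hq : q ∈ T) {t t' : GQ}
    (h : t • padicPlace (q : ℕ) = t' • padicPlace (q : ℕ)) (b : L ⊗[ℚ] QT T) :
    ‖locAt ι T q hq t b‖ = ‖locAt ι T q hq t' b‖ :=
  norm_semiHom_embT_congr ι (q : ℕ) h _

/-- equivariance of the local components -/
theorem locAt_smul (q : Nat.Primes) (hq : q ∈ T) (t g : GQ) (σ : L ≃ₐ[ℚ] L)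
    (hσ : ∀ l, ι (σ l) = g (ι l)) (b : L ⊗[ℚ] QT T) :
    locAt ι T q hq t (σ • b) = locAt ι T q hq (g⁻¹ * t) b := by
  unfold locAt
  rw [projT_smul, semiHom_congr_left, embT_comp ι (q : ℕ) t g σ hσ]

variable (hL : ∀ l : L, Units.InQS S (ι l))

include hL in
/-- integrality of the local norms at the places off `S` -/
theorem exists_zpow_norm_locAt (q : Nat.Primes) (hqS : q ∉ S) (hq : q ∈ T) (t : GQ)
    (b : (L ⊗[ℚ] QT T)ˣ) :
    ∃ n : ℤ, ‖locAt ι T q hq t (b : L ⊗[ℚ] QT T)‖ = ((q : ℕ) : ℝ) ^ (-n) := by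
  apply exists_zpow_norm_semiHom (q : ℕ) (embT ι (q : ℕ) t) _ _ (locAt_unit_ne_zero ι T q hq t b)
  intro u hu
  have hu0 : ι u ≠ 0 := (map_ne_zero ι).2 hu
  have hA : (t • padicPlace (q : ℕ)).LiesOverPrime (q : ℕ) :=
    (Fermat.Agent.S55.GaloisLevel.liesOverPrime_smul_iff t _ _).2 (padicPlace_liesOver (q : ℕ))
  obtain ⟨n, hn⟩ := exists_ord (S := S) (hL u) hu0 q hqS _ hA
  exact ⟨n, norm_of_hasOrd (q : ℕ) t hu0 hn⟩

/-- **the valuation map** -/
def valT (b : (L ⊗[ℚ] QT T)ˣ) (y : Xoff S) : ℤ :=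
  if h : y.prime ∈ T then
    ordN (y.prime : ℕ) (locAt ι T y.prime h (tOf (y.prime : ℕ) y.ring) (b : L ⊗[ℚ] QT T))
  else 0

theorem valT_of_notMem (b : (L ⊗[ℚ] QT T)ˣ) (y : Xoff S) (h : y.prime ∉ T) :
    valT (S := S) ι T b y = 0 := dif_neg h

/-- `valT` computed with any `t` such that `y.ring = t • padicPlace` -/
theorem valT_eq (b : (L ⊗[ℚ] QT T)ˣ) (y : Xoff S) (h : y.prime ∈ T) {t : GQ}
    (ht : y.ring = t • padicPlace (y.prime : ℕ)) :
    valT (S := S) ι T b y = ordN (y.prime : ℕ) (locAt ι T y.prime h t (b : L ⊗[ℚ] QT T)) := by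
  unfold valT
  rw [dif_pos h]
  unfold ordN
  rw [norm_locAt_congr ι T y.prime h ((tOf_spec (y.prime : ℕ) y.liesOver).symm.trans ht)]

include hL in
theorem valT_mul (b b' : (L ⊗[ℚ] QT T)ˣ) (y : Xoff S) :
    valT (S := S) ι T (b * b') y = valT (S := S) ι T b y + valT (S := S) ι T b' y := by
  by_cases h : y.prime ∈ T
  · unfold valT
    rw [dif_pos h, dif_pos h, dif_pos h, Units.val_mul, locAt_mul]
    obtain ⟨n, hn⟩ := exists_zpow_norm_locAt ι T hL y.prime y.prime_notMem h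
      (tOf (y.prime : ℕ) y.ring) b
    obtain ⟨m, hm⟩ := exists_zpow_norm_locAt ι T hL y.prime y.prime_notMem h
      (tOf (y.prime : ℕ) y.ring) b'
    exact ordN_mul (y.prime : ℕ) hn hm
  · rw [valT_of_notMem ι T _ y h, valT_of_notMem ι T _ y h, valT_of_notMem ι T _ y h, add_zero]

theorem valT_one (y : Xoff S) : valT (S := S) ι T 1 y = 0 := by
  by_cases h : y.prime ∈ T
  · unfold valT
    rw [dif_pos h, Units.val_one, locAt_one, ordN_one]
  · exact valT_of_notMem ι T _ y h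

/-- **equivariance**: `σ` an automorphism of `L` induced by `g : G_ℚ` -/
theorem valT_smul (g : GQ) (σ : L ≃ₐ[ℚ] L) (hσ : ∀ l, ι (σ l) = g (ι l)) (b : (L ⊗[ℚ] QT T)ˣ)
    (y : Xoff S) :
    valT (S := S) ι T (σ • b) y = valT (S := S) ι T b (g⁻¹ • y) := by
  by_cases h : y.prime ∈ T
  · have h' : (g⁻¹ • y).prime ∈ T := h
    have ht : (g⁻¹ • y).ring = (g⁻¹ * tOf (y.prime : ℕ) y.ring) • padicPlace ((g⁻¹ • y).prime : ℕ) := by
      rw [Xoff.smul_ring, mul_smul]
      congr 1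
      exact tOf_spec (y.prime : ℕ) y.liesOver
    rw [valT_eq ι T b (g⁻¹ • y) h' ht]
    unfold valT
    rw [dif_pos h, val_smul_units, locAt_smul ι T y.prime h _ g σ hσ]
    rfl
  · have h' : (g⁻¹ • y).prime ∉ T := h
    rw [valT_of_notMem ι T _ y h, valT_of_notMem ι T _ _ h']

include hL in
/-- **on global elements** `valT` is helper64's normalised valuation at the places over `T` -/
theorem valT_inclUnits (u : Lˣ) (y : Xoff S) :
    valT (S := S) ι T (inclUnits ℚ L (QT T) u) y =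
      if y.prime ∈ T then ordAt y.ring (y.prime : ℕ) (ι (u : L)) else 0 := by
  by_cases h : y.prime ∈ T
  · rw [if_pos h]
    unfold valT
    rw [dif_pos h, val_inclUnits, locAt_tmul_one]
    have hu0 : ι (u : L) ≠ 0 := (map_ne_zero ι).2 u.ne_zero
    have hord := hasOrd_ordAt (S := S) (hL (u : L)) hu0 y.prime y.prime_notMem y.ring
      y.liesOver
    have hspec := tOf_spec (y.prime : ℕ) y.liesOver
    rw [hspec] at hord
    have := norm_of_hasOrd (y.prime : ℕ) (tOf (y.prime : ℕ) y.ring) hu0 hord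
    rw [← hspec] at this
    exact ordN_eq (y.prime : ℕ) this
  · rw [if_neg h, valT_of_notMem ι T _ y h]

end Val

/-! ### `valT b` is a smooth compactly supported function -/

section IsDivSec

variable {S : Finset Nat.Primes}

/-- restriction of `IsDiv` from `G_ℚ` to a subgroup of finite index (generic in the function; the
proof is that of `CapDiv.isDiv_ordFun_sub`) -/
theorem isDiv_sub_of_isDiv (P : Subgroup GQ) (𝒱 : NBasis ↥P)
    (hfine : IsCont (PreludeLC.globalBasis S) 𝒱 P.subtype) (hfin : P.FiniteIndex)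
    {f : Xoff S → ℤ} (hf : IsDiv (PreludeLC.globalBasis S) (Xoff S) f) :
    IsDiv 𝒱 (Xoff S) f := by
  classical
  obtain ⟨⟨U, hU, hinv⟩, ⟨F, hF⟩⟩ := hf
  constructor
  · obtain ⟨V, hV, hle⟩ := hfine U hU
    exact ⟨V, hV, fun u hu y => hinv (u : GQ) (hle u hu) y⟩
  · haveI := hfin
    haveI : Finite (GQ ⧸ P) := Subgroup.finite_quotient_of_finiteIndex
    haveI : Fintype (GQ ⧸ P) := Fintype.ofFinite _
    refine ⟨(Finset.univ ×ˢ F).image
      (fun a : (GQ ⧸ P) × Xoff S => (Quotient.out a.1)⁻¹ • a.2), fun y hy => ?_⟩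
    obtain ⟨g, r, hr, rfl⟩ := hF y hy
    obtain ⟨h, hh⟩ := QuotientGroup.mk_out_eq_mul P g⁻¹
    refine ⟨h, (Quotient.out ((g⁻¹ : GQ) : GQ ⧸ P))⁻¹ • r, ?_, ?_⟩
    · exact Finset.mem_image.2 ⟨(((g⁻¹ : GQ) : GQ ⧸ P), r),
        Finset.mem_product.2 ⟨Finset.mem_univ _, hr⟩, rfl⟩
    · rw [Subgroup.smul_def, smul_smul, hh]
      congr 1
      group

variable {L : Type} [Field L] [NumberField L] (ι : L →+* Qbar) (T : Finset Nat.Primes)
  {F : IntermediateField ℚ Qbar} (hF : F.IsUnramifiedOutside S) (hι : ∀ l : L, ι l ∈ F)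

include hι in
/-- invariance of `valT b` under the elements of `G_ℚ` fixing `F ⊇ ι L` -/
theorem valT_smul_of_fixing (b : (L ⊗[ℚ] QT T)ˣ) {u : GQ} (hu : u ∈ F.fixingSubgroup)
    (y : Xoff S) : valT (S := S) ι T b (u • y) = valT (S := S) ι T b y := by
  have hfix : ∀ l : L, ι ((AlgEquiv.refl : L ≃ₐ[ℚ] L) l) = u⁻¹ (ι l) := by
    intro l
    have h1 : u (ι l) = ι l := (IntermediateField.mem_fixingSubgroup_iff F u).1 hu _ (hι l)
    have h2 : u⁻¹ (u (ι l)) = ι l := by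
      show (u⁻¹ * u) (ι l) = ι l
      rw [inv_mul_cancel]
      rfl
    rw [h1] at h2
    exact h2.symm
  have h := valT_smul (S := S) ι T u⁻¹ (AlgEquiv.refl : L ≃ₐ[ℚ] L) hfix b y
  rw [inv_inv] at h
  rw [← h]
  have : ((AlgEquiv.refl : L ≃ₐ[ℚ] L) • b) = b := one_smul _ b
  rw [this]

include hF hι in
theorem isDiv_valT (b : (L ⊗[ℚ] QT T)ˣ) :
    IsDiv (PreludeLC.globalBasis S) (Xoff S) (valT (S := S) ι T b) := by
  classical
  constructor
  · obtain ⟨U, hU, hle⟩ := PreludeLC.exists_mem_globalBasis_le S hF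
    exact ⟨U, hU, fun u hu y => valT_smul_of_fixing ι T hι b (hle hu) y⟩
  · let B' : Finset Nat.Primes := T.filter (fun q => ∃ y : Xoff S, y.prime = q)
    refine ⟨B'.attach.image (fun q => (Finset.mem_filter.1 q.2).2.choose), fun y hy => ?_⟩
    have hqT : y.prime ∈ T := by
      by_contra hnot
      exact hy (valT_of_notMem ι T b y hnot)
    have hqB' : y.prime ∈ B' := Finset.mem_filter.2 ⟨hqT, y, rfl⟩
    set r : Xoff S := (Finset.mem_filter.1 hqB').2.choose with hr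
    have hrq : r.prime = y.prime := (Finset.mem_filter.1 hqB').2.choose_spec
    obtain ⟨g, hg⟩ := Xoff.exists_smul_eq (y := r) (z := y) hrq
    refine ⟨g, r, ?_, hg⟩
    rw [Finset.mem_image]
    exact ⟨⟨y.prime, hqB'⟩, Finset.mem_attach _ _, rfl⟩

include hF hι in
theorem isDiv_valT_sub (P : Subgroup GQ) (𝒱 : NBasis ↥P)
    (hfine : IsCont (PreludeLC.globalBasis S) 𝒱 P.subtype) (hfin : P.FiniteIndex)
    (b : (L ⊗[ℚ] QT T)ˣ) : IsDiv 𝒱 (Xoff S) (valT (S := S) ι T b) :=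
  isDiv_sub_of_isDiv P 𝒱 hfine hfin (isDiv_valT ι T hF hι b)

end IsDivSec

end

end Fermat.Agent.S55.Middle.LocOffVal
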