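/-
S55 / Middle / ROW (LOC-off), part 3 (helper99): the finite-level valuation morphism and the map

  `jB T : H²(Gal(L/K), (L ⊗[ℚ] ℚ_T)ˣ) →+ H²_LC(P; Div 𝒱 (Xoff S))`

together with its compatibility with `off ∘ infl` on `T`-unit classes (`hcB` of `ImageLevel`).

ABSTRACT SETTING (a "finite-level model"): `P ≤ G_ℚ` with a basis `𝒱` finer than the arithmetic one
(`hfine`, `hfin` as in `CapDiv`), `V ⊴ P` a level, `K`, `L` abstract number fields, `ι : L →+* ℚ̄`
whose image is unramified outside `S` (`hF`, `hι`), and `φ : P ⧸ V →* Gal(L/K)` compatible with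
`ι` (`hφ : ι (φ h̄ l) = h (ι l)`).

* `divT ι T b : Div 𝒱 (Xoff S)` : the divisor of `b ∈ (L ⊗[ℚ] ℚ_T)ˣ` off `S` (function `valT`);
* `lxLevel : Res_φ Lˣ ⟶ (Res_P ℚ_Sˣ)^V`, `u ↦ ι u`;
* `valRep T : Res_φ (Jn K L T) ⟶ (Div)^V`, `b ↦ divT b`;
* `inflL := ι₂ ∘ H²(φ, lxLevel) : H²(Gal(L/K), Lˣ) → H²_LC(P; ℚ_Sˣ)`;
* `jB T := ι₂ ∘ H²(φ, valRep T)`;
* `off_inflL_of_isTUnit` : `off (inflL [f]) = jB T (LxToJn_* [f])` for a cocycle `f` with values in
  the `T`-units, `off := (Mor.ofHom 𝒱 (CapDiv.divMap hfine hfin)).h2`;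
* `off_inflL_EntoLxn` : the same for `y ∈ H²(Gal(L/K), En K L T)`.
-/
import Mathlib
import Fermat.Agent.S55.Middle.LocOffVal
import Fermat.Agent.S55.Middle.DivLevel
import Fermat.Agent.S55.Middle.SUnitDict
import Fermat.Agent.S55.Middle.UnitsToL
import Fermat.Agent.S55.Middle.HbnCoker

set_option autoImplicit false
set_option linter.unusedSectionVars false
set_option linter.style.haveILetI false

open scoped TensorProduct Pointwise
open CategoryTheory groupCohomology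

namespace Fermat.Agent.S55.Middle.LocOff

noncomputable section

open Fermat.Agent.S55.Formal Fermat.Agent.S55.Formal.LCLevel Fermat.Agent.S55.Formal.LCLevelH
open Fermat.Agent.S55.Middle.Defs Fermat.Agent.S55.Middle.DivDef Fermat.Agent.S55.Middle.Cap
open Fermat.Agent.S55.Middle.CapDiv Fermat.Agent.S55.Middle.LocOffVal
open Fermat.Agent.S55.Global.Objects Fermat.Agent.S55.Global.Objects2

/-! ### the divisor of a `T`-idele off `S` -/

section DivT

variable {S : Finset Nat.Primes} {P : Subgroup GQ} {𝒱 : NBasis ↥P}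
  (hfine : IsCont (PreludeLC.globalBasis S) 𝒱 P.subtype) (hfin : P.FiniteIndex)
variable {L : Type} [Field L] [NumberField L] (ι : L →+* Qbar) (T : Finset Nat.Primes)
  {F : IntermediateField ℚ Qbar} (hF : F.IsUnramifiedOutside S) (hι : ∀ l : L, ι l ∈ F)

include hF hι in
theorem inQS_of_mem (l : L) : Units.InQS S (ι l) := ⟨F, hF, hι l⟩

/-- the divisor off `S` of `b ∈ (L ⊗[ℚ] ℚ_T)ˣ` -/
def divT (b : (L ⊗[ℚ] QT T)ˣ) : Div 𝒱 (Xoff S) :=
  mkDiv 𝒱 (Xoff S) (valT (S := S) ι T b) (isDiv_valT_sub ι T hF hι P 𝒱 hfine hfin b)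

@[simp] theorem toFun_divT (b : (L ⊗[ℚ] QT T)ˣ) (y : Xoff S) :
    toFun 𝒱 (Xoff S) (divT hfine hfin ι T hF hι b) y = valT (S := S) ι T b y := rfl

theorem divT_mul (b b' : (L ⊗[ℚ] QT T)ˣ) :
    divT hfine hfin ι T hF hι (b * b') =
      divT hfine hfin ι T hF hι b + divT hfine hfin ι T hF hι b' := by
  apply div_ext
  intro y
  rw [toFun_add, toFun_divT, toFun_divT, toFun_divT]
  exact valT_mul ι T (inQS_of_mem ι hF hι) b b' y

theorem divT_one : divT hfine hfin ι T hF hι 1 = 0 := by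
  apply div_ext
  intro y
  rw [toFun_zero, toFun_divT]
  exact valT_one ι T y

/-- equivariance of `divT` -/
theorem divT_smul (g : ↥P) (σ : L ≃ₐ[ℚ] L) (hσ : ∀ l, ι (σ l) = (g : GQ) (ι l))
    (b : (L ⊗[ℚ] QT T)ˣ) :
    divT hfine hfin ι T hF hι (σ • b) = (Div 𝒱 (Xoff S)).ρ g (divT hfine hfin ι T hF hι b) := by
  apply div_ext
  intro y
  rw [toFun_ρ, toFun_divT, toFun_divT]
  exact valT_smul ι T (g : GQ) σ hσ b y

/-- `divT` as an additive map on `JQ L T` -/
def divTAdd : (JQ L T) →+ Div 𝒱 (Xoff S) :=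
  AddMonoidHom.mk' (fun a : JQ L T => divT hfine hfin ι T hF hι (Additive.toMul a))
    (fun a b => divT_mul hfine hfin ι T hF hι (Additive.toMul a) (Additive.toMul b))

@[simp] theorem divTAdd_apply (a : JQ L T) :
    divTAdd hfine hfin ι T hF hι a = divT hfine hfin ι T hF hι (Additive.toMul a) := rfl

end DivT

/-! ### the finite-level model -/

section Level

variable {S : Finset Nat.Primes} {P : Subgroup GQ} {𝒱 : NBasis ↥P}
  (hfine : IsCont (PreludeLC.globalBasis S) 𝒱 P.subtype) (hfin : P.FiniteIndex)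
variable (K : Type) [Field K] [NumberField K] {L : Type} [Field L] [NumberField L] [Algebra K L]
  (ι : L →+* Qbar) (T : Finset Nat.Primes)
  {F : IntermediateField ℚ Qbar} (hF : F.IsUnramifiedOutside S) (hι : ∀ l : L, ι l ∈ F)
variable (V : Subgroup ↥P) [V.Normal] (φ : ↥P ⧸ V →* (L ≃ₐ[K] L))
  (hφ : ∀ (h : ↥P) (l : L), ι (φ (h : ↥P ⧸ V) l) = (h : GQ) (ι l))

theorem φ_of_mem {v : ↥P} (hv : v ∈ V) : φ (v : ↥P ⧸ V) = 1 := by
  rw [(QuotientGroup.eq_one_iff v).2 hv, map_one]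

/-- the element of `ℚ_Sˣ` attached to a unit of `L` -/
def ksOf (u : Lˣ) : KS S :=
  UnitsLES.ofUnitMem (qsSubgroup S) (galStable_qsSubgroup S) (Units.map (ι : L →* Qbar) u)
    ⟨F, hF, hι u⟩

@[simp] theorem ksVal_ksOf (u : Lˣ) : ksVal (ksOf ι hF hι u) = ι (u : L) := rfl

theorem ksOf_mul (u u' : Lˣ) : ksOf ι hF hι (u * u') = ksOf ι hF hι u + ksOf ι hF hι u' := by
  apply ksVal_injective
  rw [ksVal_add, ksVal_ksOf, ksVal_ksOf, ksVal_ksOf, Units.val_mul, map_mul]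

/-- `ksOf` as an additive map -/
def ksOfAdd : Additive Lˣ →+ KS S :=
  AddMonoidHom.mk' (fun a : Additive Lˣ => ksOf ι hF hι (Additive.toMul a))
    (fun a b => ksOf_mul ι hF hι (Additive.toMul a) (Additive.toMul b))

include hφ in
theorem ksOf_smul (g : ↥P) (u : Lˣ) :
    ksOf ι hF hι (φ (g : ↥P ⧸ V) • u) = (KS S).ρ (g : GQ) (ksOf ι hF hι u) := by
  apply ksVal_injective
  rw [ksVal_ρ, ksVal_ksOf, ksVal_ksOf]
  exact hφ g (u : L)

include hφ in
theorem ksOf_fixed {v : ↥P} (hv : v ∈ V) (u : Lˣ) :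
    (KS S).ρ (v : GQ) (ksOf ι hF hι u) = ksOf ι hF hι u := by
  rw [← ksOf_smul K ι hF hι V φ hφ v u, φ_of_mem K V φ hv, one_smul]

/-- `Lˣ → (ℚ_Sˣ)^V`, as a morphism of `P ⧸ V`-modules over `φ` -/
def lxLevel : Rep.res φ (Rep.ofAlgebraAutOnUnits K L) ⟶
    (Rep.res P.subtype (KS S)).quotientToInvariants V :=
  Rep.ofHom (ρ := (Rep.ofAlgebraAutOnUnits K L).ρ.comp φ)
    (σ := (Rep.res P.subtype (KS S)).ρ.quotientToInvariants V)
    ⟨((ksOfAdd ι hF hι).toIntLinearMap).codRestrict _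
        (fun a s => ksOf_fixed K ι hF hι V φ hφ s.2 (Additive.toMul a)),
      fun g => by
        induction g using QuotientGroup.induction_on with
        | H g =>
          ext a
          exact ksOf_smul K ι hF hι V φ hφ g (Additive.toMul a)⟩

@[simp] theorem lxLevel_apply_coe (a : Rep.ofAlgebraAutOnUnits K L) :
    (((lxLevel K ι hF hι V φ hφ).hom a :
        (Rep.res P.subtype (KS S)).quotientToInvariants V).1 : KS S) =
      ksOf ι hF hι (Additive.toMul a) := rfl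

/-! ### the valuation morphism -/

include hφ in
theorem divT_smul_level (g : ↥P) (b : (L ⊗[ℚ] QT T)ˣ) :
    divT hfine hfin ι T hF hι (resHom K L (φ (g : ↥P ⧸ V)) • b) =
      (Div 𝒱 (Xoff S)).ρ g (divT hfine hfin ι T hF hι b) :=
  divT_smul hfine hfin ι T hF hι g (resHom K L (φ (g : ↥P ⧸ V))) (fun l => hφ g l) b

include hφ in
theorem divT_fixed {v : ↥P} (hv : v ∈ V) (b : (L ⊗[ℚ] QT T)ˣ) :
    (Div 𝒱 (Xoff S)).ρ v (divT hfine hfin ι T hF hι b) = divT hfine hfin ι T hF hι b := by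
  rw [← divT_smul_level hfine hfin K ι T hF hι V φ hφ v b, φ_of_mem K V φ hv, map_one, one_smul]

/-- `Jn K L T → (Div)^V`, as a morphism of `P ⧸ V`-modules over `φ` -/
def valRep : Rep.res φ (Jn K L T) ⟶ (Div 𝒱 (Xoff S)).quotientToInvariants V :=
  Rep.ofHom (ρ := (Jn K L T).ρ.comp φ)
    (σ := (Div 𝒱 (Xoff S)).ρ.quotientToInvariants V)
    ⟨((divTAdd hfine hfin ι T hF hι).toIntLinearMap).codRestrict _
        (fun a s => divT_fixed hfine hfin K ι T hF hι V φ hφ s.2 (Additive.toMul a)),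
      fun g => by
        induction g using QuotientGroup.induction_on with
        | H g =>
          refine LinearMap.ext fun a => Subtype.ext ?_
          exact divT_smul_level hfine hfin K ι T hF hι V φ hφ g (Additive.toMul a)⟩

@[simp] theorem valRep_apply_coe (a : Jn K L T) :
    (((valRep hfine hfin K ι T hF hι V φ hφ).hom a :
        (Div 𝒱 (Xoff S)).quotientToInvariants V).1 : Div 𝒱 (Xoff S)) =
      divT hfine hfin ι T hF hι (Additive.toMul a) := rfl

/-! ### the `T`-unit computation -/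

/-- a `T`-unit has trivial valuation at the places of `ℚ̄` over primes outside `T` -/
theorem ordAt_eq_zero_of_mem_EUnitsQ {u : Lˣ} (hu : u ∈ EUnitsQ L T) (y : Xoff S)
    (hy : y.prime ∉ T) : ordAt y.ring (y.prime : ℕ) (ι (u : L)) = 0 := by
  have h1 : u ∈ (SUnitDict.placesAbove L T).unit L := EUnitsQ_le T hu
  have h2 := (SUnitDict.isSUnitAt_iff_mem_and_inv_mem ι T u).1
    ((SUnitDict.isSUnitAt_iff ι T u).2 h1) y.prime hy y.ring y.liesOver
  exact ordAt_eq y.prime.2.ne_zero y.liesOver ((map_ne_zero ι).2 u.ne_zero)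
    ((hasOrd_zero_iff _ _ _).2 h2)

/-- on `T`-units, the divisor of `u ⊗ 1` is the divisor of `ι u` -/
theorem divT_inclUnits_of_mem {u : Lˣ} (hu : u ∈ EUnitsQ L T) :
    divT hfine hfin ι T hF hι (inclUnits ℚ L (QT T) u) = divOf hfine hfin (ksOf ι hF hι u) := by
  apply div_ext
  intro y
  rw [toFun_divT, toFun_divOf, ksVal_ksOf, valT_inclUnits ι T (inQS_of_mem ι hF hι) u y]
  split_ifs with h
  · rfl
  · exact (ordAt_eq_zero_of_mem_EUnitsQ ι T hu y h).symm

/-! ### the maps on cohomology -/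

variable [Finite (↥P ⧸ V)] (hV : 𝒱.mem V)

/-- `H²(Gal(L/K), Lˣ) → H²_LC(P; ℚ_Sˣ)` : transport along `φ`, then the level map `ι₂` -/
def inflL : groupCohomology (Rep.ofAlgebraAutOnUnits K L) 2 →+
    H2 𝒱 (Rep.res P.subtype (KS S)) :=
  (ι₂ 𝒱 (Rep.res P.subtype (KS S)) V hV).toAddMonoidHom.comp
    (groupCohomology.map φ (lxLevel K ι hF hι V φ hφ) 2).hom.toAddMonoidHom

/-- **`jB`** : `H²(Gal(L/K), (L ⊗[ℚ] ℚ_T)ˣ) → H²_LC(P; Div)` -/
def jB : groupCohomology (Jn K L T) 2 →+ H2 𝒱 (Div 𝒱 (Xoff S)) :=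
  (ι₂ 𝒱 (Div 𝒱 (Xoff S)) V hV).toAddMonoidHom.comp
    (groupCohomology.map φ (valRep hfine hfin K ι T hF hι V φ hφ) 2).hom.toAddMonoidHom

theorem inflL_π (f : cocycles₂ (Rep.ofAlgebraAutOnUnits K L)) :
    inflL K ι hF hι V φ hφ hV (H2π _ f) =
      ι₂ 𝒱 (Rep.res P.subtype (KS S)) V hV
        (H2π _ (mapCocycles₂ (A := Rep.ofAlgebraAutOnUnits K L)
          (B := (Rep.res P.subtype (KS S)).quotientToInvariants V) φ
          (lxLevel K ι hF hι V φ hφ) f)) := by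
  show ι₂ 𝒱 (Rep.res P.subtype (KS S)) V hV
      ((groupCohomology.map φ (lxLevel K ι hF hι V φ hφ) 2).hom (H2π _ f)) = _
  rw [H2π_comp_map_apply (A := Rep.ofAlgebraAutOnUnits K L)
    (B := (Rep.res P.subtype (KS S)).quotientToInvariants V)]

theorem jB_π (f : cocycles₂ (Jn K L T)) :
    jB hfine hfin K ι T hF hι V φ hφ hV (H2π _ f) =
      ι₂ 𝒱 (Div 𝒱 (Xoff S)) V hV
        (H2π _ (mapCocycles₂ (A := Jn K L T)
          (B := (Div 𝒱 (Xoff S)).quotientToInvariants V) φ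
          (valRep hfine hfin K ι T hF hι V φ hφ) f)) := by
  show ι₂ 𝒱 (Div 𝒱 (Xoff S)) V hV
      ((groupCohomology.map φ (valRep hfine hfin K ι T hF hι V φ hφ) 2).hom (H2π _ f)) = _
  rw [H2π_comp_map_apply (A := Jn K L T)
    (B := (Div 𝒱 (Xoff S)).quotientToInvariants V)]

/-! ### compatibility `off ∘ infl = jB ∘ (Lˣ → J)` on `T`-unit classes -/

/-- **(hcB), cocycle form.**  For a 2-cocycle `f` of `Gal(L/K)` with values in the `T`-units of `L`:
`off (inflL [f]) = jB T (LxToJn_* [f])`. -/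
theorem off_inflL_of_isTUnit (f : cocycles₂ (Rep.ofAlgebraAutOnUnits K L))
    (hf : ∀ g h : L ≃ₐ[K] L, (Additive.toMul (f (g, h)) : Lˣ) ∈ EUnitsQ L T) :
    (Mor.ofHom 𝒱 (divMap hfine hfin)).h2 (inflL K ι hF hι V φ hφ hV (H2π _ f)) =
      jB hfine hfin K ι T hF hι V φ hφ hV
        ((groupCohomology.map (MonoidHom.id (L ≃ₐ[K] L)) (HasseH2.LxToJn K L T) 2).hom
          (H2π _ f)) := by
  have e1 : (groupCohomology.map (MonoidHom.id (L ≃ₐ[K] L)) (HasseH2.LxToJn K L T) 2).hom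
      (H2π _ f) = H2π _ (mapCocycles₂ (A := Rep.ofAlgebraAutOnUnits K L) (B := Jn K L T)
        (MonoidHom.id (L ≃ₐ[K] L)) (HasseH2.LxToJn K L T) f) :=
    H2π_comp_map_apply (A := Rep.ofAlgebraAutOnUnits K L) (B := Jn K L T)
      (MonoidHom.id (L ≃ₐ[K] L)) (HasseH2.LxToJn K L T) f
  have e2 := jB_π hfine hfin K ι T hF hι V φ hφ hV
    (mapCocycles₂ (A := Rep.ofAlgebraAutOnUnits K L) (B := Jn K L T)
        (MonoidHom.id (L ≃ₐ[K] L)) (HasseH2.LxToJn K L T) f)
  have e3 := inflL_π K ι hF hι V φ hφ hV f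
  refine ((congrArg (Mor.ofHom 𝒱 (divMap hfine hfin)).h2 e3).trans ?_).trans
    ((congrArg (jB hfine hfin K ι T hF hι V φ hφ hV) e1).trans e2).symm
  refine (DivLevel.ofHom_h2_ι₂ V hV (divMap hfine hfin) _).trans ?_
  refine congrArg (ι₂ 𝒱 (Div 𝒱 (Xoff S)) V hV)
    ((DivLevel.levelH2_π V (divMap hfine hfin) _).trans ?_)
  congr 1
  apply Subtype.ext
  funext ⟨g, h⟩
  apply Subtype.ext
  induction g using QuotientGroup.induction_on with
  | H g =>
    induction h using QuotientGroup.induction_on with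
    | H h =>
      exact (divT_inclUnits_of_mem hfine hfin ι T hF hι
        (hf (φ (g : ↥P ⧸ V)) (φ (h : ↥P ⧸ V)))).symm

/-- **(hcB), class form** for `T`-unit classes in the sense of `HbnCoker`. -/
theorem off_inflL_of_isTUnitClass (z : groupCohomology (Rep.ofAlgebraAutOnUnits K L) 2)
    (hz : HbnCoker.IsTUnitClass K L T z) :
    (Mor.ofHom 𝒱 (divMap hfine hfin)).h2 (inflL K ι hF hι V φ hφ hV z) =
      jB hfine hfin K ι T hF hι V φ hφ hV
        ((groupCohomology.map (MonoidHom.id (L ≃ₐ[K] L)) (HasseH2.LxToJn K L T) 2).hom z) := by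
  obtain ⟨f, rfl, hf⟩ := hz
  exact off_inflL_of_isTUnit hfine hfin K ι T hF hι V φ hφ hV f hf

/-- **(hcB) for `H2L := H²(Gal(L/K), En K L T)`** : with `infl := inflL ∘ (En → Lˣ)_*` and
`(locL, offL) := (En → Jn)_*`. -/
theorem off_inflL_EntoLxn (hT : T.Nonempty) (y : groupCohomology (En K L T) 2) :
    (Mor.ofHom 𝒱 (divMap hfine hfin)).h2 (inflL K ι hF hι V φ hφ hV
        ((groupCohomology.map (MonoidHom.id (L ≃ₐ[K] L)) (UnitsToL.EntoLxn K L T hT) 2).hom y)) =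
      jB hfine hfin K ι T hF hι V φ hφ hV
        ((groupCohomology.map (A := En K L T) (MonoidHom.id (L ≃ₐ[K] L))
          (HbnInjQ.EntoJn K L T) 2).hom y) := by
  induction y using H2_induction_on with
  | h f' =>
    have e1 : (groupCohomology.map (MonoidHom.id (L ≃ₐ[K] L)) (UnitsToL.EntoLxn K L T hT) 2).hom
        (H2π _ f') = H2π _ (mapCocycles₂ (A := En K L T) (B := Rep.ofAlgebraAutOnUnits K L)
          (MonoidHom.id (L ≃ₐ[K] L)) (UnitsToL.EntoLxn K L T hT) f') :=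
      H2π_comp_map_apply (A := En K L T) (B := Rep.ofAlgebraAutOnUnits K L)
        (MonoidHom.id (L ≃ₐ[K] L)) (UnitsToL.EntoLxn K L T hT) f'
    have e2 : (groupCohomology.map (A := En K L T) (MonoidHom.id (L ≃ₐ[K] L))
        (HbnInjQ.EntoJn K L T) 2).hom (H2π _ f') =
        H2π _ (mapCocycles₂ (A := En K L T) (B := Jn K L T)
          (MonoidHom.id (L ≃ₐ[K] L)) (HbnInjQ.EntoJn K L T) f') :=
      H2π_comp_map_apply (A := En K L T) (B := Jn K L T)
        (MonoidHom.id (L ≃ₐ[K] L)) (HbnInjQ.EntoJn K L T) f'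
    set f : cocycles₂ (Rep.ofAlgebraAutOnUnits K L) :=
      mapCocycles₂ (A := En K L T) (B := Rep.ofAlgebraAutOnUnits K L)
          (MonoidHom.id (L ≃ₐ[K] L)) (UnitsToL.EntoLxn K L T hT) f' with hfdef
    have hf : ∀ g h : L ≃ₐ[K] L, (Additive.toMul (f (g, h)) : Lˣ) ∈ EUnitsQ L T := fun g h =>
      UnitsToL.unitOf_mem L T (f' (g, h))
    have e3 := off_inflL_of_isTUnit hfine hfin K ι T hF hι V φ hφ hV f hf
    have e4 : (groupCohomology.map (MonoidHom.id (L ≃ₐ[K] L)) (HasseH2.LxToJn K L T) 2).hom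
        (H2π _ f) = H2π _ (mapCocycles₂ (A := Rep.ofAlgebraAutOnUnits K L) (B := Jn K L T)
          (MonoidHom.id (L ≃ₐ[K] L)) (HasseH2.LxToJn K L T) f) :=
      H2π_comp_map_apply (A := Rep.ofAlgebraAutOnUnits K L) (B := Jn K L T)
        (MonoidHom.id (L ≃ₐ[K] L)) (HasseH2.LxToJn K L T) f
    have e5 : mapCocycles₂ (A := Rep.ofAlgebraAutOnUnits K L) (B := Jn K L T)
          (MonoidHom.id (L ≃ₐ[K] L)) (HasseH2.LxToJn K L T) f =
        mapCocycles₂ (A := En K L T) (B := Jn K L T)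
          (MonoidHom.id (L ≃ₐ[K] L)) (HbnInjQ.EntoJn K L T) f' := by
      apply Subtype.ext
      funext ⟨g, h⟩
      exact congrArg Additive.ofMul (UnitsToL.inclUnits_unitOf L T (f' (g, h)))
    refine ((congrArg (fun w => (Mor.ofHom 𝒱 (divMap hfine hfin)).h2
      (inflL K ι hF hι V φ hφ hV w)) e1).trans e3).trans ?_
    refine congrArg (jB hfine hfin K ι T hF hι V φ hφ hV) ?_
    rw [e4, e5, e2]

end Level


end

end Fermat.Agent.S55.Middle.LocOff
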