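/-
S55 / Middle layer (helper67, requested by helper99 #2312): the Galois dictionary `cohIsoExt` is
`LocOff`'s finite-level model.

For `H ≤ GQ`, `L/ℚ` finite Galois unramified outside `S` with `Gal(ℚ̄/L) ≤ H`, `K = K₀ H`,
`L' = Lext H L hKL`: the data `(K, L', ιL := algebraMap L' ℚ̄, F := L, V := lvl H L,
φ₀ := (pairExt ..).e, hφ₀)` is a finite-level model in the sense of `Middle/LocOff.lean`, and

* `cohIsoExt_inv_eq n` : `(cohIsoExt S H L hKL hL hle n).inv = Hⁿ(φ₀, LocOff.lxLevel)`;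
* `ι₂_cohIsoExt_inv`   : `ι₂ 𝒱 (KSH S H) (lvl H L) hV ((cohIsoExt ..).inv y) = LocOff.inflL .. y`
  (any basis `𝒱` of `↥H` with `lvl H L` as a level);
* `exists_inflL_eq`, `exists_inflL_eq_OS` : `GaloisDictModel.exists_finite_level_H2_ι` and
  `OSDict.exists_finite_level_H2_OS` in `LocOff.inflL` form (so that `LocOff.off_inflL_EntoLxn`
  applies literally).
-/
import Fermat.Agent.S55.Middle.LocOff
import Fermat.Agent.S55.Middle.GaloisDictTrans

set_option autoImplicit false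
set_option linter.unusedSectionVars false
set_option linter.style.haveILetI false

open CategoryTheory groupCohomology

namespace Fermat.Agent.S55.Middle.LocOffDict

noncomputable section

open Fermat.Agent.S55.Formal Fermat.Agent.S55.Formal.PreludeLC Fermat.Agent.S55.Middle.Defs
open Fermat.Agent.S55.Middle.Dict Fermat.Agent.S55.Middle.GaloisDict
open Fermat.Agent.S55.Middle.GaloisDictModel Fermat.Agent.S55.Middle.OSDict
open Fermat.Agent.S55.Middle.GaloisDictTrans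
open Fermat.Agent.S55.Coh.PairEquiv
open Fermat.Agent.S55.Formal.LCLevelH

variable (S : Finset Nat.Primes) (H : Subgroup Defs.GQ) (L : IntermediateField ℚ Defs.Qbar)
  [Normal ℚ L] (hKL : K₀ H ≤ L) (hL : L.IsUnramifiedOutside S) (hle : L.fixingSubgroup ≤ H)

/-- the embedding `L' → ℚ̄` -/
abbrev ιL : ↥(Lext H L hKL) →+* Defs.Qbar := algebraMap ↥(Lext H L hKL) Defs.Qbar

lemma ιL_mem (l : ↥(Lext H L hKL)) : ιL H L hKL l ∈ L := l.2

/-- the group homomorphism `↥H ⧸ V →* Gal(L'/K)` of the dictionary -/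
abbrev φ₀ : ↥H ⧸ lvl H L →* (↥(Lext H L hKL) ≃ₐ[↥(K₀ H)] ↥(Lext H L hKL)) :=
  ((pairExt S H L hKL hL hle).e : ↥H ⧸ lvl H L →* _)

lemma hφ₀ (h : ↥H) (l : ↥(Lext H L hKL)) :
    ιL H L hKL (φ₀ S H L hKL hL hle (h : ↥H ⧸ lvl H L) l) = (h : Defs.GQ) (ιL H L hKL l) :=
  pairExt_e_apply_coe S H L hKL hL hle h l

variable [NumberField ↥(K₀ H)] [NumberField ↥(Lext H L hKL)]

/-- `pairExt.φ` inverts `LocOff.lxLevel` -/
lemma pairExt_φ_lxLevel (a : Additive (↥(Lext H L hKL))ˣ) :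
    (pairExt S H L hKL hL hle).φ
      ((LocOff.lxLevel ↥(K₀ H) (ιL H L hKL) hL (ιL_mem H L hKL) (lvl H L)
        (φ₀ S H L hKL hL hle) (hφ₀ S H L hKL hL hle)).hom a) = a := by
  rw [pairExt_φ_eq]
  apply Additive.toMul.injective
  apply Units.ext
  apply Subtype.ext
  have h1 := congrArg (fun u : Defs.Qbarˣ => (u : Defs.Qbar))
    (extUnit_coe S H L hKL hL hle
      ((LocOff.lxLevel ↥(K₀ H) (ιL H L hKL) hL (ιL_mem H L hKL) (lvl H L)
        (φ₀ S H L hKL hL hle) (hφ₀ S H L hKL hL hle)).hom a))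
  exact h1

/-- **The inverse of the Galois dictionary is `LocOff`'s level map** (every degree). -/
theorem cohIsoExt_inv_eq (n : ℕ) :
    (cohIsoExt S H L hKL hL hle n).inv =
      groupCohomology.map (φ₀ S H L hKL hL hle)
        (LocOff.lxLevel ↥(K₀ H) (ιL H L hKL) hL (ιL_mem H L hKL) (lvl H L)
          (φ₀ S H L hKL hL hle) (hφ₀ S H L hKL hL hle)) n := by
  symm
  rw [← Iso.comp_hom_eq_id, cohIsoExt_hom, cohomologyIso_hom, ← groupCohomology.map_comp,
    ← groupCohomology.map_id]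
  refine groupCohomology.map_congr ?_ ?_ n
  · ext τ : 1
    exact MulEquiv.apply_symm_apply (pairExt S H L hKL hL hle).e τ
  · ext a
    exact pairExt_φ_lxLevel S H L hKL hL hle a

/-- element form in degree `2` -/
theorem cohIsoExt_inv_apply (y : groupCohomology (Rep.ofAlgebraAutOnUnits ↥(K₀ H) ↥(Lext H L hKL)) 2) :
    (cohIsoExt S H L hKL hL hle 2).inv.hom y =
      (groupCohomology.map (φ₀ S H L hKL hL hle)
        (LocOff.lxLevel ↥(K₀ H) (ιL H L hKL) hL (ιL_mem H L hKL) (lvl H L)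
          (φ₀ S H L hKL hL hle) (hφ₀ S H L hKL hL hle)) 2).hom y := by
  rw [cohIsoExt_inv_eq]

/-- **`ι₂ ∘ cohIsoExt⁻¹ = LocOff.inflL`**, for any basis `𝒱` of `↥H` having `lvl H L` as a level. -/
theorem ι₂_cohIsoExt_inv {𝒱 : NBasis ↥H} [Finite (↥H ⧸ lvl H L)] (hV : 𝒱.mem (lvl H L))
    (y : groupCohomology (Rep.ofAlgebraAutOnUnits ↥(K₀ H) ↥(Lext H L hKL)) 2) :
    ι₂ 𝒱 (KSH S H) (lvl H L) hV ((cohIsoExt S H L hKL hL hle 2).inv.hom y) =
      LocOff.inflL ↥(K₀ H) (ιL H L hKL) hL (ιL_mem H L hKL) (lvl H L)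
        (φ₀ S H L hKL hL hle) (hφ₀ S H L hKL hL hle) hV y := by
  rw [cohIsoExt_inv_apply]
  rfl

section Classes

open Fermat.Agent.S55.Global.Objects Fermat.Agent.S55.Global.Objects2
open Fermat.Agent.S55.Middle.UnitsToL

variable {S} {H}

/-- `GaloisDictModel.exists_finite_level_H2_ι` in `LocOff.inflL` form. -/
theorem exists_inflL_eq (hH : IsOpenSub (globalBasis S) H)
    (x : H2 (NBasis.sub (globalBasis S) H) (KSH S H)) (n : ℕ) (hx : n • x = 0) :
    ∃ (L : IntermediateField ℚ Defs.Qbar) (_ : Normal ℚ L) (hL : L.IsUnramifiedOutside S)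
      (hle : L.fixingSubgroup ≤ H) (hKL : K₀ H ≤ L)
      (hV : (NBasis.sub (globalBasis S) H).mem (lvl H L)) (_ : Finite (↥H ⧸ lvl H L))
      (_ : NumberField ↥(K₀ H)) (_ : NumberField ↥(Lext H L hKL))
      (y : groupCohomology (Rep.ofAlgebraAutOnUnits ↥(K₀ H) ↥(Lext H L hKL)) 2), n • y = 0 ∧
      x = LocOff.inflL ↥(K₀ H) (ιL H L hKL) hL (ιL_mem H L hKL) (lvl H L)
        (φ₀ S H L hKL hL hle) (hφ₀ S H L hKL hL hle) hV y := by
  obtain ⟨L, hN, hL, hle, hKL, hV, hfin, y, hy, rfl⟩ := exists_finite_level_H2_ι hH x n hx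
  haveI := hN
  haveI hK : NumberField ↥(K₀ H) := numberField_K₀ hH
  haveI hL' : NumberField ↥(Lext H L hKL) := numberField_Lext L hKL hL
  exact ⟨L, hN, hL, hle, hKL, hV, hfin, hK, hL', y, hy,
    ι₂_cohIsoExt_inv S H L hKL hL hle hV y⟩

/-- `OSDict.exists_finite_level_H2_OS` in `LocOff.inflL` form: the image in `H²_LC(H; ℚ_Sˣ)` of a
class of `H²_LC(H; O_S)` killed by `n` is `inflL` of the image of a class of
`H²(Gal(L'/K), E_{L',S})` killed by `n`. -/
theorem exists_inflL_eq_OS (hH : IsOpenSub (globalBasis S) H) (hS : S.Nonempty)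
    (x : H2 (NBasis.sub (globalBasis S) H) (OSH S H)) (n : ℕ) (hx : n • x = 0) :
    ∃ (L : IntermediateField ℚ Defs.Qbar) (_ : Normal ℚ L) (hL : L.IsUnramifiedOutside S)
      (hle : L.fixingSubgroup ≤ H) (hKL : K₀ H ≤ L)
      (hV : (NBasis.sub (globalBasis S) H).mem (lvl H L)) (_ : Finite (↥H ⧸ lvl H L))
      (_ : NumberField ↥(K₀ H)) (_ : NumberField ↥(Lext H L hKL))
      (e : groupCohomology (En ↥(K₀ H) ↥(Lext H L hKL) S) 2), n • e = 0 ∧
      (osMor S H).h2 x = LocOff.inflL ↥(K₀ H) (ιL H L hKL) hL (ιL_mem H L hKL) (lvl H L)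
        (φ₀ S H L hKL hL hle) (hφ₀ S H L hKL hL hle) hV
        ((groupCohomology.map (MonoidHom.id (↥(Lext H L hKL) ≃ₐ[↥(K₀ H)] ↥(Lext H L hKL)))
            (EntoLxn ↥(K₀ H) ↥(Lext H L hKL) S hS) 2).hom e) := by
  obtain ⟨L, hN, hL, hle, hKL, hV, hfin, hK, hL', e, he, hx'⟩ :=
    exists_finite_level_H2_OS hH hS x n hx
  haveI := hN
  refine ⟨L, hN, hL, hle, hKL, hV, hfin, hK, hL', e, he, ?_⟩
  rw [hx']
  exact ι₂_cohIsoExt_inv S H L hKL hL hle hV _

end Classes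

end

end Fermat.Agent.S55.Middle.LocOffDict
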