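/-
S55 / Middle / ROW (LOC-off), part 4 (helper99): `jB` only sees the components off `S`.

* `valT_congr` : `valT ι T b` depends only on the components of `b` at the primes `q ∈ T ∖ S`;
* `valT_sec_of_mem` : the section of a component at `q ∈ T ∩ S` has trivial divisor off `S`;
* `jB_secQ_of_mem` : `jB ∘ (secQ q)_* = 0` for `q ∈ T ∩ S`;
* `jB_eq_sum` : `jB a = ∑_{q ∈ T} jB (secQ_* (projQ_* a))`;
* `jB_eq_zero_of_proj` : `jB a = 0` as soon as the components of `a` at all `q ∈ T ∖ S` vanish;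
* `jB_eq_of_proj` : `jB a = jB a'` if `a`, `a'` have the same components at all `q ∈ T ∖ S`.
-/
import Mathlib
import Fermat.Agent.S55.Middle.LocOff
import Fermat.Agent.S55.Global.LocalProdT

set_option autoImplicit false
set_option linter.unusedSectionVars false
set_option linter.style.haveILetI false

open scoped TensorProduct Pointwise
open CategoryTheory groupCohomology

namespace Fermat.Agent.S55.Middle.LocOffSupp

noncomputable section

open Fermat.Agent.S55.Formal Fermat.Agent.S55.Formal.LCLevel Fermat.Agent.S55.Formal.LCLevelH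
open Fermat.Agent.S55.Middle.Defs Fermat.Agent.S55.Middle.DivDef Fermat.Agent.S55.Middle.Cap
open Fermat.Agent.S55.Middle.CapDiv Fermat.Agent.S55.Middle.LocOffVal
open Fermat.Agent.S55.Middle.LocOffNorm Fermat.Agent.S55.Middle.LocOff
open Fermat.Agent.S55.Global.Objects Fermat.Agent.S55.Global.Objects2
open Fermat.Agent.S55.Global Fermat.Agent.S55.Global.LocalProdT

section Val

variable {S : Finset Nat.Primes} {L : Type} [Field L] [NumberField L] (ι : L →+* Qbar)
  (T : Finset Nat.Primes)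

/-- `valT` depends only on the components at the primes of `T ∖ S` -/
theorem valT_congr {b b' : (L ⊗[ℚ] QT T)ˣ}
    (h : ∀ (q : Nat.Primes) (hq : q ∈ T), q ∉ S →
      projT (L := L) T q hq (b : L ⊗[ℚ] QT T) = projT (L := L) T q hq (b' : L ⊗[ℚ] QT T))
    (y : Xoff S) : valT (S := S) ι T b y = valT (S := S) ι T b' y := by
  by_cases hy : y.prime ∈ T
  · unfold valT
    rw [dif_pos hy, dif_pos hy]
    unfold locAt
    rw [h y.prime hy y.prime_notMem]
  · rw [valT_of_notMem ι T b y hy, valT_of_notMem ι T b' y hy]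

theorem projT_eq_evalQ (q : Nat.Primes) (hq : q ∈ T) (b : L ⊗[ℚ] QT T) :
    projT (L := L) T q hq b = evalQ L T ⟨q, hq⟩ b := rfl

/-- the section of a component at `q ∈ T ∩ S` has trivial divisor off `S` -/
theorem valT_sec_of_mem (q : T) (hqS : (q : Nat.Primes) ∈ S) (c : (Bq L T q)ˣ) (y : Xoff S) :
    valT (S := S) ι T ((isProdDecomp_evalQ L T).sec q c) y = 0 := by
  rw [← valT_one (S := S) ι T y]
  refine valT_congr ι T (fun q' hq' hq'S => ?_) y
  have hne : q ≠ ⟨q', hq'⟩ := by
    intro h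
    apply hq'S
    have : (q : Nat.Primes) = q' := congrArg Subtype.val h
    rw [← this]
    exact hqS
  have h1 := (isProdDecomp_evalQ L T).map_sec_of_ne hne c
  have h2 := congrArg (fun u : (Bq L T ⟨q', hq'⟩)ˣ => (u : Bq L T ⟨q', hq'⟩)) h1
  rw [projT_eq_evalQ, projT_eq_evalQ]
  simp only [Units.coe_map, Units.val_one] at h2
  rw [Units.val_one, map_one]
  exact h2

end Val

section Level

variable {S : Finset Nat.Primes} {P : Subgroup GQ} {𝒱 : NBasis ↥P}
  (hfine : IsCont (PreludeLC.globalBasis S) 𝒱 P.subtype) (hfin : P.FiniteIndex)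
variable (K : Type) [Field K] [NumberField K] {L : Type} [Field L] [NumberField L] [Algebra K L]
  (ι : L →+* Qbar) (T : Finset Nat.Primes)
  {F : IntermediateField ℚ Qbar} (hF : F.IsUnramifiedOutside S) (hι : ∀ l : L, ι l ∈ F)
variable (V : Subgroup ↥P) [V.Normal] (φ : ↥P ⧸ V →* (L ≃ₐ[K] L))
  (hφ : ∀ (h : ↥P) (l : L), ι (φ (h : ↥P ⧸ V) l) = (h : GQ) (ι l))

/-- `valRep ∘ secQ q = 0` for `q ∈ T ∩ S` -/
theorem valRep_secQ_of_mem (q : T) (hqS : (q : Nat.Primes) ∈ S) (c : Jq K L q) :
    (valRep hfine hfin K ι T hF hι V φ hφ).hom ((secQ K L T q).hom c) = 0 := by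
  apply Subtype.ext
  apply div_ext
  intro y
  rw [valRep_apply_coe, toFun_divT]
  exact valT_sec_of_mem ι T q hqS (Additive.toMul c) y

variable [Finite (↥P ⧸ V)] (hV : 𝒱.mem V)

/-- `jB ∘ (secQ q)_* = 0` for `q ∈ T ∩ S` -/
theorem jB_secQ_of_mem (q : T) (hqS : (q : Nat.Primes) ∈ S) (x : groupCohomology (Jq K L q) 2) :
    jB hfine hfin K ι T hF hι V φ hφ hV
      ((groupCohomology.map (MonoidHom.id (L ≃ₐ[K] L)) (secQ K L T q) 2).hom x) = 0 := by
  induction x using H2_induction_on with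
  | h f =>
    have e1 : (groupCohomology.map (MonoidHom.id (L ≃ₐ[K] L)) (secQ K L T q) 2).hom (H2π _ f) =
        H2π _ (mapCocycles₂ (A := Jq K L q) (B := Jn K L T)
          (MonoidHom.id (L ≃ₐ[K] L)) (secQ K L T q) f) :=
      H2π_comp_map_apply (A := Jq K L q) (B := Jn K L T)
        (MonoidHom.id (L ≃ₐ[K] L)) (secQ K L T q) f
    have e2 := jB_π hfine hfin K ι T hF hι V φ hφ hV
      (mapCocycles₂ (A := Jq K L q) (B := Jn K L T)
        (MonoidHom.id (L ≃ₐ[K] L)) (secQ K L T q) f)
    refine ((congrArg (jB hfine hfin K ι T hF hι V φ hφ hV) e1).trans e2).trans ?_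
    have e3 : mapCocycles₂ (A := Jn K L T) (B := (Div 𝒱 (Xoff S)).quotientToInvariants V) φ
        (valRep hfine hfin K ι T hF hι V φ hφ)
        (mapCocycles₂ (A := Jq K L q) (B := Jn K L T)
          (MonoidHom.id (L ≃ₐ[K] L)) (secQ K L T q) f) = 0 := by
      apply Subtype.ext
      funext ⟨g, h⟩
      exact valRep_secQ_of_mem hfine hfin K ι T hF hι V φ hφ q hqS _
    rw [e3, map_zero, map_zero]

/-- decomposition of a class of `H²(Jn K L T)` into its components -/
theorem eq_sum_secQ_projQ (a : groupCohomology (Jn K L T) 2) :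
    a = ∑ q : T, (groupCohomology.map (MonoidHom.id (L ≃ₐ[K] L)) (secQ K L T q) 2).hom
      ((groupCohomology.map (MonoidHom.id (L ≃ₐ[K] L)) (projQ K L T q) 2).hom a) := by
  have key := congrArg
    (fun f : groupCohomology (Jn K L T) 2 ⟶ groupCohomology (Jn K L T) 2 => f.hom a)
    (LocalProdAbs.map_id_eq_sum (projQ K L T) (secQ K L T) (sum_projQ_secQ K L T) 2)
  simp only [ModuleCat.hom_id, LinearMap.id_coe, id_eq, ModuleCat.hom_sum, LinearMap.sum_apply,
    ModuleCat.hom_comp, LinearMap.comp_apply] at key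
  exact key

/-- `jB` is the sum of its restrictions to the components -/
theorem jB_eq_sum (a : groupCohomology (Jn K L T) 2) :
    jB hfine hfin K ι T hF hι V φ hφ hV a =
      ∑ q : T, jB hfine hfin K ι T hF hι V φ hφ hV
        ((groupCohomology.map (MonoidHom.id (L ≃ₐ[K] L)) (secQ K L T q) 2).hom
          ((groupCohomology.map (MonoidHom.id (L ≃ₐ[K] L)) (projQ K L T q) 2).hom a)) := by
  conv_lhs => rw [eq_sum_secQ_projQ K T a]
  rw [map_sum]

/-- **`jB` only sees the components off `S`.** -/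
theorem jB_eq_zero_of_proj (a : groupCohomology (Jn K L T) 2)
    (h : ∀ q : T, (q : Nat.Primes) ∉ S →
      (groupCohomology.map (MonoidHom.id (L ≃ₐ[K] L)) (projQ K L T q) 2).hom a = 0) :
    jB hfine hfin K ι T hF hι V φ hφ hV a = 0 := by
  rw [jB_eq_sum]
  refine Finset.sum_eq_zero fun q _ => ?_
  by_cases hq : (q : Nat.Primes) ∈ S
  · exact jB_secQ_of_mem hfine hfin K ι T hF hι V φ hφ hV q hq _
  · rw [h q hq, map_zero, map_zero]

theorem jB_eq_of_proj (a a' : groupCohomology (Jn K L T) 2)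
    (h : ∀ q : T, (q : Nat.Primes) ∉ S →
      (groupCohomology.map (MonoidHom.id (L ≃ₐ[K] L)) (projQ K L T q) 2).hom a =
        (groupCohomology.map (MonoidHom.id (L ≃ₐ[K] L)) (projQ K L T q) 2).hom a') :
    jB hfine hfin K ι T hF hι V φ hφ hV a = jB hfine hfin K ι T hF hι V φ hφ hV a' := by
  rw [← sub_eq_zero, ← map_sub]
  refine jB_eq_zero_of_proj hfine hfin K ι T hF hι V φ hφ hV _ fun q hq => ?_
  rw [map_sub, h q hq, sub_self]

end Level

end

end Fermat.Agent.S55.Middle.LocOffSupp
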