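/-
S55 / Middle / ROW (LOC-off), FORWARD half for the REAL objects (helper13): `hoff₁` of
`Middle/ImageFamRel.lean` = the forward half of `ltoff_iff` of the (C4) wrapper:

  a class `y ∈ H²(Gal(L/K), Lˣ)` all of whose localisations at the places above the primes `q ∉ S`
  vanish gives a class of `H²_LC(P; ℚ_Sˣ)` which is locally trivial off `S`
  (`off (infl y) = 0`, `CapLToff.LToff`).

* `map_LxToJA_QT_eq_zero`, `map_LxToJA_q_eq_zero` : the image of `y` in `H²(G, (L ⊗[ℚ] ℚ_T)ˣ)`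
  (resp. in `H²(G, (L ⊗[ℚ] ℚ_q)ˣ)`) vanishes when all localisations of `y` above `T` (resp. `q`) do;
* `off_inflL_eq_zero` : ABSTRACT setting of `Middle/LocOff.lean` (`T` is chosen AFTER `y`,
  `HbnCoker.exists_finset_isTUnitClass`; `hcB = LocOff.off_inflL_of_isTUnitClass`;
  `LocOffSupp.jB_eq_zero_of_proj`);
* `ltoff_ι₂_cohIsoExt_inv` : the Galois dictionary `cohIsoExt` (any basis `𝒱` of `↥H` having
  `lvl H L` as a level), `CapLToff.LToff` form;
* `ltoff_of_suppIn`, `off_eq_zero_of_suppIn` : `KSite` language (`basisP S H`, `resP H (KS S)`),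
  hypothesis `ImageFiniteCore.SuppIn S (locFam y)`; conclusions `CapLToff.LToff` and `H3OInst.off`;
* `inflHom`, `hoff₁` : the literal shape of the hypothesis `hoff₁` of `Middle/ImageFamRel.lean`.
-/
import Mathlib
import Fermat.Agent.S55.Middle.LocOffSupp
import Fermat.Agent.S55.Middle.LocOffDict
import Fermat.Agent.S55.Middle.CapLToff
import Fermat.Agent.S55.Middle.H3OInst
import Fermat.Agent.S55.Middle.ImageFiniteCore
import Fermat.Agent.S55.Global.LocalProdCoh

set_option autoImplicit false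
set_option linter.unusedSectionVars false
set_option linter.style.haveILetI false

open scoped TensorProduct Pointwise
open CategoryTheory groupCohomology

namespace Fermat.Agent.S55.Middle.LocOffFwd

noncomputable section

open Fermat.Agent.S55.Global.Objects Fermat.Agent.S55.Global.Objects2
open Fermat.Agent.S55.Global.Blocks3
open Fermat.Agent.S55.Global.LocalProd Fermat.Agent.S55.Global.LocalProdCoh
open Fermat.Agent.S55.Global.LocalProdT

/-! ### components of the image of a global class -/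

section Components

variable (K : Type) [Field K] [NumberField K] (L : Type) [Field L] [NumberField L] [Algebra K L]

/-- the image of `y` in `H²(G, (L ⊗[ℚ] ℚ_T)ˣ)` vanishes when all localisations above `T` do. -/
theorem map_LxToJA_QT_eq_zero (T : Finset Nat.Primes)
    (y : groupCohomology (Rep.ofAlgebraAutOnUnits K L) 2)
    (h : ∀ q ∈ T, ∀ 𝔪 : MaximalSpectrum (Ksemi K q),
      (locH K L (Kloc K q 𝔪.asIdeal) 2).hom y = 0) :
    (groupCohomology.map (MonoidHom.id (L ≃ₐ[K] L)) (LxToJA K L (QT T)) 2).hom y = 0 := by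
  apply (cohEquivLoc K L T 2).injective
  rw [map_zero]
  funext x
  have h1 := cohEquivLoc_map_incl K L T (LxToJA K L (QT T)) (LxToJA_apply K L (QT T)) 2 y x
  exact h1.trans (h x.1.1 x.1.2 x.2)

/-- the image of `y` in `H²(G, (L ⊗[ℚ] ℚ_q)ˣ)` vanishes when all localisations above `q` do. -/
theorem map_LxToJA_q_eq_zero (q : Nat.Primes)
    (y : groupCohomology (Rep.ofAlgebraAutOnUnits K L) 2)
    (h : ∀ 𝔪 : MaximalSpectrum (Ksemi K q), (locH K L (Kloc K q 𝔪.asIdeal) 2).hom y = 0) :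
    (groupCohomology.map (MonoidHom.id (L ≃ₐ[K] L))
      (LxToJA K L ℚ_[((q : Nat.Primes) : ℕ)]) 2).hom y = 0 := by
  have h0 := map_LxToJA_QT_eq_zero K L {q} y (fun q' hq' 𝔪 => by
    obtain rfl := Finset.mem_singleton.1 hq'
    exact h 𝔪)
  have hc := LxToJA_comp_projQ K L {q} ⟨q, Finset.mem_singleton_self q⟩
  have h1 : groupCohomology.map (A := Rep.ofAlgebraAutOnUnits K L)
      (B := Jq K L q) (MonoidHom.id (L ≃ₐ[K] L))
      (LxToJA K L ℚ_[((q : Nat.Primes) : ℕ)]) 2 =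
      groupCohomology.map (A := Rep.ofAlgebraAutOnUnits K L) (B := Jn K L {q})
        (MonoidHom.id (L ≃ₐ[K] L)) (LxToJA K L (QT {q})) 2 ≫
        groupCohomology.map (A := Jn K L {q}) (B := Jq K L q) (MonoidHom.id (L ≃ₐ[K] L))
          (projQ K L {q} ⟨q, Finset.mem_singleton_self q⟩) 2 := by
    rw [← groupCohomology.map_id_comp, hc]
  rw [h1, ModuleCat.hom_comp, LinearMap.comp_apply, h0, map_zero]

/-- the `q`-component of the image of `y` in `H²(G, (L ⊗[ℚ] ℚ_T)ˣ)` vanishes when all localisations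
of `y` above `q` do. -/
theorem map_projQ_LxToJn_eq_zero (T : Finset Nat.Primes) (q : T)
    (y : groupCohomology (Rep.ofAlgebraAutOnUnits K L) 2)
    (h : ∀ 𝔪 : MaximalSpectrum (Ksemi K (q : Nat.Primes)),
      (locH K L (Kloc K (q : Nat.Primes) 𝔪.asIdeal) 2).hom y = 0) :
    (groupCohomology.map (MonoidHom.id (L ≃ₐ[K] L)) (projQ K L T q) 2).hom
      ((groupCohomology.map (MonoidHom.id (L ≃ₐ[K] L)) (HasseH2.LxToJn K L T) 2).hom y) = 0 := by
  have hc : HasseH2.LxToJn K L T ≫ projQ K L T q = LxToJA K L ℚ_[((q : Nat.Primes) : ℕ)] :=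
    LxToJA_comp_projQ K L T q
  have h1 : groupCohomology.map (A := Rep.ofAlgebraAutOnUnits K L) (B := Jn K L T)
        (MonoidHom.id (L ≃ₐ[K] L)) (HasseH2.LxToJn K L T) 2 ≫
      groupCohomology.map (A := Jn K L T) (B := Jq K L (q : Nat.Primes))
        (MonoidHom.id (L ≃ₐ[K] L)) (projQ K L T q) 2 =
      groupCohomology.map (A := Rep.ofAlgebraAutOnUnits K L) (B := Jq K L (q : Nat.Primes))
        (MonoidHom.id (L ≃ₐ[K] L)) (LxToJA K L ℚ_[((q : Nat.Primes) : ℕ)]) 2 := by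
    rw [← groupCohomology.map_id_comp, hc]
  have h2 := map_LxToJA_q_eq_zero K L (q : Nat.Primes) y h
  rw [← h1, ModuleCat.hom_comp, LinearMap.comp_apply] at h2
  exact h2

end Components

/-! ### the abstract finite-level model of `Middle/LocOff.lean` -/

section Abstract

open Fermat.Agent.S55.Formal Fermat.Agent.S55.Formal.LCLevel Fermat.Agent.S55.Formal.LCLevelH
open Fermat.Agent.S55.Middle.Defs Fermat.Agent.S55.Middle.DivDef Fermat.Agent.S55.Middle.Cap
open Fermat.Agent.S55.Middle.CapDiv Fermat.Agent.S55.Middle.LocOffVal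
open Fermat.Agent.S55.Middle.LocOff

variable {S : Finset Nat.Primes} {P : Subgroup GQ} {𝒱 : NBasis ↥P}
  (hfine : IsCont (PreludeLC.globalBasis S) 𝒱 P.subtype) (hfin : P.FiniteIndex)
variable (K : Type) [Field K] [NumberField K] {L : Type} [Field L] [NumberField L] [Algebra K L]
  (ι : L →+* Qbar)
  {F : IntermediateField ℚ Qbar} (hF : F.IsUnramifiedOutside S) (hι : ∀ l : L, ι l ∈ F)
variable (V : Subgroup ↥P) [V.Normal] (φ : ↥P ⧸ V →* (L ≃ₐ[K] L))
  (hφ : ∀ (h : ↥P) (l : L), ι (φ (h : ↥P ⧸ V) l) = (h : GQ) (ι l))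
variable [Finite (↥P ⧸ V)] (hV : 𝒱.mem V)

/-- **(LOC-off), forward half, abstract form.**  A class `y ∈ H²(Gal(L/K), Lˣ)` whose localisations
at all places of `K` above the primes `q ∉ S` vanish inflates to a class of `H²_LC(P; ℚ_Sˣ)` with
trivial image in `H²_LC(P; Div)`. -/
theorem off_inflL_eq_zero (y : groupCohomology (Rep.ofAlgebraAutOnUnits K L) 2)
    (hy : ∀ q : Nat.Primes, q ∉ S → ∀ 𝔪 : MaximalSpectrum (Ksemi K q),
      (locH K L (Kloc K q 𝔪.asIdeal) 2).hom y = 0) :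
    (Mor.ofHom 𝒱 (divMap hfine hfin)).h2 (inflL K ι hF hι V φ hφ hV y) = 0 := by
  obtain ⟨T₀, hT₀⟩ := HbnCoker.exists_finset_isTUnitClass (K := K) (L := L) y
  have hT := hT₀ T₀ (Finset.Subset.refl _)
  rw [off_inflL_of_isTUnitClass hfine hfin K ι T₀ hF hι V φ hφ hV y hT]
  refine LocOffSupp.jB_eq_zero_of_proj hfine hfin K ι T₀ hF hι V φ hφ hV _ (fun q hq => ?_)
  exact map_projQ_LxToJn_eq_zero K L T₀ q y (hy (q : Nat.Primes) hq)

end Abstract

/-! ### the Galois dictionary -/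

section Dict

open Fermat.Agent.S55.Formal Fermat.Agent.S55.Formal.PreludeLC Fermat.Agent.S55.Middle.Defs
open Fermat.Agent.S55.Middle.Dict Fermat.Agent.S55.Middle.GaloisDict
open Fermat.Agent.S55.Middle.GaloisDictModel Fermat.Agent.S55.Middle.OSDict
open Fermat.Agent.S55.Formal.LCLevelH
open Fermat.Agent.S55.Middle.LocOffDict

variable (S : Finset Nat.Primes) (H : Subgroup Defs.GQ) (L : IntermediateField ℚ Defs.Qbar)
  [Normal ℚ L] (hKL : K₀ H ≤ L) (hL : L.IsUnramifiedOutside S) (hle : L.fixingSubgroup ≤ H)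
  [NumberField ↥(K₀ H)] [NumberField ↥(Lext H L hKL)]

/-- **(LOC-off), forward half, for the Galois dictionary**: `CapLToff.LToff` form, any basis `𝒱` of
`↥H` finer than the arithmetic one having `lvl H L` as a level. -/
theorem ltoff_ι₂_cohIsoExt_inv {𝒱 : NBasis ↥H}
    (hfine : IsCont (PreludeLC.globalBasis S) 𝒱 H.subtype) (hfin : H.FiniteIndex)
    [Finite (↥H ⧸ lvl H L)] (hV : 𝒱.mem (lvl H L))
    (y : groupCohomology (Rep.ofAlgebraAutOnUnits ↥(K₀ H) ↥(Lext H L hKL)) 2)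
    (hy : ∀ q : Nat.Primes, q ∉ S → ∀ 𝔪 : MaximalSpectrum (Ksemi ↥(K₀ H) q),
      (locH ↥(K₀ H) ↥(Lext H L hKL) (Kloc ↥(K₀ H) q 𝔪.asIdeal) 2).hom y = 0) :
    CapLToff.LToff hfine hfin
      (ι₂ 𝒱 (KSH S H) (lvl H L) hV ((cohIsoExt S H L hKL hL hle 2).inv.hom y)) := by
  unfold CapLToff.LToff
  rw [ι₂_cohIsoExt_inv S H L hKL hL hle hV y]
  exact off_inflL_eq_zero hfine hfin ↥(K₀ H) (ιL H L hKL) hL (ιL_mem H L hKL) (lvl H L)
    (φ₀ S H L hKL hL hle) (hφ₀ S H L hKL hL hle) hV y hy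

end Dict

/-! ### `KSite` language -/

section KSiteForm

open Fermat.Agent.S55.Formal
open Fermat.Agent.S55.Formal.PreludeLC hiding GQ Qbar
open Fermat.Agent.S55.Middle.Defs
open Fermat.Agent.S55.Middle.KSite Fermat.Agent.S55.Middle.GaloisDict
open Fermat.Agent.S55.Middle.GaloisDictModel
open Fermat.Agent.S55.Formal.LCLevelH
open Fermat.Agent.S55.Middle.ImageFiniteCore

variable (S : Finset Nat.Primes) (P : Subgroup GQ) (L : IntermediateField ℚ Qbar)
  [Normal ℚ L] (hL : L.IsUnramifiedOutside S) (hle : L.fixingSubgroup ≤ P) (hKL : K₀ P ≤ L)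
  [NumberField ↥(K₀ P)] [NumberField ↥(Lext P L hKL)] [Finite (↥P ⧸ lvl P L)]
  (hV : (basisP S P).mem (lvl P L))

/-- **(LOC-off), forward half, `KSite` language, `LToff` form** (binders of `LocS.Statement`). -/
theorem ltoff_of_suppIn (hfin : P.FiniteIndex)
    (y : groupCohomology (Rep.ofAlgebraAutOnUnits ↥(K₀ P) ↥(Lext P L hKL)) 2)
    (hy : SuppIn S (locFam ↥(K₀ P) ↥(Lext P L hKL) y)) :
    CapLToff.LToff (CapDiv.isCont_subBasis S P) hfin
      (ι₂ (basisP S P) (resP P (KS S)) (lvl P L) hV ((cohIsoExt S P L hKL hL hle 2).inv.hom y)) :=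
  ltoff_ι₂_cohIsoExt_inv S P L hKL hL hle (CapDiv.isCont_subBasis S P) hfin hV y
    (fun q hq 𝔪 => hy ⟨q, 𝔪⟩ hq)

/-- **(LOC-off), forward half, `KSite` language, `H3OInst.off` form.** -/
theorem off_eq_zero_of_suppIn (hfin : P.FiniteIndex)
    (y : groupCohomology (Rep.ofAlgebraAutOnUnits ↥(K₀ P) ↥(Lext P L hKL)) 2)
    (hy : SuppIn S (locFam ↥(K₀ P) ↥(Lext P L hKL) y)) :
    H3OInst.off hfin
      (ι₂ (basisP S P) (resP P (KS S)) (lvl P L) hV ((cohIsoExt S P L hKL hL hle 2).inv.hom y))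
      = 0 :=
  ltoff_of_suppIn S P L hL hle hKL hV hfin y hy

/-- `infl := ι₂ ∘ cohIsoExt⁻¹ : H²(Gal(L'/K), L'ˣ) →+ H²_LC(P; ℚ_Sˣ)` as an additive map (the `infl`
of `Middle/ImageFamRel.lean`). -/
def inflHom : groupCohomology (Rep.ofAlgebraAutOnUnits ↥(K₀ P) ↥(Lext P L hKL)) 2 →+
    H2 (basisP S P) (resP P (KS S)) :=
  (ι₂ (basisP S P) (resP P (KS S)) (lvl P L) hV).toAddMonoidHom.comp
    (cohIsoExt S P L hKL hL hle 2).inv.hom.toAddMonoidHom

theorem inflHom_apply (y : groupCohomology (Rep.ofAlgebraAutOnUnits ↥(K₀ P) ↥(Lext P L hKL)) 2) :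
    inflHom S P L hL hle hKL hV y =
      ι₂ (basisP S P) (resP P (KS S)) (lvl P L) hV ((cohIsoExt S P L hKL hL hle 2).inv.hom y) :=
  rfl

/-- **`hoff₁` of `Middle/ImageFamRel.lean`** for the real objects (`inS x := x.1 ∈ S`,
`off := H3OInst.off hfin`, `infl := inflHom`, `locFam := ImageFiniteCore.locFam`). -/
theorem hoff₁ (hfin : P.FiniteIndex) :
    ∀ y : groupCohomology (Rep.ofAlgebraAutOnUnits ↥(K₀ P) ↥(Lext P L hKL)) 2,
      (∀ x : Pl ↥(K₀ P), ¬ x.1 ∈ S → locFam ↥(K₀ P) ↥(Lext P L hKL) y x = 0) →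
        H3OInst.off hfin (inflHom S P L hL hle hKL hV y) = 0 :=
  fun y hy => off_eq_zero_of_suppIn S P L hL hle hKL hV hfin y hy

end KSiteForm

end

end Fermat.Agent.S55.Middle.LocOffFwd
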