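import Fermat.Agent.S55.Middle.ImageFiniteCore
import Fermat.Agent.S55.Global.SemilocalFinal

/-!
# S55 / Middle, (C4)/(C5) hub: local inputs of `ImageFiniteCore` (helper34)

The local groups `HJ K L x = H²(Gal(L/K), (L ⊗[K] K_x)ˣ)` are finite cyclic of order the local
degree `#Stab(m)` (`Global/SemilocalFinal`, Local block).  Hence:

* `finite_HJ`, `card_HJ`, `isAddCyclic_HJ`;
* `exists_torsion_ne_zero` : `p ∣ #Stab(m)` ⇒ a nonzero `p`-torsion class `b₀` at `x`
  (the `b₀` of `ImageFiniteCore.exists_isGlobal_sub_nsmul_single`);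
* `exists_isGlobal_sub_nsmul_place`, `exists_isGlobal_add_place` : the two main theorems of
  `ImageFiniteCore` with the local hypotheses stated on the decomposition group.
-/

set_option autoImplicit false
set_option linter.unusedSectionVars false
set_option linter.style.haveILetI false

open CategoryTheory CategoryTheory.Limits groupCohomology NumberField IsDedekindDomain TensorProduct
open scoped Pointwise

namespace Fermat.Agent.S55.Middle.ImageFiniteLocal

open Fermat.Agent.S55.Global.Objects Fermat.Agent.S55.Global.Objects2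
open Fermat.Agent.S55.Global.Blocks2 Fermat.Agent.S55.Global.Blocks3
open Fermat.Agent.S55.Global.Blocks4
open Fermat.Agent.S55.Middle.ImageFiniteCore

variable {K : Type} [Field K] [NumberField K]
variable {L : Type} [Field L] [NumberField L] [Algebra K L] [IsGalois K L]

/-- The order of the local group at `x` is the order of the decomposition group. -/
theorem card_HJ (x : Pl K) (m : Ideal (L ⊗[K] Kloc K x.1 x.2.asIdeal)) [m.IsMaximal] :
    Nat.card (HJ K L x) = Nat.card (MulAction.stabilizer (L ≃ₐ[K] L) m) :=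
  haveI := x.2.isMaximal
  Global.SemilocalFinal.card_H2_Jloc K L x.1 x.2.asIdeal m

theorem isAddCyclic_HJ (x : Pl K) : IsAddCyclic (HJ K L x) :=
  haveI := x.2.isMaximal
  Global.SemilocalFinal.isAddCyclic_H2_Jloc K L x.1 x.2.asIdeal

theorem exists_maximal_tensor (x : Pl K) :
    ∃ m : Ideal (L ⊗[K] Kloc K x.1 x.2.asIdeal), m.IsMaximal := by
  haveI := x.2.isMaximal
  letI := Ideal.Quotient.field x.2.asIdeal
  exact Ideal.exists_maximal (L ⊗[K] Kloc K x.1 x.2.asIdeal)

theorem finite_HJ (x : Pl K) : Finite (HJ K L x) := by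
  obtain ⟨m, hm⟩ := exists_maximal_tensor (L := L) x
  refine Nat.finite_of_card_ne_zero ?_
  rw [card_HJ x m]
  exact Nat.card_pos.ne'

/-- A nonzero `p`-torsion class at `x` as soon as `p` divides the order of the local group. -/
theorem exists_torsion_ne_zero {p : ℕ} (hp : p.Prime) (x : Pl K)
    (h : p ∣ Nat.card (HJ K L x)) : ∃ b₀ : HJ K L x, p • b₀ = 0 ∧ b₀ ≠ 0 := by
  haveI : Fact p.Prime := ⟨hp⟩
  haveI := finite_HJ (L := L) x
  obtain ⟨b, hb⟩ := exists_prime_addOrderOf_dvd_card' (G := HJ K L x) p h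
  refine ⟨b, ?_, ?_⟩
  · rw [← hb]
    exact addOrderOf_nsmul_eq_zero b
  · rintro rfl
    rw [addOrderOf_zero] at hb
    exact hp.one_lt.ne hb

variable {p : ℕ}

/-- `adj_of_level` / `gen_of_level`, family form, with the generator provided by a place `x₀`
above `S` whose decomposition group has order divisible by `p`. -/
theorem exists_isGlobal_sub_nsmul_place [DecidableEq (Pl K)] (hp : p.Prime) (hodd : p ≠ 2)
    (hζ : ∃ ζ : K, IsPrimitiveRoot ζ p) (hpp : ∃ n : ℕ, Module.finrank K L = p ^ n)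
    (h2 : H2CyclicIn p) (hunr : UnitClassUnram p) (hnss : NoSingleSupport p)
    (S : Finset Nat.Primes) (x₀ : Pl K) (hx₀ : x₀.1 ∈ S)
    (m : Ideal (L ⊗[K] Kloc K x₀.1 x₀.2.asIdeal)) [m.IsMaximal]
    (hdvd : p ∣ Nat.card (MulAction.stabilizer (L ≃ₐ[K] L) m)) :
    ∃ b₀ : HJ K L x₀, p • b₀ = 0 ∧ b₀ ≠ 0 ∧
      ∀ c : Fam K L, SuppIn S c → IsGlobal (p • c) →
        ∃ n : ℕ, IsGlobal (c - n • (Pi.single x₀ b₀ : Fam K L)) := by
  obtain ⟨b₀, hb₀, hne⟩ := exists_torsion_ne_zero (L := L) hp x₀ (by rw [card_HJ x₀ m]; exact hdvd)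
  exact ⟨b₀, hb₀, hne, fun c hc hpc =>
    exists_isGlobal_sub_nsmul_single hp hodd hζ hpp h2 hunr hnss S c hc hpc x₀ hx₀ b₀ hb₀ hne⟩

/-- Realisation, family form, paying at a place `x₀` whose decomposition group has order
divisible by `p ^ k`. -/
theorem exists_isGlobal_add_place [DecidableEq (Pl K)] (hp : p.Prime) (hodd : p ≠ 2)
    (hζ : ∃ ζ : K, IsPrimitiveRoot ζ p) (hpp : ∃ n : ℕ, Module.finrank K L = p ^ n)
    (h2 : H2CyclicIn p) (hunr : UnitClassUnram p) (hnss : NoSingleSupport p)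
    (S : Finset Nat.Primes) (c : Fam K L) (hc : SuppIn S c) (k : ℕ) (hk : p ^ k • c = 0)
    (x₀ : Pl K) (m : Ideal (L ⊗[K] Kloc K x₀.1 x₀.2.asIdeal)) [m.IsMaximal]
    (hdvd : p ^ k ∣ Nat.card (MulAction.stabilizer (L ≃ₐ[K] L) m)) :
    ∃ a : HJ K L x₀, IsGlobal (c + Pi.single x₀ a) := by
  haveI := finite_HJ (L := L) x₀
  exact exists_isGlobal_add_single hp hodd hζ hpp h2 hunr hnss S c hc k hk x₀
    (by rw [card_HJ x₀ m]; exact hdvd)

end Fermat.Agent.S55.Middle.ImageFiniteLocal
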