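/-
S55 / MIDDLE block, row (LOC-S), COVERAGE lemmas (helper67, requested by helper14 #2144).

* `exists_aut_of_algHom` : every `ℚ`-embedding `ℚ̄ → Ω_q` is `padicEmbedding q ∘ s`, `s ∈ G_ℚ`;
* **(A)** `exists_conj_eq` : every ring homomorphism `e : K → Ω_q` from an intermediate field `K` of
  `ℚ̄/ℚ` is `x ↦ padicEmbedding q (t⁻¹ x)` for some `t ∈ G_ℚ`;
* `exists_mAt_eq` : every maximal ideal `𝔪` of `K ⊗[ℚ] ℚ_q` (`K = K₀ P`) is `LocS.mAt P q t`;
* `eAt_double_coset`, **(B)** `mAt_eq_of_double_coset` : `mAt P q (v t d) = mAt P q t` for `v ∈ P`,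
  `d ∈ Γ_q`;
* `exists_mem_reps_mAt_eq` / `exists_mem_reps_mAt_eq'` : for a system of representatives
  `R : KSite.Reps S P` and `q ∈ S`, every place of `K` above `q` (resp. every `mAt P q g`) is
  `mAt P q t` with `t ∈ R.T q`.
-/
import Fermat.Agent.S55.Middle.LocSDefs

set_option autoImplicit false
set_option linter.unusedSectionVars false
set_option linter.style.haveILetI false

open CategoryTheory groupCohomology ExtCitation

namespace Fermat.Agent.S55.Middle.LocSCover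

noncomputable section

open Fermat.Agent.S55.Formal
open Fermat.Agent.S55.Formal.PreludeLC hiding GQ Qbar
open Fermat.Agent.S55.Middle.Defs
open Fermat.Agent.S55.Middle.KSite Fermat.Agent.S55.Middle.GaloisDict
open Fermat.Agent.S55.Middle.GaloisDictModel
open Fermat.Agent.S55.Global.Blocks3
open Fermat.Agent.S55.Middle.LocS

attribute [local instance] Fermat.Agent.S55.LM.Defs.fact_q

local instance isAlgebraicQbar_lc : Algebra.IsAlgebraic ℚ (AlgebraicClosure ℚ) :=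
  AlgebraicClosure.isAlgebraic ℚ
local instance isAlgClosureQbar_lc : IsAlgClosure ℚ (AlgebraicClosure ℚ) :=
  ⟨inferInstance, inferInstance⟩
local instance normalQbar_lc : Normal ℚ (AlgebraicClosure ℚ) :=
  IsAlgClosure.normal ℚ (AlgebraicClosure ℚ)

section A

variable (q : ℕ) [Fact q.Prime]

noncomputable local instance instAlgebraQbarPadic_lc : Algebra (AlgebraicClosure ℚ) (PadicAlgCl q) :=
  (padicEmbedding q).toRingHom.toAlgebra
local instance instTowerQbarPadic_lc :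
    IsScalarTower ℚ (AlgebraicClosure ℚ) (PadicAlgCl q) :=
  IsScalarTower.of_algebraMap_eq' (Subsingleton.elim _ _)

/-- every `ℚ`-embedding `ℚ̄ → Ω_q` is `padicEmbedding ∘ s` for an automorphism `s` of `ℚ̄` -/
theorem exists_aut_of_algHom (f : Qbar →ₐ[ℚ] PadicAlgCl q) :
    ∃ s : GQ, ∀ x : Qbar, padicEmbedding q (s x) = f x := by
  refine ⟨AlgHom.restrictNormal' f Qbar, fun x => ?_⟩
  exact AlgHom.restrictNormal_commutes f Qbar x

/-- **(A)** every ring homomorphism `K → Ω_q` from an intermediate field of `ℚ̄/ℚ` is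
`x ↦ padicEmbedding q (t⁻¹ x)` for some `t ∈ G_ℚ`. -/
theorem exists_conj_eq (K : IntermediateField ℚ Qbar) (e : ↥K →+* PadicAlgCl q) :
    ∃ t : GQ, ∀ x : ↥K, e x = padicEmbedding q ((t⁻¹ : GQ) (x : Qbar)) := by
  letI : Algebra ↥K (PadicAlgCl q) := e.toAlgebra
  haveI : Algebra.IsAlgebraic ↥K Qbar := Algebra.IsAlgebraic.tower_top (K := ℚ) ↥K
  let f : Qbar →ₐ[↥K] PadicAlgCl q := IsAlgClosed.lift
  obtain ⟨s, hs⟩ := exists_aut_of_algHom q (f : Qbar →+* PadicAlgCl q).toRatAlgHom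
  refine ⟨s⁻¹, fun x => ?_⟩
  rw [inv_inv, hs]
  exact (f.commutes x).symm

end A

section B

variable (S : Finset Nat.Primes) (P : Subgroup GQ) [NumberField ↥(K₀ P)]

/-- every place of `K = ℚ̄^P` above `q` is of the form `mAt P q t`. -/
theorem exists_mAt_eq (q : Nat.Primes) (𝔪 : Ideal (Ksemi ↥(K₀ P) q)) [𝔪.IsMaximal] :
    ∃ t : GQ, mAt P q t = 𝔪 := by
  obtain ⟨e, he⟩ := SemilocalCompare.exists_idealQ_eq 𝔪
  obtain ⟨t, ht⟩ := exists_conj_eq (q : ℕ) (K₀ P) e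
  refine ⟨t, ?_⟩
  rw [← he]
  unfold mAt
  congr 1
  ext x
  exact (ht x).symm

local instance towerQqPadic_lc (q : Nat.Primes) : IsScalarTower ℚ ℚ_[(q : ℕ)] (PadicAlgCl (q : ℕ)) :=
  IsScalarTower.of_algebraMap_eq' (Subsingleton.elim _ _)

/-- an element of `Γ_q` as an automorphism of `Ω_q` -/
def toAut (q : Nat.Primes) (d : primeLocalGaloisGroup q) :
    PadicAlgCl (q : ℕ) ≃ₐ[ℚ_[(q : ℕ)]] PadicAlgCl (q : ℕ) := d

/-- `eAt` along a double coset `P t Γ_q`. -/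
theorem eAt_double_coset (q : Nat.Primes) (t : GQ) (v : ↥P) (d : primeLocalGaloisGroup q)
    (x : ↥(K₀ P)) :
    eAt P q ((v : GQ) * t * primeLocalToGlobal q d) x = toAut q d⁻¹ (eAt P q t x) := by
  rw [eAt_apply, eAt_apply, mul_inv_rev, mul_inv_rev, ← map_inv]
  have hv : ((v : GQ)⁻¹) (x : Qbar) = (x : Qbar) := by
    have := x.2 ⟨(v : GQ)⁻¹, P.inv_mem v.2⟩
    exact this
  show padicEmbedding (q : ℕ) ((primeLocalToGlobal q d⁻¹) ((t⁻¹ : GQ) (((v : GQ)⁻¹) (x : Qbar)))) = _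
  rw [hv]
  exact padicEmbedding_localGaloisToGlobal (q : ℕ) (toAut q d⁻¹) _

/-- **(B)** `mAt` only depends on the double coset `P t Γ_q`. -/
theorem mAt_eq_of_double_coset (q : Nat.Primes) (g t : GQ) (v : ↥P) (d : primeLocalGaloisGroup q)
    (h : g = (v : GQ) * t * primeLocalToGlobal q d) : mAt P q g = mAt P q t := by
  subst h
  unfold mAt SemilocalCompare.idealQ
  refine SemilocalCompare.kerIdeal_eq_of_algHom' (F := ℚ_[(q : ℕ)]) _ _
    ((toAut q d⁻¹ : PadicAlgCl (q : ℕ) ≃ₐ[ℚ_[(q : ℕ)]] PadicAlgCl (q : ℕ)) :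
      PadicAlgCl (q : ℕ) →ₐ[ℚ_[(q : ℕ)]] PadicAlgCl (q : ℕ)) ?_
  intro l
  exact (eAt_double_coset P q t v d l).symm

/-- **Coverage**: for `q ∈ S` and a system of representatives `R`, every place of `K` above `q`
is `mAt P q t` with `t ∈ R.T q`. -/
theorem exists_mem_reps_mAt_eq (R : Reps S P) (q : ↥S) (𝔪 : Ideal (Ksemi ↥(K₀ P) q.1))
    [𝔪.IsMaximal] : ∃ t ∈ R.T q, mAt P q.1 t = 𝔪 := by
  obtain ⟨g, hg⟩ := exists_mAt_eq P q.1 𝔪
  obtain ⟨t, ht, v, d, hgt⟩ := R.covers q g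
  exact ⟨t, ht, (mAt_eq_of_double_coset P q.1 g t v d hgt).symm.trans hg⟩

/-- every `mAt P q g` is `mAt P q t` for a representative `t ∈ R.T q`. -/
theorem exists_mem_reps_mAt_eq' (R : Reps S P) (q : ↥S) (g : GQ) :
    ∃ t ∈ R.T q, mAt P q.1 g = mAt P q.1 t := by
  obtain ⟨t, ht, v, d, hgt⟩ := R.covers q g
  exact ⟨t, ht, mAt_eq_of_double_coset P q.1 g t v d hgt⟩

end B

end

end Fermat.Agent.S55.Middle.LocSCover
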