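/-
S55 / MIDDLE block, row (LOC-S), leaf M.locS.sep (helper44): SEPARATION of the places `mAt P q t`.

`LocSDefs.mAt P q t` is the maximal ideal of `K ⊗[ℚ] ℚ_q` (`K = ℚ̄^P`) cut out by the embedding
`x ↦ padicEmbedding q (t⁻¹ x)`.  helper67's `LocSCover` proves COVERAGE (every maximal ideal is an
`mAt P q t`, and `mAt` only depends on the double coset `P t ι_q(Γ_q)`).  Here is the converse:

* `mAt_eq_iff_exists_local` : `mAt P q t' = mAt P q t` iff the two embeddings of `K` into `Ω_q` are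
  conjugate under `Γ_q` (`SemilocalCompare.kerIdeal_eq_iff`);
* `exists_double_coset_of_mAt_eq` : `mAt P q t' = mAt P q t → ∃ v ∈ P, d ∈ Γ_q, t' = v t ι_q(d)`
  (for `P` `S`-open, i.e. `P = Gal(ℚ̄/K)`);
* `mAt_eq_iff` : the equivalence `mAt P q t' = mAt P q t ↔ t' ∈ P t ι_q(Γ_q)`;
* `eq_of_mAt_eq` : for `R : KSite.Reps S P` and `t t' ∈ R.T q` : `mAt P q t' = mAt P q t → t = t'`;
* `maxOf R : R.Idx → Σ q : ↥S, MaximalSpectrum (Ksemi K q)`, `maxOf_injective`, `maxOf_surjective`,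
  `maxOf_bijective`, `idxEquivMax : R.Idx ≃ Σ q : ↥S, MaximalSpectrum (Ksemi K q)`;
* `existsUnique_idx` : for `q ∈ S` and `𝔪` maximal there is a UNIQUE `t ∈ R.T q` with
  `mAt P q t = 𝔪`.

So the places `R.Idx` of the `K`-site are in BIJECTION with the pairs `(q ∈ S, 𝔪 ⊂ K ⊗ ℚ_q maximal)`:
what is needed to pass between local data indexed by `R.Idx` (LC side: `Blocks2.BrLoc R i`) and
local data indexed by maximal ideals (`Blocks3.Jloc K L q 𝔪`, finite-level side), e.g. for `htors`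
of `ImageLevel.adj_of_level` (distinct indices must see distinct semilocal factors).
-/
import Fermat.Agent.S55.Middle.LocSCover

set_option autoImplicit false

open CategoryTheory groupCohomology ExtCitation

namespace Fermat.Agent.S55.Middle.LocSSep

noncomputable section

open Fermat.Agent.S55.Formal
open Fermat.Agent.S55.Formal.PreludeLC hiding GQ Qbar
open Fermat.Agent.S55.Middle.Defs
open Fermat.Agent.S55.Middle.KSite Fermat.Agent.S55.Middle.GaloisDict
open Fermat.Agent.S55.Middle.GaloisDictModel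
open Fermat.Agent.S55.Global.Blocks3
open Fermat.Agent.S55.Middle.LocS
open Fermat.Agent.S55.Middle.SemilocalCompare

attribute [local instance] Fermat.Agent.S55.LM.Defs.fact_q

variable (S : Finset Nat.Primes) (P : Subgroup GQ)

/-- an element of `Γ_q = primeLocalGaloisGroup q` as an automorphism of `ℚ̄_q`. -/
def asEquiv (q : Nat.Primes) :
    primeLocalGaloisGroup q ≃* (PadicAlgCl (q : ℕ) ≃ₐ[ℚ_[(q : ℕ)]] PadicAlgCl (q : ℕ)) :=
  MulEquiv.refl _

/-- `padicEmbedding q (ι_q(d) y) = d (padicEmbedding q y)`. -/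
theorem padicEmbedding_primeLocalToGlobal (q : Nat.Primes) (d : primeLocalGaloisGroup q)
    (y : Qbar) :
    padicEmbedding (q : ℕ) (primeLocalToGlobal q d y) = asEquiv q d (padicEmbedding (q : ℕ) y) :=
  padicEmbedding_localGaloisToGlobal (q : ℕ) _ y

/-- `mAt P q t' = mAt P q t` iff the two embeddings of `K` are conjugate under `Γ_q`. -/
theorem mAt_eq_iff_exists_local [NumberField ↥(K₀ P)] (q : Nat.Primes) (t t' : GQ) :
    mAt P q t' = mAt P q t ↔
      ∃ d : primeLocalGaloisGroup q, ∀ x : ↥(K₀ P), asEquiv q d (eAt P q t x) = eAt P q t' x :=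
  kerIdeal_eq_iff (F := ℚ_[(q : ℕ)]) (eAt P q t).toRatAlgHom (eAt P q t').toRatAlgHom

/-- **SEPARATION**: for `P` `S`-open (`P = Gal(ℚ̄/K)`), equal places come from the same double
coset `P t ι_q(Γ_q)`. -/
theorem exists_double_coset_of_mAt_eq (hP : IsOpenS S P) [NumberField ↥(K₀ P)] (q : Nat.Primes)
    (t t' : GQ) (h : mAt P q t' = mAt P q t) :
    ∃ (v : ↥P) (d : primeLocalGaloisGroup q), t' = (v : GQ) * t * primeLocalToGlobal q d := by
  obtain ⟨d, hd⟩ := (mAt_eq_iff_exists_local P q t t').1 h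
  have hfix : ∀ x : ↥(K₀ P), (t' * primeLocalToGlobal q d * t⁻¹ : GQ) (x : Qbar) = (x : Qbar) := by
    intro x
    have h1 : padicEmbedding (q : ℕ) (primeLocalToGlobal q d ((t⁻¹ : GQ) (x : Qbar))) =
        padicEmbedding (q : ℕ) ((t'⁻¹ : GQ) (x : Qbar)) := by
      rw [padicEmbedding_primeLocalToGlobal]
      exact hd x
    have h2 := (padicEmbedding (q : ℕ)).toRingHom.injective h1
    simp only [AlgEquiv.mul_apply]
    rw [h2, ← AlgEquiv.mul_apply, mul_inv_cancel, AlgEquiv.one_apply]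
  have hmem : (t' * primeLocalToGlobal q d * t⁻¹ : GQ) ∈ P := by
    have h3 := (fixedField_of_isOpenSub (S := S) (H := P) hP).2
    rw [← h3]
    rw [IntermediateField.mem_fixingSubgroup_iff]
    intro x hx
    exact hfix ⟨x, hx⟩
  refine ⟨⟨_, hmem⟩, d⁻¹, ?_⟩
  rw [map_inv]
  group

/-- `mAt P q t' = mAt P q t` iff `t'` lies in the double coset `P t ι_q(Γ_q)`. -/
theorem mAt_eq_iff (hP : IsOpenS S P) [NumberField ↥(K₀ P)] (q : Nat.Primes) (t t' : GQ) :
    mAt P q t' = mAt P q t ↔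
      ∃ (v : ↥P) (d : primeLocalGaloisGroup q), t' = (v : GQ) * t * primeLocalToGlobal q d :=
  ⟨exists_double_coset_of_mAt_eq S P hP q t t',
    fun ⟨v, d, h⟩ => LocSCover.mAt_eq_of_double_coset P q t' t v d h⟩

/-! ### the places `R.Idx` of the `K`-site versus the maximal ideals of `K ⊗[ℚ] ℚ_q`, `q ∈ S` -/

section Reps

variable {S P}

/-- two representatives of `R.T q` with the same place are equal. -/
theorem eq_of_mAt_eq (hP : IsOpenS S P) [NumberField ↥(K₀ P)] (R : Reps S P) (q : ↥S) {t t' : GQ}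
    (ht : t ∈ R.T q) (ht' : t' ∈ R.T q) (h : mAt P q.1 t' = mAt P q.1 t) : t = t' :=
  R.separated q t ht t' ht' (exists_double_coset_of_mAt_eq S P hP q.1 t t' h)

/-- the place (maximal ideal of `K ⊗[ℚ] ℚ_q`) of an index of the `K`-site. -/
def maxOf [NumberField ↥(K₀ P)] (R : Reps S P) (i : R.Idx) :
    Σ q : ↥S, MaximalSpectrum (Ksemi ↥(K₀ P) q.1) :=
  ⟨i.1, ⟨mAt P i.1.1 i.2.1, inferInstance⟩⟩

@[simp] theorem maxOf_fst [NumberField ↥(K₀ P)] (R : Reps S P) (i : R.Idx) :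
    (maxOf R i).1 = i.1 := rfl

@[simp] theorem maxOf_snd_asIdeal [NumberField ↥(K₀ P)] (R : Reps S P) (i : R.Idx) :
    (maxOf R i).2.asIdeal = mAt P i.1.1 i.2.1 := rfl

/-- **distinct places of the `K`-site have distinct maximal ideals.** -/
theorem maxOf_injective (hP : IsOpenS S P) [NumberField ↥(K₀ P)] (R : Reps S P) :
    Function.Injective (maxOf R) := by
  rintro ⟨q, t, ht⟩ ⟨q', t', ht'⟩ h
  have hq : q = q' := congrArg Sigma.fst h
  subst hq
  have h2 : mAt P q.1 t = mAt P q.1 t' := by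
    have := eq_of_heq (Sigma.mk.inj h).2
    exact congrArg MaximalSpectrum.asIdeal this
  have := eq_of_mAt_eq hP R q ht' ht h2
  subst this
  rfl

/-- every pair `(q ∈ S, 𝔪)` is the place of an index (coverage, helper67 `LocSCover`). -/
theorem maxOf_surjective [NumberField ↥(K₀ P)] (R : Reps S P) :
    Function.Surjective (maxOf R) := by
  rintro ⟨q, 𝔪, h𝔪⟩
  have := h𝔪
  obtain ⟨t, ht, hteq⟩ := LocSCover.exists_mem_reps_mAt_eq S P R q 𝔪
  refine ⟨⟨q, t, ht⟩, ?_⟩
  simp only [maxOf]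
  congr 1
  exact MaximalSpectrum.ext hteq

theorem maxOf_bijective (hP : IsOpenS S P) [NumberField ↥(K₀ P)] (R : Reps S P) :
    Function.Bijective (maxOf R) :=
  ⟨maxOf_injective hP R, maxOf_surjective R⟩

/-- **the bijection** `R.Idx ≃ {(q ∈ S, 𝔪 maximal ideal of K ⊗[ℚ] ℚ_q)}`. -/
def idxEquivMax (hP : IsOpenS S P) [NumberField ↥(K₀ P)] (R : Reps S P) :
    R.Idx ≃ Σ q : ↥S, MaximalSpectrum (Ksemi ↥(K₀ P) q.1) :=
  Equiv.ofBijective (maxOf R) (maxOf_bijective hP R)

@[simp] theorem idxEquivMax_apply (hP : IsOpenS S P) [NumberField ↥(K₀ P)] (R : Reps S P)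
    (i : R.Idx) : idxEquivMax hP R i = maxOf R i := rfl

/-- for a fixed `q ∈ S`: the representative of a maximal ideal exists and is unique. -/
theorem existsUnique_idx (hP : IsOpenS S P) [NumberField ↥(K₀ P)] (R : Reps S P)
    (q : ↥S) (𝔪 : Ideal (Ksemi ↥(K₀ P) q.1)) [h𝔪 : 𝔪.IsMaximal] :
    ∃! t : ↥(R.T q), mAt P q.1 t.1 = 𝔪 := by
  obtain ⟨t, ht, hteq⟩ := LocSCover.exists_mem_reps_mAt_eq S P R q 𝔪
  refine ⟨⟨t, ht⟩, hteq, fun t' ht' => ?_⟩
  apply Subtype.ext
  exact (eq_of_mAt_eq hP R q ht t'.2 (ht'.trans hteq.symm)).symm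

/-- two indices over the same `q` with the same place are equal. -/
theorem idx_eq_of_mAt_eq (hP : IsOpenS S P) [NumberField ↥(K₀ P)] (R : Reps S P)
    (q : ↥S) (t t' : ↥(R.T q)) (h : mAt P q.1 t'.1 = mAt P q.1 t.1) :
    (⟨q, t⟩ : R.Idx) = ⟨q, t'⟩ := by
  have := eq_of_mAt_eq hP R q t.2 t'.2 h
  have h' : t = t' := Subtype.ext this
  rw [h']

end Reps

end

end Fermat.Agent.S55.Middle.LocSSep
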