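/-
S55 / MIDDLE block, (C4)/(C5) hub, leaf M.image.famOf (helper44): ADAPTER between tuples indexed by
the places `R.Idx` of the `K`-site (LC side: `Blocks2.BrLoc R i`, `LocS.Statement` at
`mAt P q t`) and helper34's families `ImageFiniteCore.Fam K L` indexed by ALL finite places
`Pl K = Σ q, MaximalSpectrum (K ⊗[ℚ] ℚ_q)` (finite-level side).

`K = K₀ P` for an `S`-open `P`, `L` any number field over `K`, `R : KSite.Reps S P`.

* `plOf R : R.Idx → Pl K`, `i = (q, t) ↦ (q, mAt P q t)`; `plOf_injective` (separation,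
  `LocSSep`), `plOf_fst_mem`, `exists_plOf_eq` (coverage, `LocSCover`): the range of `plOf R` is
  exactly the set of places above `S`;
* `famOf L R b : Fam K L`, the extension by zero of a tuple `b : ∀ i, HJ K L (plOf R i)`:
  `famOf_plOf`, `famOf_of_not_mem`, `suppIn_famOf`, `famOf_zero/add/sub/neg/nsmul`, `famOfHom`,
  `famOf_single`, `famOf_injective`, `eq_famOf_of_suppIn` (every family supported in `S` is a
  `famOf`), `ext_of_suppIn`;
* `locFam_plOf` : the component of `locFam K L y` at `plOf R i` is `locH K L (Kloc K q (mAt P q t)) 2 y`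
  (`rfl`), and `isGlobal_famOf_iff`.
-/
import Fermat.Agent.S55.Middle.LocSSep
import Fermat.Agent.S55.Middle.ImageFiniteCore

set_option autoImplicit false

open CategoryTheory groupCohomology ExtCitation

namespace Fermat.Agent.S55.Middle.LocSFam

noncomputable section

open Fermat.Agent.S55.Formal
open Fermat.Agent.S55.Formal.PreludeLC hiding GQ Qbar
open Fermat.Agent.S55.Middle.Defs
open Fermat.Agent.S55.Middle.KSite Fermat.Agent.S55.Middle.GaloisDict
open Fermat.Agent.S55.Middle.GaloisDictModel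
open Fermat.Agent.S55.Global.Blocks3
open Fermat.Agent.S55.Middle.LocS
open Fermat.Agent.S55.Middle.ImageFiniteCore

attribute [local instance] Fermat.Agent.S55.LM.Defs.fact_q

variable {S : Finset Nat.Primes} {P : Subgroup GQ} [NumberField ↥(K₀ P)]

/-- the finite place of `K = K₀ P` attached to an index `(q, t)` of the `K`-site. -/
def plOf (R : Reps S P) (i : R.Idx) : Pl ↥(K₀ P) :=
  ⟨i.1.1, ⟨mAt P i.1.1 i.2.1, inferInstance⟩⟩

@[simp] theorem plOf_fst (R : Reps S P) (i : R.Idx) : (plOf R i).1 = i.1.1 := rfl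

@[simp] theorem plOf_snd_asIdeal (R : Reps S P) (i : R.Idx) :
    (plOf R i).2.asIdeal = mAt P i.1.1 i.2.1 := rfl

theorem plOf_fst_mem (R : Reps S P) (i : R.Idx) : (plOf R i).1 ∈ S := i.1.2

/-- **separation**: distinct indices give distinct places. -/
theorem plOf_injective (hP : IsOpenS S P) (R : Reps S P) : Function.Injective (plOf R) := by
  rintro ⟨q, t, ht⟩ ⟨q', t', ht'⟩ h
  have hq : (q : Nat.Primes) = q' := congrArg Sigma.fst h
  have hq' : q = q' := Subtype.ext hq
  subst hq'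
  have h2 : mAt P q.1 t = mAt P q.1 t' := by
    have := eq_of_heq (Sigma.mk.inj h).2
    exact congrArg MaximalSpectrum.asIdeal this
  have := LocSSep.eq_of_mAt_eq hP R q ht' ht h2
  subst this
  rfl

/-- **coverage**: every place above `S` is the place of an index. -/
theorem exists_plOf_eq (R : Reps S P) (x : Pl ↥(K₀ P)) (hx : x.1 ∈ S) : ∃ i : R.Idx, plOf R i = x := by
  obtain ⟨q, 𝔪, h𝔪⟩ := x
  have := h𝔪
  obtain ⟨t, ht, hteq⟩ := LocSCover.exists_mem_reps_mAt_eq S P R ⟨q, hx⟩ 𝔪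
  refine ⟨⟨⟨q, hx⟩, t, ht⟩, ?_⟩
  simp only [plOf]
  congr 1
  exact MaximalSpectrum.ext hteq

theorem not_exists_plOf_eq (R : Reps S P) (x : Pl ↥(K₀ P)) (hx : x.1 ∉ S) :
    ¬ ∃ i : R.Idx, plOf R i = x := by
  rintro ⟨i, rfl⟩
  exact hx (plOf_fst_mem R i)

variable (L : Type) [Field L] [NumberField L] [Algebra ↥(K₀ P) L]

/-- the component of the family of localisations at the place of an index: `locH` at `mAt`. -/
theorem locFam_plOf (R : Reps S P) (y : groupCohomology (Rep.ofAlgebraAutOnUnits ↥(K₀ P) L) 2)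
    (i : R.Idx) :
    locFam ↥(K₀ P) L y (plOf R i) =
      (locH ↥(K₀ P) L (Kloc ↥(K₀ P) i.1.1 (mAt P i.1.1 i.2.1)) 2).hom y := rfl

open Classical in
/-- **extension by zero** of a tuple indexed by the places of the `K`-site to a family indexed by
all finite places of `K`. -/
def famOf (R : Reps S P) (b : ∀ i : R.Idx, HJ ↥(K₀ P) L (plOf R i)) : Fam ↥(K₀ P) L :=
  fun x => if h : ∃ i : R.Idx, plOf R i = x then h.choose_spec ▸ b h.choose else 0

theorem famOf_of_not_exists (R : Reps S P) (b : ∀ i : R.Idx, HJ ↥(K₀ P) L (plOf R i))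
    (x : Pl ↥(K₀ P)) (hx : ¬ ∃ i : R.Idx, plOf R i = x) : famOf L R b x = 0 := by
  unfold famOf
  rw [dif_neg hx]

theorem famOf_of_not_mem (R : Reps S P) (b : ∀ i : R.Idx, HJ ↥(K₀ P) L (plOf R i))
    (x : Pl ↥(K₀ P)) (hx : x.1 ∉ S) : famOf L R b x = 0 :=
  famOf_of_not_exists L R b x (not_exists_plOf_eq R x hx)

/-- the family `famOf b` is supported above `S`. -/
theorem suppIn_famOf (R : Reps S P) (b : ∀ i : R.Idx, HJ ↥(K₀ P) L (plOf R i)) :
    SuppIn S (famOf L R b) := fun x hx => famOf_of_not_mem L R b x hx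

/-- the component of `famOf b` at the place of the index `i` is `b i`. -/
theorem famOf_plOf (hP : IsOpenS S P) (R : Reps S P)
    (b : ∀ i : R.Idx, HJ ↥(K₀ P) L (plOf R i)) (i : R.Idx) : famOf L R b (plOf R i) = b i := by
  have h : ∃ j : R.Idx, plOf R j = plOf R i := ⟨i, rfl⟩
  unfold famOf
  rw [dif_pos h]
  have key : ∀ (j : R.Idx) (e : plOf R j = plOf R i), e ▸ b j = b i := by
    intro j e
    have hj : j = i := plOf_injective hP R e
    subst hj
    rfl
  exact key _ _

variable {L}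

/-- case analysis on a component of `famOf b`: it is some `b i` (at `plOf R i`) or `0`. -/
theorem famOf_apply_cases (hP : IsOpenS S P) (R : Reps S P)
    (b : ∀ i : R.Idx, HJ ↥(K₀ P) L (plOf R i)) (x : Pl ↥(K₀ P))
    (motive : ∀ x : Pl ↥(K₀ P), HJ ↥(K₀ P) L x → Prop)
    (h1 : ∀ i : R.Idx, motive (plOf R i) (b i))
    (h0 : ∀ x : Pl ↥(K₀ P), (¬ ∃ i : R.Idx, plOf R i = x) → motive x 0) :
    motive x (famOf L R b x) := by
  by_cases h : ∃ i : R.Idx, plOf R i = x
  · obtain ⟨i, rfl⟩ := h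
    rw [famOf_plOf L hP R b i]
    exact h1 i
  · rw [famOf_of_not_exists L R b x h]
    exact h0 x h

theorem famOf_zero (R : Reps S P) :
    famOf L R (0 : ∀ i : R.Idx, HJ ↥(K₀ P) L (plOf R i)) = 0 := by
  funext x
  by_cases h : ∃ i : R.Idx, plOf R i = x
  · obtain ⟨i, rfl⟩ := h
    unfold famOf
    rw [dif_pos ⟨i, rfl⟩]
    have key : ∀ (y : Pl ↥(K₀ P)) (j : R.Idx) (e : plOf R j = y),
        (e ▸ ((0 : ∀ i : R.Idx, HJ ↥(K₀ P) L (plOf R i)) j) : HJ ↥(K₀ P) L y) = 0 := by
      intro y j e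
      subst e
      rfl
    exact key _ _ _
  · rw [famOf_of_not_exists L R _ x h]
    rfl

theorem famOf_add (hP : IsOpenS S P) (R : Reps S P)
    (b b' : ∀ i : R.Idx, HJ ↥(K₀ P) L (plOf R i)) :
    famOf L R (b + b') = famOf L R b + famOf L R b' := by
  funext x
  by_cases h : ∃ i : R.Idx, plOf R i = x
  · obtain ⟨i, rfl⟩ := h
    rw [Pi.add_apply, famOf_plOf L hP, famOf_plOf L hP, famOf_plOf L hP]
    rfl
  · rw [Pi.add_apply, famOf_of_not_exists L R _ x h, famOf_of_not_exists L R _ x h,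
      famOf_of_not_exists L R _ x h, add_zero]

theorem famOf_neg (hP : IsOpenS S P) (R : Reps S P)
    (b : ∀ i : R.Idx, HJ ↥(K₀ P) L (plOf R i)) :
    famOf L R (-b) = -famOf L R b := by
  funext x
  by_cases h : ∃ i : R.Idx, plOf R i = x
  · obtain ⟨i, rfl⟩ := h
    rw [Pi.neg_apply, famOf_plOf L hP, famOf_plOf L hP]
    rfl
  · rw [Pi.neg_apply, famOf_of_not_exists L R _ x h, famOf_of_not_exists L R _ x h, neg_zero]

theorem famOf_sub (hP : IsOpenS S P) (R : Reps S P)
    (b b' : ∀ i : R.Idx, HJ ↥(K₀ P) L (plOf R i)) :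
    famOf L R (b - b') = famOf L R b - famOf L R b' := by
  rw [sub_eq_add_neg, famOf_add hP, famOf_neg hP, sub_eq_add_neg]

theorem famOf_nsmul (hP : IsOpenS S P) (R : Reps S P) (n : ℕ)
    (b : ∀ i : R.Idx, HJ ↥(K₀ P) L (plOf R i)) :
    famOf L R (n • b) = n • famOf L R b := by
  funext x
  by_cases h : ∃ i : R.Idx, plOf R i = x
  · obtain ⟨i, rfl⟩ := h
    rw [Pi.smul_apply, famOf_plOf L hP, famOf_plOf L hP]
    rfl
  · rw [Pi.smul_apply, famOf_of_not_exists L R _ x h, famOf_of_not_exists L R _ x h, smul_zero]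

/-- `famOf` as an additive homomorphism. -/
def famOfHom (hP : IsOpenS S P) (R : Reps S P) :
    (∀ i : R.Idx, HJ ↥(K₀ P) L (plOf R i)) →+ Fam ↥(K₀ P) L :=
  AddMonoidHom.mk' (famOf L R) (famOf_add hP R)

@[simp] theorem famOfHom_apply (hP : IsOpenS S P) (R : Reps S P)
    (b : ∀ i : R.Idx, HJ ↥(K₀ P) L (plOf R i)) : famOfHom hP R b = famOf L R b := rfl

theorem famOf_injective (hP : IsOpenS S P) (R : Reps S P) :
    Function.Injective (famOf L R : (∀ i : R.Idx, HJ ↥(K₀ P) L (plOf R i)) → Fam ↥(K₀ P) L) := by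
  intro b b' h
  funext i
  rw [← famOf_plOf L hP R b i, ← famOf_plOf L hP R b' i, h]

/-- the tuple of components of a family at the places of the `K`-site. -/
def tupleOf (R : Reps S P) (c : Fam ↥(K₀ P) L) : ∀ i : R.Idx, HJ ↥(K₀ P) L (plOf R i) :=
  fun i => c (plOf R i)

@[simp] theorem tupleOf_apply (R : Reps S P) (c : Fam ↥(K₀ P) L) (i : R.Idx) :
    tupleOf R c i = c (plOf R i) := rfl

theorem tupleOf_famOf (hP : IsOpenS S P) (R : Reps S P)
    (b : ∀ i : R.Idx, HJ ↥(K₀ P) L (plOf R i)) : tupleOf R (famOf L R b) = b :=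
  funext fun i => famOf_plOf L hP R b i

/-- **every family supported above `S` is the extension by zero of its tuple.** -/
theorem famOf_tupleOf_of_suppIn (hP : IsOpenS S P) (R : Reps S P) (c : Fam ↥(K₀ P) L)
    (hc : SuppIn S c) : famOf L R (tupleOf R c) = c := by
  funext x
  by_cases hx : x.1 ∈ S
  · obtain ⟨i, rfl⟩ := exists_plOf_eq R x hx
    rw [famOf_plOf L hP]
    rfl
  · rw [famOf_of_not_mem L R _ x hx, hc x hx]

/-- two families supported above `S` with the same components at the places of the `K`-site are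
equal. -/
theorem ext_of_suppIn (R : Reps S P) {c c' : Fam ↥(K₀ P) L} (hc : SuppIn S c) (hc' : SuppIn S c')
    (h : ∀ i : R.Idx, c (plOf R i) = c' (plOf R i)) : c = c' := by
  funext x
  by_cases hx : x.1 ∈ S
  · obtain ⟨i, rfl⟩ := exists_plOf_eq R x hx
    exact h i
  · rw [hc x hx, hc' x hx]

/-- `famOf` of a tuple supported at one index is the family supported at its place. -/
theorem famOf_single (hP : IsOpenS S P) (R : Reps S P) [DecidableEq R.Idx]
    [DecidableEq (Pl ↥(K₀ P))] (i₀ : R.Idx) (a : HJ ↥(K₀ P) L (plOf R i₀)) :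
    famOf L R (Pi.single i₀ a) = Pi.single (plOf R i₀) a := by
  funext x
  by_cases h : ∃ i : R.Idx, plOf R i = x
  · obtain ⟨i, rfl⟩ := h
    rw [famOf_plOf L hP]
    by_cases hi : i = i₀
    · subst hi
      rw [Pi.single_eq_same, Pi.single_eq_same]
    · rw [Pi.single_eq_of_ne hi, Pi.single_eq_of_ne]
      exact fun h' => hi (plOf_injective hP R h')
  · rw [famOf_of_not_exists L R _ x h, Pi.single_eq_of_ne]
    rintro rfl
    exact h ⟨i₀, rfl⟩

/-- `famOf b` is global iff some global class has localisations `b i` at the places of the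
`K`-site and is locally trivial at all places off `S`. -/
theorem isGlobal_famOf_iff (hP : IsOpenS S P) (R : Reps S P)
    (b : ∀ i : R.Idx, HJ ↥(K₀ P) L (plOf R i)) :
    IsGlobal (famOf L R b) ↔
      ∃ y : groupCohomology (Rep.ofAlgebraAutOnUnits ↥(K₀ P) L) 2,
        (∀ i : R.Idx,
          (locH ↥(K₀ P) L (Kloc ↥(K₀ P) i.1.1 (mAt P i.1.1 i.2.1)) 2).hom y = b i) ∧
        ∀ (q : Nat.Primes), q ∉ S → ∀ (𝔪 : Ideal (Ksemi ↥(K₀ P) q)), 𝔪.IsMaximal →
          (locH ↥(K₀ P) L (Kloc ↥(K₀ P) q 𝔪) 2).hom y = 0 := by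
  constructor
  · rintro ⟨y, hy⟩
    refine ⟨y, fun i => ?_, fun q hq 𝔪 h𝔪 => ?_⟩
    · rw [← locFam_plOf L R y i, hy, famOf_plOf L hP]
    · have h1 : locFam ↥(K₀ P) L y ⟨q, ⟨𝔪, h𝔪⟩⟩ = 0 := by
        rw [hy]
        exact famOf_of_not_mem L R b _ hq
      exact h1
  · rintro ⟨y, h1, h2⟩
    refine ⟨y, ?_⟩
    apply ext_of_suppIn R (fun x hx => ?_) (suppIn_famOf L R b) (fun i => ?_)
    · exact h2 x.1 hx x.2.asIdeal x.2.isMaximal
    · rw [famOf_plOf L hP, locFam_plOf, h1]

end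

end Fermat.Agent.S55.Middle.LocSFam
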