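/-
S55 / Middle / LocSCard (helper24): THE ORDER OF THE LOCAL GROUPS `HJ` AT THE PLACES OF THE `K`-SITE.

For `P ≤ G_ℚ`, `K = K₀ P`, a finite Galois level `L/ℚ` (unramified outside `S`, `Gal(ℚ̄/L) ≤ P`,
`K ≤ L`), `L' = Lext P L hKL`, a prime `q` and `t : G_ℚ`, `𝔪 = mAt P q t` (helper14's `LocS`):

* `card_stabilizer_kerIdeal`, `card_H2_Jloc_eq` (generic number fields): the decomposition group of
  the place `𝔪_e` of `L'` cut out by `e : L' → Ω` and `H²(Gal(L'/K), (L' ⊗[K] K_𝔪)ˣ)` have the order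
  of `Gal(K_𝔪(e L')/K_𝔪)` (helper79's `SemilocalCompare.stabEquiv` + `SemilocalFinal.card_H2_Jloc`);
* `card_gal_genField_semi` : that order is `[Dloc P q t : Dloc N q t]`, `N = Gal(ℚ̄/L)` (group part of
  `LocS.plSemi`);
* **`card_H2_Jloc_mAt`** : `Nat.card H²(Gal(L'/K), (L' ⊗[K] K_𝔪)ˣ) = (levelSub P q t L.fixingSubgroup).index`;
* `card_stabilizer_mAt`  : the same for `Nat.card (MulAction.stabilizer Gal(L'/K) 𝔐)`, `𝔐` ANY maximal
  ideal of `L' ⊗[K] K_𝔪`;
* **`pow_dvd_card_H2_Jloc_mAt`** (+ `'` with `cycloPowField p m ≤ L`), `pow_dvd_card_stabilizer_mAt` :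
  `p` odd, `χ_p|P = 1`, `L ∋ ζ_{p^m}`, `m ≥ k + lossAt p q + v_p [Γ_q : Dloc P q t]` ⇒ `p^k` divides these
  orders (`CycloGrowIndex.pow_dvd_index_subgroupOf`).  These are the producers of the hypotheses
  `hcard` of `ImageFiniteCore.exists_isGlobal_add_single` and `hdvd` of
  `ImageFiniteLocal.exists_isGlobal_{sub_nsmul,add}_place`;
* `exists_level_pow_dvd_card` : ONE `m₀` for all `i : R.Idx` and all levels `L ∋ ζ_{p^m}`, `m ≥ m₀`;
* `pow_dvd_card_HJ_plOf`, `exists_torsion_ne_zero_plOf` : the same in the `Pl`/`HJ` language at the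
  place `LocSFam.plOf R i`, and a nonzero class `b₀` with `p • b₀ = 0` there.
-/
import Fermat.Agent.S55.Middle.LocS
import Fermat.Agent.S55.Middle.ImageFiniteLocal
import Fermat.Agent.S55.Middle.CycloGrowLevel
import Fermat.Agent.S55.Middle.LocSFam

set_option autoImplicit false
set_option linter.unusedSectionVars false
set_option linter.style.haveILetI false

open CategoryTheory groupCohomology ExtCitation TensorProduct
open scoped Pointwise

namespace Fermat.Agent.S55.Middle.LocSCard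

noncomputable section

open Fermat.Agent.S55.Formal
open Fermat.Agent.S55.Formal.PreludeLC hiding GQ Qbar
open Fermat.Agent.S55.Middle.Defs
open Fermat.Agent.S55.Middle.KSite Fermat.Agent.S55.Middle.GaloisDict
open Fermat.Agent.S55.Middle.GaloisDictModel
open Fermat.Agent.S55.Global.Blocks3 Fermat.Agent.S55.Global.Objects
open Fermat.Agent.S55.Formal.LCLevelH
open Fermat.Agent.S55.Middle.SemilocalCompare Fermat.Agent.S55.Middle.CompletionCompare
open Fermat.Agent.S55.LM.DlocDict Fermat.Agent.S55.LM.DlocLevelMap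
open Fermat.Agent.S55.Coh.SemilocalExplicit Fermat.Agent.S55.Coh.PairSameCarrier
open Fermat.Agent.S55.Coh.PairEquiv
open Fermat.Agent.S55.Middle.LocSPairs
open Fermat.Agent.S55.Middle.LocS

attribute [local instance] Fermat.Agent.S55.LM.Defs.fact_q
attribute [local instance] Algebra.TensorProduct.rightAlgebra
attribute [local instance] Fermat.Agent.S55.Global.SemilocalH3.finiteDimensional_nf

section Generic

variable (K L : Type) [Field K] [NumberField K] [Field L] [NumberField L] [Algebra K L]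
  [IsGalois K L]
variable (F : Type) {Ω : Type} [Field F] [Field Ω] [Algebra K F] [Algebra F Ω] [Algebra K Ω]
  [IsScalarTower K F Ω] (e : L →ₐ[K] Ω)

/-- the decomposition group of `𝔪_e` has the order of `Gal(F(eL)/F)`. -/
theorem card_stabilizer_kerIdeal :
    Nat.card (MulAction.stabilizer (L ≃ₐ[K] L) (kerIdeal (F := F) e)) =
      Nat.card (genField (F := F) e ≃ₐ[F] genField (F := F) e) :=
  Nat.card_congr (stabEquiv (Fermat.Agent.S55.Global.SemilocalH3.hact K L F) e).toEquiv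

/-- hence so does `H²(Gal(L/K), (L ⊗[K] F)ˣ)` when `F` is a completion of `K`. -/
theorem card_H2_Jloc_eq (q : Nat.Primes) (𝔪 : Ideal (Ksemi K q)) [h𝔪 : 𝔪.IsMaximal]
    [Algebra (Kloc K q 𝔪) Ω] [IsScalarTower K (Kloc K q 𝔪) Ω] (e : L →ₐ[K] Ω) :
    letI := Ideal.Quotient.field 𝔪
    Nat.card (groupCohomology (Jloc K L q 𝔪) 2) =
      Nat.card (genField (F := Kloc K q 𝔪) e ≃ₐ[Kloc K q 𝔪] genField (F := Kloc K q 𝔪) e) := by
  letI := Ideal.Quotient.field 𝔪
  rw [← card_stabilizer_kerIdeal K L (Kloc K q 𝔪) e]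
  exact Global.SemilocalFinal.card_H2_Jloc K L q 𝔪 (kerIdeal (F := Kloc K q 𝔪) e)

end Generic

variable (S : Finset Nat.Primes) (P : Subgroup GQ)

section SemiMain

variable (L : IntermediateField ℚ Qbar) [Normal ℚ L] (hL : L.IsUnramifiedOutside S)
  (hle : L.fixingSubgroup ≤ P) (hKL : K₀ P ≤ L)
  [NumberField ↥(K₀ P)] [NumberField ↥(Lext P L hKL)] [IsGalois ↥(K₀ P) ↥(Lext P L hKL)]
  (q : Nat.Primes) (t : GQ)
  {F : Type} [Field F] [Algebra ↥(K₀ P) F] [Algebra F (PadicAlgCl (q : ℕ))]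
  [Algebra ↥(K₀ P) (PadicAlgCl (q : ℕ))] [IsScalarTower ↥(K₀ P) F (PadicAlgCl (q : ℕ))]
  (e : ↥(Lext P L hKL) →ₐ[↥(K₀ P)] PadicAlgCl (q : ℕ))
  (hF : Set.range (algebraMap F (PadicAlgCl (q : ℕ))) =
    Set.range (algebraMap ↥(Fermat.Agent.S55.LM.GaloisDict.baseField (q : ℕ) (Dloc P q t))
      (PadicAlgCl (q : ℕ))))
  (hE : ((genField (F := F) e : IntermediateField F (PadicAlgCl (q : ℕ))) :
      Set (PadicAlgCl (q : ℕ))) =
    ((Fermat.Agent.S55.LM.GaloisDict.levelField (q : ℕ) (levelSub P q t L.fixingSubgroup) :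
      IntermediateField _ (PadicAlgCl (q : ℕ))) : Set (PadicAlgCl (q : ℕ))))

include hL hle hF hE in
/-- `Gal(F(eL')/F)` has the order of `Dloc P q t ⧸ levelSub`. -/
theorem card_gal_genField_semi :
    Nat.card (genField (F := F) e ≃ₐ[F] genField (F := F) e) =
      (levelSub P q t L.fixingSubgroup).index := by
  rw [Subgroup.index_eq_card]
  exact Nat.card_congr (plSemi S P L hL hle hKL q t e hF hE).e.symm.toEquiv

end SemiMain

section Final

variable (L : IntermediateField ℚ Qbar) [Normal ℚ L] (hL : L.IsUnramifiedOutside S)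
  (hle : L.fixingSubgroup ≤ P) (hKL : K₀ P ≤ L)
  [NumberField ↥(K₀ P)] [NumberField ↥(Lext P L hKL)] (q : Nat.Primes) (t : GQ)

include hL hle in
/-- **the local group at the place `mAt P q t` has order `[Dloc P q t : Dloc N q t]`**,
`N = Gal(ℚ̄/L)`. -/
theorem card_H2_Jloc_mAt :
    Nat.card (groupCohomology (Jloc ↥(K₀ P) ↥(Lext P L hKL) q (mAt P q t)) 2) =
      (levelSub P q t L.fixingSubgroup).index := by
  letI := fieldKloc P q t
  letI := algKlocOm P q t
  letI := algKOm P q t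
  haveI := tower_K_Kloc_Om P q t
  haveI := isGalois_Lext P L hKL
  let e : ↥(Lext P L hKL) →ₐ[↥(K₀ P)] PadicAlgCl (q : ℕ) :=
    { toRingHom := eLring P q t L hKL
      commutes' := fun _ => rfl }
  have hP : IsOpenS S P := ⟨L.fixingSubgroup, fixingSubgroup_mem S L hL, hle⟩
  have hF : Set.range (algebraMap (Kloc ↥(K₀ P) q (mAt P q t)) (PadicAlgCl (q : ℕ))) =
      Set.range (algebraMap ↥(Fermat.Agent.S55.LM.GaloisDict.baseField (q : ℕ) (Dloc P q t))
        (PadicAlgCl (q : ℕ))) := by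
    show Set.range (klocEmb P q t) = _
    rw [range_klocEmb, localFieldOf_eAt, ← baseField_Dloc_of_isOpenS S P q t hP]
    exact (Subtype.range_coe).symm
  have hT : Set.range e = emb q t '' (L : Set Qbar) := range_eLring P q t L hKL
  have hE : ((genField (F := Kloc ↥(K₀ P) q (mAt P q t)) e :
      IntermediateField (Kloc ↥(K₀ P) q (mAt P q t)) (PadicAlgCl (q : ℕ))) :
        Set (PadicAlgCl (q : ℕ))) =
      ((Fermat.Agent.S55.LM.GaloisDict.levelField (q : ℕ) (levelSub P q t L.fixingSubgroup) :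
        IntermediateField _ (PadicAlgCl (q : ℕ))) : Set (PadicAlgCl (q : ℕ))) := by
    have h0 : ((genField (F := Kloc ↥(K₀ P) q (mAt P q t)) e :
        IntermediateField (Kloc ↥(K₀ P) q (mAt P q t)) (PadicAlgCl (q : ℕ))) :
          Set (PadicAlgCl (q : ℕ))) =
        (IntermediateField.adjoin ℚ_[(q : ℕ)] (Set.range e) : Set (PadicAlgCl (q : ℕ))) := by
      apply coe_adjoin_eq (F₀ := ℚ_[(q : ℕ)])
      · show Set.range (algebraMap ℚ_[(q : ℕ)] (PadicAlgCl (q : ℕ))) ⊆ Set.range (klocEmb P q t)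
        rw [range_klocEmb]
        rintro _ ⟨c, rfl⟩
        exact (localFieldOf (eAt P q t)).algebraMap_mem c
      · show Set.range (klocEmb P q t) ⊆ _
        rw [range_klocEmb, localFieldOf_eAt, hT]
        apply IntermediateField.adjoin.mono
        exact Set.image_mono hKL
    rw [h0, hT]
    ext x
    exact (mem_levelField_levelSub_iff P q t L hle x).symm
  rw [← card_gal_genField_semi S P L hL hle hKL q t e hF hE]
  exact card_H2_Jloc_eq ↥(K₀ P) ↥(Lext P L hKL) q (mAt P q t) e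

include hL hle in
set_option synthInstance.maxHeartbeats 400000 in
/-- the same for the decomposition group of ANY place `m` of `L'` above `mAt P q t`. -/
theorem card_stabilizer_mAt [IsGalois ↥(K₀ P) ↥(Lext P L hKL)]
    (m : Ideal (↥(Lext P L hKL) ⊗[↥(K₀ P)] Kloc ↥(K₀ P) q (mAt P q t))) [m.IsMaximal] :
    Nat.card (MulAction.stabilizer (↥(Lext P L hKL) ≃ₐ[↥(K₀ P)] ↥(Lext P L hKL)) m) =
      (levelSub P q t L.fixingSubgroup).index := by
  rw [← card_H2_Jloc_mAt S P L hL hle hKL q t]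
  exact (Global.SemilocalFinal.card_H2_Jloc ↥(K₀ P) ↥(Lext P L hKL) q (mAt P q t) m).symm

end Final

/-! ### divisibility at the cyclotomic levels -/

section Growth

open Fermat.Agent.S55.Middle.CycloGrowIndex Fermat.Agent.S55.Middle.CycloGrowLevel
open Fermat.Agent.S55.Middle.CycloPow

variable (p : ℕ) [hp : Fact p.Prime]
variable (L : IntermediateField ℚ Qbar) [Normal ℚ L] (hL : L.IsUnramifiedOutside S)
  (hle : L.fixingSubgroup ≤ P) (hKL : K₀ P ≤ L)
  [NumberField ↥(K₀ P)] [NumberField ↥(Lext P L hKL)] (q : Nat.Primes) (t : GQ)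

include hL hle in
/-- **Producer of the `hcard` hypothesis of `ImageFiniteCore.exists_isGlobal_add_single`** (and of
`hdvd` in `ImageFiniteLocal`): if `K = ℚ̄^P ∋ ζ_p` and the level `L` contains the `p^m`-th roots of
unity, `m ≥ k + lossAt p q + v_p [Γ_q : Dloc P q t]`, then `p^k` divides the order of the local
group `H²(Gal(L'/K), (L' ⊗[K] K_𝔪)ˣ)` at `𝔪 = mAt P q t`. -/
theorem pow_dvd_card_H2_Jloc_mAt (hodd : Odd p) (hPχ : ∀ g ∈ P, cycloChar p g = 1) (k m : ℕ)
    (hm : k + lossAt p q + padicValNat p (Dloc P q t).index ≤ m)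
    (hLm : L.fixingSubgroup ≤ fixRoots (p ^ m)) :
    p ^ k ∣ Nat.card (groupCohomology (Jloc ↥(K₀ P) ↥(Lext P L hKL) q (mAt P q t)) 2) := by
  have hP : IsOpenS S P := ⟨L.fixingSubgroup, fixingSubgroup_mem S L hL, hle⟩
  haveI := finiteIndex_of_isOpenS hP
  rw [card_H2_Jloc_mAt S P L hL hle hKL q t]
  exact pow_dvd_index_subgroupOf p hodd q P Subgroup.FiniteIndex.index_ne_zero hPχ t k m hm
    L.fixingSubgroup hle (fun g hg => mem_fixRoots.1 (hLm hg))

include hL hle in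
/-- the same with the hypothesis `ℚ(ζ_{p^m}) ≤ L`. -/
theorem pow_dvd_card_H2_Jloc_mAt' (hodd : Odd p) (hPχ : ∀ g ∈ P, cycloChar p g = 1) (k m : ℕ)
    (hm : k + lossAt p q + padicValNat p (Dloc P q t).index ≤ m)
    (hLm : cycloPowField p m ≤ L) :
    p ^ k ∣ Nat.card (groupCohomology (Jloc ↥(K₀ P) ↥(Lext P L hKL) q (mAt P q t)) 2) := by
  refine pow_dvd_card_H2_Jloc_mAt S P p L hL hle hKL q t hodd hPχ k m hm ?_
  rw [fixRoots_eq_fixingSubgroup]
  exact IntermediateField.fixingSubgroup_antitone hLm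

include hL hle in
set_option synthInstance.maxHeartbeats 400000 in
/-- decomposition-group form (`hdvd` of `ImageFiniteLocal.exists_isGlobal_add_place`). -/
theorem pow_dvd_card_stabilizer_mAt [IsGalois ↥(K₀ P) ↥(Lext P L hKL)] (hodd : Odd p)
    (hPχ : ∀ g ∈ P, cycloChar p g = 1) (k m : ℕ)
    (hm : k + lossAt p q + padicValNat p (Dloc P q t).index ≤ m)
    (hLm : L.fixingSubgroup ≤ fixRoots (p ^ m))
    (𝔐 : Ideal (↥(Lext P L hKL) ⊗[↥(K₀ P)] Kloc ↥(K₀ P) q (mAt P q t))) [𝔐.IsMaximal] :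
    p ^ k ∣ Nat.card (MulAction.stabilizer (↥(Lext P L hKL) ≃ₐ[↥(K₀ P)] ↥(Lext P L hKL)) 𝔐) := by
  rw [card_stabilizer_mAt S P L hL hle hKL q t 𝔐, ← card_H2_Jloc_mAt S P L hL hle hKL q t]
  exact pow_dvd_card_H2_Jloc_mAt S P p L hL hle hKL q t hodd hPχ k m hm hLm

end Growth

/-! ### uniform forms -/

section Uniform

open Fermat.Agent.S55.Middle.CycloGrowIndex Fermat.Agent.S55.Middle.CycloGrowLevel
open Fermat.Agent.S55.Middle.CycloPow

variable (p : ℕ) [hp : Fact p.Prime]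

/-- **Uniform level**: one `m₀` for all the places `(q, t) : R.Idx` above `S` and all levels `L`
containing `ℚ(ζ_{p^m})`, `m ≥ m₀`. -/
theorem exists_level_pow_dvd_card (hodd : Odd p) (hPχ : ∀ g ∈ P, cycloChar p g = 1)
    (R : Reps S P) (k : ℕ) :
    ∃ m₀ : ℕ, ∀ m, m₀ ≤ m → ∀ (L : IntermediateField ℚ Qbar) [Normal ℚ L]
      (_ : L.IsUnramifiedOutside S) (_ : L.fixingSubgroup ≤ P) (hKL : K₀ P ≤ L)
      [NumberField ↥(K₀ P)] [NumberField ↥(Lext P L hKL)],
      L.fixingSubgroup ≤ fixRoots (p ^ m) → ∀ i : R.Idx,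
        p ^ k ∣ Nat.card (groupCohomology
          (Jloc ↥(K₀ P) ↥(Lext P L hKL) i.1.1 (mAt P i.1.1 i.2.1)) 2) := by
  classical
  refine ⟨Finset.univ.sup (fun i : R.Idx =>
    k + lossAt p i.1.1 + padicValNat p (Dloc P i.1.1 i.2.1).index), ?_⟩
  intro m hm L _ hL hle hKL _ _ hLm i
  have hmi : k + lossAt p i.1.1 + padicValNat p (Dloc P i.1.1 i.2.1).index ≤ m :=
    le_trans (Finset.le_sup (f := fun i : R.Idx =>
      k + lossAt p i.1.1 + padicValNat p (Dloc P i.1.1 i.2.1).index) (Finset.mem_univ i)) hm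
  exact pow_dvd_card_H2_Jloc_mAt S P p L hL hle hKL i.1.1 i.2.1 hodd hPχ k m hmi hLm

/-- `Pl`-language form (helper44's `LocSFam.plOf`, helper34's `ImageFiniteCore.HJ`): the `hcard`
hypothesis of `ImageFiniteCore.exists_isGlobal_add_single` at the place `plOf R i`. -/
theorem pow_dvd_card_HJ_plOf (hodd : Odd p) (hPχ : ∀ g ∈ P, cycloChar p g = 1)
    (R : Reps S P) (i : R.Idx) (k m : ℕ)
    (hm : k + lossAt p i.1.1 + padicValNat p (Dloc P i.1.1 i.2.1).index ≤ m)
    (L : IntermediateField ℚ Qbar) [Normal ℚ L] (hL : L.IsUnramifiedOutside S)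
    (hle : L.fixingSubgroup ≤ P) (hKL : K₀ P ≤ L)
    [NumberField ↥(K₀ P)] [NumberField ↥(Lext P L hKL)]
    (hLm : L.fixingSubgroup ≤ fixRoots (p ^ m)) :
    p ^ k ∣ Nat.card (ImageFiniteCore.HJ ↥(K₀ P) ↥(Lext P L hKL) (LocSFam.plOf R i)) :=
  pow_dvd_card_H2_Jloc_mAt S P p L hL hle hKL i.1.1 i.2.1 hodd hPχ k m hm hLm

/-- a nonzero class of order `p` at the place `plOf R i` (the `b₀` of
`ImageFiniteCore.exists_isGlobal_sub_nsmul_single`). -/
theorem exists_torsion_ne_zero_plOf (hodd : Odd p) (hPχ : ∀ g ∈ P, cycloChar p g = 1)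
    (R : Reps S P) (i : R.Idx) (m : ℕ)
    (hm : 1 + lossAt p i.1.1 + padicValNat p (Dloc P i.1.1 i.2.1).index ≤ m)
    (L : IntermediateField ℚ Qbar) [Normal ℚ L] (hL : L.IsUnramifiedOutside S)
    (hle : L.fixingSubgroup ≤ P) (hKL : K₀ P ≤ L)
    [NumberField ↥(K₀ P)] [NumberField ↥(Lext P L hKL)]
    (hLm : L.fixingSubgroup ≤ fixRoots (p ^ m)) :
    ∃ b₀ : ImageFiniteCore.HJ ↥(K₀ P) ↥(Lext P L hKL) (LocSFam.plOf R i),
      p • b₀ = 0 ∧ b₀ ≠ 0 := by
  haveI := isGalois_Lext P L hKL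
  refine ImageFiniteLocal.exists_torsion_ne_zero hp.out (LocSFam.plOf R i) ?_
  have h := pow_dvd_card_HJ_plOf S P p hodd hPχ R i 1 m hm L hL hle hKL hLm
  rwa [pow_one] at h

end Uniform

end

end Fermat.Agent.S55.Middle.LocSCard
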