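/-
S55 / MIDDLE block, row `M.hbnFinite` (helper35): the FINITE-LEVEL CORE of `HbnColim`.

`Blocks3.HasseH2 p` is the Hasse principle for `H²(Gal(L/K), Lˣ)` when `L/K` is Galois of
`p`-POWER degree.  Here we extend it to the `p`-PRIMARY classes of `H²(Gal(L/K), Lˣ)` for `L/K`
Galois of ANY degree (`K ∋ ζ_p`): restrict to the fixed field `K'` of a Sylow `p`-subgroup
(restriction is injective on `p`-primary classes: `Tate/ResCor`), local triviality is inherited by
the restriction (`RecipDefs.gRes_comp_locH` + `RecipPlaces.klocMap`), and `L/K'` has `p`-power degree.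

* `eq_zero_of_gRes_eq_zero` : tower `K → M → N`, `[M:K]` prime to `p`: a `p`-primary class of
  `H²(Gal(N/K), Nˣ)` whose restriction to `Gal(N/M)` vanishes is zero;
* `locH_gRes_eq_zero` : local triviality passes to the restriction;
* `hasseH2_pPrimary` : `Blocks3.HasseH2 p → HasseH2Primary p`;
* `hbnFinite` : the `T`-unit form consumed by `HbnColim`.
-/
import Mathlib
import Fermat.Agent.S55.Global.Blocks3
import Fermat.Agent.S55.Global.RecipDefs
import Fermat.Agent.S55.Global.RecipPlaces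
import Fermat.Agent.S55.Tate.ResCor
import Fermat.Agent.S55.Middle.UnitsToL

set_option autoImplicit false
set_option linter.unusedSectionVars false
set_option linter.style.haveILetI false

open NumberField IsDedekindDomain TensorProduct CategoryTheory groupCohomology

namespace Fermat.Agent.S55.Middle.HbnFinite

open Fermat.Agent.S55.Global.Objects Fermat.Agent.S55.Global.Objects2
  Fermat.Agent.S55.Global.Objects3 Fermat.Agent.S55.Global.Blocks3
  Fermat.Agent.S55.Global.RecipDefs Fermat.Agent.S55.Global.RecipPlaces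

section tower

variable (K : Type) [Field K] [NumberField K]
variable (M : Type) [Field M] [NumberField M] [Algebra K M]
variable (N : Type) [Field N] [NumberField N] [Algebra K N] [Algebra M N] [IsScalarTower K M N]

theorem subHom_injective : Function.Injective (subHom K M N) :=
  AlgEquiv.restrictScalarsHom_injective K

/-- The image of `Gal(N/M)` in `Gal(N/K)`. -/
noncomputable abbrev galSub : Subgroup (N ≃ₐ[K] N) := (subHom K M N).range

/-- `Gal(N/M) ≃* its image in Gal(N/K)`, inverted. -/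
noncomputable def galSubEquiv : ↥(galSub K M N) ≃* (N ≃ₐ[M] N) :=
  (MonoidHom.ofInjective (subHom_injective K M N)).symm

theorem subHom_galSubEquiv (s : ↥(galSub K M N)) :
    subHom K M N (galSubEquiv K M N s) = (s : N ≃ₐ[K] N) :=
  MonoidHom.apply_ofInjective_symm (subHom_injective K M N) s

/-- `Res_{galSub}(Nˣ as Gal(N/K)-module)` vs `Nˣ as Gal(N/M)-module` along `galSubEquiv`
(identity on carriers). -/
noncomputable def backRep :
    Rep.res (galSubEquiv K M N).toMonoidHom (Rep.ofAlgebraAutOnUnits M N) ⟶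
      Rep.res (galSub K M N).subtype (Rep.ofAlgebraAutOnUnits K N) :=
  Rep.ofHom ⟨LinearMap.id, fun s => LinearMap.ext fun a => by
    have h := subHom_galSubEquiv K M N s
    show (Rep.ofAlgebraAutOnUnits M N).ρ (galSubEquiv K M N s) a =
      (Rep.ofAlgebraAutOnUnits K N).ρ (s : N ≃ₐ[K] N) a
    rw [← h]
    rfl⟩

/-- Restriction to the subgroup `galSub` factors through `gRes`. -/
theorem res_galSub_eq (n : ℕ) :
    groupCohomology.map (galSub K M N).subtype
        (𝟙 (Rep.res (galSub K M N).subtype (Rep.ofAlgebraAutOnUnits K N))) n =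
      gRes K M N n ≫ groupCohomology.map (galSubEquiv K M N).toMonoidHom (backRep K M N) n := by
  unfold gRes
  rw [← groupCohomology.map_comp]
  refine groupCohomology.map_congr ?_ ?_ n
  · ext s : 1
    exact (subHom_galSubEquiv K M N s).symm
  · rfl

/-- An extension of number fields is finite. -/
theorem finiteDimensional_nf' (K L : Type) [Field K] [NumberField K] [Field L] [NumberField L]
    [Algebra K L] : FiniteDimensional K L :=
  Module.Finite.of_restrictScalars_finite ℚ K L

/-- `[Gal(N/K) : Gal(N/M)] = [M : K]`. -/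
theorem galSub_index [IsGalois K N] : (galSub K M N).index = Module.finrank K M := by
  haveI : FiniteDimensional K N := finiteDimensional_nf' K N
  haveI : FiniteDimensional M N := finiteDimensional_nf' M N
  haveI : FiniteDimensional K M := finiteDimensional_nf' K M
  haveI : IsGalois M N := IsGalois.tower_top_of_isGalois K M N
  have h1 : (galSub K M N).index * Nat.card ↥(galSub K M N) = Nat.card (N ≃ₐ[K] N) :=
    Subgroup.index_mul_card _
  have h2 : Nat.card ↥(galSub K M N) = Nat.card (N ≃ₐ[M] N) :=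
    Nat.card_congr (galSubEquiv K M N).toEquiv
  rw [h2, IsGalois.card_aut_eq_finrank, IsGalois.card_aut_eq_finrank,
    ← Module.finrank_mul_finrank K M N] at h1
  have hpos : 0 < Module.finrank M N := Module.finrank_pos
  exact Nat.eq_of_mul_eq_mul_right hpos h1

/-- **Restriction to a subextension of degree prime to `p` is injective on `p`-primary classes**
of `H²(Gal(N/K), Nˣ)`. -/
theorem eq_zero_of_gRes_eq_zero [IsGalois K N] {p a : ℕ}
    (hp : Nat.Coprime (Module.finrank K M) p)
    (x : groupCohomology (Rep.ofAlgebraAutOnUnits K N) 2) (hpx : p ^ a • x = 0)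
    (hres : gRes K M N 2 x = 0) : x = 0 := by
  haveI : FiniteDimensional K N := finiteDimensional_nf' K N
  haveI : Finite (N ≃ₐ[K] N) := inferInstance
  haveI : (galSub K M N).FiniteIndex := inferInstance
  have hidx : Nat.Coprime (galSub K M N).index p := by
    rw [galSub_index]
    exact hp
  refine Fermat.Agent.S55.Tate.ResCor.eq_zero_of_res_eq_zero_of_coprime₂
    (Rep.ofAlgebraAutOnUnits K N) (galSub K M N) hidx x hpx ?_
  rw [res_galSub_eq]
  show (groupCohomology.map (galSubEquiv K M N).toMonoidHom (backRep K M N) 2)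
    ((gRes K M N 2) x) = 0
  rw [hres, map_zero]

/-- Local triviality at the place below passes to the restriction. -/
theorem locH_gRes_eq_zero (q : Nat.Primes) (𝔫 : Ideal (Ksemi M q)) [𝔫.IsMaximal]
    (x : groupCohomology (Rep.ofAlgebraAutOnUnits K N) 2)
    (hx : locH K N (Kloc K q (under K M q 𝔫)) 2 x = 0) :
    locH M N (Kloc M q 𝔫) 2 (gRes K M N 2 x) = 0 := by
  have h := ConcreteCategory.congr_hom (gRes_comp_locH K M N (Kloc K q (under K M q 𝔫))
    (Kloc M q 𝔫) (klocMap K M q 𝔫) 2) x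
  have h' : locH M N (Kloc M q 𝔫) 2 (gRes K M N 2 x) =
      lRes K M N (Kloc K q (under K M q 𝔫)) (Kloc M q 𝔫) (klocMap K M q 𝔫) 2
        (locH K N (Kloc K q (under K M q 𝔫)) 2 x) := h
  rw [h', hx, map_zero]

end tower

/-- **Hasse principle for the `p`-primary part of `H²(Gal(L/K), Lˣ)`**, `L/K` Galois of ANY
degree, `K ∋ ζ_p`. -/
def HasseH2Primary (p : ℕ) : Prop :=
  ∀ (K L : Type) [Field K] [NumberField K] [Field L] [NumberField L] [Algebra K L] [IsGalois K L],
    p.Prime → p ≠ 2 → (∃ ζ : K, IsPrimitiveRoot ζ p) →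
    ∀ (x : groupCohomology (Rep.ofAlgebraAutOnUnits K L) 2), (∃ j : ℕ, p ^ j • x = 0) →
      (∀ (q : Nat.Primes) (𝔪 : Ideal (Ksemi K q)), 𝔪.IsMaximal →
        locH K L (Kloc K q 𝔪) 2 x = 0) → x = 0

/-- `Blocks3.HasseH2 p` (for `p`-power degree) implies the Hasse principle for `p`-primary classes
in ANY degree (Sylow reduction). -/
theorem hasseH2_pPrimary (p : ℕ) (hH : HasseH2 p) : HasseH2Primary p := by
  intro K L _ _ _ _ _ _ hp hp2 hζ x hx hloc
  obtain ⟨j, hj⟩ := hx
  haveI : Fact p.Prime := ⟨hp⟩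
  let P : Sylow p (L ≃ₐ[K] L) := default
  let K' : IntermediateField K L := IntermediateField.fixedField (P : Subgroup (L ≃ₐ[K] L))
  haveI : NumberField ↥K' := NumberField.of_module_finite K ↥K'
  have hdeg : ∃ n : ℕ, Module.finrank ↥K' L = p ^ n := by
    rw [IntermediateField.finrank_fixedField_eq_card]
    exact P.2.exists_card_eq
  have hζ' : ∃ ζ : ↥K', IsPrimitiveRoot ζ p := by
    obtain ⟨ζ, hζ⟩ := hζ
    exact ⟨algebraMap K ↥K' ζ, hζ.map_of_injective (algebraMap K ↥K').injective⟩
  have hres : gRes K ↥K' L 2 x = 0 := by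
    apply hH ↥K' L hp hp2 hζ' hdeg
    intro q 𝔫 h𝔫
    haveI := h𝔫
    exact locH_gRes_eq_zero K ↥K' L q 𝔫 x (hloc q _ inferInstance)
  have hcop : Nat.Coprime (Module.finrank K ↥K') p := by
    rw [IntermediateField.finrank_eq_fixingSubgroup_index, IntermediateField.fixingSubgroup_fixedField]
    exact ((Nat.Prime.coprime_iff_not_dvd hp).2 P.not_dvd_index).symm
  exact eq_zero_of_gRes_eq_zero K ↥K' L hcop x hj hres

/-- **`HbnFinite`, generic coefficient form.**  `ι : E ⟶ Lˣ` any morphism of `Gal(L/K)`-modules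
(e.g. the `T`-units), `x ∈ H²(Gal(L/K), E)` of `p`-power order.  If the image `z` of `x` in
`H²(Gal(L/K), Lˣ)` is locally trivial at the places above `T` (`hS`, from (LOC-S)) and at the places
off `T` (`hU`, from the unramified-units row (U2)), then `z = 0`. -/
theorem hbnFinite_gen (p : ℕ) (hH : HasseH2 p)
    (K L : Type) [Field K] [NumberField K] [Field L] [NumberField L] [Algebra K L] [IsGalois K L]
    (hp : p.Prime) (hp2 : p ≠ 2) (hζ : ∃ ζ : K, IsPrimitiveRoot ζ p)
    {E : Rep ℤ (L ≃ₐ[K] L)} (ι : E ⟶ Rep.ofAlgebraAutOnUnits K L) (T : Finset Nat.Primes)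
    (x : groupCohomology E 2) (j : ℕ) (hx : p ^ j • x = 0)
    (hS : ∀ q ∈ T, ∀ 𝔪 : Ideal (Ksemi K q), 𝔪.IsMaximal →
      locH K L (Kloc K q 𝔪) 2 (groupCohomology.map (MonoidHom.id (L ≃ₐ[K] L)) ι 2 x) = 0)
    (hU : ∀ q : Nat.Primes, q ∉ T → ∀ 𝔪 : Ideal (Ksemi K q), 𝔪.IsMaximal →
      locH K L (Kloc K q 𝔪) 2 (groupCohomology.map (MonoidHom.id (L ≃ₐ[K] L)) ι 2 x) = 0) :
    groupCohomology.map (MonoidHom.id (L ≃ₐ[K] L)) ι 2 x = 0 := by
  refine hasseH2_pPrimary p hH K L hp hp2 hζ _ ⟨j, ?_⟩ ?_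
  · rw [← map_nsmul, hx, map_zero]
  · intro q 𝔪 h𝔪
    by_cases hq : q ∈ T
    · exact hS q hq 𝔪 h𝔪
    · exact hU q hq 𝔪 h𝔪

/-- **`HbnFinite`, `T`-unit form** (helper55 #2070): `x ∈ H²(Gal(L/K), En K L T)` of `p`-power
order, `z` its image in `H²(Gal(L/K), Lˣ)` through `UnitsToL.EntoLxn`. -/
theorem hbnFinite (p : ℕ) (hH : HasseH2 p)
    (K L : Type) [Field K] [NumberField K] [Field L] [NumberField L] [Algebra K L] [IsGalois K L]
    (hp : p.Prime) (hp2 : p ≠ 2) (hζ : ∃ ζ : K, IsPrimitiveRoot ζ p)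
    (T : Finset Nat.Primes) (hT : T.Nonempty)
    (x : groupCohomology (En K L T) 2) (j : ℕ) (hx : p ^ j • x = 0)
    (hS : ∀ q ∈ T, ∀ 𝔪 : Ideal (Ksemi K q), 𝔪.IsMaximal →
      locH K L (Kloc K q 𝔪) 2 (groupCohomology.map (MonoidHom.id (L ≃ₐ[K] L))
        (UnitsToL.EntoLxn K L T hT) 2 x) = 0)
    (hU : ∀ q : Nat.Primes, q ∉ T → ∀ 𝔪 : Ideal (Ksemi K q), 𝔪.IsMaximal →
      locH K L (Kloc K q 𝔪) 2 (groupCohomology.map (MonoidHom.id (L ≃ₐ[K] L))
        (UnitsToL.EntoLxn K L T hT) 2 x) = 0) :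
    groupCohomology.map (MonoidHom.id (L ≃ₐ[K] L)) (UnitsToL.EntoLxn K L T hT) 2 x = 0 :=
  hbnFinite_gen p hH K L hp hp2 hζ (UnitsToL.EntoLxn K L T hT) T x j hx hS hU

end Fermat.Agent.S55.Middle.HbnFinite
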