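import Mathlib
import Fermat.Agent.S14.BlockDFinal
import Fermat.Agent.S14.ArtinMapAbs
import Fermat.Agent.S55.Global.UnramAbelian
import Fermat.Agent.S55.Global.VSDim
import Fermat.Agent.S55.KummerVS
import Fermat.Agent.S55.Global.KummerDim

/-!
# S55 / Middle, row M.sha1 (core, language (B)): `dim Ш¹(G_S, 𝔽_p) ≤ dim Cl_S(K)[p]`

`K ∋ ζ_p` a number field (`p` odd), `L/K` a finite abelian extension of exponent `p`, unramified at
every finite prime, in which every prime of a set `S` has a prime above it with trivial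
decomposition group (equivalently: splits completely).  Then

  `#Gal(L/K) ≤ #Cl_S(K)[p]`,

for each of the models of the `S`-class group on main:

* `card_gal_le_of_hom` : general form, for any finite commutative group `C` with a surjection
  `π : Cl(K) → C` whose kernel is contained in the subgroup generated by the classes of `S`;
* `card_gal_le_torSub_ClS` : helper73's `VSDim.ClS S = ClassGroup ⧸ Hcl S`, `VSDim.torSub`;
* `card_gal_le_kummerVS` : helper56's `KummerVS.ClS K S = (FractionalIdeal)ˣ ⧸ NS K S`;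
* `card_gal_le_kummerDim` : helper37's `KummerDim.ClT K T` (divisor form, additive).

No Artin map appears in the hypotheses: its existence is S14 `blockD`, and the heavy lifting
(surjectivity = S14 `blockZ`, reciprocity for principal ideals = `UnramRecipGen`) is helper89's
`Global/UnramAbelian.card_le_of_split`.  Variants `*_of_inertiaDeg` take the splitting hypothesis in
the form `inertiaDeg = 1`.
-/

set_option autoImplicit false

namespace Fermat.Agent.S55.Middle.Sha1Core

open NumberField nonZeroDivisors IsDedekindDomain Fermat.Agent.S14 Fermat.Agent.S55.Global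
open scoped Pointwise

/-! ### Group theory -/

/-- `#C[p] = [C : C^p]` for a finite commutative group, in subtype form. -/
theorem card_pow_eq_one_eq_index (C : Type*) [CommGroup C] [Finite C] (p : ℕ) :
    Nat.card {x : C // x ^ p = 1} = ((powMonoidHom p : C →* C).range).index := by
  rw [← VSDim.powSub, ← VSDim.card_torSub_eq_index_powSub]
  exact Nat.card_congr (Equiv.subtypeEquivRight fun x => VSDim.mem_torSub.symm)

/-- `π : G ↠ C` with `ker π ≤ B` and `B` containing all `p`-th powers: `[G : B] ≤ #C[p]`. -/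
theorem index_le_card_pow_eq_one {G C : Type*} [CommGroup G] [CommGroup C] [Finite C]
    (π : G →* C) (hπ : Function.Surjective π) (p : ℕ) (B : Subgroup G) (hker : π.ker ≤ B)
    (hpB : ∀ g : G, g ^ p ∈ B) : B.index ≤ Nat.card {x : C // x ^ p = 1} := by
  rw [card_pow_eq_one_eq_index, ← Subgroup.index_map_eq B hπ hker]
  have hle : (powMonoidHom p : C →* C).range ≤ B.map π := by
    rintro _ ⟨c, rfl⟩
    obtain ⟨g, rfl⟩ := hπ c
    exact ⟨g ^ p, hpB g, by simp⟩
  exact Nat.le_of_dvd (Nat.pos_of_ne_zero Subgroup.index_ne_zero_of_finite)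
    (Subgroup.index_dvd_of_le hle)

/-! ### Splitting kills the Artin symbol -/

section Split

variable {K L : Type} [Field K] [NumberField K] [Field L] [NumberField L] [Algebra K L]
  [IsGalois K L]

/-- If some prime `P` of `L` above the prime `v` of `K` has trivial decomposition group, the Artin
symbol of `v` is trivial. -/
theorem art_eq_one_of_stabilizer {art : (Ideal (𝓞 K))⁰ →* (L ≃ₐ[K] L)} (hart : IsArtinMap K L art)
    (v : (Ideal (𝓞 K))⁰) (hv : (v : Ideal (𝓞 K)).IsPrime) (P : Ideal (𝓞 L)) (hP : P.IsPrime)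
    (hPv : P.LiesOver (v : Ideal (𝓞 K))) (hD : ∀ σ : L ≃ₐ[K] L, σ • P = P → σ = 1) :
    art v = 1 :=
  hD _ (MulAction.mem_stabilizer_iff.mp (hart.frob v P hv hP hPv).mem_stabilizer)

/-- If some prime `P` of `L` above the prime `v` of `K` has residue degree one (`L/K` unramified),
the Artin symbol of `v` is trivial. -/
theorem art_eq_one_of_inertiaDeg {art : (Ideal (𝓞 K))⁰ →* (L ≃ₐ[K] L)} (hart : IsArtinMap K L art)
    (hU : Unram K L) (v : (Ideal (𝓞 K))⁰) (hv : (v : Ideal (𝓞 K)).IsPrime) (P : Ideal (𝓞 L))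
    (hP : P.IsPrime) (hPv : P.LiesOver (v : Ideal (𝓞 K))) (hf : P.inertiaDeg (𝓞 K) = 1) :
    art v = 1 :=
  (ArtinMapAbs.art_eq_one_iff hart hU v P hv hP hPv).mpr hf

end Split

/-! ### The bound -/

section Bound

variable {K L : Type} [Field K] [NumberField K] [Field L] [NumberField L] [Algebra K L]
  [IsGalois K L]

/-- The splitting hypothesis, decomposition-group form. -/
def SplitAt (K L : Type) [Field K] [NumberField K] [Field L] [NumberField L] [Algebra K L]
    (S : Set (HeightOneSpectrum (𝓞 K))) : Prop :=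
  ∀ v ∈ S, ∃ P : Ideal (𝓞 L), P.IsPrime ∧ P.LiesOver v.asIdeal ∧
    ∀ σ : L ≃ₐ[K] L, σ • P = P → σ = 1

/-- The splitting hypothesis, residue-degree form. -/
def DegOneAt (K L : Type) [Field K] [NumberField K] [Field L] [NumberField L] [Algebra K L]
    (S : Set (HeightOneSpectrum (𝓞 K))) : Prop :=
  ∀ v ∈ S, ∃ P : Ideal (𝓞 L), P.IsPrime ∧ P.LiesOver v.asIdeal ∧ P.inertiaDeg (𝓞 K) = 1

/-- Core: if every prime of `S` has trivial Artin symbol for SOME Artin map, the bound holds. -/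
theorem card_gal_le_of_art {p : ℕ} (hp : p.Prime) (h3 : 3 ≤ p)
    (hζp : ∃ ζ : K, IsPrimitiveRoot ζ p) [IsMulCommutative (L ≃ₐ[K] L)]
    (hexp : ∀ σ : L ≃ₐ[K] L, σ ^ p = 1) (hU : Unram K L)
    (art : (Ideal (𝓞 K))⁰ →* (L ≃ₐ[K] L)) (hart : IsArtinMap K L art)
    (S : Set (HeightOneSpectrum (𝓞 K))) (hS : ∀ v ∈ S, art (VSDim.primeNZD v) = 1)
    {C : Type*} [CommGroup C] [Finite C] (π : ClassGroup (𝓞 K) →* C)
    (hπ : Function.Surjective π) (hker : π.ker ≤ VSDim.Hcl S) :
    Nat.card (L ≃ₐ[K] L) ≤ Nat.card {x : C // x ^ p = 1} := by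
  have h1 := UnramAbelian.card_le_of_split hp h3 hζp hexp hU art hart (VSDim.primeNZD '' S)
    (by rintro _ ⟨v, hv, rfl⟩; exact hS v hv)
  refine h1.trans (index_le_card_pow_eq_one π hπ p _ (hker.trans ?_) ?_)
  · rw [VSDim.Hcl, ← Set.image_image]
    exact Subgroup.closure_mono Set.subset_union_left
  · intro g
    exact Subgroup.subset_closure (Or.inr ⟨g, rfl⟩)

/-- **M.sha1, language (B), general form (decomposition groups).** -/
theorem card_gal_le_of_hom {p : ℕ} (hp : p.Prime) (h3 : 3 ≤ p)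
    (hζp : ∃ ζ : K, IsPrimitiveRoot ζ p) [IsMulCommutative (L ≃ₐ[K] L)]
    (hexp : ∀ σ : L ≃ₐ[K] L, σ ^ p = 1) (hU : Unram K L)
    (S : Set (HeightOneSpectrum (𝓞 K))) (hS : SplitAt K L S)
    {C : Type*} [CommGroup C] [Finite C] (π : ClassGroup (𝓞 K) →* C)
    (hπ : Function.Surjective π) (hker : π.ker ≤ VSDim.Hcl S) :
    Nat.card (L ≃ₐ[K] L) ≤ Nat.card {x : C // x ^ p = 1} := by
  obtain ⟨art, hart⟩ := BlockDFinal.blockD K L hU
  refine card_gal_le_of_art hp h3 hζp hexp hU art hart S (fun v hv => ?_) π hπ hker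
  obtain ⟨P, hP, hPv, hD⟩ := hS v hv
  exact art_eq_one_of_stabilizer hart (VSDim.primeNZD v) v.isPrime P hP hPv hD

/-- **M.sha1, language (B), general form (residue degrees).** -/
theorem card_gal_le_of_hom_of_inertiaDeg {p : ℕ} (hp : p.Prime) (h3 : 3 ≤ p)
    (hζp : ∃ ζ : K, IsPrimitiveRoot ζ p) [IsMulCommutative (L ≃ₐ[K] L)]
    (hexp : ∀ σ : L ≃ₐ[K] L, σ ^ p = 1) (hU : Unram K L)
    (S : Set (HeightOneSpectrum (𝓞 K))) (hS : DegOneAt K L S)
    {C : Type*} [CommGroup C] [Finite C] (π : ClassGroup (𝓞 K) →* C)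
    (hπ : Function.Surjective π) (hker : π.ker ≤ VSDim.Hcl S) :
    Nat.card (L ≃ₐ[K] L) ≤ Nat.card {x : C // x ^ p = 1} := by
  obtain ⟨art, hart⟩ := BlockDFinal.blockD K L hU
  refine card_gal_le_of_art hp h3 hζp hexp hU art hart S (fun v hv => ?_) π hπ hker
  obtain ⟨P, hP, hPv, hf⟩ := hS v hv
  exact art_eq_one_of_inertiaDeg hart hU (VSDim.primeNZD v) v.isPrime P hP hPv hf

end Bound

/-! ### The three models of `Cl_S` on main -/

section Models

variable {K L : Type} [Field K] [NumberField K] [Field L] [NumberField L] [Algebra K L]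
  [IsGalois K L]

/-- **M.sha1 for helper73's `VSDim.ClS`**: `#Gal(L/K) ≤ #Cl_S(K)[p]`. -/
theorem card_gal_le_torSub_ClS {p : ℕ} (hp : p.Prime) (h3 : 3 ≤ p)
    (hζp : ∃ ζ : K, IsPrimitiveRoot ζ p) [IsMulCommutative (L ≃ₐ[K] L)]
    (hexp : ∀ σ : L ≃ₐ[K] L, σ ^ p = 1) (hU : Unram K L)
    (S : Set (HeightOneSpectrum (𝓞 K))) (hS : SplitAt K L S) :
    Nat.card (L ≃ₐ[K] L) ≤ Nat.card (VSDim.torSub (VSDim.ClS S) p) := by
  have h := card_gal_le_of_hom hp h3 hζp hexp hU S hS (QuotientGroup.mk' (VSDim.Hcl S))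
    (QuotientGroup.mk'_surjective _) (by rw [QuotientGroup.ker_mk'])
  refine h.trans (le_of_eq (Nat.card_congr (Equiv.subtypeEquivRight fun x => ?_)))
  exact VSDim.mem_torSub.symm

/-- The kernel of helper56's `Cl(K) → Cl_S` is generated by the classes of `S`. -/
theorem ker_classGroupToClS_le (S : Set (HeightOneSpectrum (𝓞 K))) :
    (KummerVS.classGroupToClS (R := 𝓞 K) K S).ker ≤ VSDim.Hcl S := by
  intro c hc
  obtain ⟨I, rfl⟩ := ClassGroup.mk0_surjective c
  rw [MonoidHom.mem_ker, KummerVS.classGroupToClS_mk0, QuotientGroup.eq_one_iff,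
    KummerVS.mem_NS_iff] at hc
  obtain ⟨b, E, hE, hbE⟩ := hc
  have h1 : ClassGroup.mk0 I = ClassGroup.mk K E := by
    rw [← ClassGroup.mk_mk0 K I, ← hbE, map_mul, VSDim.mk_toPrincipalIdeal, one_mul]
  rw [h1, ← VSDim.map_HS K S]
  exact ⟨E, (VSDim.mem_HS_iff K S E).mpr hE, rfl⟩

/-- **M.sha1 for helper56's `KummerVS.ClS`**: `#Gal(L/K) ≤ #Cl_S(K)[p]`. -/
theorem card_gal_le_kummerVS {p : ℕ} (hp : p.Prime) (h3 : 3 ≤ p)
    (hζp : ∃ ζ : K, IsPrimitiveRoot ζ p) [IsMulCommutative (L ≃ₐ[K] L)]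
    (hexp : ∀ σ : L ≃ₐ[K] L, σ ^ p = 1) (hU : Unram K L)
    (S : Set (HeightOneSpectrum (𝓞 K))) (hS : SplitAt K L S) :
    Nat.card (L ≃ₐ[K] L) ≤ Nat.card {x : KummerVS.ClS (R := 𝓞 K) K S // x ^ p = 1} := by
  have hsurj : Function.Surjective (KummerVS.classGroupToClS (R := 𝓞 K) K S) :=
    KummerVS.classGroupToClS_surjective
  have hker := ker_classGroupToClS_le (K := K) S
  have h := card_gal_le_of_hom hp h3 hζp hexp hU S hS (C := KummerVS.ClS (R := 𝓞 K) K S)
    (KummerVS.classGroupToClS (R := 𝓞 K) K S) hsurj hker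
  exact h

/-- The kernel of helper37's `Cl(K) → Cl_T` is generated by the classes of `T`. -/
theorem ker_classGroupToClT_le (T : Set (HeightOneSpectrum (𝓞 K))) :
    (KummerDim.classGroupToClT (R := 𝓞 K) K T).ker ≤ VSDim.Hcl T := by
  intro c hc
  obtain ⟨I, rfl⟩ := ClassGroup.mk0_surjective c
  rw [MonoidHom.mem_ker, KummerDim.classGroupToClT, MonoidHom.comp_apply,
    MulEquiv.coe_toMonoidHom, ClassGroup.equiv_mk0] at hc
  have hmem : Multiplicative.toAdd (KummerDim.divFrac K T (FractionalIdeal.mk0 K I)) ∈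
      (KummerDim.divT K T).range := by
    rw [← QuotientAddGroup.eq_zero_iff]
    exact congrArg Multiplicative.toAdd hc
  obtain ⟨x, hx⟩ := hmem
  set E : (FractionalIdeal (𝓞 K)⁰ K)ˣ :=
    FractionalIdeal.mk0 K I * toPrincipalIdeal (𝓞 K) K (Additive.toMul x) with hE
  have hEmem : E ∈ VSDim.HS K T := by
    rw [VSDim.mem_HS_iff]
    intro v hv
    have h1 := KummerDim.divFrac_apply K T E ⟨v, hv⟩
    rw [← h1, hE, map_mul, toAdd_mul, KummerDim.divFrac_toPrincipalIdeal, ofMul_toMul, hx,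
      add_neg_cancel]
    rfl
  have h2 : ClassGroup.mk0 I = ClassGroup.mk K E := by
    rw [hE, map_mul, VSDim.mk_toPrincipalIdeal, mul_one, ClassGroup.mk_mk0]
  rw [h2, ← VSDim.map_HS K T]
  exact ⟨E, hEmem, rfl⟩

/-- **M.sha1 for helper37's `KummerDim.ClT`**: `#Gal(L/K) ≤ #Cl_T(K)[p]`. -/
theorem card_gal_le_kummerDim {p : ℕ} (hp : p.Prime) (h3 : 3 ≤ p)
    (hζp : ∃ ζ : K, IsPrimitiveRoot ζ p) [IsMulCommutative (L ≃ₐ[K] L)]
    (hexp : ∀ σ : L ≃ₐ[K] L, σ ^ p = 1) (hU : Unram K L)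
    (T : Set (HeightOneSpectrum (𝓞 K))) (hT : SplitAt K L T) :
    Nat.card (L ≃ₐ[K] L) ≤
      Nat.card (KummerDimAbstract.pMul (KummerDim.ClT (R := 𝓞 K) K T) p).ker := by
  have : Finite (KummerDim.ClT (R := 𝓞 K) K T) := KummerDim.finite_ClT (R := 𝓞 K) K T
  have hsurj : Function.Surjective (KummerDim.classGroupToClT (R := 𝓞 K) K T) :=
    KummerDim.classGroupToClT_surjective K T
  have hker := ker_classGroupToClT_le (K := K) T
  have h := card_gal_le_of_hom hp h3 hζp hexp hU T hT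
    (C := Multiplicative (KummerDim.ClT (R := 𝓞 K) K T))
    (KummerDim.classGroupToClT (R := 𝓞 K) K T) hsurj hker
  refine h.trans (le_of_eq (Nat.card_congr ?_))
  refine Equiv.subtypeEquiv Multiplicative.toAdd (fun x => ?_)
  rw [AddMonoidHom.mem_ker, KummerDimAbstract.pMul, nsmulAddMonoidHom_apply, ← toAdd_pow]
  exact ⟨fun h => by rw [h]; rfl, fun h => Multiplicative.toAdd.injective (by rw [h]; rfl)⟩

/-- Numerical corollary: if `Gal(L/K)` has order `p ^ r` and `#Cl_S(K)[p] = p ^ c` (in any of the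
models; here stated abstractly), then `r ≤ c`. -/
theorem le_of_pow_le_pow {p r c : ℕ} (hp : p.Prime) (h : p ^ r ≤ p ^ c) : r ≤ c :=
  (Nat.pow_le_pow_iff_right hp.one_lt).mp h

end Models

end Fermat.Agent.S55.Middle.Sha1Core
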