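import Fermat.Agent.S55.Middle.Sha1Field
import Fermat.Agent.S55.Middle.Sha1Core

/-!
# S55 / Middle, row M.sha1: the final glue `dim Ш¹(U; 𝔽_p) ≤ log_p #Cl_T(K₀)[p]`

`Sha1Field.finrank_le_of_bound` (helper89: characters of `U = Gal(ℚ̄/K₀)` of level `S`, locally
trivial at `S`  ⟹  abelian exponent-`p` extensions `E/K₀`, unramified, split over `S`) composed with
`Sha1Core.card_gal_le_*` (helper53: `#Gal(E/K₀) ≤ #Cl_T(K₀)[p]`), for each of the three models of
the `T`-class group on main, `T` any set of primes of `K₀` lying over primes of `S`.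
-/

set_option autoImplicit false

open scoped Pointwise NumberField nonZeroDivisors

namespace Fermat.Agent.S55.Middle.Sha1Final

open IsDedekindDomain NumberField Fermat.Agent.S14 Fermat.Agent.S55.Global
open Fermat.Agent.S55.Middle.Sha1Field Fermat.Agent.S55.Middle.Sha1Core

/-- The primes of a number field `K` over the rational primes in `S`, as height-one primes. -/
def placesOver (K : Type) [Field K] [NumberField K] (S : Finset Nat.Primes) :
    Set (HeightOneSpectrum (𝓞 K)) :=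
  {v | ∃ q ∈ S, (((q : Nat.Primes) : ℕ) : 𝓞 K) ∈ v.asIdeal}

section Abstract

variable {K E : Type} [Field K] [NumberField K] [Field E] [NumberField E] [Algebra K E]

/-- helper89's `IsSplitUnram` gives helper53's `SplitAt` at every set of primes over `S`. -/
theorem splitAt_of_isSplitUnram {p : ℕ} {S : Finset Nat.Primes} (h : IsSplitUnram p S K E)
    (T : Set (HeightOneSpectrum (𝓞 K))) (hT : T ⊆ placesOver K S) : SplitAt K E T := by
  intro v hv
  obtain ⟨q, hqS, hqv⟩ := hT hv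
  have : v.asIdeal.IsMaximal := v.isMaximal
  obtain ⟨P, hPmax, hPv⟩ := Ideal.exists_maximal_ideal_liesOver_of_isIntegral (S := 𝓞 E) v.asIdeal
  refine ⟨P, hPmax.isPrime, hPv, h.split P hPmax.isPrime q hqS ?_⟩
  have h1 : algebraMap (𝓞 K) (𝓞 E) (((q : Nat.Primes) : ℕ) : 𝓞 K) ∈ P := by
    have h2 : v.asIdeal = P.under (𝓞 K) := hPv.over
    rw [h2] at hqv
    exact hqv
  simpa using h1

end Abstract

section Concrete

local notation "Qbar" => AlgebraicClosure ℚ
local notation "Γ" => (AlgebraicClosure ℚ ≃ₐ[ℚ] AlgebraicClosure ℚ)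

variable {p : ℕ} [Fact p.Prime] {S : Finset Nat.Primes} {K₀ : IntermediateField ℚ Qbar}

/-- The hypotheses on a space `W` of characters of `U = Gal(ℚ̄/K₀)`: additive, of level `S`,
trivial on all decomposition groups over `S`. -/
structure IsSha1Space (S : Finset Nat.Primes) (K₀ : IntermediateField ℚ Qbar)
    (W : Submodule (ZMod p) (K₀.fixingSubgroup → ZMod p)) : Prop where
  add : ∀ g ∈ W, ∀ σ τ, g (σ * τ) = g σ + g τ
  lev : ∀ g ∈ W, ∃ F : IntermediateField ℚ Qbar, F.IsUnramifiedOutside S ∧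
      ∀ σ : K₀.fixingSubgroup, (σ : Γ) ∈ F.fixingSubgroup → g σ = 0
  loc : ∀ g ∈ W, ∀ q ∈ S, ∀ A : ValuationSubring Qbar,
      A.LiesOverPrime ((q : Nat.Primes) : ℕ) →
      ∀ σ : K₀.fixingSubgroup, (σ : Γ) ∈ A.decompositionSubgroup ℚ → g σ = 0

/-- **`Ш¹(U; 𝔽_p) ≤ c`, general form**: any bound `B` valid for all `SplitAt`-extensions. -/
theorem finrank_le_of_splitAt_bound (hK : K₀.IsUnramifiedOutside S) [NumberField K₀]
    (T : Set (HeightOneSpectrum (𝓞 K₀))) (hT : T ⊆ placesOver K₀ S) (B : ℕ)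
    (hB : ∀ (E : Type) [Field E] [NumberField E] [Algebra K₀ E] [IsGalois K₀ E]
      [IsMulCommutative (E ≃ₐ[K₀] E)], (∀ σ : E ≃ₐ[K₀] E, σ ^ p = 1) → Unram K₀ E →
      SplitAt K₀ E T → Nat.card (E ≃ₐ[K₀] E) ≤ B)
    (W : Submodule (ZMod p) (K₀.fixingSubgroup → ZMod p)) (hW : IsSha1Space S K₀ W) :
    FiniteDimensional (ZMod p) W ∧ p ^ Module.finrank (ZMod p) W ≤ B :=
  finrank_le_of_bound hK B
    (fun E _ _ _ _ _ hE => hB E hE.exp hE.unram (splitAt_of_isSplitUnram hE T hT))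
    W hW.add hW.lev hW.loc

/-- **`Ш¹(U; 𝔽_p) ≤ c`** with `p ^ c = #Cl_T(K₀)[p]` in helper37's `KummerDim.ClT` model. -/
theorem finrank_le_kummerDim (h3 : 3 ≤ p) (hK : K₀.IsUnramifiedOutside S) [NumberField K₀]
    (hζ : ∃ ζ : K₀, IsPrimitiveRoot ζ p)
    (T : Set (HeightOneSpectrum (𝓞 K₀))) (hT : T ⊆ placesOver K₀ S)
    (W : Submodule (ZMod p) (K₀.fixingSubgroup → ZMod p)) (hW : IsSha1Space S K₀ W) :
    FiniteDimensional (ZMod p) W ∧ p ^ Module.finrank (ZMod p) W ≤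
      Nat.card (KummerDimAbstract.pMul (KummerDim.ClT (R := 𝓞 K₀) K₀ T) p).ker :=
  finrank_le_of_splitAt_bound hK T hT _
    (fun _ _ _ _ _ _ hexp hU hS => card_gal_le_kummerDim Fact.out h3 hζ hexp hU T hS) W hW

/-- **`Ш¹(U; 𝔽_p) ≤ c`** with `p ^ c = #Cl_T(K₀)[p]` in helper56's `KummerVS.ClS` model. -/
theorem finrank_le_kummerVS (h3 : 3 ≤ p) (hK : K₀.IsUnramifiedOutside S) [NumberField K₀]
    (hζ : ∃ ζ : K₀, IsPrimitiveRoot ζ p)
    (T : Set (HeightOneSpectrum (𝓞 K₀))) (hT : T ⊆ placesOver K₀ S)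
    (W : Submodule (ZMod p) (K₀.fixingSubgroup → ZMod p)) (hW : IsSha1Space S K₀ W) :
    FiniteDimensional (ZMod p) W ∧ p ^ Module.finrank (ZMod p) W ≤
      Nat.card {x : KummerVS.ClS (R := 𝓞 K₀) K₀ T // x ^ p = 1} :=
  finrank_le_of_splitAt_bound hK T hT _
    (fun _ _ _ _ _ _ hexp hU hS => card_gal_le_kummerVS Fact.out h3 hζ hexp hU T hS) W hW

/-- **`Ш¹(U; 𝔽_p) ≤ c`** with `p ^ c = #Cl_T(K₀)[p]` in helper73's `VSDim.ClS` model. -/
theorem finrank_le_torSub_ClS (h3 : 3 ≤ p) (hK : K₀.IsUnramifiedOutside S) [NumberField K₀]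
    (hζ : ∃ ζ : K₀, IsPrimitiveRoot ζ p)
    (T : Set (HeightOneSpectrum (𝓞 K₀))) (hT : T ⊆ placesOver K₀ S)
    (W : Submodule (ZMod p) (K₀.fixingSubgroup → ZMod p)) (hW : IsSha1Space S K₀ W) :
    FiniteDimensional (ZMod p) W ∧ p ^ Module.finrank (ZMod p) W ≤
      Nat.card (VSDim.torSub (VSDim.ClS T) p) :=
  finrank_le_of_splitAt_bound hK T hT _
    (fun _ _ _ _ _ _ hexp hU hS => card_gal_le_torSub_ClS Fact.out h3 hζ hexp hU T hS) W hW

end Concrete

end Fermat.Agent.S55.Middle.Sha1Final
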