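/-
S55 / MIDDLE block, row M.levelField (helper10): the ADAPTER between the standing hypotheses
`Blocks.Level p S P` on an open subgroup `P ≤ G_ℚ` and the NUMBER-FIELD data used by the count rows
(`GlobalH1Count`, `Sha1LC`, `CountP1`, `PlaceCount`, `FinH1`, ...), which are all stated for
`P = K₀.fixingSubgroup`, `K₀ : IntermediateField ℚ ℚ̄` a number field unramified outside `S` and
containing a primitive `p`-th root of unity.

* `fld P`                        : the fixed field `ℚ̄^P`;
* `fixingSubgroup_fld`           : `(fld P).fixingSubgroup = P`;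
* `isUnramifiedOutside_fld`      : `(fld P).IsUnramifiedOutside S`;
* `finiteDimensional_fld`, `numberField_fld`;
* `exists_zeta`                  : `∃ ζ : fld P, IsPrimitiveRoot ζ p` (from `cycloChar p` trivial on `P`);
* `level_fixingSubgroup_of_le`   : conversely `K₀.fixingSubgroup` is a `Level` as soon as `K₀` lies in a
  Galois field unramified outside `S` and contains `ζ_p`;
* `forall_level`                 : INDUCTION PRINCIPLE: a predicate `C : Subgroup GQ → Prop` that holds for
  all `K₀.fixingSubgroup` (`K₀` as above) holds for every `P` with `Level p S P`;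
* `SK K₀ S`                      : the `Finset` of all primes of `𝓞 K₀` over `S`, with `mem_SK`,
  `coe_SK` (`= Sha1Final.placesOver K₀ S`), `SK_spec` (the hypothesis `hSK` of `GlobalH1Count`).
-/
import Fermat.Agent.S55.Middle.Blocks
import Fermat.Agent.S55.Middle.GaloisDict
import Fermat.Agent.S55.Middle.Sha1Final
import Fermat.Agent.S55.Middle.SUnitDict
import Fermat.Agent.S55.GaloisLevelCyclo

set_option autoImplicit false
set_option linter.unusedSectionVars false

open scoped NumberField

namespace Fermat.Agent.S55.Middle.LevelField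

open IsDedekindDomain
open Fermat.Agent.S55.Formal
open Fermat.Agent.S55.Formal.PreludeLC hiding GQ Qbar
open Fermat.Agent.S55.Middle.Defs Fermat.Agent.S55.Middle.KSite Fermat.Agent.S55.Middle

variable {p : ℕ} [Fact p.Prime] {S : Finset Nat.Primes}

/-- the fixed field `K = ℚ̄^P` -/
noncomputable abbrev fld (P : Subgroup GQ) : IntermediateField ℚ Qbar := IntermediateField.fixedField P

section Level

variable {P : Subgroup GQ}

theorem fixingSubgroup_fld_of_isOpenS (h : IsOpenS S P) : (fld P).fixingSubgroup = P :=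
  (GaloisDict.fixedField_of_isOpenSub (S := S) (H := P) h).2

theorem isUnramifiedOutside_fld_of_isOpenS (h : IsOpenS S P) : (fld P).IsUnramifiedOutside S :=
  (GaloisDict.fixedField_of_isOpenSub (S := S) (H := P) h).1

theorem fixingSubgroup_fld (h : Blocks.Level p S P) : (fld P).fixingSubgroup = P :=
  fixingSubgroup_fld_of_isOpenS h.isOpen

theorem isUnramifiedOutside_fld (h : Blocks.Level p S P) : (fld P).IsUnramifiedOutside S :=
  isUnramifiedOutside_fld_of_isOpenS h.isOpen

theorem finiteDimensional_fld (h : Blocks.Level p S P) : FiniteDimensional ℚ (fld P) :=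
  (isUnramifiedOutside_fld h).1

theorem numberField_fld (h : Blocks.Level p S P) : NumberField (fld P) :=
  have := finiteDimensional_fld h
  { to_charZero := inferInstance, to_finiteDimensional := inferInstance }

/-- every `p`-th root of unity of `ℚ̄` lies in `ℚ̄^P`. -/
theorem mem_fld_of_pow_eq_one (h : Blocks.Level p S P) {t : Qbar} (ht : t ^ p = 1) : t ∈ fld P := by
  rw [IntermediateField.mem_fixedField_iff]
  intro g hg
  have h1 := Fermat.Agent.S55.GaloisLevelCyclo.cycloChar_spec' p g ht
  rw [h.triv g hg] at h1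
  haveI : Fact (1 < p) := ⟨(Fact.out : p.Prime).one_lt⟩
  rw [Units.val_one, ZMod.val_one, pow_one] at h1
  exact h1

/-- `μ_p ⊂ ℚ̄^P`. -/
theorem exists_zeta (h : Blocks.Level p S P) : ∃ ζ : fld P, IsPrimitiveRoot ζ p := by
  haveI : NeZero p := ⟨(Fact.out : p.Prime).ne_zero⟩
  haveI : NeZero (p : Qbar) := ⟨Nat.cast_ne_zero.2 (Fact.out : p.Prime).ne_zero⟩
  obtain ⟨ζ, hζ⟩ := HasEnoughRootsOfUnity.exists_primitiveRoot Qbar p
  refine ⟨⟨ζ, mem_fld_of_pow_eq_one h hζ.pow_eq_one⟩, ?_⟩
  exact IsPrimitiveRoot.of_map_of_injective (f := (fld P).val) (by simpa using hζ)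
    (fld P).val.injective

end Level

section Converse

/-- conversely: a subfield of a Galois field unramified outside `S`, containing `ζ_p`, gives a
`Level`. -/
theorem level_fixingSubgroup_of_le (K₀ F : IntermediateField ℚ Qbar) (hF : F.IsUnramifiedOutside S)
    (hFn : F.fixingSubgroup.Normal) (hle : K₀ ≤ F) (hζ : ∃ ζ : K₀, IsPrimitiveRoot ζ p) :
    Blocks.Level p S K₀.fixingSubgroup := by
  refine ⟨⟨F.fixingSubgroup, ⟨F, hF, hFn, rfl⟩, IntermediateField.fixingSubgroup_antitone hle⟩, ?_⟩
  intro g hg
  obtain ⟨ζ, hζ⟩ := hζ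
  have hζ' : IsPrimitiveRoot (ζ : Qbar) p := by
    have := hζ.map_of_injective (f := K₀.val) K₀.val.injective
    simpa using this
  refine Fermat.Agent.S55.GaloisLevelCyclo.cycloChar_eq_one_of_forall p g ?_
  intro t ht
  obtain ⟨i, -, rfl⟩ := hζ'.eq_pow_of_pow_eq_one ht
  rw [map_pow]
  congr 1
  exact (IntermediateField.mem_fixingSubgroup_iff K₀ g).1 hg _ ζ.2

end Converse

/-- **Induction principle**: to prove `C P` for every `P` with `Level p S P` it suffices to prove
`C K₀.fixingSubgroup` for every number field `K₀ ≤ ℚ̄` unramified outside `S` containing `ζ_p`. -/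
theorem forall_level {C : Subgroup GQ → Prop}
    (H : ∀ K₀ : IntermediateField ℚ Qbar, NumberField K₀ → K₀.IsUnramifiedOutside S →
      (∃ ζ : K₀, IsPrimitiveRoot ζ p) → Blocks.Level p S K₀.fixingSubgroup → C K₀.fixingSubgroup) :
    ∀ P : Subgroup GQ, Blocks.Level p S P → C P := by
  intro P hP
  have h := H (fld P) (numberField_fld hP) (isUnramifiedOutside_fld hP) (exists_zeta hP)
    (by rw [fixingSubgroup_fld hP]; exact hP)
  rwa [fixingSubgroup_fld hP] at h

/-- the same for `IsOpenS` alone. -/
theorem forall_isOpenS {C : Subgroup GQ → Prop}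
    (H : ∀ K₀ : IntermediateField ℚ Qbar, NumberField K₀ → K₀.IsUnramifiedOutside S →
      IsOpenS S K₀.fixingSubgroup → C K₀.fixingSubgroup) :
    ∀ P : Subgroup GQ, IsOpenS S P → C P := by
  intro P hP
  have hK := isUnramifiedOutside_fld_of_isOpenS hP
  haveI := hK.1
  have h := H (fld P) { to_charZero := inferInstance, to_finiteDimensional := inferInstance } hK
    (by rw [fixingSubgroup_fld_of_isOpenS hP]; exact hP)
  rwa [fixingSubgroup_fld_of_isOpenS hP] at h

section Places

variable (K₀ : IntermediateField ℚ Qbar) [NumberField K₀] (S)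

/-- the finite set of all primes of `𝓞 K₀` over `S` -/
noncomputable def SK : Finset (HeightOneSpectrum (𝓞 K₀)) :=
  (SUnitDict.placesAbove_finite (F := K₀) S).toFinset

theorem mem_SK (v : HeightOneSpectrum (𝓞 K₀)) :
    v ∈ SK S K₀ ↔ ∃ q ∈ S, (((q : Nat.Primes) : ℕ) : 𝓞 K₀) ∈ v.asIdeal := by
  rw [SK, Set.Finite.mem_toFinset]
  rfl

theorem coe_SK : (SK S K₀ : Set (HeightOneSpectrum (𝓞 K₀))) = Sha1Final.placesOver K₀ S := by
  ext v
  rw [Finset.mem_coe, mem_SK]
  rfl

theorem coe_SK_eq_placesAbove :
    (SK S K₀ : Set (HeightOneSpectrum (𝓞 K₀))) = SUnitDict.placesAbove K₀ S := by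
  rw [SK, Set.Finite.coe_toFinset]

/-- the hypothesis `hSK` of `GlobalH1Count.relIndex_VS_le_pow_finrank`. -/
theorem SK_spec : ∀ v ∈ SK S K₀, ∃ q ∈ S, (((q : Nat.Primes) : ℕ) : 𝓞 K₀) ∈ v.asIdeal :=
  fun v hv => (mem_SK S K₀ v).1 hv

end Places

end Fermat.Agent.S55.Middle.LevelField
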