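/-
S55 / MIDDLE block, row HbnColim part (B) (helper35): the PASSAGE from LC cohomology to the finite
levels for the Hasse principle `Blocks.HasseO p S`.

A `p`-primary class `x ∈ H²_LC(P; O_S)` which is locally trivial at the places of `K = ℚ̄^P` above `S`
has image `i₂ x = 0` in `H²_LC(P; ℚ_Sˣ)`:

* `OSDict.exists_finite_level_H2_OS` (helper67): `i₂ x = ι₂ (cohIsoExt⁻¹ (image of e))` for a class
  `e ∈ H²(Gal(L'/K), E_{L',S})` killed by `p^j`, `L/ℚ` finite Galois unramified outside `S`;
* `LocS.Statement S P` (helper14): the local components of `z_L = image of e` at the places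
  `mAt P q t`, `(q, t) ∈ R.Idx`, vanish; `Cover S`: these are all the places above `S`;
* `UnramOff S`: the local components of a class of `S`-units vanish off `S` (row (U2));
* `HbnFinite.hbnFinite`: hence `z_L = 0`, hence `i₂ x = 0`;
* `HasseOStep.hasseO_of_hbnKx` (helper94): hence `Blocks.HasseO p S`.
-/
import Fermat.Agent.S55.Middle.HbnFinite
import Fermat.Agent.S55.Middle.OSDict
import Fermat.Agent.S55.Middle.LocSDefs
import Fermat.Agent.S55.Middle.HasseOStep
import Fermat.Agent.S55.Middle.BasisChange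
import Fermat.Agent.S55.Bridge.LevelNat
import Fermat.Agent.S55.Middle.LevelField

set_option autoImplicit false
set_option linter.unusedSectionVars false
set_option linter.style.haveILetI false

open CategoryTheory groupCohomology ExtCitation

namespace Fermat.Agent.S55.Middle.HbnColimB

open Fermat.Agent.S55.Formal Fermat.Agent.S55.Formal.LCLevelH

section Generic

variable {k : Type} [CommRing k] {G : Type} [Group G] {𝒰 𝒰' : NBasis G}

/-- `ι₂` does not depend on the basis: it commutes with the identity morphism to a refining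
basis. -/
theorem idMor_h2_ι₂ (hr : BasisChange.Refines 𝒰 𝒰') (M : Rep.{0, 0, 0} k G)
    (U : Subgroup G) [U.Normal] [Finite (G ⧸ U)] (hU : 𝒰.mem U) (hU' : 𝒰'.mem U)
    (y : groupCohomology.H2 (M.quotientToInvariants U)) :
    (BasisChange.idMor hr M).h2 (ι₂ 𝒰 M U hU y) = ι₂ 𝒰' M U hU' y := by
  have h := Bridge.LevelNat.h2_ι₂ (BasisChange.idMor hr M) U U (fun s hs => hs) hU hU' y
  rw [h]
  congr 1
  have hq : Bridge.LevelNat.qf (BasisChange.idMor hr M) U U (fun s hs => hs) =
      MonoidHom.id (G ⧸ U) := by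
    ext g
    rfl
  have h2 : groupCohomology.map
      (Bridge.LevelNat.qf (BasisChange.idMor hr M) U U (fun s hs => hs))
      (Bridge.LevelNat.invHom (BasisChange.idMor hr M) U U (fun s hs => hs)) 2 =
      groupCohomology.map (MonoidHom.id (G ⧸ U)) (𝟙 (M.quotientToInvariants U)) 2 :=
    groupCohomology.map_congr hq (by
      apply LinearMap.ext
      intro m
      rfl) 2
  show (groupCohomology.map
      (Bridge.LevelNat.qf (BasisChange.idMor hr M) U U (fun s hs => hs))
      (Bridge.LevelNat.invHom (BasisChange.idMor hr M) U U (fun s hs => hs)) 2).hom y = y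
  rw [h2, groupCohomology.map_id]
  rfl

/-- a member of `NBasis.sub 𝒰 H` is a member of `subBasis 𝒰 H` -/
theorem mem_subBasis_of_mem_sub {G : Type} [Group G] {𝒰 : NBasis G} {H : Subgroup G}
    {V : Subgroup ↥H} (h : (Defs.NBasis.sub 𝒰 H).mem V) :
    (Bridge.ShapiroLC.subBasis 𝒰 H).mem V := by
  rcases h with rfl | ⟨W, hW, -, rfl⟩
  · exact ⟨⊤, 𝒰.top, by simp⟩
  · exact ⟨W, hW, rfl⟩

end Generic

section Main

open Fermat.Agent.S55.Formal.PreludeLC hiding GQ Qbar
open Fermat.Agent.S55.Middle.Defs Fermat.Agent.S55.Middle.KSite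
open Fermat.Agent.S55.Middle.Blocks Fermat.Agent.S55.Middle.LESGlueV
open Fermat.Agent.S55.Middle.GaloisDict Fermat.Agent.S55.Middle.GaloisDictModel
open Fermat.Agent.S55.Middle.OSDict
open Fermat.Agent.S55.Global.Blocks3 Fermat.Agent.S55.Global.Objects2

variable (p : ℕ) [Fact p.Prime] (S : Finset Nat.Primes)

/-- **(COVER)**: every place of `K = ℚ̄^P` above `q ∈ S` is `mAt P q t` for a representative
`t ∈ T_q`. -/
def Cover : Prop :=
  ∀ (P : Subgroup GQ), IsOpenS S P → ∀ (R : Reps S P) [NumberField ↥(K₀ P)] (q : ↥S)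
    (𝔪 : Ideal (Ksemi ↥(K₀ P) q.1)), 𝔪.IsMaximal → ∃ t : ↥(R.T q), LocS.mAt P q.1 t.1 = 𝔪

/-- **(U2′)**: classes of `S`-units are locally trivial off `S` (the extension being unramified
there), in the language of the Galois dictionary. -/
def UnramOff : Prop :=
  ∀ (P : Subgroup GQ), IsOpenS S P → ∀ (L : IntermediateField ℚ Qbar) [Normal ℚ L]
    (_hL : L.IsUnramifiedOutside S) (_hle : L.fixingSubgroup ≤ P) (hKL : K₀ P ≤ L)
    [NumberField ↥(K₀ P)] [NumberField ↥(Lext P L hKL)] (hS : S.Nonempty) (q : Nat.Primes),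
    q ∉ S → ∀ (𝔪 : Ideal (Ksemi ↥(K₀ P) q)), 𝔪.IsMaximal →
    ∀ e : groupCohomology (En ↥(K₀ P) ↥(Lext P L hKL) S) 2,
      locH ↥(K₀ P) ↥(Lext P L hKL) (Kloc ↥(K₀ P) q 𝔪) 2
        (groupCohomology.map (MonoidHom.id _)
          (UnitsToL.EntoLxn ↥(K₀ P) ↥(Lext P L hKL) S hS) 2 e) = 0

variable {p S}

/-- naturality of the change of basis with respect to `O_S → ℚ_Sˣ`. -/
theorem idMor_i₂ {P : Subgroup GQ} (hopen : IsOpenSub (globalBasis S) P)
    (x : H2 (basisP S P) (resP P (OS S))) :
    (BasisChange.idMor (BasisChange.subBasis_refines_sub (globalBasis S) P hopen) (kH S P)).h2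
        (i₂ S P (basisP S P) x) =
      (osMor S P).h2
        ((BasisChange.idMor (BasisChange.subBasis_refines_sub (globalBasis S) P hopen)
          (oH S P)).h2 x) := by
  have h : (Mor.ofHom (basisP S P) (φi S P)).comp
        (BasisChange.idMor (BasisChange.subBasis_refines_sub (globalBasis S) P hopen) (kH S P)) =
      (BasisChange.idMor (BasisChange.subBasis_refines_sub (globalBasis S) P hopen)
        (oH S P)).comp (osMor S P) :=
    Functor.mor_ext rfl rfl
  have h2 := congrArg (fun α => α.h2 x) h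
  simp only [Functor.comp_h2, LinearMap.comp_apply] at h2
  exact h2

/-- **HbnColim, passage half.**  A `p`-primary class of `H²_LC(P; O_S)` whose image in
`H²_LC(P; ℚ_Sˣ)` is locally trivial at the places above `S` has zero image. -/
theorem hbnKx (hp2 : p ≠ 2) (hpS : pPrime p ∈ S) (hH : HasseH2 p)
    (hLoc : ∀ P : Subgroup GQ, IsOpenS S P → LocS.Statement S P) (hCov : Cover S)
    (hU : UnramOff S)
    (P : Subgroup GQ) (hP : Level p S P) (R : Reps S P)
    (x : H2 (basisP S P) (resP P (OS S))) (j : ℕ) (hx : p ^ j • x = 0)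
    (hlt : LTSKx R (i₂ S P (basisP S P) x)) : i₂ S P (basisP S P) x = 0 := by
  have hopen : IsOpenSub (globalBasis S) P := hP.isOpen
  have hSne : S.Nonempty := ⟨_, hpS⟩
  have hr := BasisChange.subBasis_refines_sub (globalBasis S) P hopen
  have hr' := BasisChange.sub_refines_subBasis (globalBasis S) P
  have hx' : p ^ j • (BasisChange.idMor hr (oH S P)).h2 x = 0 := by
    rw [← map_nsmul, hx, map_zero]
  obtain ⟨L, hN, hL, hle, hKL, hV, hfin, hK, hL', e, he, heq⟩ :=
    exists_finite_level_H2_OS hopen hSne _ (p ^ j) hx'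
  haveI := hN
  haveI := hfin
  haveI := hK
  haveI := hL'
  haveI : IsGalois ↥(K₀ P) ↥(Lext P L hKL) := isGalois_Lext P L hKL
  have hV' : (basisP S P).mem (lvl P L) := mem_subBasis_of_mem_sub hV
  -- the finite-level class
  set zL : groupCohomology (Rep.ofAlgebraAutOnUnits ↥(K₀ P) ↥(Lext P L hKL)) 2 :=
    (groupCohomology.map (MonoidHom.id (↥(Lext P L hKL) ≃ₐ[↥(K₀ P)] ↥(Lext P L hKL)))
      (UnitsToL.EntoLxn ↥(K₀ P) ↥(Lext P L hKL) S hSne) 2).hom e with hzL
  have key : i₂ S P (basisP S P) x =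
      ι₂ (basisP S P) (resP P (KS S)) (lvl P L) hV'
        ((cohIsoExt S P L hKL hL hle 2).inv.hom zL) := by
    apply (BasisChange.idMor_h2_bijective (kH S P) hr hr').1
    rw [idMor_h2_ι₂ hr _ _ hV' hV, idMor_i₂ hopen x]
    exact heq
  -- local triviality of `zL` at all places
  have hzero : zL = 0 := by
    refine HbnFinite.hbnFinite p hH ↥(K₀ P) ↥(Lext P L hKL) (Fact.out : p.Prime) hp2
      (LevelField.exists_zeta hP) S hSne e j he ?_ ?_
    · intro q hq 𝔪 h𝔪
      obtain ⟨t, rfl⟩ := hCov P hP.isOpen R ⟨q, hq⟩ 𝔪 h𝔪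
      obtain ⟨jA, hinj, hcompat⟩ := hLoc P hP.isOpen L hL hle hKL hV' q t.1
      apply hinj
      rw [map_zero]
      refine (hcompat zL).trans ?_
      rw [← key]
      exact hlt ⟨⟨q, hq⟩, t⟩
    · intro q hq 𝔪 h𝔪
      exact hU P hP.isOpen L hL hle hKL hSne q hq 𝔪 h𝔪 e
  rw [key, hzero, map_zero, map_zero]

/-- **(C3) `Blocks.HasseO p S`** from the finite-level Hasse principle, (LOC-S), (COVER) and
(U2′). -/
theorem hasseO (hp2 : p ≠ 2) (hpS : pPrime p ∈ S) (hH : HasseH2 p)
    (hLoc : ∀ P : Subgroup GQ, IsOpenS S P → LocS.Statement S P) (hCov : Cover S)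
    (hU : UnramOff S) : Blocks.HasseO p S :=
  HasseOStep.hasseO_of_hbnKx p S hpS (hbnKx hp2 hpS hH hLoc hCov hU)

end Main

end Fermat.Agent.S55.Middle.HbnColimB
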