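/-
S55 / MIDDLE block, (C3) (helper35): `Blocks.HasseO p S` with every input discharged except the
unramified-units row (U2′) `HbnColimB.UnramOff S`.

* `Global.Final.hasseH2`            (helper78 / helper49): the finite-level Hasse principle;
* `LocS.statement`                   (helper14): row (LOC-S), unconditional;
* `LocSCover.exists_mem_reps_mAt_eq` (helper67): coverage of the places above `S`;
* `HbnColimB.hasseO`                 (helper35): the passage.
-/
import Fermat.Agent.S55.Middle.HbnColimB
import Fermat.Agent.S55.Middle.LocS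
import Fermat.Agent.S55.Middle.LocSCover
import Fermat.Agent.S55.Global.Final

set_option autoImplicit false
set_option linter.style.haveILetI false

open CategoryTheory groupCohomology ExtCitation

namespace Fermat.Agent.S55.Middle.HasseOFinal

open Fermat.Agent.S55.Formal
open Fermat.Agent.S55.Formal.PreludeLC hiding GQ Qbar
open Fermat.Agent.S55.Middle.Defs Fermat.Agent.S55.Middle.KSite
open Fermat.Agent.S55.Middle.HbnColimB

variable {p : ℕ} [Fact p.Prime] {S : Finset Nat.Primes}

/-- (COVER) is a theorem. -/
theorem cover (S : Finset Nat.Primes) : Cover S := by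
  intro P _ R _ q 𝔪 h𝔪
  haveI := h𝔪
  obtain ⟨t, ht, h⟩ := LocSCover.exists_mem_reps_mAt_eq (S := S) (P := P) R q 𝔪
  exact ⟨⟨t, ht⟩, h⟩

/-- **(C3)** `Blocks.HasseO p S` from the unramified-units row (U2′) alone. -/
theorem hasseO_of_unramOff (hp2 : p ≠ 2) (hpS : pPrime p ∈ S) (hU : UnramOff S) :
    Blocks.HasseO p S :=
  HbnColimB.hasseO hp2 hpS (Fermat.Agent.S55.Global.Final.hasseH2 p)
    (fun P _ => LocS.statement S P) (cover S) hU

end Fermat.Agent.S55.Middle.HasseOFinal
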