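/-
S55 / MIDDLE block, row `M.unramOff` (helper86; requested by helper35 #2227 for `HbnColimB`).

The row (U2) "`T`-unit classes are locally trivial at the places off `T` where `L/K` is
unramified" (helper56, `Global/UnitClassUnram` + `Middle/UnitClassUnramT`) is stated for abstract
number fields `K ⊆ L` with the ideal-theoretic ramification hypothesis `AdmissibleQ.ram`.  The
consumer (`HbnColimB`, the Hasse principle for `H²_LC(P; O_S)`) lives in the `K`-site language:
`K = ℚ̄^P`, `L' = L` regarded as an extension of `K` (`GaloisDictModel.Lext`), `L/ℚ` finite Galois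
and unramified outside `S` in the sense of the Prelude (inertia groups of valuation subrings of
`ℚ̄`).  This file is the adapter, and it discharges `HbnColimB.UnramOff S` UNCONDITIONALLY.

* `imageField_Lext`             : the image of `L' → ℚ̄` is `L`;
* `inertia_eq_bot_Lext`         : Prelude ⇒ ideal-theoretic: the primes of `L'` over `q ∉ S` have
                                  trivial inertia group in `Gal(L'/K)` (helper14's `Bridge/Unram`);
* `ram_of_isUnramifiedOutside`  : the literal `AdmissibleQ.ram` statement for `(K, L', S)`;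
* `unramOff`                    : `HbnColimB.UnramOff S`;
* `hasseO`                      : **(C3) `Blocks.HasseO p S` UNCONDITIONALLY** (`p` odd, `p ∈ S`)
                                  `= HasseOFinal.hasseO_of_unramOff hp2 hpS (unramOff S)` (helper35).
-/
import Mathlib
import Fermat.Agent.S55.Bridge.Unram
import Fermat.Agent.S55.Middle.UnitClassUnramT
import Fermat.Agent.S55.Middle.HbnColimB
import Fermat.Agent.S55.Middle.HasseOFinal

set_option autoImplicit false
set_option linter.unusedSectionVars false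
set_option linter.style.haveILetI false

open CategoryTheory groupCohomology NumberField IsDedekindDomain ExtCitation

namespace Fermat.Agent.S55.Middle.UnramOffAdapter

open Fermat.Agent.S55.Global.Objects Fermat.Agent.S55.Global.Objects2
open Fermat.Agent.S55.Global.Blocks3
open Fermat.Agent.S55.Middle.Defs Fermat.Agent.S55.Middle.KSite
open Fermat.Agent.S55.Middle.GaloisDict Fermat.Agent.S55.Middle.GaloisDictModel

/-! ### the ramification dictionary for `L'/K`, `K = ℚ̄^P` -/

section Ram

variable (S : Finset Nat.Primes) (P : Subgroup GQ) (L : IntermediateField ℚ Qbar)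
  (hKL : K₀ P ≤ L)

/-- the image of `L' → ℚ̄` is `L`. -/
theorem imageField_Lext :
    Bridge.Unram.imageField (algebraMap ↥(Lext P L hKL) Qbar) = L := by
  ext x
  rw [Bridge.Unram.mem_imageField]
  constructor
  · rintro ⟨y, rfl⟩
    exact y.2
  · intro hx
    exact ⟨⟨x, hx⟩, rfl⟩

variable [NumberField ↥(K₀ P)] [NumberField ↥(Lext P L hKL)]
  [IsGalois ↥(K₀ P) ↥(Lext P L hKL)]

/-- **Prelude ⇒ ideal-theoretic**: if `L` is unramified outside `S` (inertia groups of valuation
subrings of `ℚ̄`), the primes of `L'` above `q ∉ S` have trivial inertia group in `Gal(L'/K)`. -/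
theorem inertia_eq_bot_Lext (hL : L.IsUnramifiedOutside S) (q : Nat.Primes) (hq : q ∉ S)
    (Q : Ideal (𝓞 ↥(Lext P L hKL))) [Q.IsPrime] (hqQ : ((q : ℕ) : 𝓞 ↥(Lext P L hKL)) ∈ Q) :
    Ideal.inertia (↥(Lext P L hKL) ≃ₐ[↥(K₀ P)] ↥(Lext P L hKL)) Q = ⊥ := by
  refine Bridge.Unram.inertia_eq_bot_of_isUnramifiedOutside (K := ↥(K₀ P))
    (algebraMap ↥(Lext P L hKL) Qbar) ?_ q hq Q hqQ
  rw [imageField_Lext]
  exact hL

/-- The literal `AdmissibleQ.ram` statement for `(K, L', S)`: a prime of `L'` with nontrivial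
inertia group in `Gal(L'/K)` lies above `S`. -/
theorem ram_of_isUnramifiedOutside (hL : L.IsUnramifiedOutside S)
    (w : Place ↥(Lext P L hKL))
    (hw : ∃ σ : ↥(Lext P L hKL) ≃ₐ[↥(K₀ P)] ↥(Lext P L hKL),
      σ ∈ w.asIdeal.inertia (↥(Lext P L hKL) ≃ₐ[↥(K₀ P)] ↥(Lext P L hKL)) ∧ σ ≠ 1) :
    w ∈ placesAboveQ ↥(Lext P L hKL) S := by
  obtain ⟨σ, hσ, hne⟩ := hw
  by_contra hnot
  have hq : UnitsToL.primeUnder w ∉ S := fun hmem =>
    hnot ⟨UnitsToL.primeUnder w, hmem, UnitsToL.primeUnder_mem w⟩
  have hbot := inertia_eq_bot_Lext S P L hKL hL (UnitsToL.primeUnder w) hq w.asIdeal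
    (UnitsToL.primeUnder_mem w)
  rw [hbot, Subgroup.mem_bot] at hσ
  exact hne hσ

end Ram

/-- **(U2′) `HbnColimB.UnramOff S`, unconditionally**: for `P` open, `K = ℚ̄^P`, `L/ℚ` finite Galois
unramified outside `S` with `L ⊇ K`, the classes of `H²(Gal(L'/K), L'ˣ)` coming from `S`-units are
locally trivial at every place of `K` above a rational prime `q ∉ S`. -/
theorem unramOff (S : Finset Nat.Primes) : HbnColimB.UnramOff S := by
  intro P _ L _ hL _ hKL _ _ hS q hq 𝔪 h𝔪 e
  haveI : IsGalois ↥(K₀ P) ↥(Lext P L hKL) := OSDict.isGalois_Lext P L hKL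
  haveI := h𝔪
  exact UnitClassUnramT.locH_map_EntoLxn_eq_zero ↥(K₀ P) ↥(Lext P L hKL) S q 𝔪 hS hq
    (ram_of_isUnramifiedOutside S P L hKL hL) e

/-- **(C3), unconditional**: the Hasse principle for `O_S`: a `p`-primary class of `H²_LC(P; O_S)`
which is locally trivial at the places above `S` vanishes (`p` odd, `p ∈ S`). -/
theorem hasseO {p : ℕ} [Fact p.Prime] {S : Finset Nat.Primes} (hp2 : p ≠ 2)
    (hpS : pPrime p ∈ S) : Blocks.HasseO p S :=
  HasseOFinal.hasseO_of_unramOff hp2 hpS (unramOff S)

end Fermat.Agent.S55.Middle.UnramOffAdapter
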