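/-
S55 / MIDDLE block, ImageInst hub (helper74): `ImageFamRel.adj_of_fam` / `gen_of_fam` INSTANTIATED AT
ONE LEVEL of the real objects.

`P` a level (`Blocks.Level p S P`), `R : Reps S P`, `K = K₀ P`, `L` a `ℚ`-normal dictionary level
(`LocS.Statement` binders), `L' = Lext P L hKL` with `[L' : K] = p ^ n`.  LC side:
`locK = ImageLocS.locK R`, `off = ImageInstB.off hP.isOpen`, `infl = ImageLocS.infl L hL hle hKL hV`,
`jA = ImageLocS.jA R L hL hle hKL hV`.

* `hoff₂_real`  : `off (infl y) = 0 ⇒ SuppIn S (locFam y)` (`ImageDescField.exists_os_lift` +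
  `SuppInOff.suppIn_locFam` + `UnramOffAdapter.unramOff`), for a class `infl y` of `p`-power order;
* `hpow_real`   : `p ^ n` kills `H²(Gal(L'/K), L'ˣ)`;
* `adj_at_level`: the conclusion of `ImageLevel.adj_of_level` for one witness `y` at the level `L`
  (→ `ImageLevelAt.hadj_of_forall_witness` → `ImageLevel.divisible_rel`);
* `gen_at_level`: the conclusion of `ImageLevel.gen_of_level` at the level `L`
  (→ `hgen` of `ImageLevel.exists_lift_mod_rel`).

`adj_at_level` / `gen_at_level` take the forward LOC-off statement `hoff₁` (leaf (B1)):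
`SuppIn S (locFam y) ⇒ off (infl y) = 0` as a hypothesis; `hoff₁_real` proves it
(`LocOffFwd.off_eq_zero_of_suppIn`, helper13), and `adj_at_level_closed` / `gen_at_level_closed` are
the unconditional forms.
-/
import Fermat.Agent.S55.Middle.ImageFamRel
import Fermat.Agent.S55.Middle.ImageLocS
import Fermat.Agent.S55.Middle.LocSFam
import Fermat.Agent.S55.Middle.LocSCard
import Fermat.Agent.S55.Middle.ImageFiniteClosed
import Fermat.Agent.S55.Middle.SuppInOff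
import Fermat.Agent.S55.Middle.ImageDescField
import Fermat.Agent.S55.Middle.ImageInstB
import Fermat.Agent.S55.Middle.UnramOffAdapter
import Fermat.Agent.S55.Middle.LocOffFwd

set_option autoImplicit false
set_option linter.unusedSectionVars false
set_option linter.style.haveILetI false

open CategoryTheory groupCohomology ExtCitation TensorProduct
open scoped Pointwise

namespace Fermat.Agent.S55.Middle.AdjReal

noncomputable section

open Fermat.Agent.S55.Formal Fermat.Agent.S55.Formal.LCLevelH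
open Fermat.Agent.S55.Formal.PreludeLC hiding GQ Qbar
open Fermat.Agent.S55.Middle.Defs Fermat.Agent.S55.Middle.KSite
open Fermat.Agent.S55.Middle.Blocks Fermat.Agent.S55.Middle.LESGlueV
open Fermat.Agent.S55.Middle.GaloisDict Fermat.Agent.S55.Middle.GaloisDictModel
open Fermat.Agent.S55.Global.Blocks3 Fermat.Agent.S55.Global.Objects
open Fermat.Agent.S55.Global.Objects2
open Fermat.Agent.S55.Middle.LocS
open Fermat.Agent.S55.Middle.ImageFiniteCore
open Fermat.Agent.S55.Middle.ImageLevel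
open Fermat.Agent.S55.LM.DlocDict

attribute [local instance] Fermat.Agent.S55.LM.Defs.fact_q

variable {p : ℕ} [Fact p.Prime] {S : Finset Nat.Primes} {P : Subgroup GQ}

/-- the two `locK`'s of the hub (`ImageInstB.locK`, `ImageLocS.locK`) are the same map. -/
theorem locK_eq (R : Reps S P) (z : H2 (basisP S P) (resP P (KS S))) :
    ImageInstB.locK R z = ImageLocS.locK R z := rfl

section Level

variable (R : Reps S P)
  (L : IntermediateField ℚ Qbar) [Normal ℚ L] (hL : L.IsUnramifiedOutside S)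
  (hle : L.fixingSubgroup ≤ P) (hKL : K₀ P ≤ L)
  [NumberField ↥(K₀ P)] [NumberField ↥(Lext P L hKL)] [Finite (↥P ⧸ lvl P L)]
  (hV : (basisP S P).mem (lvl P L))

/-- **`hpow`**: `H²(Gal(L'/K), L'ˣ)` is killed by the degree. -/
theorem hpow_real [IsGalois ↥(K₀ P) ↥(Lext P L hKL)] (n : ℕ)
    (hn : Module.finrank ↥(K₀ P) ↥(Lext P L hKL) = p ^ n)
    (y : groupCohomology (Rep.ofAlgebraAutOnUnits ↥(K₀ P) ↥(Lext P L hKL)) 2) :
    p ^ n • y = 0 := by
  haveI : FiniteDimensional ↥(K₀ P) ↥(Lext P L hKL) :=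
    Module.Finite.of_restrictScalars_finite ℚ ↥(K₀ P) ↥(Lext P L hKL)
  rw [← hn, ← IsGalois.card_aut_eq_finrank]
  exact Fermat.Agent.S55.Tate.ResCor.card_smul_eq_zero₂
    (Rep.ofAlgebraAutOnUnits ↥(K₀ P) ↥(Lext P L hKL)) y

/-- **`hoff₂`**: a class `infl y` of `p`-power order with `off (infl y) = 0` has a family of
localisations supported above `S`. -/
theorem hoff₂_real (hpS : pPrime p ∈ S) (hP : IsOpenS S P)
    (y : groupCohomology (Rep.ofAlgebraAutOnUnits ↥(K₀ P) ↥(Lext P L hKL)) 2)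
    (hy : ∃ n : ℕ, p ^ n • ImageLocS.infl L hL hle hKL hV y = 0)
    (hyoff : ImageInstB.off hP (ImageLocS.infl L hL hle hKL hV y) = 0) :
    SuppIn S (locFam ↥(K₀ P) ↥(Lext P L hKL) y) := by
  obtain ⟨x, -, -, hx⟩ := ImageDescField.exists_os_lift S p hpS hP
    (ImageLocS.infl L hL hle hKL hV y) hy hyoff
  exact SuppInOff.suppIn_locFam (UnramOffAdapter.unramOff S) ⟨pPrime p, hpS⟩ hP x L hL hle hKL hV y
    hx.symm

/-- **`hoff₁`** (leaf (B1), `LocOffFwd`): a class whose family of localisations is supported above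
`S` inflates to a class which is locally trivial off `S`. -/
theorem hoff₁_real (hP : IsOpenS S P)
    (y : groupCohomology (Rep.ofAlgebraAutOnUnits ↥(K₀ P) ↥(Lext P L hKL)) 2)
    (hy : SuppIn S (locFam ↥(K₀ P) ↥(Lext P L hKL) y)) :
    ImageInstB.off hP (ImageLocS.infl L hL hle hKL hV y) = 0 :=
  LocOffFwd.off_eq_zero_of_suppIn S P L hL hle hKL hV (CapDiv.finiteIndex_of_isOpenSub S hP) y hy

variable [IsGalois ↥(K₀ P) ↥(Lext P L hKL)]

include hL hle in
/-- the generator `β₀` and the cyclicity statement `hcyc` of `ImageFamRel`, from a place `i₀` of the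
`K`-site at which `p` divides the local degree. -/
theorem exists_β₀ (hp2 : p ≠ 2) (hP : IsOpenS S P)
    (hζ : ∃ ζ : ↥(K₀ P), IsPrimitiveRoot ζ p)
    (hpp : ∃ n : ℕ, Module.finrank ↥(K₀ P) ↥(Lext P L hKL) = p ^ n)
    (i₀ : R.Idx) (hidx : p ∣ (levelSub P i₀.1.1 i₀.2.1 L.fixingSubgroup).index) :
    ∃ β₀ : ∀ i : R.Idx, HJ ↥(K₀ P) ↥(Lext P L hKL) (LocSFam.plOf R i),
      p • β₀ = 0 ∧ β₀ ≠ 0 ∧ (∀ i, i ≠ i₀ → β₀ i = 0) ∧
      ∀ c : Fam ↥(K₀ P) ↥(Lext P L hKL), (∀ x, ¬ (x.1 ∈ S) → c x = 0) →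
        (∃ y, locFam ↥(K₀ P) ↥(Lext P L hKL) y = p • c) →
        ∃ (n : ℕ) (y' : groupCohomology (Rep.ofAlgebraAutOnUnits ↥(K₀ P) ↥(Lext P L hKL)) 2),
          locFam ↥(K₀ P) ↥(Lext P L hKL) y' = c - n • LocSFam.famOf ↥(Lext P L hKL) R β₀ := by
  classical
  obtain ⟨m, hm⟩ := ImageFiniteLocal.exists_maximal_tensor (L := ↥(Lext P L hKL))
    (LocSFam.plOf R i₀)
  haveI := hm
  have hcard : Nat.card (HJ ↥(K₀ P) ↥(Lext P L hKL) (LocSFam.plOf R i₀)) =
      (levelSub P i₀.1.1 i₀.2.1 L.fixingSubgroup).index :=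
    LocSCard.card_H2_Jloc_mAt S P L hL hle hKL i₀.1.1 i₀.2.1
  obtain ⟨b₀, hb₀, hne, hcyc⟩ := ImageFiniteClosed.exists_isGlobal_sub_nsmul_place
    (Fact.out : p.Prime) hp2 hζ hpp S (LocSFam.plOf R i₀) (LocSFam.plOf_fst_mem R i₀) m
    (by rw [← ImageFiniteLocal.card_HJ (LocSFam.plOf R i₀) m, hcard]; exact hidx)
  refine ⟨Pi.single i₀ b₀, ?_, ?_, fun i hi => by rw [Pi.single_eq_of_ne hi], fun c hc hpc => ?_⟩
  · funext i
    by_cases hi : i = i₀
    · subst hi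
      rw [Pi.smul_apply, Pi.single_eq_same, hb₀]
      rfl
    · rw [Pi.smul_apply, Pi.single_eq_of_ne hi, smul_zero]
      rfl
  · intro h0
    apply hne
    have := congrFun h0 i₀
    rwa [Pi.single_eq_same] at this
  · obtain ⟨n, y', hy'⟩ := hcyc c hc hpc
    refine ⟨n, y', ?_⟩
    rw [hy', LocSFam.famOf_single hP R i₀ b₀]

/-- **`hadj` at one level, for one witness** (`ImageFamRel.adj_of_fam` at the real objects). -/
theorem adj_at_level (hp2 : p ≠ 2) (hpS : pPrime p ∈ S) (hP : Level p S P)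
    (hζ : ∃ ζ : ↥(K₀ P), IsPrimitiveRoot ζ p)
    (hpp : ∃ n : ℕ, Module.finrank ↥(K₀ P) ↥(Lext P L hKL) = p ^ n)
    (i₀ : R.Idx) (hidx : p ∣ (levelSub P i₀.1.1 i₀.2.1 L.fixingSubgroup).index)
    (hoff₁ : ∀ y : groupCohomology (Rep.ofAlgebraAutOnUnits ↥(K₀ P) ↥(Lext P L hKL)) 2,
      SuppIn S (locFam ↥(K₀ P) ↥(Lext P L hKL) y) →
        ImageInstB.off hP.isOpen (ImageLocS.infl L hL hle hKL hV y) = 0)
    (bL : ImageLocS.AL R L hKL)
    (y : groupCohomology (Rep.ofAlgebraAutOnUnits ↥(K₀ P) ↥(Lext P L hKL)) 2)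
    (hyoff : ImageInstB.off hP.isOpen (ImageLocS.infl L hL hle hKL hV y) = 0)
    (hyb : ImageLocS.locK R (ImageLocS.infl L hL hle hKL hV y) =
      p • ImageLocS.jA R L hL hle hKL hV bL) :
    ∃ t : ImageLocS.A R, p • t = 0 ∧
      Rel p (ImageLocS.locK R) (ImageInstB.off hP.isOpen)
        (ImageLocS.jA R L hL hle hKL hV bL - t) := by
  obtain ⟨n, hn⟩ := hpp
  obtain ⟨β₀, hβ₀, -, -, hcyc⟩ := exists_β₀ R L hL hle hKL hp2 hP.isOpen hζ ⟨n, hn⟩ i₀ hidx
  have hpow := hpow_real (p := p) L hKL n hn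
  letI instA : ∀ i : R.Idx, AddCommGroup (Blocks2.BrLoc R i) := fun i => inferInstance
  exact ImageFamRel.adj_of_fam (A := fun i : R.Idx => Blocks2.BrLoc R i)
    (F := fun x : Pl ↥(K₀ P) => HJ ↥(K₀ P) ↥(Lext P L hKL) x) p
    (ImageLocS.locK R) (ImageInstB.off hP.isOpen)
    (ImageLocS.infl L hL hle hKL hV) (locFam ↥(K₀ P) ↥(Lext P L hKL))
    (fun x => x.1 ∈ S) (LocSFam.plOf R) (LocSFam.famOf ↥(Lext P L hKL) R)
    (fun i => ImageLocS.jAi R L hL hle hKL hV i) n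
    (fun x hx => LocSFam.exists_plOf_eq R x hx)
    (fun b i => LocSFam.famOf_plOf ↥(Lext P L hKL) hP.isOpen R b i)
    (fun b x hx => LocSFam.famOf_of_not_mem ↥(Lext P L hKL) R b x hx)
    (fun i => ImageLocS.jAi_injective R L hL hle hKL hV i)
    (fun y i => (ImageLocS.jAi_loc R L hL hle hKL hV i y).symm)
    (fun y hy => hoff₁ y hy)
    (fun y hy => hoff₂_real L hL hle hKL hV hpS hP.isOpen y
      ⟨n, by rw [← map_nsmul, hpow, map_zero]⟩ hy)
    hpow β₀ hβ₀ hcyc bL y hyoff hyb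

/-- **`hgen` at one level** (`ImageFamRel.gen_of_fam` at the real objects): modulo `Rel`, every
`p`-torsion tuple coming from the level is a multiple of `a₀ = jA β₀`. -/
theorem gen_at_level (hp2 : p ≠ 2) (hP : Level p S P)
    (hζ : ∃ ζ : ↥(K₀ P), IsPrimitiveRoot ζ p)
    (hpp : ∃ n : ℕ, Module.finrank ↥(K₀ P) ↥(Lext P L hKL) = p ^ n)
    (i₀ : R.Idx) (hidx : p ∣ (levelSub P i₀.1.1 i₀.2.1 L.fixingSubgroup).index)
    (hoff₁ : ∀ y : groupCohomology (Rep.ofAlgebraAutOnUnits ↥(K₀ P) ↥(Lext P L hKL)) 2,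
      SuppIn S (locFam ↥(K₀ P) ↥(Lext P L hKL) y) →
        ImageInstB.off hP.isOpen (ImageLocS.infl L hL hle hKL hV y) = 0) :
    ∃ β₀ : ImageLocS.AL R L hKL, p • β₀ = 0 ∧ β₀ ≠ 0 ∧ (∀ i, i ≠ i₀ → β₀ i = 0) ∧
      ∀ bL : ImageLocS.AL R L hKL, p • ImageLocS.jA R L hL hle hKL hV bL = 0 →
        ∃ n : ℕ, Rel p (ImageLocS.locK R) (ImageInstB.off hP.isOpen)
          (ImageLocS.jA R L hL hle hKL hV bL - n • ImageLocS.jA R L hL hle hKL hV β₀) := by
  obtain ⟨n, hn⟩ := hpp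
  obtain ⟨β₀, hβ₀, hne, hsupp, hcyc⟩ :=
    exists_β₀ R L hL hle hKL hp2 hP.isOpen hζ ⟨n, hn⟩ i₀ hidx
  have hpow := hpow_real (p := p) L hKL n hn
  refine ⟨β₀, hβ₀, hne, hsupp, fun bL hbL => ?_⟩
  letI instA : ∀ i : R.Idx, AddCommGroup (Blocks2.BrLoc R i) := fun i => inferInstance
  exact ImageFamRel.gen_of_fam (A := fun i : R.Idx => Blocks2.BrLoc R i)
    (F := fun x : Pl ↥(K₀ P) => HJ ↥(K₀ P) ↥(Lext P L hKL) x) p
    (ImageLocS.locK R) (ImageInstB.off hP.isOpen)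
    (ImageLocS.infl L hL hle hKL hV) (locFam ↥(K₀ P) ↥(Lext P L hKL))
    (fun x => x.1 ∈ S) (LocSFam.plOf R) (LocSFam.famOf ↥(Lext P L hKL) R)
    (fun i => ImageLocS.jAi R L hL hle hKL hV i) n
    (fun x hx => LocSFam.exists_plOf_eq R x hx)
    (fun b i => LocSFam.famOf_plOf ↥(Lext P L hKL) hP.isOpen R b i)
    (fun b x hx => LocSFam.famOf_of_not_mem ↥(Lext P L hKL) R b x hx)
    (fun i => ImageLocS.jAi_injective R L hL hle hKL hV i)
    (fun y i => (ImageLocS.jAi_loc R L hL hle hKL hV i y).symm)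
    (fun y hy => hoff₁ y hy)
    hpow β₀ hcyc bL hbL

/-- `adj_at_level`, unconditional. -/
theorem adj_at_level_closed (hp2 : p ≠ 2) (hpS : pPrime p ∈ S) (hP : Level p S P)
    (hζ : ∃ ζ : ↥(K₀ P), IsPrimitiveRoot ζ p)
    (hpp : ∃ n : ℕ, Module.finrank ↥(K₀ P) ↥(Lext P L hKL) = p ^ n)
    (i₀ : R.Idx) (hidx : p ∣ (levelSub P i₀.1.1 i₀.2.1 L.fixingSubgroup).index)
    (bL : ImageLocS.AL R L hKL)
    (y : groupCohomology (Rep.ofAlgebraAutOnUnits ↥(K₀ P) ↥(Lext P L hKL)) 2)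
    (hyoff : ImageInstB.off hP.isOpen (ImageLocS.infl L hL hle hKL hV y) = 0)
    (hyb : ImageLocS.locK R (ImageLocS.infl L hL hle hKL hV y) =
      p • ImageLocS.jA R L hL hle hKL hV bL) :
    ∃ t : ImageLocS.A R, p • t = 0 ∧
      Rel p (ImageLocS.locK R) (ImageInstB.off hP.isOpen)
        (ImageLocS.jA R L hL hle hKL hV bL - t) :=
  adj_at_level R L hL hle hKL hV hp2 hpS hP hζ hpp i₀ hidx
    (fun y hy => hoff₁_real L hL hle hKL hV hP.isOpen y hy) bL y hyoff hyb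

/-- `gen_at_level`, unconditional. -/
theorem gen_at_level_closed (hp2 : p ≠ 2) (hP : Level p S P)
    (hζ : ∃ ζ : ↥(K₀ P), IsPrimitiveRoot ζ p)
    (hpp : ∃ n : ℕ, Module.finrank ↥(K₀ P) ↥(Lext P L hKL) = p ^ n)
    (i₀ : R.Idx) (hidx : p ∣ (levelSub P i₀.1.1 i₀.2.1 L.fixingSubgroup).index) :
    ∃ β₀ : ImageLocS.AL R L hKL, p • β₀ = 0 ∧ β₀ ≠ 0 ∧ (∀ i, i ≠ i₀ → β₀ i = 0) ∧
      ∀ bL : ImageLocS.AL R L hKL, p • ImageLocS.jA R L hL hle hKL hV bL = 0 →
        ∃ n : ℕ, Rel p (ImageLocS.locK R) (ImageInstB.off hP.isOpen)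
          (ImageLocS.jA R L hL hle hKL hV bL - n • ImageLocS.jA R L hL hle hKL hV β₀) :=
  gen_at_level R L hL hle hKL hV hp2 hP hζ hpp i₀ hidx
    (fun y hy => hoff₁_real L hL hle hKL hV hP.isOpen y hy)

end Level

end

end Fermat.Agent.S55.Middle.AdjReal
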