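/-
S55 / MIDDLE block (helper17): THE KUMMER SQUARE of the `K`-site — construction of
`Blocks2.KummerSq p R` for every `P` with `Blocks.Level p S P` (`p ∈ S`).

* global leg `α = j₂ ∘ (𝔽_p ≅ μ_p) ∘ (restriction of scalars)` with the Kummer LES of
  `Middle/LESGlueV` (helper24);
* local legs `β i = (𝔽_p → Ω^×)_* ∘ (restriction of scalars)`, a Kummer datum in the sense of
  `Middle/LocalLCCore` (helper72) + local Hilbert 90 `LM.H90Local.h90_Ox` (helper90);
* the square commutes because the local Kummer map is DEFINED as the composite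
  `𝔽_p ≅ μ_p → O_S → Ω^×` (`x ↦ padicEmbedding (t⁻¹ x)`).
-/
import Fermat.Agent.S55.Middle.Blocks2
import Fermat.Agent.S55.Middle.MuIso
import Fermat.Agent.S55.Middle.LESGlueV
import Fermat.Agent.S55.LM.KummerTriv
import Fermat.Agent.S55.LM.H90Local
import Fermat.Agent.S55.Formal.Functor

set_option autoImplicit false
set_option linter.unusedSectionVars false

open CategoryTheory groupCohomology ExtCitation Module

namespace Fermat.Agent.S55.Middle.KummerSquare

noncomputable section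

open Fermat.Agent.S55.Formal

/-! ### generic: `H²_LC(T) → H²_LC(A)[p]` is onto for a Kummer datum -/

section Generic

open Fermat.Agent.S55.Middle.LocalLCCore

variable {k : Type} [CommRing k] {G : Type} [Group G] {𝒰 : NBasis G} {A T : Rep.{0, 0, 0} k G}
  {p : k} {ι : T ⟶ A}

/-- `H²_LC(T) → H²_LC(A)[p]` is onto, for a Kummer datum. -/
theorem exists_h2_of_tors (h : IsKummer 𝒰 A T p ι) (x : H2 𝒰 A) (hx : p • x = 0) :
    ∃ y : H2 𝒰 T, (Mor.ofHom 𝒰 ι).h2 y = x := by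
  set α := Mor.ofHom 𝒰 ι with hα
  obtain ⟨c, hc, rfl⟩ := Hmid.exists_of x
  rw [← Hmid.of_smul p hc, Hmid.of_eq_zero_iff] at hx
  obtain ⟨e, he⟩ := hx
  obtain ⟨e', he'⟩ := SmoothLift.c₁_surjective (𝒰 := 𝒰) (pMul A p) h.smooth h.pMul_surjective e
  have he'' : p • e' = e := by
    rw [← he']
    apply Subtype.ext
    funext g
    rfl
  set b' : ↥(C₂ 𝒰 A) := c - dC₁ 𝒰 A e' with hb'
  have hpb' : p • b' = 0 := by
    rw [hb', smul_sub, ← map_smul, he'', he, sub_self]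
  have hb'd : dC₂ 𝒰 A b' = 0 := by
    rw [hb', map_sub, dC₂_dC₁, hc, sub_zero]
  have ht : ∀ x, p • (b' : G × G → A) x = 0 := fun x => by
    have := congrFun (congrArg Subtype.val hpb') x
    exact this
  obtain ⟨F', hF', hFι⟩ := h.descend₂ b'.2 ht
  have hinj : Function.Injective α.c₃ := by
    intro u v huv
    apply Subtype.ext
    funext x
    apply h.inj
    exact congrFun (congrArg Subtype.val huv) x
  have hcc : α.c₂ ⟨F', hF'⟩ = b' := Subtype.ext (funext hFι)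
  have hF'd : dC₂ 𝒰 T ⟨F', hF'⟩ = 0 := by
    apply hinj
    have := LinearMap.congr_fun α.c₃_dC₂ ⟨F', hF'⟩
    simp only [LinearMap.comp_apply] at this
    rw [this, hcc, hb'd, map_zero]
  refine ⟨Hmid.of ⟨F', hF'⟩ hF'd, ?_⟩
  have hcoc : dC₂ 𝒰 A (α.c₂ ⟨F', hF'⟩) = 0 := by rw [hcc, hb'd]
  rw [Functor.h2_of α _ hF'd hcoc, Hmid.of_eq_of_iff]
  refine ⟨-e', ?_⟩
  rw [hcc, hb', map_neg]
  abel

end Generic

open Fermat.Agent.S55.Formal.PreludeLC hiding GQ Qbar
open Fermat.Agent.S55.Middle.Defs Fermat.Agent.S55.Middle.KSite Fermat.Agent.S55.Middle.Blocks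
open Fermat.Agent.S55.Middle.Blocks2 Fermat.Agent.S55.Middle.UnitsLES
open Fermat.Agent.S55.Bridge.ScalarsLC

variable (p : ℕ) [Fact p.Prime] (S : Finset Nat.Primes) (hpS : pPrime p ∈ S)
  (P : Subgroup GQ) (hχ : ∀ g ∈ P, cycloChar p g = 1)

/-! ### the global leg -/

section Global

/-- `𝔽_p → μ_p` over `P` -/
def eMor : Mor (basisP S P) (toInt (kP p P)) (basisP S P) (resP P (muP p)) :=
  Mor.ofHom (basisP S P) (MuIso.muIso p P hχ).hom

/-- `μ_p → 𝔽_p` over `P` -/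
def eInv : Mor (basisP S P) (resP P (muP p)) (basisP S P) (toInt (kP p P)) :=
  Mor.ofHom (basisP S P) (MuIso.muIso p P hχ).inv

theorem eInv_eMor (y : H2 (basisP S P) (toInt (kP p P))) :
    (eInv p S P hχ).h2 ((eMor p S P hχ).h2 y) = y :=
  h2_retract (eMor p S P hχ) (eInv p S P hχ)
    (fun a => by
      have := congr($((MuIso.muIso p P hχ).hom_inv_id).hom a)
      exact this)
    (fun _ => rfl) y

theorem eMor_eInv (y : H2 (basisP S P) (resP P (muP p))) :
    (eMor p S P hχ).h2 ((eInv p S P hχ).h2 y) = y :=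
  h2_retract (eInv p S P hχ) (eMor p S P hχ)
    (fun a => by
      have := congr($((MuIso.muIso p P hχ).inv_hom_id).hom a)
      exact this)
    (fun _ => rfl) y

/-- `μ_p → O_S` over `P` -/
def jMor : Mor (basisP S P) (resP P (muP p)) (basisP S P) (resP P (OS S)) :=
  Mor.ofHom (basisP S P) (LESGlueV.φj S P p hpS)

/-- **`α : H²(P; 𝔽_p) → H²_LC(P; O_S)`** -/
def alpha : H2 (basisP S P) (kP p P) →+ H2 (basisP S P) (resP P (OS S)) :=
  ((jMor p S hpS P).h2.toAddMonoidHom.comp (eMor p S P hχ).h2.toAddMonoidHom).comp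
    (h2IntEquiv (basisP S P) (kP p P)).toAddMonoidHom

theorem alpha_apply (y : H2 (basisP S P) (kP p P)) :
    alpha p S hpS P hχ y =
      (jMor p S hpS P).h2 ((eMor p S P hχ).h2 (h2IntEquiv (basisP S P) (kP p P) y)) := rfl

/-- **`κ : H¹_LC(P; O_S) → H²(P; 𝔽_p)`**, the Kummer connecting map -/
def kappaK : H1 (basisP S P) (resP P (OS S)) →+ H2 (basisP S P) (kP p P) :=
  ((h2IntEquiv (basisP S P) (kP p P)).symm.toAddMonoidHom.comp
    (eInv p S P hχ).h2.toAddMonoidHom).comp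
    (LESGlueV.k₁ p hpS (LESGlueV.isCont_subBasis (S := S) (H := P)))

theorem alpha_tors (y : H2 (basisP S P) (kP p P)) : p • alpha p S hpS P hχ y = 0 :=
  LESGlueV.nsmul_j₂ p hpS (LESGlueV.isCont_subBasis (S := S) (H := P)) _

theorem alpha_surj (x : H2 (basisP S P) (resP P (OS S))) (hx : p • x = 0) :
    ∃ y, alpha p S hpS P hχ y = x := by
  obtain ⟨y₂, hy₂⟩ := LESGlueV.exists_j₂_of_nsmul p hpS
    (LESGlueV.isCont_subBasis (S := S) (H := P)) x hx
  refine ⟨(h2IntEquiv (basisP S P) (kP p P)).symm ((eInv p S P hχ).h2 y₂), ?_⟩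
  rw [alpha_apply, AddEquiv.apply_symm_apply, eMor_eInv]
  exact hy₂

theorem alpha_ker (y : H2 (basisP S P) (kP p P)) (hy : alpha p S hpS P hχ y = 0) :
    ∃ e, kappaK p S hpS P hχ e = y := by
  obtain ⟨a, ha⟩ := LESGlueV.exists_k₁_of_j₂ p hpS
    (LESGlueV.isCont_subBasis (S := S) (H := P)) _ hy
  refine ⟨a, ?_⟩
  show (h2IntEquiv (basisP S P) (kP p P)).symm ((eInv p S P hχ).h2
    (LESGlueV.k₁ p hpS (LESGlueV.isCont_subBasis (S := S) (H := P)) a)) = y
  rw [ha]
  show (h2IntEquiv (basisP S P) (kP p P)).symm ((eInv p S P hχ).h2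
    ((eMor p S P hχ).h2 (h2IntEquiv (basisP S P) (kP p P) y))) = y
  rw [eInv_eMor, AddEquiv.symm_apply_apply]

theorem kappaK_nsmul (e : H1 (basisP S P) (resP P (OS S))) :
    kappaK p S hpS P hχ (p • e) = 0 := by
  show (h2IntEquiv (basisP S P) (kP p P)).symm ((eInv p S P hχ).h2
    (LESGlueV.k₁ p hpS (LESGlueV.isCont_subBasis (S := S) (H := P)) (p • e))) = 0
  rw [LESGlueV.k₁_nsmul, map_zero, map_zero]

end Global

/-! ### the local legs -/

section Local

open Fermat.Agent.S55.LM.Defs Fermat.Agent.S55.LM.KummerLocal Fermat.Agent.S55.LM.KummerTriv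
open Fermat.Agent.S55.Middle.LocalLCCore

variable (q : Nat.Primes) (t : GQ)

attribute [local instance] fact_q

/-- the composite `𝔽_p ≅ μ_p → O_S → Ω^×` from `P` to the local group `Dloc P q t` -/
def glMor : Mor (basisP S P) (toInt (kP p P)) (basisLoc P q t) (Ox q (Dloc P q t)) :=
  ((eMor p S P hχ).comp (jMor p S hpS P)).comp (locOS S P q t)

/-- its coefficient map as an additive map on `ZMod p` -/
def glAdd : ZMod p →+ Ox q (Dloc P q t) := (glMor p S hpS P hχ q t).φ.toAddMonoidHom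

/-- the image of `ζ_p` in `Ω^×` -/
def zetaLoc : Ox q (Dloc P q t) := glAdd p S hpS P hχ q t (1 : ZMod p)

theorem glMor_intCast (m : ℤ) :
    glAdd p S hpS P hχ q t ((m : ZMod p) : ZMod p) = m • zetaLoc p S hpS P hχ q t := by
  have h : ((m : ZMod p) : ZMod p) = m • (1 : ZMod p) := (zsmul_one m).symm
  rw [h, map_zsmul]
  rfl

theorem toUP_zetaLoc :
    ((toUP q (Dloc P q t) (zetaLoc p S hpS P hχ q t) : (Om q)ˣ) : Om q) =
      padicEmbedding (q : ℕ) ((t⁻¹ : GQ) (MuIso.zeta p)) := by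
  have h1 : (MuIso.muIso p P hχ).hom.hom (1 : ZMod p) = MuIso.zetaMu p := by
    have := zmodHom_intCast p (MuIso.zetaMu p) (MuIso.smul_zetaMu p) 1
    rw [one_smul, Int.cast_one] at this
    exact this
  show ((toUP q (Dloc P q t) ((locOS S P q t).φ ((LESGlueV.φj S P p hpS).hom
    ((MuIso.muIso p P hχ).hom.hom (1 : ZMod p)))) : (Om q)ˣ) : Om q) = _
  rw [h1]
  rfl

theorem zetaLoc_primitive :
    IsPrimitiveRoot (padicEmbedding (q : ℕ) ((t⁻¹ : GQ) (MuIso.zeta p))) p := by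
  have h1 : IsPrimitiveRoot ((t⁻¹ : GQ) (MuIso.zeta p)) p :=
    (MuIso.zeta_spec p).map_of_injective (f := (t⁻¹ : GQ)) (t⁻¹ : GQ).injective
  exact h1.map_of_injective (f := padicEmbedding (q : ℕ)) (padicEmbedding (q : ℕ)).injective

theorem zetaLoc_ne_zero : zetaLoc p S hpS P hχ q t ≠ 0 := by
  intro h0
  have h1 : toUP q (Dloc P q t) (zetaLoc p S hpS P hχ q t) = 1 := by
    rw [h0]; rfl
  have h2 := toUP_zetaLoc p S hpS P hχ q t
  rw [h1, Units.val_one] at h2
  exact (zetaLoc_primitive p q t).ne_one (Fact.out : p.Prime).one_lt h2.symm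

theorem smul_zetaLoc : ((p : ℕ) : ℤ) • zetaLoc p S hpS P hχ q t = 0 := by
  rw [← glMor_intCast]
  have : (((p : ℕ) : ℤ) : ZMod p) = 0 := by
    rw [Int.cast_natCast, ZMod.natCast_self]
  rw [this, map_zero]

theorem ρ_zetaLoc (d : ↥(Dloc P q t)) :
    (Ox q (Dloc P q t)).ρ d (zetaLoc p S hpS P hχ q t) = zetaLoc p S hpS P hχ q t :=
  ((glMor p S hpS P hχ q t).equivar d (1 : ZMod p)).symm

theorem zetaLoc_gen (b : Ox q (Dloc P q t)) (hb : ((p : ℕ) : ℤ) • b = 0) :
    ∃ n : ℤ, b = n • zetaLoc p S hpS P hχ q t := by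
  have : NeZero p := ⟨(Fact.out : p.Prime).ne_zero⟩
  have hb' : ((toUP q (Dloc P q t) b : (Om q)ˣ) : Om q) ^ p = 1 := by
    have h1 : (toUP q (Dloc P q t) b) ^ p = 1 := by
      rw [← toUP_natCast_zsmul, hb, toUP_zero]
    have h2 := congrArg (fun w : (Om q)ˣ => (w : Om q)) h1
    simpa using h2
  obtain ⟨i, _, hi⟩ := (zetaLoc_primitive p q t).eq_pow_of_pow_eq_one hb'
  refine ⟨(i : ℤ), ?_⟩
  apply toUP_injective q (Dloc P q t)
  rw [toUP_natCast_zsmul]
  apply Units.ext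
  rw [Units.val_pow_eq_pow_val, toUP_zetaLoc]
  exact hi.symm

/-- the local Kummer map `𝔽_p → Ω^×` over `Dloc P q t` -/
def iotaLoc : toInt (Rep.trivial (ZMod p) ↥(Dloc P q t) (ZMod p)) ⟶ Ox q (Dloc P q t) :=
  iotaRep (Ox q (Dloc P q t)) p (zetaLoc p S hpS P hχ q t) (smul_zetaLoc p S hpS P hχ q t)
    (ρ_zetaLoc p S hpS P hχ q t)

theorem isKummer_iotaLoc :
    IsKummer (basisLoc P q t) (Ox q (Dloc P q t))
      (toInt (Rep.trivial (ZMod p) ↥(Dloc P q t) (ZMod p))) ((p : ℕ) : ℤ)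
      (iotaLoc p S hpS P hχ q t) :=
  isKummer_iotaRep (basisLoc P q t) (Ox q (Dloc P q t)) p (zetaLoc p S hpS P hχ q t)
    (zetaLoc_ne_zero p S hpS P hχ q t) (smul_zetaLoc p S hpS P hχ q t)
    (ρ_zetaLoc p S hpS P hχ q t) (zetaLoc_gen p S hpS P hχ q t)
    (fun b => by
      obtain ⟨c, hc⟩ := powOx_surjective q p (Dloc P q t) (Fact.out : p.Prime).ne_zero b
      exact ⟨c, hc⟩)
    (isSmooth_Ox q (Dloc P q t))

theorem iotaLoc_apply (n : ZMod p) :
    (iotaLoc p S hpS P hχ q t).hom n = glAdd p S hpS P hχ q t n := by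
  obtain ⟨m, rfl⟩ := ZMod.intCast_surjective n
  rw [glMor_intCast]
  exact iotaRep_apply (Ox q (Dloc P q t)) p _ _ _ m

/-- the local Kummer morphism -/
def lMor : Mor (basisLoc P q t) (toInt (Rep.trivial (ZMod p) ↥(Dloc P q t) (ZMod p)))
    (basisLoc P q t) (Ox q (Dloc P q t)) :=
  Mor.ofHom (basisLoc P q t) (iotaLoc p S hpS P hχ q t)

/-- restriction `P → Dloc P q t` with trivial `𝔽_p`-coefficients -/
def rMor : Mor (basisP S P) (kP p P) (basisLoc P q t)
    (Rep.trivial (ZMod p) ↥(Dloc P q t) (ZMod p)) :=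
  Mor.res (basisP S P) (basisLoc P q t) (kappa P q t) (kappa_cont S P q t) (kP p P)

/-- the square of morphisms -/
theorem rMor_lMor :
    (morToInt (rMor p S P q t)).comp (lMor p S hpS P hχ q t) = glMor p S hpS P hχ q t := by
  apply Functor.mor_ext
  · exact MonoidHom.ext fun _ => rfl
  · apply LinearMap.ext
    intro n
    exact iotaLoc_apply p S hpS P hχ q t n

theorem lMor_h2_injective : Function.Injective (lMor p S hpS P hχ q t).h2 :=
  h2_injective (isKummer_iotaLoc p S hpS P hχ q t)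
    (Fermat.Agent.S55.LM.H90Local.h90_Ox q (Dloc P q t))

theorem lMor_h2_surj (a : H2 (basisLoc P q t) (Ox q (Dloc P q t))) (ha : p • a = 0) :
    ∃ y, (lMor p S hpS P hχ q t).h2 y = a :=
  exists_h2_of_tors (isKummer_iotaLoc p S hpS P hχ q t) a
    ((Nat.cast_smul_eq_nsmul ℤ p a).trans ha)

end Local

/-! ### the square -/

section Assembly

open Fermat.Agent.S55.LM.Defs

variable {S P} (R : Reps S P)

/-- **`β i : H²(D_i; 𝔽_p) → H²_LC(D_i; Ω^×)`** -/
def beta (i : R.Idx) : H2Loc p R i →+ BrLoc R i :=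
  (lMor p S hpS P hχ i.1.1 i.2.1).h2.toAddMonoidHom.comp
    (h2IntEquiv (basisLoc P i.1.1 i.2.1)
      (Rep.trivial (ZMod p) ↥(Dloc P i.1.1 i.2.1) (ZMod p))).toAddMonoidHom

theorem beta_apply (i : R.Idx) (b : H2Loc p R i) :
    beta p hpS hχ R i b = (lMor p S hpS P hχ i.1.1 i.2.1).h2
      (h2IntEquiv (basisLoc P i.1.1 i.2.1)
        (Rep.trivial (ZMod p) ↥(Dloc P i.1.1 i.2.1) (ZMod p)) b) := rfl

theorem beta_sq (i : R.Idx) (y : H2 (basisP S P) (kP p P)) :
    beta p hpS hχ R i (((siteOver S P R).res (kP p P) i).h2 y) =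
      (locOS S P i.1.1 i.2.1).h2 (alpha p S hpS P hχ y) := by
  show (lMor p S hpS P hχ i.1.1 i.2.1).h2
      (h2IntEquiv (basisLoc P i.1.1 i.2.1)
        (Rep.trivial (ZMod p) ↥(Dloc P i.1.1 i.2.1) (ZMod p))
        ((rMor p S P i.1.1 i.2.1).h2 y)) = _
  rw [← morToInt_h2 (rMor p S P i.1.1 i.2.1) y]
  have h2 := LinearMap.congr_fun (Functor.comp_h2 (morToInt (rMor p S P i.1.1 i.2.1))
    (lMor p S hpS P hχ i.1.1 i.2.1)) (h2IntEquiv (basisP S P) (kP p P) y)
  rw [LinearMap.comp_apply] at h2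
  rw [← h2, rMor_lMor, alpha_apply]
  unfold glMor
  rw [Functor.comp_h2, Functor.comp_h2]
  rfl

/-- **The Kummer square exists** for every `P` with `χ_p|_P = 1` (`p ∈ S`). -/
def kummerSq : KummerSq p R where
  α := alpha p S hpS P hχ
  κ := kappaK p S hpS P hχ
  β := beta p hpS hχ R
  α_tors := alpha_tors p S hpS P hχ
  α_surj := alpha_surj p S hpS P hχ
  α_ker := alpha_ker p S hpS P hχ
  κ_nsmul := kappaK_nsmul p S hpS P hχ
  β_inj i := (lMor_h2_injective p S hpS P hχ i.1.1 i.2.1).comp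
    (h2IntEquiv (basisLoc P i.1.1 i.2.1)
      (Rep.trivial (ZMod p) ↥(Dloc P i.1.1 i.2.1) (ZMod p))).injective
  β_surj i a ha := by
    obtain ⟨y, hy⟩ := lMor_h2_surj p S hpS P hχ i.1.1 i.2.1 a ha
    refine ⟨(h2IntEquiv (basisLoc P i.1.1 i.2.1)
      (Rep.trivial (ZMod p) ↥(Dloc P i.1.1 i.2.1) (ZMod p))).symm y, ?_⟩
    rw [beta_apply, AddEquiv.apply_symm_apply]
    exact hy
  sq := beta_sq p hpS hχ R

end Assembly

/-! ### closed forms -/

/-- the Kummer squares exist over every level. -/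
theorem nonempty_kummerSq (S : Finset Nat.Primes) (hpS : pPrime p ∈ S) (P : Subgroup GQ)
    (hP : Level p S P) (R : Reps S P) : Nonempty (KummerSq p R) :=
  ⟨kummerSq p hpS hP.triv R⟩

/-- **`KNoSingleSupport`** from (C4-NSS). -/
theorem kNSS (S : Finset Nat.Primes) (hpS : pPrime p ∈ S) (h : ImageNSS p S) :
    KNoSingleSupport p S :=
  kNSS_of p S (nonempty_kummerSq p S hpS) h

/-- **`KG3`** from (C4-G3). -/
theorem kG3 (S : Finset Nat.Primes) (hpS : pPrime p ∈ S) (h : ImageG3 p S) : KG3 p S :=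
  kG3_of p S (nonempty_kummerSq p S hpS) h

/-- **count [c]**: `#Ш²(𝔽_p) ≤ #(H¹_LC(P; O_S)/p)` from the Hasse principle `Blocks.HasseO`. -/
theorem card_sha2_le_of_hasseO (S : Finset Nat.Primes) (hpS : pPrime p ∈ S) (h : HasseO p S)
    (P : Subgroup GQ) (hP : Level p S P) (R : Reps S P)
    [Finite (H1 (basisP S P) (resP P (OS S)))] :
    Finite ↥((siteOver S P R).sha2 (kP p P)) ∧
    Nat.card ↥((siteOver S P R).sha2 (kP p P)) ≤
      Nat.card (H1 (basisP S P) (resP P (OS S)) ⧸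
        (nsmulAddMonoidHom (α := H1 (basisP S P) (resP P (OS S))) p).range) :=
  card_sha2_le (kummerSq p hpS hP.triv R) (fun x hx hL => h P hP R x 1 (by rwa [pow_one]) hL)

end

end Fermat.Agent.S55.Middle.KummerSquare
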