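/-
S55 / Middle / SylowType (helper74): open subgroups `P ≤ G_ℚ` of `p`-SYLOW TYPE, and the reduction
of `Blocks.KVanish₃` to them.

The finite-level class field theory of the Global block (`Final.hasseH2`, `Final.noSingleSupport`,
`Blocks4.H2CyclicIn`, `ImageFiniteCore`) needs a level `L/K` of `p`-POWER degree, while the
LC ↔ field dictionary (`GaloisDictModel.cohIsoExt`, `LocS.Statement`, `OSDict`) only has the
`ℚ`-NORMAL levels `N ∈ globalBasis S`, `N ≤ P`.  Both are available simultaneously exactly when `P`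
contains a member `U` of `globalBasis S` with `P/U` a `p`-group:

* `IsSylowType p S P` : `∃ U ∈ globalBasis S, U ≤ P ∧ ∀ h ∈ P, ∃ j, h ^ (p ^ j) ∈ U`;
* `isSylowType_of_mem` : every member of `globalBasis S` is of `p`-Sylow type;
* `exists_sylowType_le` : below every `Level p S P` there is an `H ≤ P`, `Level p S H`, of
  `p`-Sylow type, with `[P : H]` prime to `p`;
* `mem_inf` : `globalBasis S` is closed under `⊓`;
* `exists_pLevel` : for `P` of `p`-Sylow type (and `Level`, `p ∈ S`), for every `m` the `ℚ`-normal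
  level `N = U ⊓ fixRoots (p ^ m)` is a member of `globalBasis S`, `N ≤ P`, `N ≤ fixRoots (p ^ m)`
  and `P/N` is a `p`-group — so the cyclotomic levels with large local degrees
  (`CycloGrowLevel.exists_cycloLevel`) are `ℚ`-normal levels of `p`-power degree over `K₀ P`;
* `kVanish₃_of_sylowType` : `Blocks.KVanish₃ p S` follows from `Vanish₃` over the `P` of `p`-Sylow
  type (`SylowRel.eq_zero_of_res_rel_h3`).
-/
import Fermat.Agent.S55.Middle.Blocks
import Fermat.Agent.S55.Middle.SylowRel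
import Fermat.Agent.S55.Middle.CycloGrowLevel
import Fermat.Agent.S55.LM.ShapiroPerm

set_option autoImplicit false
set_option linter.unusedSectionVars false
set_option linter.style.haveILetI false

open CategoryTheory groupCohomology ExtCitation

namespace Fermat.Agent.S55.Middle.SylowType

open Fermat.Agent.S55.Formal
open Fermat.Agent.S55.Formal.PreludeLC hiding GQ Qbar
open Fermat.Agent.S55.Middle.Defs Fermat.Agent.S55.Middle.KSite Fermat.Agent.S55.Middle.Blocks
open Fermat.Agent.S55.Middle.CycloGrowIndex Fermat.Agent.S55.Middle.CycloGrowLevel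

variable (p : ℕ) [Fact p.Prime] (S : Finset Nat.Primes)

/-- `P` is of `p`-SYLOW TYPE: it contains a member `U` of `globalBasis S` with `P/U` a `p`-group
(in element form). -/
def IsSylowType (P : Subgroup GQ) : Prop :=
  ∃ U : Subgroup GQ, (globalBasis S).mem U ∧ U ≤ P ∧ ∀ h ∈ P, ∃ j : ℕ, h ^ (p ^ j) ∈ U

variable {p S}

/-- every member of `globalBasis S` is of `p`-Sylow type. -/
theorem isSylowType_of_mem {P : Subgroup GQ} (hP : (globalBasis S).mem P) : IsSylowType p S P :=
  ⟨P, hP, le_rfl, fun h hh => ⟨0, by simpa using hh⟩⟩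

/-- below every `Level p S P` there is a subgroup of `p`-Sylow type, again a `Level`, of index
prime to `p`. -/
theorem exists_sylowType_le {P : Subgroup GQ} (hP : Level p S P) :
    ∃ H : Subgroup GQ, H ≤ P ∧ Level p S H ∧ IsSylowType p S H ∧ ¬ p ∣ H.relIndex P := by
  obtain ⟨N, hN, hNP⟩ := hP.isOpen
  obtain ⟨H, hNH, hHP, hidx, hpow⟩ := SylowRel.exists_sylow_open (globalBasis S) p hN hNP
  exact ⟨H, hHP, ⟨⟨N, hN, hNH⟩, fun g hg => hP.triv g (hHP hg)⟩, ⟨N, hN, hNH, hpow⟩, hidx⟩

/-- `globalBasis S` is closed under intersections. -/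
theorem mem_inf {U V : Subgroup GQ} (hU : (globalBasis S).mem U) (hV : (globalBasis S).mem V) :
    (globalBasis S).mem (U ⊓ V) := by
  obtain ⟨F, hF, hFn, rfl⟩ := hU
  obtain ⟨F', hF', hFn', rfl⟩ := hV
  refine ⟨F ⊔ F', hF.sup hF', ?_, ?_⟩
  · rw [IntermediateField.fixingSubgroup_sup]
    haveI := hFn; haveI := hFn'
    infer_instance
  · rw [IntermediateField.fixingSubgroup_sup]

/-- **The `ℚ`-normal `p`-group levels of a subgroup of `p`-Sylow type are cofinal in the cyclotomic
direction**: for every `m` there is `N ∈ globalBasis S` with `N ≤ P`, `N ≤ fixRoots (p ^ m)` and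
`P/N` a `p`-group. -/
theorem exists_pLevel {P : Subgroup GQ} (hpS : pPrime p ∈ S) (hP : Level p S P)
    (hT : IsSylowType p S P) (m : ℕ) :
    ∃ N : Subgroup GQ, (globalBasis S).mem N ∧ N ≤ P ∧ N ≤ fixRoots (p ^ m) ∧
      ∀ h ∈ P, ∃ j : ℕ, h ^ (p ^ j) ∈ N := by
  obtain ⟨U, hU, hUP, hpow⟩ := hT
  refine ⟨U ⊓ fixRoots (p ^ m), mem_inf hU (fixRoots_mem_globalBasis p hpS m),
    inf_le_left.trans hUP, inf_le_right, fun h hh => ?_⟩
  obtain ⟨j, hj⟩ := hpow h hh
  have hχ : cycloChar p (h ^ (p ^ j)) = 1 := hP.triv _ (P.pow_mem hh _)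
  obtain ⟨j', hj'⟩ := CycloPow.exists_pow_mem_fixingSubgroup p m (h ^ (p ^ j)) hχ
  refine ⟨j + j', ?_, ?_⟩
  · rw [pow_add, pow_mul]
    exact U.pow_mem hj _
  · rw [fixRoots_eq_fixingSubgroup, pow_add, pow_mul]
    exact hj'

/-- the same with the `p`-group condition as a divisibility-free statement on the quotient:
`P ⧸ N` (as `↥P ⧸ N.subgroupOf P`) has `p`-power order. -/
theorem exists_pLevel_card {P : Subgroup GQ} (hpS : pPrime p ∈ S) (hP : Level p S P)
    (hT : IsSylowType p S P) (m : ℕ) :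
    ∃ N : Subgroup GQ, (globalBasis S).mem N ∧ N ≤ P ∧ N ≤ fixRoots (p ^ m) ∧
      ∃ a : ℕ, (N.subgroupOf P).index = p ^ a := by
  obtain ⟨N, hN, hNP, hNm, hpow⟩ := exists_pLevel hpS hP hT m
  refine ⟨N, hN, hNP, hNm, ?_⟩
  haveI := (globalBasis S).normal hN
  haveI := (globalBasis S).finiteIndex hN
  haveI : (N.subgroupOf P).Normal := inferInstance
  haveI : (N.subgroupOf P).FiniteIndex := inferInstance
  obtain ⟨a, ha⟩ := SylowRel.exists_card_quotient_eq_pow p (N.subgroupOf P) (fun g => by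
    obtain ⟨j, hj⟩ := hpow g.1 g.2
    exact ⟨j, hj⟩)
  exact ⟨a, by rw [Subgroup.index_eq_card, ha]⟩

/-- **Sylow reduction of (K-V)**: `H³_LC(P; 𝔽_p) = 0` for all `Level p S P` follows from the same
for the `P` of `p`-Sylow type. -/
theorem kVanish₃_of_sylowType
    (h : ∀ H : Subgroup GQ, Level p S H → IsSylowType p S H → Vanish₃ (basisP S H) (kP p H)) :
    KVanish₃ p S := by
  intro P hP
  obtain ⟨H, hHP, hH, hT, hidx⟩ := exists_sylowType_le hP
  have hvH := h H hH hT
  rw [Fermat.Agent.S55.LM.ShapiroPerm.vanish₃_iff_subsingleton] at hvH ⊢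
  refine ⟨fun x y => ?_⟩
  have key : ∀ z : H3 (basisP S P) (kP p P), z = 0 := by
    intro z
    have hz : (p : ℕ) • z = 0 := by
      have : ((p : ℕ) : ZMod p) • z = 0 := by rw [ZMod.natCast_self, zero_smul]
      rwa [Nat.cast_smul_eq_nsmul] at this
    have hcop : Nat.Coprime p (H.relIndex P) :=
      (Nat.Prime.coprime_iff_not_dvd (Fact.out : p.Prime)).2 hidx
    have hres : (SylowRel.resPH (globalBasis S) (Rep.trivial (ZMod p) GQ (ZMod p)) hHP).h3 z = 0 :=
      @Subsingleton.elim _ hvH _ _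
    exact SylowRel.eq_zero_of_res_rel_h3 (globalBasis S) (Rep.trivial (ZMod p) GQ (ZMod p)) hHP
      hH.isOpen hcop z hz hres
  rw [key x, key y]

end Fermat.Agent.S55.Middle.SylowType
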