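/-
S55 / MIDDLE block (sub-architect helper17): third layer of closed Props = the RESTRICTED targets.

The finite-level dictionary (LC cohomology <-> number fields) only has `ℚ`-normal levels, while the
finite-level class field theory needs levels of `p`-power degree.  Both exist simultaneously exactly
for `P` of `p`-Sylow type (`SylowType.IsSylowType p S P`), in particular for the members of
`globalBasis S`.  The consumers only need:

* `Blocks.KVanish₃`, `Blocks.KFin`, `Blocks.KG2` at ALL levels `P` (vanishing / finiteness statements: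
  reducible to Sylow-type `P`, `SylowType.kVanish₃_of_sylowType`);
* `Blocks.KG3`, `Blocks.KNoSingleSupport` only at `P ∈ globalBasis S`.

So the open `ℤ`-coefficient Props of the Middle block are restricted accordingly:

* `H2ODivisibleT`, `H3OTorsionT` : `Blocks.H2ODivisible`, `Blocks.H3OTorsion` at `P` of Sylow type;
* `ImageNSSN`, `ImageG3N`       : `Blocks2.ImageNSS`, `Blocks2.ImageG3` at `P ∈ globalBasis S`;
* `KG3N`, `KNSSN`, `OutputsN`    : the restricted outputs;
* `kNSSN`, `kG3N`                : the Kummer-square consumers in restricted form;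
* `h3OTorsionT_of`, `h2ODivisibleT_of`, `imageNSSN_of`, `imageG3N_of`, `outputsN_of` : weakenings.
-/
import Fermat.Agent.S55.Middle.KummerSquare
import Fermat.Agent.S55.Middle.SylowType

set_option autoImplicit false
set_option linter.unusedSectionVars false

open CategoryTheory groupCohomology ExtCitation Module

namespace Fermat.Agent.S55.Middle.Blocks3

noncomputable section

open Fermat.Agent.S55.Formal
open Fermat.Agent.S55.Formal.PreludeLC hiding GQ Qbar
open Fermat.Agent.S55.Middle.Defs Fermat.Agent.S55.Middle.KSite Fermat.Agent.S55.Middle.Blocks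
open Fermat.Agent.S55.Middle.Blocks2 Fermat.Agent.S55.Middle.SylowType

variable (p : ℕ) [Fact p.Prime] (S : Finset Nat.Primes)

/-! ### the four restricted open Props -/

/-- **(C4), divisibility, Sylow-type levels**: `Blocks.H2ODivisible` at `P` of `p`-Sylow type. -/
def H2ODivisibleT : Prop :=
  ∀ (P : Subgroup GQ), Level p S P → IsSylowType p S P →
    ∀ (x : H2 (basisP S P) (resP P (OS S))) (j : ℕ), p ^ j • x = 0 →
      ∃ x' : H2 (basisP S P) (resP P (OS S)), p ^ (j + 1) • x' = 0 ∧ p • x' = x

/-- **(C5), first half, Sylow-type levels**: `Blocks.H3OTorsion` at `P` of `p`-Sylow type. -/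
def H3OTorsionT : Prop :=
  ∀ (P : Subgroup GQ), Level p S P → IsSylowType p S P →
    ∀ x : H3 (basisP S P) (resP P (OS S)), p • x = 0 → x = 0

/-- **(C4-NSS), normal levels**: `Blocks2.ImageNSS` at `P ∈ globalBasis S`. -/
def ImageNSSN : Prop :=
  ∀ (P : Subgroup GQ), Level p S P → (globalBasis S).mem P → ∀ R : Reps S P,
    ∀ x : H2 (basisP S P) (resP P (OS S)), p • x = 0 → ∀ i₀ : R.Idx,
      (∀ i : R.Idx, i ≠ i₀ → (locOS S P i.1.1 i.2.1).h2 x = 0) →
        (locOS S P i₀.1.1 i₀.2.1).h2 x = 0

/-- **(C4-G3), normal levels**: `Blocks2.ImageG3` at `P ∈ globalBasis S`. -/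
def ImageG3N : Prop :=
  ∀ (P : Subgroup GQ), Level p S P → (globalBasis S).mem P → ∀ R : Reps S P,
    ∃ a₀ : ∀ i : R.Idx, BrLoc R i, (∀ i, p • a₀ i = 0) ∧
      ∀ a : ∀ i : R.Idx, BrLoc R i, (∀ i, p • a i = 0) →
        ∃ (n : ℕ) (x : H2 (basisP S P) (resP P (OS S))), p • x = 0 ∧
          ∀ i : R.Idx, (locOS S P i.1.1 i.2.1).h2 x = a i - n • a₀ i

/-! ### the restricted outputs -/

/-- **(K-G3), normal levels**. -/
def KG3N : Prop :=
  ∀ (P : Subgroup GQ), Level p S P → (globalBasis S).mem P → ∀ R : Reps S P,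
    Module.Finite (ZMod p) ((siteOver S P R).P2 (kP p P) ⧸
      LinearMap.range ((siteOver S P R).loc₂ (kP p P))) ∧
    finrank (ZMod p) ((siteOver S P R).P2 (kP p P) ⧸
      LinearMap.range ((siteOver S P R).loc₂ (kP p P))) ≤ 1

/-- **(K-NSS), normal levels**. -/
def KNSSN : Prop :=
  ∀ (P : Subgroup GQ), Level p S P → (globalBasis S).mem P → ∀ R : Reps S P,
    ∀ (x : H2 (basisP S P) (kP p P)) (i₀ : R.Idx),
      (∀ i : R.Idx, i ≠ i₀ → ((siteOver S P R).res (kP p P) i).h2 x = 0) →
        ((siteOver S P R).res (kP p P) i₀).h2 x = 0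

/-- The outputs of the Middle block in the form in which they are consumed: vanishing, finiteness
and the count at all levels, `g₃` and `nss` at the members of `globalBasis S`. -/
structure OutputsN : Prop where
  vanish₃ : KVanish₃ p S
  fin : KFin p S
  g₃ : KG3N p S
  g₂ : KG2 p S
  nss : KNSSN p S

/-! ### weakenings -/

variable {p S}

theorem h2ODivisibleT_of (h : H2ODivisible p S) : H2ODivisibleT p S :=
  fun P hP _ => h P hP

theorem h3OTorsionT_of (h : H3OTorsion p S) : H3OTorsionT p S :=
  fun P hP _ => h P hP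

theorem imageNSSN_of (h : ImageNSS p S) : ImageNSSN p S :=
  fun P hP _ => h P hP

theorem imageG3N_of (h : ImageG3 p S) : ImageG3N p S :=
  fun P hP _ => h P hP

theorem kG3N_of (h : KG3 p S) : KG3N p S :=
  fun P hP _ => h P hP

theorem kNSSN_of (h : KNoSingleSupport p S) : KNSSN p S :=
  fun P hP _ => h P hP

theorem outputsN_of (h : Outputs p S) : OutputsN p S :=
  ⟨h.vanish₃, h.fin, kG3N_of h.g₃, h.g₂, kNSSN_of h.nss⟩

/-- the Sylow-type forms imply the normal-level forms (for hub owners who prove everything at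
Sylow-type levels). -/
theorem imageNSSN_of_sylowType
    (h : ∀ (P : Subgroup GQ), Level p S P → IsSylowType p S P → ∀ R : Reps S P,
      ∀ x : H2 (basisP S P) (resP P (OS S)), p • x = 0 → ∀ i₀ : R.Idx,
        (∀ i : R.Idx, i ≠ i₀ → (locOS S P i.1.1 i.2.1).h2 x = 0) →
          (locOS S P i₀.1.1 i₀.2.1).h2 x = 0) : ImageNSSN p S :=
  fun P hP hm => h P hP (isSylowType_of_mem hm)

theorem imageG3N_of_sylowType
    (h : ∀ (P : Subgroup GQ), Level p S P → IsSylowType p S P → ∀ R : Reps S P,
      ∃ a₀ : ∀ i : R.Idx, BrLoc R i, (∀ i, p • a₀ i = 0) ∧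
        ∀ a : ∀ i : R.Idx, BrLoc R i, (∀ i, p • a i = 0) →
          ∃ (n : ℕ) (x : H2 (basisP S P) (resP P (OS S))), p • x = 0 ∧
            ∀ i : R.Idx, (locOS S P i.1.1 i.2.1).h2 x = a i - n • a₀ i) : ImageG3N p S :=
  fun P hP hm => h P hP (isSylowType_of_mem hm)

/-! ### the Kummer-square consumers, restricted -/

/-- **`KNSSN`** from (C4-NSS) at normal levels. -/
theorem kNSSN (hpS : pPrime p ∈ S) (h : ImageNSSN p S) : KNSSN p S := by
  intro P hP hm R x i₀ hx
  exact kNSS_apply (KummerSquare.kummerSq p hpS hP.triv R) (h P hP hm R) x i₀ hx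

/-- **`KG3N`** from (C4-G3) at normal levels. -/
theorem kG3N (hpS : pPrime p ∈ S) (h : ImageG3N p S) : KG3N p S := by
  intro P hP hm R
  exact kG3_apply (KummerSquare.kummerSq p hpS hP.triv R) (h P hP hm R)

end

end Fermat.Agent.S55.Middle.Blocks3
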