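/-
S55 / Middle, row M.fin (helper48), part 4: THE LOCAL INPUT OF `FinMain.kFin` IS UNCONDITIONAL.

`FinMain.LocalTorsFinite p S` (finiteness of `H²_LC(D_{q,t}; Ω_qˣ)[p]` at every place `(q, t)` of
`K = ℚ̄^P`) follows from the finite-level facts of the local block at the places of the `K`-site
(`LM.DlocFields.facts_Dloc`, helper72) through the abstract local core
(`LocalLCAdapter.finiteLevelData_of_facts`, `FiniteLevelData.h2TorsCyclic`: the `p`-torsion of
`H²_LC(Ωˣ)` is cyclic).

Hence:
* `localTorsFinite : FinMain.LocalTorsFinite p S`;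
* `kFin : pPrime p ∈ S → Blocks.HasseO p S → Blocks.KFin p S`;
* `fin₂ : pPrime p ∈ S → Blocks.HasseO p S → (literal field BaseA.fin₂ of the arithmetic site)`.
-/
import Mathlib
import Fermat.Agent.S55.Middle.FinMain
import Fermat.Agent.S55.Middle.LocalLCAdapter
import Fermat.Agent.S55.LM.DlocFields

set_option autoImplicit false
set_option linter.unusedSectionVars false
set_option linter.style.haveILetI false

open CategoryTheory ExtCitation Module

namespace Fermat.Agent.S55.Middle.FinLocal

noncomputable section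

open Fermat.Agent.S55.Formal
open Fermat.Agent.S55.Formal.PreludeLC hiding GQ Qbar
open Fermat.Agent.S55.Middle.Defs Fermat.Agent.S55.Middle.KSite Fermat.Agent.S55.Middle.Blocks
open Fermat.Agent.S55.Middle.LocalLCCore Fermat.Agent.S55.Middle.LocalLCMain

variable (p : ℕ) [hp : Fact p.Prime] (S : Finset Nat.Primes)

/-- the `p`-torsion of `H²_LC(D_{q,t}; Ω_qˣ)` is cyclic at every place of the `K`-site
(`P` open for the `S`-basis). -/
theorem h2TorsCyclic_Dloc (P : Subgroup GQ) (hP : IsOpenS S P) (q : Nat.Primes) (t : GQ) :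
    H2TorsCyclic (basisLoc P q t) (Fermat.Agent.S55.LM.Defs.Ox q (Dloc P q t)) ((p : ℕ) : ℤ) := by
  have F := Fermat.Agent.S55.LM.DlocFields.facts_Dloc S P q t hP
  exact (LocalLCAdapter.finiteLevelData_of_facts (basisLoc P q t)
    (Fermat.Agent.S55.LM.Defs.Ox q (Dloc P q t)) p hp.out.pos
    F.h1 F.h3 F.h2card F.h2cyc F.grow).h2TorsCyclic hp.out

/-- **the local input of `FinMain.kFin`**, unconditionally. -/
theorem localTorsFinite : FinMain.LocalTorsFinite p S :=
  FinMain.localTorsFinite_of_cyclic p S fun P hL q t => h2TorsCyclic_Dloc p S P hL.isOpen q.1 t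

variable {p S}

/-- **(K-fin)** from the Hasse principle (C3) alone. -/
theorem kFin (hpS : pPrime p ∈ S) (hH : HasseO p S) : KFin p S :=
  FinMain.kFin hpS hH (localTorsFinite p S)

/-- **`BaseA.fin₂` for the arithmetic site** (literal field) from the Hasse principle (C3) alone. -/
theorem fin₂ (hpS : pPrime p ∈ S) (hH : HasseO p S) :
    ∀ P : Subgroup (ArithSite.arithSite S).G, (ArithSite.arithSite S).𝒰.IsOpen P →
      TrivOn (cycloChar p) P →
      Module.Finite (ZMod p) (H2 (ArithSite.arithSite S).𝒰 (perm (ZMod p) P)) :=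
  FinMain.fin₂ hpS hH (localTorsFinite p S)

end

end Fermat.Agent.S55.Middle.FinLocal
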