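import Fermat.Agent.S55.Middle.KG2Final
import Fermat.Agent.S55.Middle.KummerSquare

/-!
# S55 / Middle: `(K-G2)` from the Hasse principle `(C3)` alone

`kg2 : 3 ≤ p → pPrime p ∈ S → Blocks.HasseO p S → Blocks.KG2 p S`
(= `KG2Final.kg2_of_hasse` with helper17's `KummerSquare.nonempty_kummerSq` plugged in).
-/

set_option autoImplicit false

open ExtCitation

namespace Fermat.Agent.S55.Middle.KG2Closed

/-- **(K-G2)** for `(p, S)`, `p` odd, `p ∈ S`, from the Hasse principle for `O_S`. -/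
theorem kg2 (p : ℕ) [Fact p.Prime] (S : Finset Nat.Primes) (h3 : 3 ≤ p) (hpS : pPrime p ∈ S)
    (hasse : Blocks.HasseO p S) : Blocks.KG2 p S :=
  KG2Final.kg2_of_hasse p S h3 hpS (KummerSquare.nonempty_kummerSq p S hpS) hasse

/-- the same with `p ≠ 2` (the shape of the other producers of `Blocks.Outputs`). -/
theorem kg2' (p : ℕ) [hp : Fact p.Prime] (S : Finset Nat.Primes) (hp2 : p ≠ 2) (hpS : pPrime p ∈ S)
    (hasse : Blocks.HasseO p S) : Blocks.KG2 p S := by
  have h2 : 2 ≤ p := hp.out.two_le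
  exact kg2 p S (by omega) hpS hasse

end Fermat.Agent.S55.Middle.KG2Closed
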