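/-
S55 / Middle / M.h3, instantiation of the SECOND HALF of (C5) for the real objects (helper58, second
seat for helper37): over `(↥P, basisP S P)` with the literal modules `resP P (muP p)`, `resP P (OS S)`,

* `h3Mu`            : `Blocks.H3OTorsion p S → Blocks.H2ODivisible p S → Blocks.H3Mu p S`
  (`H³_LC(P; μ_p) = 0`), by `H3.h3mu_eq_zero` fed with the Kummer long exact sequence of
  `Middle/LESGlueV.lean` (`k₂`, `j₃`, `k₂_nsmul`, `exists_k₂_of_j₃`, `nsmul_H3_mu`) and
  `LCTorsion.torsion_H2`;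
* `kVanish₃_of_h3Mu`: `Blocks.H3Mu p S → Blocks.KVanish₃ p S` (trivial `𝔽_p`-coefficients), through
  `MuIso.muIso` and `ScalarsLC.vanish₃_toInt_iff`;
* `kVanish₃`        : the composite, = output `Outputs.vanish₃` of the Middle block.
-/
import Fermat.Agent.S55.Middle.Blocks
import Fermat.Agent.S55.Middle.H3
import Fermat.Agent.S55.Middle.LESGlueV
import Fermat.Agent.S55.Middle.LCTorsion
import Fermat.Agent.S55.Middle.MuIso

set_option autoImplicit false

open CategoryTheory ExtCitation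

namespace Fermat.Agent.S55.Middle.H3MuInst

open Fermat.Agent.S55.Formal Fermat.Agent.S55.Formal.PreludeLC
open Fermat.Agent.S55.Middle Fermat.Agent.S55.Middle.KSite

/-- no `p`-torsion implies no `p`-power torsion -/
theorem eq_zero_of_pow_smul {X : Type*} [AddCommGroup X] (p : ℕ)
    (h : ∀ x : X, p • x = 0 → x = 0) (y : X) (hy : ∃ n : ℕ, p ^ n • y = 0) : y = 0 := by
  obtain ⟨n, hn⟩ := hy
  induction n with
  | zero => simpa using hn
  | succ n ih =>
    apply ih
    apply h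
    rw [← mul_smul, ← pow_succ']
    exact hn

/-- all classes of `H³` vanish ⇒ `Vanish₃` -/
theorem vanish₃_of_H3 {k : Type} [CommRing k] {G : Type} [Group G] (𝒰 : NBasis G)
    (M : Rep.{0, 0, 0} k G) (h : ∀ w : H3 𝒰 M, w = 0) : Vanish₃ 𝒰 M := by
  intro f hf
  have := h (Hmid.of f hf)
  exact Hmid.of_eq_zero_iff.1 this

/-- `Vanish₃` ⇒ all classes of `H³` vanish -/
theorem H3_eq_zero_of_vanish₃ {k : Type} [CommRing k] {G : Type} [Group G] (𝒰 : NBasis G)
    (M : Rep.{0, 0, 0} k G) (h : Vanish₃ 𝒰 M) (w : H3 𝒰 M) : w = 0 := by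
  obtain ⟨f, hf, rfl⟩ := Hmid.exists_of w
  exact Hmid.of_eq_zero_iff.2 (h f hf)

variable (p : ℕ) [Fact p.Prime] (S : Finset Nat.Primes)

/-- **(C5), second half, for the real objects**: `H³_LC(P; μ_p) = 0` from `H³_LC(P; O_S)[p] = 0`
and the `p`-divisibility of `H²_LC(P; O_S)(p)`, by the Kummer long exact sequence. -/
theorem h3Mu (hpS : pPrime p ∈ S) (h3O : Blocks.H3OTorsion p S) (hdiv : Blocks.H2ODivisible p S) :
    Blocks.H3Mu p S := by
  intro P hP
  have hc := LESGlueV.isCont_subBasis S P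
  apply vanish₃_of_H3
  exact H3.h3mu_eq_zero p (LESGlueV.k₂ p hpS hc) (LESGlueV.j₃ S P (basisP S P) p hpS)
    (LESGlueV.nsmul_H3_mu P (basisP S P) p)
    (LESGlueV.k₂_nsmul p hpS hc)
    (LESGlueV.exists_k₂_of_j₃ p hpS hc)
    (LCTorsion.torsion_H2 _ _)
    (fun x ⟨n, hn⟩ => by
      obtain ⟨x', -, hx'⟩ := hdiv P hP x n hn
      exact ⟨x', hx'⟩)
    (eq_zero_of_pow_smul p (h3O P hP))

/-- **(K-V) from (C5)**: passage from `μ_p`-coefficients (over `ℤ`) to the trivial module `𝔽_p`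
(over `ZMod p`) through `MuIso.muIso` and `ScalarsLC.vanish₃_toInt_iff`. -/
theorem kVanish₃_of_h3Mu (h : Blocks.H3Mu p S) : Blocks.KVanish₃ p S := by
  intro P hP
  rw [← Fermat.Agent.S55.Bridge.ScalarsLC.vanish₃_toInt_iff]
  exact Fermat.Agent.S55.Bridge.ScalarsLC.vanish₃_of_iso _ (MuIso.muIso p P hP.triv).symm (h P hP)

/-- **(K-V)** from the two `O_S`-statements of (C4)/(C5). -/
theorem kVanish₃ (hpS : pPrime p ∈ S) (h3O : Blocks.H3OTorsion p S)
    (hdiv : Blocks.H2ODivisible p S) : Blocks.KVanish₃ p S :=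
  kVanish₃_of_h3Mu p S (h3Mu p S hpS h3O hdiv)

end Fermat.Agent.S55.Middle.H3MuInst
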