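/-
S55 / Middle (helper2): row M.sylowLift — the SYLOW LIFT of `(K-V)`.

Every finite-level dictionary of the Middle block reaches only levels `N.subgroupOf P` with `N` a
member of `globalBasis S` (normal in `G_ℚ`) and `N ≤ P`, and every finite-level class field theory
input needs `P/N` to be a `p`-group.  We call such a `P` of *`p`-type*:

  `PType p S P := ∃ N ∈ globalBasis S, N ≤ P ∧ ∀ h ∈ P, ∃ j, h ^ (p ^ j) ∈ N`.

* every member of `globalBasis S` is of `p`-type (`pType_of_mem`);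
* below every level `P` there is a level `H` of `p`-type with `[P : H]` prime to `p`
  (`exists_pType_le`, from `SylowRel.exists_sylow_open`);
* `kVanish₃_of_pType` : `(K-V)` at the `p`-type levels implies `Blocks.KVanish₃ p S` (restriction to
  `H` is injective on `H³(P; 𝔽_p)` since `p` kills it and `[P : H]` is prime to `p`);
* `H3OTorsionAt`, `H2ODivisibleAt` : the two `O_S`-statements (C4)/(C5) at ONE level;
  `h3Mu_at`, `kVanish₃_at` : the pointwise forms of `H3MuInst.h3Mu`, `kVanish₃_of_h3Mu`;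
* `kVanish₃_of_pType_O` : `Blocks.KVanish₃ p S` from the two `O_S`-statements at the `p`-type
  levels only.
-/
import Fermat.Agent.S55.Middle.H3MuInst
import Fermat.Agent.S55.Middle.SylowRel
import Fermat.Agent.S55.Middle.Blocks2

set_option autoImplicit false
set_option linter.unusedSectionVars false

open CategoryTheory groupCohomology ExtCitation

namespace Fermat.Agent.S55.Middle.KVanishSylow

noncomputable section

open Fermat.Agent.S55.Formal
open Fermat.Agent.S55.Formal.PreludeLC hiding GQ Qbar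
open Fermat.Agent.S55.Middle.Defs Fermat.Agent.S55.Middle.KSite Fermat.Agent.S55.Middle.Blocks

variable (p : ℕ) [Fact p.Prime] (S : Finset Nat.Primes)

/-- `P` is of `p`-type: it contains a member `N` of `globalBasis S` with `P/N` a `p`-group. -/
def PType (P : Subgroup GQ) : Prop :=
  ∃ N, (globalBasis S).mem N ∧ N ≤ P ∧ ∀ h ∈ P, ∃ j : ℕ, h ^ (p ^ j) ∈ N

/-- every member of the basis is of `p`-type. -/
theorem pType_of_mem {P : Subgroup GQ} (hP : (globalBasis S).mem P) : PType p S P :=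
  ⟨P, hP, le_rfl, fun h hh => ⟨0, by simpa using hh⟩⟩

/-- a level of `p`-type stays of `p`-type when the witness `N` is replaced by a smaller member
`N'` with `N/N'` a `p`-group. -/
theorem PType.of_le {P : Subgroup GQ} {N N' : Subgroup GQ} (hN' : (globalBasis S).mem N')
    (hle : N' ≤ N) (hNP : N ≤ P) (hP : ∀ h ∈ P, ∃ j : ℕ, h ^ (p ^ j) ∈ N)
    (hN : ∀ h ∈ N, ∃ j : ℕ, h ^ (p ^ j) ∈ N') : PType p S P := by
  refine ⟨N', hN', hle.trans hNP, fun h hh => ?_⟩
  obtain ⟨j, hj⟩ := hP h hh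
  obtain ⟨j', hj'⟩ := hN _ hj
  exact ⟨j + j', by rw [pow_add, pow_mul]; exact hj'⟩

/-- **Sylow level**: below every level `P` there is a level `H` of `p`-type with `[P : H]` prime
to `p`. -/
theorem exists_pType_le {P : Subgroup GQ} (hP : Level p S P) :
    ∃ H : Subgroup GQ, H ≤ P ∧ Level p S H ∧ PType p S H ∧ ¬ p ∣ H.relIndex P := by
  obtain ⟨N, hN, hNP⟩ := hP.isOpen
  obtain ⟨H, hNH, hHP, hpH, hpow⟩ := SylowRel.exists_sylow_open (globalBasis S) p hN hNP
  exact ⟨H, hHP, ⟨⟨N, hN, hNH⟩, fun g hg => hP.triv g (hHP hg)⟩, ⟨N, hN, hNH, hpow⟩, hpH⟩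

/-- **Sylow lift of `(K-V)`**: `H³_LC(H; 𝔽_p) = 0` for the levels `H` of `p`-type implies
`H³_LC(P; 𝔽_p) = 0` for every level `P`. -/
theorem kVanish₃_of_pType
    (h : ∀ H : Subgroup GQ, Level p S H → PType p S H → Vanish₃ (basisP S H) (kP p H)) :
    KVanish₃ p S := by
  intro P hP
  obtain ⟨H, hHP, hLH, hTH, hpH⟩ := exists_pType_le p S hP
  apply H3MuInst.vanish₃_of_H3
  intro x
  have hH : ∃ N, (globalBasis S).mem N ∧ N ≤ H := hLH.isOpen
  have hcop : Nat.Coprime p (H.relIndex P) :=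
    (Nat.Prime.coprime_iff_not_dvd (Fact.out : p.Prime)).2 hpH
  refine SylowRel.eq_zero_of_res_rel_h3 (globalBasis S) (Rep.trivial (ZMod p) GQ (ZMod p)) hHP hH
    hcop x (Blocks2.nsmul_eq_zero_of_zmod x) ?_
  exact H3MuInst.H3_eq_zero_of_vanish₃ (basisP S H) (kP p H) (h H hLH hTH) _

/-! ### the two `O_S`-statements at one level -/

/-- **(C4), divisibility, at the level `P`**. -/
def H2ODivisibleAt (P : Subgroup GQ) : Prop :=
  ∀ (x : H2 (basisP S P) (resP P (OS S))) (j : ℕ), p ^ j • x = 0 →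
    ∃ x' : H2 (basisP S P) (resP P (OS S)), p ^ (j + 1) • x' = 0 ∧ p • x' = x

/-- **(C5), first half, at the level `P`**. -/
def H3OTorsionAt (P : Subgroup GQ) : Prop :=
  ∀ x : H3 (basisP S P) (resP P (OS S)), p • x = 0 → x = 0

theorem h2ODivisible_iff : H2ODivisible p S ↔ ∀ P, Level p S P → H2ODivisibleAt p S P := Iff.rfl

theorem h3OTorsion_iff : H3OTorsion p S ↔ ∀ P, Level p S P → H3OTorsionAt p S P := Iff.rfl

/-- pointwise form of `H3MuInst.h3Mu`. -/
theorem h3Mu_at (hpS : pPrime p ∈ S) {P : Subgroup GQ} (h3O : H3OTorsionAt p S P)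
    (hdiv : H2ODivisibleAt p S P) : Vanish₃ (basisP S P) (resP P (muP p)) := by
  have hc := LESGlueV.isCont_subBasis S P
  apply H3MuInst.vanish₃_of_H3
  exact H3.h3mu_eq_zero p (LESGlueV.k₂ p hpS hc) (LESGlueV.j₃ S P (basisP S P) p hpS)
    (LESGlueV.nsmul_H3_mu P (basisP S P) p)
    (LESGlueV.k₂_nsmul p hpS hc)
    (LESGlueV.exists_k₂_of_j₃ p hpS hc)
    (LCTorsion.torsion_H2 _ _)
    (fun x ⟨n, hn⟩ => by
      obtain ⟨x', -, hx'⟩ := hdiv x n hn
      exact ⟨x', hx'⟩)
    (H3MuInst.eq_zero_of_pow_smul p h3O)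

/-- pointwise form of `H3MuInst.kVanish₃`. -/
theorem kVanish₃_at (hpS : pPrime p ∈ S) {P : Subgroup GQ} (hP : Level p S P)
    (h3O : H3OTorsionAt p S P) (hdiv : H2ODivisibleAt p S P) :
    Vanish₃ (basisP S P) (kP p P) := by
  rw [← Fermat.Agent.S55.Bridge.ScalarsLC.vanish₃_toInt_iff]
  exact Fermat.Agent.S55.Bridge.ScalarsLC.vanish₃_of_iso _ (MuIso.muIso p P hP.triv).symm
    (h3Mu_at p S hpS h3O hdiv)

/-- **`(K-V)` from the two `O_S`-statements at the levels of `p`-type only.** -/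
theorem kVanish₃_of_pType_O (hpS : pPrime p ∈ S)
    (h : ∀ H : Subgroup GQ, Level p S H → PType p S H →
      H3OTorsionAt p S H ∧ H2ODivisibleAt p S H) :
    KVanish₃ p S :=
  kVanish₃_of_pType p S fun H hL hT => kVanish₃_at p S hpS hL (h H hL hT).1 (h H hL hT).2

end

end Fermat.Agent.S55.Middle.KVanishSylow
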