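/-
S55 / Middle — count (C6)[b]: the DOUBLE COSET INDEX FORMULA in the Mackey language (helper11).

`f : D →* G`, `V ≤ G` of finite index, `T : Set G` a set of representatives of the double cosets
`V \ G / f(D)` (`Mackey.Covers`, `Mackey.Separated`), `D_t = conjSub f V t = {d | t f(d) t⁻¹ ∈ V}`:

  `finite_of_separated : T.Finite`
  `sum_index_conjSub : ∑ t ∈ T, [D : D_t] = [G : V]`

(for `G = G_ℚ`, `V = Gal(ℚ̄/K)`, `D = Γ_p`: the sum of the local degrees `[K_v : ℚ_p]`, `v | p`, is
`[K : ℚ]`), and the assembly arithmetic `prod_le_pow_wild`, `prod_le_pow_tame` for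
`# P¹ ≤ p ^ (2 |S_K| + [K : ℚ])`.
-/
import Mathlib
import Fermat.Agent.S55.Bridge.Mackey

set_option autoImplicit false
set_option linter.unusedSectionVars false
set_option linter.unusedVariables false

namespace Fermat.Agent.S55.Middle.OrbitSum

open Fermat.Agent.S55.Bridge.Mackey

variable {D G : Type*} [Group D] [Group G] (f : D →* G) (V : Subgroup G)

/-- The point `f(d) t⁻¹ V` of `G ⧸ V` attached to a double coset representative `t` and `d : D`. -/
def pt (t : G) (d : D) : G ⧸ V := QuotientGroup.mk (f d * t⁻¹)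

theorem pt_eq_iff (t : G) (d d' : D) :
    pt f V t d = pt f V t d' ↔ d⁻¹ * d' ∈ conjSub f V t := by
  unfold pt
  rw [QuotientGroup.eq, mem_conjSub]
  have : (f d * t⁻¹)⁻¹ * (f d' * t⁻¹) = t * f (d⁻¹ * d') * t⁻¹ := by
    rw [map_mul, map_inv]; group
  rw [this]

/-- The map `D ⧸ D_t → G ⧸ V`, `d D_t ↦ f(d) t⁻¹ V`. -/
def orbMap (t : G) : D ⧸ conjSub f V t → G ⧸ V :=
  Quotient.lift (pt f V t) (fun d d' h => by
    rw [pt_eq_iff]
    exact QuotientGroup.leftRel_apply.mp h)

@[simp] theorem orbMap_mk (t : G) (d : D) :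
    orbMap f V t (QuotientGroup.mk d) = pt f V t d := rfl

theorem orbMap_injective (t : G) : Function.Injective (orbMap f V t) := by
  intro x y
  induction x using QuotientGroup.induction_on with
  | H d =>
    induction y using QuotientGroup.induction_on with
    | H d' =>
      intro h
      rw [orbMap_mk, orbMap_mk, pt_eq_iff] at h
      exact QuotientGroup.eq.mpr h

/-- The total map `Σ t : T, D ⧸ D_t → G ⧸ V`. -/
def totMap (T : Set G) : (Σ t : T, D ⧸ conjSub f V (t : G)) → G ⧸ V :=
  fun x => orbMap f V (x.1 : G) x.2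

theorem totMap_surjective {T : Set G} (hT : Covers (V := V) f T) :
    Function.Surjective (totMap f V T) := by
  intro y
  induction y using QuotientGroup.induction_on with
  | H x =>
    obtain ⟨t, ht, v, d, hx⟩ := hT x⁻¹
    refine ⟨⟨⟨t, ht⟩, QuotientGroup.mk d⁻¹⟩, ?_⟩
    show pt f V t d⁻¹ = QuotientGroup.mk x
    unfold pt
    rw [QuotientGroup.eq]
    have : (f d⁻¹ * t⁻¹)⁻¹ * x = (v : G)⁻¹ := by
      have hx' : x = ((v : G) * t * f d)⁻¹ := by rw [← hx, inv_inv]
      rw [hx', map_inv]; group
    rw [this]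
    exact V.inv_mem v.2

theorem totMap_injective {T : Set G} (hS : Separated (V := V) f T) :
    Function.Injective (totMap f V T) := by
  rintro ⟨⟨t, ht⟩, x⟩ ⟨⟨t', ht'⟩, y⟩ h
  induction x using QuotientGroup.induction_on with
  | H d =>
    induction y using QuotientGroup.induction_on with
    | H d' =>
      have h' : pt f V t d = pt f V t' d' := h
      unfold pt at h'
      rw [QuotientGroup.eq] at h'
      -- (f d t⁻¹)⁻¹ (f d' t'⁻¹) = v ∈ V  ⇒  t' = v⁻¹ * t * f (d⁻¹ d')
      have htt : t = t' := by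
        apply hS t ht t' ht'
        refine ⟨⟨_, V.inv_mem h'⟩, d⁻¹ * d', ?_⟩
        show t' = ((f d * t⁻¹)⁻¹ * (f d' * t'⁻¹))⁻¹ * t * f (d⁻¹ * d')
        rw [map_mul, map_inv]; group
      subst htt
      have : (QuotientGroup.mk d : D ⧸ conjSub f V t) = QuotientGroup.mk d' := by
        apply orbMap_injective f V t
        exact h
      rw [this]

/-- The set of double coset representatives is finite when `V` has finite index. -/
theorem finite_of_separated [V.FiniteIndex] {T : Set G} (hS : Separated (V := V) f T) :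
    T.Finite := by
  have hinj : Function.Injective (fun t : T => (QuotientGroup.mk ((t : G)⁻¹) : G ⧸ V)) := by
    rintro ⟨t, ht⟩ ⟨t', ht'⟩ h
    have h' : (QuotientGroup.mk t⁻¹ : G ⧸ V) = QuotientGroup.mk t'⁻¹ := h
    rw [QuotientGroup.eq, inv_inv] at h'
    apply Subtype.ext
    apply hS t ht t' ht'
    refine ⟨⟨_, V.inv_mem h'⟩, 1, ?_⟩
    show t' = (t * t'⁻¹)⁻¹ * t * f 1
    rw [map_one]; group
  have : Finite (G ⧸ V) := Subgroup.finite_quotient_of_finiteIndex
  exact Set.finite_coe_iff.mp (Finite.of_injective _ hinj)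

/-- **Double coset index formula**: `∑_{t ∈ V \ G / f(D)} [D : D_t] = [G : V]`. -/
theorem sum_index_conjSub [V.FiniteIndex] {T : Set G} (hT : Covers (V := V) f T)
    (hS : Separated (V := V) f T) :
    ∑ t ∈ (finite_of_separated f V hS).toFinset, (conjSub f V t).index = V.index := by
  classical
  have hfin := finite_of_separated f V hS
  have : Fintype T := hfin.fintype
  have : Finite (G ⧸ V) := Subgroup.finite_quotient_of_finiteIndex
  have e : (Σ t : T, D ⧸ conjSub f V (t : G)) ≃ G ⧸ V :=
    Equiv.ofBijective (totMap f V T) ⟨totMap_injective f V hS, totMap_surjective f V hT⟩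
  have : Finite (Σ t : T, D ⧸ conjSub f V (t : G)) := Finite.of_equiv _ e.symm
  have : ∀ t : T, Finite (D ⧸ conjSub f V (t : G)) := fun t =>
    Finite.of_injective (fun x => (⟨t, x⟩ : Σ t : T, D ⧸ conjSub f V (t : G)))
      (fun x y h => by simpa using h)
  have h1 : V.index = Nat.card (Σ t : T, D ⧸ conjSub f V (t : G)) := by
    rw [Subgroup.index, Nat.card_congr e]
  rw [h1, Nat.card_sigma]
  rw [Finset.sum_subtype (p := fun t => t ∈ T) _ (fun t => by simp)]
  rfl


/-- Finset form: for a finset `s` of double coset representatives. -/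
theorem sum_index_conjSub_finset [V.FiniteIndex] (s : Finset G)
    (hT : Covers (V := V) f (s : Set G)) (hS : Separated (V := V) f (s : Set G)) :
    ∑ t ∈ s, (conjSub f V t).index = V.index := by
  classical
  rw [← sum_index_conjSub f V hT hS]
  congr 1
  ext t
  simp

/-- Finset form of `prod_le_pow_wild`. -/
theorem prod_le_pow_wild_finset [V.FiniteIndex] (s : Finset G)
    (hT : Covers (V := V) f (s : Set G)) (hS : Separated (V := V) f (s : Set G)) (p : ℕ)
    (a : G → ℕ) (ha : ∀ t ∈ s, a t ≤ p ^ (2 + (conjSub f V t).index)) :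
    ∏ t ∈ s, a t ≤ p ^ (2 * s.card + V.index) := by
  classical
  calc ∏ t ∈ s, a t ≤ ∏ t ∈ s, p ^ (2 + (conjSub f V t).index) := Finset.prod_le_prod' ha
    _ = p ^ (2 * s.card + V.index) := by
        rw [Finset.prod_pow_eq_pow_sum, Finset.sum_add_distrib,
          sum_index_conjSub_finset f V s hT hS, Finset.sum_const, smul_eq_mul, mul_comm]

/-- Assembly arithmetic for count (C6)[b] at the prime `p`:
if each local factor is bounded by `p ^ (2 + [D : D_t])` then the product over the double coset
representatives is bounded by `p ^ (2 |T| + [G : V])`. -/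
theorem prod_le_pow_wild [V.FiniteIndex] {T : Set G} (hT : Covers (V := V) f T)
    (hS : Separated (V := V) f T) (p : ℕ) (hp : 0 < p) (a : G → ℕ)
    (ha : ∀ t ∈ T, a t ≤ p ^ (2 + (conjSub f V t).index)) :
    ∏ t ∈ (finite_of_separated f V hS).toFinset, a t ≤
      p ^ (2 * (finite_of_separated f V hS).toFinset.card + V.index) := by
  classical
  calc ∏ t ∈ (finite_of_separated f V hS).toFinset, a t
      ≤ ∏ t ∈ (finite_of_separated f V hS).toFinset, p ^ (2 + (conjSub f V t).index) :=
        Finset.prod_le_prod' fun t ht => ha t ((Set.Finite.mem_toFinset _).mp ht)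
    _ = p ^ (2 * (finite_of_separated f V hS).toFinset.card + V.index) := by
        rw [Finset.prod_pow_eq_pow_sum, Finset.sum_add_distrib, sum_index_conjSub f V hT hS,
          Finset.sum_const, smul_eq_mul, mul_comm]

/-- Assembly arithmetic for count (C6)[b] at a prime `q ≠ p`: each local factor `≤ p ^ 2`. -/
theorem prod_le_pow_tame (s : Finset G) (p : ℕ) (a : G → ℕ) (ha : ∀ t ∈ s, a t ≤ p ^ 2) :
    ∏ t ∈ s, a t ≤ p ^ (2 * s.card) := by
  calc ∏ t ∈ s, a t ≤ ∏ _t ∈ s, p ^ 2 := Finset.prod_le_prod' ha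
    _ = p ^ (2 * s.card) := by rw [Finset.prod_const, ← pow_mul]

end Fermat.Agent.S55.Middle.OrbitSum
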