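/-
S55 / Middle — count (C6)[b] of helper17 #1807 (7), in the `K`-SITE language (helper65).

`P ≤ G_ℚ` open for the `S`-basis (`K = ℚ̄^P`), `R : Reps S P` (representatives of the places of `K`
above `S`), `Y := KSite.siteOver S P R`, `μ := resP P (muP p)` (the `p`-th roots of unity, as a
`Rep ℤ ↥P`).  Then

  `P¹(Y; μ) = ∏_{(q,t)} H¹_LC(D_{q,t}; μ)` is FINITE and `# P¹(Y; μ) ≤ p ^ (2 |S_K| + [K : ℚ])`,

with `|S_K| = Fintype.card R.Idx` and `[K : ℚ] = P.index`.  No hypothesis on `p` vs `S`, none on the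
cyclotomic character.

Route, per place `(q, t)`, `D := Dloc P q t ≤ Γ_q`, `E := Ω^D` (finite over `ℚ_q` as `D` is open):
* the local coefficient map `μ_p → Ω_qˣ`, `x ↦ padicEmbedding q (t⁻¹ x)`, is a Kummer datum
  (`LM.H1Core.IsKummer`: equivariant injection onto `Ω_qˣ[p]`), so by LC Hilbert 90
  (`LM.H1Final.h90`) `# H¹_LC(D; μ) ≤ [Eˣ : Eˣᵖ]` (`LM.H1Core.card_le_index`);
* `[Eˣ : Eˣᵖ] = p · #μ_p(E) · [𝒪_E : p 𝒪_E] ≤ p ^ (2 + [E : ℚ_p])` for `q = p`, `≤ p ^ 2` for `q ≠ p`
  (`Local.PowIndexProof.powIndex` + `Local.LocalDegreeIndex`);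
* `[E : ℚ_q] = [Γ_q : D]` (`LM.GaloisDict`), and `∑_t [Γ_p : D_{p,t}] = [G_ℚ : P]`
  (`Middle.OrbitSum`, double coset decomposition).
-/
import Mathlib
import Fermat.Agent.S55.Middle.KSite
import Fermat.Agent.S55.Middle.OrbitSum
import Fermat.Agent.S55.Formal.SiteCard
import Fermat.Agent.S55.LM.H1Final
import Fermat.Agent.S55.LM.ConcreteLF
import Fermat.Agent.S55.LM.GaloisDict
import Fermat.Agent.S55.Local.LocalDegreeIndex
import Fermat.Agent.S55.Local.PowIndexProof

set_option autoImplicit false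
set_option linter.unusedSectionVars false

open CategoryTheory groupCohomology ExtCitation

namespace Fermat.Agent.S55.Middle.CountP1

noncomputable section

open Fermat.Agent.S55.Local

/-! ### Part A: the index of `p`-th powers in a finite extension of `ℚ_q` -/

section PartA

theorem relIndex_p (p : ℕ) [Fact p.Prime] (E : IntermediateField ℚ_[p] (PadicAlgCl p))
    [FiniteDimensional ℚ_[p] E] :
    (@Blocks.normBall E _ (LocalDatum.isUltrametricDist p E) (p : E)).relIndex
      (@Blocks.normBall E _ (LocalDatum.isUltrametricDist p E) 1) =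
        p ^ Module.finrank ℚ_[p] E :=
  @LocalDegreeIndex.relIndex_normBall_p p _ E
    (LocalDatum.nontriviallyNormedField p E) (LocalDatum.isUltrametricDist p E)
    (LocalDatum.properSpace p E) inferInstance inferInstance

theorem card_rootsOfUnity_bounds (q : ℕ) [Fact q.Prime]
    (E : IntermediateField ℚ_[q] (PadicAlgCl q)) (p : ℕ) [Fact p.Prime] :
    0 < Nat.card (rootsOfUnity p E) ∧ Nat.card (rootsOfUnity p E) ≤ p := by
  have : NeZero p := ⟨(Fact.out : p.Prime).ne_zero⟩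
  have hle : Nat.card (rootsOfUnity p E) ≤ p := card_rootsOfUnity E p
  refine ⟨?_, hle⟩
  have : Finite (rootsOfUnity p E) := inferInstance
  exact Nat.card_pos

/-- residue characteristic `p`: `[Eˣ : Eˣᵖ] ≤ p ^ (2 + [E : ℚ_p])` (and `≠ 0`). -/
theorem powIndex_padic_le (p : ℕ) [Fact p.Prime] (E : IntermediateField ℚ_[p] (PadicAlgCl p))
    [FiniteDimensional ℚ_[p] E] :
    (powMonoidHom p : (↥E)ˣ →* (↥E)ˣ).range.index ≠ 0 ∧
      (powMonoidHom p : (↥E)ˣ →* (↥E)ˣ).range.index ≤ p ^ (2 + Module.finrank ℚ_[p] E) := by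
  have hp0 : 0 < p := (Fact.out : p.Prime).pos
  obtain ⟨hr0, hrp⟩ := card_rootsOfUnity_bounds p E p
  have h1 := Fermat.Agent.S55.LM.ConcreteLF.concrete_powIndex p E PowIndexProof.powIndex p
  rw [relIndex_p p E] at h1
  rw [h1]
  refine ⟨?_, ?_⟩
  · exact Nat.mul_ne_zero (Nat.mul_ne_zero hp0.ne' hr0.ne') (pow_ne_zero _ hp0.ne')
  · calc p * Nat.card (rootsOfUnity p E) * p ^ Module.finrank ℚ_[p] E
        ≤ p * p * p ^ Module.finrank ℚ_[p] E :=
          Nat.mul_le_mul_right _ (Nat.mul_le_mul_left _ hrp)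
      _ = p ^ (2 + Module.finrank ℚ_[p] E) := by ring

theorem norm_natCast_of_ne (q : ℕ) [Fact q.Prime] (E : IntermediateField ℚ_[q] (PadicAlgCl q))
    (p : ℕ) [Fact p.Prime] (hqp : q ≠ p) : ‖((p : ℕ) : E)‖ = 1 := by
  have h1 : ‖((p : ℕ) : E)‖ = ‖(((p : ℕ) : E) : PadicAlgCl q)‖ := rfl
  have h2 : (((p : ℕ) : E) : PadicAlgCl q) = algebraMap ℚ_[q] (PadicAlgCl q) (p : ℚ_[q]) := by
    rw [map_natCast]; simp
  rw [h1, h2, PadicAlgCl.norm_extends, Padic.norm_natCast_eq_one_iff]
  exact (Nat.coprime_primes (Fact.out : q.Prime) (Fact.out : p.Prime)).2 hqp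

theorem relIndex_tame (q : ℕ) [Fact q.Prime] (E : IntermediateField ℚ_[q] (PadicAlgCl q))
    (p : ℕ) [Fact p.Prime] (hqp : q ≠ p) :
    (@Blocks.normBall E _ (LocalDatum.isUltrametricDist q E) (p : E)).relIndex
      (@Blocks.normBall E _ (LocalDatum.isUltrametricDist q E) 1) = 1 :=
  @LocalDegreeIndex.relIndex_normBall_of_norm_eq_one E
    (LocalDatum.nontriviallyNormedField q E) (LocalDatum.isUltrametricDist q E) (p : E)
    (norm_natCast_of_ne q E p hqp)

/-- residue characteristic `≠ p`: `[Eˣ : Eˣᵖ] ≤ p ^ 2` (and `≠ 0`). -/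
theorem powIndex_tame_le (q : ℕ) [Fact q.Prime] (E : IntermediateField ℚ_[q] (PadicAlgCl q))
    [FiniteDimensional ℚ_[q] E] (p : ℕ) [Fact p.Prime] (hqp : q ≠ p) :
    (powMonoidHom p : (↥E)ˣ →* (↥E)ˣ).range.index ≠ 0 ∧
      (powMonoidHom p : (↥E)ˣ →* (↥E)ˣ).range.index ≤ p ^ 2 := by
  have hp0 : 0 < p := (Fact.out : p.Prime).pos
  obtain ⟨hr0, hrp⟩ := card_rootsOfUnity_bounds q E p
  have h1 := Fermat.Agent.S55.LM.ConcreteLF.concrete_powIndex q E PowIndexProof.powIndex p
  rw [relIndex_tame q E p hqp] at h1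
  rw [h1]
  refine ⟨?_, ?_⟩
  · exact Nat.mul_ne_zero (Nat.mul_ne_zero hp0.ne' hr0.ne') one_ne_zero
  · calc p * Nat.card (rootsOfUnity p E) * 1 ≤ p * p * 1 :=
          Nat.mul_le_mul_right _ (Nat.mul_le_mul_left _ hrp)
      _ = p ^ 2 := by ring

open Fermat.Agent.S55.LM.GaloisDict in
/-- the local degree is the index: `[Ω^D : ℚ_q] = [Γ_q : D]` for `D` open. -/
theorem finrank_fixedField (q : ℕ) [Fact q.Prime] {D : Subgroup (Gam q)} (hD : IsOpenSub q D) :
    Module.finrank ℚ_[q] (IntermediateField.fixedField D) = D.index := by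
  have := isGalois_padicAlgCl q
  rw [IntermediateField.finrank_eq_fixingSubgroup_index, fixingSubgroup_fixedField q hD]

open Fermat.Agent.S55.LM.GaloisDict in
/-- **Part A**: for `D ≤ Γ_q` open and `E = Ω^D`:
`[Eˣ : Eˣᵖ] ≤ p ^ (2 + [Γ_q : D])` if `q = p`, `≤ p ^ 2` if `q ≠ p`, and it is `≠ 0`. -/
theorem powIndex_fixedField_le (q : ℕ) [Fact q.Prime] {D : Subgroup (Gam q)} (hD : IsOpenSub q D)
    (p : ℕ) [Fact p.Prime] :
    (powMonoidHom p : (↥(IntermediateField.fixedField D))ˣ →* _).range.index ≠ 0 ∧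
      (powMonoidHom p : (↥(IntermediateField.fixedField D))ˣ →* _).range.index ≤
        p ^ (2 + if q = p then D.index else 0) := by
  have := finiteDimensional_fixedField q hD
  by_cases h : q = p
  · subst h
    rw [if_pos rfl, ← finrank_fixedField q hD]
    exact powIndex_padic_le q (IntermediateField.fixedField D)
  · rw [if_neg h]
    exact powIndex_tame_le q (IntermediateField.fixedField D) p h

end PartA

open Fermat.Agent.S55.Formal
open Fermat.Agent.S55.Formal.PreludeLC hiding GQ Qbar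
open Fermat.Agent.S55.Bridge.ShapiroLC Fermat.Agent.S55.Bridge.Mackey
open Fermat.Agent.S55.Middle.Defs Fermat.Agent.S55.Middle.KSite
open Fermat.Agent.S55.LM.Defs Fermat.Agent.S55.LM.H1Core

attribute [local instance] Fermat.Agent.S55.LM.Defs.fact_q

/-! ### Part B: one place `(q, t)` -/

section PartB

variable (S : Finset Nat.Primes) (P : Subgroup GQ) (q : Nat.Primes) (t : GQ) (p : ℕ) [Fact p.Prime]

/-- the local coefficient module at `(q, t)` -/
abbrev locT : Rep.{0, 0, 0} ℤ ↥(Dloc P q t) := Rep.res (kappa P q t) (resP P (muP p))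

/-- the underlying element of `Gm` -/
def valT (x : locT P q t p) : Gm :=
  (show ↥(toSub ((powMonoidHom p : Qbarˣ →* Qbarˣ).ker)) from x).1

lemma valT_mem (x : locT P q t p) : toUnit (valT P q t p x) ^ p = 1 :=
  (show ↥(toSub ((powMonoidHom p : Qbarˣ →* Qbarˣ).ker)) from x).2

lemma valT_injective : Function.Injective (valT P q t p) := fun _ _ h => Subtype.ext h

/-- the element of the local module attached to a `p`-th root of unity -/
def mkT (x : Qbarˣ) (hx : x ^ p = 1) : locT P q t p :=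
  (⟨Additive.ofMul x, hx⟩ : ↥(toSub ((powMonoidHom p : Qbarˣ →* Qbarˣ).ker)))

lemma valT_mkT (x : Qbarˣ) (hx : x ^ p = 1) : toUnit (valT P q t p (mkT P q t p x hx)) = x := rfl

/-- the local coefficient map `μ_p → Ω_qˣ` at `(q, t)` -/
def iotaLoc : locT P q t p →+ Ox q (Dloc P q t) := (locMu S P q t p).φ.toAddMonoidHom

lemma iotaLoc_apply (x : locT P q t p) :
    iotaLoc S P q t p x = embLin q t (valT P q t p x) := rfl

lemma coe_toU_iotaLoc (x : locT P q t p) :
    ((toU q (iotaLoc S P q t p x) : (Om q)ˣ) : Om q) =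
      padicEmbedding (q : ℕ) ((t⁻¹ : GQ) ((toUnit (valT P q t p x) : Qbarˣ) : Qbar)) := rfl

/-- the local coefficient map is a Kummer datum: an equivariant injection of `μ_p` onto the
`p`-torsion of `Ω_qˣ`. -/
theorem isKummer_iotaLoc :
    IsKummer (locT P q t p) (Ox q (Dloc P q t)) p (iotaLoc S P q t p) where
  inj := by
    intro x y h
    apply valT_injective
    have h1 := congrArg (fun a => ((toU q a : (Om q)ˣ) : Om q)) h
    have h1' : padicEmbedding (q : ℕ) ((t⁻¹ : GQ) ((toUnit (valT P q t p x) : Qbarˣ) : Qbar)) =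
        padicEmbedding (q : ℕ) ((t⁻¹ : GQ) ((toUnit (valT P q t p y) : Qbarˣ) : Qbar)) := h1
    have h2 := (padicEmbedding (q : ℕ)).injective h1'
    have h3 := (t⁻¹ : GQ).injective h2
    exact congrArg Additive.ofMul (Units.ext h3)
  equivar := fun g x => (locMu S P q t p).equivar g x
  tors := by
    intro x
    apply toU_injective q
    apply Units.ext
    show ((toU q (iotaLoc S P q t p x) ^ p : (Om q)ˣ) : Om q) = 1
    rw [Units.val_pow_eq_pow_val, coe_toU_iotaLoc, ← map_pow, ← map_pow, ← Units.val_pow_eq_pow_val,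
      valT_mem]
    simp
  range := by
    intro a ha
    have : NeZero p := ⟨(Fact.out : p.Prime).ne_zero⟩
    obtain ⟨ζ₀, hζ₀⟩ := Fermat.Agent.S55.LM.H1Bound.exists_primitiveRoot_Qbar p
    have hζ : IsPrimitiveRoot (padicEmbedding (q : ℕ) ζ₀) p :=
      hζ₀.map_of_injective (f := padicEmbedding (q : ℕ)) (padicEmbedding (q : ℕ)).injective
    have ha' : ((toU q a : (Om q)ˣ) : Om q) ^ p = 1 := by
      have h1 : (toU q a) ^ p = 1 := congrArg (toU q) ha
      have h2 := congrArg (fun w : (Om q)ˣ => (w : Om q)) h1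
      simpa using h2
    obtain ⟨i, _, hi⟩ := hζ.eq_pow_of_pow_eq_one ha'
    -- the unit `t ζ₀`
    have hu : IsUnit ((t : GQ) ζ₀) :=
      IsUnit.of_pow_eq_one (by rw [← map_pow, hζ₀.pow_eq_one, map_one]) (NeZero.ne p)
    obtain ⟨u, hu⟩ := hu
    have hup : (u ^ i) ^ p = 1 := by
      apply Units.ext
      rw [Units.val_pow_eq_pow_val, Units.val_pow_eq_pow_val, hu, ← pow_mul, mul_comm, pow_mul,
        ← map_pow, hζ₀.pow_eq_one, map_one, one_pow]
      rfl
    refine ⟨mkT P q t p (u ^ i) hup, ?_⟩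
    apply toU_injective q
    apply Units.ext
    rw [coe_toU_iotaLoc, valT_mkT, Units.val_pow_eq_pow_val, hu, map_pow, map_pow, ← hi]
    congr 2
    show (t⁻¹ : GQ) ((t : GQ) ζ₀) = ζ₀
    rw [← AlgEquiv.mul_apply, inv_mul_cancel, AlgEquiv.one_apply]

end PartB

/-! ### the invariants of `Ω_qˣ` under a subgroup -/

section Invariants

variable (q : Nat.Primes)

/-- `Eˣ → (Ω_qˣ)^D` for `E = Ω^D` (additively): injective, onto the invariants. -/
theorem exists_unitsToInvariants (D : Subgroup (Gq q)) (E : IntermediateField ℚ_[(q : ℕ)] (Om q))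
    (hE : ∀ x : Om q, x ∈ E ↔ ∀ g ∈ D, toAut q g x = x) :
    ∃ j : Additive (↥E)ˣ →+ Ox q D, Function.Injective j ∧
      (∀ b : Ox q D, (∀ g, (Ox q D).ρ g b = b) → ∃ x, j x = b) ∧
      (∀ x g, (Ox q D).ρ g (j x) = j x) := by
  let j : Additive (↥E)ˣ →+ Ox q D :=
    (MonoidHom.toAdditive (Units.map (E.val : ↥E →* Om q)) : Additive (↥E)ˣ →+ Additive (Om q)ˣ)
  refine ⟨j, ?_, ?_, ?_⟩
  · intro x y hxy
    have h1 : Units.map (E.val : ↥E →* Om q) (Additive.toMul x) =
        Units.map (E.val : ↥E →* Om q) (Additive.toMul y) := hxy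
    have h2 := congrArg (fun w : (Om q)ˣ => (w : Om q)) h1
    have h3 : ((Additive.toMul x : (↥E)ˣ) : ↥E) = ((Additive.toMul y : (↥E)ˣ) : ↥E) :=
      Subtype.ext h2
    exact congrArg Additive.ofMul (Units.ext h3)
  · intro b hb
    have hmem : ∀ g ∈ D, toAut q g ((toU q b : (Om q)ˣ) : Om q) = ((toU q b : (Om q)ˣ) : Om q) := by
      intro g hg
      have := hb ⟨g, hg⟩
      have h2 := congrArg (fun x => ((toU q x : (Om q)ˣ) : Om q)) this
      exact h2
    have hinvmem : ∀ g ∈ D, toAut q g ((((toU q b)⁻¹ : (Om q)ˣ)) : Om q) =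
        ((((toU q b)⁻¹ : (Om q)ˣ)) : Om q) := by
      intro g hg
      rw [Units.val_inv_eq_inv_val, map_inv₀, hmem g hg]
    have h1 : ((toU q b : (Om q)ˣ) : Om q) ∈ E := (hE _).mpr hmem
    have h2 : ((((toU q b)⁻¹ : (Om q)ˣ)) : Om q) ∈ E := (hE _).mpr hinvmem
    refine ⟨Additive.ofMul ⟨⟨_, h1⟩, ⟨_, h2⟩, ?_, ?_⟩, ?_⟩
    · exact Subtype.ext (by simp)
    · exact Subtype.ext (by simp)
    · apply toU_injective q
      exact Units.ext rfl
  · intro x g
    apply toU_injective q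
    apply Units.ext
    rw [Ox_ρ]
    show toAut q (g : Gq q) ((toU q (j x) : (Om q)ˣ) : Om q) = ((toU q (j x) : (Om q)ˣ) : Om q)
    exact (hE _).mp (Additive.toMul x : (↥E)ˣ).1.2 g g.2

end Invariants

/-! ### Part B, conclusion: the local bound -/

section LocalBound

open Fermat.Agent.S55.LM

variable (S : Finset Nat.Primes) (P : Subgroup GQ) (q : Nat.Primes) (t : GQ) (p : ℕ) [Fact p.Prime]

/-- the local groups of the `K`-site are open. -/
theorem isOpenSub_Dloc (hP : IsOpenS S P) :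
    GaloisDict.IsOpenSub (q : ℕ) (Dloc P q t : Subgroup (GaloisDict.Gam (q : ℕ))) := by
  obtain ⟨N, hN, hNP⟩ := hP
  obtain ⟨U, hU, hle⟩ := isCont_local S (primeLocalToGlobal q) N hN
  refine ⟨U, hU, fun s hs => ?_⟩
  have hn : N.Normal := (globalBasis S).normal hN
  exact hNP (hn.conj_mem _ (hle s hs) t)

/-- **The local bound.**  `H¹_LC(D_{q,t}; μ_p)` is finite of order `≤ p ^ (2 + [Γ_q : D_{q,t}])`
for `q = p`, `≤ p ^ 2` for `q ≠ p`. -/
theorem card_H1_loc_le (hP : IsOpenS S P) :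
    Finite (H1 (basisLoc P q t) (locT P q t p)) ∧
      Nat.card (H1 (basisLoc P q t) (locT P q t p)) ≤
        p ^ (2 + if (q : ℕ) = p then (Dloc P q t).index else 0) := by
  have hD := isOpenSub_Dloc S P q t hP
  set D' : Subgroup (GaloisDict.Gam (q : ℕ)) := Dloc P q t with hD'
  obtain ⟨hne, hle⟩ := powIndex_fixedField_le (q : ℕ) hD p
  have hE : ∀ x : Om q, x ∈ IntermediateField.fixedField D' ↔
      ∀ g ∈ Dloc P q t, toAut q g x = x :=
    fun x => ⟨fun h g hg => h ⟨g, hg⟩, fun h g => h g.1 g.2⟩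
  obtain ⟨j, hj, hjr, hji⟩ :=
    exists_unitsToInvariants q (Dloc P q t) (IntermediateField.fixedField D') hE
  have hne' : (nsmulAddMonoidHom p :
      Additive (↥(IntermediateField.fixedField D'))ˣ →+ _).range.index ≠ 0 := by
    rw [H1Tools.index_nsmul_additive]; exact hne
  have := card_le_index (𝒰 := basisLoc P q t) (isKummer_iotaLoc S P q t p)
    (H1Final.h90 (Dloc P q t)) j hj hjr hji hne'
  rw [H1Tools.index_nsmul_additive] at this
  exact ⟨this.1, this.2.trans hle⟩

end LocalBound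

/-! ### Part C: the product over the places -/

section Global

open Fermat.Agent.S55.Middle

variable (S : Finset Nat.Primes) (P : Subgroup GQ) (p : ℕ) [Fact p.Prime]

/-- **Sum of the local degrees** above `q`: `∑_t [Γ_q : D_{q,t}] = [G_ℚ : P]`. -/
theorem sum_index_Dloc [P.FiniteIndex] (R : Reps S P) (q : ↥S) [Fintype ↥(R.T q)] :
    ∑ t : ↥(R.T q), (Dloc P q.1 (t : GQ)).index = P.index := by
  have : Finite (GQ ⧸ P) := Subgroup.finite_quotient_of_finiteIndex
  have e : (Σ t : ↥(R.T q), primeLocalGaloisGroup q.1 ⧸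
      conjSub (primeLocalToGlobal q.1) P (t : GQ)) ≃ GQ ⧸ P :=
    Equiv.ofBijective (OrbitSum.totMap (primeLocalToGlobal q.1) P (R.T q))
      ⟨OrbitSum.totMap_injective (primeLocalToGlobal q.1) P (R.separated q),
        OrbitSum.totMap_surjective (primeLocalToGlobal q.1) P (R.covers q)⟩
  have : ∀ t : ↥(R.T q), Finite (primeLocalGaloisGroup q.1 ⧸
      conjSub (primeLocalToGlobal q.1) P (t : GQ)) := fun t =>
    Finite.of_injective _ (OrbitSum.orbMap_injective (primeLocalToGlobal q.1) P (t : GQ))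
  rw [Subgroup.index, ← Nat.card_congr e, Nat.card_sigma]
  rfl

/-- the wild exponent of the place `v = (q, t)`: the local degree if `q = p`, else `0`. -/
def wildExp (R : Reps S P) (v : R.Idx) : ℕ :=
  if ((v.1.1 : Nat.Primes) : ℕ) = p then (Dloc P v.1.1 (v.2 : GQ)).index else 0

/-- the wild exponents add up to at most `[G_ℚ : P]` (exactly, if `p ∈ S`). -/
theorem sum_wildExp_le [P.FiniteIndex] (R : Reps S P) :
    ∑ v : R.Idx, wildExp S P p R v ≤ P.index := by
  classical
  have instT : ∀ q : ↥S, Fintype ↥(R.T q) := fun q => Fintype.ofFinite _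
  have h1 : ∑ v : R.Idx, wildExp S P p R v =
      ∑ q : ↥S, ∑ t : ↥(R.T q), wildExp S P p R ⟨q, t⟩ := by
    have h0 := @Fintype.sum_sigma ↥S (fun q => ↥(R.T q)) ℕ _ _ _ (fun v => wildExp S P p R v)
    rw [← h0]
    exact @Fintype.sum_equiv R.Idx R.Idx ℕ _ Sigma.instFintype _ (Equiv.refl _) _ _ (fun _ => rfl)
  have h2 : ∀ q : ↥S, ∑ t : ↥(R.T q), wildExp S P p R ⟨q, t⟩ =
      if ((q.1 : Nat.Primes) : ℕ) = p then P.index else 0 := by
    intro q
    by_cases hq : ((q.1 : Nat.Primes) : ℕ) = p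
    · rw [if_pos hq, ← sum_index_Dloc S P R q]
      refine Finset.sum_congr rfl (fun t _ => ?_)
      simp only [wildExp]
      rw [if_pos hq]
    · rw [if_neg hq]
      refine Finset.sum_eq_zero (fun t _ => ?_)
      simp only [wildExp]
      rw [if_neg hq]
  rw [h1, Finset.sum_congr rfl (fun q _ => h2 q)]
  by_cases hex : ∃ q₀ : ↥S, ((q₀.1 : Nat.Primes) : ℕ) = p
  · obtain ⟨q₀, hq₀⟩ := hex
    have h3 : ∀ q : ↥S, (if ((q.1 : Nat.Primes) : ℕ) = p then P.index else 0) =
        if q = q₀ then P.index else 0 := by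
      intro q
      by_cases hq : q = q₀
      · rw [if_pos hq, if_pos (by rw [hq]; exact hq₀)]
      · rw [if_neg hq, if_neg]
        intro h
        exact hq (Subtype.ext (Subtype.ext (h.trans hq₀.symm)))
    rw [Finset.sum_congr rfl (fun q _ => h3 q), Finset.sum_ite_eq' Finset.univ q₀]
    simp
  · refine le_of_eq_of_le (Finset.sum_eq_zero (fun q _ => ?_)) (Nat.zero_le _)
    rw [if_neg]
    intro h
    exact hex ⟨q, h⟩

/-- **Count (C6)[b], `K`-site form.**  For `P` open for the `S`-basis, `K = ℚ̄^P`: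
`P¹(μ_p) = ∏_{v ∣ S} H¹_LC(D_v; μ_p)` is finite of order `≤ p ^ (2 |S_K| + [K : ℚ])`. -/
theorem card_P1_le (hP : IsOpenS S P) (R : Reps S P) :
    Finite ((siteOver S P R).P1 (resP P (muP p))) ∧
      Nat.card ((siteOver S P R).P1 (resP P (muP p))) ≤
        p ^ (2 * Fintype.card R.Idx + P.index) := by
  have hp0 : 0 < p := (Fact.out : p.Prime).pos
  have hfi : P.FiniteIndex := by
    obtain ⟨N, hN, hNP⟩ := hP
    have := (globalBasis S).finiteIndex hN
    exact Subgroup.finiteIndex_of_le hNP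
  have hloc : ∀ v : R.Idx,
      Finite (H1 ((siteOver S P R).𝒱 v) ((siteOver S P R).loc (resP P (muP p)) v)) ∧
        Nat.card (H1 ((siteOver S P R).𝒱 v) ((siteOver S P R).loc (resP P (muP p)) v)) ≤
          p ^ (2 + wildExp S P p R v) := fun v =>
    card_H1_loc_le S P v.1.1 (v.2 : GQ) p hP
  have : ∀ v : (siteOver S P R).I,
      Finite (H1 ((siteOver S P R).𝒱 v) ((siteOver S P R).loc (resP P (muP p)) v)) :=
    fun v => (hloc v).1
  refine ⟨SiteCard.finite_P1 (siteOver S P R) (resP P (muP p)), ?_⟩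
  rw [SiteCard.card_P1]
  calc ∏ v : R.Idx, Nat.card (H1 ((siteOver S P R).𝒱 v)
          ((siteOver S P R).loc (resP P (muP p)) v))
      ≤ ∏ v : R.Idx, p ^ (2 + wildExp S P p R v) :=
        Finset.prod_le_prod' (fun v _ => (hloc v).2)
    _ = p ^ ∑ v : R.Idx, (2 + wildExp S P p R v) := Finset.prod_pow_eq_pow_sum _ _ _
    _ ≤ p ^ (2 * Fintype.card R.Idx + P.index) := by
        refine Nat.pow_le_pow_right hp0 ?_
        rw [Finset.sum_add_distrib, Finset.sum_const, smul_eq_mul, Finset.card_univ, mul_comm]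
        exact Nat.add_le_add_left (sum_wildExp_le S P p R) _

end Global

end

end Fermat.Agent.S55.Middle.CountP1
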