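/-
S55 / Middle, row M.count.globalH1 (helper10): the Kummer homomorphism for an ARBITRARY (possibly
infinite) Galois extension `E/F` with `μ_p ⊆ F` — the half of `Middle/KummerFinite.lean` which
does not need Hilbert 90.

* `rootable F E p`, `pPow F p` as in `KummerFinite` (own copies, this file imports Mathlib only);
* `chi hζ α h : Gal(E/F) →* rootsOfUnity p E`, `σ ↦ σ α / α` for `α ^ p ∈ F`;
* `kappa hζ : rootable F E p →* (Gal(E/F) →* rootsOfUnity p E)`, `kappa_apply`, `ker_kappa`
  (kernel `= (Fˣ)^p`), `kappa_apply_eq_one` (`σ` fixing a root kills the character);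
* `rootsEquivZMod hζ : rootsOfUnity p E ≃* Multiplicative (ZMod p)`.
-/
import Mathlib

set_option autoImplicit false
set_option linter.unusedSectionVars false
set_option linter.style.haveILetI false

namespace Fermat.Agent.S55.Middle.KummerInfinite

section Basic

variable (F E : Type*) [Field F] [Field E] [Algebra F E] (p : ℕ)

/-- the inclusion `Fˣ → Eˣ` -/
abbrev incl : Fˣ →* Eˣ := Units.map (algebraMap F E : F →* E)

lemma incl_injective : Function.Injective (incl F E) :=
  Units.map_injective (algebraMap F E).injective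

/-- the elements of `Fˣ` having a `p`-th root in `E` -/
def rootable : Subgroup Fˣ := ((powMonoidHom p : Eˣ →* Eˣ).range).comap (incl F E)

/-- the `p`-th powers in `Fˣ` -/
def pPow : Subgroup Fˣ := (powMonoidHom p : Fˣ →* Fˣ).range

variable {F E p}

lemma mem_rootable {a : Fˣ} : a ∈ rootable F E p ↔ ∃ α : Eˣ, α ^ p = incl F E a := by
  simp only [rootable, Subgroup.mem_comap, MonoidHom.mem_range, powMonoidHom_apply]

lemma mem_pPow {a : Fˣ} : a ∈ pPow F p ↔ ∃ b : Fˣ, b ^ p = a := by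
  simp only [pPow, MonoidHom.mem_range, powMonoidHom_apply]

variable (F E p) in
lemma pPow_le_rootable : pPow F p ≤ rootable F E p := by
  intro a ha
  obtain ⟨b, rfl⟩ := mem_pPow.1 ha
  exact mem_rootable.2 ⟨incl F E b, by rw [map_pow]⟩

/-- in an algebraically closed field everything is rootable -/
lemma rootable_eq_top [IsAlgClosed E] (hp : p ≠ 0) : rootable F E p = ⊤ := by
  rw [eq_top_iff]
  intro a _
  obtain ⟨z, hz⟩ := IsAlgClosed.exists_pow_nat_eq (algebraMap F E (a : F)) (Nat.pos_of_ne_zero hp)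
  have hz0 : z ≠ 0 := by
    rintro rfl
    rw [zero_pow hp] at hz
    exact a.ne_zero ((map_eq_zero (algebraMap F E)).1 hz.symm)
  exact mem_rootable.2 ⟨Units.mk0 z hz0, Units.ext (by simpa using hz)⟩

end Basic

section Galois

variable {F E : Type*} [Field F] [Field E] [Algebra F E]
variable {p : ℕ} [hp : Fact p.Prime] {ζ : F}

/-- the automorphisms fix the image of `Fˣ` -/
lemma smul_incl (σ : E ≃ₐ[F] E) (a : Fˣ) : σ • incl F E a = incl F E a := by
  ext
  simp [AlgEquiv.smul_units_def]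

/-- the `p`-th roots of unity of `E` lie in `F`, hence are fixed by the automorphisms -/
lemma smul_root_eq (hζ : IsPrimitiveRoot ζ p) (η : Eˣ) (hη : η ^ p = 1) (σ : E ≃ₐ[F] E) :
    σ • η = η := by
  haveI : NeZero p := ⟨hp.out.ne_zero⟩
  have hζE := hζ.map_of_injective (algebraMap F E).injective
  have h1 : (η : E) ^ p = 1 := by
    rw [← Units.val_pow_eq_pow_val, hη, Units.val_one]
  obtain ⟨i, -, hi⟩ := hζE.eq_pow_of_pow_eq_one h1
  ext
  simp only [AlgEquiv.smul_units_def, Units.coe_map, MonoidHom.coe_coe]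
  rw [← hi, map_pow, AlgEquiv.commutes]

/-- the Kummer character `σ ↦ σ α / α` of an `α : Eˣ` with `α ^ p ∈ Fˣ` -/
noncomputable def chi (hζ : IsPrimitiveRoot ζ p) (α : Eˣ) (hα : ∃ a : Fˣ, α ^ p = incl F E a) :
    (E ≃ₐ[F] E) →* rootsOfUnity p E where
  toFun σ := ⟨σ • α / α, by
    obtain ⟨a, ha⟩ := hα
    rw [mem_rootsOfUnity, div_pow, ← smul_pow', ha, smul_incl, div_self']⟩
  map_one' := by
    ext
    simp
  map_mul' σ τ := by
    have hτ : (τ • α / α) ^ p = 1 := by
      obtain ⟨a, ha⟩ := hα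
      rw [div_pow, ← smul_pow', ha, smul_incl, div_self']
    have h1 := smul_root_eq hζ (τ • α / α) hτ σ
    apply Subtype.ext
    show (σ * τ) • α / α = (σ • α / α) * (τ • α / α)
    rw [mul_smul]
    have h2 : σ • (τ • α) = σ • ((τ • α / α) * α) := by rw [div_mul_cancel]
    rw [h2, smul_mul', h1]
    rw [mul_div_assoc, mul_comm]

@[simp] lemma chi_apply_coe (hζ : IsPrimitiveRoot ζ p) (α : Eˣ)
    (hα : ∃ a : Fˣ, α ^ p = incl F E a) (σ : E ≃ₐ[F] E) :
    ((chi hζ α hα σ : rootsOfUnity p E) : Eˣ) = σ • α / α := rfl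

lemma chi_mul (hζ : IsPrimitiveRoot ζ p) (α β : Eˣ) (hα : ∃ a : Fˣ, α ^ p = incl F E a)
    (hβ : ∃ a : Fˣ, β ^ p = incl F E a) (hαβ : ∃ a : Fˣ, (α * β) ^ p = incl F E a) :
    chi hζ (α * β) hαβ = chi hζ α hα * chi hζ β hβ := by
  ext σ
  simp only [chi_apply_coe, MonoidHom.mul_apply, Subgroup.coe_mul, smul_mul', Units.val_mul,
    Units.val_div_eq_div_val]
  rw [mul_div_mul_comm]

/-- two `p`-th roots of the same element have the same Kummer character -/
lemma chi_eq_of_pow_eq (hζ : IsPrimitiveRoot ζ p) (α β : Eˣ) (hα : ∃ a : Fˣ, α ^ p = incl F E a)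
    (hβ : ∃ a : Fˣ, β ^ p = incl F E a) (h : α ^ p = β ^ p) : chi hζ α hα = chi hζ β hβ := by
  have hη : (α / β) ^ p = 1 := by rw [div_pow, h, div_self']
  ext σ
  simp only [chi_apply_coe]
  have h1 := smul_root_eq hζ (α / β) hη σ
  have h2 : σ • α = σ • ((α / β) * β) := by rw [div_mul_cancel]
  rw [h2, smul_mul', h1, Units.val_div_eq_div_val, Units.val_div_eq_div_val, Units.val_mul,
    Units.val_div_eq_div_val]
  field_simp

variable [IsGalois F E]

/-- a unit of `E` fixed by the Galois group comes from `F` -/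
lemma exists_incl_eq_of_fixed (β : Eˣ) (h : ∀ σ : E ≃ₐ[F] E, σ • β = β) :
    ∃ b : Fˣ, incl F E b = β := by
  have h' : ∀ σ : E ≃ₐ[F] E, σ (β : E) = β := fun σ => by
    have := congrArg Units.val (h σ)
    simpa [AlgEquiv.smul_units_def] using this
  obtain ⟨b, hb⟩ := (InfiniteGalois.mem_range_algebraMap_iff_fixed (k := F) (K := E) (β : E)).2 h'
  have hb0 : b ≠ 0 := by
    rintro rfl
    rw [map_zero] at hb
    exact β.ne_zero hb.symm
  exact ⟨Units.mk0 b hb0, Units.ext (by simpa using hb)⟩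

lemma chi_eq_one_iff (hζ : IsPrimitiveRoot ζ p) (α : Eˣ) (hα : ∃ a : Fˣ, α ^ p = incl F E a) :
    chi hζ α hα = 1 ↔ ∃ b : Fˣ, incl F E b = α := by
  constructor
  · intro h
    apply exists_incl_eq_of_fixed
    intro σ
    have := congrArg (fun f => ((f σ : rootsOfUnity p E) : Eˣ)) h
    simp only [chi_apply_coe, MonoidHom.one_apply, OneMemClass.coe_one] at this
    exact div_eq_one.1 this
  · rintro ⟨b, rfl⟩
    ext σ
    simp only [chi_apply_coe, MonoidHom.one_apply, OneMemClass.coe_one, smul_incl, div_self']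

/-- a chosen `p`-th root -/
noncomputable def root (a : rootable F E p) : Eˣ := (mem_rootable.1 a.2).choose

lemma root_pow (a : rootable F E p) : root a ^ p = incl F E (a : Fˣ) :=
  (mem_rootable.1 a.2).choose_spec

/-- **The Kummer homomorphism** `a ↦ (σ ↦ σ(a^{1/p}) / a^{1/p})`. -/
noncomputable def kappa (hζ : IsPrimitiveRoot ζ p) :
    rootable F E p →* ((E ≃ₐ[F] E) →* rootsOfUnity p E) where
  toFun a := chi hζ (root a) ⟨a, root_pow a⟩
  map_one' := by
    rw [chi_eq_one_iff]
    have h : (root (1 : rootable F E p)) ^ p = 1 := by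
      rw [root_pow]; simp
    have hfix : ∀ σ : E ≃ₐ[F] E, σ • root (1 : rootable F E p) = root (1 : rootable F E p) :=
      fun σ => smul_root_eq hζ _ h σ
    exact exists_incl_eq_of_fixed _ hfix
  map_mul' a b := by
    have hab : ∃ c : Fˣ, (root a * root b) ^ p = incl F E c :=
      ⟨(a * b : rootable F E p), by
        rw [mul_pow, root_pow, root_pow, Subgroup.coe_mul, map_mul]⟩
    rw [← chi_mul hζ (root a) (root b) ⟨a, root_pow a⟩ ⟨b, root_pow b⟩ hab]
    apply chi_eq_of_pow_eq
    rw [root_pow, mul_pow, root_pow, root_pow, Subgroup.coe_mul, map_mul]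

/-- any `p`-th root computes the Kummer character -/
lemma kappa_apply (hζ : IsPrimitiveRoot ζ p) (a : rootable F E p) (α : Eˣ)
    (hα : α ^ p = incl F E (a : Fˣ)) (σ : E ≃ₐ[F] E) :
    ((kappa hζ a σ : rootsOfUnity p E) : Eˣ) = σ • α / α := by
  have : kappa hζ a = chi hζ α ⟨a, hα⟩ :=
    chi_eq_of_pow_eq hζ (root a) α ⟨a, root_pow a⟩ ⟨a, hα⟩ (by rw [root_pow, hα])
  rw [this, chi_apply_coe]

/-- an automorphism fixing some `p`-th root of `a` is killed by the Kummer character of `a` -/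
lemma kappa_apply_eq_one (hζ : IsPrimitiveRoot ζ p) (a : rootable F E p) (α : Eˣ)
    (hα : α ^ p = incl F E (a : Fˣ)) (σ : E ≃ₐ[F] E) (hσ : σ • α = α) :
    kappa hζ a σ = 1 := by
  apply Subtype.ext
  rw [kappa_apply hζ a α hα σ, hσ, div_self']
  rfl

lemma kappa_eq_one_iff (hζ : IsPrimitiveRoot ζ p) (a : rootable F E p) :
    kappa hζ a = 1 ↔ (a : Fˣ) ∈ pPow F p := by
  show chi hζ (root a) ⟨a, root_pow a⟩ = 1 ↔ _
  rw [chi_eq_one_iff, mem_pPow]
  constructor
  · rintro ⟨b, hb⟩
    refine ⟨b, incl_injective F E ?_⟩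
    rw [map_pow, hb, root_pow]
  · rintro ⟨b, hb⟩
    have hη : (root a / incl F E b) ^ p = 1 := by
      rw [div_pow, root_pow, ← map_pow, hb, div_self']
    have hfix : ∀ σ : E ≃ₐ[F] E, σ • (root a / incl F E b) = root a / incl F E b :=
      fun σ => smul_root_eq hζ _ hη σ
    obtain ⟨c, hc⟩ := exists_incl_eq_of_fixed _ hfix
    refine ⟨c * b, ?_⟩
    rw [map_mul, hc, div_mul_cancel]

/-- the kernel of the Kummer homomorphism is the group of `p`-th powers -/
lemma ker_kappa (hζ : IsPrimitiveRoot ζ p) :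
    (kappa (E := E) hζ).ker = (pPow F p).subgroupOf (rootable F E p) := by
  ext a
  rw [MonoidHom.mem_ker, kappa_eq_one_iff, Subgroup.mem_subgroupOf]

omit [IsGalois F E] in
/-- `μ_p(E) ≃ ℤ/p` -/
noncomputable def rootsEquivZMod (hζ : IsPrimitiveRoot ζ p) :
    rootsOfUnity p E ≃* Multiplicative (ZMod p) := by
  haveI : NeZero p := ⟨hp.out.ne_zero⟩
  have hζE := hζ.map_of_injective (algebraMap F E).injective
  have hu := hζE.isUnit_unit hp.out.ne_zero
  exact ((MulEquiv.subgroupCongr hu.zpowers_eq).symm.trans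
    (AddEquiv.toMultiplicativeLeft hu.zmodEquivZPowers).symm)

end Galois

end Fermat.Agent.S55.Middle.KummerInfinite
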