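/-
S55 / Middle, row M.count.globalH1 (helper10): COUNT (a) of (C6) in LC language.

`K₀ ⊆ ℚ̄` a number field unramified outside `S ∋ p`, `ζ_p ∈ K₀`, `U = Gal(ℚ̄/K₀) = K₀.fixingSubgroup`
with the basis `basisU K₀ S = ShapiroLC.subBasis (globalBasis S) U`; `SK` a finite set of primes of
`K₀` all of which lie over primes of `S`; `V_S(K₀) = KummerVS.VS K₀ p SK`.  Then

  `relIndex_VS_le_pow_finrank` :  `[V_S(K₀) : (K₀ˣ)^p] ≤ p ^ dim_{𝔽_p} H¹_LC(U; 𝔽_p)`

(given that this `H¹` is finite-dimensional), i.e. with `KummerVS.relIndex_pPow_VS_numberField`: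
`h¹(U; μ_p) ≥ rank 𝓞ˣ + #SK + 1 + dim Cl_S[p] = #S_K + r₂ + c`.

Ingredients (all in this file):
* `fix_root` : Kummer theory, unramified direction, directly in the Prelude's language of valuation
  subrings of `ℚ̄`: an inertia element at `A | q ≠ p` fixing `K₀` fixes every `p`-th root of an
  `a ∈ K₀` with `p ∣ v_A(a)`;
* `isUnramifiedOutside_adjoin_root`, `exists_level` : `K₀(a^{1/p})` is unramified outside `S` for
  `a ∈ V_S(K₀)`, hence lies in a level of `globalBasis S`;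
* `phiHom` : the Kummer homomorphism `K₀ˣ → Hom(U, ℤ/p)` (from `Middle/KummerInfinite`), kernel
  `(K₀ˣ)^p`;  `psi : V_S(K₀) → Z¹_LC(U; 𝔽_p)`, additive, kernel `(K₀ˣ)^p`.
-/
import Mathlib
import Fermat.Agent.S55.KummerVS
import Fermat.Agent.S55.Bridge.Unram
import Fermat.Agent.S55.Bridge.ShapiroLC
import Fermat.Agent.S55.Formal.PreludeLC
import Fermat.Agent.S55.Middle.KummerInfinite
import Fermat.Agent.S55.Middle.KummerLC

set_option autoImplicit false
set_option linter.unusedSectionVars false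
set_option linter.style.haveILetI false

open scoped NumberField
open IsDedekindDomain

namespace Fermat.Agent.S55.Middle.GlobalH1Count

open Fermat.Agent.S55 Fermat.Agent.S55.Bridge.Unram Fermat.Agent.Lib

local notation "Qbar" => AlgebraicClosure ℚ
local notation "Γ" => (AlgebraicClosure ℚ ≃ₐ[ℚ] AlgebraicClosure ℚ)

section FixRoot

variable (K₀ : IntermediateField ℚ Qbar) [NumberField K₀]

/-- the inclusion of `K₀` in `ℚ̄` -/
noncomputable abbrev ι : K₀ →+* Qbar := algebraMap K₀ Qbar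

/-- the place of `K₀` below a valuation subring of `ℚ̄` over a rational prime -/
noncomputable def placeBelow (A : ValuationSubring Qbar) {q : ℕ} (hq : q.Prime)
    (hA : A.LiesOverPrime q) : HeightOneSpectrum (𝓞 K₀) :=
  ⟨primeBelow (ι K₀) A, inferInstance, by
    intro h
    have h1 : ((q : ℕ) : 𝓞 K₀) ∈ primeBelow (ι K₀) A := natCast_mem_primeBelow hA
    rw [h, Ideal.mem_bot] at h1
    exact (Nat.cast_ne_zero.2 hq.ne_zero) h1⟩

lemma mem_placeBelow (A : ValuationSubring Qbar) {q : ℕ} (hq : q.Prime)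
    (hA : A.LiesOverPrime q) (x : 𝓞 K₀) :
    x ∈ (placeBelow K₀ A hq hA).asIdeal ↔ ((x : K₀) : Qbar) ∈ A.nonunits :=
  mem_primeBelow

/-- two distinct rational primes cannot both lie in a nonunit ideal of a valuation subring -/
lemma natCast_not_mem_nonunits (A : ValuationSubring Qbar) {q p : ℕ} (hq : q.Prime) (hp : p.Prime)
    (hpq : p ≠ q) (hA : A.LiesOverPrime q) : ((p : ℕ) : Qbar) ∉ A.nonunits := by
  intro hpA
  have hcop : IsCoprime (p : ℤ) (q : ℤ) := by
    rw [Int.isCoprime_iff_gcd_eq_one, Int.gcd_natCast_natCast]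
    exact (Nat.coprime_primes hp hq).2 hpq
  obtain ⟨x, y, hxy⟩ := hcop
  have h1 : ((x : ℤ) : Qbar) * (p : Qbar) + ((y : ℤ) : Qbar) * (q : Qbar) = 1 := by
    have := congrArg (fun z : ℤ => (z : Qbar)) hxy
    push_cast at this
    exact this
  have hx : A.valuation ((x : ℤ) : Qbar) ≤ 1 :=
    (A.valuation_le_one_iff _).2 (intCast_mem A x)
  have hy : A.valuation ((y : ℤ) : Qbar) ≤ 1 :=
    (A.valuation_le_one_iff _).2 (intCast_mem A y)
  have hp1 : A.valuation ((p : ℕ) : Qbar) < 1 := A.mem_nonunits_iff.1 hpA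
  have hq1 : A.valuation ((q : ℕ) : Qbar) < 1 := A.mem_nonunits_iff.1 hA
  have h2 : A.valuation (((x : ℤ) : Qbar) * (p : Qbar) + ((y : ℤ) : Qbar) * (q : Qbar)) < 1 := by
    apply Valuation.map_add_lt
    · rw [map_mul]
      exact mul_lt_one_of_nonneg_of_lt_one_right hx zero_le hp1
    · rw [map_mul]
      exact mul_lt_one_of_nonneg_of_lt_one_right hy zero_le hq1
  rw [h1, map_one] at h2
  exact lt_irrefl _ h2

/-- **Kummer, unramified direction, in the language of valuation subrings of `ℚ̄`**: an inertia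
element at `A` (over `q ≠ p`) which fixes `K₀ ∋ ζ_p` fixes every `p`-th root of an `a ∈ K₀` whose
valuation at the place below `A` is divisible by `p`. -/
theorem fix_root {p : ℕ} (hp : p.Prime)
    (A : ValuationSubring Qbar) {q : ℕ} (hq : q.Prime) (hpq : p ≠ q) (hA : A.LiesOverPrime q)
    {τ : Γ} (hτ : τ ∈ A.inertiaSubgroupIn ℚ) (hτK : τ ∈ K₀.fixingSubgroup)
    {a : K₀} (hdvd : KummerRam.PDvdVal p (placeBelow K₀ A hq hA) a)
    {α : Qbar} (hα : α ^ p = (a : Qbar)) : τ α = α := by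
  obtain ⟨c, u, hc, hu, hcu⟩ := KummerRam.exists_unit_form hp.pos _ hdvd
  have hfix : ∀ x : K₀, τ (x : Qbar) = x := fun x =>
    (IntermediateField.mem_fixingSubgroup_iff _ _).1 hτK x x.2
  set β : Qbar := α * (c : Qbar) with hβ
  have hβp : β ^ p = ((u : K₀) : Qbar) := by
    rw [hβ, mul_pow, hα]
    have := congrArg (fun x : K₀ => (x : Qbar)) hcu
    simp only [IntermediateField.coe_mul, IntermediateField.coe_pow] at this
    exact this
  -- `u` is a unit of `A`
  have huint : IsIntegral ℤ (((u : K₀)) : Qbar) :=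
    (u.isIntegral_coe).map ((ι K₀).toIntAlgHom : K₀ →ₐ[ℤ] Qbar)
  have huA : (((u : K₀)) : Qbar) ∈ A := FrobeniusIF.mem_of_isIntegral_int A huint
  have hu1 : A.valuation (((u : K₀)) : Qbar) = 1 := by
    have h1 : A.valuation (((u : K₀)) : Qbar) ≤ 1 := (A.valuation_le_one_iff _).2 huA
    have h2 : ¬ A.valuation (((u : K₀)) : Qbar) < 1 := fun h =>
      hu ((mem_placeBelow K₀ A hq hA u).2 (A.mem_nonunits_iff.2 h))
    exact le_antisymm h1 (not_lt.1 h2)
  have hβint : IsIntegral ℤ β := by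
    apply IsIntegral.of_pow hp.pos
    rw [hβp]; exact huint
  have hβA : β ∈ A := FrobeniusIF.mem_of_isIntegral_int A hβint
  have hβ1 : A.valuation β = 1 := by
    have h1 : A.valuation β ^ p = 1 := by rw [← map_pow, hβp, hu1]
    exact (pow_eq_one_iff.1 h1).resolve_right hp.ne_zero
  have hβ0 : β ≠ 0 := by
    intro h0
    rw [h0, map_zero] at hβ1
    exact zero_ne_one hβ1
  have h4 : τ β - β ∈ A.nonunits := InertiaRestrict.apply_sub_mem_nonunits hτ hβA
  -- the root of unity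
  set μ : Qbar := τ β / β with hμdef
  have hμβ : τ β = μ * β := by rw [hμdef, div_mul_cancel₀ _ hβ0]
  have hμp : μ ^ p = 1 := by
    rw [hμdef, div_pow, ← map_pow, hβp, hfix, div_self]
    rw [← hβp]; exact pow_ne_zero _ hβ0
  have hμint : IsIntegral ℤ μ := by
    apply IsIntegral.of_pow hp.pos
    rw [hμp]; exact isIntegral_one
  have hμA : μ ∈ A := FrobeniusIF.mem_of_isIntegral_int A hμint
  have hμ1 : A.valuation (μ - 1) < 1 := by
    have h5 : A.valuation ((μ - 1) * β) < 1 := by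
      have : (μ - 1) * β = τ β - β := by rw [hμβ]; ring
      rw [this]; exact A.mem_nonunits_iff.1 h4
    rwa [map_mul, hβ1, mul_one] at h5
  -- apply the ring lemma in `A`
  have hpQ : ((p : ℕ) : A) ∉ IsLocalRing.maximalIdeal A := by
    rw [A.valuation_lt_one_iff]
    intro h
    exact natCast_not_mem_nonunits A hq hp hpq hA (A.mem_nonunits_iff.2 (by simpa using h))
  have hμ' : (⟨μ, hμA⟩ : A) ^ p = 1 := Subtype.ext (by simpa using hμp)
  have hμQ : (⟨μ, hμA⟩ : A) - 1 ∈ IsLocalRing.maximalIdeal A := by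
    rw [A.valuation_lt_one_iff]
    simpa using hμ1
  have hone := KummerRam.eq_one_of_pow_eq_one_of_sub_one_mem (IsLocalRing.maximalIdeal A) hpQ hμ' hμQ
  have hμeq : μ = 1 := congrArg Subtype.val hone
  rw [hμeq, one_mul, hβ, map_mul, hfix] at hμβ
  have hc' : ((c : K₀) : Qbar) ≠ 0 := by
    intro h0
    exact hc (by exact_mod_cast h0)
  exact mul_right_cancel₀ hc' hμβ

end FixRoot

section Level

local instance instIsGaloisQbar_gh1a : IsGalois ℚ Qbar :=
  Fermat.Agent.Lib.UnramifiedTrivial.isGalois_algebraicClosure_rat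

variable {p : ℕ} [hp : Fact p.Prime] (S : Finset Nat.Primes) (hpS : ∃ q ∈ S, ((q : Nat.Primes) : ℕ) = p)
  (K₀ : IntermediateField ℚ Qbar) [NumberField K₀] (hK : K₀.IsUnramifiedOutside S)
  (SK : Finset (HeightOneSpectrum (𝓞 K₀)))
  (hSK : ∀ v ∈ SK, ∃ q ∈ S, (((q : Nat.Primes) : ℕ) : 𝓞 K₀) ∈ v.asIdeal)

include hpS hK hSK in
/-- adjoining a `p`-th root of an element of `V_S(K₀)` keeps the field unramified outside `S` -/
theorem isUnramifiedOutside_adjoin_root {a : K₀ˣ}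
    (ha : a ∈ KummerVS.VS (R := 𝓞 K₀) K₀ p (SK : Set (HeightOneSpectrum (𝓞 K₀))))
    {α : Qbar} (hα : α ^ p = (((a : K₀ˣ) : K₀) : Qbar)) :
    (K₀ ⊔ IntermediateField.adjoin ℚ {α}).IsUnramifiedOutside S := by
  haveI := hK.1
  haveI : FiniteDimensional ℚ (IntermediateField.adjoin ℚ {α}) :=
    IntermediateField.adjoin.finiteDimensional (Algebra.IsIntegral.isIntegral α)
  refine ⟨inferInstance, fun q hq A hA τ hτ => ?_⟩
  have hτK : τ ∈ K₀.fixingSubgroup := hK.2 q hq A hA hτ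
  rw [IntermediateField.fixingSubgroup_sup]
  refine ⟨hτK, ?_⟩
  show τ ∈ (IntermediateField.adjoin ℚ {α}).fixingSubgroup
  rw [IntermediateField.mem_fixingSubgroup_iff]
  have key : τ α = α := by
    obtain ⟨q₀, hq₀S, hq₀p⟩ := hpS
    have hpq : p ≠ (q : ℕ) := by
      intro h
      apply hq
      have : q₀ = q := Subtype.ext (hq₀p.trans h)
      rwa [← this]
    refine fix_root K₀ hp.out A q.2 hpq hA hτ hτK ?_ hα
    have hv : placeBelow K₀ A q.2 hA ∉ SK := by
      intro hmem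
      obtain ⟨q', hq'S, hq'v⟩ := hSK _ hmem
      have hne : (q' : ℕ) ≠ (q : ℕ) := by
        intro h
        apply hq
        have : q' = q := Subtype.ext h
        rwa [← this]
      have h1 := (mem_placeBelow K₀ A q.2 hA _).1 hq'v
      have h2 : ((((q' : ℕ) : 𝓞 K₀) : K₀) : Qbar) = ((q' : ℕ) : Qbar) := by simp
      rw [h2] at h1
      exact natCast_not_mem_nonunits A q.2 q'.2 hne hA h1
    exact (KummerVS.mem_VS_iff_pDvdVal K₀ p SK a).1 ha _ hv
  have := (IntermediateField.forall_mem_adjoin_smul_eq_self_iff ℚ (S := {α}) τ).2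
    (fun x hx => by rw [Set.mem_singleton_iff.1 hx]; exact key)
  exact this

include hpS hK hSK in
/-- every `p`-th root of an element of `V_S(K₀)` lies in a level of `globalBasis S` above `K₀` -/
theorem exists_level {a : K₀ˣ}
    (ha : a ∈ KummerVS.VS (R := 𝓞 K₀) K₀ p (SK : Set (HeightOneSpectrum (𝓞 K₀))))
    {α : Qbar} (hα : α ^ p = (((a : K₀ˣ) : K₀) : Qbar)) :
    ∃ N : IntermediateField ℚ Qbar, N.IsUnramifiedOutside S ∧ N.fixingSubgroup.Normal ∧
      K₀ ≤ N ∧ α ∈ N := by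
  obtain ⟨N, hle, hN, -, hnorm⟩ :=
    exists_isGalois_ge (isUnramifiedOutside_adjoin_root S hpS K₀ hK SK hSK ha hα)
  refine ⟨N, hN, hnorm, le_sup_left.trans hle, hle ?_⟩
  exact (le_sup_right : IntermediateField.adjoin ℚ {α} ≤ _)
    (IntermediateField.mem_adjoin_simple_self ℚ α)

end Level

section Main

open Fermat.Agent.S55.Formal Fermat.Agent.S55.Formal.PreludeLC Fermat.Agent.S55.Bridge.ShapiroLC
open Fermat.Agent.S55.Middle.KummerInfinite Fermat.Agent.S55.Middle.KummerLC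

local instance instIsGaloisQbar_gh1b : IsGalois ℚ Qbar :=
  Fermat.Agent.Lib.UnramifiedTrivial.isGalois_algebraicClosure_rat

variable {p : ℕ} [hp : Fact p.Prime] (K₀ : IntermediateField ℚ Qbar) {ζ : K₀}
  (hζ : IsPrimitiveRoot ζ p)

/-- the Kummer homomorphism on `U = Gal(ℚ̄/K₀)`, with values in `ℤ/p` -/
noncomputable def phiHom :
    rootable K₀ Qbar p →* (K₀.fixingSubgroup →* Multiplicative (ZMod p)) :=
  ((MonoidHom.compHom (rootsEquivZMod (E := Qbar) hζ).toMonoidHom).comp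
    (MonoidHom.compHom' (IntermediateField.fixingSubgroupEquiv K₀).toMonoidHom)).comp
    (kappa (E := Qbar) hζ)

lemma phiHom_apply (a : rootable K₀ Qbar p) (σ : K₀.fixingSubgroup) :
    phiHom K₀ hζ a σ =
      rootsEquivZMod (E := Qbar) hζ
        (kappa (E := Qbar) hζ a (IntermediateField.fixingSubgroupEquiv K₀ σ)) := rfl

lemma phiHom_eq_one_iff (a : rootable K₀ Qbar p) :
    phiHom K₀ hζ a = 1 ↔ ((a : K₀ˣ)) ∈ KummerInfinite.pPow K₀ p := by
  rw [← kappa_eq_one_iff (E := Qbar) hζ a]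
  constructor
  · intro h
    ext1 σ'
    obtain ⟨σ, rfl⟩ := (IntermediateField.fixingSubgroupEquiv K₀).surjective σ'
    have h1 := congrArg (fun f : K₀.fixingSubgroup →* Multiplicative (ZMod p) => f σ) h
    simp only [phiHom_apply, MonoidHom.one_apply] at h1
    exact (rootsEquivZMod (E := Qbar) hζ).map_eq_one_iff.1 h1
  · intro h
    ext1 σ
    rw [phiHom_apply, h]
    simp

/-- an element of `U` fixing a `p`-th root of `a` is killed by the Kummer character of `a` -/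
lemma phiHom_apply_eq_one (a : rootable K₀ Qbar p) {α : Qbar}
    (hα : α ^ p = (((a : K₀ˣ) : K₀) : Qbar)) (σ : K₀.fixingSubgroup)
    (hσ : (σ : Γ) α = α) : phiHom K₀ hζ a σ = 1 := by
  have hα0 : α ≠ 0 := by
    rintro rfl
    rw [zero_pow hp.out.ne_zero] at hα
    have : (((a : K₀ˣ) : K₀) : Qbar) ≠ 0 := by
      intro h0
      exact (a : K₀ˣ).ne_zero (by exact_mod_cast h0)
    exact this hα.symm
  rw [phiHom_apply]
  rw [kappa_apply_eq_one (E := Qbar) hζ a (Units.mk0 α hα0)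
    (Units.ext (by simpa using hα)) _ ?_]
  · simp
  · ext
    simp only [AlgEquiv.smul_units_def, Units.coe_map, Units.val_mk0, MonoidHom.coe_coe]
    exact hσ

variable (S : Finset Nat.Primes) (hpS : ∃ q ∈ S, ((q : Nat.Primes) : ℕ) = p)
  [NumberField K₀] (hK : K₀.IsUnramifiedOutside S)
  (SK : Finset (HeightOneSpectrum (𝓞 K₀)))
  (hSK : ∀ v ∈ SK, ∃ q ∈ S, (((q : Nat.Primes) : ℕ) : 𝓞 K₀) ∈ v.asIdeal)

/-- the basis induced on `U = Gal(ℚ̄/K₀)` by `globalBasis S` -/
noncomputable abbrev basisU : NBasis K₀.fixingSubgroup := subBasis (globalBasis S) K₀.fixingSubgroup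

lemma le_rootable (V : Subgroup K₀ˣ) : V ≤ rootable K₀ Qbar p := by
  rw [rootable_eq_top hp.out.ne_zero]; exact le_top

include hpS hK hSK in
/-- the level of the Kummer character of an element of `V_S(K₀)` -/
theorem exists_level_hom (a : K₀ˣ)
    (ha : a ∈ KummerVS.VS (R := 𝓞 K₀) K₀ p (SK : Set (HeightOneSpectrum (𝓞 K₀)))) :
    ∃ W, (basisU K₀ S).mem W ∧ W ≤ (phiHom K₀ hζ ⟨a, le_rootable (p := p) K₀ _ ha⟩).ker := by
  obtain ⟨α', hα'⟩ := mem_rootable.1 (le_rootable (p := p) K₀ _ ha)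
  have hα : ((α' : Qbarˣ) : Qbar) ^ p = (((a : K₀ˣ) : K₀) : Qbar) := by
    have := congrArg Units.val hα'
    simpa using this
  obtain ⟨N, hN, hnorm, hle, hαN⟩ := exists_level S hpS K₀ hK SK hSK ha hα
  refine ⟨N.fixingSubgroup.subgroupOf K₀.fixingSubgroup, ⟨N.fixingSubgroup, ⟨N, hN, hnorm, rfl⟩, rfl⟩, ?_⟩
  intro σ hσ
  rw [MonoidHom.mem_ker]
  apply phiHom_apply_eq_one K₀ hζ _ hα
  exact (IntermediateField.mem_fixingSubgroup_iff _ _).1 (Subgroup.mem_subgroupOf.1 hσ) _ hαN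

/-- `V_S(K₀)` -/
noncomputable abbrev VSK : Subgroup K₀ˣ :=
  KummerVS.VS (R := 𝓞 K₀) K₀ p (SK : Set (HeightOneSpectrum (𝓞 K₀)))

/-- the LC cocycle of `U = Gal(ℚ̄/K₀)` attached to an element of `V_S(K₀)` -/
noncomputable def psi (a : VSK (p := p) K₀ SK) : Z1 (basisU K₀ S) p :=
  homToZ1 (exists_level_hom K₀ hζ S hpS hK SK hSK a.1 a.2).choose_spec.1
    ⟨phiHom K₀ hζ ⟨a.1, le_rootable (p := p) K₀ _ a.2⟩,
      (exists_level_hom K₀ hζ S hpS hK SK hSK a.1 a.2).choose_spec.2⟩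

lemma psi_apply (a : VSK (p := p) K₀ SK) (g : K₀.fixingSubgroup) :
    ((psi K₀ hζ S hpS hK SK hSK a).1 : K₀.fixingSubgroup → ZMod p) g =
      Multiplicative.toAdd (phiHom K₀ hζ ⟨a.1, le_rootable (p := p) K₀ _ a.2⟩ g) := rfl

lemma psi_mul (a b : VSK (p := p) K₀ SK) :
    psi K₀ hζ S hpS hK SK hSK (a * b) =
      psi K₀ hζ S hpS hK SK hSK a + psi K₀ hζ S hpS hK SK hSK b := by
  apply Subtype.ext
  apply Subtype.ext
  funext g
  show ((psi K₀ hζ S hpS hK SK hSK (a * b)).1 : K₀.fixingSubgroup → ZMod p) g =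
    ((psi K₀ hζ S hpS hK SK hSK a).1 : K₀.fixingSubgroup → ZMod p) g +
      ((psi K₀ hζ S hpS hK SK hSK b).1 : K₀.fixingSubgroup → ZMod p) g
  rw [psi_apply, psi_apply, psi_apply, ← toAdd_mul, ← MonoidHom.mul_apply, ← map_mul]
  rfl

lemma psi_eq_zero_iff (a : VSK (p := p) K₀ SK) :
    psi K₀ hζ S hpS hK SK hSK a = 0 ↔ (a : K₀ˣ) ∈ KummerVS.pPow K₀ p := by
  have h0 : (a : K₀ˣ) ∈ KummerVS.pPow K₀ p ↔ (a : K₀ˣ) ∈ KummerInfinite.pPow K₀ p := Iff.rfl
  rw [h0, ← phiHom_eq_one_iff K₀ hζ ⟨a.1, le_rootable (p := p) K₀ _ a.2⟩]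
  constructor
  · intro h
    ext1 g
    have h1 := congrFun (congrArg (fun z : Z1 (basisU K₀ S) p =>
      (z.1 : K₀.fixingSubgroup → ZMod p)) h) g
    rw [psi_apply] at h1
    exact congrArg Multiplicative.ofAdd h1
  · intro h
    apply Subtype.ext
    apply Subtype.ext
    funext g
    show ((psi K₀ hζ S hpS hK SK hSK a).1 : K₀.fixingSubgroup → ZMod p) g = 0
    rw [psi_apply, h]
    rfl

lemma psi_one : psi K₀ hζ S hpS hK SK hSK 1 = 0 :=
  (psi_eq_zero_iff K₀ hζ S hpS hK SK hSK 1).2 (Subgroup.one_mem _)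

lemma psi_inv_mul (a b : VSK (p := p) K₀ SK) :
    psi K₀ hζ S hpS hK SK hSK (a⁻¹ * b) =
      psi K₀ hζ S hpS hK SK hSK b - psi K₀ hζ S hpS hK SK hSK a := by
  have h1 := psi_mul K₀ hζ S hpS hK SK hSK a (a⁻¹ * b)
  rw [mul_inv_cancel_left] at h1
  rw [h1]
  abel

/-- the map induced by `psi` on `V_S / (K₀ˣ)^p` is injective -/
lemma psi_out_injective :
    Function.Injective (fun x : VSK (p := p) K₀ SK ⧸
        (KummerVS.pPow K₀ p).subgroupOf (VSK (p := p) K₀ SK) =>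
      psi K₀ hζ S hpS hK SK hSK (Quotient.out x)) := by
  intro x y hxy
  have h1 : psi K₀ hζ S hpS hK SK hSK ((Quotient.out x)⁻¹ * Quotient.out y) = 0 := by
    rw [psi_inv_mul]
    exact sub_eq_zero.2 hxy.symm
  have h2 := (psi_eq_zero_iff K₀ hζ S hpS hK SK hSK _).1 h1
  have h3 : (QuotientGroup.mk (Quotient.out x) : VSK (p := p) K₀ SK ⧸
      (KummerVS.pPow K₀ p).subgroupOf (VSK (p := p) K₀ SK)) = QuotientGroup.mk (Quotient.out y) :=
    QuotientGroup.eq.2 (Subgroup.mem_subgroupOf.2 h2)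
  rw [QuotientGroup.out_eq', QuotientGroup.out_eq'] at h3
  exact h3

include hζ hpS hK hSK in
/-- **Count (a) of (C6)**: `[V_S(K₀) : (K₀ˣ)^p] ≤ p ^ dim H¹_LC(Gal(ℚ̄/K₀); 𝔽_p)` (levels unramified
outside `S`), for `K₀ ∋ ζ_p` unramified outside `S ∋ p`. -/
theorem relIndex_VS_le_pow_finrank
    [Module.Finite (ZMod p) (H1 (basisU K₀ S) (triv (G := K₀.fixingSubgroup) p))] :
    (KummerVS.pPow K₀ p).relIndex (VSK (p := p) K₀ SK) ≤
      p ^ Module.finrank (ZMod p) (H1 (basisU K₀ S) (triv (G := K₀.fixingSubgroup) p)) := by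
  haveI : Finite (H1 (basisU K₀ S) (triv (G := K₀.fixingSubgroup) p)) :=
    Module.finite_of_finite (ZMod p)
  haveI : Finite (Z1 (basisU K₀ S) p) :=
    Finite.of_injective _ (KummerLC.mk_injective (𝒰 := basisU K₀ S) (p := p))
  have h1 : Nat.card (Z1 (basisU K₀ S) p) ≤
      Nat.card (H1 (basisU K₀ S) (triv (G := K₀.fixingSubgroup) p)) :=
    Nat.card_le_card_of_injective _ (KummerLC.mk_injective (𝒰 := basisU K₀ S) (p := p))
  rw [Module.natCard_eq_pow_finrank (K := ZMod p)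
    (V := H1 (basisU K₀ S) (triv (G := K₀.fixingSubgroup) p)), Nat.card_zmod] at h1
  refine le_trans ?_ h1
  exact Nat.card_le_card_of_injective _ (psi_out_injective K₀ hζ S hpS hK SK hSK)

end Main

end Fermat.Agent.S55.Middle.GlobalH1Count
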