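import Fermat.Agent.S55.Middle.KSite
import Fermat.Agent.S55.Middle.SUnitDict
import Fermat.Agent.S55.KrasnerBridge
import Fermat.Agent.S55.Middle.CompletionCompare
import Fermat.Agent.Lib.InertiaBridge.Lift
import Fermat.Agent.Lib.InertiaRestrict

/-!
# S55 / Middle, row M.count.places: double-coset representatives versus primes of `K₀` over `S`

`K₀ ⊆ ℚ̄` a number field, `P = Gal(ℚ̄/K₀)`, `R : KSite.Reps S P` (representatives `T_q` of
`P \ G_ℚ / Γ_q`, `q ∈ S`).  The map

  `R.Idx → {primes of 𝓞 K₀ over S}`,  `(q, t) ↦ (prime of K₀ below t • A_q)`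

is a BIJECTION (`placeOfIdx_injective`, `placeOfIdx_surjective`); hence
`Fintype.card R.Idx = #(primes of K₀ over S)` (`card_idx_eq_ncard`, `card_idx_eq_card`).
This links count [b] of (C6) (exponent `2 * card R.Idx + P.index`) with count [a]
(exponent `Units.rank K₀ + SK.card + 1`).  Also: `P.index = [K₀ : ℚ]` (`index_eq_finrank`) and
`[K₀ : ℚ] = 2 (Units.rank K₀ + 1)` when `ζ_p ∈ K₀`, `p ≥ 3` (`finrank_eq_two_mul`).
-/

set_option autoImplicit false
set_option linter.unusedSectionVars false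

open scoped Pointwise NumberField
open IsDedekindDomain ExtCitation

namespace Fermat.Agent.S55.Middle.PlaceCount

open Fermat.Agent.S55.Middle.KSite Fermat.Agent.S55.Middle.Defs Fermat.Agent.S55.Middle.SUnitDict
open Fermat.Agent.S55.Bridge.Mackey

local instance instIsGaloisQbar : IsGalois ℚ (AlgebraicClosure ℚ) :=
  Fermat.Agent.Lib.UnramifiedTrivial.isGalois_algebraicClosure_rat

variable (S : Finset Nat.Primes) (K₀ : IntermediateField ℚ (AlgebraicClosure ℚ)) [NumberField K₀]

/-- the standard place over `q`, translated by `t`, lies over `q`. -/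
theorem liesOver_smul (q : Nat.Primes) (t : GQ) :
    (t • primeLocalPlace q).LiesOverPrime ((q : Nat.Primes) : ℕ) := by
  have : Fact ((q : ℕ)).Prime := ⟨q.2⟩
  rw [GaloisLevel.liesOverPrime_smul_iff, KrasnerBridge.primeLocalPlace_eq]
  exact CompletionCompare.padicPlace_liesOverPrime

/-- the prime of `K₀` below `t • A_q`. -/
noncomputable def placeAt (q : Nat.Primes) (t : GQ) : HeightOneSpectrum (𝓞 K₀) :=
  placeBelow (algebraMap K₀ (AlgebraicClosure ℚ)) (t • primeLocalPlace q) q.2.ne_zero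
    (liesOver_smul q t)

theorem natCast_mem_placeAt (q : Nat.Primes) (t : GQ) :
    (((q : Nat.Primes) : ℕ) : 𝓞 K₀) ∈ (placeAt K₀ q t).asIdeal :=
  natCast_mem_placeBelow q.2.ne_zero (liesOver_smul q t)

/-- membership in `t • A_q` of elements of `K₀` is read off from `placeAt`. -/
theorem mem_smul_iff (q : Nat.Primes) (t : GQ) (x : K₀) :
    algebraMap K₀ (AlgebraicClosure ℚ) x ∈ t • primeLocalPlace q ↔
      (placeAt K₀ q t).valuation K₀ x ≤ 1 :=
  mem_iff q.2.ne_zero (liesOver_smul q t) x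

/-- two translates of the standard places with the same prime of `K₀` below them are related by
the double coset relation (and lie over the same rational prime). -/
theorem rel_of_placeAt_eq {q q' : Nat.Primes} {t t' : GQ}
    (h : placeAt K₀ q t = placeAt K₀ q' t') :
    q = q' ∧ ∃ (v : K₀.fixingSubgroup) (d : primeLocalGaloisGroup q),
      t' = (v : GQ) * t * primeLocalToGlobal q d := by
  -- the rational primes agree
  have hq : q' = q := by
    apply Subtype.ext
    refine eq_of_natCast_mem_placeBelow (ι := algebraMap K₀ (AlgebraicClosure ℚ)) q.2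
      (liesOver_smul q t) q'.2 ?_
    have := natCast_mem_placeAt K₀ q' t'
    rw [← h] at this
    exact this
  subst hq
  refine ⟨rfl, ?_⟩
  -- the restrictions to `K₀` agree
  have hcomap : (t • primeLocalPlace q').comap (algebraMap K₀ (AlgebraicClosure ℚ)) =
      (t' • primeLocalPlace q').comap (algebraMap K₀ (AlgebraicClosure ℚ)) := by
    ext x
    rw [ValuationSubring.mem_comap, ValuationSubring.mem_comap, mem_smul_iff, mem_smul_iff, h]
  obtain ⟨ρ, hρ⟩ := Fermat.Agent.Lib.InertiaRestrict.exists_smul_eq_of_comap_eq K₀ _ _ hcomap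
  have hρ' : (ρ.restrictScalars ℚ) • (t • primeLocalPlace q') = t' • primeLocalPlace q' := by
    rw [Fermat.Agent.Lib.InertiaRestrict.restrictScalars_smul]
    exact hρ
  have hvP : ρ.restrictScalars ℚ ∈ K₀.fixingSubgroup := by
    rw [IntermediateField.mem_fixingSubgroup_iff]
    intro x hx
    exact ρ.commutes ⟨x, hx⟩
  -- `t'⁻¹ v t` stabilises `A_q`, hence comes from the local Galois group
  have hdec : t'⁻¹ * (ρ.restrictScalars ℚ) * t ∈ (primeLocalPlace q').decompositionSubgroup ℚ := by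
    change _ ∈ MulAction.stabilizer _ _
    rw [MulAction.mem_stabilizer_iff, mul_smul, mul_smul, hρ', inv_smul_smul]
  rw [← KrasnerBridge.range_primeLocalToGlobal] at hdec
  obtain ⟨d, hd⟩ := hdec
  refine ⟨⟨ρ.restrictScalars ℚ, hvP⟩, d⁻¹, ?_⟩
  rw [map_inv, hd]
  group

variable {S K₀} (R : Reps S K₀.fixingSubgroup)

/-- the prime of `K₀` attached to a double coset representative. -/
noncomputable def placeOfIdx (i : R.Idx) : HeightOneSpectrum (𝓞 K₀) :=
  placeAt K₀ i.1.1 i.2.1

theorem placeOfIdx_mem (i : R.Idx) : placeOfIdx R i ∈ placesAbove K₀ S :=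
  ⟨i.1.1, i.1.2, natCast_mem_placeAt K₀ i.1.1 i.2.1⟩

theorem placeOfIdx_injective : Function.Injective (placeOfIdx R) := by
  rintro ⟨⟨q, hq⟩, ⟨t, ht⟩⟩ ⟨⟨q', hq'⟩, ⟨t', ht'⟩⟩ h
  obtain ⟨hqq, v, d, hvd⟩ := rel_of_placeAt_eq K₀ h
  subst hqq
  have := R.separated ⟨q, hq⟩ t ht t' ht' ⟨v, d, hvd⟩
  subst this
  rfl

/-- the prime of `K₀` below a place of `ℚ̄` does not change under `P = Gal(ℚ̄/K₀)`. -/
theorem placeAt_mul_left (q : Nat.Primes) (v : K₀.fixingSubgroup) (t : GQ) :
    placeAt K₀ q ((v : GQ) * t) = placeAt K₀ q t := by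
  apply HeightOneSpectrum.ext
  ext x
  show x ∈ Fermat.Agent.S55.Bridge.Unram.primeBelow _ _ ↔
    x ∈ Fermat.Agent.S55.Bridge.Unram.primeBelow _ _
  rw [Fermat.Agent.S55.Bridge.Unram.mem_primeBelow, Fermat.Agent.S55.Bridge.Unram.mem_primeBelow,
    mul_smul, Fermat.Agent.Lib.InertiaRestrict.mem_nonunits_smul_iff]
  have hfix : (v : GQ)⁻¹ • (algebraMap K₀ (AlgebraicClosure ℚ) (x : K₀)) =
      algebraMap K₀ (AlgebraicClosure ℚ) (x : K₀) := by
    have hv := (IntermediateField.mem_fixingSubgroup_iff _ _).1 (K₀.fixingSubgroup.inv_mem v.2)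
    exact hv _ (x : K₀).2
  rw [hfix]

/-- the prime of `K₀` below `t ι_q(d) • A_q` is the one below `t • A_q`. -/
theorem placeAt_mul_right (q : Nat.Primes) (t : GQ) (d : primeLocalGaloisGroup q) :
    placeAt K₀ q (t * primeLocalToGlobal q d) = placeAt K₀ q t := by
  have hd : primeLocalToGlobal q d ∈ (primeLocalPlace q).decompositionSubgroup ℚ := by
    rw [← KrasnerBridge.range_primeLocalToGlobal]
    exact ⟨d, rfl⟩
  have h : (t * primeLocalToGlobal q d) • primeLocalPlace q = t • primeLocalPlace q := by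
    rw [mul_smul]
    congr 1
  unfold placeAt
  congr 1

theorem placeOfIdx_surjective (v : HeightOneSpectrum (𝓞 K₀)) (hv : v ∈ placesAbove K₀ S) :
    ∃ i : R.Idx, placeOfIdx R i = v := by
  obtain ⟨q, hqS, hqv⟩ := hv
  -- a place of `ℚ̄` above `v`
  obtain ⟨ℓ, hℓ, A, hA, hAv⟩ := exists_placeBelow_eq (algebraMap K₀ (AlgebraicClosure ℚ)) v
  have hℓq : ℓ = ((q : Nat.Primes) : ℕ) := by
    have := v.isPrime
    refine natPrime_unique (P := v.asIdeal) hℓ q.2 ?_ hqv
    rw [← hAv]
    exact natCast_mem_placeBelow hℓ.ne_zero hA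
  subst hℓq
  have : Fact ((q : ℕ)).Prime := ⟨q.2⟩
  have h0 : (primeLocalPlace q).LiesOverPrime ((q : Nat.Primes) : ℕ) := by
    rw [KrasnerBridge.primeLocalPlace_eq]
    exact CompletionCompare.padicPlace_liesOverPrime
  obtain ⟨g, rfl⟩ := Fermat.Agent.Lib.InertiaBridge.Lift.exists_smul_eq_of_liesOverPrime q.2 h0 hA
  obtain ⟨t, ht, v', d, hg⟩ := R.covers ⟨q, hqS⟩ g
  refine ⟨⟨⟨q, hqS⟩, ⟨t, ht⟩⟩, ?_⟩
  have h1 : placeAt K₀ q g = v := hAv
  rw [← h1, hg]
  show placeAt K₀ q t = _
  rw [placeAt_mul_right, placeAt_mul_left]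

/-- **the double coset representatives are in bijection with the primes of `K₀` over `S`.** -/
noncomputable def idxEquiv : R.Idx ≃ ↥(placesAbove K₀ S) :=
  Equiv.ofBijective (fun i => ⟨placeOfIdx R i, placeOfIdx_mem R i⟩)
    ⟨fun i j h => placeOfIdx_injective R (congrArg Subtype.val h),
     fun v => by
      obtain ⟨i, hi⟩ := placeOfIdx_surjective R v.1 v.2
      exact ⟨i, Subtype.ext hi⟩⟩

theorem card_idx_eq_ncard : Fintype.card R.Idx = (placesAbove K₀ S).ncard := by
  rw [← Nat.card_eq_fintype_card, Nat.card_congr (idxEquiv R)]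
  rfl

/-- Finset form: for any Finset `SK` enumerating the primes of `K₀` over `S`. -/
theorem card_idx_eq_card (SK : Finset (HeightOneSpectrum (𝓞 K₀)))
    (hSK : ∀ v, v ∈ SK ↔ v ∈ placesAbove K₀ S) : Fintype.card R.Idx = SK.card := by
  rw [card_idx_eq_ncard]
  have : placesAbove K₀ S = (SK : Set (HeightOneSpectrum (𝓞 K₀))) := by
    ext v
    rw [Finset.mem_coe, hSK]
  rw [this, Set.ncard_coe_finset]

variable (S K₀) in
/-- the Finset of all primes of `K₀` over `S`. -/
noncomputable def placesFinset : Finset (HeightOneSpectrum (𝓞 K₀)) :=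
  (placesAbove_finite (F := K₀) S).toFinset

variable (S K₀) in
theorem mem_placesFinset (v : HeightOneSpectrum (𝓞 K₀)) :
    v ∈ placesFinset S K₀ ↔ v ∈ placesAbove K₀ S :=
  Set.Finite.mem_toFinset _

theorem card_idx_eq_card_placesFinset : Fintype.card R.Idx = (placesFinset S K₀).card :=
  card_idx_eq_card R _ (mem_placesFinset S K₀)

/-! ### degrees -/

omit [NumberField K₀] in
variable (K₀) in
/-- `[G_ℚ : P] = [K₀ : ℚ]` -/
theorem index_eq_finrank : K₀.fixingSubgroup.index = Module.finrank ℚ K₀ :=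
  (IntermediateField.finrank_eq_fixingSubgroup_index (E' := AlgebraicClosure ℚ) K₀).symm

variable (K₀) in
/-- `[K₀ : ℚ] = 2 (rank 𝓞ˣ + 1)` for `K₀ ∋ ζ_p`, `p ≥ 3` (totally complex). -/
theorem finrank_eq_two_mul {p : ℕ} (h3 : 3 ≤ p) {ζ : K₀} (hζ : IsPrimitiveRoot ζ p) :
    Module.finrank ℚ K₀ = 2 * (NumberField.Units.rank K₀ + 1) := by
  have h0 := NumberField.InfinitePlace.IsPrimitiveRoot.nrRealPlaces_eq_zero_of_two_lt
    (by omega : 2 < p) hζ
  have hcard := NumberField.InfinitePlace.card_eq_nrRealPlaces_add_nrComplexPlaces K₀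
  have hdeg := NumberField.InfinitePlace.card_add_two_mul_card_eq_rank K₀
  rw [h0, zero_add] at hcard hdeg
  have hpos : 0 < Fintype.card (NumberField.InfinitePlace K₀) := Fintype.card_pos
  rw [NumberField.Units.rank, ← hdeg, hcard]
  omega

variable (K₀) in
/-- `[G_ℚ : P] = 2 (rank 𝓞ˣ + 1)`. -/
theorem index_eq_two_mul {p : ℕ} (h3 : 3 ≤ p) {ζ : K₀} (hζ : IsPrimitiveRoot ζ p) :
    K₀.fixingSubgroup.index = 2 * (NumberField.Units.rank K₀ + 1) := by
  rw [index_eq_finrank, finrank_eq_two_mul K₀ h3 hζ]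

end Fermat.Agent.S55.Middle.PlaceCount
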