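import Fermat.Agent.S55.Middle.KSite
import Fermat.Agent.S55.Formal.SiteCount
import Fermat.Agent.S55.Middle.KummerLC
import Fermat.Agent.S55.Middle.Sha1Final
import Fermat.Agent.S55.KrasnerBridge
import Fermat.Agent.S55.Middle.CompletionCompare
import Fermat.Agent.Lib.InertiaBridge.Lift

/-!
# S55 / Middle, row M.count.sha1LC: `Ш¹` of the `K`-site is bounded by `Cl_T(K)[p]`

`K₀ ⊆ ℚ̄` a number field unramified outside `S`, `ζ_p ∈ K₀` (`p ≥ 3`), `P = Gal(ℚ̄/K₀)`,
`Y = KSite.siteOver S P R` the `K`-site, `kP = 𝔽_p` with trivial action.  Then `Ш¹(Y; 𝔽_p)` is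
finite-dimensional and `p ^ dim Ш¹(Y; 𝔽_p) ≤ #Cl_T(K₀)[p]`, `T` the primes of `K₀` over `S`
(`finrank_sha1_le_kummerDim`, `…_kummerVS`, `…_torSub_ClS` for the three models of `Cl_T` on main).

Route: with trivial coefficients an LC `1`-class IS an additive character of `P` of finite level
(`KummerLC`, helper10); level in `subBasis (globalBasis S) P` means killing `P ∩ Gal(ℚ̄/F)` with `F`
unramified outside `S`; local triviality at all `(q, t)`, `t ∈ T_q`, gives triviality on `P ∩ D_A`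
for EVERY place `A` of `ℚ̄` over `q` (all places over `q` are conjugate, `D_{A_q} = ι_q(Γ_q)`, and the
`T_q` cover the double cosets).  So the characters form a `Sha1Final.IsSha1Space`, and
`Sha1Final.finrank_le_*` (helper89's bridge + unramified reciprocity) applies.
-/

set_option autoImplicit false
set_option linter.unusedSectionVars false

open CategoryTheory groupCohomology Module
open scoped Pointwise

namespace Fermat.Agent.S55.Middle.Sha1LC

open Fermat.Agent.S55.Formal Fermat.Agent.S55.Middle.KummerLC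

/-! ### generic: `H¹_LC(G; 𝔽_p)` as a space of additive characters -/

section Generic

variable {G : Type} [Group G] (𝒰 : NBasis G) (p : ℕ) [hp : Fact p.Prime]

/-- with trivial coefficients, classes are cocycles -/
noncomputable def zEquiv : Z1 𝒰 p ≃ₗ[ZMod p] H1 𝒰 (triv (G := G) p) :=
  LinearEquiv.ofBijective (Hmid.mk _ _) ⟨mk_injective, Hmid.mk_surjective _ _⟩

/-- the additive character attached to a class -/
noncomputable def fn : H1 𝒰 (triv (G := G) p) →ₗ[ZMod p] (G → ZMod p) where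
  toFun x := (((zEquiv 𝒰 p).symm x).1 : G → ZMod p)
  map_add' x y := by rw [map_add]; rfl
  map_smul' c x := by rw [map_smul]; rfl

theorem fn_mk (z : Z1 𝒰 p) : fn 𝒰 p (Hmid.mk _ _ z) = (z.1 : G → ZMod p) := by
  have : (zEquiv 𝒰 p).symm (Hmid.mk _ _ z) = z := (zEquiv 𝒰 p).symm_apply_apply z
  show ((((zEquiv 𝒰 p).symm (Hmid.mk _ _ z)).1 : G → ZMod p)) = _
  rw [this]

theorem fn_injective : Function.Injective (fn 𝒰 p) := by
  intro x y h
  apply (zEquiv 𝒰 p).symm.injective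
  apply Subtype.ext
  apply Subtype.ext
  exact h

theorem fn_mul (x : H1 𝒰 (triv (G := G) p)) (g h : G) :
    fn 𝒰 p x (g * h) = fn 𝒰 p x g + fn 𝒰 p x h :=
  Z1_map_mul ((zEquiv 𝒰 p).symm x) g h

theorem fn_one (x : H1 𝒰 (triv (G := G) p)) : fn 𝒰 p x 1 = 0 := by
  have := fn_mul 𝒰 p x 1 1
  rw [mul_one] at this
  linear_combination (-1 : ZMod p) * this

theorem fn_inv (x : H1 𝒰 (triv (G := G) p)) (g : G) : fn 𝒰 p x g⁻¹ = - fn 𝒰 p x g := by
  have := fn_mul 𝒰 p x g⁻¹ g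
  rw [inv_mul_cancel, fn_one] at this
  linear_combination -this

theorem fn_conj (x : H1 𝒰 (triv (G := G) p)) (v g : G) :
    fn 𝒰 p x (v * g * v⁻¹) = fn 𝒰 p x g := by
  rw [fn_mul, fn_mul, fn_inv]
  ring

theorem fn_level (x : H1 𝒰 (triv (G := G) p)) : ∃ U, 𝒰.mem U ∧ ∀ s ∈ U, fn 𝒰 p x s = 0 := by
  obtain ⟨U, hU, h⟩ := exists_level ((zEquiv 𝒰 p).symm x)
  exact ⟨U, hU, h⟩

/-- if the restriction of a class along `f` vanishes, its character vanishes on the image of `f` -/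
theorem fn_eq_zero_of_res {G' : Type} [Group G'] (𝒰' : NBasis G') (f : G' →* G)
    (hf : IsCont 𝒰 𝒰' f) (x : H1 𝒰 (triv (G := G) p))
    (hx : (Mor.res 𝒰 𝒰' f hf (triv (G := G) p)).h1 x = 0) (d : G') :
    fn 𝒰 p x (f d) = 0 := by
  obtain ⟨z, rfl⟩ := Hmid.mk_surjective _ _ x
  rw [fn_mk]
  have h1 : (Mor.res 𝒰 𝒰' f hf (triv (G := G) p)).h1 (Hmid.mk _ _ z) =
      Hmid.of (((Mor.res 𝒰 𝒰' f hf (triv (G := G) p)).c₁ z.1)) (by
        have := LinearMap.congr_fun (Mor.res 𝒰 𝒰' f hf (triv (G := G) p)).c₂_dC₁ z.1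
        simp only [LinearMap.comp_apply] at this
        rw [← this, LinearMap.mem_ker.1 z.2, map_zero]) := rfl
  rw [h1, Hmid.of_eq_zero_iff] at hx
  obtain ⟨a, ha⟩ := hx
  have h2 := congrFun (congrArg Subtype.val ha) d
  have h3 : ((dC₀ 𝒰' (Rep.res f (triv (G := G) p)) a : ↥(C₁ 𝒰' (Rep.res f (triv (G := G) p)))) :
      G' → (Rep.res f (triv (G := G) p))) d = 0 := sub_self _
  rw [h3] at h2
  exact h2.symm

end Generic

/-! ### the `K`-site -/

section Concrete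

open Fermat.Agent.S55.Middle.KSite Fermat.Agent.S55.Middle.Defs Fermat.Agent.S55.Formal.PreludeLC
open Fermat.Agent.S55.Bridge.ShapiroLC Fermat.Agent.S55.Bridge.Mackey ExtCitation
open Fermat.Agent.S55.Middle.Sha1Final Fermat.Agent.S55.Global

local instance instIsGaloisQbar : IsGalois ℚ (AlgebraicClosure ℚ) :=
  Fermat.Agent.Lib.UnramifiedTrivial.isGalois_algebraicClosure_rat

variable {p : ℕ} [hp : Fact p.Prime] (S : Finset Nat.Primes)
  (K₀ : IntermediateField ℚ (AlgebraicClosure ℚ)) (R : Reps S K₀.fixingSubgroup)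

/-- the characters of `P = Gal(ℚ̄/K₀)` attached to the classes in `Ш¹` of the `K`-site -/
noncomputable def shaSpace : Submodule (ZMod p) (K₀.fixingSubgroup → ZMod p) :=
  ((siteOver S K₀.fixingSubgroup R).sha1 (triv (G := ↥K₀.fixingSubgroup) p)).map
    (fn (basisP S K₀.fixingSubgroup) p)

/-- every place of `ℚ̄` over `q` is a translate of the standard one, whose decomposition group is
the image of the local Galois group: elements of `D_A` are conjugates `g ι_q(d) g⁻¹`. -/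
theorem exists_conj_of_mem_decomposition (q : Nat.Primes) (A : ValuationSubring (AlgebraicClosure ℚ))
    (hA : A.LiesOverPrime ((q : Nat.Primes) : ℕ))
    (σ : AlgebraicClosure ℚ ≃ₐ[ℚ] AlgebraicClosure ℚ) (hσ : σ ∈ A.decompositionSubgroup ℚ) :
    ∃ (g : AlgebraicClosure ℚ ≃ₐ[ℚ] AlgebraicClosure ℚ) (d : primeLocalGaloisGroup q),
      σ = g * primeLocalToGlobal q d * g⁻¹ := by
  have : Fact ((q : ℕ)).Prime := ⟨q.2⟩
  have h0 : (primeLocalPlace q).LiesOverPrime ((q : Nat.Primes) : ℕ) := by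
    rw [KrasnerBridge.primeLocalPlace_eq]
    exact CompletionCompare.padicPlace_liesOverPrime
  obtain ⟨g, hg⟩ := Fermat.Agent.Lib.InertiaBridge.Lift.exists_smul_eq_of_liesOverPrime q.2 h0 hA
  rw [hg, GaloisLevel.mem_decompositionSubgroup_smul_iff,
    ← KrasnerBridge.range_primeLocalToGlobal] at hσ
  obtain ⟨d, hd⟩ := hσ
  refine ⟨g, d, ?_⟩
  rw [hd]
  group

theorem isSha1Space_shaSpace : IsSha1Space S K₀ (shaSpace (p := p) S K₀ R) := by
  refine ⟨?_, ?_, ?_⟩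
  · rintro _ ⟨x, -, rfl⟩ σ τ
    exact fn_mul _ p x σ τ
  · rintro _ ⟨x, -, rfl⟩
    obtain ⟨U, ⟨N, ⟨F, hF, -, rfl⟩, rfl⟩, h⟩ := fn_level (basisP S K₀.fixingSubgroup) p x
    exact ⟨F, hF, fun σ hσ => h σ (Subgroup.mem_subgroupOf.2 hσ)⟩
  · rintro _ ⟨x, hx, rfl⟩ q hq A hA σ hσ
    obtain ⟨g, d, hgd⟩ := exists_conj_of_mem_decomposition q A hA (σ : _) hσ
    obtain ⟨t, ht, v, d₀, hg⟩ := R.covers ⟨q, hq⟩ g
    -- `σ = v (t ι(d₀ d d₀⁻¹) t⁻¹) v⁻¹`
    set d' : primeLocalGaloisGroup q := d₀ * d * d₀⁻¹ with hd'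
    have hconj : (σ : AlgebraicClosure ℚ ≃ₐ[ℚ] AlgebraicClosure ℚ) =
        (v : AlgebraicClosure ℚ ≃ₐ[ℚ] AlgebraicClosure ℚ) *
          (t * primeLocalToGlobal q d' * t⁻¹) *
          (v : AlgebraicClosure ℚ ≃ₐ[ℚ] AlgebraicClosure ℚ)⁻¹ := by
      rw [hgd, hg, hd', map_mul, map_mul, map_inv]
      group
    have hmem : d' ∈ Dloc K₀.fixingSubgroup q t := by
      show t * primeLocalToGlobal q d' * t⁻¹ ∈ K₀.fixingSubgroup
      have h1 : t * primeLocalToGlobal q d' * t⁻¹ =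
          (v : AlgebraicClosure ℚ ≃ₐ[ℚ] AlgebraicClosure ℚ)⁻¹ * σ * v := by
        rw [hconj]; group
      rw [h1]
      exact Subgroup.mul_mem _ (Subgroup.mul_mem _ (Subgroup.inv_mem _ v.2) σ.2) v.2
    have hloc := (Fermat.Agent.S55.Formal.SiteCount.mem_sha1_iff
      (siteOver S K₀.fixingSubgroup R) (triv (G := ↥K₀.fixingSubgroup) p) x).1 hx
      ⟨⟨q, hq⟩, ⟨t, ht⟩⟩
    have hzero := fn_eq_zero_of_res (basisP S K₀.fixingSubgroup) p
      (basisLoc K₀.fixingSubgroup q t) (kappa K₀.fixingSubgroup q t)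
      (kappa_cont S K₀.fixingSubgroup q t) x hloc ⟨d', hmem⟩
    have hσ' : σ = v * kappa K₀.fixingSubgroup q t ⟨d', hmem⟩ * v⁻¹ := by
      apply Subtype.ext
      rw [hconj, Subgroup.coe_mul, Subgroup.coe_mul, Subgroup.coe_inv]
      rfl
    rw [hσ', fn_conj]
    exact hzero

/-- `Ш¹` of the `K`-site is isomorphic to its space of characters. -/
noncomputable def shaEquiv :
    ↥((siteOver S K₀.fixingSubgroup R).sha1 (triv (G := ↥K₀.fixingSubgroup) p)) ≃ₗ[ZMod p]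
      ↥(shaSpace (p := p) S K₀ R) :=
  Submodule.equivMapOfInjective (fn (basisP S K₀.fixingSubgroup) p)
    (fn_injective (basisP S K₀.fixingSubgroup) p) _

/-- transport of a bound from the character space to `Ш¹`. -/
theorem sha1_bound_of_shaSpace {B : ℕ}
    (h : FiniteDimensional (ZMod p) ↥(shaSpace (p := p) S K₀ R) ∧
      p ^ Module.finrank (ZMod p) ↥(shaSpace (p := p) S K₀ R) ≤ B) :
    Module.Finite (ZMod p)
        ↥((siteOver S K₀.fixingSubgroup R).sha1 (triv (G := ↥K₀.fixingSubgroup) p)) ∧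
      p ^ Module.finrank (ZMod p)
        ↥((siteOver S K₀.fixingSubgroup R).sha1 (triv (G := ↥K₀.fixingSubgroup) p)) ≤ B := by
  obtain ⟨hfin, hle⟩ := h
  refine ⟨Module.Finite.equiv (shaEquiv S K₀ R).symm, ?_⟩
  rw [(shaEquiv (p := p) S K₀ R).finrank_eq]
  exact hle

/-- **`Ш¹(Y; 𝔽_p) ≤ c`**, `p ^ c = #Cl_T(K₀)[p]` in helper37's `KummerDim.ClT` model. -/
theorem finrank_sha1_le_kummerDim (h3 : 3 ≤ p) (hK : K₀.IsUnramifiedOutside S) [NumberField K₀]
    (hζ : ∃ ζ : K₀, IsPrimitiveRoot ζ p)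
    (T : Set (IsDedekindDomain.HeightOneSpectrum (NumberField.RingOfIntegers K₀)))
    (hT : T ⊆ placesOver K₀ S) :
    Module.Finite (ZMod p)
        ↥((siteOver S K₀.fixingSubgroup R).sha1 (triv (G := ↥K₀.fixingSubgroup) p)) ∧
      p ^ Module.finrank (ZMod p)
        ↥((siteOver S K₀.fixingSubgroup R).sha1 (triv (G := ↥K₀.fixingSubgroup) p)) ≤
      Nat.card (KummerDimAbstract.pMul
        (KummerDim.ClT (R := NumberField.RingOfIntegers K₀) K₀ T) p).ker :=
  sha1_bound_of_shaSpace S K₀ R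
    (finrank_le_kummerDim h3 hK hζ T hT _ (isSha1Space_shaSpace S K₀ R))

/-- **`Ш¹(Y; 𝔽_p) ≤ c`**, `p ^ c = #Cl_T(K₀)[p]` in helper56's `KummerVS.ClS` model. -/
theorem finrank_sha1_le_kummerVS (h3 : 3 ≤ p) (hK : K₀.IsUnramifiedOutside S) [NumberField K₀]
    (hζ : ∃ ζ : K₀, IsPrimitiveRoot ζ p)
    (T : Set (IsDedekindDomain.HeightOneSpectrum (NumberField.RingOfIntegers K₀)))
    (hT : T ⊆ placesOver K₀ S) :
    Module.Finite (ZMod p)
        ↥((siteOver S K₀.fixingSubgroup R).sha1 (triv (G := ↥K₀.fixingSubgroup) p)) ∧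
      p ^ Module.finrank (ZMod p)
        ↥((siteOver S K₀.fixingSubgroup R).sha1 (triv (G := ↥K₀.fixingSubgroup) p)) ≤
      Nat.card {x : KummerVS.ClS (R := NumberField.RingOfIntegers K₀) K₀ T // x ^ p = 1} :=
  sha1_bound_of_shaSpace S K₀ R
    (finrank_le_kummerVS h3 hK hζ T hT _ (isSha1Space_shaSpace S K₀ R))

/-- **`Ш¹(Y; 𝔽_p) ≤ c`**, `p ^ c = #Cl_T(K₀)[p]` in helper73's `VSDim.ClS` model. -/
theorem finrank_sha1_le_torSub_ClS (h3 : 3 ≤ p) (hK : K₀.IsUnramifiedOutside S) [NumberField K₀]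
    (hζ : ∃ ζ : K₀, IsPrimitiveRoot ζ p)
    (T : Set (IsDedekindDomain.HeightOneSpectrum (NumberField.RingOfIntegers K₀)))
    (hT : T ⊆ placesOver K₀ S) :
    Module.Finite (ZMod p)
        ↥((siteOver S K₀.fixingSubgroup R).sha1 (triv (G := ↥K₀.fixingSubgroup) p)) ∧
      p ^ Module.finrank (ZMod p)
        ↥((siteOver S K₀.fixingSubgroup R).sha1 (triv (G := ↥K₀.fixingSubgroup) p)) ≤
      Nat.card (VSDim.torSub (VSDim.ClS T) p) :=
  sha1_bound_of_shaSpace S K₀ R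
    (finrank_le_torSub_ClS h3 hK hζ T hT _ (isSha1Space_shaSpace S K₀ R))

/-- general form: any bound `B` valid for all abelian exponent-`p` unramified extensions split
at `T`. -/
theorem finrank_sha1_le_of_bound (hK : K₀.IsUnramifiedOutside S) [NumberField K₀]
    (T : Set (IsDedekindDomain.HeightOneSpectrum (NumberField.RingOfIntegers K₀)))
    (hT : T ⊆ placesOver K₀ S) (B : ℕ)
    (hB : ∀ (E : Type) [Field E] [NumberField E] [Algebra K₀ E] [IsGalois K₀ E]
      [IsMulCommutative (E ≃ₐ[K₀] E)], (∀ σ : E ≃ₐ[K₀] E, σ ^ p = 1) →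
      Fermat.Agent.S14.Unram K₀ E → Sha1Core.SplitAt K₀ E T → Nat.card (E ≃ₐ[K₀] E) ≤ B) :
    Module.Finite (ZMod p)
        ↥((siteOver S K₀.fixingSubgroup R).sha1 (triv (G := ↥K₀.fixingSubgroup) p)) ∧
      p ^ Module.finrank (ZMod p)
        ↥((siteOver S K₀.fixingSubgroup R).sha1 (triv (G := ↥K₀.fixingSubgroup) p)) ≤ B :=
  sha1_bound_of_shaSpace S K₀ R
    (finrank_le_of_splitAt_bound hK T hT B hB _ (isSha1Space_shaSpace S K₀ R))

end Concrete

end Fermat.Agent.S55.Middle.Sha1LC
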