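import Fermat.Agent.S55.Middle.Blocks
import Fermat.Agent.S55.Middle.GlobalH1Count
import Fermat.Agent.S55.Middle.FinH1
import Fermat.Agent.S55.Middle.Sha1LC
import Fermat.Agent.S55.Middle.PlaceCount

/-!
# S55 / Middle, row M.kg2: the count `(K-G2)` from the count rows of (C6)

`kg2_of_counts : 3 ≤ p → pPrime p ∈ S → CountP1 p S → CountSha2 p S → Blocks.KG2 p S`.

For `P` with `Blocks.Level p S P`, `K₀ := ℚ̄^P` (a number field, unramified outside `S`, `ζ_p ∈ K₀`,
`P = Gal(ℚ̄/K₀)`), `Y = KSite.siteOver S P R`, `kP = 𝔽_p`, `s := #R.Idx = #{primes of K₀ over S}`,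
`r := rank 𝓞_{K₀}ˣ`, `C := #Cl_S(K₀)[p]`:

* (a) `p ^ (r + s + 1) * C ≤ p ^ h¹`      — helper10 `GlobalH1Count` + helper56 `KummerVS` (on main);
* (fin) `H¹` finite-dimensional            — helper48 `FinH1` (on main);
* (b) `dim P¹ ≤ 2 s + [G_ℚ : P]`           — hypothesis `CountP1` (helper65);
* (c) `p ^ dim Ш² ≤ C`                     — hypothesis `CountSha2` (helper94 `HasseCount` +
                                             `H¹(P; O_S) ↪ Cl_S`);
* (d) `p ^ dim Ш¹ ≤ C`                     — `Sha1LC` (on main);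
* (i) `s = #R.Idx`, (ii) `[G_ℚ : P] = 2 (r + 1)` — `PlaceCount` (on main).

Then `dim P¹ + dim Ш¹ + dim Ш² ≤ 2 (r + s + 1) + dim Ш¹ + dim Ш² ≤ 2 h¹`.
-/

set_option autoImplicit false
set_option linter.unusedSectionVars false

open CategoryTheory groupCohomology ExtCitation Module
open scoped NumberField

namespace Fermat.Agent.S55.Middle.KG2Asm

open Fermat.Agent.S55.Formal
open Fermat.Agent.S55.Formal.PreludeLC hiding GQ Qbar
open Fermat.Agent.S55.Middle.Defs Fermat.Agent.S55.Middle.KSite Fermat.Agent.S55.Middle.Blocks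
open Fermat.Agent.S55.Bridge.ShapiroLC IsDedekindDomain

local instance instIsGaloisQbar_kg2 : IsGalois ℚ (AlgebraicClosure ℚ) :=
  Fermat.Agent.Lib.UnramifiedTrivial.isGalois_algebraicClosure_rat

variable (p : ℕ) [hp : Fact p.Prime] (S : Finset Nat.Primes)

/-- **count [b]**: `P¹(Y; 𝔽_p)` is finite-dimensional of dimension `≤ 2 #R.Idx + [G_ℚ : P]`. -/
def CountP1 : Prop :=
  ∀ (P : Subgroup GQ), Level p S P → ∀ R : Reps S P,
    Module.Finite (ZMod p) ((siteOver S P R).P1 (kP p P)) ∧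
    finrank (ZMod p) ((siteOver S P R).P1 (kP p P)) ≤ 2 * Fintype.card R.Idx + P.index

/-- **count [c]** (with `c' ≤ c`): `Ш²(Y; 𝔽_p)` is finite-dimensional and
`p ^ dim Ш² ≤ #Cl_S(K₀)[p]` (helper56's `KummerVS.ClS` model, `S_K` = all primes of `K₀` over `S`). -/
def CountSha2 : Prop :=
  ∀ (K₀ : IntermediateField ℚ Qbar) [NumberField K₀], K₀.IsUnramifiedOutside S →
    (∃ ζ : K₀, IsPrimitiveRoot ζ p) → ∀ R : Reps S K₀.fixingSubgroup,
      Module.Finite (ZMod p) ↥((siteOver S K₀.fixingSubgroup R).sha2 (kP p K₀.fixingSubgroup)) ∧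
      p ^ finrank (ZMod p) ↥((siteOver S K₀.fixingSubgroup R).sha2 (kP p K₀.fixingSubgroup)) ≤
        Nat.card {x : KummerVS.ClS (R := 𝓞 K₀) K₀
          ((PlaceCount.placesFinset S K₀ : Finset (HeightOneSpectrum (𝓞 K₀))) :
            Set (HeightOneSpectrum (𝓞 K₀))) // x ^ p = 1}

/-- the body of `Blocks.KG2` at `(P, R)`. -/
def KG2At (P : Subgroup GQ) (R : Reps S P) : Prop :=
  Module.Finite (ZMod p) ((siteOver S P R).P1 (kP p P)) ∧
    Module.Finite (ZMod p) ↥((siteOver S P R).sha2 (kP p P)) ∧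
    finrank (ZMod p) ((siteOver S P R).P1 (kP p P)) +
      finrank (ZMod p) ↥((siteOver S P R).sha1 (kP p P)) +
      finrank (ZMod p) ↥((siteOver S P R).sha2 (kP p P)) ≤
        2 * finrank (ZMod p) (H1 (basisP S P) (kP p P))

/-- pure arithmetic of the count. -/
theorem count_arith {p r s C a d e h n : ℕ} (hp : 1 < p)
    (ha : p ^ (r + s + 1) * C ≤ p ^ h) (hb : a ≤ 2 * s + n) (hn : n = 2 * (r + 1))
    (hd : p ^ d ≤ C) (he : p ^ e ≤ C) : a + d + e ≤ 2 * h := by
  have h1 : r + s + 1 + d ≤ h := by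
    rw [← Nat.pow_le_pow_iff_right hp, pow_add]
    exact (Nat.mul_le_mul_left _ hd).trans ha
  have h2 : r + s + 1 + e ≤ h := by
    rw [← Nat.pow_le_pow_iff_right hp, pow_add]
    exact (Nat.mul_le_mul_left _ he).trans ha
  omega

/-- the count at `P = Gal(ℚ̄/K₀)`. -/
theorem kg2At_fixingSubgroup (h3 : 3 ≤ p) (hpS : pPrime p ∈ S) (hb : CountP1 p S)
    (hc : CountSha2 p S) (K₀ : IntermediateField ℚ Qbar) [NumberField K₀]
    (hK : K₀.IsUnramifiedOutside S) {ζ : K₀} (hζ : IsPrimitiveRoot ζ p)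
    (hlev : Level p S K₀.fixingSubgroup) (R : Reps S K₀.fixingSubgroup) :
    KG2At p S K₀.fixingSubgroup R := by
  obtain ⟨hP1fin, hP1le⟩ := hb K₀.fixingSubgroup hlev R
  obtain ⟨hsha2fin, hsha2le⟩ := hc K₀ hK ⟨ζ, hζ⟩ R
  set SK := PlaceCount.placesFinset S K₀ with hSKdef
  have hSKsub : ((SK : Finset (HeightOneSpectrum (𝓞 K₀))) : Set (HeightOneSpectrum (𝓞 K₀))) ⊆
      Sha1Final.placesOver K₀ S := by
    intro v hv
    exact (PlaceCount.mem_placesFinset S K₀ v).1 (Finset.mem_coe.1 hv)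
  obtain ⟨-, hsha1le⟩ := Sha1LC.finrank_sha1_le_kummerVS (p := p) S K₀ R h3 hK ⟨ζ, hζ⟩ _ hSKsub
  -- `H¹` is finite-dimensional
  have hfin : Module.Finite (ZMod p) (H1 (basisP S K₀.fixingSubgroup) (kP p K₀.fixingSubgroup)) :=
    FinH1.finite_H1_triv S p K₀.fixingSubgroup hlev.isOpen hlev.triv
  -- count (a)
  have ha := GlobalH1Count.relIndex_VS_le_pow_finrank (p := p) K₀ hζ S ⟨pPrime p, hpS, rfl⟩ hK SK
    (fun v hv => (PlaceCount.mem_placesFinset S K₀ v).1 hv)
  rw [KummerVS.relIndex_pPow_VS_numberField K₀ p SK hζ] at ha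
  refine ⟨hP1fin, hsha2fin, ?_⟩
  exact count_arith hp.out.one_lt ha
    (by rw [← PlaceCount.card_idx_eq_card_placesFinset R] ; exact hP1le)
    (PlaceCount.index_eq_two_mul K₀ h3 hζ) hsha1le hsha2le

/-- transport along `P = Gal(ℚ̄/K₀)`. -/
theorem kg2At_of_eq (h3 : 3 ≤ p) (hpS : pPrime p ∈ S) (hb : CountP1 p S)
    (hc : CountSha2 p S) (K₀ : IntermediateField ℚ Qbar) [NumberField K₀]
    (hK : K₀.IsUnramifiedOutside S) {ζ : K₀} (hζ : IsPrimitiveRoot ζ p) :
    ∀ (P : Subgroup GQ), K₀.fixingSubgroup = P → Level p S P → ∀ R : Reps S P, KG2At p S P R := by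
  intro P h
  subst h
  intro hlev R
  exact kg2At_fixingSubgroup p S h3 hpS hb hc K₀ hK hζ hlev R

/-- **(K-G2) from the count rows.** -/
theorem kg2_of_counts (h3 : 3 ≤ p) (hpS : pPrime p ∈ S) (hb : CountP1 p S)
    (hc : CountSha2 p S) : Blocks.KG2 p S := by
  intro P hP R
  obtain ⟨N₀, ⟨F₀, hF₀, -, rfl⟩, hle⟩ := hP.isOpen
  have := hF₀.1
  obtain ⟨hfix, hKle⟩ := GaloisLevel.fixingSubgroup_fixedField_of_le P hle
  have hK : (IntermediateField.fixedField P).IsUnramifiedOutside S :=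
    IntermediateField.IsUnramifiedOutside.of_le hKle hF₀
  have : NumberField (IntermediateField.fixedField P) :=
    Bridge.Unram.numberField_of_finiteDimensional _ hK.1
  have hcyc : GaloisLevelCyclo.cycloField p ≤ IntermediateField.fixedField P := by
    have h1 : P ≤ (GaloisLevelCyclo.cycloField p).fixingSubgroup := fun s hs =>
      (GaloisLevelCyclo.mem_fixingSubgroup_cycloField_iff (p := p) s).2 (hP.triv s hs)
    calc GaloisLevelCyclo.cycloField p
        = IntermediateField.fixedField (GaloisLevelCyclo.cycloField p).fixingSubgroup :=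
          (InfiniteGalois.fixedField_fixingSubgroup _).symm
      _ ≤ IntermediateField.fixedField P := IntermediateField.fixedField_antitone h1
  obtain ⟨ζ, hζ⟩ := FinH1.exists_primitiveRoot_of_le p hcyc
  exact kg2At_of_eq p S h3 hpS hb hc (IntermediateField.fixedField P) hK hζ P hfix hP R

end Fermat.Agent.S55.Middle.KG2Asm
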