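/-
S55 / Middle — count (C6)[b] in the LITERAL shape `KG2Asm.CountP1 p S` (helper65).

`P ≤ G_ℚ` with `Blocks.Level p S P` (open for the `S`-basis, `χ_p` trivial on `P`), `R : Reps S P`,
`Y := KSite.siteOver S P R`, `kP p P` the trivial `𝔽_p`-representation:

  `P¹(Y; 𝔽_p)` is finite-dimensional and `dim P¹(Y; 𝔽_p) ≤ 2 · #R.Idx + [G_ℚ : P]`.

Direct route in `𝔽_p`-coefficients: per place `(q, t)` the local bound
`LM.H1PlaceBound.finrank_H1_trivial_le_index` (helper11, on `LM.H1Final`) for `D = Dloc P q t`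
(open by `CountP1.isOpenSub_Dloc`; `χ_p ∘ ι_q` is trivial on `D` because `κ_t(d) = t ι_q(d) t⁻¹ ∈ P`
and `χ_p` is conjugation invariant), the product decomposition `SiteCount.P1equiv`, and the sum of
the local degrees `CountP1.sum_wildExp_le`.
-/
import Mathlib
import Fermat.Agent.S55.Middle.CountP1
import Fermat.Agent.S55.Middle.KG2Asm
import Fermat.Agent.S55.LM.H1PlaceBound

set_option autoImplicit false
set_option linter.unusedSectionVars false

open CategoryTheory groupCohomology ExtCitation Module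

namespace Fermat.Agent.S55.Middle.CountP1kP

noncomputable section

open Fermat.Agent.S55.Formal
open Fermat.Agent.S55.Formal.PreludeLC hiding GQ Qbar
open Fermat.Agent.S55.Bridge.ShapiroLC Fermat.Agent.S55.Bridge.Mackey
open Fermat.Agent.S55.Middle.Defs Fermat.Agent.S55.Middle.KSite Fermat.Agent.S55.Middle.Blocks
open Fermat.Agent.S55.LM.Defs

attribute [local instance] Fermat.Agent.S55.LM.Defs.fact_q

variable (p : ℕ) [Fact p.Prime] (S : Finset Nat.Primes)

/-- `χ_p ∘ ι_q` is trivial on the local group `Dloc P q t` when `χ_p` is trivial on `P`. -/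
theorem cycloChar_trivial_Dloc {P : Subgroup GQ} (hχ : ∀ g ∈ P, cycloChar p g = 1)
    (q : Nat.Primes) (t : GQ) :
    ∀ s ∈ Dloc P q t, cycloChar p (primeLocalToGlobal q s) = 1 := by
  intro s hs
  have h1 : cycloChar p (t * primeLocalToGlobal q s * t⁻¹) = 1 := hχ _ hs
  rw [map_mul, map_mul, map_inv, mul_comm, ← mul_assoc, inv_mul_cancel, one_mul] at h1
  exact h1

/-- the local groups are open for the local basis. -/
theorem isOpen_Dloc {P : Subgroup GQ} (hP : IsOpenS S P) (q : Nat.Primes) (t : GQ) :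
    (Vq q).IsOpen (Dloc P q t) :=
  CountP1.isOpenSub_Dloc S P q t hP

/-- the local bound in `𝔽_p`-coefficients at the place `v` of the `K`-site. -/
theorem finrank_H1_loc_le {P : Subgroup GQ} (hL : Level p S P) (R : Reps S P) (v : R.Idx) :
    Module.Finite (ZMod p) (H1 ((siteOver S P R).𝒱 v) ((siteOver S P R).loc (kP p P) v)) ∧
      finrank (ZMod p) (H1 ((siteOver S P R).𝒱 v) ((siteOver S P R).loc (kP p P) v)) ≤
        2 + CountP1.wildExp S P p R v :=
  Fermat.Agent.S55.LM.H1PlaceBound.finrank_H1_trivial_le_index p (Dloc P v.1.1 (v.2 : GQ))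
    (isOpen_Dloc S hL.isOpen v.1.1 (v.2 : GQ))
    (cycloChar_trivial_Dloc p hL.triv v.1.1 (v.2 : GQ))

/-- **Count (C6)[b]**, literal shape of `KG2Asm.CountP1`. -/
theorem countP1 : KG2Asm.CountP1 p S := by
  intro P hL R
  have hfi : P.FiniteIndex := by
    obtain ⟨N, hN, hNP⟩ := hL.isOpen
    have := (globalBasis S).finiteIndex hN
    exact Subgroup.finiteIndex_of_le hNP
  have hloc := finrank_H1_loc_le p S hL R
  have : ∀ v : (siteOver S P R).I,
      Module.Finite (ZMod p) (H1 ((siteOver S P R).𝒱 v) ((siteOver S P R).loc (kP p P) v)) :=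
    fun v => (hloc v).1
  have e := SiteCount.P1equiv (siteOver S P R) (kP p P)
  refine ⟨Module.Finite.equiv e.symm, ?_⟩
  rw [e.finrank_eq, Module.finrank_pi_fintype]
  calc ∑ v : R.Idx, finrank (ZMod p)
          (H1 ((siteOver S P R).𝒱 v) ((siteOver S P R).loc (kP p P) v))
      ≤ ∑ v : R.Idx, (2 + CountP1.wildExp S P p R v) :=
        Finset.sum_le_sum (fun v _ => (hloc v).2)
    _ ≤ 2 * Fintype.card R.Idx + P.index := by
        rw [Finset.sum_add_distrib, Finset.sum_const, smul_eq_mul, Finset.card_univ, mul_comm]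
        exact Nat.add_le_add_left (CountP1.sum_wildExp_le S P p R) _

end

end Fermat.Agent.S55.Middle.CountP1kP
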