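/-
S55 / Middle, row M.inv (helper73): DESCENT OF THE RECIPROCITY FUNCTIONAL, in the abstract `Site`
language of the formal end.  Output: the field `BaseA.inv` (A-inv) for `mu χ` from the analogous
statement for a permutation module `perm k U` (`U` open normal, `χ` trivial on `U`), i.e. the
descent `ℚ(μ_p) → ℚ` of audit #1539 (5).

* `exists_smul_of_finrank_quot_le_one` : two functionals killing a subspace of codimension `≤ 1`
  are proportional.
* `inv_of_family` : GENERIC descent.  `ι : A ⟶ B`, `ε : B ⟶ A`, endomorphisms `R j : B ⟶ B`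
  (`j` in a finite type) with `ι ≫ R j = b j • ι`, `∑ a j • R j = ε ≫ ι`, `∑ a j * b j ≠ 0`;
  local functionals `Λ v` on `H²(Γ_v, B)`, all nonzero, with `∑_v Λ v (res_v x) = 0` on
  `H²(G, B)`, cokernel of `loc₂ B` of dimension `≤ 1`, and ONE place `v0` and one class
  `y0 ∈ H²(Γ_{v0}, A)` with `Λ v0 (ι_* y0) ≠ 0`.  Then `inv v := Λ v ∘ ι_*` are nonzero local
  functionals on `H²(Γ_v, A)` with `∑_v inv v (res_v x) = 0` on `H²(G, A)`.
* `exists_y0` : the class `y0` from `dim H²(Γ_{v0}, B) ≤ 1`, `H²(Γ_{v0}, A) ≠ 0`, `ι ≫ ε = c • 𝟙`.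
* the instance `B = perm k U`, `A = mu χ` : `muToPerm` (`1 ↦ ∑_x χ(x)⁻¹ [x]`), `rmul` (right
  multiplication by a coset representative), the three identities, and the final
  `baseA_inv_of_perm` in the literal shape of `BaseA.inv`.
-/
import Fermat.Agent.S55.Formal.Blocks
import Fermat.Agent.S55.Formal.HmidPi
import Fermat.Agent.S55.Formal.Functor
import Fermat.Agent.S55.Formal.PermMu

set_option autoImplicit false

open CategoryTheory Module

namespace Fermat.Agent.S55.Middle.InvDescent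

open Fermat.Agent.S55.Formal Fermat.Agent.S55.Formal.Functor

noncomputable section

/-! ### linear algebra -/

section LinAlg

variable {k : Type} [Field k] {V : Type*} [AddCommGroup V] [Module k V]

/-- Two functionals killing a subspace of codimension `≤ 1` are proportional. -/
theorem exists_smul_of_finrank_quot_le_one (W : Submodule k V) [Module.Finite k (V ⧸ W)]
    (h : finrank k (V ⧸ W) ≤ 1) (Φ Ψ : V →ₗ[k] k) (hΦ : ∀ w ∈ W, Φ w = 0)
    (hΨ : ∀ w ∈ W, Ψ w = 0) (hne : Φ ≠ 0) : ∃ e : k, Ψ = e • Φ := by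
  obtain ⟨z0, hz0⟩ : ∃ z0, Φ z0 ≠ 0 := by
    by_contra hcon
    exact hne (LinearMap.ext fun z => by
      by_contra hz
      exact hcon ⟨z, hz⟩)
  obtain ⟨u, hu⟩ := finrank_le_one_iff.mp h
  obtain ⟨c0, hc0⟩ := hu (W.mkQ z0)
  have hc0ne : c0 ≠ 0 := by
    rintro rfl
    rw [zero_smul] at hc0
    have : z0 ∈ W := (Submodule.Quotient.mk_eq_zero W).mp hc0.symm
    exact hz0 (hΦ z0 this)
  refine ⟨Ψ z0 / Φ z0, LinearMap.ext fun z => ?_⟩
  obtain ⟨c, hc⟩ := hu (W.mkQ z)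
  have hmem : z - (c / c0) • z0 ∈ W := by
    rw [← Submodule.Quotient.mk_eq_zero W, Submodule.Quotient.mk_sub, Submodule.Quotient.mk_smul]
    have h1 : (Submodule.Quotient.mk z0 : V ⧸ W) = c0 • u := hc0.symm
    have h2 : (Submodule.Quotient.mk z : V ⧸ W) = c • u := hc.symm
    rw [h1, h2, smul_smul, div_mul_cancel₀ c hc0ne, sub_self]
  have e1 := hΦ _ hmem
  have e2 := hΨ _ hmem
  rw [map_sub, map_smul, sub_eq_zero, smul_eq_mul] at e1 e2
  rw [LinearMap.smul_apply, smul_eq_mul, e1, e2]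
  field_simp

end LinAlg

/-! ### coefficient maps at the places -/

section LocHom

variable {k : Type} [CommRing k] (X : Site) {A B C : Rep.{0, 0, 0} k X.G}

/-- the coefficient map at the place `v` -/
def locHom (φ : A ⟶ B) (v : X.I) : Mor (X.𝒱 v) (X.loc A v) (X.𝒱 v) (X.loc B v) :=
  Mor.ofHom (X.𝒱 v) ((Rep.resFunctor (X.ι v)).map φ)

/-- restriction to a place commutes with coefficient maps -/
theorem res_h2_ofHom (φ : A ⟶ B) (v : X.I) (x : H2 X.𝒰 A) :
    (X.res B v).h2 ((Mor.ofHom X.𝒰 φ).h2 x) = (locHom X φ v).h2 ((X.res A v).h2 x) :=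
  LinearMap.congr_fun (ofHom_res_h2 X.𝒰 (X.𝒱 v) (X.ι v) (X.cont v) φ) x

theorem locHom_comp_h2 (φ : A ⟶ B) (ψ : B ⟶ C) (v : X.I) :
    (locHom X (φ ≫ ψ) v).h2 = (locHom X ψ v).h2 ∘ₗ (locHom X φ v).h2 := by
  unfold locHom
  rw [CategoryTheory.Functor.map_comp, ofHom_comp_h2]

theorem locHom_add_h2 (φ ψ : A ⟶ B) (v : X.I) :
    (locHom X (φ + ψ) v).h2 = (locHom X φ v).h2 + (locHom X ψ v).h2 := by
  unfold locHom
  rw [show (Rep.resFunctor (X.ι v)).map (φ + ψ) =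
    (Rep.resFunctor (X.ι v)).map φ + (Rep.resFunctor (X.ι v)).map ψ from rfl, ofHom_add_h2]

theorem locHom_smul_h2 (c : k) (φ : A ⟶ B) (v : X.I) :
    (locHom X (c • φ) v).h2 = c • (locHom X φ v).h2 := by
  unfold locHom
  rw [show (Rep.resFunctor (X.ι v)).map (c • φ) =
    c • (Rep.resFunctor (X.ι v)).map φ from rfl, ofHom_smul_h2]

theorem locHom_zero_h2 (v : X.I) : (locHom X (0 : A ⟶ B) v).h2 = 0 := by
  unfold locHom
  rw [show (Rep.resFunctor (X.ι v)).map (0 : A ⟶ B) = 0 from rfl, ofHom_zero_h2]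

theorem locHom_id_h2 (v : X.I) : (locHom X (𝟙 A) v).h2 = LinearMap.id := by
  unfold locHom
  rw [CategoryTheory.Functor.map_id]
  exact ofHom_id_h2 (X.𝒱 v)

theorem locHom_sum_smul_h2 {J : Type} (s : Finset J) (a : J → k) (R : J → (A ⟶ B)) (v : X.I) :
    (locHom X (∑ j ∈ s, a j • R j) v).h2 = ∑ j ∈ s, a j • (locHom X (R j) v).h2 := by
  classical
  induction s using Finset.induction_on with
  | empty =>
    rw [Finset.sum_empty, Finset.sum_empty]
    exact locHom_zero_h2 X v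
  | insert i s hi ih =>
    rw [Finset.sum_insert hi, Finset.sum_insert hi]
    have h1 := locHom_add_h2 X (a i • R i) (∑ j ∈ s, a j • R j) v
    have h2 := locHom_smul_h2 X (a i) (R i) v
    exact h1.trans (congrArg₂ (· + ·) h2 ih)

end LocHom

/-! ### the linear-algebra core of the descent -/

section Core

variable {k : Type} [Field k] {I : Type} [Fintype I] [DecidableEq I]
  {HA HB : I → Type} [∀ v, AddCommGroup (HA v)] [∀ v, Module k (HA v)]
  [∀ v, AddCommGroup (HB v)] [∀ v, Module k (HB v)]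
  {GA GB P : Type} [AddCommGroup GA] [Module k GA] [AddCommGroup GB] [Module k GB]
  [AddCommGroup P] [Module k P]

/-- the functional `z ↦ ∑_v Λ v (z_v)` on `P ≃ Π_v HB v` -/
def tot (eP : P ≃ₗ[k] ∀ v, HB v) (Λ : ∀ v, HB v →ₗ[k] k) : P →ₗ[k] k :=
  ∑ v, (Λ v ∘ₗ LinearMap.proj v) ∘ₗ eP.toLinearMap

omit [DecidableEq I] in
theorem tot_apply (eP : P ≃ₗ[k] ∀ v, HB v) (Λ : ∀ v, HB v →ₗ[k] k) (z : P) :
    tot eP Λ z = ∑ v, Λ v (eP z v) := by
  unfold tot
  rw [LinearMap.sum_apply]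
  rfl

theorem tot_single (eP : P ≃ₗ[k] ∀ v, HB v) (Λ : ∀ v, HB v →ₗ[k] k) (v : I) (w : HB v) :
    tot eP Λ (eP.symm (Pi.single v w)) = Λ v w := by
  rw [tot_apply, Finset.sum_eq_single v]
  · rw [LinearEquiv.apply_symm_apply, Pi.single_eq_same]
  · intro u _ hu
    rw [LinearEquiv.apply_symm_apply, Pi.single_eq_of_ne hu, map_zero]
  · intro h
    exact absurd (Finset.mem_univ v) h

/-- **The core of the descent** (pure linear algebra). -/
theorem core (eP : P ≃ₗ[k] ∀ v, HB v) (L : GB →ₗ[k] P)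
    (resA : ∀ v, GA →ₗ[k] HA v) (resB : ∀ v, GB →ₗ[k] HB v)
    (hL : ∀ x v, eP (L x) v = resB v x)
    (ιG : GA →ₗ[k] GB) (ιv : ∀ v, HA v →ₗ[k] HB v) (εv : ∀ v, HB v →ₗ[k] HA v)
    {J : Type} [Fintype J] (RG : J → GB →ₗ[k] GB) (Rv : J → ∀ v, HB v →ₗ[k] HB v)
    (nat_ι : ∀ v x, resB v (ιG x) = ιv v (resA v x))
    (nat_R : ∀ j v x, resB v (RG j x) = Rv j v (resB v x))
    (a b : J → k) (hR : ∀ j v y, Rv j v (ιv v y) = b j • ιv v y)
    (hsum : ∀ v w, ιv v (εv v w) = ∑ j, a j • Rv j v w)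
    (hab : ∑ j, a j * b j ≠ 0)
    (hfin : Module.Finite k (P ⧸ LinearMap.range L))
    (hrank : finrank k (P ⧸ LinearMap.range L) ≤ 1)
    (Λ : ∀ v, HB v →ₗ[k] k) (hΛ : ∀ x : GB, ∑ v, Λ v (resB v x) = 0) (hns : ∀ v, Λ v ≠ 0)
    (v0 : I) (y0 : HA v0) (hy0 : Λ v0 (ιv v0 y0) ≠ 0) :
    ∃ inv : ∀ v, HA v →ₗ[k] k, (∀ v, inv v ≠ 0) ∧ ∀ x : GA, ∑ v, inv v (resA v x) = 0 := by
  classical
  have tot_L : ∀ (Λ' : ∀ v, HB v →ₗ[k] k) (x : GB), tot eP Λ' (L x) = ∑ v, Λ' v (resB v x) := by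
    intro Λ' x
    rw [tot_apply]
    exact Finset.sum_congr rfl fun v _ => by rw [hL]
  -- the total functional is nonzero and kills the image of `L`
  have hΦne : tot eP Λ ≠ 0 := by
    intro h0
    apply hy0
    rw [← tot_single eP Λ v0, h0, LinearMap.zero_apply]
  have hΦ : ∀ w ∈ LinearMap.range L, tot eP Λ w = 0 := by
    rintro _ ⟨x, rfl⟩
    rw [tot_L, hΛ]
  -- the translated functionals are proportional to it
  have key : ∀ j, ∀ (v : I) (w : HB v), Λ v (Rv j v w) = b j * Λ v w := by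
    intro j
    have hΨ : ∀ w ∈ LinearMap.range L, tot eP (fun v => Λ v ∘ₗ Rv j v) w = 0 := by
      rintro _ ⟨x, rfl⟩
      rw [tot_L, ← hΛ (RG j x)]
      exact Finset.sum_congr rfl fun v _ => by rw [LinearMap.comp_apply, nat_R]
    obtain ⟨e, he⟩ := exists_smul_of_finrank_quot_le_one (LinearMap.range L) hrank
      (tot eP Λ) (tot eP (fun v => Λ v ∘ₗ Rv j v)) hΦ hΨ hΦne
    have hev : ∀ (v : I) (w : HB v), Λ v (Rv j v w) = e * Λ v w := by
      intro v w
      have := LinearMap.congr_fun he (eP.symm (Pi.single v w))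
      rw [LinearMap.smul_apply, tot_single, tot_single, smul_eq_mul] at this
      exact this
    have heb : e = b j := by
      have h1 := hev v0 (ιv v0 y0)
      rw [hR, map_smul, smul_eq_mul] at h1
      exact (mul_right_cancel₀ hy0 h1).symm
    intro v w
    rw [hev, heb]
  refine ⟨fun v => Λ v ∘ₗ ιv v, fun v => ?_, fun x => ?_⟩
  · -- nonvanishing
    obtain ⟨w, hw⟩ : ∃ w, Λ v w ≠ 0 := by
      by_contra hcon
      exact hns v (LinearMap.ext fun z => by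
        by_contra hz
        exact hcon ⟨z, hz⟩)
    intro h0
    have h1 := LinearMap.congr_fun h0 (εv v w)
    rw [LinearMap.comp_apply, LinearMap.zero_apply, hsum, map_sum] at h1
    have h3 : ∑ j, Λ v (a j • Rv j v w) = (∑ j, a j * b j) * Λ v w := by
      rw [Finset.sum_mul]
      exact Finset.sum_congr rfl fun j _ => by
        rw [map_smul, key, smul_eq_mul, mul_assoc]
    rw [h3] at h1
    exact (mul_ne_zero hab hw) h1
  · -- reciprocity
    rw [← hΛ (ιG x)]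
    exact Finset.sum_congr rfl fun v _ => by rw [LinearMap.comp_apply, nat_ι]

/-- a nonzero functional on a space of dimension `≤ 1` does not vanish on a nonzero vector -/
theorem ne_zero_of_finrank_le_one {H : Type*} [AddCommGroup H] [Module k H] [Module.Finite k H]
    (hrank : finrank k H ≤ 1) (Λ0 : H →ₗ[k] k) (hΛ0 : Λ0 ≠ 0) (z : H) (hz : z ≠ 0) :
    Λ0 z ≠ 0 := by
  intro h0
  obtain ⟨u, hu⟩ := finrank_le_one_iff.mp hrank
  obtain ⟨c1, hc1⟩ := hu z
  have hc1ne : c1 ≠ 0 := by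
    rintro rfl
    rw [zero_smul] at hc1
    exact hz hc1.symm
  apply hΛ0
  apply LinearMap.ext
  intro z'
  obtain ⟨c2, hc2⟩ := hu z'
  have hu0 : Λ0 u = 0 := by
    rw [← hc1, map_smul, smul_eq_mul] at h0
    exact (mul_eq_zero.mp h0).resolve_left hc1ne
  rw [← hc2, map_smul, hu0, smul_zero, LinearMap.zero_apply]

/-- the family of local functionals cut out of a total functional -/
def famOf (eP : P ≃ₗ[k] ∀ v, HB v) (Λtot : P →ₗ[k] k) (v : I) : HB v →ₗ[k] k :=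
  (Λtot ∘ₗ eP.symm.toLinearMap) ∘ₗ LinearMap.single k HB v

omit [Fintype I] in
theorem famOf_apply (eP : P ≃ₗ[k] ∀ v, HB v) (Λtot : P →ₗ[k] k) (v : I) (w : HB v) :
    famOf eP Λtot v w = Λtot (eP.symm (Pi.single v w)) := rfl

theorem sum_famOf (eP : P ≃ₗ[k] ∀ v, HB v) (Λtot : P →ₗ[k] k) (z : P) :
    ∑ v, famOf eP Λtot v (eP z v) = Λtot z := by
  have h1 : z = eP.symm (∑ v, Pi.single v (eP z v)) := by
    rw [LinearEquiv.eq_symm_apply]
    funext v
    rw [Finset.sum_apply, Finset.sum_eq_single v]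
    · rw [Pi.single_eq_same]
    · intro u _ hu
      rw [Pi.single_eq_of_ne' hu]
    · intro h
      exact absurd (Finset.mem_univ v) h
  conv_rhs => rw [h1]
  rw [map_sum, map_sum]
  rfl

/-- a functional with kernel exactly a given subspace of codimension one -/
theorem exists_tot_of_not_mem (W : Submodule k P) [Module.Finite k (P ⧸ W)]
    (hrank : finrank k (P ⧸ W) ≤ 1) (z0 : P) (hz0 : z0 ∉ W) :
    ∃ Λtot : P →ₗ[k] k, ∀ z, Λtot z = 0 ↔ z ∈ W := by
  have hpos : 0 < finrank k (P ⧸ W) := by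
    rw [Module.finrank_pos_iff_exists_ne_zero]
    exact ⟨W.mkQ z0, fun h => hz0 ((Submodule.Quotient.mk_eq_zero W).mp h)⟩
  have h1 : finrank k (P ⧸ W) = finrank k k := by
    rw [Module.finrank_self]
    omega
  have hkk : Module.Finite k k := Module.Finite.self k
  obtain ⟨e⟩ := FiniteDimensional.nonempty_linearEquiv_of_finrank_eq h1
  refine ⟨e.toLinearMap ∘ₗ W.mkQ, fun z => ?_⟩
  rw [LinearMap.comp_apply, LinearEquiv.coe_coe, e.map_eq_zero_iff, Submodule.mkQ_apply,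
    Submodule.Quotient.mk_eq_zero]

end Core

/-! ### the generic descent -/

section Generic

variable {k : Type} [Field k] (X : Site) {A B : Rep.{0, 0, 0} k X.G}

/-- **Generic descent of the reciprocity functional.** -/
theorem inv_of_family (ι : A ⟶ B) (ε : B ⟶ A) {J : Type} [Fintype J] (R : J → (B ⟶ B))
    (a b : J → k) (hR : ∀ j, ι ≫ R j = b j • ι) (hsum : ∑ j, a j • R j = ε ≫ ι)
    (hab : ∑ j, a j * b j ≠ 0)
    (hfin : Module.Finite k (X.P2 B ⧸ LinearMap.range (X.loc₂ B)))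
    (hrank : finrank k (X.P2 B ⧸ LinearMap.range (X.loc₂ B)) ≤ 1)
    (Λ : ∀ v : X.I, H2 (X.𝒱 v) (X.loc B v) →ₗ[k] k)
    (hΛ : ∀ x : H2 X.𝒰 B, ∑ v, Λ v ((X.res B v).h2 x) = 0)
    (hns : ∀ v, Λ v ≠ 0)
    (v0 : X.I) (y0 : H2 (X.𝒱 v0) (X.loc A v0))
    (hy0 : Λ v0 ((locHom X ι v0).h2 y0) ≠ 0) :
    ∃ inv : ∀ v : X.I, H2 (X.𝒱 v) (X.loc A v) →ₗ[k] k,
      (∀ v, inv v ≠ 0) ∧ ∀ x : H2 X.𝒰 A, ∑ v, inv v ((X.res A v).h2 x) = 0 := by
  refine core (X.P2equiv B) (X.loc₂ B) (fun v => (X.res A v).h2) (fun v => (X.res B v).h2)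
    (fun x v => X.P2equiv_loc₂ B x v) (Mor.ofHom X.𝒰 ι).h2 (fun v => (locHom X ι v).h2)
    (fun v => (locHom X ε v).h2) (fun j => (Mor.ofHom X.𝒰 (R j)).h2)
    (fun j v => (locHom X (R j) v).h2) (fun v x => res_h2_ofHom X ι v x)
    (fun j v x => res_h2_ofHom X (R j) v x) a b ?_ ?_ hab hfin hrank Λ hΛ hns v0 y0 hy0
  · intro j v y
    have e1 : (locHom X (ι ≫ R j) v).h2 = (locHom X (R j) v).h2 ∘ₗ (locHom X ι v).h2 :=
      locHom_comp_h2 X ι (R j) v
    have e2 : (locHom X (ι ≫ R j) v).h2 = (locHom X (b j • ι) v).h2 :=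
      congrArg (fun φ => (locHom X φ v).h2) (hR j)
    have e3 : (locHom X (b j • ι) v).h2 = b j • (locHom X ι v).h2 := locHom_smul_h2 X (b j) ι v
    exact LinearMap.congr_fun (e1.symm.trans (e2.trans e3)) y
  · intro v w
    have e1 : (locHom X (ε ≫ ι) v).h2 = (locHom X ι v).h2 ∘ₗ (locHom X ε v).h2 :=
      locHom_comp_h2 X ε ι v
    have e2 : (locHom X (∑ j, a j • R j) v).h2 = (locHom X (ε ≫ ι) v).h2 :=
      congrArg (fun φ => (locHom X φ v).h2) hsum
    have e3 : (locHom X (∑ j, a j • R j) v).h2 = ∑ j, a j • (locHom X (R j) v).h2 :=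
      locHom_sum_smul_h2 X Finset.univ a R v
    have e4 := LinearMap.congr_fun (e1.symm.trans (e2.symm.trans e3)) w
    rw [LinearMap.sum_apply] at e4
    exact e4

/-- The class `y0` needed in `inv_of_family`, from `dim H²(Γ_{v0}, B) ≤ 1`,
`H²(Γ_{v0}, A) ≠ 0` and a retraction `ε` of `ι` up to a nonzero scalar. -/
theorem exists_y0 (ι : A ⟶ B) (ε : B ⟶ A) (c : k) (hc : c ≠ 0) (hιε : ι ≫ ε = c • 𝟙 A)
    (v0 : X.I) (Λ0 : H2 (X.𝒱 v0) (X.loc B v0) →ₗ[k] k) (hΛ0 : Λ0 ≠ 0)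
    (hfin : Module.Finite k (H2 (X.𝒱 v0) (X.loc B v0)))
    (hrank : finrank k (H2 (X.𝒱 v0) (X.loc B v0)) ≤ 1)
    (hA : ∃ y : H2 (X.𝒱 v0) (X.loc A v0), y ≠ 0) :
    ∃ y0 : H2 (X.𝒱 v0) (X.loc A v0), Λ0 ((locHom X ι v0).h2 y0) ≠ 0 := by
  obtain ⟨y, hy⟩ := hA
  refine ⟨y, ne_zero_of_finrank_le_one hrank Λ0 hΛ0 _ fun h => ?_⟩
  have e1 : (locHom X (ι ≫ ε) v0).h2 = (locHom X ε v0).h2 ∘ₗ (locHom X ι v0).h2 :=
    locHom_comp_h2 X ι ε v0
  have e2 : (locHom X (ι ≫ ε) v0).h2 = (locHom X (c • 𝟙 A) v0).h2 :=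
    congrArg (fun φ => (locHom X φ v0).h2) hιε
  have e3 : (locHom X (c • 𝟙 A) v0).h2 = c • (locHom X (𝟙 A) v0).h2 :=
    locHom_smul_h2 X c (𝟙 A) v0
  have e4 : (locHom X (𝟙 A) v0).h2 = LinearMap.id := locHom_id_h2 X v0
  have e5 : (locHom X ε v0).h2 ((locHom X ι v0).h2 y) = c • y := by
    have := LinearMap.congr_fun (e1.symm.trans (e2.trans e3)) y
    rw [e4] at this
    exact this
  rw [h, map_zero] at e5
  exact (smul_ne_zero hc hy) e5.symm

end Generic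

/-! ### the instance `B = k[G/U]`, `A = k(χ)` -/

open Fermat.Agent.S55.Formal.PermBasis Fermat.Agent.S55.Formal.PermMu

section PermInst

variable {k : Type} [Field k] {G : Type} [Group G] (U : Subgroup G) [hUn : U.Normal]

/-- right multiplication by `g0` on `k[G/U]` (`U` normal) -/
def rmul (g0 : G) : Formal.perm k U ⟶ Formal.perm k U :=
  evP (permBasis (k := k) U (g0 : G ⧸ U)) (fun s hs => by
    rw [perm_ρ_basis, Perm.smul_coset_eq_of_normal hUn le_rfl hs])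

theorem smul_eq_mul_quot (g : G) (x : G ⧸ U) : g • x = (g : G ⧸ U) * x := by
  induction x using QuotientGroup.induction_on with
  | H h => rfl

theorem rmul_basis (g0 : G) (x : G ⧸ U) :
    (rmul (k := k) U g0).hom (permBasis U x) = permBasis U (x * (g0 : G ⧸ U)) := by
  induction x using QuotientGroup.induction_on with
  | H g =>
    rw [rmul, evP_basis, perm_ρ_basis, smul_eq_mul_quot]

variable [Fintype (G ⧸ U)] (χ : G →* kˣ) (hχ : TrivOn χ U)

/-- the character of `G ⧸ U` induced by `χ` -/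
def chiBar : G ⧸ U →* kˣ := QuotientGroup.lift U χ (fun s hs => hχ s hs)

omit [Fintype (G ⧸ U)] in
@[simp] theorem chiBar_mk (g : G) : chiBar U χ hχ (g : G ⧸ U) = χ g := rfl

/-- the `χ`-eigenvector `∑_x χ(x)⁻¹ [x]` of `k[G/U]` -/
def theta : Formal.perm k U :=
  ∑ x : G ⧸ U, (((chiBar U χ hχ x)⁻¹ : kˣ) : k) • permBasis U x

omit [Fintype (G ⧸ U)] in
theorem chiBar_inv_mul (x y : G ⧸ U) :
    (((chiBar U χ hχ (x * y))⁻¹ : kˣ) : k) =
      (((chiBar U χ hχ x)⁻¹ : kˣ) : k) * (((chiBar U χ hχ y)⁻¹ : kˣ) : k) := by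
  rw [map_mul, mul_inv, Units.val_mul]

omit [Fintype (G ⧸ U)] in
theorem chiBar_mul_inv_cancel (x : G ⧸ U) :
    ((chiBar U χ hχ x : kˣ) : k) * (((chiBar U χ hχ x)⁻¹ : kˣ) : k) = 1 := by
  rw [← Units.val_mul, mul_inv_cancel, Units.val_one]

theorem rho_theta (g : G) :
    (Formal.perm k U).ρ g (theta U χ hχ) = (χ g : k) • theta U χ hχ := by
  unfold theta
  rw [map_sum, Finset.smul_sum]
  refine Fintype.sum_equiv (Equiv.mulLeft (g : G ⧸ U)) _ _ fun x => ?_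
  rw [map_smul, perm_ρ_basis, smul_eq_mul_quot, Equiv.coe_mulLeft, smul_smul, chiBar_inv_mul,
    ← mul_assoc, ← chiBar_mk U χ hχ g, chiBar_mul_inv_cancel, one_mul]

/-- the underlying linear map of `muToPerm` -/
def muToPermLin : (mu χ) →ₗ[k] (Formal.perm k U) :=
  LinearMap.toSpanSingleton k (Formal.perm k U) (theta U χ hχ)

/-- the inclusion `k(χ) ⟶ k[G/U]`, `1 ↦ ∑_x χ(x)⁻¹ [x]` -/
def muToPerm : mu χ ⟶ Formal.perm k U :=
  Rep.ofHom (ρ := (mu χ).ρ) (σ := (Formal.perm k U).ρ)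
    ((muToPermLin U χ hχ).intertwiningMap_of_isIntertwiningMap _ _ (fun g c => by
      rw [mu_ρ_apply]
      show ((χ g : k) * c) • theta U χ hχ = (Formal.perm k U).ρ g (c • theta U χ hχ)
      rw [map_smul, rho_theta, smul_smul, mul_comm]))

theorem muToPerm_apply (c : k) : (muToPerm U χ hχ).hom c = c • theta U χ hχ := rfl

/-- `ε(θ) = |G/U|` -/
theorem permToMu_theta :
    (permToMu (P := U) hχ).hom (theta U χ hχ) = ((Fintype.card (G ⧸ U) : ℕ) : k) := by
  unfold theta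
  rw [map_sum]
  have : ∀ x : G ⧸ U, (permToMu (P := U) hχ).hom
      ((((chiBar U χ hχ x)⁻¹ : kˣ) : k) • permBasis U x) = (1 : k) := by
    intro x
    induction x using QuotientGroup.induction_on with
    | H g =>
      rw [map_smul, permToMu_basis, chiBar_mk]
      show ((χ g)⁻¹ : kˣ) * ((χ g : kˣ) : k) = 1
      rw [← Units.val_mul, inv_mul_cancel, Units.val_one]
  rw [Finset.sum_congr rfl fun x _ => this x]
  simp

/-- `ι ≫ ε = |G/U| • 𝟙` -/
theorem muToPerm_permToMu :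
    muToPerm U χ hχ ≫ permToMu (P := U) hχ = ((Fintype.card (G ⧸ U) : ℕ) : k) • 𝟙 (mu χ) := by
  apply Rep.hom_ext
  apply Representation.IntertwiningMap.ext
  apply LinearMap.ext
  intro c
  show (permToMu (P := U) hχ).hom ((muToPerm U χ hχ).hom c) = ((Fintype.card (G ⧸ U) : ℕ) : k) • c
  rw [muToPerm_apply, map_smul, permToMu_theta, smul_eq_mul, smul_eq_mul, mul_comm]

/-- `ι ≫ R_{g0} = χ(g0) • ι` -/
theorem muToPerm_rmul (g0 : G) :
    muToPerm U χ hχ ≫ rmul U g0 = (χ g0 : k) • muToPerm U χ hχ := by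
  apply Rep.hom_ext
  apply Representation.IntertwiningMap.ext
  apply LinearMap.ext
  intro c
  show (rmul U g0).hom ((muToPerm U χ hχ).hom c) = (χ g0 : k) • (muToPerm U χ hχ).hom c
  rw [muToPerm_apply, map_smul, smul_comm]
  congr 1
  unfold theta
  rw [map_sum, Finset.smul_sum]
  refine Fintype.sum_equiv (Equiv.mulRight (g0 : G ⧸ U)) _ _ fun x => ?_
  rw [map_smul, rmul_basis, Equiv.coe_mulRight, smul_smul, chiBar_inv_mul, mul_comm _ (_ * _),
    mul_assoc, ← chiBar_mk U χ hχ g0, mul_comm _ ((chiBar U χ hχ g0 : kˣ) : k),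
    chiBar_mul_inv_cancel, mul_one]

theorem sum_smul_hom_apply {A B : Rep.{0, 0, 0} k G} {J : Type} (s : Finset J) (a : J → k)
    (R : J → (A ⟶ B)) (m : A) :
    (∑ j ∈ s, a j • R j).hom m = ∑ j ∈ s, a j • (R j).hom m := by
  classical
  induction s using Finset.induction_on with
  | empty => rfl
  | insert i s hi ih =>
    rw [Finset.sum_insert hi, Finset.sum_insert hi, ← ih]
    rfl

omit [Fintype (G ⧸ U)] in
theorem permToMu_basis' (x : G ⧸ U) :
    (permToMu (P := U) hχ).hom (permBasis U x) = ((chiBar U χ hχ x : kˣ) : k) := by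
  induction x using QuotientGroup.induction_on with
  | H g => rw [permToMu_basis, chiBar_mk]

/-- `∑_j χ(j)⁻¹ • R_j = ε ≫ ι` -/
theorem sum_rmul :
    ∑ j : G ⧸ U, (((chiBar U χ hχ j)⁻¹ : kˣ) : k) • rmul (k := k) U j.out =
      permToMu (P := U) hχ ≫ muToPerm U χ hχ := by
  apply Rep.hom_ext
  apply Representation.IntertwiningMap.ext
  apply (permBasis (k := k) U).ext
  intro x
  show (∑ j : G ⧸ U, (((chiBar U χ hχ j)⁻¹ : kˣ) : k) • rmul (k := k) U j.out).hom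
      (permBasis U x) = (muToPerm U χ hχ).hom ((permToMu (P := U) hχ).hom (permBasis U x))
  rw [sum_smul_hom_apply, permToMu_basis', muToPerm_apply]
  unfold theta
  rw [Finset.smul_sum]
  refine Fintype.sum_equiv (Equiv.mulLeft x) _ _ fun j => ?_
  rw [rmul_basis, QuotientGroup.out_eq', Equiv.coe_mulLeft, smul_smul, chiBar_inv_mul,
    ← mul_assoc, chiBar_mul_inv_cancel, one_mul]

end PermInst

/-! ### the final statements, in the literal shape of `BaseA.inv` -/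

section Final

variable {k : Type} [Field k] (X : Site) (χ : X.G →* kˣ) (U : Subgroup X.G)

/-- **(A-inv) from the permutation module, family form.**  `U ∈ 𝒰` with `χ` trivial on `U` and
`[G : U]` invertible in `k`; local functionals `Λ v` on `H²(Γ_v, k[G/U])`, all nonzero, with
`∑_v Λ v (res_v x) = 0` on `H²(G, k[G/U])`; cokernel of `loc₂` of dimension `≤ 1`; one place `v0`
with `dim H²(Γ_{v0}, k[G/U]) ≤ 1` and `H²(Γ_{v0}, k(χ)) ≠ 0`.  Then `BaseA.inv` holds. -/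
theorem baseA_inv_of_perm (hU : X.𝒰.mem U) (hχ : TrivOn χ U) (hcard : ((U.index : ℕ) : k) ≠ 0)
    (hfin : Module.Finite k
      (X.P2 (Formal.perm k U) ⧸ LinearMap.range (X.loc₂ (Formal.perm k U))))
    (hrank : finrank k
      (X.P2 (Formal.perm k U) ⧸ LinearMap.range (X.loc₂ (Formal.perm k U))) ≤ 1)
    (Λ : ∀ v : X.I, H2 (X.𝒱 v) (X.loc (Formal.perm k U) v) →ₗ[k] k)
    (hΛ : ∀ x : H2 X.𝒰 (Formal.perm k U), ∑ v, Λ v ((X.res (Formal.perm k U) v).h2 x) = 0)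
    (hns : ∀ v, Λ v ≠ 0) (v0 : X.I)
    (hfin0 : Module.Finite k (H2 (X.𝒱 v0) (X.loc (Formal.perm k U) v0)))
    (hrank0 : finrank k (H2 (X.𝒱 v0) (X.loc (Formal.perm k U) v0)) ≤ 1)
    (hA : ∃ y : H2 (X.𝒱 v0) (X.loc (mu χ) v0), y ≠ 0) :
    ∃ inv : ∀ v : X.I, H2 (X.𝒱 v) (X.loc (mu χ) v) →ₗ[k] k,
      (∀ v, inv v ≠ 0) ∧ ∀ x : H2 X.𝒰 (mu χ), ∑ v, inv v ((X.res (mu χ) v).h2 x) = 0 := by
  classical
  have : U.Normal := X.𝒰.normal hU
  have : U.FiniteIndex := X.𝒰.finiteIndex hU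
  have : Finite (X.G ⧸ U) := Subgroup.finite_quotient_of_finiteIndex
  have : Fintype (X.G ⧸ U) := Fintype.ofFinite _
  have hcard' : ((Fintype.card (X.G ⧸ U) : ℕ) : k) ≠ 0 := by
    rwa [← Nat.card_eq_fintype_card, ← Subgroup.index_eq_card]
  obtain ⟨y0, hy0⟩ := exists_y0 X (muToPerm U χ hχ) (permToMu (P := U) hχ) _ hcard'
    (muToPerm_permToMu U χ hχ) v0 (Λ v0) (hns v0) hfin0 hrank0 hA
  refine inv_of_family X (muToPerm U χ hχ) (permToMu (P := U) hχ)
    (fun j : X.G ⧸ U => rmul (k := k) U j.out)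
    (fun j => (((chiBar U χ hχ j)⁻¹ : kˣ) : k)) (fun j => ((χ j.out : kˣ) : k))
    (fun j => muToPerm_rmul U χ hχ j.out) (sum_rmul U χ hχ) ?_ hfin hrank Λ hΛ hns v0 y0 hy0
  have : ∀ j : X.G ⧸ U, (((chiBar U χ hχ j)⁻¹ : kˣ) : k) * ((χ j.out : kˣ) : k) = 1 := by
    intro j
    have h1 : χ j.out = chiBar U χ hχ j := by
      rw [← chiBar_mk U χ hχ j.out, QuotientGroup.out_eq']
    rw [h1, ← Units.val_mul, inv_mul_cancel, Units.val_one]
  rw [Finset.sum_congr rfl fun j _ => this j]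
  simpa using hcard'

/-- **(A-inv) from the permutation module, total-functional form**: the same with ONE functional
`Λtot` on `P²(k[G/U])` killing the image of `loc₂` and not vanishing on any single factor. -/
theorem baseA_inv_of_perm_tot (hU : X.𝒰.mem U) (hχ : TrivOn χ U)
    (hcard : ((U.index : ℕ) : k) ≠ 0)
    (hfin : Module.Finite k
      (X.P2 (Formal.perm k U) ⧸ LinearMap.range (X.loc₂ (Formal.perm k U))))
    (hrank : finrank k
      (X.P2 (Formal.perm k U) ⧸ LinearMap.range (X.loc₂ (Formal.perm k U))) ≤ 1)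
    (Λtot : X.P2 (Formal.perm k U) →ₗ[k] k)
    (hΛ : ∀ x : H2 X.𝒰 (Formal.perm k U), Λtot (X.loc₂ (Formal.perm k U) x) = 0)
    (hns : ∀ v : X.I, ∃ w : H2 (X.𝒱 v) (X.loc (Formal.perm k U) v),
      Λtot ((X.P2equiv (Formal.perm k U)).symm (Pi.single v w)) ≠ 0)
    (v0 : X.I)
    (hfin0 : Module.Finite k (H2 (X.𝒱 v0) (X.loc (Formal.perm k U) v0)))
    (hrank0 : finrank k (H2 (X.𝒱 v0) (X.loc (Formal.perm k U) v0)) ≤ 1)
    (hA : ∃ y : H2 (X.𝒱 v0) (X.loc (mu χ) v0), y ≠ 0) :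
    ∃ inv : ∀ v : X.I, H2 (X.𝒱 v) (X.loc (mu χ) v) →ₗ[k] k,
      (∀ v, inv v ≠ 0) ∧ ∀ x : H2 X.𝒰 (mu χ), ∑ v, inv v ((X.res (mu χ) v).h2 x) = 0 := by
  classical
  refine baseA_inv_of_perm X χ U hU hχ hcard hfin hrank
    (famOf (X.P2equiv (Formal.perm k U)) Λtot)
    (fun x => ?_) (fun v h0 => ?_) v0 hfin0 hrank0 hA
  · have h1 := sum_famOf (X.P2equiv (Formal.perm k U)) Λtot (X.loc₂ (Formal.perm k U) x)
    rw [hΛ x] at h1
    rw [← h1]
    exact Finset.sum_congr rfl fun v _ => by rw [Site.P2equiv_loc₂]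
  · obtain ⟨w, hw⟩ := hns v
    exact hw (LinearMap.congr_fun h0 w)

/-- **(A-inv) from the permutation module, functional-free form**: `coker loc₂` of dimension `≤ 1`
and NO SINGLE SUPPORT: for every place `v` some class `w ∈ H²(Γ_v, k[G/U])`, placed in the
`v`-th factor, is not in the image of `loc₂`. -/
theorem baseA_inv_of_perm_noSingleSupport (hU : X.𝒰.mem U) (hχ : TrivOn χ U)
    (hcard : ((U.index : ℕ) : k) ≠ 0)
    (hfin : Module.Finite k
      (X.P2 (Formal.perm k U) ⧸ LinearMap.range (X.loc₂ (Formal.perm k U))))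
    (hrank : finrank k
      (X.P2 (Formal.perm k U) ⧸ LinearMap.range (X.loc₂ (Formal.perm k U))) ≤ 1)
    (hns : ∀ v : X.I, ∃ w : H2 (X.𝒱 v) (X.loc (Formal.perm k U) v),
      (X.P2equiv (Formal.perm k U)).symm (Pi.single v w) ∉
        LinearMap.range (X.loc₂ (Formal.perm k U)))
    (v0 : X.I)
    (hfin0 : Module.Finite k (H2 (X.𝒱 v0) (X.loc (Formal.perm k U) v0)))
    (hrank0 : finrank k (H2 (X.𝒱 v0) (X.loc (Formal.perm k U) v0)) ≤ 1)
    (hA : ∃ y : H2 (X.𝒱 v0) (X.loc (mu χ) v0), y ≠ 0) :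
    ∃ inv : ∀ v : X.I, H2 (X.𝒱 v) (X.loc (mu χ) v) →ₗ[k] k,
      (∀ v, inv v ≠ 0) ∧ ∀ x : H2 X.𝒰 (mu χ), ∑ v, inv v ((X.res (mu χ) v).h2 x) = 0 := by
  classical
  obtain ⟨w0, hw0⟩ := hns v0
  obtain ⟨Λtot, hΛtot⟩ := exists_tot_of_not_mem
    (LinearMap.range (X.loc₂ (Formal.perm k U))) hrank _ hw0
  refine baseA_inv_of_perm_tot X χ U hU hχ hcard hfin hrank Λtot
    (fun x => (hΛtot _).mpr ⟨x, rfl⟩) (fun v => ?_) v0 hfin0 hrank0 hA
  obtain ⟨w, hw⟩ := hns v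
  exact ⟨w, fun h => hw ((hΛtot _).mp h)⟩

end Final

end

end Fermat.Agent.S55.Middle.InvDescent
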