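/-
S55 / Middle / MuSummand (helper41): `k(χ)` is a direct summand of `k[G/P]` when `χ` is trivial on
`P` and `[G : P]` is invertible in `k`.

* `chiInv hχ : G ⧸ P → k`, `gP ↦ χ(g)⁻¹`.
* `muToPerm hχ : mu χ ⟶ perm k P`, `c ↦ c • Σ_x χ(x)⁻¹ [x]`, with
  `muToPerm ≫ permToMu = card (G ⧸ P) • 𝟙`.
* `exists_section` : a section of `PermMu.permToMu` when the index is invertible.
* arithmetic instance: `cycloChar_surjective`, `index_ker_cycloChar`, `exists_section_cyclo`.
-/
import Fermat.Agent.S55.Formal.PermMu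
import Fermat.Agent.S55.Middle.CycloTotRam

set_option autoImplicit false

open CategoryTheory Module

namespace Fermat.Agent.S55.Middle.MuSummand

open Fermat.Agent.S55.Formal Fermat.Agent.S55.Formal.PermBasis Fermat.Agent.S55.Formal.PermMu

noncomputable section

variable {k : Type} [Field k] {G : Type} [Group G] {χ : G →* kˣ} {P : Subgroup G}

/-- the coset function `gP ↦ χ(g)⁻¹` -/
def chiInv (hχ : TrivOn χ P) : G ⧸ P → k :=
  Quotient.lift (fun g : G => (((χ g)⁻¹ : kˣ) : k)) (fun a b h => by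
    have h' : a⁻¹ * b ∈ P := QuotientGroup.leftRel_apply.1 h
    have h1 := hχ _ h'
    rw [map_mul, map_inv] at h1
    have hab : χ a = χ b := by
      rw [inv_mul_eq_one] at h1
      exact h1
    show (((χ a)⁻¹ : kˣ) : k) = (((χ b)⁻¹ : kˣ) : k)
    rw [hab])

@[simp] lemma chiInv_mk (hχ : TrivOn χ P) (g : G) :
    chiInv hχ (g : G ⧸ P) = (((χ g)⁻¹ : kˣ) : k) := rfl

lemma chiInv_smul (hχ : TrivOn χ P) (h : G) (x : G ⧸ P) :
    chiInv hχ (h • x) = (((χ h)⁻¹ : kˣ) : k) * chiInv hχ x := by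
  induction x using QuotientGroup.induction_on with
  | H g =>
    change chiInv hχ ((h * g : G) : G ⧸ P) = _
    rw [chiInv_mk, chiInv_mk, map_mul, mul_inv_rev, mul_comm, Units.val_mul]

lemma chiInv_mul_chi (hχ : TrivOn χ P) (g : G) : chiInv hχ (g : G ⧸ P) * (χ g : k) = 1 := by
  rw [chiInv_mk, ← Units.val_mul, inv_mul_cancel, Units.val_one]

variable [Fintype (G ⧸ P)]

/-- the `χ`-eigenvector `Σ_x χ(x)⁻¹ [x]` of `k[G/P]` -/
def vec (hχ : TrivOn χ P) : Formal.perm k P := ∑ x : G ⧸ P, chiInv hχ x • permBasis P x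

lemma ρ_vec (hχ : TrivOn χ P) (h : G) :
    (Formal.perm k P).ρ h (vec hχ) = (χ h : k) • vec hχ := by
  unfold vec
  have h1 : ∀ x : G ⧸ P, (Formal.perm k P).ρ h (chiInv hχ x • permBasis P x) =
      chiInv hχ x • permBasis P (h • x) := by
    intro x
    rw [map_smul, perm_ρ_basis]
  rw [map_sum, Finset.sum_congr rfl (fun x _ => h1 x), Finset.smul_sum]
  -- reindex by `y = h • x`
  rw [← Equiv.sum_comp (MulAction.toPerm h : G ⧸ P ≃ G ⧸ P)
    (fun y => (χ h : k) • chiInv hχ y • permBasis (k := k) P y)]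
  refine Finset.sum_congr rfl fun x _ => ?_
  rw [MulAction.toPerm_apply, chiInv_smul, smul_smul, ← mul_assoc, ← Units.val_mul,
    mul_inv_cancel, Units.val_one, one_mul]

/-- the underlying linear map of `muToPerm` -/
def muToPermLin (hχ : TrivOn χ P) : (mu χ).V →ₗ[k] (Formal.perm k P).V :=
  LinearMap.toSpanSingleton k (Formal.perm k P).V (vec hχ)

lemma muToPermLin_apply (hχ : TrivOn χ P) (c : k) : muToPermLin hχ c = c • vec hχ := rfl

lemma muToPermLin_equivariant (hχ : TrivOn χ P) (g : G) (c : mu χ) :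
    muToPermLin hχ ((mu χ).ρ g c) = (Formal.perm k P).ρ g (muToPermLin hχ c) := by
  rw [mu_ρ_apply]
  rw [muToPermLin_apply, muToPermLin_apply, map_smul, ρ_vec, smul_smul, mul_comm]

/-- the morphism `k(χ) ⟶ k[G/P]`, `c ↦ c • Σ_x χ(x)⁻¹ [x]` -/
def muToPerm (hχ : TrivOn χ P) : mu χ ⟶ Formal.perm k P :=
  Rep.ofHom (ρ := (mu χ).ρ) (σ := (Formal.perm k P).ρ)
    ((muToPermLin hχ).intertwiningMap_of_isIntertwiningMap _ _ (muToPermLin_equivariant hχ))

lemma muToPerm_hom_apply (hχ : TrivOn χ P) (c : k) : (muToPerm hχ).hom c = c • vec hχ := rfl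

lemma permToMu_vec (hχ : TrivOn χ P) :
    (permToMu hχ).hom (vec hχ) = (Fintype.card (G ⧸ P) : k) := by
  unfold vec
  rw [map_sum]
  have : ∀ x : G ⧸ P, (permToMu hχ).hom (chiInv hχ x • permBasis P x) = (1 : k) := by
    intro x
    induction x using QuotientGroup.induction_on with
    | H g =>
      rw [map_smul, permToMu_basis]
      exact chiInv_mul_chi hχ g
  rw [Finset.sum_congr rfl (fun x _ => this x)]
  simp

lemma permToMu_muToPerm_apply (hχ : TrivOn χ P) (c : k) :
    (permToMu hχ).hom ((muToPerm hχ).hom c) = (Fintype.card (G ⧸ P) : k) * c := by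
  rw [muToPerm_hom_apply, map_smul, permToMu_vec, mul_comm]
  rfl

/-- the section of `permToMu` when the index is invertible -/
def sec (hχ : TrivOn χ P) : mu χ ⟶ Formal.perm k P :=
  ((Fintype.card (G ⧸ P) : k)⁻¹) • muToPerm hχ

theorem sec_permToMu (hχ : TrivOn χ P) (hn : (Fintype.card (G ⧸ P) : k) ≠ 0) :
    sec hχ ≫ permToMu hχ = 𝟙 (mu χ) := by
  apply Rep.hom_ext
  apply Representation.IntertwiningMap.ext
  refine LinearMap.ext fun c => ?_
  change (permToMu hχ).hom (((Fintype.card (G ⧸ P) : k)⁻¹) • (muToPerm hχ).hom c) = c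
  rw [map_smul, permToMu_muToPerm_apply]
  change ((Fintype.card (G ⧸ P) : k)⁻¹) * ((Fintype.card (G ⧸ P) : k) * c) = c
  rw [← mul_assoc, inv_mul_cancel₀ hn, one_mul]

end

/-- **`k(χ)` is a direct summand of `k[G/P]`** for `P ≤ ker χ` of finite index invertible in `k`. -/
theorem exists_section {k : Type} [Field k] {G : Type} [Group G] {χ : G →* kˣ} {P : Subgroup G}
    (hχ : TrivOn χ P) [P.FiniteIndex] (hn : (P.index : k) ≠ 0) :
    ∃ i : mu χ ⟶ Formal.perm k P, i ≫ permToMu hχ = 𝟙 (mu χ) := by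
  haveI : Fintype (G ⧸ P) := Fintype.ofFinite _
  refine ⟨sec hχ, sec_permToMu hχ ?_⟩
  have : Fintype.card (G ⧸ P) = P.index := by
    rw [Subgroup.index, Nat.card_eq_fintype_card]
  rw [this]
  exact hn

/-! ### the arithmetic instance -/

section Cyclo

open ExtCitation

variable (p : ℕ) [Fact p.Prime]

theorem cycloChar_surjective : Function.Surjective (cycloChar p) := by
  intro a
  obtain ⟨t, ht⟩ := CycloTotRam.cycloChar_local_surjective p a
  exact ⟨_, ht⟩

theorem index_ker_cycloChar : (cycloChar p).ker.index = p - 1 := by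
  haveI : NeZero p := ⟨(Fact.out : p.Prime).ne_zero⟩
  have hp : p.Prime := Fact.out
  rw [Subgroup.index_ker, MonoidHom.range_eq_top.2 (cycloChar_surjective p),
    Nat.card_congr (Subgroup.topEquiv (G := (ZMod p)ˣ)).toEquiv, Nat.card_eq_fintype_card,
    ZMod.card_units_eq_totient, Nat.totient_prime hp]

instance finiteIndex_ker_cycloChar : (cycloChar p).ker.FiniteIndex := by
  refine ⟨?_⟩
  rw [index_ker_cycloChar]
  have hp : p.Prime := Fact.out
  exact (Nat.sub_pos_of_lt hp.one_lt).ne'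

theorem trivOn_ker_cycloChar : TrivOn (cycloChar p) (cycloChar p).ker := fun _ hs => hs

/-- `𝔽_p(χ_p)` is a direct summand of `𝔽_p[G_ℚ / ker χ_p]`. -/
theorem exists_section_cyclo :
    ∃ i : mu (cycloChar p) ⟶ Formal.perm (ZMod p) (cycloChar p).ker,
      i ≫ permToMu (trivOn_ker_cycloChar p) = 𝟙 (mu (cycloChar p)) := by
  have hp : p.Prime := Fact.out
  refine exists_section (trivOn_ker_cycloChar p) ?_
  rw [index_ker_cycloChar]
  intro h
  rw [Nat.cast_sub hp.one_lt.le, Nat.cast_one, ZMod.natCast_self, zero_sub, neg_eq_zero] at h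
  exact one_ne_zero h

end Cyclo

end Fermat.Agent.S55.Middle.MuSummand
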