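/-
S55 / Middle / PermResTransitive (helper41): restriction of a permutation module `k[G/U]` along
`ι : Γ →* G` when `ι(Γ)` is transitive on `G/U`.

* `cosetMap ι U : Γ ⧸ U.comap ι → G ⧸ U`, equivariant, injective; bijective under transitivity
  (`cosetEquiv`).
* `permOnResIso`, `permResIso : Rep.res ι (perm k U) ≅ perm k (U.comap ι)` (the official `perm` of
  `Formal/Blocks`).
* `h1ResEquiv`, `h2ResEquiv` and the `finrank` transfer `finite_finrank_H2_res_perm`.
* arithmetic instance at `p` (from `CycloTotRam`): `permResIso_cyclo`,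
  `finite_finrank_H2_res_perm_cyclo`.
-/
import Fermat.Agent.S55.Formal.Blocks
import Fermat.Agent.S55.Formal.Perm
import Fermat.Agent.S55.Formal.PermSelfDualLC
import Fermat.Agent.S55.Middle.CycloTotRam

set_option autoImplicit false

open CategoryTheory Module

namespace Fermat.Agent.S55.Middle.PermResTransitive

open Fermat.Agent.S55.Formal

noncomputable section

variable {k : Type} {G Γ : Type} [Group G] [Group Γ] (ι : Γ →* G) (U : Subgroup G)

/-- the map on cosets `Γ/ι⁻¹U → G/U` -/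
def cosetMap : Γ ⧸ U.comap ι → G ⧸ U :=
  Quotient.map' ι (fun a b h => by
    rw [QuotientGroup.leftRel_apply] at h ⊢
    rw [Subgroup.mem_comap, map_mul, map_inv] at h
    exact h)

@[simp] lemma cosetMap_mk (t : Γ) : cosetMap ι U (t : Γ ⧸ U.comap ι) = ((ι t : G) : G ⧸ U) := rfl

lemma cosetMap_smul (t : Γ) (x : Γ ⧸ U.comap ι) :
    cosetMap ι U (t • x) = ι t • cosetMap ι U x := by
  induction x using QuotientGroup.induction_on with
  | H s =>
    change cosetMap ι U ((t * s : Γ) : Γ ⧸ U.comap ι) = ι t • ((ι s : G) : G ⧸ U)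
    rw [cosetMap_mk, map_mul]
    rfl

lemma cosetMap_injective : Function.Injective (cosetMap ι U) := by
  intro x y
  induction x using QuotientGroup.induction_on with
  | H s =>
    induction y using QuotientGroup.induction_on with
    | H t =>
      intro h
      rw [cosetMap_mk, cosetMap_mk, QuotientGroup.eq] at h
      rw [QuotientGroup.eq, Subgroup.mem_comap, map_mul, map_inv]
      exact h

lemma cosetMap_surjective (htr : ∀ g : G, ∃ t : Γ, g⁻¹ * ι t ∈ U) :
    Function.Surjective (cosetMap ι U) := by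
  intro y
  induction y using QuotientGroup.induction_on with
  | H g =>
    obtain ⟨t, ht⟩ := htr g
    refine ⟨(t : Γ ⧸ U.comap ι), ?_⟩
    rw [cosetMap_mk, eq_comm, QuotientGroup.eq]
    exact ht

/-- under transitivity, `Γ/ι⁻¹U ≃ G/U` -/
def cosetEquiv (htr : ∀ g : G, ∃ t : Γ, g⁻¹ * ι t ∈ U) : Γ ⧸ U.comap ι ≃ G ⧸ U :=
  Equiv.ofBijective (cosetMap ι U) ⟨cosetMap_injective ι U, cosetMap_surjective ι U htr⟩

@[simp] lemma cosetEquiv_apply (htr : ∀ g : G, ∃ t : Γ, g⁻¹ * ι t ∈ U) (x : Γ ⧸ U.comap ι) :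
    cosetEquiv ι U htr x = cosetMap ι U x := rfl

section CommRing

variable [CommRing k]

/-- the isomorphism in the `Finsupp` model of `Formal/Perm` -/
def permOnResIso (htr : ∀ g : G, ∃ t : Γ, g⁻¹ * ι t ∈ U) :
    Perm.permOn k (Γ ⧸ U.comap ι) ≅ Rep.res ι (Perm.permOn k (G ⧸ U)) :=
  Rep.mkIso (Representation.Equiv.mk (Finsupp.domLCongr (cosetEquiv ι U htr)) (fun t => by
    apply Finsupp.lhom_ext
    intro x c
    simp only [LinearMap.comp_apply, LinearEquiv.coe_coe]
    change Finsupp.domLCongr (cosetEquiv ι U htr) (Perm.permRho k _ t (Finsupp.single x c)) =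
      Perm.permRho k _ (ι t) (Finsupp.domLCongr (cosetEquiv ι U htr) (Finsupp.single x c))
    rw [Perm.permRho_single, Finsupp.domLCongr_single, Finsupp.domLCongr_single,
      Perm.permRho_single, cosetEquiv_apply, cosetEquiv_apply, cosetMap_smul]))

end CommRing

section Field

variable [Field k]

/-- **Restriction of `k[G/U]` along a transitive `ι`** (official `perm`). -/
def permResIso (htr : ∀ g : G, ∃ t : Γ, g⁻¹ * ι t ∈ U) :
    Rep.res ι (perm k U) ≅ perm k (U.comap ι) :=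
  ((Rep.resFunctor ι).mapIso (Perm.permOnIsoOfMulAction (k := k) (G := G) (G ⧸ U))).symm ≪≫
    (permOnResIso (k := k) ι U htr).symm ≪≫
      Perm.permOnIsoOfMulAction (k := k) (G := Γ) (Γ ⧸ U.comap ι)

variable (𝒱 : NBasis Γ)

/-- `H¹` of the restriction -/
def h1ResEquiv (htr : ∀ g : G, ∃ t : Γ, g⁻¹ * ι t ∈ U) :
    H1 𝒱 (Rep.res ι (perm k U)) ≃ₗ[k] H1 𝒱 (perm k (U.comap ι)) :=
  PermSelfDualLC.h1Equiv 𝒱 (permResIso ι U htr)

/-- `H²` of the restriction -/
def h2ResEquiv (htr : ∀ g : G, ∃ t : Γ, g⁻¹ * ι t ∈ U) :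
    H2 𝒱 (Rep.res ι (perm k U)) ≃ₗ[k] H2 𝒱 (perm k (U.comap ι)) :=
  PermSelfDualLC.h2Equiv 𝒱 (permResIso ι U htr)

/-- transfer of `loc₂`-type bounds to the restriction -/
theorem finite_finrank_H2_res_perm (htr : ∀ g : G, ∃ t : Γ, g⁻¹ * ι t ∈ U) (n : ℕ)
    (h : Module.Finite k (H2 𝒱 (perm k (U.comap ι))) ∧
      finrank k (H2 𝒱 (perm k (U.comap ι))) ≤ n) :
    Module.Finite k (H2 𝒱 (Rep.res ι (perm k U))) ∧
      finrank k (H2 𝒱 (Rep.res ι (perm k U))) ≤ n := by
  obtain ⟨h1, h2⟩ := h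
  refine ⟨Module.Finite.equiv (h2ResEquiv ι U 𝒱 htr).symm, ?_⟩
  rw [(h2ResEquiv ι U 𝒱 htr).finrank_eq]
  exact h2

/-- transfer of finiteness of `H¹` to the restriction -/
theorem finite_H1_res_perm (htr : ∀ g : G, ∃ t : Γ, g⁻¹ * ι t ∈ U)
    (h : Module.Finite k (H1 𝒱 (perm k (U.comap ι)))) :
    Module.Finite k (H1 𝒱 (Rep.res ι (perm k U))) :=
  Module.Finite.equiv (h1ResEquiv ι U 𝒱 htr).symm

end Field

/-! ### the arithmetic instance: the place `p` and `U = ker χ_p` -/

section Cyclo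

open ExtCitation

variable (p : ℕ) [Fact p.Prime]

/-- `Res_{Γ_p} k[G_ℚ/ker χ_p] ≅ k[Γ_p/(ker χ_p ∩ Γ_p)]` : `p` is totally ramified in `ℚ(μ_p)`. -/
def permResIso_cyclo (k : Type) [Field k] :
    Rep.res (primeLocalToGlobal (pPrime p)) (perm k (cycloChar p).ker) ≅
      perm k ((cycloChar p).ker.comap (primeLocalToGlobal (pPrime p))) :=
  permResIso _ _ (CycloTotRam.exists_local_mul_mem_ker p)

/-- the `loc₂` bound at `p` for the restriction of `k[G_ℚ/ker χ_p]` -/
theorem finite_finrank_H2_res_perm_cyclo (k : Type) [Field k]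
    (𝒱 : NBasis (primeLocalGaloisGroup (pPrime p))) (n : ℕ)
    (h : Module.Finite k (H2 𝒱 (perm k ((cycloChar p).ker.comap (primeLocalToGlobal (pPrime p))))) ∧
      finrank k (H2 𝒱 (perm k ((cycloChar p).ker.comap (primeLocalToGlobal (pPrime p))))) ≤ n) :
    Module.Finite k (H2 𝒱 (Rep.res (primeLocalToGlobal (pPrime p)) (perm k (cycloChar p).ker))) ∧
      finrank k (H2 𝒱 (Rep.res (primeLocalToGlobal (pPrime p)) (perm k (cycloChar p).ker))) ≤ n :=
  finite_finrank_H2_res_perm _ _ 𝒱 (CycloTotRam.exists_local_mul_mem_ker p) n h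

end Cyclo

end

end Fermat.Agent.S55.Middle.PermResTransitive
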