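/-
S55 / Middle / InvArithInputs (helper41): the inputs of `InvDescent.baseA_inv_of_perm_noSingleSupport`
at `X = arithSite S`, `k = 𝔽_p`, `χ = χ_p`, `U0 = ker χ_p`, `v0 = p`, UNCONDITIONALLY, and the resulting
reduction of the field `inv` of `BaseA` / `ULevel` to the two perm-level statements for `U0`:
`g₃` (codimension `≤ 1`) and "no single support" in containment form.

* `fixingSubgroup_cycloField` : `Gal(ℚ̄/ℚ(μ_p)) = ker χ_p`;
* `mem_globalBasis_ker` : `ker χ_p ∈ globalBasis S` (`p ∈ S`);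
* `mem_localBasis_comap_ker` : `ker χ_p ∩ Γ_q ∈ localBasis`;
* `index_ne_zero` : `[G_ℚ : ker χ_p] = p - 1 ≠ 0` in `𝔽_p`;
* `loc_perm_p` : `dim H²(Γ_p, 𝔽_p[G_ℚ/ker χ_p]) ≤ 1` (total ramification + LM);
* `inv_arith` : literal `BaseA.inv` for `(arithSite S, 𝔽_p, χ_p)` from `g₃` and `hns` for `U0`.
-/
import Fermat.Agent.S55.Middle.InvDescent
import Fermat.Agent.S55.Middle.MuSummand
import Fermat.Agent.S55.Middle.PermResTransitive
import Fermat.Agent.S55.LM.H2MuTwist
import Fermat.Agent.S55.Formal.ArithChi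

set_option autoImplicit false

open CategoryTheory ExtCitation Module

namespace Fermat.Agent.S55.Middle.InvArithInputs

open Fermat.Agent.S55.Formal Fermat.Agent.S55.Formal.PreludeLC Fermat.Agent.S55.Formal.ArithSite
open Fermat.Agent.S55.GaloisLevelCyclo Fermat.Agent.S55.GaloisLevel
open Fermat.Agent.S55.LM.Defs

variable (p : ℕ) [Fact p.Prime]

/-- `Gal(ℚ̄/ℚ(μ_p)) = ker χ_p`. -/
theorem fixingSubgroup_cycloField : (cycloField p).fixingSubgroup = (cycloChar p).ker := by
  ext σ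
  rw [mem_fixingSubgroup_cycloField_iff, MonoidHom.mem_ker]

theorem normal_fixingSubgroup_cycloField : (cycloField p).fixingSubgroup.Normal := by
  rw [fixingSubgroup_cycloField]
  infer_instance

variable {p} in
/-- `ker χ_p` belongs to the basis of the arithmetic site (`p ∈ S`). -/
theorem mem_globalBasis_ker {S : Finset Nat.Primes} (hpS : pPrime p ∈ S) :
    (arithSite S).𝒰.mem (cycloChar p).ker :=
  ⟨cycloField p, cycloField_isUnramifiedOutside (p := p) hpS, normal_fixingSubgroup_cycloField p,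
    (fixingSubgroup_cycloField p).symm⟩

/-- `ker χ_p ∩ Γ_q` belongs to the local basis. -/
theorem mem_localBasis_comap_ker (q : Nat.Primes) :
    (Vq q).mem ((cycloChar p).ker.comap (primeLocalToGlobal q)) :=
  ⟨cycloField p, finiteDimensional_cycloField p, normal_fixingSubgroup_cycloField p, by
    rw [fixingSubgroup_cycloField]⟩

theorem trivOn_comap_ker (q : Nat.Primes) :
    TrivOn ((cycloChar p).comp (primeLocalToGlobal q))
      ((cycloChar p).ker.comap (primeLocalToGlobal q)) :=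
  fun _ hs => hs

/-- `[G_ℚ : ker χ_p] = p - 1` is invertible in `𝔽_p`. -/
theorem index_ne_zero : (((cycloChar p).ker.index : ℕ) : ZMod p) ≠ 0 := by
  have hp : p.Prime := Fact.out
  rw [MuSummand.index_ker_cycloChar]
  intro h
  rw [Nat.cast_sub hp.one_lt.le, Nat.cast_one, ZMod.natCast_self, zero_sub, neg_eq_zero] at h
  exact one_ne_zero h

variable {p}

/-- `dim H²(Γ_p, 𝔽_p[G_ℚ/ker χ_p]) ≤ 1`. -/
theorem loc_perm_p {S : Finset Nat.Primes} (hpS : pPrime p ∈ S) :
    Module.Finite (ZMod p) (H2 ((arithSite S).𝒱 ⟨pPrime p, hpS⟩)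
        ((arithSite S).loc (perm (ZMod p) (cycloChar p).ker) ⟨pPrime p, hpS⟩)) ∧
      finrank (ZMod p) (H2 ((arithSite S).𝒱 ⟨pPrime p, hpS⟩)
        ((arithSite S).loc (perm (ZMod p) (cycloChar p).ker) ⟨pPrime p, hpS⟩)) ≤ 1 :=
  PermResTransitive.finite_finrank_H2_res_perm_cyclo p (ZMod p) (Vq (pPrime p)) 1
    (LM.OutFinal.loc₂_arith p S ⟨pPrime p, hpS⟩ _ (mem_localBasis_comap_ker p (pPrime p))
      (trivOn_comap_ker p (pPrime p)))

/-- **`BaseA.inv` for the arithmetic site**, reduced to the two perm-level statements for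
`U0 = ker χ_p`: `g₃` and "no single support" (containment form of `InvDescent`). -/
theorem inv_arith {S : Finset Nat.Primes} (hpS : pPrime p ∈ S)
    (hfin : Module.Finite (ZMod p)
      ((arithSite S).P2 (perm (ZMod p) (cycloChar p).ker) ⧸
        LinearMap.range ((arithSite S).loc₂ (perm (ZMod p) (cycloChar p).ker))))
    (hrank : finrank (ZMod p)
      ((arithSite S).P2 (perm (ZMod p) (cycloChar p).ker) ⧸
        LinearMap.range ((arithSite S).loc₂ (perm (ZMod p) (cycloChar p).ker))) ≤ 1)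
    (hns : ∀ v : (arithSite S).I,
      ∃ w : H2 ((arithSite S).𝒱 v) ((arithSite S).loc (perm (ZMod p) (cycloChar p).ker) v),
        ((arithSite S).P2equiv (perm (ZMod p) (cycloChar p).ker)).symm (Pi.single v w) ∉
          LinearMap.range ((arithSite S).loc₂ (perm (ZMod p) (cycloChar p).ker))) :
    ∃ inv : ∀ v : (arithSite S).I,
        H2 ((arithSite S).𝒱 v) ((arithSite S).loc (mu (cycloChar p)) v) →ₗ[ZMod p] ZMod p,
      (∀ v, inv v ≠ 0) ∧ ∀ x : H2 (arithSite S).𝒰 (mu (cycloChar p)),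
        ∑ v, inv v (((arithSite S).res (mu (cycloChar p)) v).h2 x) = 0 :=
  InvDescent.baseA_inv_of_perm_noSingleSupport (arithSite S) (cycloChar p) (cycloChar p).ker
    (mem_globalBasis_ker hpS) (MuSummand.trivOn_ker_cycloChar p) (index_ne_zero p) hfin hrank hns
    ⟨pPrime p, hpS⟩ (loc_perm_p hpS).1 (loc_perm_p hpS).2
    (LM.H2MuTwist.h2_mu_ne_zero_arith S p ⟨pPrime p, hpS⟩)

/-- the same from the literal field `g₃` of `BaseA`/`OutSkeleton.g₃_of`. -/
theorem inv_arith_of_g₃ {S : Finset Nat.Primes} (hpS : pPrime p ∈ S)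
    (hg₃ : ∀ U, (arithSite S).𝒰.mem U → TrivOn (cycloChar p) U →
      Module.Finite (ZMod p) ((arithSite S).P2 (perm (ZMod p) U) ⧸
        LinearMap.range ((arithSite S).loc₂ (perm (ZMod p) U))) ∧
      finrank (ZMod p) ((arithSite S).P2 (perm (ZMod p) U) ⧸
        LinearMap.range ((arithSite S).loc₂ (perm (ZMod p) U))) ≤ 1)
    (hns : ∀ v : (arithSite S).I,
      ∃ w : H2 ((arithSite S).𝒱 v) ((arithSite S).loc (perm (ZMod p) (cycloChar p).ker) v),
        ((arithSite S).P2equiv (perm (ZMod p) (cycloChar p).ker)).symm (Pi.single v w) ∉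
          LinearMap.range ((arithSite S).loc₂ (perm (ZMod p) (cycloChar p).ker))) :
    ∃ inv : ∀ v : (arithSite S).I,
        H2 ((arithSite S).𝒱 v) ((arithSite S).loc (mu (cycloChar p)) v) →ₗ[ZMod p] ZMod p,
      (∀ v, inv v ≠ 0) ∧ ∀ x : H2 (arithSite S).𝒰 (mu (cycloChar p)),
        ∑ v, inv v (((arithSite S).res (mu (cycloChar p)) v).h2 x) = 0 :=
  inv_arith hpS
    (hg₃ _ (mem_globalBasis_ker hpS) (MuSummand.trivOn_ker_cycloChar p)).1
    (hg₃ _ (mem_globalBasis_ker hpS) (MuSummand.trivOn_ker_cycloChar p)).2 hns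

end Fermat.Agent.S55.Middle.InvArithInputs
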