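/-
S55 / Middle / M.out (helper51): the GENERIC SITE-LEVEL SHAPIRO + MACKEY TRANSFER.

`X : Site`, `V ≤ X.G` open, `R : Reps X V` finite sets `T_v ∋ 1` of representatives of the double cosets
`V \ G / ι_v(Γ_v)`.  The COVERING SITE `cover X R` has global group `V` (basis `subBasis X.𝒰 V`), places
`Σ v, T_v`, local groups `D_{v,t} = conjSub (X.ι v) V t` (bases `subBasis (X.𝒱 v) D_{v,t}`) and
localisation maps `κ_t = conjHom (X.ι v) V t`.  (For `X = arithSite S` this is the `K`-site of the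
Middle plan: places of `K = ℚ̄^V` above `S`.)

* `Ladder X M Y N` : linear equivalences `H^i(X; M) ≃ H^i(Y; N)`, `P^i(X; M) ≃ P^i(Y; N)` (`i = 1, 2`)
  commuting with the localisation maps.  Consequences: `Ш¹`, `Ш²`, `coker loc₁`, `coker loc₂` are
  identified, and (field coefficients) `H²_c` has the same rank / finiteness / `finrank`.
* `Ladder.ofIso`    : an isomorphism of coefficient modules gives a ladder (same site).
* `Ladder.shapiro`  : `X` with coefficients `Coind_V^G A`  ~  `cover X R` with coefficients `A`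
  (Shapiro `sh` globally, Mackey + Shapiro `mackSh` locally; the squares are
  `MackeyLC.locSh_h_i` + `MackeyProd.locSh_eq_h_i`).
* `Ladder.perm`     : `X` with coefficients `k[G/V]`  ~  `cover X R` with trivial coefficients `k`.
* the `BaseA`-shaped corollaries `g₃_perm_of_over`, `g₂_perm_of_over`.
-/
import Fermat.Agent.S55.Formal.HmidPi
import Fermat.Agent.S55.Bridge.MackeyProd
import Fermat.Agent.S55.LM.ShapiroPerm

set_option autoImplicit false
set_option linter.unusedSectionVars false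

open CategoryTheory groupCohomology Module

namespace Fermat.Agent.S55.Middle.SiteOver

open Fermat.Agent.S55.Formal Fermat.Agent.S55.Bridge.ShapiroLC
  Fermat.Agent.S55.Bridge.Mackey Fermat.Agent.S55.Bridge.MackeyLC
  Fermat.Agent.S55.Bridge.MackeyProd

/-! ### plain linear algebra of a commutative square with invertible verticals -/

section Abstract

variable {k : Type} [CommRing k] {H P H' P' : Type} [AddCommGroup H] [Module k H]
  [AddCommGroup P] [Module k P] [AddCommGroup H'] [Module k H'] [AddCommGroup P'] [Module k P']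
  (l : H →ₗ[k] P) (l' : H' →ₗ[k] P') (a : H ≃ₗ[k] H') (b : P ≃ₗ[k] P')
  (sq : ∀ x, b (l x) = l' (a x))

include sq in
theorem map_ker_eq : (LinearMap.ker l).map (a : H →ₗ[k] H') = LinearMap.ker l' := by
  ext y
  constructor
  · rintro ⟨x, hx, rfl⟩
    have hx' : l x = 0 := LinearMap.mem_ker.1 hx
    rw [LinearMap.mem_ker]
    change l' (a x) = 0
    rw [← sq, hx', map_zero]
  · intro hy
    rw [LinearMap.mem_ker] at hy
    refine ⟨a.symm y, ?_, a.apply_symm_apply y⟩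
    change a.symm y ∈ LinearMap.ker l
    rw [LinearMap.mem_ker]
    apply b.injective
    rw [sq, a.apply_symm_apply, hy, map_zero]

include sq in
theorem map_range_eq : (LinearMap.range l).map (b : P →ₗ[k] P') = LinearMap.range l' := by
  ext y
  constructor
  · rintro ⟨_, ⟨x, rfl⟩, rfl⟩
    exact ⟨a x, (sq x).symm⟩
  · rintro ⟨x', rfl⟩
    refine ⟨l (a.symm x'), ⟨a.symm x', rfl⟩, ?_⟩
    change b (l (a.symm x')) = l' x'
    rw [sq, a.apply_symm_apply]

/-- the kernels of the two horizontal maps are identified -/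
noncomputable def kerEquiv : ↥(LinearMap.ker l) ≃ₗ[k] ↥(LinearMap.ker l') :=
  LinearEquiv.ofSubmodules a _ _ (map_ker_eq l l' a b sq)

@[simp] theorem kerEquiv_coe (x : ↥(LinearMap.ker l)) :
    ((kerEquiv l l' a b sq x : ↥(LinearMap.ker l')) : H') = a x := rfl

/-- the cokernels of the two horizontal maps are identified -/
noncomputable def cokerEquiv : (P ⧸ LinearMap.range l) ≃ₗ[k] (P' ⧸ LinearMap.range l') :=
  Submodule.Quotient.equiv _ _ b (map_range_eq l l' a b sq)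

@[simp] theorem cokerEquiv_mk (y : P) :
    cokerEquiv l l' a b sq (Submodule.Quotient.mk y) = Submodule.Quotient.mk (b y) := rfl

end Abstract

section AbstractRank

variable {k : Type} [Field k] {H₁ P₁ C H₂ P₂ : Type} [AddCommGroup H₁] [Module k H₁]
  [AddCommGroup P₁] [Module k P₁] [AddCommGroup C] [Module k C] [AddCommGroup H₂] [Module k H₂]
  [AddCommGroup P₂] [Module k P₂]

/-- `H₁ → P₁ → C → H₂ → P₂` exact: `rank C = rank coker(H₁ → P₁) + rank ker(H₂ → P₂)`. -/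
theorem rank_mid (l₁ : H₁ →ₗ[k] P₁) (i : P₁ →ₗ[k] C) (π : C →ₗ[k] H₂) (l₂ : H₂ →ₗ[k] P₂)
    (h1 : Function.Exact l₁ i) (h2 : Function.Exact i π) (h3 : Function.Exact π l₂) :
    Module.rank k C =
      Module.rank k (P₁ ⧸ LinearMap.range l₁) + Module.rank k ↥(LinearMap.ker l₂) := by
  have e1 : LinearMap.ker i = LinearMap.range l₁ := (LinearMap.exact_iff.1 h1)
  have e2 : LinearMap.ker π = LinearMap.range i := (LinearMap.exact_iff.1 h2)
  have e3 : LinearMap.ker l₂ = LinearMap.range π := (LinearMap.exact_iff.1 h3)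
  have r1 := LinearMap.rank_range_add_rank_ker π
  have r2 : Module.rank k ↥(LinearMap.ker π) = Module.rank k (P₁ ⧸ LinearMap.range l₁) := by
    rw [e2, ← e1]
    exact (LinearMap.quotKerEquivRange i).rank_eq.symm
  rw [← r1, r2, e3, add_comm]

end AbstractRank

/-! ### ladders between two sites with coefficients -/

/-- A *ladder* between `(X, M)` and `(Y, N)`: identifications of `H¹`, `H²`, `P¹`, `P²` commuting with
the localisation maps. -/
structure Ladder {k : Type} [CommRing k] (X : Site) (M : Rep.{0, 0, 0} k X.G) (Y : Site)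
    (N : Rep.{0, 0, 0} k Y.G) where
  /-- on `H¹` -/
  a₁ : H1 X.𝒰 M ≃ₗ[k] H1 Y.𝒰 N
  /-- on `H²` -/
  a₂ : H2 X.𝒰 M ≃ₗ[k] H2 Y.𝒰 N
  /-- on `P¹` -/
  b₁ : X.P1 M ≃ₗ[k] Y.P1 N
  /-- on `P²` -/
  b₂ : X.P2 M ≃ₗ[k] Y.P2 N
  sq₁ : ∀ x, b₁ (X.loc₁ M x) = Y.loc₁ N (a₁ x)
  sq₂ : ∀ x, b₂ (X.loc₂ M x) = Y.loc₂ N (a₂ x)

namespace Ladder

section Ring

variable {k : Type} [CommRing k] {X : Site} {M : Rep.{0, 0, 0} k X.G} {Y : Site}
  {N : Rep.{0, 0, 0} k Y.G} {Z : Site} {L : Rep.{0, 0, 0} k Z.G}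

/-- composition of ladders -/
noncomputable def trans (E : Ladder X M Y N) (F : Ladder Y N Z L) : Ladder X M Z L where
  a₁ := E.a₁.trans F.a₁
  a₂ := E.a₂.trans F.a₂
  b₁ := E.b₁.trans F.b₁
  b₂ := E.b₂.trans F.b₂
  sq₁ x := by
    change F.b₁ (E.b₁ (X.loc₁ M x)) = Z.loc₁ L (F.a₁ (E.a₁ x))
    rw [E.sq₁, F.sq₁]
  sq₂ x := by
    change F.b₂ (E.b₂ (X.loc₂ M x)) = Z.loc₂ L (F.a₂ (E.a₂ x))
    rw [E.sq₂, F.sq₂]

variable (E : Ladder X M Y N)

/-- `Ш¹` is identified -/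
noncomputable def sha1Equiv : ↥(X.sha1 M) ≃ₗ[k] ↥(Y.sha1 N) :=
  kerEquiv (X.loc₁ M) (Y.loc₁ N) E.a₁ E.b₁ E.sq₁

/-- `Ш²` is identified -/
noncomputable def sha2Equiv : ↥(X.sha2 M) ≃ₗ[k] ↥(Y.sha2 N) :=
  kerEquiv (X.loc₂ M) (Y.loc₂ N) E.a₂ E.b₂ E.sq₂

@[simp] theorem sha1Equiv_coe (x : ↥(X.sha1 M)) : ((E.sha1Equiv x : ↥(Y.sha1 N)) : H1 Y.𝒰 N) = E.a₁ x :=
  rfl

@[simp] theorem sha2Equiv_coe (x : ↥(X.sha2 M)) : ((E.sha2Equiv x : ↥(Y.sha2 N)) : H2 Y.𝒰 N) = E.a₂ x :=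
  rfl

theorem mem_sha1_iff (x : H1 X.𝒰 M) : x ∈ X.sha1 M ↔ E.a₁ x ∈ Y.sha1 N := by
  change X.loc₁ M x = 0 ↔ Y.loc₁ N (E.a₁ x) = 0
  rw [← E.sq₁, LinearEquiv.map_eq_zero_iff]

theorem mem_sha2_iff (x : H2 X.𝒰 M) : x ∈ X.sha2 M ↔ E.a₂ x ∈ Y.sha2 N := by
  change X.loc₂ M x = 0 ↔ Y.loc₂ N (E.a₂ x) = 0
  rw [← E.sq₂, LinearEquiv.map_eq_zero_iff]

/-- `coker loc₁` is identified -/
noncomputable def coker1Equiv :
    (X.P1 M ⧸ LinearMap.range (X.loc₁ M)) ≃ₗ[k] (Y.P1 N ⧸ LinearMap.range (Y.loc₁ N)) :=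
  cokerEquiv (X.loc₁ M) (Y.loc₁ N) E.a₁ E.b₁ E.sq₁

/-- `coker loc₂` is identified (the `(A-G3)` transfer) -/
noncomputable def coker2Equiv :
    (X.P2 M ⧸ LinearMap.range (X.loc₂ M)) ≃ₗ[k] (Y.P2 N ⧸ LinearMap.range (Y.loc₂ N)) :=
  cokerEquiv (X.loc₂ M) (Y.loc₂ N) E.a₂ E.b₂ E.sq₂

end Ring

section Field

variable {k : Type} [Field k] {X : Site} {M : Rep.{0, 0, 0} k X.G} {Y : Site}
  {N : Rep.{0, 0, 0} k Y.G} (E : Ladder X M Y N)

/-- `rank H²_c = rank coker loc₁ + rank Ш²` -/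
theorem rank_H2c (X : Site) (M : Rep.{0, 0, 0} k X.G) :
    Module.rank k (X.H2c M) =
      Module.rank k (X.P1 M ⧸ LinearMap.range (X.loc₁ M)) + Module.rank k ↥(X.sha2 M) :=
  rank_mid (X.loc₁ M) (X.ι₂ M) (X.π₂ M) (X.loc₂ M) (X.exact_loc₁_ι₂ M) (X.exact_ι₂_π₂ M)
    (X.exact_π₂_loc₂ M)

include E in
/-- **`H²_c` has the same rank on both sides of a ladder** (no map between the cones is needed). -/
theorem rank_H2c_eq : Module.rank k (X.H2c M) = Module.rank k (Y.H2c N) := by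
  rw [rank_H2c X M, rank_H2c Y N, E.coker1Equiv.rank_eq, E.sha2Equiv.rank_eq]

include E in
theorem finrank_H2c_eq : finrank k (X.H2c M) = finrank k (Y.H2c N) := by
  unfold Module.finrank
  rw [E.rank_H2c_eq]

include E in
theorem finite_H2c_iff : Module.Finite k (X.H2c M) ↔ Module.Finite k (Y.H2c N) := by
  rw [← Module.rank_lt_aleph0_iff, ← Module.rank_lt_aleph0_iff, E.rank_H2c_eq]

include E in
theorem finrank_H1_eq : finrank k (H1 X.𝒰 M) = finrank k (H1 Y.𝒰 N) := E.a₁.finrank_eq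

include E in
theorem finrank_H2_eq : finrank k (H2 X.𝒰 M) = finrank k (H2 Y.𝒰 N) := E.a₂.finrank_eq

include E in
/-- the `(A-G3)` shape transfers along a ladder -/
theorem g₃_transfer
    (h : Module.Finite k (Y.P2 N ⧸ LinearMap.range (Y.loc₂ N)) ∧
      finrank k (Y.P2 N ⧸ LinearMap.range (Y.loc₂ N)) ≤ 1) :
    Module.Finite k (X.P2 M ⧸ LinearMap.range (X.loc₂ M)) ∧
      finrank k (X.P2 M ⧸ LinearMap.range (X.loc₂ M)) ≤ 1 :=
  ⟨(Module.Finite.equiv_iff E.coker2Equiv).2 h.1, E.coker2Equiv.finrank_eq.le.trans h.2⟩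

end Field

end Ladder

/-! ### an isomorphism of coefficient modules gives a ladder -/

section OfIso

variable {k : Type} [CommRing k] (X : Site) {M M' : Rep.{0, 0, 0} k X.G} (e : M ≅ M')

/-- the isomorphism restricted to the local group at `v` -/
noncomputable def locIso (v : X.I) : X.loc M v ≅ X.loc M' v := (Rep.resFunctor (X.ι v)).mapIso e

/-- naturality of restriction on `H¹` -/
theorem res_ofHom_h1 (φ : M ⟶ M') (v : X.I) (x : H1 X.𝒰 M) :
    (X.res M' v).h1 ((Mor.ofHom X.𝒰 φ).h1 x) =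
      (Mor.ofHom (X.𝒱 v) ((Rep.resFunctor (X.ι v)).map φ)).h1 ((X.res M v).h1 x) := by
  rw [← Bridge.MackeyProd.comp_h1, ← Bridge.MackeyProd.comp_h1]
  rfl

/-- naturality of restriction on `H²` -/
theorem res_ofHom_h2 (φ : M ⟶ M') (v : X.I) (x : H2 X.𝒰 M) :
    (X.res M' v).h2 ((Mor.ofHom X.𝒰 φ).h2 x) =
      (Mor.ofHom (X.𝒱 v) ((Rep.resFunctor (X.ι v)).map φ)).h2 ((X.res M v).h2 x) := by
  rw [← Bridge.MackeyProd.comp_h2, ← Bridge.MackeyProd.comp_h2]
  rfl

/-- the ladder of an isomorphism of coefficients -/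
noncomputable def Ladder.ofIso : Ladder X M X M' where
  a₁ := PermSelfDualLC.h1Equiv X.𝒰 e
  a₂ := PermSelfDualLC.h2Equiv X.𝒰 e
  b₁ := ((X.P1equiv M).trans
    (LinearEquiv.piCongrRight fun v => PermSelfDualLC.h1Equiv (X.𝒱 v) (locIso X e v))).trans
      (X.P1equiv M').symm
  b₂ := ((X.P2equiv M).trans
    (LinearEquiv.piCongrRight fun v => PermSelfDualLC.h2Equiv (X.𝒱 v) (locIso X e v))).trans
      (X.P2equiv M').symm
  sq₁ x := by
    apply (X.P1equiv M').injective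
    funext v
    simp only [LinearEquiv.trans_apply, LinearEquiv.apply_symm_apply,
      LinearEquiv.piCongrRight_apply, Site.P1equiv_loc₁, PermSelfDualLC.h1Equiv_apply]
    exact (res_ofHom_h1 X e.hom v x).symm
  sq₂ x := by
    apply (X.P2equiv M').injective
    funext v
    simp only [LinearEquiv.trans_apply, LinearEquiv.apply_symm_apply,
      LinearEquiv.piCongrRight_apply, Site.P2equiv_loc₂, PermSelfDualLC.h2Equiv_apply]
    exact (res_ofHom_h2 X e.hom v x).symm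

@[simp] theorem Ladder.ofIso_a₁ (x : H1 X.𝒰 M) :
    (Ladder.ofIso X e).a₁ x = (Mor.ofHom X.𝒰 e.hom).h1 x := rfl

@[simp] theorem Ladder.ofIso_a₂ (x : H2 X.𝒰 M) :
    (Ladder.ofIso X e).a₂ x = (Mor.ofHom X.𝒰 e.hom).h2 x := rfl

end OfIso

end Fermat.Agent.S55.Middle.SiteOver
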