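/-
S55 / Middle / M.out (helper51): the COVERING SITE and the Shapiro–Mackey ladder.
See `Middle/SiteLadder.lean` for `Ladder` and its consequences.
-/
import Fermat.Agent.S55.Middle.SiteLadder

set_option autoImplicit false
set_option linter.unusedSectionVars false

open CategoryTheory groupCohomology Module

namespace Fermat.Agent.S55.Middle.SiteOver

open Fermat.Agent.S55.Formal Fermat.Agent.S55.Bridge.ShapiroLC
  Fermat.Agent.S55.Bridge.Mackey Fermat.Agent.S55.Bridge.MackeyLC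
  Fermat.Agent.S55.Bridge.MackeyProd

/-! ### the covering site -/

section Over

variable (X : Site) (V : Subgroup X.G)

/-- finite sets `T_v ∋ 1` of representatives of the double cosets `V \ G / ι_v(Γ_v)`. -/
structure Reps where
  /-- the representatives at `v` -/
  T : X.I → Set X.G
  fin : ∀ v, Finite ↥(T v)
  one_mem : ∀ v, (1 : X.G) ∈ T v
  covers : ∀ v, Covers (V := V) (X.ι v) (T v)
  sep : ∀ v, Separated (V := V) (X.ι v) (T v)

/-- `κ_t : D_t → V` is continuous for the induced bases. -/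
theorem isCont_conjHom {G D : Type} [Group G] [Group D] (𝒰 : NBasis G) (𝒟 : NBasis D)
    (f : D →* G) (hf : IsCont 𝒰 𝒟 f) (W : Subgroup G) (t : G) :
    IsCont (subBasis 𝒰 W) (subBasis 𝒟 (conjSub f W t)) (conjHom f W t) := by
  rintro _ ⟨N, hN, rfl⟩
  obtain ⟨N', hN', h⟩ := hf N hN
  refine ⟨N'.subgroupOf (conjSub f W t), ⟨N', hN', rfl⟩, fun s hs => ?_⟩
  rw [Subgroup.mem_subgroupOf] at hs ⊢
  rw [coe_conjHom]
  exact (𝒰.normal hN).conj_mem _ (h _ hs) t

/-- representatives in distinct double cosets lie in distinct right cosets of `V`: a `Separated` set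
injects into `V \ G`. -/
theorem finite_of_separated {G D : Type} [Group G] [Group D] (f : D →* G) (W : Subgroup G)
    [W.FiniteIndex] (T : Set G) (hS : Separated (V := W) f T) : Finite ↥T := by
  classical
  have : Finite (Quotient (QuotientGroup.rightRel W)) :=
    Finite.of_equiv _ (QuotientGroup.quotientRightRelEquivQuotientLeftRel W).symm
  refine Finite.of_injective
    (fun t : ↥T => (Quotient.mk (QuotientGroup.rightRel W) (t : G))) ?_
  intro t t' h
  have h' := QuotientGroup.rightRel_apply.mp (Quotient.exact h)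
  -- `t' * t⁻¹ ∈ W`
  apply Subtype.ext
  refine hS _ t.2 _ t'.2 ⟨⟨(t' : G) * (t : G)⁻¹, h'⟩, 1, ?_⟩
  simp

/-- representatives exist when `V` is open. -/
theorem nonempty_reps (hV : X.𝒰.IsOpen V) : Nonempty (Reps X V) := by
  classical
  have : V.FiniteIndex := LM.ShapiroPerm.finiteIndex_of_isOpen X.𝒰 V hV
  choose T h1 hc hs using fun v : X.I => Bridge.Mackey.exists_reps V (X.ι v)
  exact ⟨⟨T, fun v => finite_of_separated (X.ι v) V (T v) (hs v), h1, hc, hs⟩⟩

variable {V}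

/-- **The covering site** with global group `V`. -/
@[reducible] noncomputable def cover (R : Reps X V) : Site where
  G := ↥V
  𝒰 := subBasis X.𝒰 V
  I := Σ v : X.I, ↥(R.T v)
  fin := by
    classical
    haveI : ∀ v, Fintype ↥(R.T v) := fun v => @Fintype.ofFinite _ (R.fin v)
    exact inferInstance
  dec := Classical.decEq _
  Γ := fun j => ↥(conjSub (X.ι j.1) V (j.2 : X.G))
  𝒱 := fun j => subBasis (X.𝒱 j.1) (conjSub (X.ι j.1) V (j.2 : X.G))
  ι := fun j => conjHom (X.ι j.1) V (j.2 : X.G)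
  cont := fun j => isCont_conjHom X.𝒰 (X.𝒱 j.1) (X.ι j.1) (X.cont j.1) V (j.2 : X.G)

end Over

/-! ### Shapiro + Mackey: `(X, Coind_V^G A) ~ (cover X R, A)` -/

section Shapiro

variable {k : Type} [CommRing k] (X : Site) {V : Subgroup X.G} (hV : X.𝒰.IsOpen V) (R : Reps X V)
  (A : Rep.{0, 0, 0} k V)

/-- the local Mackey–Shapiro decomposition at `v`, degree `1` -/
noncomputable def locEquiv₁ (v : X.I) :
    H1 (X.𝒱 v) (X.loc (CoindV V A) v) ≃ₗ[k]
      ∀ t : ↥(R.T v), H1 (subBasis (X.𝒱 v) (conjSub (X.ι v) V (t : X.G)))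
        (conjCoef (X.ι v) V A (t : X.G)) :=
  haveI := R.fin v
  LinearEquiv.ofBijective
    (LinearMap.pi fun t : ↥(R.T v) => (mackSh (X.𝒱 v) (X.ι v) V A (t : X.G)).h1)
    (mackSh_h1_bijective X.𝒰 (X.𝒱 v) (X.ι v) (X.cont v) V A (R.covers v) (R.sep v) hV)

/-- the local Mackey–Shapiro decomposition at `v`, degree `2` -/
noncomputable def locEquiv₂ (v : X.I) :
    H2 (X.𝒱 v) (X.loc (CoindV V A) v) ≃ₗ[k]
      ∀ t : ↥(R.T v), H2 (subBasis (X.𝒱 v) (conjSub (X.ι v) V (t : X.G)))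
        (conjCoef (X.ι v) V A (t : X.G)) :=
  haveI := R.fin v
  LinearEquiv.ofBijective
    (LinearMap.pi fun t : ↥(R.T v) => (mackSh (X.𝒱 v) (X.ι v) V A (t : X.G)).h2)
    (mackSh_h2_bijective X.𝒰 (X.𝒱 v) (X.ι v) (X.cont v) V A (R.covers v) (R.sep v) hV)

@[simp] theorem locEquiv₁_apply (v : X.I) (y : H1 (X.𝒱 v) (X.loc (CoindV V A) v)) (t : ↥(R.T v)) :
    locEquiv₁ X hV R A v y t = (mackSh (X.𝒱 v) (X.ι v) V A (t : X.G)).h1 y := rfl

@[simp] theorem locEquiv₂_apply (v : X.I) (y : H2 (X.𝒱 v) (X.loc (CoindV V A) v)) (t : ↥(R.T v)) :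
    locEquiv₂ X hV R A v y t = (mackSh (X.𝒱 v) (X.ι v) V A (t : X.G)).h2 y := rfl

include hV in
/-- the localisation square in degree `1`, at the place `(v, t)` of the covering site -/
theorem square₁ (v : X.I) (t : ↥(R.T v)) (x : H1 X.𝒰 (CoindV V A)) :
    (mackSh (X.𝒱 v) (X.ι v) V A (t : X.G)).h1 ((X.res (CoindV V A) v).h1 x) =
      ((cover X R).res A ⟨v, t⟩).h1 ((sh X.𝒰 V A).h1 x) := by
  obtain ⟨r, hr⟩ := exists_retraction_normalised (R.one_mem v) (R.sep v)
  have h1 := locSh_eq_h1 X.𝒰 (X.𝒱 v) (X.ι v) (X.cont v) V A (t : X.G) x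
  have h2 := locSh_h1 (X.cont v) A hV r (hr _ t.2) x
  exact h1.symm.trans h2

include hV in
/-- the localisation square in degree `2`, at the place `(v, t)` of the covering site -/
theorem square₂ (v : X.I) (t : ↥(R.T v)) (x : H2 X.𝒰 (CoindV V A)) :
    (mackSh (X.𝒱 v) (X.ι v) V A (t : X.G)).h2 ((X.res (CoindV V A) v).h2 x) =
      ((cover X R).res A ⟨v, t⟩).h2 ((sh X.𝒰 V A).h2 x) := by
  obtain ⟨r, hr⟩ := exists_retraction_normalised (R.one_mem v) (R.sep v)
  have h1 := locSh_eq_h2 X.𝒰 (X.𝒱 v) (X.ι v) (X.cont v) V A (t : X.G) x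
  have h2 := locSh_h2 (X.cont v) A hV r (hr _ t.2) x
  exact h1.symm.trans h2

/-- `P¹(X; Coind A) ≃ P¹(cover; A)` -/
noncomputable def pEquiv₁ : X.P1 (CoindV V A) ≃ₗ[k] (cover X R).P1 A :=
  (((X.P1equiv (CoindV V A)).trans (LinearEquiv.piCongrRight (locEquiv₁ X hV R A))).trans
    (LinearEquiv.piCurry k (fun (v : X.I) (t : ↥(R.T v)) =>
      H1 (subBasis (X.𝒱 v) (conjSub (X.ι v) V (t : X.G))) (conjCoef (X.ι v) V A (t : X.G)))).symm).trans
    ((cover X R).P1equiv A).symm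

/-- `P²(X; Coind A) ≃ P²(cover; A)` -/
noncomputable def pEquiv₂ : X.P2 (CoindV V A) ≃ₗ[k] (cover X R).P2 A :=
  (((X.P2equiv (CoindV V A)).trans (LinearEquiv.piCongrRight (locEquiv₂ X hV R A))).trans
    (LinearEquiv.piCurry k (fun (v : X.I) (t : ↥(R.T v)) =>
      H2 (subBasis (X.𝒱 v) (conjSub (X.ι v) V (t : X.G))) (conjCoef (X.ι v) V A (t : X.G)))).symm).trans
    ((cover X R).P2equiv A).symm

theorem pEquiv₁_spec (y : X.P1 (CoindV V A)) (v : X.I) (t : ↥(R.T v)) :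
    (cover X R).P1equiv A (pEquiv₁ X hV R A y) ⟨v, t⟩ =
      (mackSh (X.𝒱 v) (X.ι v) V A (t : X.G)).h1 (X.P1equiv (CoindV V A) y v) := by
  unfold pEquiv₁
  rw [LinearEquiv.trans_apply, LinearEquiv.apply_symm_apply]
  rfl

theorem pEquiv₂_spec (y : X.P2 (CoindV V A)) (v : X.I) (t : ↥(R.T v)) :
    (cover X R).P2equiv A (pEquiv₂ X hV R A y) ⟨v, t⟩ =
      (mackSh (X.𝒱 v) (X.ι v) V A (t : X.G)).h2 (X.P2equiv (CoindV V A) y v) := by
  unfold pEquiv₂
  rw [LinearEquiv.trans_apply, LinearEquiv.apply_symm_apply]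
  rfl

include hV in
theorem shapiro_sq₁ (x : H1 X.𝒰 (CoindV V A)) :
    pEquiv₁ X hV R A (X.loc₁ (CoindV V A) x) = (cover X R).loc₁ A ((sh X.𝒰 V A).h1 x) := by
  apply ((cover X R).P1equiv A).injective
  funext j
  obtain ⟨v, t⟩ := j
  rw [pEquiv₁_spec, Site.P1equiv_loc₁]
  refine Eq.trans (square₁ X hV R A v t x) ?_
  exact (Site.P1equiv_loc₁ (cover X R) A ((sh X.𝒰 V A).h1 x) ⟨v, t⟩).symm

include hV in
theorem shapiro_sq₂ (x : H2 X.𝒰 (CoindV V A)) :
    pEquiv₂ X hV R A (X.loc₂ (CoindV V A) x) = (cover X R).loc₂ A ((sh X.𝒰 V A).h2 x) := by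
  apply ((cover X R).P2equiv A).injective
  funext j
  obtain ⟨v, t⟩ := j
  rw [pEquiv₂_spec, Site.P2equiv_loc₂]
  refine Eq.trans (square₂ X hV R A v t x) ?_
  exact (Site.P2equiv_loc₂ (cover X R) A ((sh X.𝒰 V A).h2 x) ⟨v, t⟩).symm

/-- **The Shapiro–Mackey ladder** `(X, Coind_V^G A) ~ (cover X R, A)`. -/
noncomputable def Ladder.shapiro : Ladder X (CoindV V A) (cover X R) A where
  a₁ := LinearEquiv.ofBijective (sh X.𝒰 V A).h1 (sh_h1_bijective hV)
  a₂ := LinearEquiv.ofBijective (sh X.𝒰 V A).h2 (sh_h2_bijective hV)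
  b₁ := pEquiv₁ X hV R A
  b₂ := pEquiv₂ X hV R A
  sq₁ x := shapiro_sq₁ X hV R A x
  sq₂ x := shapiro_sq₂ X hV R A x

@[simp] theorem Ladder.shapiro_a₁ (x : H1 X.𝒰 (CoindV V A)) :
    (Ladder.shapiro X hV R A).a₁ x = (sh X.𝒰 V A).h1 x := rfl

@[simp] theorem Ladder.shapiro_a₂ (x : H2 X.𝒰 (CoindV V A)) :
    (Ladder.shapiro X hV R A).a₂ x = (sh X.𝒰 V A).h2 x := rfl

end Shapiro

/-! ### permutation modules: `(X, k[G/V]) ~ (cover X R, k)` -/

section Perm

open Fermat.Agent.S55.LM.ShapiroPerm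

variable {k : Type} [CommRing k] (X : Site) {V : Subgroup X.G} (hV : X.𝒰.IsOpen V) (R : Reps X V)

/-- **The ladder for the permutation module** `k[G/V]`: `(X, k[G/V]) ~ (cover X R, k)`. -/
noncomputable def Ladder.perm :
    Ladder X (permRing (k := k) V) (cover X R) (Rep.trivial k V k) :=
  haveI := finiteIndex_of_isOpen X.𝒰 V hV
  (Ladder.ofIso X (permIso k V)).trans (Ladder.shapiro X hV R (Rep.trivial k V k))

theorem Ladder.perm_a₁ (x : H1 X.𝒰 (permRing (k := k) V)) :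
    (Ladder.perm X hV R).a₁ x = h1EquivTriv X.𝒰 V hV x := rfl

theorem Ladder.perm_a₂ (x : H2 X.𝒰 (permRing (k := k) V)) :
    (Ladder.perm X hV R).a₂ x = h2EquivTriv X.𝒰 V hV x := rfl

end Perm

/-! ### the `BaseA`-shaped corollaries (field coefficients) -/

section BaseShapes

open Fermat.Agent.S55.LM.ShapiroPerm

variable {k : Type} [Field k] (X : Site) {V : Subgroup X.G} (hV : X.𝒰.IsOpen V) (R : Reps X V)

include hV in
/-- **`(A-G3)` transfer**: `dim coker loc₂ ≤ 1` over the covering site with trivial coefficients gives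
`BaseA.g₃` for `k[G/V]`. -/
theorem g₃_perm_of_cover
    (h : Module.Finite k ((cover X R).P2 (Rep.trivial k V k) ⧸
        LinearMap.range ((cover X R).loc₂ (Rep.trivial k V k))) ∧
      finrank k ((cover X R).P2 (Rep.trivial k V k) ⧸
        LinearMap.range ((cover X R).loc₂ (Rep.trivial k V k))) ≤ 1) :
    Module.Finite k (X.P2 (perm k V) ⧸ LinearMap.range (X.loc₂ (perm k V))) ∧
      finrank k (X.P2 (perm k V) ⧸ LinearMap.range (X.loc₂ (perm k V))) ≤ 1 :=
  (Ladder.perm X hV R).g₃_transfer h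

include hV in
/-- **`(A-G2)` transfer**: the count `dim H²_c ≤ dim H¹` over the covering site with trivial
coefficients gives `BaseA.g₂` for `k[G/V]` (`χ` trivial on `V`). -/
theorem g₂_perm_of_cover (χ : X.G →* kˣ) (hχ : TrivOn χ V)
    (h : Module.Finite k ((cover X R).H2c (Rep.trivial k V k)) ∧
      finrank k ((cover X R).H2c (Rep.trivial k V k)) ≤
        finrank k (H1 (subBasis X.𝒰 V) (Rep.trivial k V k))) :
    Module.Finite k (X.H2c (perm k V)) ∧
      finrank k (X.H2c (perm k V)) ≤ finrank k (H1 X.𝒰 (tw (perm k V) χ)) := by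
  have := finiteIndex_of_isOpen X.𝒰 V hV
  have E := Ladder.perm (k := k) X hV R
  refine ⟨E.finite_H2c_iff.2 h.1, ?_⟩
  rw [PermSelfDualLC.finrank_h1_tw_perm X.𝒰 V χ hχ]
  have h1 : finrank k (X.H2c (perm k V)) = finrank k ((cover X R).H2c (Rep.trivial k V k)) :=
    E.finrank_H2c_eq
  have h2 : finrank k (H1 X.𝒰 (perm k V)) = finrank k (H1 (subBasis X.𝒰 V) (Rep.trivial k V k)) :=
    E.finrank_H1_eq
  rw [h1, h2]
  exact h.2

include hV in
/-- `Ш¹(X; k[G/V]) ≃ Ш¹(cover; k)` -/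
theorem finrank_sha1_perm :
    finrank k ↥(X.sha1 (perm k V)) = finrank k ↥((cover X R).sha1 (Rep.trivial k V k)) :=
  (Ladder.perm (k := k) X hV R).sha1Equiv.finrank_eq

include hV in
/-- `Ш²(X; k[G/V]) ≃ Ш²(cover; k)` -/
theorem finrank_sha2_perm :
    finrank k ↥(X.sha2 (perm k V)) = finrank k ↥((cover X R).sha2 (Rep.trivial k V k)) :=
  (Ladder.perm (k := k) X hV R).sha2Equiv.finrank_eq

end BaseShapes

end Fermat.Agent.S55.Middle.SiteOver
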