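/-
S55 / Middle / M.inv, leaf (I1) via the COVERING SITE (helper16; hedge of helper73's InvArith through
helper51's `Middle/SiteOver` dictionary instead of `OutDict`).

GENERIC (`X : Site`, `V ≤ X.G` open, `R : SiteOver.Reps X V`, trivial coefficients on `cover X R`):

* `perm_b₂_spec` : the `(v, t)`-component of `(Ladder.perm X hV R).b₂ y` is
  `mackSh_{v,t} ∘ (perm ≅ Coind)_v` applied to the `v`-component of `y`; hence
  `perm_b₂_eq_zero_of` / `eq_zero_of_perm_b₂` (supports correspond: `v` ↔ the fibre `{(v, t)}`).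
* `exists_single_notMem` : NO SINGLE SUPPORT over `cover X R` + a nonzero class in `H²(D_{v,t}; k)`
  ⇒ some class in the `v`-th factor of `P²(k[G/V])` is not in the image of `loc₂`
  (= hypothesis `hns` of `InvDescent.baseA_inv_of_perm_noSingleSupport`, literally).
* `baseA_inv_of_cover` : `BaseA.inv` (literal) from the covering-site `g₃` + NSS (trivial
  coefficients), local nonvanishing, and the two facts at one place `v0`.
-/
import Fermat.Agent.S55.Middle.SiteOver
import Fermat.Agent.S55.Middle.InvDescent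

set_option autoImplicit false
set_option linter.unusedSectionVars false

open CategoryTheory groupCohomology Module

namespace Fermat.Agent.S55.Middle.InvCover

open Fermat.Agent.S55.Formal Fermat.Agent.S55.Bridge.ShapiroLC
  Fermat.Agent.S55.Bridge.Mackey Fermat.Agent.S55.Bridge.MackeyLC
  Fermat.Agent.S55.Bridge.MackeyProd Fermat.Agent.S55.Middle.SiteOver
  Fermat.Agent.S55.LM.ShapiroPerm

section Support

variable {k : Type} [CommRing k] (X : Site) {V : Subgroup X.G} (hV : X.𝒰.IsOpen V) (R : Reps X V)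

/-- the `(v, t)`-component of `b₂` of the permutation ladder. -/
theorem perm_b₂_spec (y : X.P2 (permRing (k := k) V)) (v : X.I) (t : ↥(R.T v)) :
    (cover X R).P2equiv (Rep.trivial k V k) ((Ladder.perm X hV R).b₂ y) ⟨v, t⟩ =
      (mackSh (X.𝒱 v) (X.ι v) V (Rep.trivial k V k) (t : X.G)).h2
        (PermSelfDualLC.h2Equiv (X.𝒱 v)
          (have := finiteIndex_of_isOpen X.𝒰 V hV; locIso X (permIso k V) v)
          (X.P2equiv (permRing (k := k) V) y v)) := by
  haveI := finiteIndex_of_isOpen X.𝒰 V hV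
  change (cover X R).P2equiv (Rep.trivial k V k)
    (pEquiv₂ X hV R (Rep.trivial k V k) ((Ladder.ofIso X (permIso k V)).b₂ y)) ⟨v, t⟩ = _
  rw [pEquiv₂_spec]
  congr 1
  change X.P2equiv _ ((X.P2equiv _).symm _) v = _
  rw [LinearEquiv.apply_symm_apply]
  rfl

/-- a class of `P²(k[G/V])` with vanishing `v`-component has vanishing `(v, t)`-components on the
covering site. -/
theorem perm_b₂_eq_zero_of (y : X.P2 (permRing (k := k) V)) (v : X.I)
    (hy : X.P2equiv (permRing (k := k) V) y v = 0) (t : ↥(R.T v)) :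
    (cover X R).P2equiv (Rep.trivial k V k) ((Ladder.perm X hV R).b₂ y) ⟨v, t⟩ = 0 := by
  rw [perm_b₂_spec, hy, map_zero, map_zero]

/-- conversely. -/
theorem eq_zero_of_perm_b₂ (y : X.P2 (permRing (k := k) V)) (v : X.I)
    (hy : ∀ t : ↥(R.T v),
      (cover X R).P2equiv (Rep.trivial k V k) ((Ladder.perm X hV R).b₂ y) ⟨v, t⟩ = 0) :
    X.P2equiv (permRing (k := k) V) y v = 0 := by
  have := finiteIndex_of_isOpen X.𝒰 V hV
  have h1 : locEquiv₂ X hV R (Rep.trivial k V k) v
      (PermSelfDualLC.h2Equiv (X.𝒱 v) (locIso X (permIso k V) v)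
        (X.P2equiv (permRing (k := k) V) y v)) = 0 := by
    funext t
    rw [locEquiv₂_apply, ← perm_b₂_spec X hV R y v t]
    exact hy t
  have h2 := (LinearEquiv.map_eq_zero_iff _).1 h1
  exact (LinearEquiv.map_eq_zero_iff _).1 h2

end Support

section NSS

variable {k : Type} [Field k] (X : Site) {V : Subgroup X.G} (hV : X.𝒰.IsOpen V) (R : Reps X V)

include hV in
/-- **NSS transfer.**  No single support over the covering site (trivial coefficients) and a nonzero
local class at a place `(v, t)` of the covering site give a class in the `v`-th factor of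
`P²(k[G/V])` which is not in the image of `loc₂`  (the hypothesis `hns` of
`InvDescent.baseA_inv_of_perm_noSingleSupport`). -/
theorem exists_single_notMem
    (hnss : ∀ (x : H2 (cover X R).𝒰 (Rep.trivial k V k)) (j₀ : (cover X R).I),
      (∀ j, j ≠ j₀ → ((cover X R).res (Rep.trivial k V k) j).h2 x = 0) →
        ((cover X R).res (Rep.trivial k V k) j₀).h2 x = 0)
    (v : X.I) (t : ↥(R.T v))
    (w₀ : H2 ((cover X R).𝒱 ⟨v, t⟩) ((cover X R).loc (Rep.trivial k V k) ⟨v, t⟩)) (hw₀ : w₀ ≠ 0) :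
    ∃ w : H2 (X.𝒱 v) (X.loc (Formal.perm k V) v),
      (X.P2equiv (Formal.perm k V)).symm (Pi.single v w) ∉
        LinearMap.range (X.loc₂ (Formal.perm k V)) := by
  classical
  obtain ⟨z, hz⟩ : ∃ z : (cover X R).P2 (Rep.trivial k V k),
      (cover X R).P2equiv (Rep.trivial k V k) z = Pi.single (⟨v, t⟩ : (cover X R).I) w₀ :=
    ⟨((cover X R).P2equiv (Rep.trivial k V k)).symm (Pi.single (⟨v, t⟩ : (cover X R).I) w₀),
      LinearEquiv.apply_symm_apply _ _⟩
  obtain ⟨y, hby⟩ : ∃ y : X.P2 (permRing (k := k) V), (Ladder.perm X hV R).b₂ y = z :=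
    ⟨(Ladder.perm X hV R).b₂.symm z, LinearEquiv.apply_symm_apply _ _⟩
  refine ⟨X.P2equiv (Formal.perm k V) y v, ?_⟩
  -- `y` is supported at `v`
  have hsupp : (X.P2equiv (Formal.perm k V)).symm
      (Pi.single v (X.P2equiv (Formal.perm k V) y v)) = y := by
    apply (X.P2equiv (Formal.perm k V)).injective
    rw [LinearEquiv.apply_symm_apply]
    funext v'
    by_cases hv : v' = v
    · subst hv
      rw [Pi.single_eq_same]
    · rw [Pi.single_eq_of_ne hv]
      symm
      refine eq_zero_of_perm_b₂ X hV R y v' fun t' => ?_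
      rw [hby, hz]
      refine Pi.single_eq_of_ne
        (M := fun j : (cover X R).I =>
          H2 ((cover X R).𝒱 j) ((cover X R).loc (Rep.trivial k V k) j))
        (i := (⟨v, t⟩ : (cover X R).I)) (i' := (⟨v', t'⟩ : (cover X R).I)) ?_ w₀
      intro h
      exact hv (congrArg Sigma.fst h)
  rw [hsupp]
  rintro ⟨x, hx⟩
  -- then `a₂ x` is supported at `(v, t)` only
  have hsq : (cover X R).loc₂ (Rep.trivial k V k) ((Ladder.perm X hV R).a₂ x) = z := by
    rw [← (Ladder.perm X hV R).sq₂]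
    exact (congrArg _ hx).trans hby
  have hres : ∀ j : (cover X R).I,
      ((cover X R).res (Rep.trivial k V k) j).h2 ((Ladder.perm X hV R).a₂ x) =
        (Pi.single (⟨v, t⟩ : (cover X R).I) w₀ :
          ∀ j, H2 ((cover X R).𝒱 j) ((cover X R).loc (Rep.trivial k V k) j)) j := by
    intro j
    have h1 := Site.P2equiv_loc₂ (cover X R) (Rep.trivial k V k)
      ((Ladder.perm X hV R).a₂ x) j
    rw [hsq, hz] at h1
    exact h1.symm
  have h0 := hnss ((Ladder.perm X hV R).a₂ x) ⟨v, t⟩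
    (fun j hj => by
      rw [hres]
      exact Pi.single_eq_of_ne
        (M := fun j : (cover X R).I =>
          H2 ((cover X R).𝒱 j) ((cover X R).loc (Rep.trivial k V k) j)) hj w₀)
  rw [hres] at h0
  have h2 : (Pi.single (⟨v, t⟩ : (cover X R).I) w₀ :
      ∀ j, H2 ((cover X R).𝒱 j) ((cover X R).loc (Rep.trivial k V k) j)) ⟨v, t⟩ = w₀ :=
    Pi.single_eq_same _ _
  exact hw₀ (h2.symm.trans h0)

/-- **`BaseA.inv` from the covering site.**  `U ∈ 𝒰` normal of index invertible in `k`, `χ` trivial on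
`U`; over the covering site `cover X R` (global group `U`, TRIVIAL coefficients): `coker loc₂` of
dimension `≤ 1` and no single support; every place `v` of `X` has a place `(v, t)` above it with
nonzero local `H²`; one place `v0` with `dim H²(Γ_{v0}, k[G/U]) ≤ 1` and `H²(Γ_{v0}, k(χ)) ≠ 0`.
Then `BaseA.inv` holds (literally). -/
theorem baseA_inv_of_cover (χ : X.G →* kˣ) (U : Subgroup X.G) (hU : X.𝒰.mem U)
    (hχ : TrivOn χ U) (hcard : ((U.index : ℕ) : k) ≠ 0) (R : Reps X U)
    (hg3 : Module.Finite k ((cover X R).P2 (Rep.trivial k U k) ⧸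
        LinearMap.range ((cover X R).loc₂ (Rep.trivial k U k))) ∧
      finrank k ((cover X R).P2 (Rep.trivial k U k) ⧸
        LinearMap.range ((cover X R).loc₂ (Rep.trivial k U k))) ≤ 1)
    (hnss : ∀ (x : H2 (cover X R).𝒰 (Rep.trivial k U k)) (j₀ : (cover X R).I),
      (∀ j, j ≠ j₀ → ((cover X R).res (Rep.trivial k U k) j).h2 x = 0) →
        ((cover X R).res (Rep.trivial k U k) j₀).h2 x = 0)
    (hloc : ∀ v : X.I, ∃ (t : ↥(R.T v))
      (w₀ : H2 ((cover X R).𝒱 ⟨v, t⟩) ((cover X R).loc (Rep.trivial k U k) ⟨v, t⟩)), w₀ ≠ 0)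
    (v0 : X.I)
    (hfin0 : Module.Finite k (H2 (X.𝒱 v0) (X.loc (Formal.perm k U) v0)))
    (hrank0 : finrank k (H2 (X.𝒱 v0) (X.loc (Formal.perm k U) v0)) ≤ 1)
    (hA : ∃ y : H2 (X.𝒱 v0) (X.loc (mu χ) v0), y ≠ 0) :
    ∃ inv : ∀ v : X.I, H2 (X.𝒱 v) (X.loc (mu χ) v) →ₗ[k] k,
      (∀ v, inv v ≠ 0) ∧ ∀ x : H2 X.𝒰 (mu χ), ∑ v, inv v ((X.res (mu χ) v).h2 x) = 0 := by
  have hV : X.𝒰.IsOpen U := ⟨U, hU, le_rfl⟩
  have h3 := g₃_perm_of_cover X hV R hg3
  refine InvDescent.baseA_inv_of_perm_noSingleSupport X χ U hU hχ hcard h3.1 h3.2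
    (fun v => ?_) v0 hfin0 hrank0 hA
  obtain ⟨t, w₀, hw₀⟩ := hloc v
  exact exists_single_notMem X hV R hnss v t w₀ hw₀

end NSS

end Fermat.Agent.S55.Middle.InvCover
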