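/-
S55 / Middle / M.out (helper51): FROM THE `K`-SITE OUTPUTS OF THE MIDDLE BLOCK (`Blocks.Outputs p S`,
helper17) TO THE GLOBAL FIELDS OF `BaseA (arithSite S) (ZMod p) (cycloChar p)`.

The key fact is definitional:  `KSite.siteOver S P R = SiteOver.cover (arithSite S) (toReps R)` (`rfl`),
so the generic Shapiro–Mackey ladder `SiteOver.Ladder.perm` applies verbatim.

* `g₃_of_KG3`, `g₂_of_KG2`, `vanish₃_of_KVanish₃`, `fin₁_of_KFin`, `fin₂_of_KFin` : the global fields
  of `BaseA` in their literal shapes;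
* `baseA_of_outputs` : `Blocks.Outputs p S` + the two local fields + `inv`  ⇒  `BaseA`;
* `arithBase_of_outputs` : the same for all `(p, S)`  ⇒  `ArithBase`.
-/
import Fermat.Agent.S55.Middle.SiteOver
import Fermat.Agent.S55.Middle.Blocks
import Fermat.Agent.S55.Formal.ArithSite
import Fermat.Agent.S55.Formal.ArithChi
import Fermat.Agent.S55.Formal.SiteCount

set_option autoImplicit false
set_option linter.unusedSectionVars false

open CategoryTheory groupCohomology Module ExtCitation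

namespace Fermat.Agent.S55.Middle.OutCover

open Fermat.Agent.S55.Formal Fermat.Agent.S55.Formal.ArithSite
open Fermat.Agent.S55.Formal.PreludeLC hiding GQ Qbar
open Fermat.Agent.S55.Bridge.ShapiroLC Fermat.Agent.S55.Middle.Defs
open Fermat.Agent.S55.Middle.KSite Fermat.Agent.S55.Middle.Blocks
open Fermat.Agent.S55.LM.ShapiroPerm

/-! ### the literal shapes of the `BaseA` fields, as generic Props (elaborated once, generically) -/

section Shapes

variable (X : Site) (k : Type) [Field k] (χ : X.G →* kˣ)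

/-- the `inv` field of `BaseA` -/
def InvShape : Prop :=
  ∃ inv : ∀ v : X.I, H2 (X.𝒱 v) (X.loc (mu χ) v) →ₗ[k] k,
    (∀ v, inv v ≠ 0) ∧ ∀ x : H2 X.𝒰 (mu χ), ∑ v, inv v ((X.res (mu χ) v).h2 x) = 0

/-- the `vanish₃` field of `BaseA` -/
def Vanish₃Shape : Prop :=
  ∀ P : Subgroup X.G, X.𝒰.IsOpen P → TrivOn χ P → Vanish₃ X.𝒰 (perm k P)

/-- the `vanish₃_loc` field of `BaseA` -/
def Vanish₃LocShape : Prop :=
  ∀ (v : X.I) (P : Subgroup (X.Γ v)), (X.𝒱 v).IsOpen P →
    TrivOn (χ.comp (X.ι v)) P → Vanish₃ (X.𝒱 v) (perm k P)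

/-- the `fin₁` field of `BaseA` -/
def Fin₁Shape : Prop :=
  ∀ P : Subgroup X.G, X.𝒰.IsOpen P → TrivOn χ P → Module.Finite k (H1 X.𝒰 (perm k P))

/-- the `fin₂` field of `BaseA` -/
def Fin₂Shape : Prop :=
  ∀ P : Subgroup X.G, X.𝒰.IsOpen P → TrivOn χ P → Module.Finite k (H2 X.𝒰 (perm k P))

/-- the `loc₂` field of `BaseA` -/
def Loc₂Shape : Prop :=
  ∀ (v : X.I) (U : Subgroup (X.Γ v)), (X.𝒱 v).mem U → TrivOn (χ.comp (X.ι v)) U →
    Module.Finite k (H2 (X.𝒱 v) (perm k U)) ∧ finrank k (H2 (X.𝒱 v) (perm k U)) ≤ 1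

/-- the `g₃` field of `BaseA` -/
def G₃Shape : Prop :=
  ∀ U, X.𝒰.mem U → TrivOn χ U →
    Module.Finite k (X.P2 (perm k U) ⧸ LinearMap.range (X.loc₂ (perm k U))) ∧
    finrank k (X.P2 (perm k U) ⧸ LinearMap.range (X.loc₂ (perm k U))) ≤ 1

/-- the `g₂` field of `BaseA` -/
def G₂Shape : Prop :=
  ∀ U, X.𝒰.mem U → TrivOn χ U →
    Module.Finite k (X.H2c (perm k U)) ∧
    finrank k (X.H2c (perm k U)) ≤ finrank k (H1 X.𝒰 (tw (perm k U) χ))

variable {X k χ}

/-- `BaseA` from its fields. -/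
theorem baseA_of_shapes (h0 : Nonempty X.I) (h1 : ∃ U, X.𝒰.mem U ∧ TrivOn χ U)
    (hinv : InvShape X k χ) (hv : Vanish₃Shape X k χ) (hvl : Vanish₃LocShape X k χ)
    (hf1 : Fin₁Shape X k χ) (hf2 : Fin₂Shape X k χ) (hl : Loc₂Shape X k χ)
    (hg3 : G₃Shape X k χ) (hg2 : G₂Shape X k χ) : BaseA X k χ :=
  ⟨h0, h1, hinv, hv, hvl, hf1, hf2, hl, hg3, hg2⟩

end Shapes

variable {p : ℕ} [Fact p.Prime] {S : Finset Nat.Primes}

/-- the representatives of `KSite` as representatives for the generic covering site -/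
def toReps {P : Subgroup GQ} (R : KSite.Reps S P) : SiteOver.Reps (arithSite S) P :=
  ⟨R.T, R.fin, R.one_mem, R.covers, R.separated⟩

/-- **The `K`-site is the generic covering site of the arithmetic site.** -/
theorem siteOver_eq_cover {P : Subgroup GQ} (R : KSite.Reps S P) :
    KSite.siteOver S P R = SiteOver.cover (arithSite S) (toReps R) := rfl

/-- a member of the basis, on which `χ_p` is trivial, is a level -/
theorem level_of_mem {U : Subgroup GQ} (hU : (globalBasis S).mem U)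
    (hχ : TrivOn (cycloChar p) U) : Level p S U :=
  ⟨⟨U, hU, le_rfl⟩, hχ⟩

/-- an open subgroup on which `χ_p` is trivial is a level -/
theorem level_of_isOpen {P : Subgroup GQ} (hP : (globalBasis S).IsOpen P)
    (hχ : TrivOn (cycloChar p) P) : Level p S P :=
  ⟨hP, hχ⟩

/-- **`BaseA.g₃`** for the arithmetic site from `(K-G3)`. -/
theorem g₃_of_KG3 (h : KG3 p S) : G₃Shape (arithSite S) (ZMod p) (cycloChar p) := by
  intro U hU hχ
  have hV : (arithSite S).𝒰.IsOpen U := ⟨U, hU, le_rfl⟩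
  have : U.FiniteIndex := (globalBasis S).finiteIndex hU
  obtain ⟨R⟩ := KSite.nonempty_reps S U
  exact SiteOver.g₃_perm_of_cover (arithSite S) hV (toReps R) (h U (level_of_mem hU hχ) R)

/-- **`BaseA.g₂`** for the arithmetic site from `(K-fin)` and `(K-G2)`. -/
theorem g₂_of_KG2 (hfin : KFin p S) (h : KG2 p S) :
    G₂Shape (arithSite S) (ZMod p) (cycloChar p) := by
  intro U hU hχ
  have hV : (arithSite S).𝒰.IsOpen U := ⟨U, hU, le_rfl⟩
  have : U.FiniteIndex := (globalBasis S).finiteIndex hU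
  obtain ⟨R⟩ := KSite.nonempty_reps S U
  have hL := level_of_mem (p := p) hU hχ
  obtain ⟨fP, fS, hle⟩ := h U hL R
  obtain ⟨f1, -⟩ := hfin U hL
  refine SiteOver.g₂_perm_of_cover (arithSite S) hV (toReps R) (cycloChar p) hχ ?_
  -- the formal count over the `K`-site
  have fc : Module.Finite (ZMod p) ((siteOver S U R).H2c (kP p U)) :=
    @SiteCount.finite_H2c' (ZMod p) _ (siteOver S U R) (kP p U) fP fS
  have hcount := @SiteCount.finrank_H2c_add (ZMod p) _ (siteOver S U R) (kP p U) f1 fP fc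
  refine ⟨fc, ?_⟩
  have h1 : finrank (ZMod p) ((siteOver S U R).H2c (kP p U)) ≤
      finrank (ZMod p) (H1 (basisP S U) (kP p U)) := by
    have hc : finrank (ZMod p) ((siteOver S U R).H2c (kP p U)) +
        finrank (ZMod p) (H1 (basisP S U) (kP p U)) =
      finrank (ZMod p) ((siteOver S U R).P1 (kP p U)) +
        finrank (ZMod p) ↥((siteOver S U R).sha1 (kP p U)) +
        finrank (ZMod p) ↥((siteOver S U R).sha2 (kP p U)) := hcount
    omega
  exact h1

/-- **`BaseA.vanish₃`** for the arithmetic site from `(K-V)`. -/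
theorem vanish₃_of_KVanish₃ (h : KVanish₃ p S) :
    Vanish₃Shape (arithSite S) (ZMod p) (cycloChar p) := fun P hP hχ =>
  vanish₃_perm_of_triv (globalBasis S) P hP (h P (level_of_isOpen hP hχ))

/-- **`BaseA.fin₁`** for the arithmetic site from `(K-fin)`. -/
theorem fin₁_of_KFin (h : KFin p S) : Fin₁Shape (arithSite S) (ZMod p) (cycloChar p) :=
  fun P hP hχ => (finite_H1_perm_iff (globalBasis S) P hP).2 (h P (level_of_isOpen hP hχ)).1

/-- **`BaseA.fin₂`** for the arithmetic site from `(K-fin)`. -/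
theorem fin₂_of_KFin (h : KFin p S) : Fin₂Shape (arithSite S) (ZMod p) (cycloChar p) :=
  fun P hP hχ => (finite_H2_perm_iff (globalBasis S) P hP).2 (h P (level_of_isOpen hP hχ)).2

/-- **`BaseA` for the arithmetic site** from the Middle outputs, the two local fields (LM) and
`inv` (M.inv), all in their literal `BaseA` shapes. -/
theorem baseA_of_outputs (hpS : pPrime p ∈ S) (hO : Outputs p S)
    (hinv : InvShape (arithSite S) (ZMod p) (cycloChar p))
    (hv3loc : Vanish₃LocShape (arithSite S) (ZMod p) (cycloChar p))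
    (hloc₂ : Loc₂Shape (arithSite S) (ZMod p) (cycloChar p)) :
    BaseA (arithSite S) (ZMod p) (cycloChar p) :=
  baseA_of_shapes ⟨⟨pPrime p, hpS⟩⟩ (ArithChi.chi_smooth hpS) hinv
    (vanish₃_of_KVanish₃ hO.vanish₃) hv3loc (fin₁_of_KFin hO.fin) (fin₂_of_KFin hO.fin) hloc₂
    (g₃_of_KG3 hO.g₃) (g₂_of_KG2 hO.fin hO.g₂)

/-- **`ArithBase`** from the Middle outputs, the local fields and `inv`, for all `(p, S)`. -/
theorem arithBase_of_outputs
    (h : ∀ {p : ℕ} [Fact p.Prime], p ≠ 2 → ∀ (S : Finset Nat.Primes), pPrime p ∈ S →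
      Outputs p S ∧ InvShape (arithSite S) (ZMod p) (cycloChar p) ∧
        Vanish₃LocShape (arithSite S) (ZMod p) (cycloChar p) ∧
        Loc₂Shape (arithSite S) (ZMod p) (cycloChar p)) :
    ArithBase := fun hp2 S hpS =>
  baseA_of_outputs hpS (h hp2 S hpS).1 (h hp2 S hpS).2.1 (h hp2 S hpS).2.2.1 (h hp2 S hpS).2.2.2

end Fermat.Agent.S55.Middle.OutCover
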