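/-
S55 / Middle / M.out (helper51): `ArithBase` FROM THE MIDDLE OUTPUTS AND `inv` ONLY.

The two local fields of `BaseA (arithSite S) (ZMod p) (cycloChar p)` are unconditional theorems
(`LM.OutFinal.vanish₃_loc_arith`, `LM.OutFinal.loc₂_arith`, helper72), so with `OutCover.baseA_of_outputs`:

  `arithBase_of_outputs_inv : (∀ p odd, S ∋ p, Blocks.Outputs p S ∧ InvShape (arithSite S) 𝔽_p χ_p) → ArithBase`.
-/
import Fermat.Agent.S55.Middle.OutCover
import Fermat.Agent.S55.LM.OutFinal

set_option autoImplicit false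

open CategoryTheory groupCohomology Module ExtCitation

namespace Fermat.Agent.S55.Middle.OutCoverLM

open Fermat.Agent.S55.Formal Fermat.Agent.S55.Formal.ArithSite
open Fermat.Agent.S55.Middle.Blocks Fermat.Agent.S55.Middle.OutCover

variable {p : ℕ} [Fact p.Prime] {S : Finset Nat.Primes}

/-- the local field `vanish₃_loc`, unconditionally -/
theorem vanish₃LocShape : Vanish₃LocShape (arithSite S) (ZMod p) (cycloChar p) :=
  LM.OutFinal.vanish₃_loc_arith p S

/-- the local field `loc₂`, unconditionally -/
theorem loc₂Shape : Loc₂Shape (arithSite S) (ZMod p) (cycloChar p) :=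
  LM.OutFinal.loc₂_arith p S

/-- **`BaseA` of the arithmetic site from the Middle outputs and `inv`.** -/
theorem baseA_of_outputs_inv (hpS : pPrime p ∈ S) (hO : Outputs p S)
    (hinv : InvShape (arithSite S) (ZMod p) (cycloChar p)) :
    BaseA (arithSite S) (ZMod p) (cycloChar p) :=
  baseA_of_outputs hpS hO hinv vanish₃LocShape loc₂Shape

/-- **`ArithBase` from the Middle outputs and `inv`.** -/
theorem arithBase_of_outputs_inv
    (h : ∀ {p : ℕ} [Fact p.Prime], p ≠ 2 → ∀ (S : Finset Nat.Primes), pPrime p ∈ S →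
      Outputs p S ∧ InvShape (arithSite S) (ZMod p) (cycloChar p)) :
    ArithBase := fun hp2 S hpS =>
  baseA_of_outputs_inv hpS (h hp2 S hpS).1 (h hp2 S hpS).2

end Fermat.Agent.S55.Middle.OutCoverLM
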