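/-
S55 / Middle / InvFinal (helper41): THE FIELD `inv` OF `BaseA (arithSite S) 𝔽_p χ_p` FROM THE MIDDLE
OUTPUTS, and hence `ArithBase` from `Blocks.Outputs` alone.

`inv_of_outputs (hpS) (hO : Blocks.Outputs p S) : OutCover.InvShape (arithSite S) (ZMod p) (cycloChar p)`
= `InvCover.baseA_inv_of_cover` (helper16, on helper73's `InvDescent`) at `U0 = ker χ_p`, with
* the `K`-site of `U0` = the covering site (`OutCover.siteOver_eq_cover`, `rfl`, helper51);
* `g₃`, no-single-support over the `K`-site: `hO.g₃`, `hO.nss`;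
* a nonzero class in `H²(D_{q,1}; 𝔽_p)`: `LM/OutTriv.triv_fields` (helper72);
* the place `v0 = p`: `InvArithInputs` (`loc_perm_p`, `H2MuTwist.h2_mu_ne_zero_arith`).
-/
import Fermat.Agent.S55.Middle.InvCover
import Fermat.Agent.S55.Middle.InvArithInputs
import Fermat.Agent.S55.Middle.OutCoverLM
import Fermat.Agent.S55.Middle.CountP1kP
import Fermat.Agent.S55.LM.OutTriv

set_option autoImplicit false

open CategoryTheory groupCohomology Module ExtCitation

namespace Fermat.Agent.S55.Middle.InvFinal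

open Fermat.Agent.S55.Formal Fermat.Agent.S55.Formal.ArithSite
open Fermat.Agent.S55.Formal.PreludeLC hiding GQ Qbar
open Fermat.Agent.S55.Middle.Defs Fermat.Agent.S55.Middle.KSite Fermat.Agent.S55.Middle.Blocks
open Fermat.Agent.S55.Middle.OutCover Fermat.Agent.S55.LM.Defs

variable {p : ℕ} [Fact p.Prime] {S : Finset Nat.Primes}

/-- `ker χ_p` is a level of the Middle block (`p ∈ S`). -/
theorem level_ker (hpS : pPrime p ∈ S) : Level p S (cycloChar p).ker :=
  level_of_mem (InvArithInputs.mem_globalBasis_ker hpS) (MuSummand.trivOn_ker_cycloChar p)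

/-- a nonzero class in `H²(D_{q,t}; 𝔽_p)` at every place of the `K`-site of a level. -/
theorem exists_loc_ne_zero {P : Subgroup GQ} (hL : Level p S P) (R : KSite.Reps S P)
    (i : R.Idx) :
    ∃ w : H2 ((siteOver S P R).𝒱 i) ((siteOver S P R).loc (kP p P) i), w ≠ 0 := by
  obtain ⟨hfin, hrank, -⟩ := LM.OutTriv.triv_fields p i.1.1 (Dloc P i.1.1 (i.2 : GQ))
    (CountP1kP.isOpen_Dloc S hL.isOpen i.1.1 (i.2 : GQ))
    (CountP1kP.cycloChar_trivial_Dloc p hL.triv i.1.1 (i.2 : GQ))
  haveI := hfin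
  have hpos : 0 < finrank (ZMod p)
      (H2 (VP i.1.1 (Dloc P i.1.1 (i.2 : GQ)))
        (Rep.trivial (ZMod p) (Dloc P i.1.1 (i.2 : GQ)) (ZMod p))) := by
    rw [hrank]; exact Nat.one_pos
  obtain ⟨w, hw⟩ := Module.finrank_pos_iff_exists_ne_zero.1 hpos
  exact ⟨w, hw⟩

/-- **`BaseA.inv` for the arithmetic site from the Middle outputs.** -/
theorem inv_of_outputs (hpS : pPrime p ∈ S) (hO : Outputs p S) :
    InvShape (arithSite S) (ZMod p) (cycloChar p) := by
  have hL : Level p S (cycloChar p).ker := level_ker hpS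
  obtain ⟨R⟩ := KSite.nonempty_reps S (cycloChar p).ker
  have hg3 := hO.g₃ (cycloChar p).ker hL R
  have hnss := hO.nss (cycloChar p).ker hL R
  refine InvCover.baseA_inv_of_cover (arithSite S) (cycloChar p) (cycloChar p).ker
    (InvArithInputs.mem_globalBasis_ker hpS) (MuSummand.trivOn_ker_cycloChar p)
    (InvArithInputs.index_ne_zero p) (toReps R) hg3 hnss (fun v => ?_) ⟨pPrime p, hpS⟩
    (InvArithInputs.loc_perm_p hpS).1 (InvArithInputs.loc_perm_p hpS).2
    (LM.H2MuTwist.h2_mu_ne_zero_arith S p ⟨pPrime p, hpS⟩)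
  obtain ⟨w, hw⟩ := exists_loc_ne_zero hL R ⟨v, ⟨1, R.one_mem v⟩⟩
  exact ⟨⟨1, R.one_mem v⟩, w, hw⟩

/-- **`BaseA` for the arithmetic site from the Middle outputs alone.** -/
theorem baseA_of_outputs_only (hpS : pPrime p ∈ S) (hO : Outputs p S) :
    BaseA (arithSite S) (ZMod p) (cycloChar p) :=
  OutCoverLM.baseA_of_outputs_inv hpS hO (inv_of_outputs hpS hO)

/-- **`ArithBase` from the Middle outputs alone.** -/
theorem arithBase_of_outputs_only
    (h : ∀ {p : ℕ} [Fact p.Prime], p ≠ 2 → ∀ (S : Finset Nat.Primes), pPrime p ∈ S →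
      Outputs p S) :
    ArithBase := fun hp2 S hpS => baseA_of_outputs_only hpS (h hp2 S hpS)

end Fermat.Agent.S55.Middle.InvFinal
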