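/-
S55 / Middle / OutputsN (helper48): THE NORMAL-LEVEL FORM OF THE MIDDLE OUTPUTS ((R1) of helper13's
architecture note #2395).

The fields `g₃` (K-G3) and `nss` (K-NSS) of `Blocks.Outputs p S` are consumed by `BaseA` only at
MEMBERS of the basis `globalBasis S` (normal open subgroups): `BaseA.g₃` quantifies over `𝒰.mem U`,
and `inv` uses them at `U₀ = ker χ_p` only.  The finite-level dictionary behind (C4) reaches exactly
those levels.  This file restates the two Props (and their `O_S`-forms `ImageNSS`, `ImageG3`) with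
the extra hypothesis `(globalBasis S).mem P` and redoes the assembly:

* `ImageNSSN`, `ImageG3N`, `KNSSN`, `KG3N`, `OutputsN`;
* `kNSSN : ImageNSSN p S → KNSSN p S`, `kG3N : ImageG3N p S → KG3N p S` (Kummer square, pointwise);
* `imageNSSN_of_imageNSS`, `imageG3N_of_imageG3`, `outputsN_of_outputs` (the old Props imply the
  new ones);
* `inv_of_outputsN`, `baseA_of_outputsN`, `arithBase_of_outputsN : (∀ p odd, S ∋ p, OutputsN p S) →
  ArithBase`.
-/
import Mathlib
import Fermat.Agent.S55.Middle.KummerSquare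
import Fermat.Agent.S55.Middle.InvFinal

set_option autoImplicit false
set_option linter.dupNamespace false

open CategoryTheory groupCohomology Module ExtCitation

namespace Fermat.Agent.S55.Middle.OutputsN

open Fermat.Agent.S55.Formal Fermat.Agent.S55.Formal.ArithSite
open Fermat.Agent.S55.Formal.PreludeLC hiding GQ Qbar
open Fermat.Agent.S55.Middle.Defs Fermat.Agent.S55.Middle.KSite Fermat.Agent.S55.Middle.Blocks
open Fermat.Agent.S55.Middle.Blocks2 Fermat.Agent.S55.Middle.OutCover

section Defs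

variable (p : ℕ) [Fact p.Prime] (S : Finset Nat.Primes)

/-- **(C4-NSS) at the members of the basis**: `Blocks2.ImageNSS` for `P ∈ globalBasis S`. -/
def ImageNSSN : Prop :=
  ∀ (P : Subgroup GQ), (globalBasis S).mem P → Level p S P → ∀ R : Reps S P,
    ∀ x : H2 (basisP S P) (resP P (OS S)), p • x = 0 → ∀ i₀ : R.Idx,
      (∀ i : R.Idx, i ≠ i₀ → (locOS S P i.1.1 i.2.1).h2 x = 0) →
        (locOS S P i₀.1.1 i₀.2.1).h2 x = 0

/-- **(C4-G3) at the members of the basis**: `Blocks2.ImageG3` for `P ∈ globalBasis S`. -/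
def ImageG3N : Prop :=
  ∀ (P : Subgroup GQ), (globalBasis S).mem P → Level p S P → ∀ R : Reps S P,
    ∃ a₀ : ∀ i : R.Idx, BrLoc R i, (∀ i, p • a₀ i = 0) ∧
      ∀ a : ∀ i : R.Idx, BrLoc R i, (∀ i, p • a i = 0) →
        ∃ (n : ℕ) (x : H2 (basisP S P) (resP P (OS S))), p • x = 0 ∧
          ∀ i : R.Idx, (locOS S P i.1.1 i.2.1).h2 x = a i - n • a₀ i

/-- **(K-G3) at the members of the basis.** -/
def KG3N : Prop :=
  ∀ (P : Subgroup GQ), (globalBasis S).mem P → Level p S P → ∀ R : Reps S P,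
    Module.Finite (ZMod p) ((siteOver S P R).P2 (kP p P) ⧸
      LinearMap.range ((siteOver S P R).loc₂ (kP p P))) ∧
    finrank (ZMod p) ((siteOver S P R).P2 (kP p P) ⧸
      LinearMap.range ((siteOver S P R).loc₂ (kP p P))) ≤ 1

/-- **(K-NSS) at the members of the basis.** -/
def KNSSN : Prop :=
  ∀ (P : Subgroup GQ), (globalBasis S).mem P → Level p S P → ∀ R : Reps S P,
    ∀ (x : H2 (basisP S P) (kP p P)) (i₀ : R.Idx),
      (∀ i : R.Idx, i ≠ i₀ → ((siteOver S P R).res (kP p P) i).h2 x = 0) →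
        ((siteOver S P R).res (kP p P) i₀).h2 x = 0

/-- the outputs of the Middle block, `g₃` and `nss` at the members of the basis only. -/
structure OutputsN : Prop where
  vanish₃ : KVanish₃ p S
  fin : KFin p S
  g₃ : KG3N p S
  g₂ : KG2 p S
  nss : KNSSN p S

end Defs

variable {p : ℕ} [Fact p.Prime] {S : Finset Nat.Primes}

/-! ### the old Props imply the new ones -/

theorem imageNSSN_of_imageNSS (h : ImageNSS p S) : ImageNSSN p S := fun P _ hL R => h P hL R

theorem imageG3N_of_imageG3 (h : ImageG3 p S) : ImageG3N p S := fun P _ hL R => h P hL R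

theorem kG3N_of_kG3 (h : KG3 p S) : KG3N p S := fun P _ hL R => h P hL R

theorem kNSSN_of_kNSS (h : KNoSingleSupport p S) : KNSSN p S := fun P _ hL R => h P hL R

theorem outputsN_of_outputs (h : Outputs p S) : OutputsN p S :=
  ⟨h.vanish₃, h.fin, kG3N_of_kG3 h.g₃, h.g₂, kNSSN_of_kNSS h.nss⟩

/-! ### from `O_S`-coefficients to `𝔽_p`-coefficients (Kummer square, pointwise) -/

/-- **(K-NSS) at the members of the basis** from (C4-NSS) there. -/
theorem kNSSN (hpS : pPrime p ∈ S) (h : ImageNSSN p S) : KNSSN p S := by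
  intro P hPn hL R x i₀ hx
  obtain ⟨K⟩ := KummerSquare.nonempty_kummerSq p S hpS P hL R
  exact kNSS_apply K (h P hPn hL R) x i₀ hx

/-- **(K-G3) at the members of the basis** from (C4-G3) there. -/
theorem kG3N (hpS : pPrime p ∈ S) (h : ImageG3N p S) : KG3N p S := by
  intro P hPn hL R
  obtain ⟨K⟩ := KummerSquare.nonempty_kummerSq p S hpS P hL R
  exact kG3_apply K (h P hPn hL R)

/-! ### the assembly -/

/-- **`BaseA.g₃`** for the arithmetic site from `(K-G3)` at the members of the basis. -/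
theorem g₃_of_KG3N (h : KG3N p S) : G₃Shape (arithSite S) (ZMod p) (cycloChar p) := by
  intro U hU hχ
  have hV : (arithSite S).𝒰.IsOpen U := ⟨U, hU, le_rfl⟩
  have : U.FiniteIndex := (globalBasis S).finiteIndex hU
  obtain ⟨R⟩ := KSite.nonempty_reps S U
  exact SiteOver.g₃_perm_of_cover (arithSite S) hV (toReps R) (h U hU (level_of_mem hU hχ) R)

/-- **`BaseA.inv` for the arithmetic site** from `(K-G3)` and `(K-NSS)` at `U₀ = ker χ_p`
(`InvFinal.inv_of_outputs` with the weaker input). -/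
theorem inv_of_kG3N_kNSSN (hpS : pPrime p ∈ S) (hg : KG3N p S) (hn : KNSSN p S) :
    InvShape (arithSite S) (ZMod p) (cycloChar p) := by
  have hL : Level p S (cycloChar p).ker := InvFinal.level_ker hpS
  have hmem : (globalBasis S).mem (cycloChar p).ker := InvArithInputs.mem_globalBasis_ker hpS
  obtain ⟨R⟩ := KSite.nonempty_reps S (cycloChar p).ker
  have hg3 := hg (cycloChar p).ker hmem hL R
  have hnss := hn (cycloChar p).ker hmem hL R
  refine InvCover.baseA_inv_of_cover (arithSite S) (cycloChar p) (cycloChar p).ker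
    (InvArithInputs.mem_globalBasis_ker hpS) (MuSummand.trivOn_ker_cycloChar p)
    (InvArithInputs.index_ne_zero p) (toReps R) hg3 hnss (fun v => ?_) ⟨pPrime p, hpS⟩
    (InvArithInputs.loc_perm_p hpS).1 (InvArithInputs.loc_perm_p hpS).2
    (LM.H2MuTwist.h2_mu_ne_zero_arith S p ⟨pPrime p, hpS⟩)
  obtain ⟨w, hw⟩ := InvFinal.exists_loc_ne_zero hL R ⟨v, ⟨1, R.one_mem v⟩⟩
  exact ⟨⟨1, R.one_mem v⟩, w, hw⟩

theorem inv_of_outputsN (hpS : pPrime p ∈ S) (hO : OutputsN p S) :
    InvShape (arithSite S) (ZMod p) (cycloChar p) :=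
  inv_of_kG3N_kNSSN hpS hO.g₃ hO.nss

/-- **`BaseA` for the arithmetic site from the normal-level outputs alone.** -/
theorem baseA_of_outputsN (hpS : pPrime p ∈ S) (hO : OutputsN p S) :
    BaseA (arithSite S) (ZMod p) (cycloChar p) :=
  baseA_of_shapes ⟨⟨pPrime p, hpS⟩⟩ (ArithChi.chi_smooth hpS) (inv_of_outputsN hpS hO)
    (vanish₃_of_KVanish₃ hO.vanish₃) OutCoverLM.vanish₃LocShape (fin₁_of_KFin hO.fin)
    (fin₂_of_KFin hO.fin) OutCoverLM.loc₂Shape (g₃_of_KG3N hO.g₃) (g₂_of_KG2 hO.fin hO.g₂)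

/-- **`ArithBase` from the normal-level outputs alone.** -/
theorem arithBase_of_outputsN
    (h : ∀ {p : ℕ} [Fact p.Prime], p ≠ 2 → ∀ (S : Finset Nat.Primes), pPrime p ∈ S →
      OutputsN p S) :
    ArithBase := fun hp2 S hpS => baseA_of_outputsN hpS (h hp2 S hpS)

end Fermat.Agent.S55.Middle.OutputsN
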