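/-
S55 / Middle / ArithBaseN (helper48): `Formal.ArithSite.ArithBase`, AND THE FROZEN STATEMENT S55, FROM
THE FOUR RESTRICTED OPEN PROPS of the Middle block (ruling #2416 of helper17, item (c)):

  `Blocks3.H2ODivisibleT p S`, `Blocks3.H3OTorsionT p S`   (levels of `p`-Sylow type),
  `Blocks3.ImageNSSN p S`, `Blocks3.ImageG3N p S`          (members of `globalBasis S`).

Everything else is a theorem on main:
* `(K-V)`   : `kVanish₃_of_T` (pointwise Kummer sequence `KVanishSylow.kVanish₃_at`, helper2/helper58,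
              + Sylow reduction `SylowType.kVanish₃_of_sylowType`, helper74);
* `(K-fin)` : `FinLocal.kFin` (helper48) with the Hasse principle `UnramOffAdapter.hasseO` (helper86/35);
* `(K-G2)`  : `KG2Closed.kg2'` (helper53/65/10/94);
* `(K-G3)`, `(K-NSS)` at normal levels : `Blocks3.kG3N`, `Blocks3.kNSSN` (helper17);
* `BaseA` from the normal-level outputs : `OutputsN.baseA_of_outputsN` (helper48; `inv` by helper41/16/73);
* the frozen statement from `ArithBase` : `Formal.Top.result_of_arithBase` (Formal block).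
-/
import Mathlib
import Fermat.Agent.S55.Middle.Blocks3
import Fermat.Agent.S55.Middle.KVanishSylow
import Fermat.Agent.S55.Middle.OutputsN
import Fermat.Agent.S55.Middle.UnramOffAdapter
import Fermat.Agent.S55.Middle.FinLocal
import Fermat.Agent.S55.Middle.KG2Closed
import Fermat.Agent.S55.Formal.Top

set_option autoImplicit false

open CategoryTheory Module groupCohomology ExtCitation

namespace Fermat.Agent.S55.Middle.ArithBaseN

open Fermat.Agent.S55.Formal
open Fermat.Agent.S55.Formal.PreludeLC hiding GQ Qbar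
open Fermat.Agent.S55.Middle.Defs Fermat.Agent.S55.Middle.KSite Fermat.Agent.S55.Middle.Blocks

/-- the four restricted open Props of the Middle block, bundled. -/
structure FourProps (p : ℕ) [Fact p.Prime] (S : Finset Nat.Primes) : Prop where
  h2ODivisibleT : Blocks3.H2ODivisibleT p S
  h3OTorsionT : Blocks3.H3OTorsionT p S
  imageNSSN : Blocks3.ImageNSSN p S
  imageG3N : Blocks3.ImageG3N p S

variable {p : ℕ} [Fact p.Prime] {S : Finset Nat.Primes}

/-- **(K-V) at all levels** from the two `O_S`-statements at the levels of `p`-Sylow type. -/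
theorem kVanish₃_of_T (hpS : pPrime p ∈ S) (hT : Blocks3.H3OTorsionT p S)
    (hD : Blocks3.H2ODivisibleT p S) : KVanish₃ p S :=
  SylowType.kVanish₃_of_sylowType fun H hL hS =>
    KVanishSylow.kVanish₃_at p S hpS hL (hT H hL hS) (hD H hL hS)

/-- the restricted outputs in the binder order of `OutputsN` (`mem` before `Level`). -/
theorem outputsN_of_blocks3 (h : Blocks3.OutputsN p S) : OutputsN.OutputsN p S :=
  ⟨h.vanish₃, h.fin, fun P hm hL R => h.g₃ P hL hm R, h.g₂, fun P hm hL R => h.nss P hL hm R⟩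

/-- **the restricted outputs of the Middle block from the four restricted open Props.** -/
theorem outputsN_of_four (hp2 : p ≠ 2) (hpS : pPrime p ∈ S) (h : FourProps p S) :
    Blocks3.OutputsN p S where
  vanish₃ := kVanish₃_of_T hpS h.h3OTorsionT h.h2ODivisibleT
  fin := FinLocal.kFin hpS (UnramOffAdapter.hasseO hp2 hpS)
  g₃ := Blocks3.kG3N hpS h.imageG3N
  g₂ := KG2Closed.kg2' p S hp2 hpS (UnramOffAdapter.hasseO hp2 hpS)
  nss := Blocks3.kNSSN hpS h.imageNSSN

/-- **`BaseA` of the arithmetic site from the four restricted open Props.** -/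
theorem baseA_of_four (hp2 : p ≠ 2) (hpS : pPrime p ∈ S) (h : FourProps p S) :
    BaseA (ArithSite.arithSite S) (ZMod p) (cycloChar p) :=
  OutputsN.baseA_of_outputsN hpS (outputsN_of_blocks3 (outputsN_of_four hp2 hpS h))

/-- **`ArithBase` from the four restricted open Props**, for all odd `p ∈ S`. -/
theorem arithBase_of_four
    (h : ∀ {p : ℕ} [Fact p.Prime], p ≠ 2 → ∀ (S : Finset Nat.Primes), pPrime p ∈ S →
      FourProps p S) :
    ArithSite.ArithBase := fun hp2 S hpS => baseA_of_four hp2 hpS (h hp2 S hpS)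

/-- the same, unbundled. -/
theorem arithBase_of_four'
    (hD : ∀ {p : ℕ} [Fact p.Prime], p ≠ 2 → ∀ (S : Finset Nat.Primes), pPrime p ∈ S →
      Blocks3.H2ODivisibleT p S)
    (hT : ∀ {p : ℕ} [Fact p.Prime], p ≠ 2 → ∀ (S : Finset Nat.Primes), pPrime p ∈ S →
      Blocks3.H3OTorsionT p S)
    (hN : ∀ {p : ℕ} [Fact p.Prime], p ≠ 2 → ∀ (S : Finset Nat.Primes), pPrime p ∈ S →
      Blocks3.ImageNSSN p S)
    (hG : ∀ {p : ℕ} [Fact p.Prime], p ≠ 2 → ∀ (S : Finset Nat.Primes), pPrime p ∈ S →
      Blocks3.ImageG3N p S) :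
    ArithSite.ArithBase :=
  arithBase_of_four fun hp2 S hpS => ⟨hD hp2 S hpS, hT hp2 S hpS, hN hp2 S hpS, hG hp2 S hpS⟩

/-- **The frozen statement S55 from the four restricted open Props** (the body of
`Fermat/Agent/S55.lean` is this theorem applied to their four proofs). -/
theorem result_of_four
    (h : ∀ {p : ℕ} [Fact p.Prime], p ≠ 2 → ∀ (S : Finset Nat.Primes), pPrime p ∈ S →
      FourProps p S)
    {p : ℕ} [Fact p.Prime] (hp2 : p ≠ 2) (S : Finset Nat.Primes) (hpS : pPrime p ∈ S)
    (M : Rep (ZMod p) (AlgebraicClosure ℚ ≃ₐ[ℚ] AlgebraicClosure ℚ))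
    [FiniteDimensional (ZMod p) M]
    (hsm : ∀ m : M, ∃ F : IntermediateField ℚ (AlgebraicClosure ℚ), FiniteDimensional ℚ F ∧
      ∀ s ∈ F.fixingSubgroup, M.ρ s m = m)
    (hMur : ∀ q : Nat.Primes, q ∉ S → ∀ A : ValuationSubring (AlgebraicClosure ℚ),
      A.LiesOverPrime (q : ℕ) → ∀ g ∈ A.inertiaSubgroupIn ℚ, M.ρ g = 1) :
    ∃ B : sha₁ S (M.dualTwist (cycloChar p)) →ₗ[ZMod p] sha₂ S M →ₗ[ZMod p] ZMod p,
      (∀ y, (∀ x, B y x = 0) → y = 0) ∧ (∀ x, (∀ y, B y x = 0) → x = 0) :=
  Top.result_of_arithBase (arithBase_of_four h) hp2 S hpS M hsm hMur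

end Fermat.Agent.S55.Middle.ArithBaseN
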