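/-
S55 / Middle / M.inv leaf (helper20): TOTAL RAMIFICATION OF p IN Q(mu_p), Galois-group form.

* `cyclotomic_irreducible_padic` : `Φ_p` is irreducible over `ℚ_[p]` (Eisenstein over `ℤ_[p]`).
* `cycloChar_comp_primeLocalToGlobal_surjective` : the mod `p` cyclotomic character restricted to the
  local Galois group at `p` is ONTO `(ZMod p)ˣ`.
* consequences for `arithSite S` (`p ∈ S`): `ker χ_p = Gal(ℚ̄/ℚ(μ_p))` is a member of the global basis,
  has index `p - 1` (invertible in `𝔽_p`), and the local group at `p` surjects onto `G ⧸ ker χ_p`.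
-/
import Mathlib
import Fermat.Prelude.Def_ExtEndgame_ProductionDatum
import Fermat.Prelude.Def_ExtCitation_KummerBridge
import Fermat.Agent.S55.GaloisLevelCyclo
import Fermat.Agent.S55.Formal.ArithChi

set_option autoImplicit false
set_option linter.style.haveILetI false

open Polynomial

namespace Fermat.Agent.S55.Middle.LocalCycloSurj

variable (p : ℕ) [Fact p.Prime]

/-- `Φ_p(X+1)` is Eisenstein at `(p)` over `ℤ_[p]`. -/
theorem cyclotomic_comp_isEisensteinAt_padicInt :
    ((cyclotomic p ℤ_[p]).comp (X + C 1)).IsEisensteinAt (Ideal.span {(p : ℤ_[p])}) := by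
  have hpp : p.Prime := Fact.out
  have hZ := cyclotomic_comp_X_add_one_isEisensteinAt p
  have hmap : (cyclotomic p ℤ_[p]).comp (X + C 1) =
      (((cyclotomic p ℤ).comp (X + 1)).map (Int.castRingHom ℤ_[p])) := by
    rw [Polynomial.map_comp, map_cyclotomic]
    simp
  have hmonic : ((cyclotomic p ℤ_[p]).comp (X + C 1)).Monic := by
    refine (cyclotomic.monic p ℤ_[p]).comp (monic_X_add_C 1) fun h => ?_
    rw [natDegree_X_add_C] at h
    exact zero_ne_one h.symm
  have hdeg : ((cyclotomic p ℤ_[p]).comp (X + C 1)).natDegree =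
      ((cyclotomic p ℤ).comp (X + 1)).natDegree := by
    rw [natDegree_comp, natDegree_comp, natDegree_X_add_C, natDegree_cyclotomic,
      natDegree_cyclotomic, show (X + 1 : ℤ[X]) = X + C 1 by simp, natDegree_X_add_C]
  have hne : Ideal.span {(p : ℤ_[p])} ≠ ⊤ := by
    rw [← PadicInt.maximalIdeal_eq_span_p]
    exact Ideal.IsMaximal.ne_top inferInstance
  refine Monic.isEisensteinAt_of_mem_of_notMem hmonic hne (fun {n} hn => ?_) ?_
  · rw [hdeg] at hn
    have := hZ.mem hn
    rw [Ideal.submodule_span_eq, Ideal.mem_span_singleton] at this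
    obtain ⟨c, hc⟩ := this
    rw [hmap, coeff_map, hc, Ideal.mem_span_singleton]
    exact ⟨(c : ℤ_[p]), by simp⟩
  · rw [hmap, coeff_map]
    have h0 : ((cyclotomic p ℤ).comp (X + 1)).coeff 0 = p := by
      rw [coeff_zero_eq_eval_zero, eval_comp, cyclotomic_prime, eval_add, eval_X, eval_one,
        zero_add, eval_geom_sum, one_geom_sum]
    rw [h0, Ideal.span_singleton_pow, Ideal.mem_span_singleton]
    rintro ⟨c, hc⟩
    have h1 : ‖((p : ℤ) : ℤ_[p])‖ = (p : ℝ)⁻¹ := by
      simp
    have hc' : ((Int.castRingHom ℤ_[p]) (p : ℤ)) = ((p : ℤ) : ℤ_[p]) := rfl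
    rw [hc'] at hc
    have h2 : ‖((p : ℤ) : ℤ_[p])‖ ≤ (p : ℝ)⁻¹ ^ 2 := by
      rw [hc, norm_mul, norm_pow]
      have hp1 : ‖(p : ℤ_[p])‖ = (p : ℝ)⁻¹ := by simp
      rw [hp1]
      have := PadicInt.norm_le_one c
      have hpos : (0 : ℝ) ≤ (p : ℝ)⁻¹ ^ 2 := by positivity
      nlinarith
    rw [h1] at h2
    have hp2 : (2 : ℝ) ≤ p := by exact_mod_cast hpp.two_le
    have hinv : (0 : ℝ) < (p : ℝ)⁻¹ := by positivity
    have hlt : (p : ℝ)⁻¹ < 1 := by
      rw [inv_lt_one_iff₀]; right; linarith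
    nlinarith


/-- `Φ_p` is irreducible over `ℤ_[p]`. -/
theorem cyclotomic_irreducible_padicInt : Irreducible (cyclotomic p ℤ_[p]) := by
  have hpp : p.Prime := Fact.out
  have hE := cyclotomic_comp_isEisensteinAt_padicInt p
  have hprime : (Ideal.span {(p : ℤ_[p])}).IsPrime := by
    rw [← PadicInt.maximalIdeal_eq_span_p]
    exact Ideal.IsMaximal.isPrime inferInstance
  have hmonic : ((cyclotomic p ℤ_[p]).comp (X + C 1)).Monic := by
    refine (cyclotomic.monic p ℤ_[p]).comp (monic_X_add_C 1) fun h => ?_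
    rw [natDegree_X_add_C] at h
    exact zero_ne_one h.symm
  have hdeg : 0 < ((cyclotomic p ℤ_[p]).comp (X + C 1)).natDegree := by
    rw [natDegree_comp, natDegree_X_add_C, natDegree_cyclotomic, mul_one,
      Nat.totient_prime hpp]
    have := hpp.two_le
    omega
  have hirr := hE.irreducible hprime hmonic.isPrimitive hdeg
  have : (cyclotomic p ℤ_[p]).comp (X + C 1) = (algEquivAevalXAddC (1 : ℤ_[p])) (cyclotomic p ℤ_[p]) := by
    simp [algEquivAevalXAddC, aeval_def, eval₂_eq_eval_map, comp]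
  rw [this] at hirr
  exact (MulEquiv.irreducible_iff (algEquivAevalXAddC (1 : ℤ_[p])).toMulEquiv).mp hirr

/-- `Φ_p` is irreducible over `ℚ_[p]`. -/
theorem cyclotomic_irreducible_padic : Irreducible (cyclotomic p ℚ_[p]) := by
  have h := (Monic.irreducible_iff_irreducible_map_fraction_map (K := ℚ_[p])
    (cyclotomic.monic p ℤ_[p])).mp (cyclotomic_irreducible_padicInt p)
  rwa [map_cyclotomic] at h


open ExtCitation Fermat.Agent.S55.GaloisLevelCyclo

local notation "Qbar" => AlgebraicClosure ℚ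
local notation "GQ" => (AlgebraicClosure ℚ ≃ₐ[ℚ] AlgebraicClosure ℚ)

/-- every unit `a` mod `p` is realised as the exponent of a local automorphism on a primitive
`p`-th root of unity of `PadicAlgCl p`. -/
theorem exists_local_aut (a : (ZMod p)ˣ) {ζ : PadicAlgCl p} (hζ : IsPrimitiveRoot ζ p) :
    ∃ τ : PadicAlgCl p ≃ₐ[ℚ_[p]] PadicAlgCl p, τ ζ = ζ ^ (a : ZMod p).val := by
  have hpp : p.Prime := Fact.out
  haveI : NeZero p := ⟨hpp.ne_zero⟩
  haveI : NeZero ((p : ℕ) : ℚ_[p]) := ⟨by exact_mod_cast hpp.ne_zero⟩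
  have hirr := cyclotomic_irreducible_padic p
  have hmin : cyclotomic p ℚ_[p] = minpoly ℚ_[p] ζ := hζ.minpoly_eq_cyclotomic_of_irreducible hirr
  have hcop : ((a : ZMod p).val).Coprime p := ZMod.val_coe_unit_coprime a
  have hζa : IsPrimitiveRoot (ζ ^ (a : ZMod p).val) p := hζ.pow_of_coprime _ hcop
  haveI : NeZero ((p : ℕ) : PadicAlgCl p) := ⟨by
    have : ((p : ℕ) : PadicAlgCl p) = algebraMap ℚ_[p] (PadicAlgCl p) (p : ℚ_[p]) := by simp
    rw [this, Ne, map_eq_zero_iff _ (algebraMap ℚ_[p] (PadicAlgCl p)).injective]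
    exact_mod_cast hpp.ne_zero⟩
  have hroot : aeval (ζ ^ (a : ZMod p).val) (minpoly ℚ_[p] ζ) = 0 := by
    rw [← hmin, aeval_def, eval₂_eq_eval_map, map_cyclotomic, ← IsRoot.def, isRoot_cyclotomic_iff]
    exact hζa
  haveI : Normal ℚ_[p] (PadicAlgCl p) := IsAlgClosure.normal ℚ_[p] (PadicAlgCl p)
  have halg : IsAlgebraic ℚ_[p] ζ := Algebra.IsAlgebraic.isAlgebraic ζ
  exact minpoly.exists_algEquiv_of_root' halg hroot


/-- The image under `localGaloisToGlobal` of a local automorphism acting by `ζ ↦ ζ ^ a` on a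
primitive `p`-th root of unity has cyclotomic character `a`. -/
theorem cycloChar_localGaloisToGlobal (a : (ZMod p)ˣ) {ζ : PadicAlgCl p} (hζ : IsPrimitiveRoot ζ p)
    (τ : PadicAlgCl p ≃ₐ[ℚ_[p]] PadicAlgCl p) (hτ : τ ζ = ζ ^ (a : ZMod p).val) :
    cycloChar p (localGaloisToGlobal p τ) = a := by
  have hpp : p.Prime := Fact.out
  haveI : NeZero p := ⟨hpp.ne_zero⟩
  have key : ∀ t : Qbar, t ^ p = 1 →
      (localGaloisToGlobal p τ) t = t ^ (a : ZMod p).val := by
    intro t ht
    apply (padicEmbedding p).toRingHom.injective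
    show padicEmbedding p ((localGaloisToGlobal p τ) t) = padicEmbedding p (t ^ (a : ZMod p).val)
    rw [padicEmbedding_localGaloisToGlobal, map_pow]
    have h1 : (padicEmbedding p t) ^ p = 1 := by rw [← map_pow, ht, map_one]
    obtain ⟨j, -, hj⟩ := hζ.eq_pow_of_pow_eq_one h1
    rw [← hj, map_pow, hτ, ← pow_mul, ← pow_mul, mul_comm]
  have huniq := modularCyclotomicCharacter.unique (AlgebraicClosure ℚ) (card_rootsOfUnity_eq_self p)
    ((localGaloisToGlobal p τ : GQ) : Qbar ≃+* Qbar) (c := (a : ZMod p)) (fun t ht => by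
      rw [mem_rootsOfUnity] at ht
      have ht' : (t : Qbar) ^ p = 1 := by
        have := congrArg (fun u : Qbarˣ => (u : Qbar)) ht
        simpa using this
      exact key (t : Qbar) ht')
  apply Units.ext
  exact huniq.symm

/-- **The mod-`p` cyclotomic character restricted to the local Galois group at `p` is onto.** -/
theorem cycloChar_comp_localGaloisToGlobal_surjective :
    Function.Surjective ((cycloChar p).comp (localGaloisToGlobal p)) := by
  have hpp : p.Prime := Fact.out
  intro a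
  haveI : NeZero ((p : ℕ) : PadicAlgCl p) := ⟨by
    have : ((p : ℕ) : PadicAlgCl p) = algebraMap ℚ_[p] (PadicAlgCl p) (p : ℚ_[p]) := by simp
    rw [this, Ne, map_eq_zero_iff _ (algebraMap ℚ_[p] (PadicAlgCl p)).injective]
    exact_mod_cast hpp.ne_zero⟩
  obtain ⟨ζ, hζ⟩ : ∃ ζ : PadicAlgCl p, IsPrimitiveRoot ζ p := by
    have hdeg : (cyclotomic p (PadicAlgCl p)).degree ≠ 0 := by
      rw [degree_cyclotomic, Nat.totient_prime hpp]
      have := hpp.two_le
      intro h
      have : (p - 1 : ℕ) = 0 := by exact_mod_cast h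
      omega
    obtain ⟨ζ, hζ⟩ := IsAlgClosed.exists_root (cyclotomic p (PadicAlgCl p)) hdeg
    exact ⟨ζ, isRoot_cyclotomic_iff.mp hζ⟩
  obtain ⟨τ, hτ⟩ := exists_local_aut p a hζ
  exact ⟨τ, cycloChar_localGaloisToGlobal p a hζ τ hτ⟩

/-- The same statement in the Prelude's names (`primeLocalToGlobal (pPrime p)`). -/
theorem cycloChar_comp_primeLocalToGlobal_surjective :
    Function.Surjective ((cycloChar p).comp (primeLocalToGlobal (pPrime p))) :=
  cycloChar_comp_localGaloisToGlobal_surjective p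


/-! ### consequences in the language of the arithmetic site -/

open Fermat.Agent.S55.Formal Fermat.Agent.S55.Formal.PreludeLC Fermat.Agent.S55.Formal.ArithSite

/-- the global mod-`p` cyclotomic character is onto -/
theorem cycloChar_surjective : Function.Surjective (cycloChar p) := fun a => by
  obtain ⟨τ, hτ⟩ := cycloChar_comp_localGaloisToGlobal_surjective p a
  exact ⟨localGaloisToGlobal p τ, hτ⟩

/-- `ker χ_p = Gal(ℚ̄/ℚ(μ_p))` -/
theorem ker_cycloChar : (cycloChar p).ker = (cycloField p).fixingSubgroup := by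
  ext σ
  rw [MonoidHom.mem_ker, mem_fixingSubgroup_cycloField_iff]

/-- `ker χ_p` is a member of the global basis of the arithmetic site when `p ∈ S`. -/
theorem ker_cycloChar_mem_globalBasis {S : Finset Nat.Primes} (hpS : pPrime p ∈ S) :
    (globalBasis S).mem (cycloChar p).ker :=
  ⟨cycloField p, cycloField_isUnramifiedOutside (p := p) hpS,
    by rw [← ker_cycloChar]; infer_instance, ker_cycloChar p⟩

/-- `χ_p` is trivial on its kernel (in the `TrivOn` form of `Formal/Blocks`). -/
theorem trivOn_ker_cycloChar : TrivOn (cycloChar p) (cycloChar p).ker := fun _ hs => hs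

/-- the index of `ker χ_p` is `p - 1` -/
theorem index_ker_cycloChar : (cycloChar p).ker.index = p - 1 := by
  rw [Subgroup.index_ker, MonoidHom.range_eq_top.mpr (cycloChar_surjective p)]
  rw [Nat.card_congr (Subgroup.topEquiv : (⊤ : Subgroup (ZMod p)ˣ) ≃* (ZMod p)ˣ).toEquiv,
    Nat.card_eq_fintype_card, ZMod.card_units]

/-- the index of `ker χ_p` is invertible in `𝔽_p` -/
theorem index_ker_cycloChar_ne_zero : (((cycloChar p).ker.index : ℕ) : ZMod p) ≠ 0 := by
  have hpp : p.Prime := Fact.out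
  rw [index_ker_cycloChar, Ne, ZMod.natCast_eq_zero_iff]
  intro h
  have := Nat.le_of_dvd (by have := hpp.two_le; omega) h
  have := hpp.two_le
  omega

/-- **total ramification at `p`, group-theoretic form**: every coset of `ker χ_p` in `G_ℚ` meets
the image of the local Galois group at `p`. -/
theorem exists_local_mul_mem_ker (g : GQ) :
    ∃ τ : primeLocalGaloisGroup (pPrime p),
      (primeLocalToGlobal (pPrime p) τ)⁻¹ * g ∈ (cycloChar p).ker := by
  obtain ⟨τ, hτ⟩ := cycloChar_comp_primeLocalToGlobal_surjective p (cycloChar p g)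
  refine ⟨τ, ?_⟩
  rw [MonoidHom.mem_ker, map_mul, map_inv]
  rw [MonoidHom.comp_apply] at hτ
  rw [hτ, inv_mul_cancel]

/-- the same for the arithmetic site: the local group at the place `p` surjects onto
`G ⧸ ker χ_p`. -/
theorem arithSite_local_surjective {S : Finset Nat.Primes} (hpS : pPrime p ∈ S)
    (g : (arithSite S).G) :
    ∃ τ : (arithSite S).Γ ⟨pPrime p, hpS⟩,
      ((arithSite S).ι ⟨pPrime p, hpS⟩ τ)⁻¹ * g ∈ (cycloChar p).ker :=
  exists_local_mul_mem_ker p g

end Fermat.Agent.S55.Middle.LocalCycloSurj
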