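/-
S55 / Middle / OutDict (helper97, row `M.out.skeleton`, helper55 #1798): the GENERIC DICTIONARY
"localisation of a module isomorphic to a coinduced module", in the language of `Formal/LC`,
`Formal/Site`, `Bridge/ShapiroLC`, `Bridge/MackeyLC`, `Bridge/MackeyProd`.

Setting: `X : Site`, `V ≤ X.G` open, `A : Rep k V`, `M : Rep k X.G` with `e : M ≅ coind_V^G A`
(for `BaseA`: `M = k[G/U]`, `A = k`), and for every place `v` a finite set `T v ∋ 1` of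
representatives of `V \ G / ι_v(Γ_v)`.  Then, for `i = 1, 2`:

* `shEquiv_i  : H^i(G, M) ≃ H^i(V, A)`                                   (Shapiro);
* `locEquiv_i : Π_v H^i(Γ_v, M) ≃ Π_v Π_{t ∈ T v} H^i((Γ_v)_t, A_t)`        (Mackey + Shapiro);
* `locEquiv_i_res` : under these, `(res_v)_v` becomes `Lam_i = (κ_{v,t}^*)_{v,t}`;
* consequences: `P_i(M) ≃ Π Π …`, `Ш^i(M) ≃ ker Lam_i`, `coker loc₂ ≃ coker Lam₂`.
-/
import Fermat.Agent.S55.Formal.Blocks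
import Fermat.Agent.S55.Formal.SiteCount
import Fermat.Agent.S55.Formal.Functor
import Fermat.Agent.S55.Bridge.MackeyFinite
import Fermat.Agent.S55.Bridge.ScalarsLC

set_option autoImplicit false
set_option linter.unusedSectionVars false

open CategoryTheory groupCohomology Module

namespace Fermat.Agent.S55.Middle.OutDict

open Fermat.Agent.S55.Formal Fermat.Agent.S55.Bridge.ShapiroGeneric
  Fermat.Agent.S55.Bridge.ShapiroLC Fermat.Agent.S55.Bridge.Mackey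
  Fermat.Agent.S55.Bridge.MackeyLC Fermat.Agent.S55.Bridge.MackeyProd

/-! ### linear algebra: transport of kernels and cokernels along a square of isomorphisms -/

section LinAlg

variable {k : Type} [CommRing k] {A B A' B' : Type} [AddCommGroup A] [Module k A]
  [AddCommGroup B] [Module k B] [AddCommGroup A'] [Module k A'] [AddCommGroup B'] [Module k B']

/-- cokernels correspond -/
noncomputable def cokerEquiv (L : A →ₗ[k] B) (L' : A' →ₗ[k] B') (α : A ≃ₗ[k] A') (β : B ≃ₗ[k] B')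
    (h : ∀ x, β (L x) = L' (α x)) :
    (B ⧸ LinearMap.range L) ≃ₗ[k] (B' ⧸ LinearMap.range L') :=
  Submodule.Quotient.equiv (LinearMap.range L) (LinearMap.range L') β (by
    ext y
    constructor
    · rintro ⟨_, ⟨x, rfl⟩, rfl⟩
      exact ⟨α x, (h x).symm⟩
    · rintro ⟨x', rfl⟩
      refine ⟨L (α.symm x'), ⟨_, rfl⟩, ?_⟩
      show β (L (α.symm x')) = L' x'
      rw [h, α.apply_symm_apply])

/-- kernels correspond -/
noncomputable def kerEquiv (L : A →ₗ[k] B) (L' : A' →ₗ[k] B') (α : A ≃ₗ[k] A') (β : B ≃ₗ[k] B')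
    (h : ∀ x, β (L x) = L' (α x)) :
    ↥(LinearMap.ker L) ≃ₗ[k] ↥(LinearMap.ker L') :=
  α.ofSubmodules (LinearMap.ker L) (LinearMap.ker L') (by
    ext y
    constructor
    · rintro ⟨x, hx, rfl⟩
      show L' (α x) = 0
      rw [← h, LinearMap.mem_ker.1 hx, map_zero]
    · intro hy
      refine ⟨α.symm y, ?_, α.apply_symm_apply y⟩
      show L (α.symm y) = 0
      apply β.injective
      rw [h, α.apply_symm_apply, map_zero]
      exact hy)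

end LinAlg

/-! ### one local group -/

section OneGroup

variable {k : Type} [CommRing k] {G : Type} [Group G] {D : Type} [Group D]
variable (𝒰 : NBasis G) (𝒟 : NBasis D) (f : D →* G) (hf : IsCont 𝒰 𝒟 f)
variable (V : Subgroup G) (hV : ∃ N, 𝒰.mem N ∧ N ≤ V) (A : Rep.{0, 0, 0} k V)
variable {M : Rep.{0, 0, 0} k G} (e : M ≅ CoindV V A)

/-- Shapiro for a module isomorphic to a coinduced module: `(G, M) → (V, A)`. -/
noncomputable def shM : Mor 𝒰 M (subBasis 𝒰 V) A := (Mor.ofHom 𝒰 e.hom).comp (sh 𝒰 V A)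

theorem inv_hom_apply (m : M) : e.inv.hom (e.hom.hom m) = m := by
  have := congr($(e.hom_inv_id).hom m)
  exact this

theorem hom_inv_apply (c : CoindV V A) : e.hom.hom (e.inv.hom c) = c := by
  have := congr($(e.inv_hom_id).hom c)
  exact this

theorem ofHom_h1_bijective : Function.Bijective (Mor.ofHom 𝒰 e.hom).h1 :=
  Function.bijective_iff_has_inverse.2 ⟨(Mor.ofHom 𝒰 e.inv).h1,
    fun x => Bridge.ScalarsLC.h1_retract (Mor.ofHom 𝒰 e.hom) (Mor.ofHom 𝒰 e.inv)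
      (inv_hom_apply V A e) (fun _ => rfl) x,
    fun x => Bridge.ScalarsLC.h1_retract (Mor.ofHom 𝒰 e.inv) (Mor.ofHom 𝒰 e.hom)
      (hom_inv_apply V A e) (fun _ => rfl) x⟩

theorem ofHom_h2_bijective : Function.Bijective (Mor.ofHom 𝒰 e.hom).h2 :=
  Function.bijective_iff_has_inverse.2 ⟨(Mor.ofHom 𝒰 e.inv).h2,
    fun x => Bridge.ScalarsLC.h2_retract (Mor.ofHom 𝒰 e.hom) (Mor.ofHom 𝒰 e.inv)
      (inv_hom_apply V A e) (fun _ => rfl) x,
    fun x => Bridge.ScalarsLC.h2_retract (Mor.ofHom 𝒰 e.inv) (Mor.ofHom 𝒰 e.hom)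
      (hom_inv_apply V A e) (fun _ => rfl) x⟩

include hV in
theorem shM_h1_bijective : Function.Bijective (shM 𝒰 V A e).h1 := by
  have h : ⇑(shM 𝒰 V A e).h1 = ⇑(sh 𝒰 V A).h1 ∘ ⇑(Mor.ofHom 𝒰 e.hom).h1 := by
    funext x
    exact comp_h1 _ _ x
  rw [h]
  exact (sh_h1_bijective hV).comp (ofHom_h1_bijective 𝒰 V A e)

include hV in
theorem shM_h2_bijective : Function.Bijective (shM 𝒰 V A e).h2 := by
  have h : ⇑(shM 𝒰 V A e).h2 = ⇑(sh 𝒰 V A).h2 ∘ ⇑(Mor.ofHom 𝒰 e.hom).h2 := by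
    funext x
    exact comp_h2 _ _ x
  rw [h]
  exact (sh_h2_bijective hV).comp (ofHom_h2_bijective 𝒰 V A e)

/-- the coefficient isomorphism, restricted to `D` -/
noncomputable def resIso : Mor 𝒟 (Rep.res f M) 𝒟 (Rep.res f (CoindV V A)) :=
  coefMor 𝒟 e.hom.hom.toLinearMap (fun g m => Rep.hom_comm_apply e.hom (f g) m)

/-- its inverse -/
noncomputable def resIsoInv : Mor 𝒟 (Rep.res f (CoindV V A)) 𝒟 (Rep.res f M) :=
  coefMor 𝒟 e.inv.hom.toLinearMap (fun g m => Rep.hom_comm_apply e.inv (f g) m)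

theorem resIso_h1_bijective : Function.Bijective (resIso 𝒟 f V A e).h1 :=
  Function.bijective_iff_has_inverse.2 ⟨(resIsoInv 𝒟 f V A e).h1,
    fun x => Bridge.ScalarsLC.h1_retract (resIso 𝒟 f V A e) (resIsoInv 𝒟 f V A e)
      (inv_hom_apply V A e) (fun _ => rfl) x,
    fun x => Bridge.ScalarsLC.h1_retract (resIsoInv 𝒟 f V A e) (resIso 𝒟 f V A e)
      (hom_inv_apply V A e) (fun _ => rfl) x⟩

theorem resIso_h2_bijective : Function.Bijective (resIso 𝒟 f V A e).h2 :=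
  Function.bijective_iff_has_inverse.2 ⟨(resIsoInv 𝒟 f V A e).h2,
    fun x => Bridge.ScalarsLC.h2_retract (resIso 𝒟 f V A e) (resIsoInv 𝒟 f V A e)
      (inv_hom_apply V A e) (fun _ => rfl) x,
    fun x => Bridge.ScalarsLC.h2_retract (resIsoInv 𝒟 f V A e) (resIso 𝒟 f V A e)
      (hom_inv_apply V A e) (fun _ => rfl) x⟩

/-- the `t`-component of the localisation of `M`: `(D, res_f M) → (D_t, A_t)`. -/
noncomputable def locM (t : G) :
    Mor 𝒟 (Rep.res f M) (subBasis 𝒟 (conjSub f V t)) (conjCoef f V A t) :=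
  (resIso 𝒟 f V A e).comp (mackSh 𝒟 f V A t)

/-- the two ways round the square `M → coind → res_f coind` agree. -/
theorem res_comp_resIso :
    (Mor.res 𝒰 𝒟 f hf M).comp (resIso 𝒟 f V A e) =
      (Mor.ofHom 𝒰 e.hom).comp (Mor.res 𝒰 𝒟 f hf (CoindV V A)) :=
  Functor.mor_ext rfl rfl

section Reps

variable {T : Set G} [Finite T] (h1 : (1 : G) ∈ T) (hT : Covers (V := V) f T)
  (hS : Separated (V := V) f T)

include hf hV hT hS in
theorem locM_h1_bijective :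
    Function.Bijective (fun (x : H1 𝒟 (Rep.res f M)) (t : T) => (locM 𝒟 f V A e (t : G)).h1 x) := by
  have h : (fun (x : H1 𝒟 (Rep.res f M)) (t : T) => (locM 𝒟 f V A e (t : G)).h1 x) =
      (fun (y : H1 𝒟 (Rep.res f (CoindV V A))) (t : T) => (mackSh 𝒟 f V A (t : G)).h1 y) ∘
        ⇑(resIso 𝒟 f V A e).h1 := by
    funext x t
    exact comp_h1 _ _ x
  rw [h]
  exact (mackSh_h1_bijective 𝒰 𝒟 f hf V A hT hS hV).comp (resIso_h1_bijective 𝒟 f V A e)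

include hf hV hT hS in
theorem locM_h2_bijective :
    Function.Bijective (fun (x : H2 𝒟 (Rep.res f M)) (t : T) => (locM 𝒟 f V A e (t : G)).h2 x) := by
  have h : (fun (x : H2 𝒟 (Rep.res f M)) (t : T) => (locM 𝒟 f V A e (t : G)).h2 x) =
      (fun (y : H2 𝒟 (Rep.res f (CoindV V A))) (t : T) => (mackSh 𝒟 f V A (t : G)).h2 y) ∘
        ⇑(resIso 𝒟 f V A e).h2 := by
    funext x t
    exact comp_h2 _ _ x
  rw [h]
  exact (mackSh_h2_bijective 𝒰 𝒟 f hf V A hT hS hV).comp (resIso_h2_bijective 𝒟 f V A e)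

include hV h1 hS in
/-- **the localisation square, `H¹`.** -/
theorem locM_res_h1 (t : G) (ht : t ∈ T) (x : H1 𝒰 M) :
    (locM 𝒟 f V A e t).h1 ((Mor.res 𝒰 𝒟 f hf M).h1 x) =
      (kap 𝒰 𝒟 f hf V A t).h1 ((shM 𝒰 V A e).h1 x) := by
  obtain ⟨r, hr⟩ := exists_retraction_normalised (V := V) (f := f) h1 hS
  calc (locM 𝒟 f V A e t).h1 ((Mor.res 𝒰 𝒟 f hf M).h1 x)
      = (mackSh 𝒟 f V A t).h1 ((resIso 𝒟 f V A e).h1 ((Mor.res 𝒰 𝒟 f hf M).h1 x)) :=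
        comp_h1 _ _ _
    _ = (mackSh 𝒟 f V A t).h1 (((Mor.res 𝒰 𝒟 f hf M).comp (resIso 𝒟 f V A e)).h1 x) :=
        congrArg _ (comp_h1 _ _ x).symm
    _ = (mackSh 𝒟 f V A t).h1
          (((Mor.ofHom 𝒰 e.hom).comp (Mor.res 𝒰 𝒟 f hf (CoindV V A))).h1 x) :=
        congrArg (fun α : Mor 𝒰 M 𝒟 (Rep.res f (CoindV V A)) => (mackSh 𝒟 f V A t).h1 (α.h1 x))
          (res_comp_resIso 𝒰 𝒟 f hf V A e)
    _ = (mackSh 𝒟 f V A t).h1
          ((Mor.res 𝒰 𝒟 f hf (CoindV V A)).h1 ((Mor.ofHom 𝒰 e.hom).h1 x)) :=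
        congrArg _ (comp_h1 _ _ x)
    _ = (locSh 𝒰 𝒟 f hf V A t).h1 ((Mor.ofHom 𝒰 e.hom).h1 x) :=
        (locSh_eq_h1 𝒰 𝒟 f hf V A t _).symm
    _ = (kap 𝒰 𝒟 f hf V A t).h1 ((sh 𝒰 V A).h1 ((Mor.ofHom 𝒰 e.hom).h1 x)) :=
        locSh_h1 hf A hV r (hr t ht) _
    _ = (kap 𝒰 𝒟 f hf V A t).h1 ((shM 𝒰 V A e).h1 x) :=
        congrArg _ (comp_h1 _ _ x).symm

include hV h1 hS in
/-- **the localisation square, `H²`.** -/
theorem locM_res_h2 (t : G) (ht : t ∈ T) (x : H2 𝒰 M) :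
    (locM 𝒟 f V A e t).h2 ((Mor.res 𝒰 𝒟 f hf M).h2 x) =
      (kap 𝒰 𝒟 f hf V A t).h2 ((shM 𝒰 V A e).h2 x) := by
  obtain ⟨r, hr⟩ := exists_retraction_normalised (V := V) (f := f) h1 hS
  calc (locM 𝒟 f V A e t).h2 ((Mor.res 𝒰 𝒟 f hf M).h2 x)
      = (mackSh 𝒟 f V A t).h2 ((resIso 𝒟 f V A e).h2 ((Mor.res 𝒰 𝒟 f hf M).h2 x)) :=
        comp_h2 _ _ _
    _ = (mackSh 𝒟 f V A t).h2 (((Mor.res 𝒰 𝒟 f hf M).comp (resIso 𝒟 f V A e)).h2 x) :=
        congrArg _ (comp_h2 _ _ x).symm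
    _ = (mackSh 𝒟 f V A t).h2
          (((Mor.ofHom 𝒰 e.hom).comp (Mor.res 𝒰 𝒟 f hf (CoindV V A))).h2 x) :=
        congrArg (fun α : Mor 𝒰 M 𝒟 (Rep.res f (CoindV V A)) => (mackSh 𝒟 f V A t).h2 (α.h2 x))
          (res_comp_resIso 𝒰 𝒟 f hf V A e)
    _ = (mackSh 𝒟 f V A t).h2
          ((Mor.res 𝒰 𝒟 f hf (CoindV V A)).h2 ((Mor.ofHom 𝒰 e.hom).h2 x)) :=
        congrArg _ (comp_h2 _ _ x)
    _ = (locSh 𝒰 𝒟 f hf V A t).h2 ((Mor.ofHom 𝒰 e.hom).h2 x) :=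
        (locSh_eq_h2 𝒰 𝒟 f hf V A t _).symm
    _ = (kap 𝒰 𝒟 f hf V A t).h2 ((sh 𝒰 V A).h2 ((Mor.ofHom 𝒰 e.hom).h2 x)) :=
        locSh_h2 hf A hV r (hr t ht) _
    _ = (kap 𝒰 𝒟 f hf V A t).h2 ((shM 𝒰 V A e).h2 x) :=
        congrArg _ (comp_h2 _ _ x).symm

end Reps

end OneGroup

/-! ### the site -/

section SiteLevel

open Site

variable {k : Type} [CommRing k] (X : Site) (V : Subgroup X.G) (hV : X.𝒰.IsOpen V)
variable (A : Rep.{0, 0, 0} k V) {M : Rep.{0, 0, 0} k X.G} (e : M ≅ CoindV V A)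

/-- For every place `v`, `T v` is a finite set of representatives, containing `1`, of the double
cosets `V \ G / ι_v(Γ_v)`. -/
structure IsReps (T : ∀ v : X.I, Set X.G) : Prop where
  one_mem : ∀ v, (1 : X.G) ∈ T v
  finite : ∀ v, Finite (T v)
  covers : ∀ v, Covers (V := V) (X.ι v) (T v)
  separated : ∀ v, Separated (V := V) (X.ι v) (T v)

include hV in
theorem exists_isReps : ∃ T : ∀ v : X.I, Set X.G, IsReps X V T := by
  have := Bridge.MackeyFinite.finiteIndex_of_open hV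
  choose T h1 hfin hT hS _ using fun v : X.I => Bridge.MackeyFinite.exists_finite_reps V (X.ι v)
  exact ⟨T, h1, hfin, hT, hS⟩

variable (T : ∀ v : X.I, Set X.G)

/-- `Π_v Π_{t ∈ T v} H¹((Γ_v)_t, A_t)` -/
abbrev LocProd₁ : Type :=
  ∀ v : X.I, ∀ t : T v, H1 (subBasis (X.𝒱 v) (conjSub (X.ι v) V (t : X.G)))
    (conjCoef (X.ι v) V A (t : X.G))

/-- `Π_v Π_{t ∈ T v} H²((Γ_v)_t, A_t)` -/
abbrev LocProd₂ : Type :=
  ∀ v : X.I, ∀ t : T v, H2 (subBasis (X.𝒱 v) (conjSub (X.ι v) V (t : X.G)))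
    (conjCoef (X.ι v) V A (t : X.G))

/-- `Λ₁ = (κ_{v,t}^*)_{v,t} : H¹(V, A) → Π_v Π_t H¹((Γ_v)_t, A_t)` -/
noncomputable def Lam₁ : H1 (subBasis X.𝒰 V) A →ₗ[k] LocProd₁ X V A T :=
  LinearMap.pi fun v => LinearMap.pi fun t : T v =>
    (kap X.𝒰 (X.𝒱 v) (X.ι v) (X.cont v) V A (t : X.G)).h1

/-- `Λ₂ = (κ_{v,t}^*)_{v,t} : H²(V, A) → Π_v Π_t H²((Γ_v)_t, A_t)` -/
noncomputable def Lam₂ : H2 (subBasis X.𝒰 V) A →ₗ[k] LocProd₂ X V A T :=
  LinearMap.pi fun v => LinearMap.pi fun t : T v =>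
    (kap X.𝒰 (X.𝒱 v) (X.ι v) (X.cont v) V A (t : X.G)).h2

@[simp] theorem Lam₁_apply (x : H1 (subBasis X.𝒰 V) A) (v : X.I) (t : T v) :
    Lam₁ X V A T x v t = (kap X.𝒰 (X.𝒱 v) (X.ι v) (X.cont v) V A (t : X.G)).h1 x := rfl

@[simp] theorem Lam₂_apply (x : H2 (subBasis X.𝒰 V) A) (v : X.I) (t : T v) :
    Lam₂ X V A T x v t = (kap X.𝒰 (X.𝒱 v) (X.ι v) (X.cont v) V A (t : X.G)).h2 x := rfl

/-- Shapiro: `H¹(G, M) ≃ H¹(V, A)` -/
noncomputable def shEquiv₁ : H1 X.𝒰 M ≃ₗ[k] H1 (subBasis X.𝒰 V) A :=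
  LinearEquiv.ofBijective (shM X.𝒰 V A e).h1 (shM_h1_bijective X.𝒰 V hV A e)

/-- Shapiro: `H²(G, M) ≃ H²(V, A)` -/
noncomputable def shEquiv₂ : H2 X.𝒰 M ≃ₗ[k] H2 (subBasis X.𝒰 V) A :=
  LinearEquiv.ofBijective (shM X.𝒰 V A e).h2 (shM_h2_bijective X.𝒰 V hV A e)

variable {T} (hT : IsReps X V T)

/-- Mackey + Shapiro: `Π_v H¹(Γ_v, M) ≃ Π_v Π_t H¹((Γ_v)_t, A_t)` -/
noncomputable def locEquiv₁ : (∀ v : X.I, H1 (X.𝒱 v) (X.loc M v)) ≃ₗ[k] LocProd₁ X V A T :=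
  LinearEquiv.piCongrRight fun v =>
    haveI := hT.finite v
    LinearEquiv.ofBijective
      (LinearMap.pi fun t : T v => (locM (X.𝒱 v) (X.ι v) V A e (t : X.G)).h1)
      (locM_h1_bijective X.𝒰 (X.𝒱 v) (X.ι v) (X.cont v) V hV A e (hT.covers v) (hT.separated v))

/-- Mackey + Shapiro: `Π_v H²(Γ_v, M) ≃ Π_v Π_t H²((Γ_v)_t, A_t)` -/
noncomputable def locEquiv₂ : (∀ v : X.I, H2 (X.𝒱 v) (X.loc M v)) ≃ₗ[k] LocProd₂ X V A T :=
  LinearEquiv.piCongrRight fun v =>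
    haveI := hT.finite v
    LinearEquiv.ofBijective
      (LinearMap.pi fun t : T v => (locM (X.𝒱 v) (X.ι v) V A e (t : X.G)).h2)
      (locM_h2_bijective X.𝒰 (X.𝒱 v) (X.ι v) (X.cont v) V hV A e (hT.covers v) (hT.separated v))

theorem locEquiv₁_res (x : H1 X.𝒰 M) :
    locEquiv₁ X V hV A e hT (fun v => (X.res M v).h1 x) =
      Lam₁ X V A T (shEquiv₁ X V hV A e x) := by
  funext v t
  have := hT.finite v
  exact locM_res_h1 X.𝒰 (X.𝒱 v) (X.ι v) (X.cont v) V hV A e (hT.one_mem v) (hT.separated v)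
    (t : X.G) t.2 x

theorem locEquiv₂_res (x : H2 X.𝒰 M) :
    locEquiv₂ X V hV A e hT (fun v => (X.res M v).h2 x) =
      Lam₂ X V A T (shEquiv₂ X V hV A e x) := by
  funext v t
  have := hT.finite v
  exact locM_res_h2 X.𝒰 (X.𝒱 v) (X.ι v) (X.cont v) V hV A e (hT.one_mem v) (hT.separated v)
    (t : X.G) t.2 x

/-- `P¹(M) ≃ Π_v Π_t H¹((Γ_v)_t, A_t)` -/
noncomputable def P1Equiv : X.P1 M ≃ₗ[k] LocProd₁ X V A T :=
  (SiteCount.P1equiv X M).trans (locEquiv₁ X V hV A e hT)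

/-- `P²(M) ≃ Π_v Π_t H²((Γ_v)_t, A_t)` -/
noncomputable def P2Equiv : X.P2 M ≃ₗ[k] LocProd₂ X V A T :=
  (SiteCount.P2equiv X M).trans (locEquiv₂ X V hV A e hT)

theorem P1Equiv_loc₁ (x : H1 X.𝒰 M) :
    P1Equiv X V hV A e hT (X.loc₁ M x) = Lam₁ X V A T (shEquiv₁ X V hV A e x) := by
  have h : SiteCount.P1equiv X M (X.loc₁ M x) = fun v => (X.res M v).h1 x :=
    funext fun v => SiteCount.P1equiv_loc₁ X M x v
  calc P1Equiv X V hV A e hT (X.loc₁ M x)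
      = locEquiv₁ X V hV A e hT (SiteCount.P1equiv X M (X.loc₁ M x)) := rfl
    _ = locEquiv₁ X V hV A e hT (fun v => (X.res M v).h1 x) := congrArg _ h
    _ = Lam₁ X V A T (shEquiv₁ X V hV A e x) := locEquiv₁_res X V hV A e hT x

theorem P2Equiv_loc₂ (x : H2 X.𝒰 M) :
    P2Equiv X V hV A e hT (X.loc₂ M x) = Lam₂ X V A T (shEquiv₂ X V hV A e x) := by
  have h : SiteCount.P2equiv X M (X.loc₂ M x) = fun v => (X.res M v).h2 x :=
    funext fun v => SiteCount.P2equiv_loc₂ X M x v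
  calc P2Equiv X V hV A e hT (X.loc₂ M x)
      = locEquiv₂ X V hV A e hT (SiteCount.P2equiv X M (X.loc₂ M x)) := rfl
    _ = locEquiv₂ X V hV A e hT (fun v => (X.res M v).h2 x) := congrArg _ h
    _ = Lam₂ X V A T (shEquiv₂ X V hV A e x) := locEquiv₂_res X V hV A e hT x

/-- `Ш¹(M) ≃ ker Λ₁` -/
noncomputable def sha1Equiv : ↥(X.sha1 M) ≃ₗ[k] ↥(LinearMap.ker (Lam₁ X V A T)) :=
  kerEquiv (X.loc₁ M) (Lam₁ X V A T) (shEquiv₁ X V hV A e) (P1Equiv X V hV A e hT)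
    (P1Equiv_loc₁ X V hV A e hT)

/-- `Ш²(M) ≃ ker Λ₂` -/
noncomputable def sha2Equiv : ↥(X.sha2 M) ≃ₗ[k] ↥(LinearMap.ker (Lam₂ X V A T)) :=
  kerEquiv (X.loc₂ M) (Lam₂ X V A T) (shEquiv₂ X V hV A e) (P2Equiv X V hV A e hT)
    (P2Equiv_loc₂ X V hV A e hT)

/-- `coker loc₂ ≃ coker Λ₂` -/
noncomputable def cokerLoc₂Equiv :
    (X.P2 M ⧸ LinearMap.range (X.loc₂ M)) ≃ₗ[k]
      (LocProd₂ X V A T ⧸ LinearMap.range (Lam₂ X V A T)) :=
  cokerEquiv (X.loc₂ M) (Lam₂ X V A T) (shEquiv₂ X V hV A e) (P2Equiv X V hV A e hT)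
    (P2Equiv_loc₂ X V hV A e hT)

end SiteLevel

end Fermat.Agent.S55.Middle.OutDict
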