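/-
S55 / Middle / OutSkeleton (helper97, row `M.out.skeleton`, helper55 #1798):
`Formal.BaseA X k χ` FROM `U`-LEVEL DATA, for an arbitrary site `X`.

`ULevel X k χ` is the list of statements, all about the TRIVIAL module `k` over open subgroups
(global: `(P, subBasis X.𝒰 P)`, local: `(P, subBasis (X.𝒱 v) P)`) and about the maps
`κ_{v,t}^* : H^i(U, k) → H^i((Γ_v)_t, k)` (`OutDict.Lam₁`, `OutDict.Lam₂`), from which all fields
of `BaseA` follow by the generic dictionary (Shapiro: `LM/ShapiroPerm`; Mackey + Shapiro for the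
localisation maps: `Bridge/MackeyLC`, `Bridge/MackeyProd`, `OutDict`; the cone count:
`Formal/SiteCount`; `k[G/U]' ≅ k[G/U]`: `Formal/PermSelfDualLC`).

`baseA_of_uLevel : ULevel X k χ → BaseA X k χ`, and for the arithmetic sites
`arithBase_of_uLevel : (∀ p odd, S ∋ p, ULevel (arithSite S) (ZMod p) (cycloChar p)) → ArithBase`.
-/
import Fermat.Agent.S55.Middle.OutDict
import Fermat.Agent.S55.Formal.ArithSite
import Fermat.Agent.S55.Formal.PermSelfDualLC
import Fermat.Agent.S55.LM.ShapiroPerm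

set_option autoImplicit false
set_option linter.unusedSectionVars false

open CategoryTheory groupCohomology Module ExtCitation

namespace Fermat.Agent.S55.Middle.OutSkeleton

open Fermat.Agent.S55.Formal Fermat.Agent.S55.Bridge.ShapiroLC Fermat.Agent.S55.Bridge.Mackey
  Fermat.Agent.S55.Bridge.MackeyLC Fermat.Agent.S55.Middle.OutDict

/-- **The `U`-level base**: what Middle (global fields), LM (local fields) and M.inv have to
deliver.  All modules are the trivial module `k`; `P`, `U` range over open subgroups on which `χ`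
is trivial. -/
structure ULevel (X : Site) (k : Type) [Field k] (χ : X.G →* kˣ) : Prop where
  /-- there is at least one place -/
  nonempty : Nonempty X.I
  /-- `χ` is smooth -/
  chi_smooth : ∃ U, X.𝒰.mem U ∧ TrivOn χ U
  /-- (A-inv), literally as in `BaseA` -/
  inv : ∃ inv : ∀ v : X.I, H2 (X.𝒱 v) (X.loc (mu χ) v) →ₗ[k] k,
    (∀ v, inv v ≠ 0) ∧ ∀ x : H2 X.𝒰 (mu χ), ∑ v, inv v ((X.res (mu χ) v).h2 x) = 0
  /-- global `H³(P, k) = 0` -/
  vanish₃ : ∀ P : Subgroup X.G, X.𝒰.IsOpen P → TrivOn χ P →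
    Vanish₃ (subBasis X.𝒰 P) (Rep.trivial k P k)
  /-- local `H³(P, k) = 0` -/
  vanish₃_loc : ∀ (v : X.I) (P : Subgroup (X.Γ v)), (X.𝒱 v).IsOpen P →
    TrivOn (χ.comp (X.ι v)) P → Vanish₃ (subBasis (X.𝒱 v) P) (Rep.trivial k P k)
  /-- global `H¹(P, k)` is finite -/
  fin₁ : ∀ P : Subgroup X.G, X.𝒰.IsOpen P → TrivOn χ P →
    Module.Finite k (H1 (subBasis X.𝒰 P) (Rep.trivial k P k))
  /-- global `H²(P, k)` is finite -/
  fin₂ : ∀ P : Subgroup X.G, X.𝒰.IsOpen P → TrivOn χ P →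
    Module.Finite k (H2 (subBasis X.𝒰 P) (Rep.trivial k P k))
  /-- local `dim H²(U, k) ≤ 1` -/
  loc₂ : ∀ (v : X.I) (U : Subgroup (X.Γ v)), (X.𝒱 v).mem U → TrivOn (χ.comp (X.ι v)) U →
    Module.Finite k (H2 (subBasis (X.𝒱 v) U) (Rep.trivial k U k)) ∧
      finrank k (H2 (subBasis (X.𝒱 v) U) (Rep.trivial k U k)) ≤ 1
  /-- (C4): `dim coker (Λ₂ : H²(U, k) → Π_v Π_t H²((Γ_v)_t, k)) ≤ 1` -/
  g₃ : ∀ U, X.𝒰.mem U → TrivOn χ U → ∃ T : ∀ v : X.I, Set X.G, IsReps X U T ∧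
    Module.Finite k (LocProd₂ X U (Rep.trivial k U k) T ⧸
      LinearMap.range (Lam₂ X U (Rep.trivial k U k) T)) ∧
    finrank k (LocProd₂ X U (Rep.trivial k U k) T ⧸
      LinearMap.range (Lam₂ X U (Rep.trivial k U k) T)) ≤ 1
  /-- (C6): `Σ_{v,t} h¹((Γ_v)_t, k) + dim ker Λ₁ + dim ker Λ₂ ≤ 2 h¹(U, k)` -/
  g₂ : ∀ U, X.𝒰.mem U → TrivOn χ U → ∃ T : ∀ v : X.I, Set X.G, IsReps X U T ∧
    Module.Finite k (LocProd₁ X U (Rep.trivial k U k) T) ∧
    finrank k (LocProd₁ X U (Rep.trivial k U k) T) +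
        finrank k ↥(LinearMap.ker (Lam₁ X U (Rep.trivial k U k) T)) +
        finrank k ↥(LinearMap.ker (Lam₂ X U (Rep.trivial k U k) T)) ≤
      2 * finrank k (H1 (subBasis X.𝒰 U) (Rep.trivial k U k))

section Main

variable {X : Site} {k : Type} [Field k] {χ : X.G →* kˣ}

open LM.ShapiroPerm

/-- `k[G/U] ≅ coind_U^G k` -/
noncomputable def permE (U : Subgroup X.G) [U.FiniteIndex] :
    perm k U ≅ CoindV U (Rep.trivial k U k) :=
  permIso k U

theorem g₃_of (h : ULevel X k χ) (U : Subgroup X.G) (hU : X.𝒰.mem U) (hχ : TrivOn χ U) :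
    Module.Finite k (X.P2 (perm k U) ⧸ LinearMap.range (X.loc₂ (perm k U))) ∧
    finrank k (X.P2 (perm k U) ⧸ LinearMap.range (X.loc₂ (perm k U))) ≤ 1 := by
  haveI := X.𝒰.finiteIndex hU
  obtain ⟨T, hT, hfin, hle⟩ := h.g₃ U hU hχ
  have hV : X.𝒰.IsOpen U := isOpen_of_mem X.𝒰 hU
  let E := cokerLoc₂Equiv X U hV (Rep.trivial k U k) (permE U) hT
  exact ⟨Module.Finite.equiv E.symm, E.finrank_eq.le.trans hle⟩

theorem nat_aux {a b c d e c' d' e' b' : ℕ} (hcount : a + b = c + d + e) (e1 : c = c')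
    (e2 : d = d') (e3 : e = e') (e4 : b = b') (hle : c' + d' + e' ≤ 2 * b') : a ≤ b' := by
  omega

theorem g₂_of (h : ULevel X k χ) (U : Subgroup X.G) (hU : X.𝒰.mem U) (hχ : TrivOn χ U) :
    Module.Finite k (X.H2c (perm k U)) ∧
    finrank k (X.H2c (perm k U)) ≤ finrank k (H1 X.𝒰 (tw (perm k U) χ)) := by
  haveI := X.𝒰.finiteIndex hU
  obtain ⟨T, hT, hfin, hle⟩ := h.g₂ U hU hχ
  have hV : X.𝒰.IsOpen U := isOpen_of_mem X.𝒰 hU
  -- finiteness
  have f1 : Module.Finite k (H1 X.𝒰 (perm k U)) :=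
    (finite_H1_perm_iff X.𝒰 U hV).2 (h.fin₁ U hV hχ)
  have f2 : Module.Finite k (H2 X.𝒰 (perm k U)) :=
    (finite_H2_perm_iff X.𝒰 U hV).2 (h.fin₂ U hV hχ)
  have fP : Module.Finite k (X.P1 (perm k U)) :=
    Module.Finite.equiv (P1Equiv X U hV (Rep.trivial k U k) (permE U) hT).symm
  have fc : Module.Finite k (X.H2c (perm k U)) :=
    @SiteCount.finite_H2c k _ X (perm k U) fP f2
  refine ⟨fc, ?_⟩
  -- the count
  have hcount := @SiteCount.finrank_H2c_add k _ X (perm k U) f1 fP fc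
  have e1 : finrank k (X.P1 (perm k U)) = finrank k (LocProd₁ X U (Rep.trivial k U k) T) :=
    (P1Equiv X U hV (Rep.trivial k U k) (permE U) hT).finrank_eq
  have e2 : finrank k ↥(X.sha1 (perm k U)) =
      finrank k ↥(LinearMap.ker (Lam₁ X U (Rep.trivial k U k) T)) :=
    (sha1Equiv X U hV (Rep.trivial k U k) (permE U) hT).finrank_eq
  have e3 : finrank k ↥(X.sha2 (perm k U)) =
      finrank k ↥(LinearMap.ker (Lam₂ X U (Rep.trivial k U k) T)) :=
    (sha2Equiv X U hV (Rep.trivial k U k) (permE U) hT).finrank_eq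
  have e4 : finrank k (H1 X.𝒰 (perm k U)) =
      finrank k (H1 (subBasis X.𝒰 U) (Rep.trivial k U k)) :=
    finrank_H1_perm X.𝒰 U hV
  have e5 : finrank k (H1 X.𝒰 (tw (perm k U) χ)) = finrank k (H1 X.𝒰 (perm k U)) :=
    PermSelfDualLC.finrank_h1_tw_perm_of_mem X.𝒰 hU χ hχ
  exact (nat_aux hcount e1 e2 e3 e4 hle).trans (le_of_eq (e5.trans e4).symm)

/-- **`BaseA` from the `U`-level base.** -/
theorem baseA_of_uLevel (h : ULevel X k χ) : BaseA X k χ where
  nonempty := h.nonempty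
  chi_smooth := h.chi_smooth
  inv := h.inv
  vanish₃ P hP hχ := vanish₃_perm_of_triv X.𝒰 P hP (h.vanish₃ P hP hχ)
  vanish₃_loc v P hP hχ := vanish₃_perm_of_triv (X.𝒱 v) P hP (h.vanish₃_loc v P hP hχ)
  fin₁ P hP hχ := (finite_H1_perm_iff X.𝒰 P hP).2 (h.fin₁ P hP hχ)
  fin₂ P hP hχ := (finite_H2_perm_iff X.𝒰 P hP).2 (h.fin₂ P hP hχ)
  loc₂ v U hU hχ := loc₂_perm_of_triv (X.𝒱 v) U (isOpen_of_mem (X.𝒱 v) hU) (h.loc₂ v U hU hχ)
  g₃ U hU hχ := g₃_of h U hU hχ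
  g₂ U hU hχ := g₂_of h U hU hχ

end Main

/-- **`ArithBase` from the `U`-level bases of the arithmetic sites.** -/
theorem arithBase_of_uLevel
    (h : ∀ {p : ℕ} [Fact p.Prime], p ≠ 2 → ∀ (S : Finset Nat.Primes), pPrime p ∈ S →
      ULevel (ArithSite.arithSite S) (ZMod p) (cycloChar p)) :
    ArithSite.ArithBase := fun hp2 S hpS => baseA_of_uLevel (h hp2 S hpS)

end Fermat.Agent.S55.Middle.OutSkeleton
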