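/-
S55 / Middle / OutArith (helper97, row `M.out.arith`):
`ArithBase` FROM the outputs of the Middle block (`Blocks.Outputs p S`), the local facts of LM
(`LM.Out.Facts q P`) and the invariant maps (M.inv).

* the dictionary between the `K`-site `KSite.siteOver S P R` (places `Σ q, T_q`) and the
  doubly indexed products `OutDict.LocProd₁/₂ (arithSite S) P A R.T`, maps `OutDict.Lam₁/₂`:
  `P1E`, `P2E`, `P1E_loc₁`, `P2E_loc₂`, `sha1E`, `sha2E`, `cokerE`;
* `isReps_of_reps`, `exists_reps` : `KSite.Reps S P` versus `OutDict.IsReps (arithSite S) P T`;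
* `baseA_of_outputs`, `arithBase_of_outputs`.
-/
import Fermat.Agent.S55.Middle.OutSkeleton
import Fermat.Agent.S55.Middle.Blocks
import Fermat.Agent.S55.Formal.ArithChi
import Fermat.Agent.S55.Formal.HmidPi
import Fermat.Agent.S55.LM.Out

set_option autoImplicit false
set_option linter.unusedSectionVars false

open CategoryTheory groupCohomology Module ExtCitation

namespace Fermat.Agent.S55.Middle.OutArith

open Fermat.Agent.S55.Formal Fermat.Agent.S55.Formal.ArithSite
open Fermat.Agent.S55.Formal.PreludeLC hiding GQ Qbar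
open Fermat.Agent.S55.Bridge.ShapiroLC Fermat.Agent.S55.Bridge.Mackey
  Fermat.Agent.S55.Bridge.MackeyLC Fermat.Agent.S55.Middle.OutDict
  Fermat.Agent.S55.Middle.Defs Fermat.Agent.S55.Middle.KSite

noncomputable section

/-! ### the `K`-site versus the doubly indexed products -/

section Dict

variable {k : Type} [CommRing k] (S : Finset Nat.Primes) (P : Subgroup GQ) (R : Reps S P)
variable (A : Rep.{0, 0, 0} k ↥P)

/-- representatives in the sense of `KSite` are representatives in the sense of `OutDict`. -/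
theorem isReps_of_reps : IsReps (arithSite S) P R.T :=
  ⟨R.one_mem, R.fin, R.covers, R.separated⟩

/-- conversely. -/
def repsOf {T : (arithSite S).I → Set (arithSite S).G} (hT : IsReps (arithSite S) P T) :
    Reps S P where
  T := T
  fin := hT.finite
  one_mem := hT.one_mem
  covers := hT.covers
  separated := hT.separated

/-- `Π_{(q,t)} H¹ ≃ Π_q Π_t H¹` -/
def curry₁ : (∀ i : R.Idx, H1 ((siteOver S P R).𝒱 i) ((siteOver S P R).loc A i)) ≃ₗ[k]
    LocProd₁ (arithSite S) P A R.T :=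
  LinearEquiv.piCurry k (fun (v : (arithSite S).I) (t : ↥(R.T v)) =>
    H1 (subBasis ((arithSite S).𝒱 v) (conjSub ((arithSite S).ι v) P (t : GQ)))
      (conjCoef ((arithSite S).ι v) P A (t : GQ)))

/-- `Π_{(q,t)} H² ≃ Π_q Π_t H²` -/
def curry₂ : (∀ i : R.Idx, H2 ((siteOver S P R).𝒱 i) ((siteOver S P R).loc A i)) ≃ₗ[k]
    LocProd₂ (arithSite S) P A R.T :=
  LinearEquiv.piCurry k (fun (v : (arithSite S).I) (t : ↥(R.T v)) =>
    H2 (subBasis ((arithSite S).𝒱 v) (conjSub ((arithSite S).ι v) P (t : GQ)))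
      (conjCoef ((arithSite S).ι v) P A (t : GQ)))

/-- `P¹` of the `K`-site as the doubly indexed product -/
def P1E : (siteOver S P R).P1 A ≃ₗ[k] LocProd₁ (arithSite S) P A R.T :=
  ((siteOver S P R).P1equiv A).trans (curry₁ S P R A)

/-- `P²` of the `K`-site as the doubly indexed product -/
def P2E : (siteOver S P R).P2 A ≃ₗ[k] LocProd₂ (arithSite S) P A R.T :=
  ((siteOver S P R).P2equiv A).trans (curry₂ S P R A)

theorem P1E_loc₁ (x : H1 (basisP S P) A) :
    P1E S P R A ((siteOver S P R).loc₁ A x) = Lam₁ (arithSite S) P A R.T x := by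
  funext v t
  exact (siteOver S P R).P1equiv_loc₁ A x ⟨v, t⟩

theorem P2E_loc₂ (x : H2 (basisP S P) A) :
    P2E S P R A ((siteOver S P R).loc₂ A x) = Lam₂ (arithSite S) P A R.T x := by
  funext v t
  exact (siteOver S P R).P2equiv_loc₂ A x ⟨v, t⟩

/-- `Ш¹` of the `K`-site is `ker Λ₁` -/
def sha1E : ↥((siteOver S P R).sha1 A) ≃ₗ[k] ↥(LinearMap.ker (Lam₁ (arithSite S) P A R.T)) :=
  kerEquiv ((siteOver S P R).loc₁ A) (Lam₁ (arithSite S) P A R.T)
    (LinearEquiv.refl k _) (P1E S P R A) (P1E_loc₁ S P R A)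

/-- `Ш²` of the `K`-site is `ker Λ₂` -/
def sha2E : ↥((siteOver S P R).sha2 A) ≃ₗ[k] ↥(LinearMap.ker (Lam₂ (arithSite S) P A R.T)) :=
  kerEquiv ((siteOver S P R).loc₂ A) (Lam₂ (arithSite S) P A R.T)
    (LinearEquiv.refl k _) (P2E S P R A) (P2E_loc₂ S P R A)

/-- `coker loc₂` of the `K`-site is `coker Λ₂` -/
def cokerE : ((siteOver S P R).P2 A ⧸ LinearMap.range ((siteOver S P R).loc₂ A)) ≃ₗ[k]
    (LocProd₂ (arithSite S) P A R.T ⧸ LinearMap.range (Lam₂ (arithSite S) P A R.T)) :=
  cokerEquiv ((siteOver S P R).loc₂ A) (Lam₂ (arithSite S) P A R.T)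
    (LinearEquiv.refl k _) (P2E S P R A) (P2E_loc₂ S P R A)

end Dict

/-! ### the arithmetic base from the outputs of Middle, LM and M.inv -/

section Main

open Fermat.Agent.S55.Middle.Blocks Fermat.Agent.S55.Middle.OutSkeleton
  Fermat.Agent.S55.LM.ShapiroPerm

variable (p : ℕ) [Fact p.Prime] (S : Finset Nat.Primes)

/-- **(A-inv)** for the arithmetic site, literally the field `BaseA.inv`: nonzero local invariants
on `H²(ℚ_q, μ_p)`, `q ∈ S`, whose sum vanishes on `H²(G_S, μ_p)` (reciprocity). -/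
def InvArith : Prop :=
  ∃ inv : ∀ v : (arithSite S).I,
      H2 ((arithSite S).𝒱 v) ((arithSite S).loc (mu (cycloChar p)) v) →ₗ[ZMod p] ZMod p,
    (∀ v, inv v ≠ 0) ∧ ∀ x : H2 (arithSite S).𝒰 (mu (cycloChar p)),
      ∑ v, inv v (((arithSite S).res (mu (cycloChar p)) v).h2 x) = 0

/-- **(A-V) local**, literally the field `BaseA.vanish₃_loc` (delivered by `LM.Out`). -/
def LocVanish₃ : Prop :=
  ∀ (v : (arithSite S).I) (P : Subgroup ((arithSite S).Γ v)), ((arithSite S).𝒱 v).IsOpen P →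
    TrivOn ((cycloChar p).comp ((arithSite S).ι v)) P →
      Vanish₃ ((arithSite S).𝒱 v) (perm (ZMod p) P)

/-- **(A-L) local**, literally the field `BaseA.loc₂` (delivered by `LM.Out`). -/
def LocDim₂ : Prop :=
  ∀ (v : (arithSite S).I) (U : Subgroup ((arithSite S).Γ v)), ((arithSite S).𝒱 v).mem U →
    TrivOn ((cycloChar p).comp ((arithSite S).ι v)) U →
      Module.Finite (ZMod p) (H2 ((arithSite S).𝒱 v) (perm (ZMod p) U)) ∧
        finrank (ZMod p) (H2 ((arithSite S).𝒱 v) (perm (ZMod p) U)) ≤ 1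

variable {p S}

theorem level_of {P : Subgroup GQ} (hP : (arithSite S).𝒰.IsOpen P)
    (hχ : TrivOn (cycloChar p) P) : Level p S P :=
  ⟨hP, hχ⟩

/-- `KG3` in the doubly indexed language. -/
theorem g₃_transfer (h : KG3 p S) (U : Subgroup GQ) (hV : (arithSite S).𝒰.IsOpen U)
    (hχ : TrivOn (cycloChar p) U) (R : Reps S U) :
    Module.Finite (ZMod p) (LocProd₂ (arithSite S) U (kP p U) R.T ⧸
        LinearMap.range (Lam₂ (arithSite S) U (kP p U) R.T)) ∧
      finrank (ZMod p) (LocProd₂ (arithSite S) U (kP p U) R.T ⧸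
        LinearMap.range (Lam₂ (arithSite S) U (kP p U) R.T)) ≤ 1 := by
  have h1 := h U (level_of hV hχ) R
  have E := cokerE S U R (kP p U)
  have h2 := E.finrank_eq
  have h3 := h1.2
  have h1' := h1.1
  have h5 := Module.Finite.equiv E
  rw [h2] at h3
  exact ⟨h5, h3⟩

set_option maxHeartbeats 1000000 in
/-- `KG2` in the doubly indexed language. -/
theorem g₂_transfer (h : KG2 p S) (U : Subgroup GQ) (hV : (arithSite S).𝒰.IsOpen U)
    (hχ : TrivOn (cycloChar p) U) (R : Reps S U) :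
    Module.Finite (ZMod p) (LocProd₁ (arithSite S) U (kP p U) R.T) ∧
      finrank (ZMod p) (LocProd₁ (arithSite S) U (kP p U) R.T) +
          finrank (ZMod p) ↥(LinearMap.ker (Lam₁ (arithSite S) U (kP p U) R.T)) +
          finrank (ZMod p) ↥(LinearMap.ker (Lam₂ (arithSite S) U (kP p U) R.T)) ≤
        2 * finrank (ZMod p) (H1 (basisP S U) (kP p U)) := by
  have h1 := h U (level_of hV hχ) R
  have e1 := (P1E S U R (kP p U)).finrank_eq
  have e2 := (sha1E S U R (kP p U)).finrank_eq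
  have e3 := (sha2E S U R (kP p U)).finrank_eq
  have h1' := h1.1
  have h5 := Module.Finite.equiv (P1E S U R (kP p U))
  have h3 := h1.2.2
  rw [e1, e2, e3] at h3
  exact ⟨h5, h3⟩

/-- the `U`-level field `g₃` from `KG3`. -/
theorem uLevel_g₃ (h : KG3 p S) (U : Subgroup GQ) (hU : (arithSite S).𝒰.mem U)
    (hχ : TrivOn (cycloChar p) U) :
    ∃ T : (arithSite S).I → Set (arithSite S).G, IsReps (arithSite S) U T ∧
      Module.Finite (ZMod p) (LocProd₂ (arithSite S) U (Rep.trivial (ZMod p) U (ZMod p)) T ⧸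
        LinearMap.range (Lam₂ (arithSite S) U (Rep.trivial (ZMod p) U (ZMod p)) T)) ∧
      finrank (ZMod p) (LocProd₂ (arithSite S) U (Rep.trivial (ZMod p) U (ZMod p)) T ⧸
        LinearMap.range (Lam₂ (arithSite S) U (Rep.trivial (ZMod p) U (ZMod p)) T)) ≤ 1 := by
  have hV : (arithSite S).𝒰.IsOpen U := isOpen_of_mem (arithSite S).𝒰 hU
  have : U.FiniteIndex := (arithSite S).𝒰.finiteIndex hU
  exact (nonempty_reps S U).elim fun R =>
    ⟨R.T, isReps_of_reps S U R, g₃_transfer h U hV hχ R⟩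

/-- the `U`-level field `g₂` from `KG2`. -/
theorem uLevel_g₂ (h : KG2 p S) (U : Subgroup GQ) (hU : (arithSite S).𝒰.mem U)
    (hχ : TrivOn (cycloChar p) U) :
    ∃ T : (arithSite S).I → Set (arithSite S).G, IsReps (arithSite S) U T ∧
      Module.Finite (ZMod p) (LocProd₁ (arithSite S) U (Rep.trivial (ZMod p) U (ZMod p)) T) ∧
      finrank (ZMod p) (LocProd₁ (arithSite S) U (Rep.trivial (ZMod p) U (ZMod p)) T) +
          finrank (ZMod p)
            ↥(LinearMap.ker (Lam₁ (arithSite S) U (Rep.trivial (ZMod p) U (ZMod p)) T)) +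
          finrank (ZMod p)
            ↥(LinearMap.ker (Lam₂ (arithSite S) U (Rep.trivial (ZMod p) U (ZMod p)) T)) ≤
        2 * finrank (ZMod p) (H1 (subBasis (arithSite S).𝒰 U) (Rep.trivial (ZMod p) U (ZMod p))) := by
  have hV : (arithSite S).𝒰.IsOpen U := isOpen_of_mem (arithSite S).𝒰 hU
  have : U.FiniteIndex := (arithSite S).𝒰.finiteIndex hU
  exact (nonempty_reps S U).elim fun R =>
    ⟨R.T, isReps_of_reps S U R, g₂_transfer h U hV hχ R⟩

set_option maxHeartbeats 1000000 in
/-- **The `U`-level base of the arithmetic site** from the outputs of the Middle block, the local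
fields of LM and the invariant maps. -/
theorem uLevel_of_outputs (hpS : pPrime p ∈ S) (hout : Outputs p S) (hinv : InvArith p S)
    (hv : LocVanish₃ p S) (hl : LocDim₂ p S) :
    ULevel (arithSite S) (ZMod p) (cycloChar p) where
  nonempty := ⟨⟨pPrime p, hpS⟩⟩
  chi_smooth := ArithChi.chi_smooth hpS
  inv := hinv
  vanish₃ P hP hχ := hout.vanish₃ P (level_of hP hχ)
  vanish₃_loc v P hP hχ := (vanish₃_perm_iff ((arithSite S).𝒱 v) P hP).1 (hv v P hP hχ)
  fin₁ P hP hχ := (hout.fin P (level_of hP hχ)).1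
  fin₂ P hP hχ := (hout.fin P (level_of hP hχ)).2
  loc₂ v U hU hχ := by
    have hop : ((arithSite S).𝒱 v).IsOpen U := isOpen_of_mem _ hU
    obtain ⟨h1, h2⟩ := hl v U hU hχ
    exact ⟨(finite_H2_perm_iff ((arithSite S).𝒱 v) U hop).1 h1,
      (finrank_H2_perm ((arithSite S).𝒱 v) U hop).symm.le.trans h2⟩
  g₃ U hU hχ := uLevel_g₃ hout.g₃ U hU hχ
  g₂ U hU hχ := uLevel_g₂ hout.g₂ U hU hχ

/-- **`BaseA` of the arithmetic site** from the outputs of Middle, LM and M.inv. -/
theorem baseA_of_outputs (hpS : pPrime p ∈ S) (hout : Outputs p S) (hinv : InvArith p S)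
    (hv : LocVanish₃ p S) (hl : LocDim₂ p S) :
    BaseA (arithSite S) (ZMod p) (cycloChar p) :=
  baseA_of_uLevel (uLevel_of_outputs hpS hout hinv hv hl)

/-- the local fields from the finite-level facts of LM. -/
theorem locVanish₃_of_facts
    (F : ∀ (q : Nat.Primes) (P : Subgroup (LM.Defs.Gq q)), (LM.Defs.Vq q).IsOpen P →
      LM.Out.Facts q P) : LocVanish₃ p S :=
  LM.Out.vanish₃_loc_arith p S F

theorem locDim₂_of_facts
    (F : ∀ (q : Nat.Primes) (P : Subgroup (LM.Defs.Gq q)), (LM.Defs.Vq q).IsOpen P →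
      LM.Out.Facts q P) : LocDim₂ p S :=
  LM.Out.loc₂_arith p S F

/-- **`ArithBase`** from: the outputs of the Middle block and the invariants for all odd `p ∈ S`,
and the finite-level local facts of LM. -/
theorem arithBase_of_outputs
    (hout : ∀ {p : ℕ} [Fact p.Prime], p ≠ 2 → ∀ (S : Finset Nat.Primes), pPrime p ∈ S →
      Outputs p S)
    (hinv : ∀ {p : ℕ} [Fact p.Prime], p ≠ 2 → ∀ (S : Finset Nat.Primes), pPrime p ∈ S →
      InvArith p S)
    (F : ∀ (q : Nat.Primes) (P : Subgroup (LM.Defs.Gq q)), (LM.Defs.Vq q).IsOpen P →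
      LM.Out.Facts q P) :
    ArithSite.ArithBase := fun hp2 S hpS =>
  baseA_of_outputs hpS (hout hp2 S hpS) (hinv hp2 S hpS) (locVanish₃_of_facts F)
    (locDim₂_of_facts F)

end Main

end

end Fermat.Agent.S55.Middle.OutArith
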