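/-
S55 / Middle, row M.inv.arith (helper73): THE FIELD `BaseA.inv` FOR THE ARITHMETIC SITES.

* `hns_of_uLevel` (generic, any `Site`): NO SINGLE SUPPORT at the `U`-level (in the doubly indexed
  language `OutDict.LocProd₂ / Lam₂`: a class of `H²(U, A)` which is locally trivial at all places
  `(v, t)` but one is locally trivial there too) together with the nonvanishing of one local
  `H²((Γ_v)_t, A_t)` above every `v` gives the containment form of no-single-support for
  `M ≅ coind_U^G A` consumed by `InvDescent.baseA_inv_of_perm_noSingleSupport`.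
* `invArith_of_outputs` : `Blocks.KG3 p S → Blocks.KNoSingleSupport p S → OutArith.InvArith p S`
  (the local inputs are the unconditional theorems of the LM block; `U = ker χ_p`, `v0 = p`).
-/
import Fermat.Agent.S55.Middle.InvDescent
import Fermat.Agent.S55.Middle.OutArith
import Fermat.Agent.S55.Middle.PermResTransitive
import Fermat.Agent.S55.Middle.LocalCycloSurj
import Fermat.Agent.S55.LM.OutTriv
import Fermat.Agent.S55.LM.H2MuTwist

set_option autoImplicit false
set_option linter.unusedSectionVars false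

open CategoryTheory groupCohomology Module ExtCitation

namespace Fermat.Agent.S55.Middle.InvArith

open Fermat.Agent.S55.Formal Fermat.Agent.S55.Formal.ArithSite
open Fermat.Agent.S55.Formal.PreludeLC hiding GQ Qbar
open Fermat.Agent.S55.Bridge.ShapiroLC Fermat.Agent.S55.Bridge.Mackey
  Fermat.Agent.S55.Bridge.MackeyLC Fermat.Agent.S55.Middle.OutDict

noncomputable section

/-! ### the linear-algebra core -/

section Core

variable {k : Type} [Field k] {I : Type} [Fintype I] [DecidableEq I]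
  {H : I → Type} [∀ v, AddCommGroup (H v)] [∀ v, Module k (H v)]
  {Tt : I → Type} {Lf : ∀ v, Tt v → Type} [∀ v t, AddCommGroup (Lf v t)]
  [∀ v t, Module k (Lf v t)]
  {Gm G' P : Type} [AddCommGroup Gm] [Module k Gm] [AddCommGroup G'] [Module k G']
  [AddCommGroup P] [Module k P]

/-- **Core of the transfer of no-single-support.** -/
theorem nss_core (eP : P ≃ₗ[k] ∀ v, H v) (L : Gm →ₗ[k] P) (res : ∀ v, Gm →ₗ[k] H v)
    (hL : ∀ x v, eP (L x) v = res v x)
    (E : (∀ v, H v) ≃ₗ[k] ∀ v, ∀ t : Tt v, Lf v t) (hE : ∀ z v, z v = 0 → E z v = 0)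
    (Lam : G' →ₗ[k] ∀ v, ∀ t : Tt v, Lf v t) (sh : Gm → G')
    (hcomp : ∀ x, E (fun v => res v x) = Lam (sh x))
    (hnss : ∀ (x' : G') (v0 : I) (t0 : Tt v0),
      (∀ (v : I) (t : Tt v), (⟨v, t⟩ : Σ v : I, Tt v) ≠ ⟨v0, t0⟩ → Lam x' v t = 0) →
        Lam x' v0 t0 = 0)
    (v0 : I) (t0 : Tt v0) (y : Lf v0 t0) (hy : y ≠ 0) :
    ∃ w : H v0, eP.symm (Pi.single v0 w) ∉ LinearMap.range L := by
  classical
  refine ⟨(E.symm (Pi.single v0 (Pi.single t0 y))) v0, ?_⟩
  rintro ⟨x, hx⟩
  set w' := E.symm (Pi.single v0 (Pi.single t0 y)) with hw'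
  have h1 : (fun v => res v x) = Pi.single v0 (w' v0) := by
    funext v
    rw [← hL, hx, LinearEquiv.apply_symm_apply]
  have h2 : E (Pi.single v0 (w' v0)) = Pi.single v0 (Pi.single t0 y) := by
    funext v
    by_cases hv : v = v0
    · subst hv
      have hz : (Pi.single v (w' v) - w') v = 0 := by
        rw [Pi.sub_apply, Pi.single_eq_same, sub_self]
      have := hE _ v hz
      rw [map_sub, Pi.sub_apply, sub_eq_zero] at this
      rw [this, hw', LinearEquiv.apply_symm_apply]
    · rw [hE _ v (Pi.single_eq_of_ne hv _), Pi.single_eq_of_ne hv]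
  have h3 : Lam (sh x) = Pi.single v0 (Pi.single t0 y) := by
    rw [← hcomp, h1, h2]
  have h4 := hnss (sh x) v0 t0 (fun v t hne => by
    rw [h3]
    by_cases hv : v = v0
    · subst hv
      rw [Pi.single_eq_same, Pi.single_eq_of_ne]
      intro ht
      exact hne (by rw [ht])
    · rw [Pi.single_eq_of_ne hv]
      rfl)
  rw [h3, Pi.single_eq_same, Pi.single_eq_same] at h4
  exact hy h4

end Core

/-! ### generic: no single support, from the `U`-level to `M ≅ coind_U^G A` -/

section Generic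

variable {k : Type} [Field k] (X : Site) (U : Subgroup X.G)
variable (A : Rep.{0, 0, 0} k U) {M : Rep.{0, 0, 0} k X.G}
variable {T : X.I → Set X.G}

theorem locEquiv₂_apply (hV : X.𝒰.IsOpen U) (e : M ≅ CoindV U A) (hT : IsReps X U T)
    (z : ∀ v : X.I, H2 (X.𝒱 v) (X.loc M v)) (v : X.I) (t : T v) :
    locEquiv₂ X U hV A e hT z v t = (locM (X.𝒱 v) (X.ι v) U A e (t : X.G)).h2 (z v) := rfl

/-- the `U`-level no-single-support statement, in the doubly indexed language -/
def NssU : Prop :=
  ∀ (x : H2 (subBasis X.𝒰 U) A) (v0 : X.I) (t0 : T v0),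
    (∀ (v : X.I) (t : T v), (⟨v, t⟩ : Σ v : X.I, T v) ≠ ⟨v0, t0⟩ → Lam₂ X U A T x v t = 0) →
      Lam₂ X U A T x v0 t0 = 0

/-- above every place `v` some local `H²` is nonzero -/
def NzU : Prop :=
  ∀ v : X.I, ∃ (t : T v) (y : H2 (subBasis (X.𝒱 v) (conjSub (X.ι v) U (t : X.G)))
    (conjCoef (X.ι v) U A (t : X.G))), y ≠ 0

theorem hns_of_uLevel (hV : X.𝒰.IsOpen U) (e : M ≅ CoindV U A) (hT : IsReps X U T)
    (hnss : NssU X U A (T := T)) (hnz : NzU X U A (T := T)) :
    ∀ v : X.I, ∃ w : H2 (X.𝒱 v) (X.loc M v),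
      (X.P2equiv M).symm (Pi.single v w) ∉ LinearMap.range (X.loc₂ M) := by
  intro v0
  obtain ⟨t0, y, hy⟩ := hnz v0
  exact nss_core (X.P2equiv M) (X.loc₂ M) (fun v => (X.res M v).h2)
    (fun x v => X.P2equiv_loc₂ M x v) (locEquiv₂ X U hV A e hT)
    (fun z v hz => by
      funext t
      rw [locEquiv₂_apply, hz, map_zero]
      rfl)
    (Lam₂ X U A T) (shEquiv₂ X U hV A e) (fun x => locEquiv₂_res X U hV A e hT x)
    hnss v0 t0 y hy

end Generic

/-! ### the arithmetic sites -/

section Arith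

open Fermat.Agent.S55.Middle.Blocks Fermat.Agent.S55.Middle.KSite Fermat.Agent.S55.Middle.OutArith
  Fermat.Agent.S55.Middle.LocalCycloSurj Fermat.Agent.S55.LM.ShapiroPerm

variable (p : ℕ) [Fact p.Prime] (S : Finset Nat.Primes)

/-- the trivial place `t = 1` above `v`: the local group is the preimage of `U` -/
theorem mem_conjSub_one {G D : Type} [Group G] [Group D] (f : D →* G) (V : Subgroup G) (d : D) :
    d ∈ conjSub f V 1 ↔ f d ∈ V := by
  show 1 * f d * 1⁻¹ ∈ V ↔ f d ∈ V
  rw [one_mul, inv_one, mul_one]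

/-- `ker χ_p ∩ Γ_q` is a member of the local basis -/
theorem comap_ker_mem_localBasis (q : Nat.Primes) :
    (localBasis (primeLocalToGlobal q)).mem ((cycloChar p).ker.comap (primeLocalToGlobal q)) := by
  obtain ⟨F, hF, hn, hU⟩ := ker_cycloChar_mem_globalBasis p (S := {pPrime p})
    (Finset.mem_singleton_self _)
  exact ⟨F, hF.1, hn, by rw [hU]⟩

/-- the local group at the place `(v, 1)` of `ℚ(μ_p)` is open -/
theorem isOpen_conjSub_one (v : (arithSite S).I) :
    ((arithSite S).𝒱 v).IsOpen (conjSub ((arithSite S).ι v) (cycloChar p).ker 1) :=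
  ⟨(cycloChar p).ker.comap (primeLocalToGlobal v.1), comap_ker_mem_localBasis p v.1,
    fun d hd => (mem_conjSub_one _ _ d).mpr hd⟩

/-- `χ_p` is trivial on the local group at the place `(v, 1)` of `ℚ(μ_p)` -/
theorem trivOn_conjSub_one (v : (arithSite S).I) :
    TrivOn ((cycloChar p).comp ((arithSite S).ι v))
      (conjSub ((arithSite S).ι v) (cycloChar p).ker 1) :=
  fun d hd => (mem_conjSub_one _ _ d).mp hd

/-- above every `v ∈ S` the local `H²` at the place `(v, 1)` of `ℚ(μ_p)` is nonzero -/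
theorem nzU (R : Reps S (cycloChar p).ker) :
    NzU (arithSite S) (cycloChar p).ker (kP p (cycloChar p).ker) (T := R.T) := by
  intro v
  obtain ⟨hfin, hrk⟩ := Fermat.Agent.S55.LM.OutTriv.loc₂_eq_one_ulevel p S v
    (conjSub ((arithSite S).ι v) (cycloChar p).ker 1) (isOpen_conjSub_one p S v)
    (trivOn_conjSub_one p S v)
  have hpos : 0 < finrank (ZMod p) (H2 (subBasis ((arithSite S).𝒱 v)
      (conjSub ((arithSite S).ι v) (cycloChar p).ker 1))
      (Rep.trivial (ZMod p) (conjSub ((arithSite S).ι v) (cycloChar p).ker 1) (ZMod p))) := by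
    rw [hrk]
    exact Nat.one_pos
  obtain ⟨y, hy⟩ := (Module.finrank_pos_iff_exists_ne_zero).mp hpos
  exact ⟨⟨1, R.one_mem v⟩, y, hy⟩

/-- `KNoSingleSupport` in the doubly indexed language -/
theorem nssU (hpS : pPrime p ∈ S) (hn : KNoSingleSupport p S) (R : Reps S (cycloChar p).ker) :
    NssU (arithSite S) (cycloChar p).ker (kP p (cycloChar p).ker) (T := R.T) := by
  intro x v0 t0 h
  have hlev : Level p S (cycloChar p).ker :=
    ⟨⟨_, ker_cycloChar_mem_globalBasis p hpS, le_rfl⟩, fun g hg => hg⟩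
  exact hn (cycloChar p).ker hlev R x ⟨v0, t0⟩ (fun i hi => h i.1 i.2 hi)

/-- **(A-inv) for the arithmetic site** from the two global outputs `KG3`, `KNoSingleSupport` of the
Middle block (all local inputs are unconditional theorems of the LM block). -/
theorem invArith_of_outputs (hpS : pPrime p ∈ S) (hg : KG3 p S) (hn : KNoSingleSupport p S) :
    InvArith p S := by
  have hU : (arithSite S).𝒰.mem (cycloChar p).ker := ker_cycloChar_mem_globalBasis p hpS
  have hV : (arithSite S).𝒰.IsOpen (cycloChar p).ker := ⟨_, hU, le_rfl⟩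
  have hχ : TrivOn (cycloChar p) (cycloChar p).ker := trivOn_ker_cycloChar p
  have hfi : (cycloChar p).ker.FiniteIndex := (arithSite S).𝒰.finiteIndex hU
  obtain ⟨R⟩ := nonempty_reps S (cycloChar p).ker
  have hT := isReps_of_reps S (cycloChar p).ker R
  -- (A-G3) for `perm k U`
  have hg3 := g₃_transfer hg (cycloChar p).ker hV hχ R
  have E := cokerLoc₂Equiv (arithSite S) (cycloChar p).ker hV
    (Rep.trivial (ZMod p) (cycloChar p).ker (ZMod p)) (permIso (ZMod p) (cycloChar p).ker) hT
  have hfin : Module.Finite (ZMod p) ((arithSite S).P2 (perm (ZMod p) (cycloChar p).ker) ⧸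
      LinearMap.range ((arithSite S).loc₂ (perm (ZMod p) (cycloChar p).ker))) :=
    @Module.Finite.equiv _ _ _ _ _ _ _ _ hg3.1 E.symm
  have hrank : finrank (ZMod p) ((arithSite S).P2 (perm (ZMod p) (cycloChar p).ker) ⧸
      LinearMap.range ((arithSite S).loc₂ (perm (ZMod p) (cycloChar p).ker))) ≤ 1 :=
    E.finrank_eq.le.trans hg3.2
  -- no single support for `perm k U`
  have hns := hns_of_uLevel (arithSite S) (cycloChar p).ker
    (Rep.trivial (ZMod p) (cycloChar p).ker (ZMod p)) hV (permIso (ZMod p) (cycloChar p).ker) hT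
    (nssU p S hpS hn R) (nzU p S R)
  -- the place `p`
  have h0 := PermResTransitive.finite_finrank_H2_res_perm_cyclo p (ZMod p)
    ((arithSite S).𝒱 ⟨pPrime p, hpS⟩) 1
    (Fermat.Agent.S55.LM.OutFinal.loc₂_arith p S ⟨pPrime p, hpS⟩
      ((cycloChar p).ker.comap (primeLocalToGlobal (pPrime p)))
      (comap_ker_mem_localBasis p (pPrime p)) (fun d hd => hd))
  exact InvDescent.baseA_inv_of_perm_noSingleSupport (arithSite S) (cycloChar p) (cycloChar p).ker
    hU hχ (index_ker_cycloChar_ne_zero p) hfin hrank hns ⟨pPrime p, hpS⟩ h0.1 h0.2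
    (Fermat.Agent.S55.LM.H2MuTwist.h2_mu_ne_zero_arith S p ⟨pPrime p, hpS⟩)

end Arith

end

end Fermat.Agent.S55.Middle.InvArith
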