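/-
S55 / Middle (helper73): `ArithBase` FROM THE OUTPUTS OF THE MIDDLE BLOCK ALONE.

`OutArith.arithBase_of_outputs` (helper97) needs `Blocks.Outputs p S`, `OutArith.InvArith p S` and the
finite-level local facts `LM.Out.Facts`.  The second is `InvArith.invArith_of_outputs` (from the fields
`g₃`, `nss` of `Outputs`), the third is the unconditional `LM.OutFinal.facts`.  Hence:

  `arithBase_of_outputs : (∀ p odd, ∀ S ∋ p, Blocks.Outputs p S) → ArithSite.ArithBase`

and, with `Formal.Main.formalMain`, the frozen S55 follows from `Blocks.Outputs` alone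
(`Formal.Top.result_of_arithBase`).
-/
import Fermat.Agent.S55.Middle.InvArith
import Fermat.Agent.S55.LM.OutFinal

set_option autoImplicit false

open ExtCitation

namespace Fermat.Agent.S55.Middle.ArithBaseOfOutputs

open Fermat.Agent.S55.Formal Fermat.Agent.S55.Middle.Blocks

/-- **`ArithBase` from `Blocks.Outputs` alone.** -/
theorem arithBase_of_outputs
    (hout : ∀ {p : ℕ} [Fact p.Prime], p ≠ 2 → ∀ (S : Finset Nat.Primes), pPrime p ∈ S →
      Outputs p S) :
    ArithSite.ArithBase :=
  OutArith.arithBase_of_outputs (fun hp2 S hpS => hout hp2 S hpS)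
    (fun {p} _ hp2 S hpS =>
      InvArith.invArith_of_outputs p S hpS (hout hp2 S hpS).g₃ (hout hp2 S hpS).nss)
    (fun q P hP => Fermat.Agent.S55.LM.OutFinal.facts q P hP)

end Fermat.Agent.S55.Middle.ArithBaseOfOutputs
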