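/-
S55 / Middle / OutputsOpen (helper48): ONE-FILE ASSEMBLY of the outputs of the Middle block from the
FIVE closed Props still open (table #2284 of helper17), everything else being a theorem on main:

  `Blocks.HasseO p S`, `Blocks.H2ODivisible p S`, `Blocks2.ImageG3 p S`, `Blocks2.ImageNSS p S`,
  `Blocks.H3OTorsion p S`.

* `outputs_of_open (hp2) (hpS) hH hD hG hN hT : Blocks.Outputs p S`
    - `vanish₃` : `H3MuInst.kVanish₃` (helper58),
    - `fin`     : `FinLocal.kFin` (helper48; local input discharged by LM),
    - `g₃`, `nss` : `KummerSquare.kG3`, `KummerSquare.kNSS` (helper17),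
    - `g₂`      : `KG2Final.kg2_of_hasse` (helper53/65/10/94) with `KummerSquare.nonempty_kummerSq`.
* `arithBase_of_open` : `Formal.ArithSite.ArithBase` from the five Props (for all odd `p ∈ S`) and the
  invariant maps, the latter in the form `Outputs p S → OutArith.InvArith p S` (row M.inv), through
  `OutArith.arithBase_of_outputs` (helper97) and `LM.OutFinal.facts` (helper72).
-/
import Mathlib
import Fermat.Agent.S55.Middle.FinLocal
import Fermat.Agent.S55.Middle.KummerSquare
import Fermat.Agent.S55.Middle.KG2Final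
import Fermat.Agent.S55.Middle.H3MuInst
import Fermat.Agent.S55.Middle.OutArith
import Fermat.Agent.S55.LM.OutFinal

set_option autoImplicit false

namespace Fermat.Agent.S55.Middle.OutputsOpen

open ExtCitation
open Fermat.Agent.S55.Formal
open Fermat.Agent.S55.Formal.PreludeLC hiding GQ Qbar
open Fermat.Agent.S55.Middle.Defs Fermat.Agent.S55.Middle.KSite Fermat.Agent.S55.Middle.Blocks
open Fermat.Agent.S55.Middle.Blocks2

/-- the five open Props of the Middle block, bundled. -/
structure OpenProps (p : ℕ) [Fact p.Prime] (S : Finset Nat.Primes) : Prop where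
  hasseO : HasseO p S
  h2ODivisible : H2ODivisible p S
  imageG3 : ImageG3 p S
  imageNSS : ImageNSS p S
  h3OTorsion : H3OTorsion p S

variable {p : ℕ} [hp : Fact p.Prime] {S : Finset Nat.Primes}

/-- **the five open Props of the Middle block give all its outputs.** -/
theorem outputs_of_open (hp2 : p ≠ 2) (hpS : pPrime p ∈ S)
    (hH : HasseO p S) (hD : H2ODivisible p S) (hG : ImageG3 p S) (hN : ImageNSS p S)
    (hT : H3OTorsion p S) : Outputs p S where
  vanish₃ := H3MuInst.kVanish₃ p S hpS hT hD
  fin := FinLocal.kFin hpS hH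
  g₃ := KummerSquare.kG3 p S hpS hG
  g₂ := KG2Final.kg2_of_hasse p S
    (by
      have h2 := hp.out.two_le
      omega) hpS (KummerSquare.nonempty_kummerSq p S hpS) hH
  nss := KummerSquare.kNSS p S hpS hN

theorem outputs_of_openProps (hp2 : p ≠ 2) (hpS : pPrime p ∈ S) (h : OpenProps p S) :
    Outputs p S :=
  outputs_of_open hp2 hpS h.hasseO h.h2ODivisible h.imageG3 h.imageNSS h.h3OTorsion

/-- **`ArithBase` from the five open Props** (and the invariant maps, deduced from the outputs). -/
theorem arithBase_of_open
    (hopen : ∀ {p : ℕ} [Fact p.Prime], p ≠ 2 → ∀ (S : Finset Nat.Primes), pPrime p ∈ S →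
      OpenProps p S)
    (hinv : ∀ {p : ℕ} [Fact p.Prime], p ≠ 2 → ∀ (S : Finset Nat.Primes), pPrime p ∈ S →
      Outputs p S → OutArith.InvArith p S) :
    ArithSite.ArithBase :=
  OutArith.arithBase_of_outputs
    (fun hp2 S hpS => outputs_of_openProps hp2 hpS (hopen hp2 S hpS))
    (fun hp2 S hpS => hinv hp2 S hpS (outputs_of_openProps hp2 hpS (hopen hp2 S hpS)))
    Fermat.Agent.S55.LM.OutFinal.facts

end Fermat.Agent.S55.Middle.OutputsOpen
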