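/-
S55 / Middle / ArithBaseOpen (helper48): `Formal.ArithSite.ArithBase` FROM THE FIVE OPEN PROPS ALONE.

`OutputsOpen.outputs_of_openProps` (the five Props ⇒ `Blocks.Outputs p S`) composed with
`InvFinal.arithBase_of_outputs_only` (helper41: `Blocks.Outputs` ⇒ `ArithBase`, the invariant maps
being deduced from the outputs).
-/
import Mathlib
import Fermat.Agent.S55.Middle.OutputsOpen
import Fermat.Agent.S55.Middle.InvFinal

set_option autoImplicit false

namespace Fermat.Agent.S55.Middle.ArithBaseOpen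

open ExtCitation
open Fermat.Agent.S55.Formal
open Fermat.Agent.S55.Middle.Blocks Fermat.Agent.S55.Middle.Blocks2
open Fermat.Agent.S55.Middle.OutputsOpen

/-- **`ArithBase` from the five open Props of the Middle block**, for all odd `p ∈ S`. -/
theorem arithBase_of_openProps
    (hopen : ∀ {p : ℕ} [Fact p.Prime], p ≠ 2 → ∀ (S : Finset Nat.Primes), pPrime p ∈ S →
      OpenProps p S) :
    ArithSite.ArithBase :=
  InvFinal.arithBase_of_outputs_only
    fun hp2 S hpS => outputs_of_openProps hp2 hpS (hopen hp2 S hpS)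

/-- the same, unbundled. -/
theorem arithBase_of_five
    (hH : ∀ {p : ℕ} [Fact p.Prime], p ≠ 2 → ∀ (S : Finset Nat.Primes), pPrime p ∈ S →
      HasseO p S)
    (hD : ∀ {p : ℕ} [Fact p.Prime], p ≠ 2 → ∀ (S : Finset Nat.Primes), pPrime p ∈ S →
      H2ODivisible p S)
    (hG : ∀ {p : ℕ} [Fact p.Prime], p ≠ 2 → ∀ (S : Finset Nat.Primes), pPrime p ∈ S →
      ImageG3 p S)
    (hN : ∀ {p : ℕ} [Fact p.Prime], p ≠ 2 → ∀ (S : Finset Nat.Primes), pPrime p ∈ S →
      ImageNSS p S)
    (hT : ∀ {p : ℕ} [Fact p.Prime], p ≠ 2 → ∀ (S : Finset Nat.Primes), pPrime p ∈ S →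
      H3OTorsion p S) :
    ArithSite.ArithBase :=
  arithBase_of_openProps fun hp2 S hpS =>
    ⟨hH hp2 S hpS, hD hp2 S hpS, hG hp2 S hpS, hN hp2 S hpS, hT hp2 S hpS⟩

end Fermat.Agent.S55.Middle.ArithBaseOpen
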