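/-
S55 / MIDDLE block (helper17): `Blocks.KVanish₃` from `Blocks.H3Mu` (transfer `μ_p ≅ 𝔽_p` over `P`
by `MuIso.muIso` and restriction of scalars `ScalarsLC.vanish₃_toInt_iff`).
-/
import Fermat.Agent.S55.Middle.Blocks
import Fermat.Agent.S55.Middle.MuIso

set_option autoImplicit false

open CategoryTheory groupCohomology ExtCitation

namespace Fermat.Agent.S55.Middle.BlocksKV

open Fermat.Agent.S55.Formal
open Fermat.Agent.S55.Formal.PreludeLC hiding GQ Qbar
open Fermat.Agent.S55.Middle.Defs Fermat.Agent.S55.Middle.KSite Fermat.Agent.S55.Middle.Blocks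
open Fermat.Agent.S55.Bridge.ScalarsLC

variable (p : ℕ) [Fact p.Prime] (S : Finset Nat.Primes)

/-- **(K-V)** from **(C5)**: `H³_LC(P; μ_p) = 0 ⇒ H³_LC(P; 𝔽_p) = 0`. -/
theorem kVanish₃_of_h3Mu (h : H3Mu p S) : KVanish₃ p S := by
  intro P hP
  have h1 : Vanish₃ (basisP S P) (toInt (kP p P)) :=
    (vanish₃_iso_iff (basisP S P) (MuIso.muIso p P hP.triv)).2 (h P hP)
  exact (vanish₃_toInt_iff (basisP S P) (kP p P)).1 h1

end Fermat.Agent.S55.Middle.BlocksKV
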