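/-
S55 / MIDDLE block, ImageInst hub, leaf (B6) of the dispatcher table (helper72): TUPLE-LEVEL LOCAL
FACTS for `A := ∀ i : R.Idx, BrLoc R i` (`BrLoc R i = H²_LC(Dloc P q t; Ωˣ)`, `i = (q, t)`), in the
componentwise `∀ i` shapes consumed by the (C4) hub.

`P` an `S`-open subgroup of `G_ℚ`, `R : Reps S P`, `p` a prime.

* `exists_nsmul_eq`, `hdivA` : every tuple is `p`-divisible (with control of the order), from
  `DlocTors.h2Divisible`;  `hdivA_pi` : the literal `hdivA` of `Image.divisible` on the Pi type;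
* `exists_tors_ne_zero` : a nonzero `p`-torsion class at every index; `exists_single_tors` : a
  `p`-torsion tuple supported at one index with nonzero entry there;
* `tors_cyclic` : the `p`-torsion of `BrLoc R i` is cyclic (`ℕ`-multiple form);
* `exists_ι₂_eq_of_pow` : a `p^k`-torsion class of `BrLoc R i` comes from the level cut out by a
  `ℚ`-normal level `N` as soon as `p^k ∣ [Dloc P q t : Dloc N q t]` (`TorsLevel`);
* `exists_tuple_of_tors` : **`htors` in tuple form**: for a level `L` (binders of `LocSR.StatementR`) with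
  `p^k ∣` all local indices at `R.Idx`, there are injective maps
  `jA i : H²(Gal(L'/K), Jloc K L' q (mAt P q t)) →+ BrLoc R i` compatible with the localisations,
  such that every tuple `a` with `p^k • a i = 0` is `a i = jA i (b i)` with `p^k • b i = 0`.
-/
import Fermat.Agent.S55.Middle.LocSR
import Fermat.Agent.S55.Middle.LocSFam
import Fermat.Agent.S55.Middle.Blocks2
import Fermat.Agent.S55.LM.TorsLevel
import Fermat.Agent.S55.LM.DlocTors

set_option autoImplicit false
set_option linter.unusedSectionVars false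
set_option linter.style.haveILetI false

open CategoryTheory groupCohomology ExtCitation

namespace Fermat.Agent.S55.Middle.BrLocTuples

noncomputable section

open Fermat.Agent.S55.Formal
open Fermat.Agent.S55.Formal.PreludeLC hiding GQ Qbar
open Fermat.Agent.S55.Middle.Defs
open Fermat.Agent.S55.Middle.KSite Fermat.Agent.S55.Middle.GaloisDict
open Fermat.Agent.S55.Middle.GaloisDictModel
open Fermat.Agent.S55.Global.Blocks3 Fermat.Agent.S55.Global.Objects
open Fermat.Agent.S55.Formal.LCLevelH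
open Fermat.Agent.S55.LM.DlocDict
open Fermat.Agent.S55.Middle.LocS Fermat.Agent.S55.Middle.LocSR Fermat.Agent.S55.Middle.LocSFam
open Fermat.Agent.S55.Middle.ImageFiniteCore
open Fermat.Agent.S55.Middle.Blocks2
open Fermat.Agent.S55.Middle.LocalLCCore

attribute [local instance] Fermat.Agent.S55.LM.Defs.fact_q

variable (p : ℕ) [Fact p.Prime] {S : Finset Nat.Primes} {P : Subgroup GQ}

/-! ### abstract helpers -/

theorem pow_succ_nsmul_eq_zero {M : Type*} [AddCommGroup M] (p k : ℕ) (a b : M) (hb : p • b = a)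
    (ha : p ^ k • a = 0) : p ^ (k + 1) • b = 0 := by
  rw [pow_succ, mul_smul, hb, ha]

theorem nsmul_eq_zero_of_injective {M N : Type*} [AddCommGroup M] [AddCommGroup N] (f : M →+ N)
    (hf : Function.Injective f) (n : ℕ) (b : M) (h : n • f b = 0) : n • b = 0 := by
  apply hf
  rw [map_nsmul, h, map_zero]

open Classical in
theorem exists_single_of {ι : Type} {M : ι → Type} [∀ i, AddCommGroup (M i)] (p : ℕ) (i₀ : ι)
    (a₀ : M i₀) (ha₀ : p • a₀ = 0) (hne : a₀ ≠ 0) :
    ∃ a : ∀ i, M i, (∀ i, p • a i = 0) ∧ a i₀ ≠ 0 ∧ ∀ i, i ≠ i₀ → a i = 0 := by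
  refine ⟨Pi.single i₀ a₀, fun i => ?_, ?_, fun i hi => Pi.single_eq_of_ne hi a₀⟩
  · by_cases h : i = i₀
    · subst h
      rw [Pi.single_eq_same]
      exact ha₀
    · rw [Pi.single_eq_of_ne h]
      exact smul_zero p
  · rw [Pi.single_eq_same]
    exact hne

/-! ### one index -/

section One

/-- the `k`-module structure of `H²_LC` synthesised for generic `k` (the one used by the local
core), compared with the natural `ℤ`-action. -/
theorem smul_conv {G : Type} [Group G] (𝒱 : NBasis G) (A : Rep.{0, 0, 0} ℤ G) (n : ℤ)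
    (z : H2 𝒱 A) : (Fermat.Agent.S55.Middle.FinMain.H2mod 𝒱 A).smul n z = n • z :=
  int_smul_eq_zsmul (Fermat.Agent.S55.Middle.FinMain.H2mod 𝒱 A) n z

variable (q : Nat.Primes) (t : GQ)

/-- `H²_LC(Dloc P q t; Ωˣ)` is `p`-divisible (`ℕ`-scalar form). -/
theorem exists_nsmul_eq_one (hP : IsOpenS S P)
    (a : H2 (basisLoc P q t) (Fermat.Agent.S55.LM.Defs.Ox q (Dloc P q t))) :
    ∃ b : H2 (basisLoc P q t) (Fermat.Agent.S55.LM.Defs.Ox q (Dloc P q t)), p • b = a := by
  obtain ⟨b, hb⟩ := Fermat.Agent.S55.LM.DlocTors.h2Divisible p q (Dloc P q t)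
    (Fermat.Agent.S55.LM.DlocFields.facts_Dloc S P q t hP) a
  exact ⟨b, (natCast_zsmul b p).symm.trans ((smul_conv _ _ _ b).symm.trans hb)⟩

/-- a nonzero `p`-torsion class of `H²_LC(Dloc P q t; Ωˣ)`. -/
theorem exists_tors_ne_zero_one (hP : IsOpenS S P) :
    ∃ a : H2 (basisLoc P q t) (Fermat.Agent.S55.LM.Defs.Ox q (Dloc P q t)), p • a = 0 ∧ a ≠ 0 := by
  obtain ⟨a, ha, hne⟩ := Fermat.Agent.S55.LM.DlocTors.exists_tors_ne_zero p q (Dloc P q t)
    (Fermat.Agent.S55.LM.DlocFields.facts_Dloc S P q t hP)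
  exact ⟨a, (natCast_zsmul a p).symm.trans ((smul_conv _ _ _ a).symm.trans ha), hne⟩

/-- the `p`-torsion of `H²_LC(Dloc P q t; Ωˣ)` is cyclic (`ℕ`-multiple form). -/
theorem tors_cyclic_one (hP : IsOpenS S P)
    (a a' : H2 (basisLoc P q t) (Fermat.Agent.S55.LM.Defs.Ox q (Dloc P q t)))
    (ha : p • a = 0) (ha' : p • a' = 0) (hne : a ≠ 0) : ∃ n : ℕ, a' = n • a := by
  have hcyc := Fermat.Agent.S55.LM.DlocTors.h2TorsCyclic p q (Dloc P q t)
    (Fermat.Agent.S55.LM.DlocFields.facts_Dloc S P q t hP)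
  obtain ⟨n, hn⟩ := hcyc a a' ((smul_conv _ _ _ a).trans ((natCast_zsmul a p).trans ha))
    ((smul_conv _ _ _ a').trans ((natCast_zsmul a' p).trans ha')) hne
  have hn' : a' = n • a := hn.trans (smul_conv _ _ n a)
  -- replace the integer `n` by `n mod p`
  have hp0 : (p : ℤ) ≠ 0 := by exact_mod_cast (Fact.out : p.Prime).ne_zero
  refine ⟨(n % p).toNat, ?_⟩
  have hnn : 0 ≤ n % p := Int.emod_nonneg _ hp0
  have h1 : (((n % p).toNat : ℕ) : ℤ) = n % p := Int.toNat_of_nonneg hnn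
  have h2 : n = n % p + (n / p) * p := by
    have := (Int.emod_add_mul_ediv n p).symm
    rw [mul_comm] at this
    exact this
  rw [hn', ← natCast_zsmul, h1]
  conv_lhs => rw [h2]
  rw [add_zsmul, mul_zsmul, natCast_zsmul, ha, zsmul_zero, add_zero]

/-- a `p^k`-torsion class of `H²_LC(Dloc P q t; Ωˣ)` comes from the finite level cut out by a
member `N` of the global basis as soon as `p^k` divides the local index. -/
theorem exists_ι₂_eq_of_pow (hP : IsOpenS S P) (N : Subgroup GQ)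
    (hW : (basisLoc P q t).mem (levelSub P q t N))
    [(levelSub P q t N).Normal] [Finite (↥(Dloc P q t) ⧸ levelSub P q t N)]
    (k : ℕ) (hk : p ^ k ∣ (levelSub P q t N).index)
    (a : H2 (basisLoc P q t) (Fermat.Agent.S55.LM.Defs.Ox q (Dloc P q t)))
    (ha : p ^ k • a = 0) :
    ∃ y : groupCohomology.H2 ((Fermat.Agent.S55.LM.Defs.Ox q (Dloc P q t)).quotientToInvariants
        (levelSub P q t N)),
      ι₂ (basisLoc P q t) (Fermat.Agent.S55.LM.Defs.Ox q (Dloc P q t)) (levelSub P q t N) hW y = a :=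
  Fermat.Agent.S55.LM.TorsLevel.exists_ι₂_eq_Ox q (Dloc P q t)
    (Fermat.Agent.S55.LM.DlocFields.facts_Dloc S P q t hP) (levelSub P q t N) hW hk a ha

end One

/-! ### tuples -/

section Tuples

variable (R : Reps S P)

/-- every tuple of local classes is `p`-divisible. -/
theorem exists_nsmul_eq (hP : IsOpenS S P) (a : ∀ i : R.Idx, BrLoc R i) :
    ∃ b : ∀ i : R.Idx, BrLoc R i, ∀ i, p • b i = a i := by
  choose b hb using fun i : R.Idx => exists_nsmul_eq_one p i.1.1 i.2.1 hP (a i)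
  exact ⟨b, hb⟩

/-- **`hdivA`, componentwise**, with control of the order. -/
theorem hdivA (hP : IsOpenS S P) (k : ℕ) (a : ∀ i : R.Idx, BrLoc R i) (ha : ∀ i, p ^ k • a i = 0) :
    ∃ b : ∀ i : R.Idx, BrLoc R i, (∀ i, p • b i = a i) ∧ ∀ i, p ^ (k + 1) • b i = 0 := by
  obtain ⟨b, hb⟩ := exists_nsmul_eq p R hP a
  exact ⟨b, hb, fun i => pow_succ_nsmul_eq_zero p k (a i) (b i) (hb i) (ha i)⟩

/-- a nonzero `p`-torsion class at every index. -/
theorem exists_tors_ne_zero (hP : IsOpenS S P) (i : R.Idx) : ∃ a : BrLoc R i, p • a = 0 ∧ a ≠ 0 :=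
  exists_tors_ne_zero_one p i.1.1 i.2.1 hP

/-- the `p`-torsion of `BrLoc R i` is cyclic. -/
theorem tors_cyclic (hP : IsOpenS S P) (i : R.Idx) (a a' : BrLoc R i) (ha : p • a = 0) (ha' : p • a' = 0)
    (hne : a ≠ 0) : ∃ n : ℕ, a' = n • a :=
  tors_cyclic_one p i.1.1 i.2.1 hP a a' ha ha' hne

/-- a `p`-torsion tuple supported at the index `i₀`, with nonzero entry there. -/
theorem exists_single_tors (hP : IsOpenS S P) (i₀ : R.Idx) :
    ∃ a : ∀ i : R.Idx, BrLoc R i, (∀ i, p • a i = 0) ∧ a i₀ ≠ 0 ∧ ∀ i, i ≠ i₀ → a i = 0 := by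
  obtain ⟨a₀, ha₀, hne⟩ := exists_tors_ne_zero p R hP i₀
  exact @exists_single_of R.Idx (fun i : R.Idx => BrLoc R i) (fun i => inferInstance) p i₀ a₀ ha₀ hne

end Tuples

/-! ### `htors` in tuple form -/

section Htors

variable {p}
variable (R : Reps S P)
  (L : IntermediateField ℚ Qbar) [Normal ℚ L] (hL : L.IsUnramifiedOutside S)
  (hle : L.fixingSubgroup ≤ P) (hKL : K₀ P ≤ L)
  [NumberField ↥(K₀ P)] [NumberField ↥(Lext P L hKL)] [Finite (↥P ⧸ lvl P L)]
  (hV : (basisP S P).mem (lvl P L))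

include hL in
/-- the local level cut out by `L` is a member of the local basis. -/
theorem levelSub_mem (q : Nat.Primes) (t : GQ) :
    (basisLoc P q t).mem (levelSub P q t L.fixingSubgroup) :=
  levelSub_mem_basisLoc S P q t _ (fixingSubgroup_mem S L hL)

set_option maxHeartbeats 800000 in
/-- **`htors`, tuple form.**  For a level `L` whose local indices at all places of the `K`-site are
divisible by `p^k`: injective comparison maps `jA i` (compatible with the localisations) through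
which every `p^k`-torsion tuple factors, with `p^k`-torsion preimages. -/
theorem exists_tuple_of_tors (hP : IsOpenS S P) (k : ℕ)
    (hk : ∀ i : R.Idx, p ^ k ∣ (levelSub P i.1.1 i.2.1 L.fixingSubgroup).index) :
    ∃ jA : ∀ i : R.Idx, HJ ↥(K₀ P) ↥(Lext P L hKL) (plOf R i) →+ BrLoc R i,
      (∀ i, Function.Injective (jA i)) ∧
      (∀ (i : R.Idx) (z : groupCohomology (Rep.ofAlgebraAutOnUnits ↥(K₀ P) ↥(Lext P L hKL)) 2),
        jA i (locFam ↥(K₀ P) ↥(Lext P L hKL) z (plOf R i)) =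
          (locKS S P i.1.1 i.2.1).h2 (ι₂ (basisP S P) (resP P (KS S)) (lvl P L) hV
            ((cohIsoExt S P L hKL hL hle 2).inv.hom z))) ∧
      ∀ a : ∀ i : R.Idx, BrLoc R i, (∀ i, p ^ k • a i = 0) →
        ∃ b : ∀ i : R.Idx, HJ ↥(K₀ P) ↥(Lext P L hKL) (plOf R i),
          (∀ i, jA i (b i) = a i) ∧ ∀ i, p ^ k • b i = 0 := by
  choose jA hinj hloc hrange using fun i : R.Idx =>
    statementR S P L hL hle hKL hV i.1.1 i.2.1
  refine ⟨jA, hinj, fun i z => hloc i z, fun a ha => ?_⟩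
  have hex : ∀ i : R.Idx, ∃ b : HJ ↥(K₀ P) ↥(Lext P L hKL) (plOf R i), jA i b = a i := by
    intro i
    have hW := levelSub_mem (S := S) (P := P) L hL i.1.1 i.2.1
    haveI : (levelSub P i.1.1 i.2.1 L.fixingSubgroup).Normal :=
      (basisLoc P i.1.1 i.2.1).normal hW
    haveI : Finite (↥(Dloc P i.1.1 i.2.1) ⧸ levelSub P i.1.1 i.2.1 L.fixingSubgroup) :=
      DictBridge.finite_quotient _ hW
    obtain ⟨y, hy⟩ := exists_ι₂_eq_of_pow p i.1.1 i.2.1 hP L.fixingSubgroup hW k (hk i) (a i) (ha i)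
    obtain ⟨b, hb⟩ := hrange i hW y
    exact ⟨b, hb.trans hy⟩
  choose b hb using hex
  exact ⟨b, hb, fun i => nsmul_eq_zero_of_injective (jA i) (hinj i) (p ^ k) (b i)
    ((congrArg (fun x => p ^ k • x) (hb i)).trans (ha i))⟩

set_option maxHeartbeats 800000 in
/-- **`htors`, family form**: the same with the preimages assembled into a family
`c : Fam K L'` supported in `S` (`LocSFam.famOf`), killed by `p^k`. -/
theorem exists_fam_of_tors (hP : IsOpenS S P) (k : ℕ)
    (hk : ∀ i : R.Idx, p ^ k ∣ (levelSub P i.1.1 i.2.1 L.fixingSubgroup).index) :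
    ∃ jA : ∀ i : R.Idx, HJ ↥(K₀ P) ↥(Lext P L hKL) (plOf R i) →+ BrLoc R i,
      (∀ i, Function.Injective (jA i)) ∧
      (∀ (i : R.Idx) (z : groupCohomology (Rep.ofAlgebraAutOnUnits ↥(K₀ P) ↥(Lext P L hKL)) 2),
        jA i (locFam ↥(K₀ P) ↥(Lext P L hKL) z (plOf R i)) =
          (locKS S P i.1.1 i.2.1).h2 (ι₂ (basisP S P) (resP P (KS S)) (lvl P L) hV
            ((cohIsoExt S P L hKL hL hle 2).inv.hom z))) ∧
      ∀ a : ∀ i : R.Idx, BrLoc R i, (∀ i, p ^ k • a i = 0) →
        ∃ c : Fam ↥(K₀ P) ↥(Lext P L hKL), SuppIn S c ∧ p ^ k • c = 0 ∧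
          ∀ i, jA i (c (plOf R i)) = a i := by
  obtain ⟨jA, hinj, hloc, htors⟩ := exists_tuple_of_tors R L hL hle hKL hV hP k hk
  refine ⟨jA, hinj, hloc, fun a ha => ?_⟩
  obtain ⟨b, hb, hbk⟩ := htors a ha
  refine ⟨famOf ↥(Lext P L hKL) R b, suppIn_famOf _ R b, ?_, fun i => ?_⟩
  · rw [← famOf_nsmul hP R (p ^ k) b]
    have h0 : p ^ k • b = 0 := funext fun i => hbk i
    rw [h0, famOf_zero]
  · exact (congrArg (jA i) (famOf_plOf ↥(Lext P L hKL) hP R b i)).trans (hb i)

end Htors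

end

end Fermat.Agent.S55.Middle.BrLocTuples
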