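/-
S55 / Middle / M.cap.dictK (helper64): the DICTIONARY between the normalised valuations `Cap.ordAt`
on `ℚ̄` and the `HeightOneSpectrum` valuations of an ARBITRARY finite level `K ⊆ ℚ̄` unramified outside
`S` (no Galois hypothesis on `K / ℚ`).

`K : IntermediateField ℚ ℚ̄`, `[NumberField K]`, `y : CapDiv.Xoff S` a place of `ℚ̄` off `S`,
`v : HeightOneSpectrum (𝓞 K)`:

* `BelowK K y v` : `v` is the prime of `K` below `y`
  (`y.ring.comap (algebraMap K ℚ̄) = (v.valuation K).valuationSubring`);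
* `exists_belowK`, `BelowK.unique`, `BelowK.prime_eq`, `BelowK.exists_smul_eq` (two places above `v`
  are conjugate under `K.fixingSubgroup`), `BelowK.smul` (for `g ∈ K.fixingSubgroup`),
  `exists_place_above` (every prime of `K` over `q ∉ S` lies below a place);
* `BelowK.natCast_mem`, `BelowK.valuation_natCast_lt_one`;
* `valuation_natCast_eq_exp_neg_one` : `e = 1`: `v (q) = exp (-1)` when `K` is unramified outside
  `S` (proved from `Cap.exists_ord` applied to a uniformiser);
* `ordAt_eq_neg_log` : `ordAt y.ring y.prime x = - log (v x)` for `x ∈ Kˣ`;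
* `valuation_eq_exp_neg_ordAt`, `valuation_eq_one_iff_ordAt_eq_zero`.
-/
import Fermat.Agent.S55.Middle.CapDiv
import Fermat.Agent.Lib.InertiaRestrict

set_option autoImplicit false
set_option linter.style.haveILetI false
set_option linter.unusedSectionVars false

open scoped NumberField Pointwise
open IsDedekindDomain WithZero

namespace Fermat.Agent.S55.Middle.CapDictK

open Fermat.Agent.S55.Middle.Defs Fermat.Agent.S55.Middle.Cap Fermat.Agent.S55.Middle.CapDiv
open Fermat.Agent.Lib Fermat.Agent.Lib.InertiaNumberField Fermat.Agent.Lib.InertiaNumberFieldPrime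

local instance instIsGaloisQbarCapDictK : IsGalois ℚ Qbar :=
  Fermat.Agent.Lib.UnramifiedTrivial.isGalois_algebraicClosure_rat

/-- A valuation subring of `ℚ̄` lies over at most one prime number. -/
theorem liesOverPrime_unique {A : ValuationSubring Qbar} {q q' : ℕ} (hq : q.Prime)
    (hq' : q'.Prime) (h : A.LiesOverPrime q) (h' : A.LiesOverPrime q') : q = q' := by
  by_contra hne
  have hcop : IsCoprime ((q' : ℕ) : ℤ) (q : ℤ) := by
    rw [Nat.isCoprime_iff_coprime]
    exact (Nat.coprime_primes hq' hq).2 (Ne.symm hne)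
  have hinv : (((q' : ℕ) : ℤ) : Qbar)⁻¹ ∈ A := intCast_inv_mem h hcop
  unfold ValuationSubring.LiesOverPrime at h'
  rw [InertiaRestrict.mem_nonunits_iff_inv] at h'
  rcases h' with h0 | h1
  · exact hq'.ne_zero (by exact_mod_cast h0)
  · apply h1
    simpa using hinv

variable {S : Finset Nat.Primes}
variable (K : IntermediateField ℚ Qbar) [NumberField K]

/-- `v` is the prime of `K` below the place `y` of `ℚ̄`. -/
def BelowK (y : Xoff S) (v : HeightOneSpectrum (𝓞 K)) : Prop :=
  y.ring.comap (algebraMap K Qbar) = (v.valuation K).valuationSubring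

theorem comap_liesOverPrime (y : Xoff S) :
    (y.ring.comap (algebraMap K Qbar)).LiesOverPrime (y.prime : ℕ) := by
  unfold ValuationSubring.LiesOverPrime
  rw [InertiaRestrict.mem_nonunits_comap_iff, map_natCast]
  exact y.liesOver

theorem exists_belowK (y : Xoff S) : ∃ v : HeightOneSpectrum (𝓞 K), BelowK K y v := by
  obtain ⟨P, hP, h0, -, hBP⟩ :=
    InertiaNumberFieldPrime.exists_eq_valSubringOf y.prime.2.ne_zero (comap_liesOverPrime K y)
  exact ⟨heightOne P h0, hBP⟩

variable {K}

/-- the valuation subring of `v` determines `v` -/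
theorem eq_of_valuationSubring_eq {v v' : HeightOneSpectrum (𝓞 K)}
    (e : (v'.valuation K).valuationSubring = (v.valuation K).valuationSubring) : v' = v := by
  have hle : ∀ a b : HeightOneSpectrum (𝓞 K),
      (a.valuation K).valuationSubring = (b.valuation K).valuationSubring →
        a.asIdeal ≤ b.asIdeal := by
    intro a b hab x hxa
    have h1 : a.valuation K (algebraMap (𝓞 K) K x) < 1 := (a.valuation_lt_one_iff_mem x).2 hxa
    by_contra hxb
    have h2 : b.valuation K (algebraMap (𝓞 K) K x) = 1 := (b.valuation_eq_one_iff_notMem).2 hxb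
    have hx0 : algebraMap (𝓞 K) K x ≠ 0 := by
      intro h0
      rw [h0, map_zero] at h2
      exact zero_ne_one h2
    have h3 : (algebraMap (𝓞 K) K x)⁻¹ ∈ (b.valuation K).valuationSubring := by
      rw [Valuation.mem_valuationSubring_iff, map_inv₀, h2, inv_one]
    rw [← hab, Valuation.mem_valuationSubring_iff, map_inv₀] at h3
    have hpos : 0 < a.valuation K (algebraMap (𝓞 K) K x) :=
      zero_lt_iff.2 ((Valuation.ne_zero_iff _).2 hx0)
    have h4 : 1 ≤ a.valuation K (algebraMap (𝓞 K) K x) := (inv_le_one₀ hpos).1 h3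
    exact absurd h1 (not_lt.2 h4)
  exact HeightOneSpectrum.ext (le_antisymm (hle v' v e) (hle v v' e.symm))

theorem BelowK.unique {y : Xoff S} {v v' : HeightOneSpectrum (𝓞 K)} (h : BelowK K y v)
    (h' : BelowK K y v') : v' = v :=
  eq_of_valuationSubring_eq (h'.symm.trans h)

theorem BelowK.mem_iff {y : Xoff S} {v : HeightOneSpectrum (𝓞 K)} (h : BelowK K y v) (x : K) :
    ((x : K) : Qbar) ∈ y.ring ↔ v.valuation K x ≤ 1 := by
  rw [← Valuation.mem_valuationSubring_iff, ← h, ValuationSubring.mem_comap]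
  rfl

theorem BelowK.valuation_natCast_lt_one {y : Xoff S} {v : HeightOneSpectrum (𝓞 K)}
    (h : BelowK K y v) : v.valuation K ((y.prime : ℕ) : K) < 1 := by
  have h1 : ((y.prime : ℕ) : K) ∈ (v.valuation K).valuationSubring.nonunits := by
    rw [← h]
    exact comap_liesOverPrime K y
  rw [ValuationSubring.mem_nonunits_iff] at h1
  exact ((Valuation.isEquiv_valuation_valuationSubring (v.valuation K)).lt_one_iff_lt_one).2 h1

theorem BelowK.natCast_mem {y : Xoff S} {v : HeightOneSpectrum (𝓞 K)} (h : BelowK K y v) :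
    ((y.prime : ℕ) : 𝓞 K) ∈ v.asIdeal := by
  have h3 : v.valuation K (algebraMap (𝓞 K) K ((y.prime : ℕ) : 𝓞 K)) < 1 := by
    rw [map_natCast]; exact h.valuation_natCast_lt_one
  exact (v.valuation_lt_one_iff_mem _).1 h3

theorem BelowK.prime_eq {y y' : Xoff S} {v : HeightOneSpectrum (𝓞 K)} (h : BelowK K y v)
    (h' : BelowK K y' v) : y.prime = y'.prime := by
  have h2 := comap_liesOverPrime K y'
  rw [h', ← h] at h2
  unfold ValuationSubring.LiesOverPrime at h2
  rw [InertiaRestrict.mem_nonunits_comap_iff, map_natCast] at h2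
  exact Subtype.ext (liesOverPrime_unique y.prime.2 y'.prime.2 y.liesOver h2)

/-- Two places above the same prime of `K` are conjugate under `Gal(ℚ̄ / K)`. -/
theorem BelowK.exists_smul_eq {y y' : Xoff S} {v : HeightOneSpectrum (𝓞 K)} (h : BelowK K y v)
    (h' : BelowK K y' v) : ∃ u : GQ, u ∈ K.fixingSubgroup ∧ y' = u • y := by
  obtain ⟨ρ, hρ⟩ := InertiaRestrict.exists_smul_eq_of_comap_eq K y.ring y'.ring (h.trans h'.symm)
  refine ⟨ρ.restrictScalars ℚ, ?_, Xoff.ext (h.prime_eq h').symm ?_⟩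
  · rw [IntermediateField.mem_fixingSubgroup_iff]
    intro x hx
    exact ρ.commutes ⟨x, hx⟩
  · rw [Xoff.smul_ring, InertiaRestrict.restrictScalars_smul, hρ]

/-- `Gal(ℚ̄ / K)` preserves the prime of `K` below a place. -/
theorem BelowK.smul {y : Xoff S} {v : HeightOneSpectrum (𝓞 K)} (h : BelowK K y v) {u : GQ}
    (hu : u ∈ K.fixingSubgroup) : BelowK K (u • y) v := by
  unfold BelowK at h ⊢
  rw [← h]
  ext x
  rw [ValuationSubring.mem_comap, ValuationSubring.mem_comap, Xoff.smul_ring,
    ValuationSubring.mem_pointwise_smul_iff_inv_smul_mem]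
  have hfix : u⁻¹ • (algebraMap K Qbar x) = algebraMap K Qbar x := by
    have := (IntermediateField.mem_fixingSubgroup_iff K u⁻¹).1 (K.fixingSubgroup.inv_mem hu)
      (algebraMap K Qbar x) x.2
    exact this
  rw [hfix]

variable (K) in
/-- Every prime of `K` over a rational prime `q ∉ S` lies below a place of `ℚ̄` off `S`. -/
theorem exists_place_above (v : HeightOneSpectrum (𝓞 K)) (q : Nat.Primes) (hq : q ∉ S)
    (hqv : ((q : ℕ) : 𝓞 K) ∈ v.asIdeal) : ∃ y : Xoff S, y.prime = q ∧ BelowK K y v := by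
  obtain ⟨A, hA⟩ := InertiaRestrict.exists_comap_eq (algebraMap K Qbar)
    (v.valuation K).valuationSubring
  have hAq : A.LiesOverPrime (q : ℕ) := by
    unfold ValuationSubring.LiesOverPrime
    rw [← map_natCast (algebraMap K Qbar), ← InertiaRestrict.mem_nonunits_comap_iff, hA,
      ValuationSubring.mem_nonunits_iff]
    refine ((Valuation.isEquiv_valuation_valuationSubring (v.valuation K)).lt_one_iff_lt_one).1 ?_
    have h3 : v.valuation K (algebraMap (𝓞 K) K ((q : ℕ) : 𝓞 K)) < 1 :=
      (v.valuation_lt_one_iff_mem _).2 hqv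
    rwa [map_natCast] at h3
  exact ⟨⟨(q, A), ⟨hq, hAq⟩⟩, rfl, hA⟩

/-- the valuation at `v` of an element of `K` with a normalised valuation at a place above `v` -/
theorem BelowK.valuation_eq_of_hasOrd {y : Xoff S} {v : HeightOneSpectrum (𝓞 K)}
    (h : BelowK K y v) (x : K) (hx : x ≠ 0) {n : ℤ}
    (hn : HasOrd y.ring (y.prime : ℕ) ((x : K) : Qbar) n) :
    v.valuation K x = v.valuation K ((y.prime : ℕ) : K) ^ n := by
  have hq0 : ((y.prime : ℕ) : K) ≠ 0 := Nat.cast_ne_zero.2 y.prime.2.ne_zero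
  set u : K := x * ((y.prime : ℕ) : K) ^ (-n) with hu
  have hu0 : u ≠ 0 := mul_ne_zero hx (zpow_ne_zero _ hq0)
  have hcoe : ((u : K) : Qbar) = (x : Qbar) * ((y.prime : ℕ) : Qbar) ^ (-n) := by
    rw [hu]
    push_cast
    rfl
  have h1 : v.valuation K u ≤ 1 := (h.mem_iff u).1 (by rw [hcoe]; exact hn.1)
  have h2 : v.valuation K u⁻¹ ≤ 1 := (h.mem_iff u⁻¹).1 (by
    have : ((u⁻¹ : K) : Qbar) = ((u : K) : Qbar)⁻¹ := by push_cast; rfl
    rw [this, hcoe]; exact hn.2)
  have hne : v.valuation K u ≠ 0 := (Valuation.ne_zero_iff _).2 hu0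
  rw [map_inv₀] at h2
  have h3 : v.valuation K u = 1 := le_antisymm h1 ((inv_le_one₀ (zero_lt_iff.2 hne)).1 h2)
  rw [hu, map_mul, map_zpow₀, zpow_neg] at h3
  have hv : v.valuation K ((y.prime : ℕ) : K) ^ n ≠ 0 :=
    zpow_ne_zero _ ((Valuation.ne_zero_iff _).2 hq0)
  exact (mul_inv_eq_one₀ hv).1 h3

/-- **`e = 1`**: a rational prime `q ∉ S` is a uniformiser at every prime of `K` above it, for `K`
unramified outside `S`. -/
theorem valuation_natCast_eq_exp_neg_one (hK : K.IsUnramifiedOutside S) {y : Xoff S}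
    {v : HeightOneSpectrum (𝓞 K)} (h : BelowK K y v) :
    v.valuation K ((y.prime : ℕ) : K) = exp (-1 : ℤ) := by
  obtain ⟨π, hπ⟩ := v.valuation_exists_uniformizer K
  have hπ0 : π ≠ 0 := by
    rintro rfl
    rw [map_zero] at hπ
    exact exp_ne_zero.symm hπ
  have hπQ : Units.InQS S ((π : K) : Qbar) := ⟨K, hK, π.2⟩
  have hπ0' : ((π : K) : Qbar) ≠ 0 := fun h0 => hπ0 (Subtype.ext h0)
  have hord := hasOrd_ordAt hπQ hπ0' y.prime y.prime_notMem y.ring y.liesOver
  have hval := h.valuation_eq_of_hasOrd π hπ0 hord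
  set n : ℤ := ordAt y.ring (y.prime : ℕ) ((π : K) : Qbar) with hn
  have hq0 : ((y.prime : ℕ) : K) ≠ 0 := Nat.cast_ne_zero.2 y.prime.2.ne_zero
  have hw0 : v.valuation K ((y.prime : ℕ) : K) ≠ 0 := (Valuation.ne_zero_iff _).2 hq0
  have hlt := h.valuation_natCast_lt_one
  set e : ℤ := -(log (v.valuation K ((y.prime : ℕ) : K))) with he
  have hexp : v.valuation K ((y.prime : ℕ) : K) = exp (-e) := by
    rw [he, neg_neg, exp_log hw0]
  have hepos : 0 < e := by
    rw [hexp, ← exp_zero, exp_lt_exp] at hlt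
    omega
  rw [hπ, hexp, ← exp_zsmul, exp_inj] at hval
  have hen : e * n = 1 := by
    rw [smul_eq_mul] at hval
    linarith
  rcases Int.eq_one_or_neg_one_of_mul_eq_one hen with h1 | h1
  · rw [hexp, h1]
  · omega

/-- **Dictionary**: for `x ∈ Kˣ`, `K` finite unramified outside `S`, the normalised valuation of
`x` at a place `y` off `S` is `- log v(x)` for the prime `v` of `K` below `y`. -/
theorem ordAt_eq_neg_log (hK : K.IsUnramifiedOutside S) {y : Xoff S}
    {v : HeightOneSpectrum (𝓞 K)} (h : BelowK K y v) (x : K) (hx : x ≠ 0) :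
    ordAt y.ring (y.prime : ℕ) ((x : K) : Qbar) = -(log (v.valuation K x)) := by
  have hxQ : Units.InQS S ((x : K) : Qbar) := ⟨K, hK, x.2⟩
  have hx0' : ((x : K) : Qbar) ≠ 0 := fun h0 => hx (Subtype.ext h0)
  have hord := hasOrd_ordAt hxQ hx0' y.prime y.prime_notMem y.ring y.liesOver
  have hval := h.valuation_eq_of_hasOrd x hx hord
  rw [valuation_natCast_eq_exp_neg_one hK h, ← exp_zsmul] at hval
  rw [hval, log_exp]
  simp

theorem valuation_eq_exp_neg_ordAt (hK : K.IsUnramifiedOutside S) {y : Xoff S}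
    {v : HeightOneSpectrum (𝓞 K)} (h : BelowK K y v) (x : K) (hx : x ≠ 0) :
    v.valuation K x = exp (-(ordAt y.ring (y.prime : ℕ) ((x : K) : Qbar))) := by
  rw [ordAt_eq_neg_log hK h x hx, neg_neg, exp_log ((Valuation.ne_zero_iff _).2 hx)]

theorem valuation_eq_one_iff_ordAt_eq_zero (hK : K.IsUnramifiedOutside S) {y : Xoff S}
    {v : HeightOneSpectrum (𝓞 K)} (h : BelowK K y v) (x : K) (hx : x ≠ 0) :
    v.valuation K x = 1 ↔ ordAt y.ring (y.prime : ℕ) ((x : K) : Qbar) = 0 := by
  rw [valuation_eq_exp_neg_ordAt hK h x hx, ← exp_zero, exp_inj, neg_eq_zero]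

end Fermat.Agent.S55.Middle.CapDictK
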