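/-
S55 / Middle / M.locOff.normDict (helper64): the dictionary between the `q`-adic NORM along
`padicEmbedding q ∘ t⁻¹` and the normalised valuation `Cap.ordAt` at the place `t • padicPlace q`.

* `liesOverPrime_smul_padicPlace`, `exists_smul_padicPlace_eq` : the valuation subrings of `ℚ̄` over
  `q` are exactly the `t • padicPlace q`, `t ∈ G_ℚ`;
* `mem_smul_padicPlace_iff` : `x ∈ t • padicPlace q ↔ ‖padicEmbedding q (t⁻¹ x)‖ ≤ 1`;
* `norm_eq_zpow_of_hasOrd` : `HasOrd (t • padicPlace q) q x n → ‖padicEmbedding q (t⁻¹ x)‖ = q ^ (-n)`;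
* `norm_padicEmbedding_eq_zpow_ordAt` : for `x ∈ ℚ_Sˣ`, `q ∉ S`:
  `‖padicEmbedding q (t⁻¹ x)‖ = q ^ (-(ordAt (t • padicPlace q) q x))`;
* `ordAt_eq_neg_log_norm` : `ordAt (t • padicPlace q) q x = -Int.log q ‖padicEmbedding q (t⁻¹ x)‖`.
-/
import Fermat.Agent.S55.Middle.Cap
import Fermat.Agent.S55.KrasnerBridge
import Fermat.Agent.S55.Middle.CompletionCompare
import Fermat.Agent.Lib.InertiaBridge.Lift

set_option autoImplicit false
set_option linter.style.haveILetI false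
set_option linter.unusedSectionVars false

open scoped Pointwise NNReal

namespace Fermat.Agent.S55.Middle.CapNorm

open Fermat.Agent.S55.Middle.Cap Fermat.Agent.S55.Middle.Units
open Fermat.Agent.Lib

local notation "Qbar" => AlgebraicClosure ℚ

local instance instIsGaloisQbarCapNorm : IsGalois ℚ Qbar :=
  Fermat.Agent.Lib.UnramifiedTrivial.isGalois_algebraicClosure_rat

variable (q : ℕ) [Fact q.Prime] (t : Qbar ≃ₐ[ℚ] Qbar)

theorem liesOverPrime_smul_padicPlace : (t • padicPlace q).LiesOverPrime q :=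
  (Fermat.Agent.S55.GaloisLevel.liesOverPrime_smul_iff t (padicPlace q) q).2
    (Fermat.Agent.S55.Middle.CompletionCompare.padicPlace_liesOverPrime (q := q))

theorem exists_smul_padicPlace_eq {A : ValuationSubring Qbar} (hA : A.LiesOverPrime q) :
    ∃ t : Qbar ≃ₐ[ℚ] Qbar, A = t • padicPlace q :=
  InertiaBridge.Lift.exists_smul_eq_of_liesOverPrime (Fact.out : q.Prime)
    (Fermat.Agent.S55.Middle.CompletionCompare.padicPlace_liesOverPrime (q := q)) hA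

theorem mem_smul_padicPlace_iff (x : Qbar) :
    x ∈ t • padicPlace q ↔ ‖padicEmbedding q (t⁻¹ x)‖ ≤ 1 := by
  rw [ValuationSubring.mem_pointwise_smul_iff_inv_smul_mem]
  show t⁻¹ x ∈ padicPlace q ↔ _
  rw [Fermat.Agent.S55.KrasnerBridge.mem_padicPlace_iff_absQbar_le,
    Fermat.Agent.S55.KrasnerBridge.absQbar_apply]

theorem norm_natCast_q : ‖padicEmbedding q (t⁻¹ ((q : ℕ) : Qbar))‖ = (q : ℝ)⁻¹ := by
  rw [map_natCast]
  have := Fermat.Agent.S55.KrasnerBridge.absQbar_natCast_q q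
  rwa [Fermat.Agent.S55.KrasnerBridge.absQbar_apply] at this

/-- the norm along `padicEmbedding q ∘ t⁻¹` of an element of normalised valuation `n` at
`t • padicPlace q` -/
theorem norm_eq_zpow_of_hasOrd {x : Qbar} (hx0 : x ≠ 0) {n : ℤ}
    (h : HasOrd (t • padicPlace q) q x n) :
    ‖padicEmbedding q (t⁻¹ x)‖ = (q : ℝ) ^ (-n) := by
  have hq0 : ((q : ℕ) : Qbar) ≠ 0 := Nat.cast_ne_zero.2 (Fact.out : q.Prime).ne_zero
  have hqR : ((q : ℕ) : ℝ) ≠ 0 := Nat.cast_ne_zero.2 (Fact.out : q.Prime).ne_zero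
  set u : Qbar := x * ((q : ℕ) : Qbar) ^ (-n) with hu
  have hu0 : u ≠ 0 := mul_ne_zero hx0 (zpow_ne_zero _ hq0)
  have h1 : ‖padicEmbedding q (t⁻¹ u)‖ ≤ 1 := (mem_smul_padicPlace_iff q t u).1 h.1
  have h2 : ‖padicEmbedding q (t⁻¹ u⁻¹)‖ ≤ 1 := (mem_smul_padicPlace_iff q t u⁻¹).1 h.2
  have hne : padicEmbedding q (t⁻¹ u) ≠ 0 := by
    rw [Ne, map_eq_zero, map_eq_zero]
    exact hu0
  rw [map_inv₀, map_inv₀, norm_inv] at h2
  have h3 : ‖padicEmbedding q (t⁻¹ u)‖ = 1 :=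
    le_antisymm h1 ((inv_le_one₀ (norm_pos_iff.2 hne)).1 h2)
  rw [hu, map_mul, map_mul, norm_mul, map_zpow₀, map_zpow₀, norm_zpow, norm_natCast_q,
    inv_zpow', neg_neg] at h3
  have hz : ((q : ℕ) : ℝ) ^ n ≠ 0 := zpow_ne_zero _ hqR
  rw [zpow_neg]
  exact (eq_inv_of_mul_eq_one_left h3)

variable {S : Finset Nat.Primes}

/-- **norm dictionary**: for `x ∈ ℚ_Sˣ` and `q ∉ S` -/
theorem norm_padicEmbedding_eq_zpow_ordAt (q : Nat.Primes) (hq : q ∉ S)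
    (t : Qbar ≃ₐ[ℚ] Qbar) {x : Qbar} (hx : InQS S x) (hx0 : x ≠ 0) :
    haveI : Fact (q : ℕ).Prime := ⟨q.2⟩
    ‖padicEmbedding (q : ℕ) (t⁻¹ x)‖ =
      ((q : ℕ) : ℝ) ^ (-(ordAt (t • padicPlace (q : ℕ)) (q : ℕ) x)) := by
  haveI : Fact (q : ℕ).Prime := ⟨q.2⟩
  exact norm_eq_zpow_of_hasOrd (q : ℕ) t hx0
    (hasOrd_ordAt hx hx0 q hq _ (liesOverPrime_smul_padicPlace (q : ℕ) t))

/-- `ordAt` from the norm -/
theorem ordAt_eq_neg_log_norm (q : Nat.Primes) (hq : q ∉ S)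
    (t : Qbar ≃ₐ[ℚ] Qbar) {x : Qbar} (hx : InQS S x) (hx0 : x ≠ 0) :
    haveI : Fact (q : ℕ).Prime := ⟨q.2⟩
    ordAt (t • padicPlace (q : ℕ)) (q : ℕ) x =
      -Int.log (q : ℕ) ‖padicEmbedding (q : ℕ) (t⁻¹ x)‖ := by
  haveI : Fact (q : ℕ).Prime := ⟨q.2⟩
  rw [norm_padicEmbedding_eq_zpow_ordAt q hq t hx hx0, Int.log_zpow q.2.one_lt, neg_neg]

end Fermat.Agent.S55.Middle.CapNorm
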