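/-
S55 / Middle, row M.count.cl (helper89), ABSTRACT CORE: the Kummer map into `H¹_LC(P; O_S)[p]`.

`K₀ ⊆ ℚ̄` containing the `p`-th roots of unity, `P = Gal(ℚ̄/K₀)`, `𝒱` a basis of `↥P` in which every
`S`-level is open, `M = Rep.res P.subtype (Defs.OS S)` (the `S`-units of `ℚ_S`).  For `β ∈ ℚ_Sˣ` with
`β ^ p ∈ K₀` the function `σ ↦ σ β / β` is a level-constant `1`-cocycle `P → μ_p ⊆ O_S`; its class
`cls β ∈ H¹_LC(P; O_S)` is killed by `p`, is additive in `β`, vanishes for `β ∈ K₀`, and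
`cls β = 0` iff `β ∈ (S-units of ℚ_S) · K₀ˣ`.

For a subgroup `V` of `K₀ˣ` all of whose `p`-th roots lie in `ℚ_S` this gives
`kummerHom : Additive V →+ H¹_LC(P; O_S)`, `α ↦ cls (α^{1/p})`, with `p • kummerHom α = 0` and
kernel inside `(S-units of K₀) · K₀ˣᵖ`.
-/
import Fermat.Agent.S55.Middle.Defs

set_option autoImplicit false
set_option linter.unusedSectionVars false

open CategoryTheory groupCohomology
open scoped Pointwise

namespace Fermat.Agent.S55.Middle.CountClCore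

open Fermat.Agent.S55.Formal Fermat.Agent.S55.Middle.Defs

local instance isAlgebraicQbar_ccc : Algebra.IsAlgebraic ℚ (AlgebraicClosure ℚ) :=
  AlgebraicClosure.isAlgebraic ℚ
local instance isAlgClosureQbar_ccc : IsAlgClosure ℚ (AlgebraicClosure ℚ) :=
  ⟨inferInstance, inferInstance⟩
local instance normalQbar_ccc : Normal ℚ (AlgebraicClosure ℚ) :=
  IsAlgClosure.normal ℚ (AlgebraicClosure ℚ)
local instance isGaloisQbar_ccc : IsGalois ℚ (AlgebraicClosure ℚ) := ⟨⟩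

noncomputable section

/-! ### the Kummer symbol -/

section Kum

/-- the Kummer symbol `σ β / β` -/
def kum (β : Qbarˣ) (σ : GQ) : Qbarˣ := σ • β / β

theorem kum_mul_right (β : Qbarˣ) (σ τ : GQ) : kum β (σ * τ) = kum β σ * σ • kum β τ := by
  unfold kum
  rw [smul_div', mul_smul, mul_comm, div_mul_div_cancel]

theorem kum_mul_left (β β' : Qbarˣ) (σ : GQ) : kum (β * β') σ = kum β σ * kum β' σ := by
  unfold kum
  rw [smul_mul', mul_div_mul_comm]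

theorem kum_pow (β : Qbarˣ) (σ : GQ) (n : ℕ) : kum β σ ^ n = kum (β ^ n) σ := by
  unfold kum
  rw [div_pow, smul_pow']

theorem kum_eq_one_iff (β : Qbarˣ) (σ : GQ) : kum β σ = 1 ↔ σ ((β : Qbarˣ) : Qbar) = β := by
  unfold kum
  rw [div_eq_one]
  constructor
  · intro h
    exact congrArg Units.val h
  · intro h
    exact Units.ext h

variable (K₀ : IntermediateField ℚ Qbar)

theorem kum_eq_one_of_mem {ξ : Qbarˣ} (hξ : (ξ : Qbar) ∈ K₀) {σ : GQ}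
    (hσ : σ ∈ K₀.fixingSubgroup) : kum ξ σ = 1 :=
  (kum_eq_one_iff ξ σ).2 ((IntermediateField.mem_fixingSubgroup_iff _ _).1 hσ _ hξ)

theorem kum_pow_eq_one {p : ℕ} {β : Qbarˣ} (hβ : ((β ^ p : Qbarˣ) : Qbar) ∈ K₀) {σ : GQ}
    (hσ : σ ∈ K₀.fixingSubgroup) : kum β σ ^ p = 1 := by
  rw [kum_pow]
  exact kum_eq_one_of_mem K₀ hβ hσ

theorem kum_mul_of_fix (β : Qbarˣ) (σ s : GQ) (hs : s ((β : Qbarˣ) : Qbar) = β) :
    kum β (σ * s) = kum β σ := by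
  rw [kum_mul_right, (kum_eq_one_iff β s).2 hs, smul_one, mul_one]

end Kum

/-- an element of `ℚ̄` fixed by `Gal(ℚ̄/F)` lies in `F` -/
theorem mem_of_fixed {F : IntermediateField ℚ Qbar} {x : Qbar}
    (h : ∀ s ∈ F.fixingSubgroup, s x = x) : x ∈ F := by
  have h1 : x ∈ IntermediateField.fixedField F.fixingSubgroup :=
    (IntermediateField.mem_fixedField_iff _ _).2 h
  rwa [InfiniteGalois.fixedField_fixingSubgroup F] at h1

/-! ### roots of unity -/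

section RootsOfUnity

variable {p : ℕ} [hp : Fact p.Prime] (K₀ : IntermediateField ℚ Qbar)

/-- if `K₀` contains a primitive `p`-th root of unity it contains all `p`-th roots of unity -/
theorem mem_of_pow_eq_one (hζ : ∃ ζ : Qbar, ζ ∈ K₀ ∧ IsPrimitiveRoot ζ p) {ξ : Qbar}
    (hξ : ξ ^ p = 1) : ξ ∈ K₀ := by
  obtain ⟨ζ, hζK, hζ⟩ := hζ
  have : NeZero p := ⟨hp.out.ne_zero⟩
  obtain ⟨i, -, rfl⟩ := hζ.eq_pow_of_pow_eq_one hξ
  exact pow_mem hζK i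

/-- roots of unity are `S`-units -/
theorem mem_sUnitSubgroup_of_pow_eq_one (S : Finset Nat.Primes) {x : Qbarˣ} (hx : x ^ p = 1) :
    x ∈ sUnitSubgroup S := by
  intro q _ A _
  rw [ValuationSubring.mem_unitGroup_iff]
  have h1 : A.valuation ((x : Qbarˣ) : Qbar) ^ p = 1 := by
    rw [← map_pow, ← Units.val_pow_eq_pow_val, hx, Units.val_one, map_one]
  rcases pow_eq_one_iff.1 h1 with h | h
  · exact h
  · exact absurd h hp.out.ne_zero

end RootsOfUnity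

/-! ### the module `O_S` restricted to `P` -/

section Module

variable (S : Finset Nat.Primes)

/-- the subgroup of `ℚ̄ˣ` underlying `Defs.OS S` -/
abbrev osGroup : Subgroup Qbarˣ := qsSubgroup S ⊓ sUnitSubgroup S

/-- an element of `O_S` from an `S`-unit of `ℚ_S` -/
def mkOS (u : Qbarˣ) (hu : u ∈ osGroup S) : OS S :=
  (⟨Additive.ofMul u, hu⟩ : ↥(toSub (osGroup S)))

/-- the unit underlying an element of `O_S` -/
def valOS (m : OS S) : Qbarˣ := toUnit ((show ↥(toSub (osGroup S)) from m) : Gm)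

theorem valOS_mkOS (u : Qbarˣ) (hu : u ∈ osGroup S) : valOS S (mkOS S u hu) = u := rfl

theorem valOS_mem (m : OS S) : valOS S m ∈ osGroup S :=
  (show ↥(toSub (osGroup S)) from m).2

theorem valOS_injective : Function.Injective (valOS S) := fun _ _ h => Subtype.ext h

theorem valOS_add (a b : OS S) : valOS S (a + b) = valOS S a * valOS S b := rfl

theorem valOS_zero : valOS S (0 : OS S) = 1 := rfl

theorem valOS_neg (a : OS S) : valOS S (-a) = (valOS S a)⁻¹ := rfl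

theorem valOS_sub (a b : OS S) : valOS S (a - b) = valOS S a / valOS S b := by
  rw [sub_eq_add_neg, valOS_add, valOS_neg, div_eq_mul_inv]

theorem valOS_ρ (g : GQ) (a : OS S) : valOS S ((OS S).ρ g a) = g • valOS S a := rfl

theorem valOS_zsmul (n : ℤ) (a : OS S) : valOS S (n • a) = valOS S a ^ n := rfl

end Module

/-! ### the Kummer cocycle -/

section Cocycle

variable (S : Finset Nat.Primes) {p : ℕ} [hp : Fact p.Prime] (K₀ : IntermediateField ℚ Qbar)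
  (𝒱 : NBasis ↥K₀.fixingSubgroup)

/-- the coefficient module: `O_S` restricted to `P = Gal(ℚ̄/K₀)` -/
abbrev MP : Rep.{0, 0, 0} ℤ ↥K₀.fixingSubgroup := Rep.res K₀.fixingSubgroup.subtype (OS S)

/-- the group of `p`-th roots (in `ℚ_S`) of elements of `K₀` -/
def rootGroup (p : ℕ) : Subgroup Qbarˣ where
  carrier := {β | β ∈ qsSubgroup S ∧ ((β ^ p : Qbarˣ) : Qbar) ∈ K₀}
  one_mem' := ⟨(qsSubgroup S).one_mem, by simp⟩
  mul_mem' := by
    rintro a b ⟨ha, ha'⟩ ⟨hb, hb'⟩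
    refine ⟨(qsSubgroup S).mul_mem ha hb, ?_⟩
    rw [mul_pow, Units.val_mul]
    exact mul_mem ha' hb'
  inv_mem' := by
    rintro a ⟨ha, ha'⟩
    refine ⟨(qsSubgroup S).inv_mem ha, ?_⟩
    rw [inv_pow, Units.val_inv_eq_inv_val]
    exact inv_mem ha'

theorem mem_rootGroup {β : Qbarˣ} :
    β ∈ rootGroup S K₀ p ↔ β ∈ qsSubgroup S ∧ ((β ^ p : Qbarˣ) : Qbar) ∈ K₀ := Iff.rfl

variable {S K₀}

theorem kum_mem_osGroup {β : Qbarˣ} (hβ : β ∈ rootGroup S K₀ p) (σ : ↥K₀.fixingSubgroup) :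
    kum β (σ : GQ) ∈ osGroup S := by
  refine ⟨?_, mem_sUnitSubgroup_of_pow_eq_one S (kum_pow_eq_one K₀ hβ.2 σ.2)⟩
  exact (qsSubgroup S).div_mem (galStable_qsSubgroup S σ β hβ.1) hβ.1

/-- the Kummer cochain `σ ↦ σ β / β` with values in `O_S` -/
def zfun {β : Qbarˣ} (hβ : β ∈ rootGroup S K₀ p) : ↥K₀.fixingSubgroup → MP S K₀ :=
  fun σ => mkOS S (kum β (σ : GQ)) (kum_mem_osGroup hβ σ)

theorem valOS_zfun {β : Qbarˣ} (hβ : β ∈ rootGroup S K₀ p) (σ : ↥K₀.fixingSubgroup) :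
    valOS S (zfun hβ σ) = kum β (σ : GQ) := rfl

variable (hζ : ∃ ζ : Qbar, ζ ∈ K₀ ∧ IsPrimitiveRoot ζ p)
  (hopen : ∀ F : IntermediateField ℚ Qbar, F.IsUnramifiedOutside S →
    ∃ W, 𝒱.mem W ∧ W ≤ F.fixingSubgroup.subgroupOf K₀.fixingSubgroup)

include hζ hopen in
theorem zfun_mem_C₁ {β : Qbarˣ} (hβ : β ∈ rootGroup S K₀ p) :
    zfun hβ ∈ C₁ 𝒱 (MP S K₀) := by
  obtain ⟨F, hF, hβF⟩ := hβ.1
  obtain ⟨W, hW, hWF⟩ := hopen F hF
  refine ⟨W, hW, fun s hs g => ⟨?_, ?_⟩⟩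
  · apply valOS_injective
    rw [valOS_zfun, valOS_zfun]
    have hs' : (s : GQ) ∈ F.fixingSubgroup := Subgroup.mem_subgroupOf.1 (hWF hs)
    exact kum_mul_of_fix β _ _ ((IntermediateField.mem_fixingSubgroup_iff _ _).1 hs' _ hβF)
  · apply valOS_injective
    change (s : GQ) • valOS S (zfun hβ g) = valOS S (zfun hβ g)
    rw [valOS_zfun]
    have h1 : ((kum β (g : GQ) : Qbarˣ) : Qbar) ∈ K₀ := by
      apply mem_of_pow_eq_one K₀ hζ
      rw [← Units.val_pow_eq_pow_val, kum_pow_eq_one K₀ hβ.2 g.2, Units.val_one]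
    apply Units.ext
    exact (IntermediateField.mem_fixingSubgroup_iff _ _).1 s.2 _ h1

theorem d₁₂_zfun {β : Qbarˣ} (hβ : β ∈ rootGroup S K₀ p) :
    (d₁₂ (MP S K₀)).hom (zfun hβ) = 0 := by
  funext ⟨g, h⟩
  rw [d₁₂_hom_apply]
  apply valOS_injective
  change valOS S ((OS S).ρ (g : GQ) (zfun hβ h) - zfun hβ (g * h) + zfun hβ g) = 1
  rw [valOS_add, valOS_sub, valOS_ρ, valOS_zfun, valOS_zfun, valOS_zfun]
  change (g : GQ) • kum β (h : GQ) / kum β ((g : GQ) * (h : GQ)) * kum β (g : GQ) = 1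
  rw [kum_mul_right]
  rw [div_mul_eq_mul_div, div_eq_one, mul_comm]

/-- the Kummer cocycle as an element of `C¹_LC` -/
def zC {β : Qbarˣ} (hβ : β ∈ rootGroup S K₀ p) : ↥(C₁ 𝒱 (MP S K₀)) :=
  ⟨zfun hβ, zfun_mem_C₁ 𝒱 hζ hopen hβ⟩

theorem dC₁_zC {β : Qbarˣ} (hβ : β ∈ rootGroup S K₀ p) :
    dC₁ 𝒱 (MP S K₀) (zC 𝒱 hζ hopen hβ) = 0 := by
  apply Subtype.ext
  rw [dC₁_coe]
  exact d₁₂_zfun hβ

/-- the Kummer class `cls β ∈ H¹_LC(P; O_S)` -/
def cls {β : Qbarˣ} (hβ : β ∈ rootGroup S K₀ p) : H1 𝒱 (MP S K₀) :=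
  Hmid.of (zC 𝒱 hζ hopen hβ) (dC₁_zC 𝒱 hζ hopen hβ)

theorem zfun_mul {β β' : Qbarˣ} (hβ : β ∈ rootGroup S K₀ p) (hβ' : β' ∈ rootGroup S K₀ p) :
    zfun ((rootGroup S K₀ p).mul_mem hβ hβ') = zfun hβ + zfun hβ' := by
  funext σ
  apply valOS_injective
  rw [Pi.add_apply, valOS_add, valOS_zfun, valOS_zfun, valOS_zfun, kum_mul_left]

theorem cls_mul {β β' : Qbarˣ} (hβ : β ∈ rootGroup S K₀ p) (hβ' : β' ∈ rootGroup S K₀ p) :
    cls 𝒱 hζ hopen ((rootGroup S K₀ p).mul_mem hβ hβ') =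
      cls 𝒱 hζ hopen hβ + cls 𝒱 hζ hopen hβ' := by
  unfold cls
  rw [← Hmid.of_add]
  congr 1
  apply Subtype.ext
  exact zfun_mul hβ hβ'

theorem cls_eq_zero_of_mem {β : Qbarˣ} (hβ : β ∈ rootGroup S K₀ p) (hβK : (β : Qbar) ∈ K₀) :
    cls 𝒱 hζ hopen hβ = 0 := by
  have h0 : zC 𝒱 hζ hopen hβ = 0 := by
    apply Subtype.ext
    funext σ
    apply valOS_injective
    change valOS S (zfun hβ σ) = 1
    rw [valOS_zfun]
    exact kum_eq_one_of_mem K₀ hβK σ.2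
  unfold cls
  rw [Hmid.of_eq_zero_iff]
  exact ⟨0, by rw [map_zero, h0]⟩

theorem nsmul_cls {β : Qbarˣ} (hβ : β ∈ rootGroup S K₀ p) : p • cls 𝒱 hζ hopen hβ = 0 := by
  have h0 : (p : ℤ) • zC 𝒱 hζ hopen hβ = 0 := by
    apply Subtype.ext
    funext σ
    apply valOS_injective
    change valOS S ((p : ℤ) • zfun hβ σ) = 1
    rw [valOS_zsmul, valOS_zfun, zpow_natCast]
    exact kum_pow_eq_one K₀ hβ.2 σ.2
  rw [← natCast_zsmul]
  unfold cls
  have h1 := Hmid.of_smul (f := dC₀ 𝒱 (MP S K₀)) (p : ℤ) (dC₁_zC 𝒱 hζ hopen hβ)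
  refine h1.symm.trans ?_
  rw [Hmid.of_eq_zero_iff]
  exact ⟨0, by rw [map_zero]; exact h0.symm⟩

/-- **kernel of the Kummer class**: `cls β = 0` implies `β ∈ (S-units of ℚ_S) · K₀ˣ`. -/
theorem exists_of_cls_eq_zero {β : Qbarˣ} (hβ : β ∈ rootGroup S K₀ p)
    (h : cls 𝒱 hζ hopen hβ = 0) : ∃ u ∈ osGroup S, ((β / u : Qbarˣ) : Qbar) ∈ K₀ := by
  unfold cls at h
  rw [Hmid.of_eq_zero_iff] at h
  obtain ⟨m, hm⟩ := h
  refine ⟨valOS S (m : MP S K₀), valOS_mem S _, ?_⟩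
  apply mem_of_fixed
  intro σ hσ
  have h1 := congrFun (congrArg Subtype.val hm) ⟨σ, hσ⟩
  rw [dC₀_coe, d₀₁_hom_apply] at h1
  have h2 := congrArg (valOS S) h1
  change valOS S ((OS S).ρ σ (m : MP S K₀) - (m : MP S K₀)) = valOS S (zfun hβ ⟨σ, hσ⟩) at h2
  rw [valOS_sub, valOS_ρ, valOS_zfun] at h2
  -- `σ u / u = σ β / β`
  have h3 : σ • (β / valOS S (m : MP S K₀)) = β / valOS S (m : MP S K₀) := by
    rw [smul_div']
    unfold kum at h2
    rw [div_eq_div_iff_mul_eq_mul] at h2 ⊢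
    exact h2.symm.trans (mul_comm _ _)
  exact congrArg Units.val h3

theorem cls_congr {β β' : Qbarˣ} (hβ : β ∈ rootGroup S K₀ p) (hβ' : β' ∈ rootGroup S K₀ p)
    (e : β = β') : cls 𝒱 hζ hopen hβ = cls 𝒱 hζ hopen hβ' := by
  subst e
  rfl

/-- the class only depends on `β ^ p`. -/
theorem cls_eq_of_pow_eq {β β' : Qbarˣ} (hβ : β ∈ rootGroup S K₀ p)
    (hβ' : β' ∈ rootGroup S K₀ p) (h : β ^ p = β' ^ p) :
    cls 𝒱 hζ hopen hβ = cls 𝒱 hζ hopen hβ' := by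
  have hξp : (β / β') ^ p = 1 := by rw [div_pow, h, div_self']
  have hξK : ((β / β' : Qbarˣ) : Qbar) ∈ K₀ := by
    apply mem_of_pow_eq_one K₀ hζ
    rw [← Units.val_pow_eq_pow_val, hξp, Units.val_one]
  have hξ : β / β' ∈ rootGroup S K₀ p := (rootGroup S K₀ p).div_mem hβ hβ'
  have e : β = β / β' * β' := (div_mul_cancel β β').symm
  rw [cls_congr 𝒱 hζ hopen hβ ((rootGroup S K₀ p).mul_mem hξ hβ') e,
    cls_mul 𝒱 hζ hopen hξ hβ', cls_eq_zero_of_mem 𝒱 hζ hopen hξ hξK, zero_add]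

end Cocycle

/-! ### the Kummer homomorphism on a subgroup of `K₀ˣ` -/

section Hom

variable (S : Finset Nat.Primes) {p : ℕ} [hp : Fact p.Prime] (K₀ : IntermediateField ℚ Qbar)
  (𝒱 : NBasis ↥K₀.fixingSubgroup)
  (hζ : ∃ ζ : Qbar, ζ ∈ K₀ ∧ IsPrimitiveRoot ζ p)
  (hopen : ∀ F : IntermediateField ℚ Qbar, F.IsUnramifiedOutside S →
    ∃ W, 𝒱.mem W ∧ W ≤ F.fixingSubgroup.subgroupOf K₀.fixingSubgroup)
  (V : Subgroup Qbarˣ) (hVK : ∀ α ∈ V, ((α : Qbarˣ) : Qbar) ∈ K₀)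
  (hroot : ∀ α ∈ V, ∀ β : Qbarˣ, β ^ p = α → β ∈ qsSubgroup S)

theorem exists_root (α : Qbarˣ) : ∃ β : Qbarˣ, β ^ p = α := by
  obtain ⟨z, hz⟩ := IsAlgClosed.exists_pow_nat_eq ((α : Qbarˣ) : Qbar) hp.out.pos
  have hz0 : z ≠ 0 := by
    rintro rfl
    rw [zero_pow hp.out.ne_zero] at hz
    exact α.ne_zero hz.symm
  exact ⟨Units.mk0 z hz0, Units.ext (by rw [Units.val_pow_eq_pow_val, Units.val_mk0, hz])⟩

/-- a chosen `p`-th root -/
def root (p : ℕ) [Fact p.Prime] (α : Qbarˣ) : Qbarˣ := Classical.choose (exists_root (p := p) α)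

theorem root_pow (α : Qbarˣ) : root p α ^ p = α := Classical.choose_spec (exists_root (p := p) α)

include hVK hroot in
theorem root_mem {α : Qbarˣ} (hα : α ∈ V) : root p α ∈ rootGroup S K₀ p :=
  ⟨hroot α hα _ (root_pow α), by rw [root_pow]; exact hVK α hα⟩

/-- **the Kummer homomorphism** `V → H¹_LC(P; O_S)`, `α ↦ [σ ↦ σ(α^{1/p}) / α^{1/p}]`. -/
def kummerHom : Additive ↥V →+ H1 𝒱 (MP S K₀) where
  toFun a := cls 𝒱 hζ hopen (root_mem S K₀ V hVK hroot (Additive.toMul a).2)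
  map_zero' := by
    apply cls_eq_zero_of_mem
    have h1 : root p ((Additive.toMul (0 : Additive ↥V) : ↥V) : Qbarˣ) ^ p = 1 := root_pow _
    apply mem_of_pow_eq_one K₀ hζ
    rw [← Units.val_pow_eq_pow_val, h1, Units.val_one]
  map_add' a b := by
    rw [← cls_mul]
    apply cls_eq_of_pow_eq
    rw [root_pow, mul_pow, root_pow, root_pow]
    rfl

theorem nsmul_kummerHom (a : Additive ↥V) : p • kummerHom S K₀ 𝒱 hζ hopen V hVK hroot a = 0 :=
  nsmul_cls 𝒱 hζ hopen _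

/-- **kernel of the Kummer homomorphism**: inside `(S-units of K₀) · K₀ˣᵖ`. -/
theorem exists_of_kummerHom_eq_zero (a : Additive ↥V)
    (h : kummerHom S K₀ 𝒱 hζ hopen V hVK hroot a = 0) :
    ∃ ε γ : Qbarˣ, ε ∈ sUnitSubgroup S ∧ (ε : Qbar) ∈ K₀ ∧ (γ : Qbar) ∈ K₀ ∧
      ((Additive.toMul a : ↥V) : Qbarˣ) = ε * γ ^ p := by
  obtain ⟨u, hu, hγ⟩ := exists_of_cls_eq_zero 𝒱 hζ hopen _ h
  set α : Qbarˣ := ((Additive.toMul a : ↥V) : Qbarˣ) with hα
  have hαK : (α : Qbar) ∈ K₀ := hVK α (Additive.toMul a).2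
  have e : α = u ^ p * (root p α / u) ^ p := by
    rw [← mul_pow, mul_div_cancel, root_pow]
  refine ⟨u ^ p, root p α / u, (sUnitSubgroup S).pow_mem hu.2 p, ?_, hγ, e⟩
  have e2 : u ^ p = α / (root p α / u) ^ p := by
    rw [eq_div_iff_mul_eq']
    exact e.symm
  rw [e2, Units.val_div_eq_div_val, Units.val_pow_eq_pow_val]
  exact div_mem hαK (pow_mem hγ p)

end Hom

end

end Fermat.Agent.S55.Middle.CountClCore
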