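/-
S55 / Middle / M.sunitDict, adapters (helper48): the `S`-unit dictionary of `Middle/SUnitDict.lean`
in the literal vocabularies of `Middle/Defs.lean` (`IsSUnit`, helper17) and `Middle/Units.lean`
(`IsUnitOffS`, helper24), for a number field `K : IntermediateField ℚ ℚ̄`.

* `defs_isSUnit_iff`, `units_isUnitOffS_iff` : for `x : Kˣ`, both predicates are equivalent to
  `x ∈ (placesAbove K S).unit K` (Mathlib's `Set.unit`, places of `K` above `S`);
* `exists_unit_of_fixed` : a unit of `ℚ̄` fixed by `Gal(ℚ̄/K)` comes from `Kˣ`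
  (so `(OS S)^U`, `(KS S)^U` are computed inside `K` for `U = K.fixingSubgroup`);
* `fixed_isSUnit_iff` : for `u : ℚ̄ˣ` fixed by `Gal(ℚ̄/K)`: `Defs.IsSUnit S u` iff `u` comes from
  an element of `(placesAbove K S).unit K`.
-/
import Fermat.Agent.S55.Middle.SUnitDict
import Fermat.Agent.S55.Middle.Defs
import Fermat.Agent.S55.Middle.Units

set_option autoImplicit false
set_option linter.unusedSectionVars false

open scoped NumberField
open IsDedekindDomain

namespace Fermat.Agent.S55.Middle.SUnitDictAdapters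

open Fermat.Agent.S55.Middle.SUnitDict

local notation "Qbar" => AlgebraicClosure ℚ
local notation "GQ" => (AlgebraicClosure ℚ ≃ₐ[ℚ] AlgebraicClosure ℚ)

variable (S : Finset Nat.Primes) (K : IntermediateField ℚ Qbar) [NumberField K]

/-- `Middle/Defs.IsSUnit` for elements of `Kˣ`. -/
theorem defs_isSUnit_iff (x : Kˣ) :
    Fermat.Agent.S55.Middle.Defs.IsSUnit S (Units.map (algebraMap K Qbar : K →* Qbar) x) ↔
      x ∈ (placesAbove K S).unit K :=
  isSUnitAt_iff (algebraMap K Qbar) S x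

/-- `Middle/Units.IsUnitOffS` for elements of `Kˣ`. -/
theorem units_isUnitOffS_iff (x : Kˣ) :
    Fermat.Agent.S55.Middle.Units.IsUnitOffS S (algebraMap K Qbar (x : K)) ↔
      x ∈ (placesAbove K S).unit K := by
  rw [← isSUnitAt_iff (algebraMap K Qbar) S x, isSUnitAt_iff_mem_and_inv_mem]
  rfl

local instance isGaloisQbarAd : IsGalois ℚ Qbar :=
  Fermat.Agent.Lib.UnramifiedTrivial.isGalois_algebraicClosure_rat

/-- An element of `ℚ̄` fixed by `Gal(ℚ̄/K)` lies in `K` (`K/ℚ` finite). -/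
theorem mem_of_fixed (a : Qbar) (h : ∀ σ ∈ K.fixingSubgroup, σ a = a) : a ∈ K := by
  have h1 : a ∈ IntermediateField.fixedField K.fixingSubgroup := by
    rw [IntermediateField.mem_fixedField_iff]
    exact h
  rwa [InfiniteGalois.fixedField_fixingSubgroup] at h1

/-- A unit of `ℚ̄` fixed by `Gal(ℚ̄/K)` comes from `Kˣ`. -/
theorem exists_unit_of_fixed (u : Qbarˣ) (h : ∀ σ ∈ K.fixingSubgroup, σ (u : Qbar) = u) :
    ∃ x : Kˣ, Units.map (algebraMap K Qbar : K →* Qbar) x = u := by
  have hu : (u : Qbar) ∈ K := mem_of_fixed K u h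
  have hne : (⟨(u : Qbar), hu⟩ : K) ≠ 0 := by
    intro h0
    exact u.ne_zero (congrArg Subtype.val h0)
  exact ⟨Units.mk0 ⟨(u : Qbar), hu⟩ hne, Units.ext rfl⟩

/-- For `u : ℚ̄ˣ` fixed by `Gal(ℚ̄/K)`: `u` is an `S`-unit in the sense of `Middle/Defs` iff it comes
from an `S`-unit of `K` in Mathlib's sense. -/
theorem fixed_isSUnit_iff (u : Qbarˣ) (h : ∀ σ ∈ K.fixingSubgroup, σ (u : Qbar) = u) :
    Fermat.Agent.S55.Middle.Defs.IsSUnit S u ↔
      ∃ x : Kˣ, x ∈ (placesAbove K S).unit K ∧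
        Units.map (algebraMap K Qbar : K →* Qbar) x = u := by
  obtain ⟨x, rfl⟩ := exists_unit_of_fixed K u h
  rw [defs_isSUnit_iff]
  constructor
  · intro hx
    exact ⟨x, hx, rfl⟩
  · rintro ⟨y, hy, hxy⟩
    have : y = x := by
      apply Units.ext
      have h1 := congrArg (fun w : Qbarˣ => (w : Qbar)) hxy
      exact (algebraMap K Qbar).injective h1
    rwa [← this]

end Fermat.Agent.S55.Middle.SUnitDictAdapters
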