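/-
S55 / Middle, row M.count.cl (helper89): `#Cl_T(K₀)[p] ≤ #H¹_LC(P; O_S)[p]`.

`K₀ ⊆ ℚ̄` a number field unramified outside `S ∋ p`, containing the `p`-th roots of unity,
`P = Gal(ℚ̄/K₀) = K₀.fixingSubgroup`, `T = placesAbove K₀ S`, `Cl_T(K₀) = KummerDim.ClT K₀ T` (helper37),
`𝒱` a basis of `↥P` in which the `S`-levels are open (`KSite.basisP S P`, `Defs.NBasis.sub …`).

* `valuation_eq_exp_neg_ordAt` : DICTIONARY `v(x) = exp (-ordAt A q x)` for `x` in a number field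
  unramified outside `S`, `q ∉ S`, `v` the place below `A | q`;
* `VQ`, `root_mem_qs` : the image in `ℚ̄ˣ` of `V_T(K₀) = {a : p ∣ ord_v a ∀ v ∉ T}`; every `p`-th root of
  an element of it lies in `ℚ_S` (capitulation, `Cap.inQS_of_pow_eq`);
* `kappa : V_T(K₀) →+ H¹_LC(P; O_S)` the Kummer map (`CountClCore.kummerHom`), `nsmul_kappa`,
  `mem_of_kappa_eq_zero` (kernel inside `O_{K₀,T}ˣ · K₀ˣᵖ`);
* `exists_injective`, `card_ClT_torsion_le` : the count, for any such basis `𝒱`;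
  `card_le_basisP`, `card_le_sub` : for the two bases in use.
-/
import Fermat.Agent.S55.Middle.CountClCore
import Fermat.Agent.S55.Middle.Cap
import Fermat.Agent.S55.Middle.SUnitDict
import Fermat.Agent.S55.Middle.SUnitDictAdapters
import Fermat.Agent.S55.Middle.KSite
import Fermat.Agent.S55.Global.KummerDim

set_option autoImplicit false
set_option linter.unusedSectionVars false

open scoped NumberField
open IsDedekindDomain WithZero

namespace Fermat.Agent.S55.Middle.CountCl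


open Fermat.Agent.S55.Bridge.Unram Fermat.Agent.S55.Middle.SUnitDict Fermat.Agent.S55.Middle.Cap
open Fermat.Agent.S55.Middle.Units (InQS)
open Fermat.Agent.S55.Global.KummerDim Fermat.Agent.S55.Global.KummerDimAbstract
open Fermat.Agent.S55.Formal Fermat.Agent.S55.Middle.CountClCore

local notation "Qbar" => AlgebraicClosure ℚ
local notation "GQ" => (AlgebraicClosure ℚ ≃ₐ[ℚ] AlgebraicClosure ℚ)

/-! ### the normalised valuation `ordAt` versus the `v`-adic valuation -/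

section OrdDict

variable {F : Type*} [Field F] [NumberField F] (ι : F →+* Qbar) {S : Finset Nat.Primes}
  (hF : (imageField ι).IsUnramifiedOutside S) {q : Nat.Primes} (hq : q ∉ S)
  {A : ValuationSubring Qbar} (hA : A.LiesOverPrime (q : ℕ))

include hF in
theorem inQS_map (x : F) : InQS S (ι x) := ⟨imageField ι, hF, ⟨x, rfl⟩⟩

/-- `x = q ^ n * (unit of A)` gives `v(x) = v(q) ^ n` at the place of `F` below `A`. -/
theorem valuation_eq_zpow_of_hasOrd {x : F} (hx0 : x ≠ 0) {n : ℤ}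
    (hn : HasOrd A (q : ℕ) (ι x) n) :
    (placeBelow ι A q.2.ne_zero hA).valuation F x =
      (placeBelow ι A q.2.ne_zero hA).valuation F ((q : ℕ) : F) ^ n := by
  set v := placeBelow ι A q.2.ne_zero hA with hv
  have hq0 : ((q : ℕ) : F) ≠ 0 := Nat.cast_ne_zero.2 q.2.ne_zero
  set y : F := x * ((q : ℕ) : F) ^ (-n) with hy
  have hy0 : y ≠ 0 := mul_ne_zero hx0 (zpow_ne_zero _ hq0)
  have hιy : ι y = ι x * ((q : ℕ) : Qbar) ^ (-n) := by
    rw [hy, map_mul, map_zpow₀, map_natCast]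
  have h1 : A.valuation (ι y) = 1 := by
    rw [hιy]
    exact valuation_eq_one_of_mem_of_inv_mem A
      (by rw [← hιy]; exact (map_ne_zero ι).2 hy0) hn.1 hn.2
  have h2 : v.valuation F y = 1 := (valuation_eq_one_iff q.2.ne_zero hA y).2 h1
  rw [hy, map_mul, map_zpow₀, zpow_neg] at h2
  have hw : v.valuation F ((q : ℕ) : F) ^ n ≠ 0 :=
    zpow_ne_zero _ (by rw [Ne, map_eq_zero]; exact hq0)
  exact (mul_inv_eq_one₀ hw).1 h2

include hF hq in
/-- `F` is unramified at the places off `S`: `v(q) = exp (-1)`. -/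
theorem valuation_natCast_eq :
    (placeBelow ι A q.2.ne_zero hA).valuation F ((q : ℕ) : F) = exp (-1 : ℤ) := by
  set v := placeBelow ι A q.2.ne_zero hA with hv
  have hq0 : ((q : ℕ) : F) ≠ 0 := Nat.cast_ne_zero.2 q.2.ne_zero
  obtain ⟨π, hπ⟩ := v.valuation_exists_uniformizer F
  have hπ0 : π ≠ 0 := by
    rintro rfl
    rw [map_zero] at hπ
    exact exp_ne_zero hπ.symm
  have hord := hasOrd_ordAt (inQS_map ι hF π) ((map_ne_zero ι).2 hπ0) q hq A hA
  have h1 := valuation_eq_zpow_of_hasOrd ι hA hπ0 hord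
  rw [← hv, hπ] at h1
  set w := v.valuation F ((q : ℕ) : F) with hw
  have hw0 : w ≠ 0 := by rw [hw, Ne, map_eq_zero]; exact hq0
  have hw1 : w ≤ 1 := by
    have := v.valuation_le_one (K := F) ((q : ℕ) : 𝓞 F)
    simpa using this
  set n₀ := ordAt A (q : ℕ) (ι π) with hn₀
  -- `w = exp (-e)`, `e ≥ 0`, `e * n₀ = 1`
  have hwe : w = exp (log w) := (exp_log hw0).symm
  have he0 : log w ≤ 0 := by
    rw [hwe, ← exp_zero, exp_le_exp] at hw1
    exact hw1
  rw [hwe, ← exp_zsmul, exp_inj, smul_eq_mul] at h1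
  -- `-1 = n₀ * log w`
  have h2 : n₀ * (-log w) = 1 := by linarith
  rcases Int.eq_one_or_neg_one_of_mul_eq_one' h2 with ⟨-, h3⟩ | ⟨-, h3⟩
  · rw [hwe]
    congr 1
    linarith
  · exfalso
    linarith

include hF hq in
/-- **`v(x) = exp (-ordAt x)`** at the places off `S`. -/
theorem valuation_eq_exp_neg_ordAt {x : F} (hx0 : x ≠ 0) :
    (placeBelow ι A q.2.ne_zero hA).valuation F x = exp (-(ordAt A (q : ℕ) (ι x))) := by
  have hord := hasOrd_ordAt (inQS_map ι hF x) ((map_ne_zero ι).2 hx0) q hq A hA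
  rw [valuation_eq_zpow_of_hasOrd ι hA hx0 hord, valuation_natCast_eq ι hF hq hA, ← exp_zsmul,
    smul_eq_mul, mul_neg, mul_one]

end OrdDict



/-! ### the Kummer group `V_T(K₀)` inside `ℚ̄ˣ` -/

section VT

variable (S : Finset Nat.Primes) (p : ℕ) [hp : Fact p.Prime] (K₀ : IntermediateField ℚ Qbar)
  [NumberField K₀]

/-- the embedding `K₀ˣ → ℚ̄ˣ` -/
noncomputable abbrev embU : (↥K₀)ˣ →* Qbarˣ := Units.map (algebraMap K₀ Qbar : K₀ →* Qbar)

theorem embU_injective : Function.Injective (embU K₀) :=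
  Units.map_injective (algebraMap K₀ Qbar).injective

theorem coe_embU (x : (↥K₀)ˣ) : ((embU K₀ x : Qbarˣ) : Qbar) = ((x : K₀) : Qbar) := rfl

/-- the places of `K₀` above `S` -/
abbrev TS : Set (HeightOneSpectrum (𝓞 K₀)) := placesAbove K₀ S

/-- `V_T(K₀)` as a subgroup of `ℚ̄ˣ` -/
def VQ : Subgroup Qbarˣ where
  carrier := {u | ∃ x : (↥K₀)ˣ, Additive.ofMul x ∈ VT K₀ (TS S K₀) p ∧ embU K₀ x = u}
  one_mem' := ⟨1, (VT K₀ (TS S K₀) p).zero_mem, map_one _⟩
  mul_mem' := by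
    rintro _ _ ⟨x, hx, rfl⟩ ⟨y, hy, rfl⟩
    exact ⟨x * y, (VT K₀ (TS S K₀) p).add_mem hx hy, map_mul _ _ _⟩
  inv_mem' := by
    rintro _ ⟨x, hx, rfl⟩
    exact ⟨x⁻¹, (VT K₀ (TS S K₀) p).neg_mem hx, map_inv _ _⟩

theorem VQ_le (u : Qbarˣ) (hu : u ∈ VQ S p K₀) : ((u : Qbarˣ) : Qbar) ∈ K₀ := by
  obtain ⟨x, -, rfl⟩ := hu
  exact (x : K₀).2

variable {S p K₀}

/-- for `x ∈ V_T(K₀)` all normalised valuations off `S` are divisible by `p`. -/
theorem dvd_ordAt_of_mem_VT (hK : K₀.IsUnramifiedOutside S) {x : (↥K₀)ˣ}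
    (hx : Additive.ofMul x ∈ VT K₀ (TS S K₀) p) (q : Nat.Primes) (hq : q ∉ S)
    (A : ValuationSubring Qbar) (hA : A.LiesOverPrime (q : ℕ)) :
    (p : ℤ) ∣ ordAt A (q : ℕ) (((x : K₀) : Qbar)) := by
  set v := placeBelow (algebraMap K₀ Qbar) A q.2.ne_zero hA with hv
  have hvT : v ∉ TS S K₀ := by
    rintro ⟨q', hq'S, hq'⟩
    have : (q' : ℕ) = (q : ℕ) := eq_of_natCast_mem_placeBelow (algebraMap K₀ Qbar) q.2 hA q'.2 hq'
    exact hq ((Subtype.ext this : q' = q) ▸ hq'S)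
  have h1 := (mem_VT_iff K₀ (TS S K₀) p _).1 hx v hvT
  have hF : (imageField (algebraMap K₀ Qbar)).IsUnramifiedOutside S := by
    rw [imageField_val]; exact hK
  have h2 := valuation_eq_exp_neg_ordAt (algebraMap K₀ Qbar) hF hq hA (x := (x : K₀)) x.ne_zero
  rw [← hv] at h2
  have h3 : ordv K₀ v (Additive.ofMul x) = -(ordAt A (q : ℕ) (((x : K₀) : Qbar))) := by
    rw [ordv_apply]
    have h4 : ((v.valuationOfNeZero x : Multiplicative ℤ) : WithZero (Multiplicative ℤ)) =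
        exp (-(ordAt A (q : ℕ) (((x : K₀) : Qbar)))) := by
      rw [HeightOneSpectrum.valuationOfNeZero_eq]
      exact h2
    rw [exp_eq_coe_ofAdd, WithZero.coe_inj] at h4
    exact congrArg Multiplicative.toAdd h4
  rw [h3] at h1
  exact (Int.dvd_neg).1 h1

/-- **capitulation for `V_T`**: every `p`-th root of an element of `V_T(K₀)` lies in `ℚ_S`. -/
theorem root_mem_qs (hpS : ExtCitation.pPrime p ∈ S) (hK : K₀.IsUnramifiedOutside S)
    (α : Qbarˣ) (hα : α ∈ VQ S p K₀) (β : Qbarˣ) (hβ : β ^ p = α) :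
    β ∈ Defs.qsSubgroup S := by
  obtain ⟨x, hx, rfl⟩ := hα
  have hxQ : InQS S (((x : K₀) : Qbar)) := ⟨K₀, hK, (x : K₀).2⟩
  have hx0 : (((x : K₀) : Qbar)) ≠ 0 := by
    have := (embU K₀ x).ne_zero
    exact this
  have hβ' : ((β : Qbarˣ) : Qbar) ^ p = ((x : K₀) : Qbar) := by
    rw [← Units.val_pow_eq_pow_val, hβ]
    rfl
  exact (inQS_of_pow_eq p hpS hxQ hx0 hβ' (dvd_ordAt_of_mem_VT hK hx)).1

end VT


/-! ### the Kummer map on `V_T(K₀)` and the count -/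

section Count

variable (S : Finset Nat.Primes) (p : ℕ) [hp : Fact p.Prime] (K₀ : IntermediateField ℚ Qbar)
  [NumberField K₀] (𝒱 : NBasis ↥K₀.fixingSubgroup)
  (hpS : ExtCitation.pPrime p ∈ S) (hK : K₀.IsUnramifiedOutside S)
  (hζ : ∃ ζ : Qbar, ζ ∈ K₀ ∧ IsPrimitiveRoot ζ p)
  (hopen : ∀ F : IntermediateField ℚ Qbar, F.IsUnramifiedOutside S →
    ∃ W, 𝒱.mem W ∧ W ≤ F.fixingSubgroup.subgroupOf K₀.fixingSubgroup)

/-- `V_T(K₀) → V_Q` -/
noncomputable def toV : ↥(VT K₀ (TS S K₀) p) →+ Additive ↥(VQ S p K₀) where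
  toFun a := Additive.ofMul ⟨embU K₀ (Additive.toMul (a : Additive (↥K₀)ˣ)),
    ⟨Additive.toMul (a : Additive (↥K₀)ˣ), a.2, rfl⟩⟩
  map_zero' := by
    apply Additive.toMul.injective
    apply Subtype.ext
    exact map_one (embU K₀)
  map_add' a b := by
    apply Additive.toMul.injective
    apply Subtype.ext
    exact map_mul (embU K₀) _ _

theorem coe_toV (a : ↥(VT K₀ (TS S K₀) p)) :
    ((Additive.toMul (toV S p K₀ a) : ↥(VQ S p K₀)) : Qbarˣ) =
      embU K₀ (Additive.toMul (a : Additive (↥K₀)ˣ)) := rfl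

include hpS hK in
theorem hroot_VQ : ∀ α ∈ VQ S p K₀, ∀ β : Qbarˣ, β ^ p = α → β ∈ Defs.qsSubgroup S :=
  fun α hα β hβ => root_mem_qs hpS hK α hα β hβ

/-- **the Kummer map** `V_T(K₀) →+ H¹_LC(P; O_S)`. -/
noncomputable def kappa : ↥(VT K₀ (TS S K₀) p) →+ H1 𝒱 (MP S K₀) :=
  (kummerHom S K₀ 𝒱 hζ hopen (VQ S p K₀) (VQ_le S p K₀) (hroot_VQ S p K₀ hpS hK)).comp
    (toV S p K₀)

theorem nsmul_kappa (a : ↥(VT K₀ (TS S K₀) p)) : p • kappa S p K₀ 𝒱 hpS hK hζ hopen a = 0 :=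
  nsmul_kummerHom S K₀ 𝒱 hζ hopen (VQ S p K₀) (VQ_le S p K₀) (hroot_VQ S p K₀ hpS hK) _

/-- **kernel of the Kummer map**: inside `O_{K₀,T}ˣ · K₀ˣᵖ`. -/
theorem mem_of_kappa_eq_zero (a : ↥(VT K₀ (TS S K₀) p))
    (h : kappa S p K₀ 𝒱 hpS hK hζ hopen a = 0) :
    (a : Additive (↥K₀)ˣ) ∈ (divT K₀ (TS S K₀)).ker ⊔ (pMul (Additive (↥K₀)ˣ) p).range := by
  obtain ⟨ε, γ, hε, hεK, hγK, e⟩ :=
    exists_of_kummerHom_eq_zero S K₀ 𝒱 hζ hopen (VQ S p K₀) (VQ_le S p K₀)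
      (hroot_VQ S p K₀ hpS hK) _ h
  rw [coe_toV] at e
  set x : (↥K₀)ˣ := Additive.toMul (a : Additive (↥K₀)ˣ) with hx
  set ε' : (↥K₀)ˣ := Units.mk0 ⟨(ε : Qbar), hεK⟩ (by
    intro h0
    exact ε.ne_zero (congrArg Subtype.val h0)) with hε'
  set γ' : (↥K₀)ˣ := Units.mk0 ⟨(γ : Qbar), hγK⟩ (by
    intro h0
    exact γ.ne_zero (congrArg Subtype.val h0)) with hγ'
  have e1 : embU K₀ ε' = ε := Units.ext rfl
  have e2 : embU K₀ γ' = γ := Units.ext rfl
  have e3 : x = ε' * γ' ^ p := by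
    apply embU_injective K₀
    rw [e, map_mul, map_pow, e1, e2]
  have hunit : ε' ∈ (placesAbove K₀ S).unit K₀ := by
    rw [← SUnitDictAdapters.defs_isSUnit_iff S K₀ ε']
    have : Units.map (algebraMap K₀ Qbar : K₀ →* Qbar) ε' = ε := e1
    rw [this]
    exact hε
  have hker : Additive.ofMul ε' ∈ (divT K₀ (TS S K₀)).ker := by
    rw [AddMonoidHom.mem_ker]
    ext v
    rw [divT_apply, Finsupp.zero_apply, ordv_eq_zero_iff]
    exact hunit v.1 v.2
  have hsum : (a : Additive (↥K₀)ˣ) = Additive.ofMul ε' + p • Additive.ofMul γ' := by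
    apply Additive.toMul.injective
    exact e3
  rw [hsum]
  exact AddSubgroup.add_mem_sup hker ⟨Additive.ofMul γ', rfl⟩

include hpS hK hζ hopen in
/-- the `p`-torsion of `H¹_LC(P; O_S)` receives an injection from `Cl_T(K₀)[p]`. -/
theorem exists_injective :
    ∃ f : ↥(pMul (ClT K₀ (TS S K₀)) p).ker → {a : H1 𝒱 (MP S K₀) // p • a = 0},
      Function.Injective f := by
  have hB := divT_torsionFree (TS S K₀) p hp.out.ne_zero
  have hsurj : ∀ c : ↥(pMul (ClT K₀ (TS S K₀)) p).ker,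
      ∃ a : ↥(VT K₀ (TS S K₀) p), psi (divT K₀ (TS S K₀)) p hB a = (c : ClT K₀ (TS S K₀)) := by
    intro c
    have hc : (c : ClT K₀ (TS S K₀)) ∈ (psi (divT K₀ (TS S K₀)) p hB).range := by
      rw [psi_range]
      exact c.2
    exact hc
  choose pre hpre using hsurj
  refine ⟨fun c => ⟨kappa S p K₀ 𝒱 hpS hK hζ hopen (pre c), nsmul_kappa S p K₀ 𝒱 hpS hK hζ hopen _⟩,
    ?_⟩
  intro c c' hcc
  have h0 : kappa S p K₀ 𝒱 hpS hK hζ hopen (pre c - pre c') = 0 := by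
    rw [map_sub, sub_eq_zero]
    exact congrArg Subtype.val hcc
  have h1 := mem_of_kappa_eq_zero S p K₀ 𝒱 hpS hK hζ hopen _ h0
  have h2 : pre c - pre c' ∈ (psi (divT K₀ (TS S K₀)) p hB).ker := by
    rw [psi_ker]
    exact h1
  have h3 : psi (divT K₀ (TS S K₀)) p hB (pre c) = psi (divT K₀ (TS S K₀)) p hB (pre c') := by
    have h4 := (psi (divT K₀ (TS S K₀)) p hB).map_sub (pre c) (pre c')
    exact sub_eq_zero.1 (h4.symm.trans h2)
  exact Subtype.ext ((hpre c).symm.trans (h3.trans (hpre c')))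

include hpS hK hζ hopen in
/-- **M.count.cl**: `#Cl_T(K₀)[p] ≤ #H¹_LC(P; O_S)[p]`. -/
theorem card_ClT_torsion_le [Finite {a : H1 𝒱 (MP S K₀) // p • a = 0}] :
    Nat.card ↥(pMul (ClT K₀ (TS S K₀)) p).ker ≤ Nat.card {a : H1 𝒱 (MP S K₀) // p • a = 0} := by
  obtain ⟨f, hf⟩ := exists_injective S p K₀ 𝒱 hpS hK hζ hopen
  exact Nat.card_le_card_of_injective f hf

end Count

/-! ### the two bases in use -/

section Bases

variable (S : Finset Nat.Primes) (p : ℕ) [hp : Fact p.Prime] (K₀ : IntermediateField ℚ Qbar)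
  [NumberField K₀]
  (hpS : ExtCitation.pPrime p ∈ S) (hK : K₀.IsUnramifiedOutside S)
  (hζ : ∃ ζ : Qbar, ζ ∈ K₀ ∧ IsPrimitiveRoot ζ p)

theorem hopen_basisP (F : IntermediateField ℚ Qbar) (hF : F.IsUnramifiedOutside S) :
    ∃ W, (KSite.basisP S K₀.fixingSubgroup).mem W ∧
      W ≤ F.fixingSubgroup.subgroupOf K₀.fixingSubgroup := by
  obtain ⟨U, hU, hle⟩ := PreludeLC.exists_mem_globalBasis_le S hF
  exact ⟨U.subgroupOf K₀.fixingSubgroup, ⟨U, hU, rfl⟩, fun x hx => hle hx⟩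

include hK in
theorem hopen_sub (F : IntermediateField ℚ Qbar) (hF : F.IsUnramifiedOutside S) :
    ∃ W, (Defs.NBasis.sub (PreludeLC.globalBasis S) K₀.fixingSubgroup).mem W ∧
      W ≤ F.fixingSubgroup.subgroupOf K₀.fixingSubgroup := by
  obtain ⟨U, hU, hle⟩ := PreludeLC.exists_mem_globalBasis_le S (hF.sup hK)
  rw [IntermediateField.fixingSubgroup_sup] at hle
  exact ⟨U.subgroupOf K₀.fixingSubgroup, Or.inr ⟨U, hU, fun x hx => (hle hx).2, rfl⟩,
    fun x hx => (hle hx).1⟩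

include hpS hK hζ in
/-- **M.count.cl** for the basis `KSite.basisP S P` (`= ShapiroLC.subBasis (globalBasis S) P`). -/
theorem card_le_basisP
    [Finite {a : H1 (KSite.basisP S K₀.fixingSubgroup)
      (KSite.resP K₀.fixingSubgroup (Defs.OS S)) // p • a = 0}] :
    Nat.card ↥(pMul (ClT K₀ (placesAbove K₀ S)) p).ker ≤
      Nat.card {a : H1 (KSite.basisP S K₀.fixingSubgroup)
        (KSite.resP K₀.fixingSubgroup (Defs.OS S)) // p • a = 0} :=
  card_ClT_torsion_le S p K₀ (KSite.basisP S K₀.fixingSubgroup) hpS hK hζ (hopen_basisP S K₀)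

include hpS hK hζ in
/-- **M.count.cl** for the basis `Defs.NBasis.sub (globalBasis S) P` (as in `Middle/HasseCount`). -/
theorem card_le_sub
    [Finite {a : H1 (Defs.NBasis.sub (PreludeLC.globalBasis S) K₀.fixingSubgroup)
      ((Rep.resFunctor K₀.fixingSubgroup.subtype).obj (Defs.OS S)) // p • a = 0}] :
    Nat.card ↥(pMul (ClT K₀ (placesAbove K₀ S)) p).ker ≤
      Nat.card {a : H1 (Defs.NBasis.sub (PreludeLC.globalBasis S) K₀.fixingSubgroup)
        ((Rep.resFunctor K₀.fixingSubgroup.subtype).obj (Defs.OS S)) // p • a = 0} :=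
  card_ClT_torsion_le S p K₀ (Defs.NBasis.sub (PreludeLC.globalBasis S) K₀.fixingSubgroup)
    hpS hK hζ (hopen_sub S K₀ hK)

end Bases


end Fermat.Agent.S55.Middle.CountCl
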