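/-
S55 / Middle — count (C6)[b] in the OutSkeleton / `ULevel` language (helper62, routed by helper55).

* `finrank_H1_local_le` : for an open subgroup `D ≤ Γ_q` on which the mod `p` cyclotomic character
  is trivial, `H¹_LC(D; 𝔽_p)` is finite of dimension `≤ 2 + [q = p]·[Γ_q : D]`
  (`LM/H1Final` + `Local/PowIndexConcrete` + `LM/GaloisDict`).
* `finrank_locProd₁_le` : for the arithmetic site of `S`, `U` open with `χ_p|U = 1`, `T` any system of
  double coset representatives (`OutDict.IsReps`):
  `LocProd₁ X U 𝔽_p T` is finite of dimension `≤ 2 · Σ_v #(T v) + [G_ℚ : U]`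
  (sum of the local bounds; `Σ_{t ∈ T_p} [Γ_p : (Γ_p)_t] = [G_ℚ : U]` is `OrbitSum.sum_index_conjSub`).
-/
import Mathlib
import Fermat.Agent.S55.LM.H1Final
import Fermat.Agent.S55.LM.GaloisDict
import Fermat.Agent.S55.Local.PowIndexConcrete
import Fermat.Agent.S55.Middle.OrbitSum
import Fermat.Agent.S55.Middle.OutSkeleton

set_option autoImplicit false
set_option linter.style.haveILetI false

open CategoryTheory groupCohomology ExtCitation Module

noncomputable section

namespace Fermat.Agent.S55.Middle.CountP1U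

open Fermat.Agent.S55.Formal Fermat.Agent.S55.Formal.PreludeLC Fermat.Agent.S55.Bridge.ShapiroLC
  Fermat.Agent.S55.LM.Defs

attribute [local instance] fact_q

section Local

variable {q : Nat.Primes}

/-- the fixed field of a subgroup of `Γ_q`. -/
abbrev fixF (D : Subgroup (Gq q)) : IntermediateField ℚ_[(q : ℕ)] (Om q) :=
  IntermediateField.fixedField (F := ℚ_[(q : ℕ)]) (E := Om q) D

theorem mem_fixF_iff (D : Subgroup (Gq q)) (x : Om q) :
    x ∈ fixF D ↔ ∀ g ∈ D, toAut q g x = x :=
  IntermediateField.mem_fixedField_iff D x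

/-- for `D` open: the fixed field is finite over `ℚ_q`, of degree `[Γ_q : D]`. -/
theorem finiteDimensional_fixF {D : Subgroup (Gq q)} (hD : (Vq q).IsOpen D) :
    FiniteDimensional ℚ_[(q : ℕ)] (fixF D) :=
  LM.GaloisDict.finiteDimensional_fixedField (q : ℕ) hD

theorem finrank_fixF {D : Subgroup (Gq q)} (hD : (Vq q).IsOpen D) :
    Module.finrank ℚ_[(q : ℕ)] (fixF D) = D.index := by
  haveI := LM.GaloisDict.isGalois_padicAlgCl (q : ℕ)
  rw [IntermediateField.finrank_eq_fixingSubgroup_index]
  congr 1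
  exact LM.GaloisDict.fixingSubgroup_fixedField (q : ℕ) hD

/-- a primitive `p`-th root of unity in the fixed field of `D`, when `χ_p` is trivial on `D`. -/
theorem exists_primitiveRoot_fixF (p : ℕ) [Fact p.Prime] (D : Subgroup (Gq q))
    (hχ : ∀ s ∈ D, cycloChar p (primeLocalToGlobal q s) = 1) :
    ∃ ζ : fixF D, IsPrimitiveRoot ζ p := by
  obtain ⟨ζ₀, hζ₀⟩ := LM.H1Bound.exists_primitiveRoot_Qbar p
  have hζ : IsPrimitiveRoot (padicEmbedding (q : ℕ) ζ₀) p :=
    hζ₀.map_of_injective (f := padicEmbedding (q : ℕ)) (padicEmbedding (q : ℕ)).injective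
  have hmem : padicEmbedding (q : ℕ) ζ₀ ∈ fixF D := by
    rw [mem_fixF_iff]
    intro s hs
    have h1 := padicEmbedding_localGaloisToGlobal (q : ℕ) (toAut q s) ζ₀
    have h2 : (localGaloisToGlobal (q : ℕ) (toAut q s)) ζ₀ = ζ₀ :=
      LM.H1Bound.apply_root_of_cycloChar_eq_one p _ (hχ s hs) ζ₀ hζ₀.pow_eq_one
    rw [h2] at h1
    exact h1.symm
  refine ⟨⟨_, hmem⟩, ?_⟩
  have : IsPrimitiveRoot ((fixF D).val ⟨_, hmem⟩) p := hζ
  exact IsPrimitiveRoot.of_map_of_injective (f := (fixF D).val) this (fixF D).val.injective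

/-- **(C6)[b], one place**: `dim H¹_LC(D; 𝔽_p) ≤ 2 + [q = p]·[Γ_q : D]`. -/
theorem finrank_H1_local_le (p : ℕ) [Fact p.Prime] (D : Subgroup (Gq q)) (hD : (Vq q).IsOpen D)
    (hχ : ∀ s ∈ D, cycloChar p (primeLocalToGlobal q s) = 1) :
    Module.Finite (ZMod p) (H1 (VP q D) (Rep.trivial (ZMod p) D (ZMod p))) ∧
      Module.finrank (ZMod p) (H1 (VP q D) (Rep.trivial (ZMod p) D (ZMod p))) ≤
        2 + (if (q : ℕ) = p then D.index else 0) := by
  haveI := finiteDimensional_fixF hD
  obtain ⟨ζ, hζ⟩ := exists_primitiveRoot_fixF p D hχ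
  have hne := Local.PowIndexConcrete.index_pow_ne_zero (q : ℕ) p (fixF D) hζ
  have hle := Local.PowIndexConcrete.index_pow_le (q : ℕ) p (fixF D) hζ
  obtain ⟨hfin, hpow⟩ := LM.H1Final.finrank_H1_trivial_le p D hχ (fixF D) (mem_fixF_iff D) hne
  refine ⟨hfin, ?_⟩
  have h2 := hpow.trans hle
  rw [finrank_fixF hD] at h2
  exact (Nat.pow_le_pow_iff_right (Fact.out : p.Prime).one_lt).mp h2

end Local

section Site

open Fermat.Agent.S55.Bridge.Mackey Fermat.Agent.S55.Bridge.MackeyLC
  Fermat.Agent.S55.Middle.OutDict Fermat.Agent.S55.Formal.ArithSite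

variable (S : Finset Nat.Primes) (p : ℕ) [Fact p.Prime]

/-- `χ_p` trivial on `U` implies `χ_p ∘ r_q` trivial on every `(Γ_q)_t = conjSub r_q U t`. -/
theorem trivOn_conjSub (q : Nat.Primes) {U : Subgroup GQ} (hχ : TrivOn (cycloChar p) U) (t : GQ) :
    ∀ s ∈ conjSub (primeLocalToGlobal q) U t, cycloChar p (primeLocalToGlobal q s) = 1 := by
  intro s hs
  have h := hχ _ (mem_conjSub.mp hs)
  rw [map_mul, map_mul, map_inv, mul_comm, ← mul_assoc, inv_mul_cancel, one_mul] at h
  exact h

/-- one factor of `LocProd₁` for the arithmetic site. -/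
theorem factor_le (v : (arithSite S).I) {U : Subgroup GQ} (hU : (globalBasis S).IsOpen U)
    (hχ : TrivOn (cycloChar p) U) (t : GQ) :
    Module.Finite (ZMod p) (H1 (subBasis ((arithSite S).𝒱 v) (conjSub ((arithSite S).ι v) U t))
        (conjCoef ((arithSite S).ι v) U (Rep.trivial (ZMod p) U (ZMod p)) t)) ∧
      Module.finrank (ZMod p) (H1 (subBasis ((arithSite S).𝒱 v) (conjSub ((arithSite S).ι v) U t))
        (conjCoef ((arithSite S).ι v) U (Rep.trivial (ZMod p) U (ZMod p)) t)) ≤
        2 + (if ((v : Nat.Primes) : ℕ) = p then (conjSub ((arithSite S).ι v) U t).index else 0) :=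
  finrank_H1_local_le (q := (v : Nat.Primes)) p (conjSub (primeLocalToGlobal (v : Nat.Primes)) U t)
    (Bridge.MackeyProd.conjSub_open (globalBasis S) (localBasis (primeLocalToGlobal (v : Nat.Primes)))
      (primeLocalToGlobal (v : Nat.Primes)) ((arithSite S).cont v) U hU t)
    (trivOn_conjSub p (v : Nat.Primes) hχ t)

omit [Fact p.Prime] in
theorem sum_ite_le (c : ℕ) :
    ∑ v : ↥S, (if ((v : Nat.Primes) : ℕ) = p then c else 0) ≤ c := by
  classical
  rw [Finset.sum_ite, Finset.sum_const_zero, add_zero, Finset.sum_const, smul_eq_mul]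
  have h1 : (Finset.univ.filter fun v : ↥S => ((v : Nat.Primes) : ℕ) = p).card ≤ 1 := by
    rw [Finset.card_le_one]
    intro a ha b hb
    rw [Finset.mem_filter] at ha hb
    exact Subtype.ext (Subtype.ext (ha.2.trans hb.2.symm))
  calc _ ≤ 1 * c := Nat.mul_le_mul_right c h1
    _ = c := one_mul c

/-- **(C6)[b] in the `ULevel` language**: for the arithmetic site of `S`, `U` open with `χ_p|U = 1`
and any system `T` of double coset representatives,
`dim Π_v Π_{t ∈ T v} H¹((Γ_v)_t; 𝔽_p) ≤ 2 · #{(v,t)} + [G_ℚ : U]`. -/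
theorem finrank_locProd₁_le {U : Subgroup GQ} (hU : (globalBasis S).IsOpen U)
    (hχ : TrivOn (cycloChar p) U) {T : ∀ v : (arithSite S).I, Set (arithSite S).G}
    (hT : IsReps (arithSite S) U T) :
    Module.Finite (ZMod p) (LocProd₁ (arithSite S) U (Rep.trivial (ZMod p) U (ZMod p)) T) ∧
      Module.finrank (ZMod p) (LocProd₁ (arithSite S) U (Rep.trivial (ZMod p) U (ZMod p)) T) ≤
        2 * ∑ v : (arithSite S).I, Nat.card (T v) + U.index := by
  classical
  haveI : ∀ v, Finite (T v) := hT.finite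
  haveI : ∀ v, Fintype (T v) := fun _ => Fintype.ofFinite _
  haveI hfin : ∀ (v : (arithSite S).I) (t : T v), Module.Finite (ZMod p)
      (H1 (subBasis ((arithSite S).𝒱 v) (conjSub ((arithSite S).ι v) U (t : GQ)))
        (conjCoef ((arithSite S).ι v) U (Rep.trivial (ZMod p) U (ZMod p)) (t : GQ))) :=
    fun v t => (factor_le S p v hU hχ t).1
  haveI : U.FiniteIndex := Bridge.MackeyFinite.finiteIndex_of_open hU
  refine ⟨inferInstance, ?_⟩
  rw [Module.finrank_pi_fintype]
  have h1 : ∀ v : (arithSite S).I, Module.finrank (ZMod p) (∀ t : T v,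
      H1 (subBasis ((arithSite S).𝒱 v) (conjSub ((arithSite S).ι v) U (t : GQ)))
        (conjCoef ((arithSite S).ι v) U (Rep.trivial (ZMod p) U (ZMod p)) (t : GQ))) ≤
      2 * Nat.card (T v) + (if ((v : Nat.Primes) : ℕ) = p then U.index else 0) := by
    intro v
    rw [Module.finrank_pi_fintype]
    calc _ ≤ ∑ t : T v, (2 + (if ((v : Nat.Primes) : ℕ) = p then
            (conjSub ((arithSite S).ι v) U (t : GQ)).index else 0)) :=
          Finset.sum_le_sum fun t _ => (factor_le S p v hU hχ t).2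
      _ = 2 * Nat.card (T v) + (if ((v : Nat.Primes) : ℕ) = p then U.index else 0) := by
          rw [Finset.sum_add_distrib, Finset.sum_const, Finset.card_univ, smul_eq_mul,
            Nat.card_eq_fintype_card, mul_comm]
          congr 1
          split_ifs with h
          · have hsum := OrbitSum.sum_index_conjSub ((arithSite S).ι v) U (hT.covers v)
              (hT.separated v)
            rw [← hsum]
            have hf := OrbitSum.finite_of_separated ((arithSite S).ι v) U (hT.separated v)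
            rw [← Finset.sum_coe_sort hf.toFinset]
            exact Fintype.sum_equiv (Equiv.subtypeEquivRight fun t =>
              (Set.Finite.mem_toFinset hf).symm) _ _ fun _ => rfl
          · exact Finset.sum_const_zero
  calc _ ≤ ∑ v : (arithSite S).I, (2 * Nat.card (T v) +
          (if ((v : Nat.Primes) : ℕ) = p then U.index else 0)) :=
        Finset.sum_le_sum fun v _ => h1 v
    _ = 2 * ∑ v : (arithSite S).I, Nat.card (T v) +
          ∑ v : (arithSite S).I, (if ((v : Nat.Primes) : ℕ) = p then U.index else 0) := by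
        rw [Finset.sum_add_distrib, Finset.mul_sum]
    _ ≤ _ := Nat.add_le_add_left (sum_ite_le S p U.index) _

end Site

end Fermat.Agent.S55.Middle.CountP1U

end
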