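/-
S55 / MIDDLE block, row M.fin.cl (helper94): `H¹_LC(H; O_S)` IS FINITE, `H = Gal(ℚ̄/K)`.

`K ≤ ℚ̄` a number field, `T` = the places of `K` above `S`, `H = K.fixingSubgroup` with a basis `𝒱`
making the inclusion continuous, Hilbert 90 `H¹_LC(H; ℚ_Sˣ) = 0`.  Then there is an INJECTIVE
additive map `H¹_LC(H; O_S) → Cl_T(K)` (helper37's `KummerDim.ClT`, divisors off `T` modulo principal
divisors), hence `H¹_LC(H; O_S)` is finite.

Construction: `H⁰(ℚ_Sˣ) → H⁰(Prin) → H¹(O_S) → 0` is exact ((Div) LES + Hilbert 90); an `H`-invariant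
class `[x]` of `ℚ_Sˣ / O_S` has a divisor `v ↦ ordAt A_v q_v x` (`A_v` a chosen valuation subring of
`ℚ̄` above the place `v ∉ T` of `K`; helper64's normalised valuation `Cap.ordAt`), which is finitely
supported, vanishes only for `[x] = 0` (transitivity of `Gal(ℚ̄/K)` on the valuation subrings above
`v`), and on `Kˣ` is the divisor `divT` up to the nonzero factors `c_v = ord_v(q_v)`.
-/
import Fermat.Agent.S55.Middle.Hasse
import Fermat.Agent.S55.Middle.Cap
import Fermat.Agent.S55.Middle.SUnitDictAdapters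
import Fermat.Agent.S55.Middle.LESGlueV
import Fermat.Agent.S55.Global.KummerDim
import Fermat.Agent.Lib.InertiaRestrict

set_option autoImplicit false
set_option linter.unusedSectionVars false

open scoped NumberField Pointwise
open IsDedekindDomain CategoryTheory

namespace Fermat.Agent.S55.Middle.H1OSFinite

open Fermat.Agent.S55.Middle.SUnitDict Fermat.Agent.S55.Middle.Cap
open Fermat.Agent.S55.Middle.Units (InQS IsUnitOffS)

local notation "Qbar" => AlgebraicClosure ℚ
local notation "GQ" => (AlgebraicClosure ℚ ≃ₐ[ℚ] AlgebraicClosure ℚ)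

local instance isGaloisQbarH1 : IsGalois ℚ Qbar :=
  Fermat.Agent.Lib.UnramifiedTrivial.isGalois_algebraicClosure_rat

section LanguageA

variable (K : IntermediateField ℚ Qbar) [NumberField K]

/-- the embedding `K → ℚ̄` -/
noncomputable abbrev emb : K →+* Qbar := algebraMap K Qbar

/-- two valuation subrings of `ℚ̄` cutting out the same place of `K` are conjugate under
`Gal(ℚ̄/K)` -/
theorem exists_smul_eq_of_placeBelow_eq {A A' : ValuationSubring Qbar} {q q' : ℕ}
    (hq : q ≠ 0) (hA : A.LiesOverPrime q) (hq' : q' ≠ 0) (hA' : A'.LiesOverPrime q')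
    (h : placeBelow (emb K) A hq hA = placeBelow (emb K) A' hq' hA') :
    ∃ g ∈ K.fixingSubgroup, g • A = A' := by
  have hcomap : A.comap (algebraMap K Qbar) = A'.comap (algebraMap K Qbar) := by
    ext x
    rw [ValuationSubring.mem_comap, ValuationSubring.mem_comap]
    have h1 := mem_iff (ι := emb K) hq hA x
    have h2 := mem_iff (ι := emb K) hq' hA' x
    rw [h1, h2, h]
  obtain ⟨ρ, hρ⟩ := Fermat.Agent.Lib.InertiaRestrict.exists_smul_eq_of_comap_eq K A A' hcomap
  refine ⟨ρ.restrictScalars ℚ, ?_, ?_⟩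
  · rw [IntermediateField.mem_fixingSubgroup_iff]
    intro x hx
    exact ρ.commutes ⟨x, hx⟩
  · rw [Fermat.Agent.Lib.InertiaRestrict.restrictScalars_smul, hρ]

end LanguageA

/-! ### chosen valuation subrings above the places of `K` off `S`, and the divisor function -/

section Choice

variable (S : Finset Nat.Primes) (K : IntermediateField ℚ Qbar) [NumberField K]

/-- the index type: places of `K` not above `S` -/
abbrev Voff : Type := {v : HeightOneSpectrum (𝓞 K) // v ∉ placesAbove K S}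

theorem exists_above (v : Voff S K) :
    ∃ (q : Nat.Primes) (A : ValuationSubring Qbar) (hA : A.LiesOverPrime (q : ℕ)),
      q ∉ S ∧ placeBelow (emb K) A q.2.ne_zero hA = v.1 := by
  obtain ⟨q, hq, A, hA, h⟩ := exists_placeBelow_eq (emb K) v.1
  refine ⟨⟨q, hq⟩, A, hA, ?_, h⟩
  intro hqS
  apply v.2
  refine ⟨⟨q, hq⟩, hqS, ?_⟩
  rw [← h]
  exact natCast_mem_placeBelow hq.ne_zero hA

/-- the rational prime below `v` -/
noncomputable def qv (v : Voff S K) : Nat.Primes := (exists_above S K v).choose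
/-- a chosen valuation subring of `ℚ̄` above `v` -/
noncomputable def Av (v : Voff S K) : ValuationSubring Qbar := (exists_above S K v).choose_spec.choose

theorem hAv (v : Voff S K) : (Av S K v).LiesOverPrime (qv S K v : ℕ) :=
  (exists_above S K v).choose_spec.choose_spec.choose

theorem qv_notMem (v : Voff S K) : qv S K v ∉ S :=
  (exists_above S K v).choose_spec.choose_spec.choose_spec.1

theorem placeBelow_Av (v : Voff S K) :
    placeBelow (emb K) (Av S K v) (qv S K v).2.ne_zero (hAv S K v) = v.1 :=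
  (exists_above S K v).choose_spec.choose_spec.choose_spec.2

/-- the divisor of `x ∈ ℚ_Sˣ` on the places of `K` off `S` -/
noncomputable def ordFun (x : Qbar) : Voff S K → ℤ := fun v => ordAt (Av S K v) (qv S K v : ℕ) x

/-- every valuation subring off `S` is `Gal(ℚ̄/K)`-conjugate to a chosen one -/
theorem exists_smul_Av (q : Nat.Primes) (hq : q ∉ S) (A : ValuationSubring Qbar)
    (hA : A.LiesOverPrime (q : ℕ)) :
    ∃ v : Voff S K, qv S K v = q ∧ ∃ g ∈ K.fixingSubgroup, g • Av S K v = A := by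
  have hv : placeBelow (emb K) A q.2.ne_zero hA ∉ placesAbove K S := by
    rintro ⟨q', hq'S, hq'⟩
    have := eq_of_natCast_mem_placeBelow (ι := emb K) q.2 hA q'.2 hq'
    have h2 : q' = q := Subtype.ext this
    exact hq (h2 ▸ hq'S)
  refine ⟨⟨_, hv⟩, ?_, ?_⟩
  · have h1 : ((qv S K ⟨_, hv⟩ : ℕ) : 𝓞 K) ∈ (placeBelow (emb K) A q.2.ne_zero hA).asIdeal := by
      have := natCast_mem_placeBelow (ι := emb K) (qv S K ⟨_, hv⟩).2.ne_zero (hAv S K ⟨_, hv⟩)
      rwa [placeBelow_Av] at this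
    exact Subtype.ext (eq_of_natCast_mem_placeBelow (ι := emb K) q.2 hA (qv S K ⟨_, hv⟩).2 h1)
  · exact exists_smul_eq_of_placeBelow_eq K (qv S K ⟨_, hv⟩).2.ne_zero (hAv S K ⟨_, hv⟩)
      q.2.ne_zero hA (placeBelow_Av S K ⟨_, hv⟩)

/-- the divisor of an element of `ℚ_Sˣ` is finitely supported -/
theorem finite_support_ordFun {x : Qbar} (hx : InQS S x) (hx0 : x ≠ 0) :
    (Function.support (ordFun S K x)).Finite := by
  classical
  obtain ⟨F, hF, hxF⟩ := hx
  haveI : NumberField F := Fermat.Agent.S55.Bridge.Unram.numberField_of_finiteDimensional F hF.1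
  set x' : F := ⟨x, hxF⟩ with hx'
  have hx'0 : x' ≠ 0 := fun h => hx0 (congrArg Subtype.val h)
  set u : Fˣ := Units.mk0 x' hx'0 with hu
  have hZ := Fermat.Agent.S55.Global.KummerDim.finite_ordv_ne_zero (R := 𝓞 F) F (Additive.ofMul u)
  -- the rational prime below a place of `F`
  have hb : ∀ P : HeightOneSpectrum (𝓞 F), ∃ ℓ : Nat.Primes, ((ℓ : ℕ) : 𝓞 F) ∈ P.asIdeal := by
    intro P
    haveI := P.isPrime
    obtain ⟨ℓ, hℓ, hℓP⟩ := exists_natPrime_mem P.asIdeal P.ne_bot
    exact ⟨⟨ℓ, hℓ⟩, hℓP⟩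
  choose b hbP using hb
  set B : Finset Nat.Primes := hZ.toFinset.image b with hB
  have hfin : (Subtype.val ⁻¹' (placesAbove K B) : Set (Voff S K)).Finite :=
    (placesAbove_finite (F := K) B).preimage Subtype.val_injective.injOn
  refine hfin.subset ?_
  intro v hv
  rw [Function.mem_support] at hv
  set P : HeightOneSpectrum (𝓞 F) :=
    placeBelow (algebraMap F Qbar) (Av S K v) (qv S K v).2.ne_zero (hAv S K v) with hP
  have hPZ : P ∈ hZ.toFinset := by
    rw [Set.Finite.mem_toFinset]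
    show Fermat.Agent.S55.Global.KummerDim.ordv F P (Additive.ofMul u) ≠ 0
    intro h0
    apply hv
    rw [Fermat.Agent.S55.Global.KummerDim.ordv_eq_zero_iff] at h0
    have h1 : Units.map ((algebraMap F Qbar : F →+* Qbar) : F →* Qbar) u ∈ (Av S K v).unitGroup :=
      (mem_unitGroup_iff (ι := algebraMap F Qbar) (qv S K v).2.ne_zero (hAv S K v) u).2 h0
    have h2 := (mem_unitGroup_iff_mem_and_inv_mem (Av S K v) _).1 h1
    exact (ordAt_eq_zero_iff (S := S) (qv_notMem S K v) (hAv S K v) ⟨F, hF, hxF⟩ hx0).2 h2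
  have hbq : b P = qv S K v := by
    haveI := P.isPrime
    exact Subtype.ext (natPrime_unique (b P).2 (qv S K v).2 (hbP P)
      (natCast_mem_placeBelow (ι := algebraMap F Qbar) (qv S K v).2.ne_zero (hAv S K v)))
  refine ⟨qv S K v, ?_, ?_⟩
  · rw [hB, Finset.mem_image]
    exact ⟨P, hPZ, hbq⟩
  · have := natCast_mem_placeBelow (ι := emb K) (qv S K v).2.ne_zero (hAv S K v)
    rwa [placeBelow_Av] at this

end Choice

/-! ### the divisor map on `ℚ_Sˣ` and on `ℚ_Sˣ / O_S` -/

section DivisorMap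

open Fermat.Agent.S55.Middle.UnitsLES (unitOf unitOf_mem unitOf_injective)

variable (S : Finset Nat.Primes) (K : IntermediateField ℚ Qbar) [NumberField K]

theorem inQS_unitOf (x : Defs.KS S) : InQS S ((unitOf x : Qbarˣ) : Qbar) := unitOf_mem x

theorem ordAt_one (v : Voff S K) : ordAt (Av S K v) (qv S K v : ℕ) (1 : Qbar) = 0 :=
  (ordAt_eq_zero_iff (S := S) (qv_notMem S K v) (hAv S K v) (Units.inQS_one (S := S)) one_ne_zero).2
    ⟨(Av S K v).one_mem, by rw [inv_one]; exact (Av S K v).one_mem⟩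

/-- the divisor map `ℚ_Sˣ → ⨁_{v ∉ T} ℤ` -/
noncomputable def nu0 : Defs.KS S →+ (Voff S K →₀ ℤ) where
  toFun x := Finsupp.ofSupportFinite (ordFun S K ((unitOf x : Qbarˣ) : Qbar))
    (finite_support_ordFun S K (inQS_unitOf S x) (unitOf x).ne_zero)
  map_zero' := by
    ext v
    rw [Finsupp.ofSupportFinite_coe, Finsupp.zero_apply]
    exact ordAt_one S K v
  map_add' x y := by
    ext v
    rw [Finsupp.add_apply, Finsupp.ofSupportFinite_coe, Finsupp.ofSupportFinite_coe,
      Finsupp.ofSupportFinite_coe]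
    have h : ((unitOf (x + y) : Qbarˣ) : Qbar) = (unitOf x : Qbarˣ) * (unitOf y : Qbarˣ) := rfl
    show ordAt _ _ ((unitOf (x + y) : Qbarˣ) : Qbar) = _
    rw [h]
    exact ordAt_mul (qv_notMem S K v) (hAv S K v) (inQS_unitOf S x) (unitOf x).ne_zero
      (inQS_unitOf S y) (unitOf y).ne_zero

@[simp] theorem nu0_apply (x : Defs.KS S) (v : Voff S K) :
    nu0 S K x v = ordAt (Av S K v) (qv S K v : ℕ) ((unitOf x : Qbarˣ) : Qbar) := rfl

/-- membership in `osInKS` in terms of `ordAt` -/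
theorem mem_osInKS_iff (x : Defs.KS S) :
    x ∈ Defs.osInKS S ↔ ∀ q : Nat.Primes, q ∉ S → ∀ A : ValuationSubring Qbar,
      A.LiesOverPrime (q : ℕ) → ordAt A (q : ℕ) ((unitOf x : Qbarˣ) : Qbar) = 0 := by
  rw [← isUnitOffS_iff_ordAt (inQS_unitOf S x) (unitOf x).ne_zero,
    ← UnitsLES.isSUnit_iff S (unitOf x)]
  constructor
  · intro h
    exact h.2
  · intro h
    exact ⟨unitOf_mem x, h⟩

theorem nu0_eq_zero_of_mem (x : Defs.KS S) (hx : x ∈ Defs.osInKS S) : nu0 S K x = 0 := by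
  ext v
  rw [nu0_apply, Finsupp.zero_apply]
  exact (mem_osInKS_iff S x).1 hx _ (qv_notMem S K v) _ (hAv S K v)

/-- the divisor map on `ℚ_Sˣ / O_S` -/
noncomputable def nu1 : Defs.PrinS S →+ (Voff S K →₀ ℤ) :=
  QuotientAddGroup.lift (Defs.osInKS S).toAddSubgroup (nu0 S K)
    (fun x hx => nu0_eq_zero_of_mem S K x hx)

theorem nu1_ksToPrin (x : Defs.KS S) : nu1 S K ((Defs.ksToPrin S).hom x) = nu0 S K x := rfl

theorem ksToPrin_eq_zero_iff (x : Defs.KS S) :
    (Defs.ksToPrin S).hom x = 0 ↔ x ∈ Defs.osInKS S :=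
  Submodule.Quotient.mk_eq_zero _

/-- **Injectivity of the divisor map on `Gal(ℚ̄/K)`-invariant classes.** -/
theorem eq_zero_of_nu1_eq_zero (c : Defs.PrinS S)
    (hinv : ∀ g ∈ K.fixingSubgroup, (Defs.PrinS S).ρ g c = c) (h0 : nu1 S K c = 0) : c = 0 := by
  obtain ⟨x, rfl⟩ := UnitsLES.ksToPrin_surjective S c
  rw [ksToPrin_eq_zero_iff, mem_osInKS_iff]
  intro q hq A hA
  obtain ⟨v, hqv, g, hg, hgA⟩ := exists_smul_Av S K q hq A hA
  -- the class is fixed by `g`
  have h1 : (Defs.ksToPrin S).hom ((Defs.KS S).ρ g x - x) = 0 := by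
    rw [map_sub, Rep.hom_comm_apply, hinv g hg, sub_self]
  have h2 := (mem_osInKS_iff S _).1 ((ksToPrin_eq_zero_iff S _).1 h1) q hq A hA
  set ux : Qbar := ((unitOf x : Qbarˣ) : Qbar) with hux
  have hux0 : ux ≠ 0 := (unitOf x).ne_zero
  set w : Qbar := ((unitOf ((Defs.KS S).ρ g x - x) : Qbarˣ) : Qbar) with hw
  have hw0 : w ≠ 0 := (unitOf ((Defs.KS S).ρ g x - x)).ne_zero
  have hgux : g ux = ux * w := by
    have hunit : unitOf ((Defs.KS S).ρ g x - x) = (g • unitOf x) / unitOf x := rfl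
    have : w = g ux / ux := by
      rw [hw, hunit, Units.val_div_eq_div_val]
      rfl
    rw [this, mul_div_cancel₀ _ hux0]
  -- `ordAt A q (g ux) = ordAt (Av v) q ux = 0`
  have h3 : ordAt A (q : ℕ) (g ux) = 0 := by
    have h4 := ordAt_smul (S := S) (qv_notMem S K v) (hAv S K v) (inQS_unitOf S x) hux0 g
    rw [hgA, hqv] at h4
    rw [h4]
    have h5 := DFunLike.congr_fun h0 v
    rw [nu1_ksToPrin, nu0_apply, Finsupp.zero_apply, hqv] at h5
    exact h5
  have h6 := ordAt_mul (S := S) hq hA (inQS_unitOf S x) hux0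
    (inQS_unitOf S ((Defs.KS S).ρ g x - x)) hw0
  rw [← hgux, h3, h2, add_zero] at h6
  exact h6.symm

end DivisorMap

/-! ### comparison with the divisor of `Kˣ` -/

section Compare

open Fermat.Agent.S55.Global.KummerDim (ordv ordv_eq_zero_iff divT divT_apply ClT finite_ClT)
open Fermat.Agent.S55.Middle.UnitsLES (unitOf ofUnitMem unitOf_ofUnitMem)

variable (S : Finset Nat.Primes) (K : IntermediateField ℚ Qbar) [NumberField K]

/-- the rational prime below `v`, as a unit of `K` -/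
noncomputable def qK (v : Voff S K) : Kˣ :=
  Units.mk0 (((qv S K v : ℕ) : K)) (Nat.cast_ne_zero.2 (qv S K v).2.ne_zero)

/-- `c_v = ordv(q_v) ≠ 0` -/
noncomputable def cv (v : Voff S K) : ℤ := ordv K v.1 (Additive.ofMul (qK S K v))

theorem cv_ne_zero (v : Voff S K) : cv S K v ≠ 0 := by
  intro h
  have h1 := (ordv_eq_zero_iff K v.1 _).1 h
  have h2 : (Av S K v).valuation ((emb K) (((qv S K v : ℕ) : K))) < 1 := by
    rw [map_natCast]
    exact (Av S K v).mem_nonunits_iff.1 (hAv S K v)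
  have h3 := (valuation_lt_one_iff (ι := emb K) (qv S K v).2.ne_zero (hAv S K v) _).2 h2
  rw [placeBelow_Av] at h3
  exact absurd h1 (ne_of_lt h3)

/-- **the divisor of `y ∈ Kˣ` in the two languages** -/
theorem ordv_eq_ordFun_mul (hK : K.IsUnramifiedOutside S) (y : Kˣ) (v : Voff S K) :
    ordv K v.1 (Additive.ofMul y) = ordFun S K (algebraMap K Qbar (y : K)) v * cv S K v := by
  have hyQ : InQS S (algebraMap K Qbar (y : K)) := ⟨K, hK, (y : K).2⟩
  have hy0 : algebraMap K Qbar (y : K) ≠ 0 := by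
    rw [Ne, map_eq_zero]; exact y.ne_zero
  set n : ℤ := ordFun S K (algebraMap K Qbar (y : K)) v with hn
  have hord := hasOrd_ordAt hyQ hy0 (qv S K v) (qv_notMem S K v) (Av S K v) (hAv S K v)
  set w : Kˣ := y * (qK S K v) ^ (-n) with hw
  have hwval : ((Units.map ((emb K : K →+* Qbar) : K →* Qbar) w : Qbarˣ) : Qbar) =
      algebraMap K Qbar (y : K) * (((qv S K v : ℕ) : Qbar)) ^ (-n) := by
    rw [Units.coe_map, hw, Units.val_mul, Units.val_zpow_eq_zpow_val, MonoidHom.coe_coe, map_mul,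
      map_zpow₀]
    congr 2
  have hwA : Units.map ((emb K : K →+* Qbar) : K →* Qbar) w ∈ (Av S K v).unitGroup := by
    rw [mem_unitGroup_iff_mem_and_inv_mem, hwval]
    exact hord
  have h1 := (mem_unitGroup_iff (ι := emb K) (qv S K v).2.ne_zero (hAv S K v) w).1 hwA
  rw [placeBelow_Av] at h1
  have h2 : ordv K v.1 (Additive.ofMul w) = 0 := (ordv_eq_zero_iff K v.1 _).2 h1
  have h3 : Additive.ofMul w = Additive.ofMul y + (-n) • Additive.ofMul (qK S K v) := by
    rw [hw, ofMul_mul, ofMul_zpow]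
  rw [h3, map_add, map_zsmul, smul_eq_mul] at h2
  have : ordv K v.1 (Additive.ofMul y) = n * ordv K v.1 (Additive.ofMul (qK S K v)) := by
    linarith
  exact this

/-- scaling by the `c_v` -/
noncomputable def scale : (Voff S K →₀ ℤ) →+ (Voff S K →₀ ℤ) where
  toFun d := Finsupp.ofSupportFinite (fun v => d v * cv S K v)
    (d.hasFiniteSupport.subset fun v hv => by
      rw [Function.mem_support] at hv ⊢
      intro h0
      apply hv
      rw [h0, zero_mul])
  map_zero' := by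
    ext v
    rw [Finsupp.ofSupportFinite_coe, Finsupp.zero_apply, zero_mul]
  map_add' a b := by
    ext v
    rw [Finsupp.add_apply, Finsupp.ofSupportFinite_coe, Finsupp.ofSupportFinite_coe,
      Finsupp.ofSupportFinite_coe, Finsupp.add_apply, add_mul]

@[simp] theorem scale_apply (d : Voff S K →₀ ℤ) (v : Voff S K) :
    scale S K d v = d v * cv S K v := rfl

theorem scale_injective : Function.Injective (scale S K) := by
  rw [injective_iff_map_eq_zero]
  intro d hd
  ext v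
  have := DFunLike.congr_fun hd v
  rw [scale_apply, Finsupp.zero_apply] at this
  rcases mul_eq_zero.1 this with h | h
  · exact h
  · exact absurd h (cv_ne_zero S K v)

/-- the element of `ℚ_Sˣ` given by `y ∈ Kˣ` -/
noncomputable def ofK (hK : K.IsUnramifiedOutside S) (y : Kˣ) : Defs.KS S :=
  ofUnitMem (Defs.qsSubgroup S) (Defs.galStable_qsSubgroup S)
    (Units.map ((emb K : K →+* Qbar) : K →* Qbar) y) ⟨K, hK, (y : K).2⟩

theorem unitOf_ofK (hK : K.IsUnramifiedOutside S) (y : Kˣ) :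
    unitOf (ofK S K hK y) = Units.map ((emb K : K →+* Qbar) : K →* Qbar) y := rfl

/-- `divT y = scale (nu0 (ofK y))` -/
theorem scale_nu0_ofK (hK : K.IsUnramifiedOutside S) (y : Kˣ) :
    scale S K (nu0 S K (ofK S K hK y)) = divT (R := 𝓞 K) K (placesAbove K S) (Additive.ofMul y) := by
  ext v
  rw [scale_apply, nu0_apply, divT_apply]
  exact (ordv_eq_ordFun_mul S K hK y v).symm

end Compare

/-! ### the embedding `H¹_LC(H; O_S) ↪ Cl_T(K)` -/

section Main

open Fermat.Agent.S55.Formal Fermat.Agent.S55.Formal.PreludeLC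
open Fermat.Agent.S55.Middle.LESGlueV
open Fermat.Agent.S55.Global.KummerDim (divT ClT finite_ClT)
open Fermat.Agent.S55.Middle.UnitsLES (unitOf unitOf_injective)

variable (S : Finset Nat.Primes) (K : IntermediateField ℚ Qbar) [NumberField K]
  (𝒱 : NBasis ↥K.fixingSubgroup)

/-- the divisor map on `H⁰(Prin)`, scaled by the `c_v` -/
noncomputable def nu : ↥(H0 𝒱 (prH S K.fixingSubgroup)) →+ (Voff S K →₀ ℤ) where
  toFun c := scale S K (nu1 S K (show Defs.PrinS S from (c : ↥(C₀ 𝒱 (prH S K.fixingSubgroup))).1))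
  map_zero' := by
    show scale S K (nu1 S K 0) = 0
    rw [map_zero, map_zero]
  map_add' a b := by
    show scale S K (nu1 S K (_ + _)) = _
    rw [map_add, map_add]

theorem nu_injective : Function.Injective (nu S K 𝒱) := by
  rw [injective_iff_map_eq_zero]
  intro c hc0
  have h1 : nu1 S K (show Defs.PrinS S from (c : ↥(C₀ 𝒱 (prH S K.fixingSubgroup))).1) = 0 :=
    scale_injective S K (by rw [map_zero]; exact hc0)
  have hker : dC₀ 𝒱 (prH S K.fixingSubgroup) c.1 = 0 := LinearMap.mem_ker.1 c.2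
  have hinv : ∀ g ∈ K.fixingSubgroup, (Defs.PrinS S).ρ g
      (show Defs.PrinS S from (c : ↥(C₀ 𝒱 (prH S K.fixingSubgroup))).1) =
      (show Defs.PrinS S from (c : ↥(C₀ 𝒱 (prH S K.fixingSubgroup))).1) := by
    intro g hg
    have h2 := congrFun (congrArg Subtype.val hker) ⟨g, hg⟩
    rw [dC₀_coe, groupCohomology.d₀₁_hom_apply] at h2
    exact sub_eq_zero.1 h2
  have h3 := eq_zero_of_nu1_eq_zero S K _ hinv h1
  apply Subtype.ext
  apply Subtype.ext
  exact h3

variable {S K}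

/-- the class of `y ∈ Kˣ` in `H⁰(ℚ_Sˣ)` -/
noncomputable def ofK0 (hK : K.IsUnramifiedOutside S) (y : Kˣ) : ↥(H0 𝒱 (kH S K.fixingSubgroup)) := by
  have hfix : ∀ s : ↥K.fixingSubgroup,
      (kH S K.fixingSubgroup).ρ s (ofK S K hK y) = ofK S K hK y := by
    intro s
    apply unitOf_injective
    apply Units.ext
    show (s : GQ) ((algebraMap K Qbar) (y : K)) = (algebraMap K Qbar) (y : K)
    exact (IntermediateField.mem_fixingSubgroup_iff K s.1).1 s.2 _ (y : K).2
  refine ⟨⟨ofK S K hK y, ⊤, 𝒱.top, fun s _ => hfix s⟩, ?_⟩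
  rw [LinearMap.mem_ker]
  apply Subtype.ext
  rw [dC₀_coe]
  funext g
  show (groupCohomology.d₀₁ (kH S K.fixingSubgroup)).hom (ofK S K hK y) g = 0
  rw [groupCohomology.d₀₁_hom_apply, hfix g, sub_self]

theorem nu_π₀_ofK0 (hK : K.IsUnramifiedOutside S) (y : Kˣ) :
    nu S K 𝒱 (π₀ S K.fixingSubgroup 𝒱 (ofK0 𝒱 hK y)) =
      divT (R := 𝓞 K) K (placesAbove K S) (Additive.ofMul y) :=
  scale_nu0_ofK S K hK y

/-- every element of `H⁰(ℚ_Sˣ)` comes from `Kˣ` -/
theorem exists_ofK0 (hK : K.IsUnramifiedOutside S) (a : ↥(H0 𝒱 (kH S K.fixingSubgroup))) :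
    ∃ y : Kˣ, a = ofK0 𝒱 hK y := by
  have hker : dC₀ 𝒱 (kH S K.fixingSubgroup) a.1 = 0 := LinearMap.mem_ker.1 a.2
  set x : Defs.KS S := (a : ↥(C₀ 𝒱 (kH S K.fixingSubgroup))).1 with hx
  have hfix : ∀ σ ∈ K.fixingSubgroup, σ ((unitOf x : Qbarˣ) : Qbar) = (unitOf x : Qbarˣ) := by
    intro σ hσ
    have h2 := congrFun (congrArg Subtype.val hker) ⟨σ, hσ⟩
    rw [dC₀_coe, groupCohomology.d₀₁_hom_apply] at h2
    have h3 : (Defs.KS S).ρ σ x = x := sub_eq_zero.1 h2
    have h4 := congrArg (fun z : Defs.KS S => ((unitOf z : Qbarˣ) : Qbar)) h3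
    exact h4
  obtain ⟨y, hy⟩ := SUnitDictAdapters.exists_unit_of_fixed K (unitOf x) hfix
  refine ⟨y, ?_⟩
  apply Subtype.ext
  apply Subtype.ext
  apply unitOf_injective
  exact hy.symm

theorem range_nu_π₀ (hK : K.IsUnramifiedOutside S) :
    ((nu S K 𝒱).comp (π₀ S K.fixingSubgroup 𝒱)).range =
      (divT (R := 𝓞 K) K (placesAbove K S)).range := by
  ext d
  constructor
  · rintro ⟨a, rfl⟩
    obtain ⟨y, rfl⟩ := exists_ofK0 𝒱 hK a
    exact ⟨Additive.ofMul y, (nu_π₀_ofK0 𝒱 hK y).symm⟩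
  · rintro ⟨y, rfl⟩
    exact ⟨ofK0 𝒱 hK (Additive.toMul y), nu_π₀_ofK0 𝒱 hK (Additive.toMul y)⟩

/-- **`H¹_LC(Gal(ℚ̄/K); O_S)` embeds into the `S`-class group of `K`.** -/
theorem exists_injective_H1_OS (hc : IsCont (globalBasis S) 𝒱 K.fixingSubgroup.subtype)
    (hK : K.IsUnramifiedOutside S)
    (h90 : ∀ z : H1 𝒱 (kH S K.fixingSubgroup), z = 0) :
    ∃ ι : H1 𝒱 (oH S K.fixingSubgroup) →+ ClT (R := 𝓞 K) K (placesAbove K S),
      Function.Injective ι := by
  obtain ⟨ι, hι, -⟩ := Hasse.exists_injective_of_exact (π₀ S K.fixingSubgroup 𝒱) (d₀ hc)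
    (nu S K 𝒱) (d₀_surjective hc h90) (exists_π₀_of_d₀ hc) (d₀_π₀ hc) (nu_injective S K 𝒱)
  let e := QuotientAddGroup.quotientAddEquivOfEq (range_nu_π₀ 𝒱 hK)
  exact ⟨e.toAddMonoidHom.comp ι, e.injective.comp hι⟩

/-- **`H¹_LC(Gal(ℚ̄/K); O_S)` is finite.** -/
theorem finite_H1_OS (hc : IsCont (globalBasis S) 𝒱 K.fixingSubgroup.subtype)
    (hK : K.IsUnramifiedOutside S)
    (h90 : ∀ z : H1 𝒱 (kH S K.fixingSubgroup), z = 0) :
    Finite (H1 𝒱 (oH S K.fixingSubgroup)) := by
  obtain ⟨ι, hι⟩ := exists_injective_H1_OS 𝒱 hc hK h90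
  haveI : Finite (ClT (R := 𝓞 K) K (placesAbove K S)) := finite_ClT K (placesAbove K S)
  exact Finite.of_injective ι hι

end Main

end Fermat.Agent.S55.Middle.H1OSFinite
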