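/-
S55 / MIDDLE block, row M.count.sha2 (helper94): COUNT [c] of the (K-G2) numerology,

  `#Ш²(Y; 𝔽_p) ≤ #Cl_T(K₀)[p]`,     `Y = KSite.siteOver S P R`, `P = Gal(ℚ̄/K₀)`, `T` = places over `S`,

from the Kummer square (`Blocks2.KummerSq`), the Hasse principle `Blocks.HasseO` and the embedding
`H¹_LC(P; O_S) ↪ Cl_T(K₀)` of `Middle/H1OSFinite.lean`:

  `Ш²(𝔽_p) ⊆ κ(H¹_LC(P; O_S))`  (`Blocks2.sha2_le_range`),   `κ ∘ p = 0`,
  so `#Ш² ≤ [H¹ : p H¹] = #H¹[p] ≤ #Cl_T[p]`               (`Hasse.card_sha_le`).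

The class group is `KummerDim.ClT` (divisors off `T` modulo principal divisors); the comparison with
`KummerVS.ClS` (the model of `KG2Asm.CountSha2`) is `Middle/ClTCompare.lean`.

* `level_of_field`       : `K₀` unramified outside `S`, `ζ_p ∈ K₀` ⇒ `Blocks.Level p S K₀.fixingSubgroup`;
* `card_sha2_le_ClT`     : the count at one `(K₀, R)` from a Kummer square and the Hasse principle;
* `CountSha2T`, `countSha2T_of` : the closed form.
-/
import Fermat.Agent.S55.Middle.H1OSFinite
import Fermat.Agent.S55.Middle.HasseOStep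
import Fermat.Agent.S55.Middle.Blocks2
import Fermat.Agent.S55.GaloisLevelCyclo

set_option autoImplicit false
set_option linter.unusedSectionVars false

open scoped NumberField
open CategoryTheory ExtCitation Module IsDedekindDomain

namespace Fermat.Agent.S55.Middle.CountSha2

noncomputable section

open Fermat.Agent.S55.Formal
open Fermat.Agent.S55.Formal.PreludeLC hiding GQ Qbar
open Fermat.Agent.S55.Middle.Defs Fermat.Agent.S55.Middle.KSite
open Fermat.Agent.S55.Middle.Blocks Fermat.Agent.S55.Middle.Blocks2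
open Fermat.Agent.S55.Middle.LESGlueV Fermat.Agent.S55.Middle.SUnitDict
open Fermat.Agent.S55.Global.KummerDim

variable (p : ℕ) [Fact p.Prime] (S : Finset Nat.Primes)

/-- A number field `K₀ ≤ ℚ̄` unramified outside `S` containing `ζ_p` gives a `Level`. -/
theorem level_of_field (K₀ : IntermediateField ℚ Qbar) (hK : K₀.IsUnramifiedOutside S)
    (hζ : ∃ ζ : K₀, IsPrimitiveRoot ζ p) : Level p S K₀.fixingSubgroup := by
  obtain ⟨U, hU, hle⟩ := exists_mem_globalBasis_le S hK
  refine ⟨⟨U, hU, hle⟩, ?_⟩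
  intro g hg
  obtain ⟨ζ, hζ⟩ := hζ
  have hζ' : IsPrimitiveRoot (ζ : Qbar) p := by
    have := hζ.map_of_injective (f := K₀.val) K₀.val.injective
    simpa using this
  refine Fermat.Agent.S55.GaloisLevelCyclo.cycloChar_eq_one_of_forall p g ?_
  intro t ht
  obtain ⟨i, -, rfl⟩ := hζ'.eq_pow_of_pow_eq_one ht
  rw [map_pow]
  congr 1
  exact (IntermediateField.mem_fixingSubgroup_iff K₀ g).1 hg _ ζ.2

variable {p S}

/-- **count [c]** at one `(K₀, R)`: `Ш²(𝔽_p)` is finite and `p ^ dim Ш² ≤ #Cl_T(K₀)[p]`. -/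
theorem card_sha2_le_ClT (K₀ : IntermediateField ℚ Qbar) [NumberField K₀]
    (hK : K₀.IsUnramifiedOutside S) (hP : IsOpenS S K₀.fixingSubgroup)
    (R : Reps S K₀.fixingSubgroup) (Ksq : KummerSq p R)
    (hasse : ∀ x : H2 (basisP S K₀.fixingSubgroup) (resP K₀.fixingSubgroup (OS S)),
      p • x = 0 → LTSO R x → x = 0) :
    Module.Finite (ZMod p)
        ↥((siteOver S K₀.fixingSubgroup R).sha2 (kP p K₀.fixingSubgroup)) ∧
      p ^ finrank (ZMod p)
          ↥((siteOver S K₀.fixingSubgroup R).sha2 (kP p K₀.fixingSubgroup)) ≤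
        Nat.card {x : ClT (R := 𝓞 K₀) K₀ (placesAbove K₀ S) // p • x = 0} := by
  obtain ⟨ι, hι⟩ := H1OSFinite.exists_injective_H1_OS (basisP S K₀.fixingSubgroup)
    (isCont_subBasis S K₀.fixingSubgroup) hK (HasseOStep.H1_KS_eq_zero S hP)
  haveI : Finite (ClT (R := 𝓞 K₀) K₀ (placesAbove K₀ S)) := finite_ClT K₀ (placesAbove K₀ S)
  haveI : Finite (H1 (basisP S K₀.fixingSubgroup) (oH S K₀.fixingSubgroup)) :=
    Finite.of_injective ι hι
  set Sha := (siteOver S K₀.fixingSubgroup R).sha2 (kP p K₀.fixingSubgroup) with hSha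
  have hle : Sha.toAddSubgroup ≤ Ksq.κ.range := by
    intro y hy
    obtain ⟨e, he⟩ := sha2_le_range Ksq hasse y hy
    exact ⟨e, he⟩
  have hcard : Nat.card Sha.toAddSubgroup ≤
      Nat.card {x : ClT (R := 𝓞 K₀) K₀ (placesAbove K₀ S) // p • x = 0} :=
    Hasse.card_sha_le p Ksq.κ (fun y => nsmul_eq_zero_of_zmod y) ι hι Sha.toAddSubgroup hle
  have hfin : Finite ↥Sha := by
    have : Finite ↥Ksq.κ.range := by
      rw [AddMonoidHom.range_eq_map]
      exact Finite.Set.finite_image _ _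
    refine Finite.of_injective (fun y : ↥Sha => (⟨y.1, hle y.2⟩ : ↥Ksq.κ.range)) ?_
    intro y y' h
    exact Subtype.ext (Subtype.mk.inj h)
  haveI : Module.Finite (ZMod p) ↥Sha := Module.Finite.of_finite
  refine ⟨inferInstance, ?_⟩
  have h1 : Nat.card ↥Sha = p ^ finrank (ZMod p) ↥Sha := by
    rw [Module.natCard_eq_pow_finrank (K := ZMod p) (V := ↥Sha), Nat.card_zmod]
  rw [← h1]
  exact hcard

variable (p S)

/-- **count [c]**, closed form against the divisor model `KummerDim.ClT` of the `S`-class group. -/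
def CountSha2T : Prop :=
  ∀ (K₀ : IntermediateField ℚ Qbar) [NumberField K₀], K₀.IsUnramifiedOutside S →
    (∃ ζ : K₀, IsPrimitiveRoot ζ p) → ∀ R : Reps S K₀.fixingSubgroup,
      Module.Finite (ZMod p)
          ↥((siteOver S K₀.fixingSubgroup R).sha2 (kP p K₀.fixingSubgroup)) ∧
        p ^ finrank (ZMod p)
            ↥((siteOver S K₀.fixingSubgroup R).sha2 (kP p K₀.fixingSubgroup)) ≤
          Nat.card {x : ClT (R := 𝓞 K₀) K₀ (placesAbove K₀ S) // p • x = 0}

/-- **count [c]** from the Kummer squares and the Hasse principle for `O_S`. -/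
theorem countSha2T_of
    (hsq : ∀ (P : Subgroup GQ), Level p S P → ∀ R : Reps S P, Nonempty (KummerSq p R))
    (hO : Blocks.HasseO p S) : CountSha2T p S := by
  intro K₀ _ hK hζ R
  have hlev := level_of_field p S K₀ hK hζ
  obtain ⟨Ksq⟩ := hsq _ hlev R
  exact card_sha2_le_ClT K₀ hK hlev.isOpen R Ksq
    (fun x hx hlt => hO _ hlev R x 1 (by rwa [pow_one]) hlt)

end

end Fermat.Agent.S55.Middle.CountSha2
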