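/-
S55 / Middle / CycloGrow (helper24): GROWTH OF LOCAL DEGREES IN THE `p`-CYCLOTOMIC TOWER.
Mathlib only, global proof (no completions).

Setting: `p` an odd prime, `K` a number field containing a primitive `p`-th root of unity,
`v` a nonzero prime of `𝓞 K`, `k : ℕ`.  With

  `level p v k = max (k + v_p(Nv - 1)) (e(v | ℤ) + k + 1)`,

for every `m ≥ level p v k`, every number field `L ⊇ K` containing a primitive `p^m`-th root of
unity and every prime `𝔓` of `𝓞 L` over `v`: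

  `p ^ k ∣ e(𝔓 | v) * f(𝔓 | v)`        (`pow_dvd_localDegree`, Theorem B)

and, for `L / K` Galois, `p ^ k ∣ #(decomposition group of 𝔓)` (`pow_dvd_card_stabilizer`),
`p ^ k ∣ v.ramificationIdxIn (𝓞 L) * v.inertiaDegIn (𝓞 L)` (`pow_dvd_ramificationIdxIn_mul`).
This is the arithmetic behind `htors` of `ImageLevel.adj_of_level` ("`A[p^(k+1)]` comes from level
`K(ζ_{p^m})`, `p^(k+1) ∣ n_v` for all `v ∈ S_K`").

Proof.  (S1) `Gal(K(ζ_{p^m})/K)` embeds in `ker((ℤ/p^m)ˣ → (ℤ/p)ˣ)`, of order `p^(m-1)`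
(`card_aut_dvd`), so `e` and `f` of the cyclotomic layer are powers of `p`.
(i) `v ∤ p`: the residue field of `𝔓` contains an element of exact order `p^m`
(`dvd_absNorm_sub_one`), so `p^m ∣ Nv^f - 1`; also `p ∣ Nv - 1`; lifting the exponent gives
`p^(m - v_p(Nv-1)) ∣ f` (`pow_dvd_inertiaDeg`; no Galois hypothesis needed).
(ii) `v ∣ p`: `(ζ-1)^φ(p^m) ∣ p` (`sub_one_pow_totient_dvd`) and `ζ - 1 ∈ 𝔓` (`sub_one_mem`), so
`e(𝔓 | ℤ) ≥ φ(p^m)` (`totient_le_ramificationIdx_int`); by the tower law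
`e(v | ℤ) * e(𝔓 | v) ≥ φ(p^m)`, and `e(𝔓 | v)` is a power of `p` in the cyclotomic layer.
General `L`: tower law over `M = K(ζ) ⊆ L` (`localDegree_dvd_of_tower`).
-/
import Mathlib

set_option autoImplicit false
set_option linter.style.haveILetI false
set_option linter.unusedSectionVars false

namespace Fermat.Agent.S55.Middle.CycloGrow

open NumberField Polynomial

section S1

variable (p : ℕ) [hp : Fact p.Prime] {K L : Type*} [Field K] [Field L] [Algebra K L]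

/-- the kernel of `(ℤ/p^m)ˣ → (ℤ/p)ˣ` has `p^(m-1)` elements -/
theorem card_ker_unitsMap {m : ℕ} (hm : 0 < m) :
    Nat.card (ZMod.unitsMap (dvd_pow_self p hm.ne') : (ZMod (p ^ m))ˣ →* (ZMod p)ˣ).ker =
      p ^ (m - 1) := by
  have hp' := hp.out
  haveI : NeZero (p ^ m) := ⟨pow_ne_zero _ hp'.ne_zero⟩
  set ψ := (ZMod.unitsMap (dvd_pow_self p hm.ne') : (ZMod (p ^ m))ˣ →* (ZMod p)ˣ)
  have hsurj : Function.Surjective ψ := ZMod.unitsMap_surjective _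
  have h1 : Nat.card ψ.ker * ψ.ker.index = Nat.card (ZMod (p ^ m))ˣ := ψ.ker.card_mul_index
  have h2 : ψ.ker.index = Nat.card (ZMod p)ˣ := by
    rw [Subgroup.index_ker, MonoidHom.range_eq_top.2 hsurj]
    exact Nat.card_congr (Subgroup.topEquiv).toEquiv
  rw [h2, Nat.card_eq_fintype_card (α := (ZMod p)ˣ),
    Nat.card_eq_fintype_card (α := (ZMod (p ^ m))ˣ), ZMod.card_units_eq_totient,
    ZMod.card_units_eq_totient, Nat.totient_prime hp', Nat.totient_prime_pow hp' hm] at h1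
  exact Nat.eq_of_mul_eq_mul_right (Nat.sub_pos_of_lt hp'.one_lt) h1

/-- If `ζ_p ∈ K` then `Gal(K(ζ_{p^m})/K)` is a `p`-group of order dividing `p^(m-1)`. -/
theorem card_aut_dvd (hz : ∃ z : K, IsPrimitiveRoot z p) {m : ℕ} (hm : 0 < m)
    [IsCyclotomicExtension {p ^ m} K L] : Nat.card (L ≃ₐ[K] L) ∣ p ^ (m - 1) := by
  have hp' := hp.out
  haveI : NeZero (p ^ m) := ⟨pow_ne_zero _ hp'.ne_zero⟩
  obtain ⟨z, hz⟩ := hz
  have hζ := IsCyclotomicExtension.zeta_spec (p ^ m) K L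
  set ζ := IsCyclotomicExtension.zeta (p ^ m) K L with hζdef
  set φ := hζ.autToPow K with hφ
  have hφinj : Function.Injective φ := IsPrimitiveRoot.autToPow_injective K hζ
  set ψ := (ZMod.unitsMap (dvd_pow_self p hm.ne') : (ZMod (p ^ m))ˣ →* (ZMod p)ˣ) with hψ
  -- the image lies in the kernel
  have hker : ∀ σ : L ≃ₐ[K] L, φ σ ∈ ψ.ker := by
    intro σ
    -- `ζ' = ζ^(p^(m-1))` is a primitive `p`-th root fixed by `σ`
    have hpm : p ^ m = p ^ (m - 1) * p := by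
      rw [← pow_succ, Nat.sub_add_cancel hm]
    have hζ' : IsPrimitiveRoot (ζ ^ p ^ (m - 1)) p := hζ.pow (pow_pos hp'.pos _) hpm
    have hw : IsPrimitiveRoot (algebraMap K L z) p :=
      hz.map_of_injective (algebraMap K L).injective
    obtain ⟨j, -, hj⟩ := hw.eq_pow_of_pow_eq_one hζ'.pow_eq_one
    have hfix : σ (ζ ^ p ^ (m - 1)) = ζ ^ p ^ (m - 1) := by
      rw [← hj, map_pow, AlgEquiv.commutes]
    have hspec : ζ ^ ((φ σ : ZMod (p ^ m)).val) = σ ζ := hζ.autToPow_spec K σ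
    set a := ((φ σ : ZMod (p ^ m)).val) with ha
    have h3 : (ζ ^ p ^ (m - 1)) ^ a = (ζ ^ p ^ (m - 1)) ^ 1 := by
      rw [pow_one, ← pow_mul, mul_comm, pow_mul, hspec, ← map_pow, hfix]
    have h4 : a % p = 1 % p := by
      have := (hζ'.isOfFinOrder hp'.ne_zero).pow_inj_mod.1 h3
      rwa [← hζ'.eq_orderOf] at this
    rw [MonoidHom.mem_ker]
    apply Units.ext
    rw [hψ, ZMod.unitsMap_def, Units.coe_map, Units.val_one]
    change (ZMod.castHom (dvd_pow_self p hm.ne') (ZMod p)) ((φ σ : ZMod (p ^ m))) = 1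
    have h5 : ((φ σ : ZMod (p ^ m))) = (a : ZMod (p ^ m)) := by
      rw [ha, ZMod.natCast_val, ZMod.cast_id]
    rw [h5, map_natCast]
    have : ((a : ℕ) : ZMod p) = ((1 : ℕ) : ZMod p) := by
      rw [ZMod.natCast_eq_natCast_iff']
      exact h4
    rw [this, Nat.cast_one]
  -- Lagrange
  let φ' : (L ≃ₐ[K] L) →* ψ.ker := φ.codRestrict ψ.ker hker
  have hφ'inj : Function.Injective φ' := fun a b h => hφinj (congrArg Subtype.val h)
  have := Subgroup.card_dvd_of_injective φ' hφ'inj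
  rwa [card_ker_unitsMap p hm] at this

end S1

section Arith

variable (p : ℕ) [hp : Fact p.Prime]

/-- LTE consequence: `p` odd, `p ∣ N - 1`, `p^m ∣ N^f - 1`, `f ≠ 0` ⟹ `p^(m - v_p(N-1)) ∣ f`. -/
theorem pow_dvd_of_pow_dvd_pow_sub_one (hodd : Odd p) {N f m : ℕ} (hN : 1 < N) (hpN : p ∣ N - 1)
    (hf : f ≠ 0) (h : p ^ m ∣ N ^ f - 1) : p ^ (m - padicValNat p (N - 1)) ∣ f := by
  have hp' := hp.out
  have hnd : ¬ p ∣ N := by
    intro hd
    have h1 : p ∣ N - (N - 1) := Nat.dvd_sub hd hpN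
    have h2 : N - (N - 1) = 1 := by omega
    rw [h2] at h1
    exact hp'.one_lt.ne' (Nat.dvd_one.1 h1)
  have hLTE := padicValNat.pow_sub_pow (p := p) hodd (x := N) (y := 1) hN (by simpa using hpN) hnd hf
  rw [one_pow] at hLTE
  have hne : N ^ f - 1 ≠ 0 := by
    have : 1 < N ^ f := Nat.one_lt_pow hf hN
    omega
  have h1 : m ≤ padicValNat p (N ^ f - 1) := (padicValNat_dvd_iff_le hne).1 h
  rw [hLTE] at h1
  have h2 : m - padicValNat p (N - 1) ≤ padicValNat p f := by omega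
  exact (padicValNat_dvd_iff_le hf).2 h2

end Arith

section Residue

variable {F : Type*} [Field F] [NumberField F]

theorem one_lt_absNorm (P : Ideal (𝓞 F)) [P.IsPrime] (hP : P ≠ ⊥) : 1 < Ideal.absNorm P := by
  have h0 : Ideal.absNorm P ≠ 0 := by
    rw [Ne, Ideal.absNorm_eq_zero_iff]; exact hP
  have h1 : Ideal.absNorm P ≠ 1 := by
    rw [Ne, Ideal.absNorm_eq_one_iff]; exact Ideal.IsPrime.ne_top inferInstance
  omega

/-- a prime `P` of a number field not containing the rational prime `p` has norm prime to `p` -/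
theorem coprime_absNorm (p : ℕ) [hp : Fact p.Prime] (P : Ideal (𝓞 F)) [P.IsPrime] (hP : P ≠ ⊥)
    (hpP : (p : 𝓞 F) ∉ P) : (Ideal.absNorm P).Coprime p := by
  have hp' := hp.out
  rw [Nat.coprime_comm, hp'.coprime_iff_not_dvd]
  intro hd
  have : Finite (𝓞 F ⧸ P) := Ring.HasFiniteQuotients.finiteQuotient hP
  have hcard : Ideal.absNorm P = Nat.card (𝓞 F ⧸ P) := by
    rw [Ideal.absNorm_apply, Submodule.cardQuot_apply]
  rw [hcard] at hd
  obtain ⟨x, hx⟩ := exists_prime_addOrderOf_dvd_card' p hd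
  have hx0 : x ≠ 0 := by
    rintro rfl
    rw [addOrderOf_zero] at hx
    exact hp'.one_lt.ne hx
  have h1 : p • x = 0 := by rw [← hx]; exact addOrderOf_nsmul_eq_zero x
  rw [nsmul_eq_mul] at h1
  rcases mul_eq_zero.1 h1 with h2 | h2
  · apply hpP
    rw [← Ideal.Quotient.eq_zero_iff_mem, map_natCast]
    exact h2
  · exact hx0 h2

theorem dvd_absNorm_sub_one {n : ℕ} [NeZero n] {ζ : F} (hζ : IsPrimitiveRoot ζ n)
    (P : Ideal (𝓞 F)) [P.IsPrime] (hP : P ≠ ⊥) (hcop : (Ideal.absNorm P).Coprime n) :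
    n ∣ Ideal.absNorm P - 1 := by
  have hmax : P.IsMaximal := Ring.DimensionLEOne.maximalOfPrime hP inferInstance
  have : Finite (𝓞 F ⧸ P) := Ring.HasFiniteQuotients.finiteQuotient hP
  letI : Field (𝓞 F ⧸ P) := Ideal.Quotient.field P
  letI : Fintype (𝓞 F ⧸ P) := Fintype.ofFinite _
  have hcard : Ideal.absNorm P = Fintype.card (𝓞 F ⧸ P) := by
    rw [Ideal.absNorm_apply, Submodule.cardQuot_apply, Nat.card_eq_fintype_card]
  have h1 : IsPrimitiveRoot (Ideal.Quotient.mk P hζ.toInteger) n :=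
    hζ.toInteger_isPrimitiveRoot.idealQuotient_mk (one_lt_absNorm P hP).ne' hcop
  have hne : (Ideal.Quotient.mk P hζ.toInteger) ≠ 0 := h1.ne_zero (NeZero.ne n)
  have h2 := FiniteField.pow_card_sub_one_eq_one _ hne
  rw [← hcard] at h2
  exact h1.dvd_of_pow_eq_one _ h2

end Residue

section Unram

variable (p : ℕ) [hp : Fact p.Prime]
  {K L : Type*} [Field K] [NumberField K] [Field L] [NumberField L] [Algebra K L]

/-- **Case `v ∤ p`.** -/
theorem pow_dvd_inertiaDeg (hodd : Odd p) {z : K} (hz : IsPrimitiveRoot z p)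
    {m : ℕ} {ζ : L} (hζ : IsPrimitiveRoot ζ (p ^ m))
    (v : Ideal (𝓞 K)) [v.IsPrime] (hv : v ≠ ⊥) (hpv : (p : 𝓞 K) ∉ v)
    (𝔓 : Ideal (𝓞 L)) [𝔓.IsPrime] [𝔓.LiesOver v] :
    p ^ (m - padicValNat p (Ideal.absNorm v - 1)) ∣ 𝔓.inertiaDeg (𝓞 K) := by
  have hp' := hp.out
  haveI : NeZero p := ⟨hp'.ne_zero⟩
  haveI : NeZero (p ^ m) := ⟨pow_ne_zero _ hp'.ne_zero⟩
  have hN : 1 < Ideal.absNorm v := one_lt_absNorm v hv
  have hcopK : (Ideal.absNorm v).Coprime p := coprime_absNorm p v hv hpv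
  have hpN : p ∣ Ideal.absNorm v - 1 := dvd_absNorm_sub_one hz v hv hcopK
  have h𝔓 : 𝔓 ≠ ⊥ := Ideal.ne_bot_of_liesOver_of_ne_bot hv 𝔓
  have habs : Ideal.absNorm v ^ 𝔓.inertiaDeg (𝓞 K) = Ideal.absNorm 𝔓 :=
    Ideal.absNorm_pow_inertiaDeg v 𝔓
  have hcopL : (Ideal.absNorm 𝔓).Coprime (p ^ m) := by
    rw [← habs]; exact Nat.Coprime.pow _ _ hcopK
  have h1 : p ^ m ∣ Ideal.absNorm 𝔓 - 1 := dvd_absNorm_sub_one hζ 𝔓 h𝔓 hcopL
  rw [← habs] at h1
  have hf : 𝔓.inertiaDeg (𝓞 K) ≠ 0 := (Ideal.inertiaDeg_pos 𝔓 (𝓞 K)).ne'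
  exact pow_dvd_of_pow_dvd_pow_sub_one p hodd hN hpN hf h1

end Unram

section Ram

/-- In a domain, for a primitive `p^m`-th root of unity `ζ` (`m ≥ 1`): `(ζ-1)^φ(p^m) ∣ p`. -/
theorem sub_one_pow_totient_dvd {R : Type*} [CommRing R] [IsDomain R] (p : ℕ) [Fact p.Prime]
    {m : ℕ} (hm : 0 < m) {ζ : R} (hζ : IsPrimitiveRoot ζ (p ^ m)) :
    (ζ - 1) ^ (p ^ m).totient ∣ (p : R) := by
  obtain ⟨k, rfl⟩ : ∃ k, m = k + 1 := ⟨m - 1, by omega⟩
  have h1 : (p : R) = eval 1 (cyclotomic (p ^ (k + 1)) R) := (eval_one_cyclotomic_prime_pow k).symm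
  rw [h1, cyclotomic_eq_prod_X_sub_primitiveRoots hζ, eval_prod]
  simp only [eval_sub, eval_X, eval_C]
  rw [← hζ.card_primitiveRoots, ← Finset.prod_const]
  apply Finset.prod_dvd_prod_of_dvd
  intro μ hμ
  have hμ' := isPrimitiveRoot_of_mem_primitiveRoots hμ
  obtain ⟨j, -, rfl⟩ := hζ.eq_pow_of_pow_eq_one hμ'.pow_eq_one
  have h2 : ζ - 1 ∣ ζ ^ j - 1 := by simpa using sub_dvd_pow_sub_pow ζ 1 j
  exact (dvd_sub_comm).1 h2

end Ram

section Ram2

variable (p : ℕ) [hp : Fact p.Prime]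
  {K L : Type*} [Field K] [NumberField K] [Field L] [NumberField L] [Algebra K L]

/-- `ζ - 1 ∈ 𝔓` for every prime `𝔓 ∋ p`. -/
theorem sub_one_mem {R : Type*} [CommRing R] [IsDomain R] {m : ℕ} (hm : 0 < m) {ζ : R}
    (hζ : IsPrimitiveRoot ζ (p ^ m)) (𝔓 : Ideal R) [𝔓.IsPrime] (hp𝔓 : (p : R) ∈ 𝔓) :
    ζ - 1 ∈ 𝔓 := by
  obtain ⟨k, rfl⟩ : ∃ k, m = k + 1 := ⟨m - 1, by omega⟩
  have h1 : (p : R) = eval 1 (cyclotomic (p ^ (k + 1)) R) := (eval_one_cyclotomic_prime_pow k).symm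
  rw [h1, cyclotomic_eq_prod_X_sub_primitiveRoots hζ, eval_prod] at hp𝔓
  simp only [eval_sub, eval_X, eval_C] at hp𝔓
  obtain ⟨μ, hμ, hμ𝔓⟩ := (Ideal.IsPrime.prod_mem_iff).1 hp𝔓
  have hμ' := isPrimitiveRoot_of_mem_primitiveRoots hμ
  obtain ⟨j, -, hj⟩ := hμ'.eq_pow_of_pow_eq_one hζ.pow_eq_one
  have h2 : μ - 1 ∣ μ ^ j - 1 := by simpa using sub_dvd_pow_sub_pow μ 1 j
  rw [hj] at h2
  have h3 : μ - 1 ∈ 𝔓 := by
    have : μ - 1 = -(1 - μ) := by ring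
    rw [this]; exact 𝔓.neg_mem hμ𝔓
  exact 𝔓.mem_of_dvd h2 h3

/-- **Ramification over `ℤ`** of a prime `𝔓 ∋ p` in a number field containing `ζ_{p^m}`. -/
theorem totient_le_ramificationIdx_int {m : ℕ} (hm : 0 < m) {ζ : L}
    (hζ : IsPrimitiveRoot ζ (p ^ m)) (𝔓 : Ideal (𝓞 L)) [𝔓.IsPrime] (hp𝔓 : (p : 𝓞 L) ∈ 𝔓) :
    (p ^ m).totient ≤ 𝔓.ramificationIdx ℤ := by
  have hp' := hp.out
  haveI : NeZero (p ^ m) := ⟨pow_ne_zero _ hp'.ne_zero⟩
  have hpZ : Prime (p : ℤ) := Nat.prime_iff_prime_int.1 hp'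
  have hlies : 𝔓.LiesOver (Ideal.span {(p : ℤ)}) :=
    (Ideal.liesOver_span_iff (Ideal.IsPrime.ne_top inferInstance) hpZ).2 (by simpa using hp𝔓)
  have hmap : (Ideal.span {(p : ℤ)}).map (algebraMap ℤ (𝓞 L)) = Ideal.span {(p : 𝓞 L)} := by
    rw [Ideal.map_span, Set.image_singleton]; simp
  have hne : (Ideal.span {(p : ℤ)}).map (algebraMap ℤ (𝓞 L)) ≠ ⊥ := by
    rw [hmap, Ne, Ideal.span_singleton_eq_bot]
    exact_mod_cast hp'.ne_zero
  rw [Ideal.IsDedekindDomain.ramificationIdx_eq_multiplicity (Ideal.span {(p : ℤ)}) 𝔓 hne]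
  have hfin : FiniteMultiplicity 𝔓 ((Ideal.span {(p : ℤ)}).map (algebraMap ℤ (𝓞 L))) :=
    FiniteMultiplicity.of_not_isUnit
      (by rw [Ideal.isUnit_iff]; exact Ideal.IsPrime.ne_top inferInstance) hne
  apply hfin.le_multiplicity_of_pow_dvd
  rw [hmap, Ideal.dvd_iff_le]
  -- `span {p} ≤ span {(ζ-1)^φ} = span {ζ-1}^φ ≤ 𝔓^φ`
  have hζ' := hζ.toInteger_isPrimitiveRoot
  have h1 : (hζ.toInteger - 1) ^ (p ^ m).totient ∣ (p : 𝓞 L) :=
    sub_one_pow_totient_dvd p hm hζ'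
  have h2 : hζ.toInteger - 1 ∈ 𝔓 := sub_one_mem p hm hζ' 𝔓 hp𝔓
  calc Ideal.span {(p : 𝓞 L)} ≤ Ideal.span {(hζ.toInteger - 1) ^ (p ^ m).totient} :=
        (Ideal.span_singleton_le_span_singleton).2 h1
    _ = Ideal.span {hζ.toInteger - 1} ^ (p ^ m).totient := (Ideal.span_singleton_pow _ _).symm
    _ ≤ 𝔓 ^ (p ^ m).totient :=
        Ideal.pow_right_mono ((Ideal.span_singleton_le_iff_mem _).2 h2) _

/-- Tower form. -/
theorem totient_le_ramificationIdx_mul {m : ℕ} (hm : 0 < m) {ζ : L}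
    (hζ : IsPrimitiveRoot ζ (p ^ m)) (v : Ideal (𝓞 K)) (hpv : (p : 𝓞 K) ∈ v)
    (𝔓 : Ideal (𝓞 L)) [𝔓.IsPrime] [𝔓.LiesOver v] :
    (p ^ m).totient ≤ v.ramificationIdx ℤ * 𝔓.ramificationIdx (𝓞 K) := by
  have hp𝔓 : (p : 𝓞 L) ∈ 𝔓 := by
    have h1 : algebraMap (𝓞 K) (𝓞 L) (p : 𝓞 K) ∈ 𝔓 := by
      have : (p : 𝓞 K) ∈ 𝔓.under (𝓞 K) := by rw [← Ideal.over_def 𝔓 v]; exact hpv
      exact this
    simpa using h1
  rw [← Ideal.ramificationIdx_tower (R := ℤ) v 𝔓]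
  exact totient_le_ramificationIdx_int p hm hζ 𝔓 hp𝔓

end Ram2

section Main

variable (p : ℕ) [hp : Fact p.Prime]
  {K : Type*} [Field K] [NumberField K]

/-- the level from which on the local degree at `v` is divisible by `p^k` -/
noncomputable def level (v : Ideal (𝓞 K)) (k : ℕ) : ℕ :=
  max (k + padicValNat p (Ideal.absNorm v - 1)) (v.ramificationIdx ℤ + k + 1)

theorem pow_lt_of_le_mul {c k j : ℕ} (h : p ^ (c + k) ≤ c * p ^ j) : k < j := by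
  have hp' := hp.out
  have h1 : c < p ^ c := Nat.lt_pow_self hp'.one_lt
  have h2 : c * p ^ j < p ^ c * p ^ j := Nat.mul_lt_mul_of_pos_right h1 (pow_pos hp'.pos _)
  rw [← pow_add] at h2
  have h3 : p ^ (c + k) < p ^ (c + j) := lt_of_le_of_lt h h2
  have := (Nat.pow_lt_pow_iff_right hp'.one_lt).1 h3
  omega

variable {L : Type*} [Field L] [NumberField L] [Algebra K L]

open scoped Pointwise in
/-- **Theorem A** (cyclotomic layer). -/
theorem pow_dvd_of_isCyclotomicExtension (hodd : Odd p) {z : K} (hz : IsPrimitiveRoot z p)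
    (v : Ideal (𝓞 K)) [v.IsPrime] (hv : v ≠ ⊥) (k m : ℕ) (hm : level p v k ≤ m)
    [IsCyclotomicExtension {p ^ m} K L]
    (𝔓 : Ideal (𝓞 L)) [𝔓.IsPrime] [𝔓.LiesOver v] :
    p ^ k ∣ 𝔓.ramificationIdx (𝓞 K) * 𝔓.inertiaDeg (𝓞 K) := by
  have hp' := hp.out
  haveI : NeZero (p ^ m) := ⟨pow_ne_zero _ hp'.ne_zero⟩
  have hm1 : k + padicValNat p (Ideal.absNorm v - 1) ≤ m := le_trans (le_max_left _ _) hm
  have hm2 : v.ramificationIdx ℤ + k + 1 ≤ m := le_trans (le_max_right _ _) hm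
  have hm0 : 0 < m := by omega
  have hζ := IsCyclotomicExtension.zeta_spec (p ^ m) K L
  by_cases hpv : (p : 𝓞 K) ∈ v
  · -- ramified case
    haveI : IsGalois K L := IsCyclotomicExtension.isGalois {p ^ m} K L
    have hvmax : v.IsMaximal := Ring.DimensionLEOne.maximalOfPrime hv inferInstance
    haveI : Finite (𝓞 K ⧸ v) := Ring.HasFiniteQuotients.finiteQuotient hv
    have hcard : Nat.card (MulAction.stabilizer Gal(L/K) 𝔓) =
        v.ramificationIdxIn (𝓞 L) * v.inertiaDegIn (𝓞 L) := Ideal.card_stabilizer_eq v 𝔓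
    rw [Ideal.ramificationIdxIn_eq_ramificationIdx v 𝔓 Gal(L/K),
      Ideal.inertiaDegIn_eq_inertiaDeg v 𝔓 Gal(L/K)] at hcard
    have h1 : Nat.card (MulAction.stabilizer Gal(L/K) 𝔓) ∣ Nat.card Gal(L/K) :=
      Subgroup.card_subgroup_dvd_card _
    have h2 : Nat.card Gal(L/K) ∣ p ^ (m - 1) := card_aut_dvd p ⟨z, hz⟩ hm0
    have h3 : 𝔓.ramificationIdx (𝓞 K) ∣ p ^ (m - 1) :=
      dvd_trans (Dvd.intro _ hcard.symm) (dvd_trans h1 h2)
    obtain ⟨j, -, hj⟩ := (Nat.dvd_prime_pow hp').1 h3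
    have h4 := totient_le_ramificationIdx_mul p hm0 hζ v hpv 𝔓
    rw [Nat.totient_prime_pow hp' hm0, hj] at h4
    have h5 : p ^ (v.ramificationIdx ℤ + k) ≤ v.ramificationIdx ℤ * p ^ j := by
      refine le_trans ?_ h4
      calc p ^ (v.ramificationIdx ℤ + k) ≤ p ^ (m - 1) :=
            Nat.pow_le_pow_right hp'.pos (by omega)
        _ ≤ p ^ (m - 1) * (p - 1) := Nat.le_mul_of_pos_right _ (by have := hp'.one_lt; omega)
    have h6 : k < j := pow_lt_of_le_mul p h5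
    rw [hj]
    exact dvd_mul_of_dvd_left (pow_dvd_pow p h6.le) _
  · -- unramified case
    have h1 := pow_dvd_inertiaDeg p hodd hz hζ v hv hpv 𝔓
    exact dvd_mul_of_dvd_right (dvd_trans (pow_dvd_pow p (by omega)) h1) _

end Main

section General

variable (p : ℕ) [hp : Fact p.Prime]
  {K : Type*} [Field K] [NumberField K]
  {L : Type*} [Field L] [NumberField L] [Algebra K L]

/-- tower step: the local degree of `L/K` is a multiple of that of `M/K`. -/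
theorem localDegree_dvd_of_tower (M : Type*) [Field M] [NumberField M] [Algebra K M] [Algebra M L]
    [IsScalarTower K M L] (𝔓 : Ideal (𝓞 L)) [𝔓.IsPrime] :
    (𝔓.under (𝓞 M)).ramificationIdx (𝓞 K) * (𝔓.under (𝓞 M)).inertiaDeg (𝓞 K) ∣
      𝔓.ramificationIdx (𝓞 K) * 𝔓.inertiaDeg (𝓞 K) := by
  rw [Ideal.ramificationIdx_tower (R := 𝓞 K) (𝔓.under (𝓞 M)) 𝔓,
    Ideal.inertiaDeg_tower (R := 𝓞 K) (𝔓.under (𝓞 M)) 𝔓]
  exact ⟨𝔓.ramificationIdx (𝓞 M) * 𝔓.inertiaDeg (𝓞 M), by ring⟩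

/-- **Theorem B** (any number field `L ⊇ K` containing a primitive `p^m`-th root of unity). -/
theorem pow_dvd_localDegree (hodd : Odd p) {z : K} (hz : IsPrimitiveRoot z p)
    (v : Ideal (𝓞 K)) [v.IsPrime] (hv : v ≠ ⊥) (k m : ℕ) (hm : level p v k ≤ m)
    {ζ : L} (hζ : IsPrimitiveRoot ζ (p ^ m))
    (𝔓 : Ideal (𝓞 L)) [𝔓.IsPrime] [𝔓.LiesOver v] :
    p ^ k ∣ 𝔓.ramificationIdx (𝓞 K) * 𝔓.inertiaDeg (𝓞 K) := by
  have hp' := hp.out
  haveI : NeZero (p ^ m) := ⟨pow_ne_zero _ hp'.ne_zero⟩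
  let M := IntermediateField.adjoin K {ζ}
  haveI : IsCyclotomicExtension {p ^ m} K M := hζ.intermediateField_adjoin_isCyclotomicExtension K
  haveI : (𝔓.under (𝓞 M)).LiesOver v := Ideal.LiesOver.tower_bot 𝔓 (𝔓.under (𝓞 M)) v
  have h1 := pow_dvd_of_isCyclotomicExtension p (L := M) hodd hz v hv k m hm (𝔓.under (𝓞 M))
  exact dvd_trans h1 (localDegree_dvd_of_tower M 𝔓)

end General

section Galois

variable (p : ℕ) [hp : Fact p.Prime]
  {K : Type*} [Field K] [NumberField K]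
  {L : Type*} [Field L] [NumberField L] [Algebra K L]

open scoped Pointwise in
/-- decomposition group order `= e * f` for a Galois extension of number fields -/
theorem card_stabilizer_eq_mul [IsGalois K L] (v : Ideal (𝓞 K)) [v.IsPrime] (hv : v ≠ ⊥)
    (𝔓 : Ideal (𝓞 L)) [𝔓.IsPrime] [𝔓.LiesOver v] :
    Nat.card (MulAction.stabilizer Gal(L/K) 𝔓) =
      𝔓.ramificationIdx (𝓞 K) * 𝔓.inertiaDeg (𝓞 K) := by
  have hvmax : v.IsMaximal := Ring.DimensionLEOne.maximalOfPrime hv inferInstance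
  haveI : Finite (𝓞 K ⧸ v) := Ring.HasFiniteQuotients.finiteQuotient hv
  rw [Ideal.card_stabilizer_eq v 𝔓, Ideal.ramificationIdxIn_eq_ramificationIdx v 𝔓 Gal(L/K),
    Ideal.inertiaDegIn_eq_inertiaDeg v 𝔓 Gal(L/K)]

open scoped Pointwise in
/-- **Theorem B, decomposition group form.** -/
theorem pow_dvd_card_stabilizer [IsGalois K L] (hodd : Odd p) {z : K} (hz : IsPrimitiveRoot z p)
    (v : Ideal (𝓞 K)) [v.IsPrime] (hv : v ≠ ⊥) (k m : ℕ) (hm : level p v k ≤ m)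
    {ζ : L} (hζ : IsPrimitiveRoot ζ (p ^ m))
    (𝔓 : Ideal (𝓞 L)) [𝔓.IsPrime] [𝔓.LiesOver v] :
    p ^ k ∣ Nat.card (MulAction.stabilizer Gal(L/K) 𝔓) := by
  rw [card_stabilizer_eq_mul v hv 𝔓]
  exact pow_dvd_localDegree p hodd hz v hv k m hm hζ 𝔓

/-- **Theorem B, `ramificationIdxIn * inertiaDegIn` form.** -/
theorem pow_dvd_ramificationIdxIn_mul [IsGalois K L] (hodd : Odd p) {z : K}
    (hz : IsPrimitiveRoot z p) (v : Ideal (𝓞 K)) [v.IsPrime] (hv : v ≠ ⊥) (k m : ℕ)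
    (hm : level p v k ≤ m) {ζ : L} (hζ : IsPrimitiveRoot ζ (p ^ m))
    (𝔓 : Ideal (𝓞 L)) [𝔓.IsPrime] [𝔓.LiesOver v] :
    p ^ k ∣ v.ramificationIdxIn (𝓞 L) * v.inertiaDegIn (𝓞 L) := by
  rw [Ideal.ramificationIdxIn_eq_ramificationIdx v 𝔓 Gal(L/K),
    Ideal.inertiaDegIn_eq_inertiaDeg v 𝔓 Gal(L/K)]
  exact pow_dvd_localDegree p hodd hz v hv k m hm hζ 𝔓

/-- one level for finitely many primes `v` -/
noncomputable def levelFinset (T : Finset (Ideal (𝓞 K))) (k : ℕ) : ℕ :=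
  T.sup (fun v => level p v k)

theorem level_le_levelFinset {T : Finset (Ideal (𝓞 K))} {v : Ideal (𝓞 K)} (hv : v ∈ T) (k : ℕ) :
    level p v k ≤ levelFinset p T k :=
  Finset.le_sup (f := fun v => level p v k) hv

/-- **Theorem B for finitely many primes at once** (the level does not depend on `L`). -/
theorem pow_dvd_localDegree_finset (hodd : Odd p) {z : K} (hz : IsPrimitiveRoot z p)
    (T : Finset (Ideal (𝓞 K))) (k m : ℕ) (hm : levelFinset p T k ≤ m)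
    {ζ : L} (hζ : IsPrimitiveRoot ζ (p ^ m))
    (v : Ideal (𝓞 K)) (hvT : v ∈ T) [v.IsPrime] (hv : v ≠ ⊥)
    (𝔓 : Ideal (𝓞 L)) [𝔓.IsPrime] [𝔓.LiesOver v] :
    p ^ k ∣ 𝔓.ramificationIdx (𝓞 K) * 𝔓.inertiaDeg (𝓞 K) :=
  pow_dvd_localDegree p hodd hz v hv k m (le_trans (level_le_levelFinset p hvT k) hm) hζ 𝔓

open scoped Pointwise in
/-- decomposition-group form of `pow_dvd_localDegree_finset` -/
theorem pow_dvd_card_stabilizer_finset [IsGalois K L] (hodd : Odd p) {z : K}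
    (hz : IsPrimitiveRoot z p) (T : Finset (Ideal (𝓞 K))) (k m : ℕ)
    (hm : levelFinset p T k ≤ m) {ζ : L} (hζ : IsPrimitiveRoot ζ (p ^ m))
    (v : Ideal (𝓞 K)) (hvT : v ∈ T) [v.IsPrime] (hv : v ≠ ⊥)
    (𝔓 : Ideal (𝓞 L)) [𝔓.IsPrime] [𝔓.LiesOver v] :
    p ^ k ∣ Nat.card (MulAction.stabilizer Gal(L/K) 𝔓) :=
  pow_dvd_card_stabilizer p hodd hz v hv k m (le_trans (level_le_levelFinset p hvT k) hm) hζ 𝔓

end Galois

end Fermat.Agent.S55.Middle.CycloGrow
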