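/-
S55 / Middle / CycloGrowAllT (helper24): growth of the local indices in the cyclotomic tower,
UNIFORMLY IN `t : G_ℚ` (and in `q ∈ S`).

`CycloGrowIndex.pow_dvd_index_subgroupOf` needs `k + lossAt p q + v_p [Γ_q : Dloc P q t] ≤ m`; here the
`t`-dependent term is bounded by `log_p [G_ℚ : P]`:

* `index_conjSub_le`, `padicValNat_index_conjSub_le` : `[Γ_q : Dloc P q t] ≤ [G_ℚ : P]`;
* `pow_dvd_index_subgroupOf_allT` : `k + lossAt p q + log_p [G_ℚ : P] ≤ m`, `P' ≤ P ⊓ fixRoots (p^m)` ⇒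
  `p^k ∣ [Dloc P q t : Dloc P' q t]` for ALL `t`;
* `levelAll p S P k := k + max_{q ∈ S} lossAt p q + log_p [G_ℚ : P]`, `levelAll_mono`;
* **`pow_dvd_index_of_levelAll`** (+ `'` for `S`-open `P`, `q : ↥S`) : for `m ≥ levelAll p S P k`, all
  `q ∈ S`, ALL `t : G_ℚ`, all `P' ≤ P ⊓ fixRoots (p^m)`: `p^k ∣ ((Dloc P' q t).subgroupOf (Dloc P q t)).index`
  (`= ImageDesc.lvlLoc P' P q t = DlocDict.levelSub P q t P'`, both by `rfl`);
* `pow_dvd_card_H2_Jloc_of_levelAll` : the same for the order of `H²(Gal(L'/K), (L' ⊗[K] K_𝔪)ˣ)`,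
  `𝔪 = mAt P q t` (`LocSCard.card_H2_Jloc_mAt`).
-/
import Fermat.Agent.S55.Middle.LocSCard

set_option autoImplicit false
set_option linter.unusedSectionVars false
set_option linter.style.haveILetI false

namespace Fermat.Agent.S55.Middle.CycloGrowAllT

open Fermat.Agent.S55.Formal Fermat.Agent.S55.Formal.PreludeLC
  Fermat.Agent.S55.Bridge.ShapiroLC Fermat.Agent.S55.Bridge.Mackey
  Fermat.Agent.S55.Middle.KSite Fermat.Agent.S55.Middle.CycloPow
  Fermat.Agent.S55.Middle.CycloGrowIndex Fermat.Agent.S55.Middle.CycloGrowLevel ExtCitation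

local notation "Qbar" => AlgebraicClosure ℚ
local notation "GQ" => (AlgebraicClosure ℚ ≃ₐ[ℚ] AlgebraicClosure ℚ)

/-- the index of a conjugated preimage is at most the index. -/
theorem index_conjSub_le {D G : Type*} [Group D] [Group G] (f : D →* G) (V : Subgroup G)
    (t : G) (hV : V.index ≠ 0) : (conjSub f V t).index ≤ V.index := by
  rw [conjSub_eq_comap, Subgroup.index_comap, ← Subgroup.relIndex_top_right V]
  exact Subgroup.relIndex_le_of_le_right le_top (by rwa [Subgroup.relIndex_top_right])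

variable (p : ℕ) [hp : Fact p.Prime]

theorem padicValNat_index_conjSub_le {D G : Type*} [Group D] [Group G] (f : D →* G)
    (V : Subgroup G) (t : G) (hV : V.index ≠ 0) :
    padicValNat p (conjSub f V t).index ≤ Nat.log p V.index :=
  (padicValNat_le_nat_log _).trans (Nat.log_mono_right (index_conjSub_le f V t hV))

/-- **Growth, uniformly in `t`**: the bound `k + lossAt p q + log_p [G_ℚ : P] ≤ m` works for ALL
`t : G_ℚ` at once. -/
theorem pow_dvd_index_subgroupOf_allT (hodd : Odd p) (q : Nat.Primes) (P : Subgroup GQ)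
    (hPfin : P.index ≠ 0) (hPχ : ∀ g ∈ P, cycloChar p g = 1) (k m : ℕ)
    (hm : k + lossAt p q + Nat.log p P.index ≤ m)
    (P' : Subgroup GQ) (hP' : P' ≤ P) (hfix : P' ≤ fixRoots (p ^ m)) (t : GQ) :
    p ^ k ∣ ((Dloc P' q t).subgroupOf (Dloc P q t)).index := by
  refine pow_dvd_index_subgroupOf p hodd q P hPfin hPχ t k m ?_ P' hP'
    (fun g hg => mem_fixRoots.1 (hfix hg))
  have := padicValNat_index_conjSub_le p (primeLocalToGlobal q) P t hPfin
  omega

/-- the uniform level: `k + max_{q ∈ S} lossAt p q + log_p [G_ℚ : P]`. -/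
noncomputable def levelAll (S : Finset Nat.Primes) (P : Subgroup GQ) (k : ℕ) : ℕ :=
  k + S.sup (fun q : Nat.Primes => lossAt p q) + Nat.log p P.index

theorem levelAll_mono (S : Finset Nat.Primes) (P : Subgroup GQ) {k k' : ℕ} (h : k ≤ k') :
    levelAll p S P k ≤ levelAll p S P k' := by
  unfold levelAll; omega

/-- **ONE level for all `q ∈ S` and ALL `t : G_ℚ`** (the clause `hk` of `ImageDesc.hdesc`, and the
`hd` of `LM/TorsLevel`, `LocSRange`): for `m ≥ levelAll p S P k` and every `P' ≤ P ⊓ fixRoots (p^m)`,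
`p^k ∣ [Dloc P q t : Dloc P' q t]`. -/
theorem pow_dvd_index_of_levelAll (hodd : Odd p) {S : Finset Nat.Primes} {P : Subgroup GQ}
    (hPfin : P.index ≠ 0) (hPχ : ∀ g ∈ P, cycloChar p g = 1) (k m : ℕ)
    (hm : levelAll p S P k ≤ m) (P' : Subgroup GQ) (hP' : P' ≤ P)
    (hfix : P' ≤ fixRoots (p ^ m)) (q : Nat.Primes) (hq : q ∈ S) (t : GQ) :
    p ^ k ∣ ((Dloc P' q t).subgroupOf (Dloc P q t)).index := by
  refine pow_dvd_index_subgroupOf_allT p hodd q P hPfin hPχ k m ?_ P' hP' hfix t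
  have h1 : lossAt p q ≤ S.sup (fun q : Nat.Primes => lossAt p q) :=
    Finset.le_sup (f := fun q : Nat.Primes => lossAt p q) hq
  unfold levelAll at hm
  omega

/-- the same for `S`-open `P` (finite index automatic). -/
theorem pow_dvd_index_of_levelAll' (hodd : Odd p) {S : Finset Nat.Primes} {P : Subgroup GQ}
    (hP : IsOpenS S P) (hPχ : ∀ g ∈ P, cycloChar p g = 1) (k m : ℕ)
    (hm : levelAll p S P k ≤ m) (P' : Subgroup GQ) (hP' : P' ≤ P)
    (hfix : P' ≤ fixRoots (p ^ m)) (q : ↥S) (t : GQ) :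
    p ^ k ∣ ((Dloc P' q.1 t).subgroupOf (Dloc P q.1 t)).index := by
  haveI := finiteIndex_of_isOpenS hP
  exact pow_dvd_index_of_levelAll p hodd Subgroup.FiniteIndex.index_ne_zero hPχ k m hm P' hP' hfix
    q.1 q.2 t

section HJ

open Fermat.Agent.S55.Middle.Defs Fermat.Agent.S55.Middle.GaloisDict
  Fermat.Agent.S55.Middle.GaloisDictModel Fermat.Agent.S55.Global.Blocks3
  Fermat.Agent.S55.Middle.LocS Fermat.Agent.S55.Middle.LocSCard

/-- **`p^k ∣ #H²(Gal(L'/K), (L' ⊗[K] K_𝔪)ˣ)` at `𝔪 = mAt P q t`, for all `q ∈ S` and ALL `t`**, as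
soon as the level `L` contains the `p^m`-th roots of unity, `m ≥ levelAll p S P k`. -/
theorem pow_dvd_card_H2_Jloc_of_levelAll (hodd : Odd p) {S : Finset Nat.Primes}
    {P : Subgroup GQ} (hPχ : ∀ g ∈ P, cycloChar p g = 1) (k m : ℕ)
    (hm : levelAll p S P k ≤ m)
    (L : IntermediateField ℚ Qbar) [Normal ℚ L] (hL : L.IsUnramifiedOutside S)
    (hle : L.fixingSubgroup ≤ P) (hKL : K₀ P ≤ L)
    [NumberField ↥(K₀ P)] [NumberField ↥(Lext P L hKL)]
    (hLm : L.fixingSubgroup ≤ fixRoots (p ^ m)) (q : Nat.Primes) (hq : q ∈ S) (t : GQ) :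
    p ^ k ∣ Nat.card (groupCohomology (Jloc ↥(K₀ P) ↥(Lext P L hKL) q (mAt P q t)) 2) := by
  have hP : IsOpenS S P := ⟨L.fixingSubgroup, fixingSubgroup_mem S L hL, hle⟩
  haveI := finiteIndex_of_isOpenS hP
  rw [card_H2_Jloc_mAt S P L hL hle hKL q t]
  exact pow_dvd_index_of_levelAll p hodd Subgroup.FiniteIndex.index_ne_zero hPχ k m hm
    L.fixingSubgroup hle hLm q hq t

end HJ

end Fermat.Agent.S55.Middle.CycloGrowAllT
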