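/-
S55 / MIDDLE / M.cycloGrow, `.B` seat (helper15): **growth of local degrees in the `p`-cyclotomic
tower** = the arithmetic leaf behind `htors` of `ImageLevel` / (C4).

`K` a number field (NO hypothesis `ζ_p ∈ K` needed), `p` prime, `v` a nonzero prime of `𝓞 K`, `k : ℕ`.
There is `m0` such that for all `m ≥ m0`, every `p ^ m`-th cyclotomic extension `L/K` and every
prime `P` of `𝓞 L` over `v`:
* `exists_level_split`  : `v ∤ p → p ^ k ∣ f(P/v)` and `v ∣ p → p ^ k ∣ e(P/v)`;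
* `exists_level`        : `p ^ k ∣ e(P/v) * f(P/v)`;
* `exists_level_stabilizer` : `p ^ k ∣ #(decomposition group of P in Gal(L/K))`.

Ingredients: `inertiaDeg_eq_orderOf` (for `Q ∌ n` in `K(ζ_n)`: `f(Q/v) = ord (N v mod n)`, via the
Artin map away from `n` of `AuxUnram` + `RecipCore.orderOf_art_eq_inertiaDeg`),
`exists_pow_dvd_orderOf` (orders mod `p ^ m` grow), `pow_dvd_ramificationIdx_mul`
(`p ^ j ∣ e(v/p) e(P/v)` in `K(ζ_{p^(j+1)})`, from Mathlib's `ℚ(ζ_{p^(j+1)})` totally ramified at `p`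
and multiplicativity of `e` in the two towers `ℤ ⊆ 𝓞 ℚ(ζ) ⊆ 𝓞 L`, `ℤ ⊆ 𝓞 K ⊆ 𝓞 L`).
-/
import Mathlib
import Fermat.Agent.S55.Global.AuxDeg

set_option autoImplicit false
set_option linter.unusedVariables false
set_option linter.unusedSectionVars false
set_option linter.style.haveILetI false

open NumberField

namespace Fermat.Agent.S55.Middle.CycloGrowB

open Fermat.Agent.S14 Fermat.Agent.S55.Global.AuxUnram Fermat.Agent.S55.Global

section arith

/-- **Growth of multiplicative orders modulo `p ^ m`.**  For `a ≥ 2` and every `k`, the order of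
`a` modulo `p ^ m` is divisible by `p ^ k` for all large `m` (it is `0` if `p ∣ a`). -/
theorem exists_pow_dvd_orderOf (p : ℕ) (hp : p.Prime) (a : ℕ) (ha : 2 ≤ a) (k : ℕ) :
    ∃ m0 : ℕ, ∀ m : ℕ, m0 ≤ m → p ^ k ∣ orderOf ((a : ℕ) : ZMod (p ^ m)) := by
  rcases Nat.eq_zero_or_pos k with rfl | hk
  · exact ⟨0, fun m _ => by simp⟩
  set E : ℕ := p ^ (k - 1) * (p - 1) with hE
  have hE0 : 0 < E := Nat.mul_pos (pow_pos hp.pos _) (Nat.sub_pos_of_lt hp.one_lt)
  refine ⟨a ^ E, fun m hm => ?_⟩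
  by_contra hnd
  set f := orderOf ((a : ℕ) : ZMod (p ^ m)) with hf
  have hf0 : f ≠ 0 := by
    intro h0
    rw [h0] at hnd
    exact hnd (dvd_zero _)
  have hm0 : m ≠ 0 := by
    rintro rfl
    have : 1 ≤ a ^ E := Nat.one_le_pow _ _ (by omega)
    omega
  haveI : NeZero (p ^ m) := ⟨pow_ne_zero _ hp.ne_zero⟩
  have hpow : ((a : ℕ) : ZMod (p ^ m)) ^ f = 1 := pow_orderOf_eq_one _
  -- `a` is a unit mod `p ^ m`
  have hunit : IsUnit ((a : ℕ) : ZMod (p ^ m)) :=
    IsUnit.of_pow_eq_one hpow hf0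
  have hcop : a.Coprime (p ^ m) := (ZMod.isUnit_iff_coprime a (p ^ m)).mp hunit
  have hfdvd : f ∣ p ^ (m - 1) * (p - 1) := by
    rw [← Nat.totient_prime_pow hp (Nat.pos_of_ne_zero hm0)]
    refine orderOf_dvd_of_pow_eq_one ?_
    have h1 := (ZMod.natCast_eq_natCast_iff _ _ _).mpr (Nat.ModEq.pow_totient hcop)
    push_cast at h1
    exact h1
  -- `f ∣ E`
  have hfE : f ∣ E := by
    have h1 : f = p ^ (f.factorization p) * (f / p ^ (f.factorization p)) :=
      (Nat.ordProj_mul_ordCompl_eq_self f p).symm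
    have hj : f.factorization p < k := by
      by_contra hge
      rw [not_lt] at hge
      exact hnd ((pow_dvd_pow p hge).trans (Nat.ordProj_dvd f p))
    have hd : (f / p ^ (f.factorization p)).Coprime p := (Nat.coprime_ordCompl hp hf0).symm
    have hd2 : f / p ^ (f.factorization p) ∣ p - 1 := by
      have h2 : f / p ^ (f.factorization p) ∣ p ^ (m - 1) * (p - 1) :=
        (Nat.ordCompl_dvd f p).trans hfdvd
      exact (Nat.Coprime.pow_right _ hd).dvd_of_dvd_mul_left h2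
    rw [h1, hE]
    exact Nat.mul_dvd_mul (pow_dvd_pow p (by omega)) hd2
  have hpowE : ((a : ℕ) : ZMod (p ^ m)) ^ E = 1 := orderOf_dvd_iff_pow_eq_one.mp hfE
  have hdvd : p ^ m ∣ a ^ E - 1 := by
    have h1 : ((a ^ E : ℕ) : ZMod (p ^ m)) = ((1 : ℕ) : ZMod (p ^ m)) := by
      push_cast
      exact hpowE
    have h2 : a ^ E ≡ 1 [MOD p ^ m] := (ZMod.natCast_eq_natCast_iff _ _ _).mp h1
    have h3 : 1 ≤ a ^ E := Nat.one_le_pow _ _ (by omega)
    exact (Nat.modEq_iff_dvd' h3).mp (h2.symm)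
  have hpos : 0 < a ^ E - 1 := by
    have : 2 ^ 1 ≤ a ^ E := (Nat.pow_le_pow_left ha 1).trans (Nat.pow_le_pow_right (by omega) hE0)
    omega
  have h4 : p ^ m ≤ a ^ E - 1 := Nat.le_of_dvd hpos hdvd
  have h5 : m < p ^ m := Nat.lt_pow_self hp.one_lt
  omega

end arith

section unram

variable (K : Type*) [Field K] [NumberField K] (n : ℕ) [NeZero n]
  (C : Type*) [Field C] [NumberField C] [Algebra K C] [IsCyclotomicExtension {n} K C]

/-- the order in `Gal(K(ζ_n)/K)` of an automorphism `ζ ↦ ζ ^ a` (any `n`). -/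
theorem orderOf_eq_of_apply_zeta {ζ : C} (hζ : IsPrimitiveRoot ζ n) (σ : C ≃ₐ[K] C) (a : ℕ)
    (hσ : σ ζ = ζ ^ a) : orderOf σ = orderOf ((a : ℕ) : ZMod n) := by
  rw [← orderOf_injective (hζ.autToPow K) (hζ.autToPow_injective K) σ, ← orderOf_units,
    CrossingChar.coe_autToPow_eq_of_apply_eq_pow hζ σ a hσ]

/-- **Residue degrees in `K(ζ_n)/K`**: for a prime `Q ∌ n` of `K(ζ_n)` over `v`,
`f(Q/v)` is the multiplicative order of `N(v)` modulo `n`. -/
theorem inertiaDeg_eq_orderOf (Q : Ideal (𝓞 C)) (hQ : Q.IsPrime) (hQ0 : Q ≠ ⊥)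
    (hnQ : (n : 𝓞 C) ∉ Q) :
    Q.inertiaDeg (𝓞 K) = orderOf ((Ideal.absNorm (Q.under (𝓞 K)) : ℕ) : ZMod n) := by
  haveI : IsGalois K C := IsCyclotomicExtension.isGalois {n} K C
  have hA := isArtinAway_artFun (K := K) (M := C) C n
  set v := Q.under (𝓞 K) with hv_def
  have hv : v.IsPrime := Ideal.IsPrime.under _ Q
  have hv0 : v ≠ ⊥ := by
    intro h0
    apply hQ0
    exact Ideal.eq_bot_of_comap_eq_bot (R := 𝓞 K) (by rw [← Ideal.under_def, ← hv_def, h0])
  have hvn : (n : 𝓞 K) ∉ v := by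
    rw [hv_def, CycloFrob.natCast_mem_under (A := 𝓞 K)]
    exact hnQ
  rw [← RecipCore.orderOf_art_eq_inertiaDeg hA v hv hv0 hvn Q hQ rfl]
  obtain ⟨ζ, hζ⟩ := IsCyclotomicExtension.exists_isPrimitiveRoot K C (Set.mem_singleton n)
    (NeZero.ne n)
  exact orderOf_eq_of_apply_zeta K n C hζ _ _
    (CycloFrob.frob_zeta hζ.pow_eq_one Q hnQ _ (hA.frob v hv hv0 hvn Q hQ rfl))

end unram

section ram

variable (K : Type*) [Field K] [NumberField K] (p : ℕ) [hp : Fact p.Prime]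
  (L : Type*) [Field L] [NumberField L] [Algebra K L]

/-- **Ramification above `p` in `K(ζ_{p^(j+1)})`**: `p ^ j ∣ e(v/p) * e(P/v)`. -/
theorem pow_dvd_ramificationIdx_mul (j : ℕ) [IsCyclotomicExtension {p ^ (j + 1)} K L]
    (P : Ideal (𝓞 L)) [hP : P.IsPrime] (hpP : (p : 𝓞 L) ∈ P) :
    p ^ j ∣ (P.under (𝓞 K)).ramificationIdx ℤ * P.ramificationIdx (𝓞 K) := by
  haveI : NeZero (p ^ (j + 1)) := ⟨pow_ne_zero _ hp.out.ne_zero⟩
  obtain ⟨ζ, hζ⟩ := IsCyclotomicExtension.exists_isPrimitiveRoot K L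
    (Set.mem_singleton (p ^ (j + 1))) (NeZero.ne _)
  -- the subfield `E = ℚ(ζ)`
  let E : IntermediateField ℚ L := IntermediateField.adjoin ℚ {ζ}
  haveI : IsCyclotomicExtension {p ^ (j + 1)} ℚ E :=
    hζ.intermediateField_adjoin_isCyclotomicExtension ℚ
  -- the prime of `E` below `P`
  set PE : Ideal (𝓞 E) := P.under (𝓞 E) with hPE
  haveI : PE.IsPrime := Ideal.IsPrime.under _ P
  have hpPE : (p : 𝓞 E) ∈ PE := by
    rw [hPE, Ideal.under_def, Ideal.mem_comap, map_natCast]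
    exact hpP
  haveI : PE.LiesOver (Ideal.span {(p : ℤ)}) := by
    constructor
    have hle : Ideal.span {(p : ℤ)} ≤ PE.under ℤ := by
      rw [Ideal.span_singleton_le_iff_mem, Ideal.under_def, Ideal.mem_comap]
      simpa using hpPE
    have hmax : (Ideal.span {(p : ℤ)}).IsMaximal :=
      PrincipalIdealRing.isMaximal_of_irreducible
        (Nat.prime_iff_prime_int.mp hp.out).irreducible
    have hne : PE.under ℤ ≠ ⊤ := (Ideal.IsPrime.under ℤ PE).ne_top
    exact hmax.eq_of_le hne hle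
  have h1 : PE.ramificationIdx ℤ = p ^ j * (p - 1) :=
    IsCyclotomicExtension.Rat.ramificationIdx_eq (p ^ (j + 1)) (m := 1) (p := p) (k := j) E PE
      (by rw [mul_one]) (by simpa using hp.out.one_lt.ne')
  -- two towers
  have h2 : P.ramificationIdx ℤ = PE.ramificationIdx ℤ * P.ramificationIdx (𝓞 E) :=
    Ideal.ramificationIdx_tower (R := ℤ) (S := 𝓞 E) (T := 𝓞 L) PE P
  have h3 : P.ramificationIdx ℤ =
      (P.under (𝓞 K)).ramificationIdx ℤ * P.ramificationIdx (𝓞 K) :=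
    Ideal.ramificationIdx_tower (R := ℤ) (S := 𝓞 K) (T := 𝓞 L) (P.under (𝓞 K)) P
  rw [← h3, h2, h1]
  exact Dvd.dvd.mul_right (dvd_mul_right _ _) _

end ram

section main

universe u w

open scoped Pointwise

open Fermat.Agent.S55.Global.AuxField

/-- `p ^ j ∣ A * e` with `A ≠ 0` gives `p ^ (j - A) ∣ e`. -/
theorem pow_sub_dvd_of_pow_dvd_mul (p : ℕ) [hp : Fact p.Prime] {j A e : ℕ} (hA : A ≠ 0)
    (h : p ^ j ∣ A * e) : p ^ (j - A) ∣ e := by
  rcases Nat.eq_zero_or_pos e with rfl | he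
  · exact dvd_zero _
  have hAe : A * e ≠ 0 := Nat.mul_ne_zero hA he.ne'
  rw [padicValNat_dvd_iff_le hAe, padicValNat.mul hA he.ne'] at h
  rw [padicValNat_dvd_iff_le he.ne']
  have h1 : padicValNat p A < A := by
    have h2 : p ^ padicValNat p A ∣ A := pow_padicValNat_dvd
    have h3 : p ^ padicValNat p A ≤ A := Nat.le_of_dvd (Nat.pos_of_ne_zero hA) h2
    exact lt_of_lt_of_le (Nat.lt_pow_self hp.out.one_lt) h3
  omega

/-- **Growth of local degrees in the `p`-cyclotomic tower** (helper24's `M.cycloGrow`, `.B` seat).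
`K` a number field, `p` a prime, `v` a nonzero prime of `𝓞 K`, `k : ℕ`.  For all large `m`, every
prime `P` over `v` of every `p ^ m`-th cyclotomic extension `L/K` has
`p ^ k ∣ e(P/v) * f(P/v)`; more precisely `p ^ k ∣ f(P/v)` if `v ∤ p` and `p ^ k ∣ e(P/v)` if
`v ∣ p`. -/
theorem exists_level_split (K : Type u) [Field K] [NumberField K] (p : ℕ) [hp : Fact p.Prime]
    (v : Ideal (𝓞 K)) (hv : v.IsPrime) (hv0 : v ≠ ⊥) (k : ℕ) :
    ∃ m0 : ℕ, ∀ m : ℕ, m0 ≤ m → ∀ (L : Type w) [Field L] [NumberField L] [Algebra K L]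
      [IsCyclotomicExtension {p ^ m} K L] (P : Ideal (𝓞 L)), P.IsPrime → P.under (𝓞 K) = v →
      (((p : 𝓞 K) ∉ v → p ^ k ∣ P.inertiaDeg (𝓞 K)) ∧
        ((p : 𝓞 K) ∈ v → p ^ k ∣ P.ramificationIdx (𝓞 K))) := by
  haveI := hv
  obtain ⟨m1, hm1⟩ := exists_pow_dvd_orderOf p hp.out (Ideal.absNorm v) (two_le_absNorm K v hv0) k
  have hA : v.ramificationIdx ℤ ≠ 0 := (Ideal.ramificationIdx_pos (R := ℤ) v).ne'
  refine ⟨max m1 (k + v.ramificationIdx ℤ + 1), fun m hm L _ _ _ _ P hP hPv => ⟨fun hpv => ?_, fun hpv => ?_⟩⟩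
  · -- unramified case
    haveI : NeZero (p ^ m) := ⟨pow_ne_zero _ hp.out.ne_zero⟩
    have hP0 : P ≠ ⊥ := by
      rintro rfl
      apply hv0
      rw [← hPv]
      exact Ideal.under_bot _ _
    have hnP : ((p ^ m : ℕ) : 𝓞 L) ∉ P := by
      intro hmem
      rw [Nat.cast_pow] at hmem
      have h1 : (p : 𝓞 L) ∈ P := hP.mem_of_pow_mem m hmem
      apply hpv
      rw [← hPv, Ideal.under_def, Ideal.mem_comap, map_natCast]
      exact h1
    rw [inertiaDeg_eq_orderOf K (p ^ m) L P hP hP0 hnP, hPv]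
    exact hm1 m (le_trans (le_max_left _ _) hm)
  · -- ramified case
    have hm' : k + v.ramificationIdx ℤ + 1 ≤ m := le_trans (le_max_right _ _) hm
    obtain ⟨j, rfl⟩ : ∃ j, m = j + 1 := ⟨m - 1, by omega⟩
    have hpP : (p : 𝓞 L) ∈ P := by
      have h1 : (p : 𝓞 K) ∈ P.under (𝓞 K) := hPv ▸ hpv
      rw [Ideal.under_def, Ideal.mem_comap, map_natCast] at h1
      exact h1
    have h2 := pow_dvd_ramificationIdx_mul K p L j P hpP
    rw [hPv] at h2
    have h3 := pow_sub_dvd_of_pow_dvd_mul p hA h2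
    exact (pow_dvd_pow p (by omega)).trans h3

/-- **Growth of local degrees**, product form: `p ^ k ∣ e(P/v) * f(P/v)` for `m ≥ m0`. -/
theorem exists_level (K : Type u) [Field K] [NumberField K] (p : ℕ) [hp : Fact p.Prime]
    (v : Ideal (𝓞 K)) (hv : v.IsPrime) (hv0 : v ≠ ⊥) (k : ℕ) :
    ∃ m0 : ℕ, ∀ m : ℕ, m0 ≤ m → ∀ (L : Type w) [Field L] [NumberField L] [Algebra K L]
      [IsCyclotomicExtension {p ^ m} K L] (P : Ideal (𝓞 L)), P.IsPrime → P.under (𝓞 K) = v →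
      p ^ k ∣ P.ramificationIdx (𝓞 K) * P.inertiaDeg (𝓞 K) := by
  obtain ⟨m0, h⟩ := exists_level_split.{u, w} K p v hv hv0 k
  refine ⟨m0, fun m hm L _ _ _ _ P hP hPv => ?_⟩
  obtain ⟨h1, h2⟩ := h m hm L P hP hPv
  by_cases hpv : (p : 𝓞 K) ∈ v
  · exact (h2 hpv).mul_right _
  · exact (h1 hpv).mul_left _

/-- **Growth of local degrees**, decomposition-group form: for `m ≥ m0` the decomposition group
in `Gal(K(ζ_{p^m})/K)` of every prime over `v` has order divisible by `p ^ k`. -/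
theorem exists_level_stabilizer (K : Type u) [Field K] [NumberField K] (p : ℕ) [hp : Fact p.Prime]
    (v : Ideal (𝓞 K)) (hv : v.IsPrime) (hv0 : v ≠ ⊥) (k : ℕ) :
    ∃ m0 : ℕ, ∀ m : ℕ, m0 ≤ m → ∀ (L : Type w) [Field L] [NumberField L] [Algebra K L]
      [IsCyclotomicExtension {p ^ m} K L] (P : Ideal (𝓞 L)), P.IsPrime → P.under (𝓞 K) = v →
      p ^ k ∣ Nat.card (MulAction.stabilizer (L ≃ₐ[K] L) P) := by
  obtain ⟨m0, h⟩ := exists_level.{u, w} K p v hv hv0 k
  refine ⟨m0, fun m hm L _ _ _ _ P hP hPv => ?_⟩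
  haveI : NeZero (p ^ m) := ⟨pow_ne_zero _ hp.out.ne_zero⟩
  haveI : IsGalois K L := IsCyclotomicExtension.isGalois {p ^ m} K L
  haveI := hv
  haveI := hP
  haveI : P.LiesOver v := ⟨hPv.symm⟩
  haveI : v.IsMaximal := hv.isMaximal hv0
  haveI : Finite (𝓞 K ⧸ v) := Ideal.finiteQuotientOfFreeOfNeBot v hv0
  rw [Ideal.card_stabilizer_eq (G := L ≃ₐ[K] L) v P,
    Ideal.ramificationIdxIn_eq_ramificationIdx v P (L ≃ₐ[K] L),
    Ideal.inertiaDegIn_eq_inertiaDeg v P (L ≃ₐ[K] L)]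
  exact h m hm L P hP hPv

end main

end Fermat.Agent.S55.Middle.CycloGrowB
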