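/-
S55 / Middle / CycloGrowIndex (helper24): GROWTH OF THE LOCAL INDEX IN THE `p`-CYCLOTOMIC TOWER,
GROUP FORM (the hypothesis `hd : p ^ k ∣ N.index` of `LM/TorsLevel.mem_range_ι₂_Ox_pow`, i.e. the
global half of `htors` of `ImageLevel.adj_of_level`).

`P ≤ G_ℚ` of finite index with `cycloChar p` trivial on `P`, `q` a prime, `t ∈ G_ℚ`,
`D = conjSub (primeLocalToGlobal q) P t` (`= KSite.Dloc P q t`).  If

  `k + lossAt p q + v_p([Γ_q : D]) ≤ m`      (`lossAt p p = 1`, `lossAt p q = v_p(q^(p-1) - 1)`),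

then for EVERY subgroup `P' ≤ P` whose elements fix the `p^m`-th roots of unity of `ℚ̄`
(e.g. `P' = P ⊓ fixRoots (p^m)`), with `D' = conjSub (primeLocalToGlobal q) P' t`:

  `p ^ k ∣ D'.relIndex D = (D'.subgroupOf D).index`
  (`pow_dvd_relIndex_conjSub`, `pow_dvd_index_subgroupOf`, `pow_dvd_relIndex_cycloLevel`).

Also `relIndex_fixRoots_dvd`: `[P : P ⊓ fixRoots (p^m)] ∣ p^(m-1)` (the cyclotomic layers are
`p`-groups: `hpow` of `adj_of_level`).

Proof.  `χ_m : G_ℚ → (ℤ/p^m)ˣ` the mod `p^m` cyclotomic character (`IsPrimitiveRoot.autToPow`).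
The image of `Γ_q` under `χ_m ∘ ι_q` contains (the image of) the decomposition group of `ℚ(ζ_{p^m})`
at `q` (`Bridge/LocalGlobal.exists_local_of_mem_decomposition`), of order `e f`, which is divisible
by `p^(m - lossAt p q)` (`pow_dvd_card_stabilizer_rat`: Mathlib's total ramification at `q = p`,
lifting the exponent at `q ≠ p`).  `χ_m(D)` lies in `ker((ℤ/p^m)ˣ → (ℤ/p)ˣ)`, a `p`-group, and
`#χ_m(Γ_q) ∣ #χ_m(D) · [Γ_q : D]`; finally `#χ_m(D) ∣ [D : D']` (abstract core `pow_dvd_relIndex`).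
-/
import Mathlib
import Fermat.Prelude.Def_ExtEndgame_ProductionDatum
import Fermat.Agent.S55.Bridge.LocalGlobal
import Fermat.Agent.S55.Bridge.Mackey
import Fermat.Agent.Lib.InertiaNumberFieldPrime
import Fermat.Agent.S55.Middle.CycloGrow

set_option autoImplicit false
set_option linter.style.haveILetI false
set_option linter.unusedSectionVars false

namespace Fermat.Agent.S55.Middle.CycloGrowIndex

open Fermat.Agent.S55.Bridge.LocalGlobal Fermat.Agent.Lib.InertiaNumberField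
  Fermat.Agent.Lib.InertiaNumberFieldPrime Fermat.Agent.S55.Middle.CycloGrow
  Fermat.Agent.S55.Bridge.Mackey ExtCitation
open scoped Pointwise NumberField

local notation "Qbar" => AlgebraicClosure ℚ
local notation "GQ" => (AlgebraicClosure ℚ ≃ₐ[ℚ] AlgebraicClosure ℚ)

local instance isAlgebraicQbar_cgi : Algebra.IsAlgebraic ℚ (AlgebraicClosure ℚ) :=
  AlgebraicClosure.isAlgebraic ℚ

section Abstract

variable {Γ A : Type*} [Group Γ] [Group A]

/-- `#φ(Γ) ∣ #φ(D) * [Γ : D]`. -/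
theorem card_range_dvd_card_map_mul_index (φ : Γ →* A) (D : Subgroup Γ) :
    Nat.card φ.range ∣ Nat.card (D.map φ) * D.index := by
  -- inside `φ.range`
  let ψ : Γ →* φ.range := φ.rangeRestrict
  have hψ : Function.Surjective ψ := φ.rangeRestrict_surjective
  have h1 : (D.map ψ).index ∣ D.index := Subgroup.index_map_dvd D hψ
  have h2 : Nat.card (D.map ψ) * (D.map ψ).index = Nat.card φ.range := (D.map ψ).card_mul_index
  have h3 : Nat.card (D.map ψ) = Nat.card (D.map φ) := by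
    have hinj : Function.Injective (φ.range.subtype) := Subtype.val_injective
    have : (D.map ψ).map φ.range.subtype = D.map φ := by
      rw [Subgroup.map_map]; rfl
    rw [← this]
    exact (Nat.card_congr ((D.map ψ).equivMapOfInjective _ hinj).toEquiv)
  rw [← h2, h3]
  exact mul_dvd_mul_left _ h1

/-- If `D' ≤ D` and `φ` kills `D'` then `#φ(D) ∣ [D : D']`. -/
theorem card_map_dvd_relIndex (φ : Γ →* A) {D' D : Subgroup Γ}
    (hker : D' ≤ φ.ker) : Nat.card (D.map φ) ∣ D'.relIndex D := by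
  rw [← Subgroup.relIndex_ker]
  exact Subgroup.relIndex_dvd_of_le_left D hker

/-- **Abstract core.**  `φ(D)` is contained in a group of order `p^r`, `D` has finite index, and
`p^s ∣ #φ(Γ)`; then `p^(s - v_p([Γ:D])) ∣ [D : D']` for every `D' ≤ D` killed by `φ`. -/
theorem pow_dvd_relIndex (p : ℕ) [hp : Fact p.Prime] (φ : Γ →* A) {D' D : Subgroup Γ}
    (hker : D' ≤ φ.ker) (U : Subgroup A) {r : ℕ} (hU : Nat.card U = p ^ r) (hDU : D.map φ ≤ U)
    (hD : D.index ≠ 0) {s : ℕ} (hs : p ^ s ∣ Nat.card φ.range) :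
    p ^ (s - padicValNat p D.index) ∣ D'.relIndex D := by
  have hp' := hp.out
  refine dvd_trans ?_ (card_map_dvd_relIndex φ hker)
  -- `#φ(D)` is a power of `p`
  have h1 : Nat.card (D.map φ) ∣ p ^ r := by
    rw [← hU]
    exact Subgroup.card_dvd_of_le hDU
  obtain ⟨j, -, hj⟩ := (Nat.dvd_prime_pow hp').1 h1
  rw [hj]
  apply pow_dvd_pow
  -- `p^s ∣ p^j * n`
  have h2 : p ^ s ∣ p ^ j * D.index := by
    rw [← hj]; exact dvd_trans hs (card_range_dvd_card_map_mul_index φ D)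
  have h3 : s ≤ padicValNat p (p ^ j * D.index) :=
    (padicValNat_dvd_iff_le (mul_ne_zero (pow_ne_zero _ hp'.ne_zero) hD)).1 h2
  rw [padicValNat.mul (pow_ne_zero _ hp'.ne_zero) hD, padicValNat.prime_pow] at h3
  omega

end Abstract

section Char

variable (p : ℕ) [hp : Fact p.Prime] {K L : Type*} [Field K] [Field L] [Algebra K L]

/-- `σ ↦ a` with `σ ζ = ζ ^ a` is trivial exactly on the automorphisms fixing `ζ`. -/
theorem autToPow_eq_one_iff {n : ℕ} [NeZero n] {ζ : L} (hζ : IsPrimitiveRoot ζ n)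
    (σ : L ≃ₐ[K] L) : hζ.autToPow K σ = 1 ↔ σ ζ = ζ := by
  have hspec : ζ ^ ((hζ.autToPow K σ : ZMod n).val) = σ ζ := hζ.autToPow_spec K σ
  constructor
  · intro h
    rw [← hspec, h]
    by_cases h1 : n = 1
    · subst h1
      have : ζ = 1 := by simpa using hζ.pow_eq_one
      simp [this]
    · haveI : Fact (1 < n) := ⟨by have := NeZero.ne n; omega⟩
      simp [ZMod.val_one]
  · intro h
    rw [h] at hspec
    have h3 : ζ ^ ((hζ.autToPow K σ : ZMod n).val) = ζ ^ 1 := by rw [pow_one]; exact hspec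
    have h4 := (hζ.isOfFinOrder (NeZero.ne n)).pow_inj_mod.1 h3
    rw [← hζ.eq_orderOf] at h4
    apply Units.ext
    rw [Units.val_one]
    have h5 : ((hζ.autToPow K σ : ZMod n)) = (((hζ.autToPow K σ : ZMod n).val : ℕ) : ZMod n) := by
      rw [ZMod.natCast_val, ZMod.cast_id]
    rw [h5]
    have : ((((hζ.autToPow K σ : ZMod n).val : ℕ) : ZMod n)) = ((1 : ℕ) : ZMod n) := by
      rw [ZMod.natCast_eq_natCast_iff']
      exact h4
    rw [this, Nat.cast_one]

/-- automorphisms fixing the `p`-th roots of unity land in `ker((ℤ/p^m)ˣ → (ℤ/p)ˣ)` -/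
theorem autToPow_mem_ker_unitsMap {m : ℕ} (hm : 0 < m) [NeZero (p ^ m)] {ζ : L}
    (hζ : IsPrimitiveRoot ζ (p ^ m)) (σ : L ≃ₐ[K] L)
    (hfix : σ (ζ ^ p ^ (m - 1)) = ζ ^ p ^ (m - 1)) :
    hζ.autToPow K σ ∈
      (ZMod.unitsMap (dvd_pow_self p hm.ne') : (ZMod (p ^ m))ˣ →* (ZMod p)ˣ).ker := by
  have hp' := hp.out
  have hpm : p ^ m = p ^ (m - 1) * p := by
    rw [← pow_succ, Nat.sub_add_cancel hm]
  have hζ' : IsPrimitiveRoot (ζ ^ p ^ (m - 1)) p := hζ.pow (pow_pos hp'.pos _) hpm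
  have hspec : ζ ^ ((hζ.autToPow K σ : ZMod (p ^ m)).val) = σ ζ := hζ.autToPow_spec K σ
  set a := ((hζ.autToPow K σ : ZMod (p ^ m)).val) with ha
  have h3 : (ζ ^ p ^ (m - 1)) ^ a = (ζ ^ p ^ (m - 1)) ^ 1 := by
    rw [pow_one, ← pow_mul, mul_comm, pow_mul, hspec, ← map_pow, hfix]
  have h4 : a % p = 1 % p := by
    have := (hζ'.isOfFinOrder hp'.ne_zero).pow_inj_mod.1 h3
    rwa [← hζ'.eq_orderOf] at this
  rw [MonoidHom.mem_ker]
  apply Units.ext
  rw [ZMod.unitsMap_def, Units.coe_map, Units.val_one]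
  change (ZMod.castHom (dvd_pow_self p hm.ne') (ZMod p)) ((hζ.autToPow K σ : ZMod (p ^ m))) = 1
  have h5 : ((hζ.autToPow K σ : ZMod (p ^ m))) = (a : ZMod (p ^ m)) := by
    rw [ha, ZMod.natCast_val, ZMod.cast_id]
  rw [h5, map_natCast]
  have : ((a : ℕ) : ZMod p) = ((1 : ℕ) : ZMod p) := by
    rw [ZMod.natCast_eq_natCast_iff']
    exact h4
  rw [this, Nat.cast_one]

end Char

section LocalImage

variable {n : ℕ} [NeZero n] {ζ : Qbar} (hζ : IsPrimitiveRoot ζ n)

/-- the cyclotomic field `ℚ(ζ) ⊆ ℚ̄` -/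
noncomputable abbrev cycF (ζ : Qbar) : IntermediateField ℚ Qbar := IntermediateField.adjoin ℚ {ζ}

/-- `ζ` as an element of `ℚ(ζ)` -/
noncomputable def zetaF (ζ : Qbar) : cycF ζ := ⟨ζ, IntermediateField.mem_adjoin_simple_self ℚ ζ⟩

include hζ in
theorem isPrimitiveRoot_zetaF : IsPrimitiveRoot (zetaF ζ) n :=
  IsPrimitiveRoot.of_map_of_injective (f := algebraMap (cycF ζ) Qbar)
    (by exact hζ) (algebraMap (cycF ζ) Qbar).injective

include hζ in
theorem isCyclotomicExtension_cycF : IsCyclotomicExtension {n} ℚ (cycF ζ) :=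
  hζ.intermediateField_adjoin_isCyclotomicExtension ℚ

include hζ in
theorem normal_cycF : Normal ℚ (cycF ζ) := by
  haveI := isCyclotomicExtension_cycF hζ
  haveI : IsGalois ℚ (cycF ζ) := IsCyclotomicExtension.isGalois {n} ℚ (cycF ζ)
  infer_instance

include hζ in
theorem finiteDimensional_cycF : FiniteDimensional ℚ (cycF ζ) := by
  haveI := isCyclotomicExtension_cycF hζ
  exact IsCyclotomicExtension.finiteDimensional {n} ℚ (cycF ζ)

/-- compatibility of the two characters -/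
theorem autToPow_restrictNormalHom [Normal ℚ (cycF ζ)] (σ : GQ) :
    (isPrimitiveRoot_zetaF hζ).autToPow ℚ (AlgEquiv.restrictNormalHom (cycF ζ) σ) =
      hζ.autToPow ℚ σ := by
  have h1 : (zetaF ζ : cycF ζ) ^ (((isPrimitiveRoot_zetaF hζ).autToPow ℚ
      (AlgEquiv.restrictNormalHom (cycF ζ) σ) : ZMod n).val) =
      (AlgEquiv.restrictNormalHom (cycF ζ) σ) (zetaF ζ) :=
    (isPrimitiveRoot_zetaF hζ).autToPow_spec ℚ _
  have h2 : ζ ^ ((hζ.autToPow ℚ σ : ZMod n).val) = σ ζ := hζ.autToPow_spec ℚ σ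
  have h3 : ((AlgEquiv.restrictNormalHom (cycF ζ) σ (zetaF ζ) : cycF ζ) : Qbar) = σ ζ :=
    AlgEquiv.restrictNormal_commutes σ (cycF ζ) (zetaF ζ)
  have h4 : ζ ^ (((isPrimitiveRoot_zetaF hζ).autToPow ℚ
      (AlgEquiv.restrictNormalHom (cycF ζ) σ) : ZMod n).val) = ζ ^ ((hζ.autToPow ℚ σ : ZMod n).val) := by
    rw [h2, ← h3, ← h1]
    rfl
  have h5 := (hζ.isOfFinOrder (NeZero.ne n)).pow_inj_mod.1 h4
  rw [← hζ.eq_orderOf] at h5
  apply Units.ext
  have h6 := (ZMod.natCast_eq_natCast_iff' _ _ n).2 h5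
  rwa [ZMod.natCast_val, ZMod.natCast_val, ZMod.cast_id, ZMod.cast_id] at h6

variable {q : ℕ} [Fact q.Prime]

/-- **the order of the local image of the cyclotomic character is a multiple of the order of the
decomposition group of `ℚ(ζ)` at `q`** -/
theorem card_decomposition_dvd_card_range [Normal ℚ (cycF ζ)] [FiniteDimensional ℚ (cycF ζ)] :
    Nat.card ((placeOf (q := q) (cycF ζ)).decompositionSubgroup ℚ) ∣
      Nat.card ((hζ.autToPow ℚ).comp (localGaloisToGlobal q)).range := by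
  haveI := isCyclotomicExtension_cycF hζ
  set ψ := (isPrimitiveRoot_zetaF hζ).autToPow ℚ with hψ
  have hψinj : Function.Injective ψ := IsPrimitiveRoot.autToPow_injective ℚ (isPrimitiveRoot_zetaF hζ)
  set D := (placeOf (q := q) (cycF ζ)).decompositionSubgroup ℚ with hD
  have h1 : Nat.card D = Nat.card (D.map ψ) :=
    Nat.card_congr (D.equivMapOfInjective ψ hψinj).toEquiv
  rw [h1]
  apply Subgroup.card_dvd_of_le
  rintro _ ⟨g, hg, rfl⟩
  obtain ⟨τ, hτ⟩ := exists_local_of_mem_decomposition (cycF ζ) hg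
  refine ⟨τ, ?_⟩
  rw [MonoidHom.comp_apply, ← autToPow_restrictNormalHom hζ, hτ]

end LocalImage

section Arith

variable {q : ℕ} [hq : Fact q.Prime]

/-- the place of a subfield of `ℚ̄` below `padicPlace q` lies over `q` -/
theorem placeOf_liesOverPrime (F : IntermediateField ℚ Qbar) [Normal ℚ F] :
    (placeOf (q := q) F).LiesOverPrime q := by
  unfold ValuationSubring.LiesOverPrime
  rw [Fermat.Agent.Lib.InertiaRestrict.mem_nonunits_iff_inv]
  right
  rw [mem_placeOf_iff, not_le]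
  have h1 : ‖padicEmbedding q (((q : F)⁻¹ : F) : Qbar)‖ = (q : ℝ) := by
    have : (((q : F)⁻¹ : F) : Qbar) = ((q : ℕ) : Qbar)⁻¹ := by simp
    rw [this, map_inv₀, map_natCast, norm_inv, norm_natCast_q, inv_inv]
  rw [h1]
  exact_mod_cast hq.out.one_lt

/-- the exponent lost at `q` -/
noncomputable def lossAt (p q : ℕ) : ℕ := if q = p then 1 else padicValNat p (q ^ (p - 1) - 1)

variable (p : ℕ) [hp : Fact p.Prime]

/-- **`p^(m - lossAt p q)` divides the order of the decomposition group of `ℚ(ζ_{p^m})` at `q`.** -/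
theorem pow_dvd_card_stabilizer_rat (hodd : Odd p) {m : ℕ} (hm : 0 < m)
    {F : Type*} [Field F] [NumberField F] [IsCyclotomicExtension {p ^ m} ℚ F]
    (𝔓 : Ideal (𝓞 F)) [𝔓.IsPrime] (hq𝔓 : (q : 𝓞 F) ∈ 𝔓) :
    p ^ (m - lossAt p q) ∣ Nat.card (MulAction.stabilizer Gal(F/ℚ) 𝔓) := by
  have hp' := hp.out
  have hq' := hq.out
  haveI : NeZero (p ^ m) := ⟨pow_ne_zero _ hp'.ne_zero⟩
  haveI : IsGalois ℚ F := IsCyclotomicExtension.isGalois {p ^ m} ℚ F
  have hqZ : Prime (q : ℤ) := Nat.prime_iff_prime_int.1 hq'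
  haveI hlies : 𝔓.LiesOver (Ideal.span {(q : ℤ)}) :=
    (Ideal.liesOver_span_iff (Ideal.IsPrime.ne_top inferInstance) hqZ).2 (by simpa using hq𝔓)
  have hcard : Nat.card (MulAction.stabilizer Gal(F/ℚ) 𝔓) =
      𝔓.ramificationIdx ℤ * 𝔓.inertiaDeg ℤ := by
    rw [Ideal.card_stabilizer_eq (Ideal.span {(q : ℤ)}) 𝔓,
      Ideal.ramificationIdxIn_eq_ramificationIdx (Ideal.span {(q : ℤ)}) 𝔓 Gal(F/ℚ),
      Ideal.inertiaDegIn_eq_inertiaDeg (Ideal.span {(q : ℤ)}) 𝔓 Gal(F/ℚ)]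
  rw [hcard]
  have hζ := IsCyclotomicExtension.zeta_spec (p ^ m) ℚ F
  by_cases hqp : q = p
  · -- totally ramified
    subst hqp
    obtain ⟨k, rfl⟩ : ∃ k, m = k + 1 := ⟨m - 1, by omega⟩
    have he := IsCyclotomicExtension.Rat.ramificationIdx_eq_of_prime_pow q k F 𝔓
    rw [he, lossAt, if_pos rfl]
    exact dvd_mul_of_dvd_left (Dvd.intro _ rfl) _
  · -- unramified, inertia degree grows
    rw [lossAt, if_neg hqp]
    have h𝔓0 : 𝔓 ≠ ⊥ := by
      rintro rfl
      rw [Ideal.mem_bot] at hq𝔓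
      exact hq'.ne_zero (by exact_mod_cast hq𝔓)
    have hp𝔓 : (p : 𝓞 F) ∉ 𝔓 := by
      intro hmem
      -- `p` and `q` both in `𝔓` gives `1 ∈ 𝔓`
      have hcop : Nat.Coprime p q := (Nat.coprime_primes hp' hq').2 (fun h => hqp h.symm)
      obtain ⟨a, b, hab⟩ : ∃ a b : ℤ, a * p + b * q = 1 := by
        have := Int.gcd_eq_gcd_ab p q
        rw [Int.gcd_natCast_natCast, hcop] at this
        exact ⟨Int.gcdA p q, Int.gcdB p q, by rw [mul_comm _ (p : ℤ), mul_comm _ (q : ℤ)]; exact_mod_cast this.symm⟩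
      have h1 : ((a * p + b * q : ℤ) : 𝓞 F) ∈ 𝔓 := by
        push_cast
        exact 𝔓.add_mem (𝔓.mul_mem_left _ hmem) (𝔓.mul_mem_left _ hq𝔓)
      rw [hab] at h1
      exact (Ideal.IsPrime.ne_top inferInstance) ((Ideal.eq_top_iff_one 𝔓).2 (by simpa using h1))
    have hcop𝔓 : (Ideal.absNorm 𝔓).Coprime p := coprime_absNorm p 𝔓 h𝔓0 hp𝔓
    have h1 : p ^ m ∣ Ideal.absNorm 𝔓 - 1 :=
      dvd_absNorm_sub_one hζ 𝔓 h𝔓0 (Nat.Coprime.pow_right m hcop𝔓)
    have habs : Ideal.absNorm (Ideal.span {(q : ℤ)}) ^ 𝔓.inertiaDeg ℤ = Ideal.absNorm 𝔓 :=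
      Ideal.absNorm_pow_inertiaDeg (Ideal.span {(q : ℤ)}) 𝔓
    have hq1 : Ideal.absNorm (Ideal.span {(q : ℤ)}) = q := by
      simp [Ideal.absNorm_span_singleton]
    rw [hq1] at habs
    rw [← habs] at h1
    set f := 𝔓.inertiaDeg ℤ with hf
    have hf0 : f ≠ 0 := (Ideal.inertiaDeg_pos 𝔓 ℤ).ne'
    -- pass to `N = q^(p-1)`
    have hN : 1 < q ^ (p - 1) := Nat.one_lt_pow (by have := hp'.two_le; omega) hq'.one_lt
    have hpN : p ∣ q ^ (p - 1) - 1 := by
      have hcop : Nat.Coprime q p := (Nat.coprime_primes hq' hp').2 hqp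
      have := ZMod.pow_card_sub_one_eq_one (p := p) (a := (q : ZMod p))
        (by rwa [Ne, ZMod.natCast_eq_zero_iff, ← Nat.Prime.coprime_iff_not_dvd hp', Nat.coprime_comm])
      have h2 : ((q ^ (p - 1) - 1 : ℕ) : ZMod p) = 0 := by
        rw [Nat.cast_sub hN.le]; push_cast; rw [this]; simp
      exact (ZMod.natCast_eq_zero_iff _ _).1 h2
    have h2 : p ^ m ∣ (q ^ (p - 1)) ^ f - 1 := by
      refine dvd_trans h1 ?_
      rw [← pow_mul, mul_comm, pow_mul]
      exact Nat.sub_one_dvd_pow_sub_one _ _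
    have h3 := pow_dvd_of_pow_dvd_pow_sub_one p hodd hN hpN hf0 h2
    exact dvd_mul_of_dvd_right h3 _

end Arith

section Final

variable (p : ℕ) [hp : Fact p.Prime]

/-- the cyclotomic character being trivial at `σ` means `σ` fixes the `p`-th roots of unity -/
theorem apply_eq_of_cycloChar_eq_one (σ : GQ) (hσ : cycloChar p σ = 1) (ζ : Qbar)
    (hζ : ζ ^ p = 1) : σ ζ = ζ := by
  have : NeZero p := ⟨hp.out.ne_zero⟩
  have hu : IsUnit ζ := IsUnit.of_pow_eq_one hζ (NeZero.ne p)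
  obtain ⟨t, rfl⟩ := hu
  have ht : t ∈ rootsOfUnity p Qbar := by
    rw [mem_rootsOfUnity]
    exact Units.ext (by simpa using hζ)
  have hspec := modularCyclotomicCharacter.spec Qbar (card_rootsOfUnity_eq_self p)
    (σ : Qbar ≃+* Qbar) ht
  have h1 : modularCyclotomicCharacter Qbar (card_rootsOfUnity_eq_self p)
      (σ : Qbar ≃+* Qbar) = 1 := hσ
  rw [h1] at hspec
  have hval : ((1 : (ZMod p)ˣ) : ZMod p).val = 1 := by
    have : Fact (1 < p) := ⟨hp.out.one_lt⟩
    simp [ZMod.val_one]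
  rw [hval, pow_one] at hspec
  exact hspec

variable {q : ℕ} [hq : Fact q.Prime]

/-- **Local image of the mod `p^m` cyclotomic character**: its order is divisible by
`p^(m - lossAt p q)`. -/
theorem pow_dvd_card_range_local (hodd : Odd p) {m : ℕ} (hm : 0 < m) {ζ : Qbar}
    (hζ : IsPrimitiveRoot ζ (p ^ m)) :
    haveI : NeZero (p ^ m) := ⟨pow_ne_zero _ hp.out.ne_zero⟩
    p ^ (m - lossAt p q) ∣ Nat.card ((hζ.autToPow ℚ).comp (localGaloisToGlobal q)).range := by
  haveI : NeZero (p ^ m) := ⟨pow_ne_zero _ hp.out.ne_zero⟩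
  haveI := isCyclotomicExtension_cycF hζ
  haveI := normal_cycF hζ
  haveI := finiteDimensional_cycF hζ
  haveI : NumberField (cycF ζ) := { to_charZero := inferInstance, to_finiteDimensional := inferInstance }
  refine dvd_trans ?_ (card_decomposition_dvd_card_range (q := q) hζ)
  have heq : (placeOf (q := q) (cycF ζ)).decompositionSubgroup ℚ =
      MulAction.stabilizer (cycF ζ ≃ₐ[ℚ] cycF ζ) (primeOf (placeOf (q := q) (cycF ζ))) := by
    ext τ
    rw [mem_decompositionSubgroup_iff_smul_primeOf_eq, MulAction.mem_stabilizer_iff]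
  rw [heq]
  exact pow_dvd_card_stabilizer_rat (q := q) p hodd hm (primeOf (placeOf (q := q) (cycF ζ)))
    (natCast_mem_primeOf (placeOf_liesOverPrime (cycF ζ)))

end Final

section Final2

variable (p : ℕ) [hp : Fact p.Prime]

/-- `d ↦ t * f d * t⁻¹` -/
def conjMap {D G : Type*} [Group D] [Group G] (f : D →* G) (t : G) : D →* G :=
  (MulAut.conj t).toMonoidHom.comp f

theorem conjMap_apply {D G : Type*} [Group D] [Group G] (f : D →* G) (t : G) (d : D) :
    conjMap f t d = t * f d * t⁻¹ := rfl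

theorem conjSub_eq_comap {D G : Type*} [Group D] [Group G] (f : D →* G) (V : Subgroup G) (t : G) :
    conjSub f V t = V.comap (conjMap f t) := by
  ext d
  rfl

theorem index_conjSub_ne_zero {D G : Type*} [Group D] [Group G] (f : D →* G) (V : Subgroup G)
    (t : G) (hV : V.index ≠ 0) : (conjSub f V t).index ≠ 0 := by
  rw [conjSub_eq_comap, Subgroup.index_comap]
  intro h
  exact hV (Subgroup.index_eq_zero_of_relIndex_eq_zero h)

/-- **Growth of the local index in the cyclotomic tower, group form.**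

`P ≤ G_ℚ` of finite index on which the mod `p` cyclotomic character is trivial, `q` a prime,
`t ∈ G_ℚ`, `D = conjSub ι_q P t` (`= KSite.Dloc P q t`).  If
`k + lossAt p q + v_p([Γ_q : D]) ≤ m`, then for EVERY subgroup `P' ≤ P` whose elements fix the
`p^m`-th roots of unity, `p^k ∣ [D : D']`, `D' = conjSub ι_q P' t`. -/
theorem pow_dvd_relIndex_conjSub (hodd : Odd p) (q : Nat.Primes) (P : Subgroup GQ)
    (hPfin : P.index ≠ 0) (hPχ : ∀ g ∈ P, cycloChar p g = 1) (t : GQ) (k m : ℕ)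
    (hm : k + lossAt p q + padicValNat p (conjSub (primeLocalToGlobal q) P t).index ≤ m)
    (P' : Subgroup GQ) (hP' : P' ≤ P)
    (hfix : ∀ g ∈ P', ∀ ζ : Qbar, ζ ^ (p ^ m) = 1 → g ζ = ζ) :
    p ^ k ∣ (conjSub (primeLocalToGlobal q) P' t).relIndex (conjSub (primeLocalToGlobal q) P t) := by
  have hp' := hp.out
  haveI hqF : Fact ((q : ℕ).Prime) := ⟨q.2⟩
  rcases Nat.eq_zero_or_pos m with rfl | hm0
  · have : k = 0 := by omega
    subst this
    simp
  haveI : NeZero (p ^ m) := ⟨pow_ne_zero _ hp'.ne_zero⟩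
  haveI : NeZero ((p ^ m : ℕ) : Qbar) := ⟨by exact_mod_cast (NeZero.ne (p ^ m))⟩
  obtain ⟨ζ, hζ⟩ := HasEnoughRootsOfUnity.exists_primitiveRoot Qbar (p ^ m)
  set f := primeLocalToGlobal q with hf
  set χ := hζ.autToPow ℚ with hχ
  set κ := conjMap f t with hκ
  set φ := χ.comp κ with hφ
  -- `φ = χ ∘ f` since the target is commutative
  have hφf : φ = χ.comp (localGaloisToGlobal (q : ℕ)) := by
    ext d
    change ((χ (t * f d * t⁻¹) : (ZMod (p ^ m))ˣ) : ZMod (p ^ m)) = _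
    rw [map_mul, map_mul, map_inv, mul_comm (χ t), mul_inv_cancel_right]
    rfl
  have hD : conjSub f P t = P.comap κ := conjSub_eq_comap f P t
  have hD' : conjSub f P' t = P'.comap κ := conjSub_eq_comap f P' t
  have hle : conjSub f P' t ≤ conjSub f P t := by
    rw [hD, hD']; exact Subgroup.comap_mono hP'
  have hker : conjSub f P' t ≤ φ.ker := by
    intro d hd
    rw [MonoidHom.mem_ker, hφ, MonoidHom.comp_apply, hχ, autToPow_eq_one_iff]
    exact hfix _ hd ζ hζ.pow_eq_one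
  have hDU : (conjSub f P t).map φ ≤
      (ZMod.unitsMap (dvd_pow_self p hm0.ne') : (ZMod (p ^ m))ˣ →* (ZMod p)ˣ).ker := by
    rintro _ ⟨d, hd, rfl⟩
    rw [hφ, MonoidHom.comp_apply, hχ]
    apply autToPow_mem_ker_unitsMap p hm0 hζ
    apply apply_eq_of_cycloChar_eq_one p _ (hPχ _ hd)
    rw [← pow_mul, ← pow_succ, Nat.sub_add_cancel hm0]
    exact hζ.pow_eq_one
  have hidx : (conjSub f P t).index ≠ 0 := index_conjSub_ne_zero f P t hPfin
  have hs : p ^ (m - lossAt p q) ∣ Nat.card φ.range := by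
    rw [hφf]
    exact pow_dvd_card_range_local (q := (q : ℕ)) p hodd hm0 hζ
  have key := pow_dvd_relIndex p φ hker _ (card_ker_unitsMap p hm0) hDU hidx hs
  exact dvd_trans (pow_dvd_pow p (by omega)) key

end Final2

section Levels

/-- the subgroup of `G_ℚ` fixing all `n`-th roots of unity (`= Gal(ℚ̄/ℚ(μ_n))`) -/
def fixRoots (n : ℕ) : Subgroup GQ where
  carrier := {g | ∀ ζ : Qbar, ζ ^ n = 1 → g ζ = ζ}
  one_mem' := fun _ _ => rfl
  mul_mem' := by
    intro a b ha hb ζ hζ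
    rw [AlgEquiv.mul_apply, hb ζ hζ, ha ζ hζ]
  inv_mem' := by
    intro a ha ζ hζ
    have := ha ζ hζ
    calc a⁻¹ ζ = a⁻¹ (a ζ) := by rw [this]
      _ = ζ := by
        change a.symm (a ζ) = ζ
        exact a.symm_apply_apply ζ

theorem mem_fixRoots {n : ℕ} {g : GQ} : g ∈ fixRoots n ↔ ∀ ζ : Qbar, ζ ^ n = 1 → g ζ = ζ :=
  Iff.rfl

theorem fixRoots_eq_ker {n : ℕ} [NeZero n] {ζ : Qbar} (hζ : IsPrimitiveRoot ζ n) :
    fixRoots n = (hζ.autToPow ℚ).ker := by
  ext g
  rw [MonoidHom.mem_ker, autToPow_eq_one_iff, mem_fixRoots]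
  constructor
  · intro h
    exact h ζ hζ.pow_eq_one
  · intro h μ hμ
    obtain ⟨j, -, rfl⟩ := hζ.eq_pow_of_pow_eq_one hμ
    rw [map_pow, h]

instance fixRoots_normal (n : ℕ) : (fixRoots n).Normal := by
  rcases Nat.eq_zero_or_pos n with rfl | hn
  · -- `ζ^0 = 1` for all `ζ`: the trivial group
    have : fixRoots 0 = ⊥ := by
      ext g
      rw [mem_fixRoots, Subgroup.mem_bot]
      constructor
      · intro h
        exact AlgEquiv.ext fun x => h x (pow_zero x)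
      · rintro rfl ζ -
        rfl
    rw [this]
    infer_instance
  · haveI : NeZero n := ⟨hn.ne'⟩
    haveI : NeZero ((n : ℕ) : Qbar) := ⟨by exact_mod_cast hn.ne'⟩
    obtain ⟨ζ, hζ⟩ := HasEnoughRootsOfUnity.exists_primitiveRoot Qbar n
    rw [fixRoots_eq_ker hζ]
    infer_instance

variable (p : ℕ) [hp : Fact p.Prime]

/-- `P / (P ∩ Gal(ℚ̄/ℚ(μ_{p^m})))` is a `p`-group of order dividing `p^(m-1)` when the mod `p`
cyclotomic character is trivial on `P`. -/
theorem relIndex_fixRoots_dvd (P : Subgroup GQ) (hPχ : ∀ g ∈ P, cycloChar p g = 1) {m : ℕ}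
    (hm : 0 < m) : (fixRoots (p ^ m)).relIndex P ∣ p ^ (m - 1) := by
  have hp' := hp.out
  haveI : NeZero (p ^ m) := ⟨pow_ne_zero _ hp'.ne_zero⟩
  haveI : NeZero ((p ^ m : ℕ) : Qbar) := ⟨by exact_mod_cast (NeZero.ne (p ^ m))⟩
  obtain ⟨ζ, hζ⟩ := HasEnoughRootsOfUnity.exists_primitiveRoot Qbar (p ^ m)
  rw [fixRoots_eq_ker hζ, Subgroup.relIndex_ker, ← card_ker_unitsMap p hm]
  apply Subgroup.card_dvd_of_le
  rintro _ ⟨g, hg, rfl⟩
  apply autToPow_mem_ker_unitsMap p hm hζ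
  apply apply_eq_of_cycloChar_eq_one p _ (hPχ _ hg)
  rw [← pow_mul, ← pow_succ, Nat.sub_add_cancel hm]
  exact hζ.pow_eq_one

/-- **Cyclotomic level form**: `P_m = P ⊓ fixRoots (p^m)`. -/
theorem pow_dvd_relIndex_cycloLevel (hodd : Odd p) (q : Nat.Primes) (P : Subgroup GQ)
    (hPfin : P.index ≠ 0) (hPχ : ∀ g ∈ P, cycloChar p g = 1) (t : GQ) (k m : ℕ)
    (hm : k + lossAt p q + padicValNat p (conjSub (primeLocalToGlobal q) P t).index ≤ m) :
    p ^ k ∣ (conjSub (primeLocalToGlobal q) (P ⊓ fixRoots (p ^ m)) t).relIndex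
      (conjSub (primeLocalToGlobal q) P t) :=
  pow_dvd_relIndex_conjSub p hodd q P hPfin hPχ t k m hm _ inf_le_left
    (fun _ hg => (mem_fixRoots.1 hg.2))

/-- the same as an index inside `D = conjSub ι_q P t` (the shape of `LM/TorsLevel`) -/
theorem pow_dvd_index_subgroupOf (hodd : Odd p) (q : Nat.Primes) (P : Subgroup GQ)
    (hPfin : P.index ≠ 0) (hPχ : ∀ g ∈ P, cycloChar p g = 1) (t : GQ) (k m : ℕ)
    (hm : k + lossAt p q + padicValNat p (conjSub (primeLocalToGlobal q) P t).index ≤ m)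
    (P' : Subgroup GQ) (hP' : P' ≤ P)
    (hfix : ∀ g ∈ P', ∀ ζ : Qbar, ζ ^ (p ^ m) = 1 → g ζ = ζ) :
    p ^ k ∣ ((conjSub (primeLocalToGlobal q) P' t).subgroupOf
      (conjSub (primeLocalToGlobal q) P t)).index :=
  pow_dvd_relIndex_conjSub p hodd q P hPfin hPχ t k m hm P' hP' hfix

end Levels

end Fermat.Agent.S55.Middle.CycloGrowIndex
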