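/-
S55 / Middle / CycloGrowLocalD (helper24): the growth statement of `CycloGrowIndex` for an ARBITRARY
subgroup `D ≤ Γ_q = primeLocalGaloisGroup q` of finite index on which the mod `p` cyclotomic
character is trivial (no global `P`): for `k + lossAt p q + v_p([Γ_q : D]) ≤ m` and every subgroup
`N ≤ Γ_q` whose elements fix the `p^m`-th roots of unity of `ℚ̄` (via `primeLocalToGlobal q`),

  `p ^ k ∣ (N.subgroupOf D).index`.

In particular for `N = cycN q p m := (fixRoots (p^m)).comap (primeLocalToGlobal q)`.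
-/
import Fermat.Agent.S55.Middle.CycloGrowIndex

set_option autoImplicit false
set_option linter.style.haveILetI false
set_option linter.unusedSectionVars false

namespace Fermat.Agent.S55.Middle.CycloGrowLocalD

open Fermat.Agent.S55.Bridge.LocalGlobal Fermat.Agent.S55.Middle.CycloGrow
  Fermat.Agent.S55.Middle.CycloGrowIndex ExtCitation

local notation "Qbar" => AlgebraicClosure ℚ
local notation "GQ" => (AlgebraicClosure ℚ ≃ₐ[ℚ] AlgebraicClosure ℚ)

local instance isAlgebraicQbar_cgld : Algebra.IsAlgebraic ℚ (AlgebraicClosure ℚ) :=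
  AlgebraicClosure.isAlgebraic ℚ

variable (p : ℕ) [hp : Fact p.Prime]

/-- **Growth of the local index, arbitrary `D ≤ Γ_q`.** -/
theorem pow_dvd_relIndex_local (hodd : Odd p) (q : Nat.Primes)
    (D : Subgroup (primeLocalGaloisGroup q)) (hD : D.index ≠ 0)
    (hχ : ∀ s ∈ D, cycloChar p (primeLocalToGlobal q s) = 1) (k m : ℕ)
    (hm : k + lossAt p q + padicValNat p D.index ≤ m)
    (N : Subgroup (primeLocalGaloisGroup q))
    (hfix : ∀ s ∈ N, ∀ ζ : Qbar, ζ ^ (p ^ m) = 1 → primeLocalToGlobal q s ζ = ζ) :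
    p ^ k ∣ N.relIndex D := by
  have hp' := hp.out
  haveI hqF : Fact ((q : ℕ).Prime) := ⟨q.2⟩
  rcases Nat.eq_zero_or_pos m with rfl | hm0
  · have : k = 0 := by omega
    subst this
    simp
  haveI : NeZero (p ^ m) := ⟨pow_ne_zero _ hp'.ne_zero⟩
  haveI : NeZero ((p ^ m : ℕ) : Qbar) := ⟨by exact_mod_cast (NeZero.ne (p ^ m))⟩
  obtain ⟨ζ, hζ⟩ := HasEnoughRootsOfUnity.exists_primitiveRoot Qbar (p ^ m)
  set f := primeLocalToGlobal q with hf
  set χ := hζ.autToPow ℚ with hχdef
  set φ := χ.comp f with hφ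
  have hφf : φ = χ.comp (localGaloisToGlobal (q : ℕ)) := rfl
  have hker : N ≤ φ.ker := by
    intro d hd
    rw [MonoidHom.mem_ker, hφ, MonoidHom.comp_apply, hχdef, autToPow_eq_one_iff]
    exact hfix _ hd ζ hζ.pow_eq_one
  have hDU : D.map φ ≤
      (ZMod.unitsMap (dvd_pow_self p hm0.ne') : (ZMod (p ^ m))ˣ →* (ZMod p)ˣ).ker := by
    rintro _ ⟨d, hd, rfl⟩
    rw [hφ, MonoidHom.comp_apply, hχdef]
    apply autToPow_mem_ker_unitsMap p hm0 hζ
    apply apply_eq_of_cycloChar_eq_one p _ (hχ _ hd)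
    rw [← pow_mul, ← pow_succ, Nat.sub_add_cancel hm0]
    exact hζ.pow_eq_one
  have hs : p ^ (m - lossAt p q) ∣ Nat.card φ.range := by
    rw [hφf]
    exact pow_dvd_card_range_local (q := (q : ℕ)) p hodd hm0 hζ
  have key := pow_dvd_relIndex p φ hker _ (card_ker_unitsMap p hm0) hDU hD hs
  exact dvd_trans (pow_dvd_pow p (by omega)) key

/-- the local cyclotomic level `Gal(ℚ̄_q / ℚ_q(μ_{p^m}))` -/
noncomputable def cycN (q : Nat.Primes) (m : ℕ) : Subgroup (primeLocalGaloisGroup q) :=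
  (fixRoots (p ^ m)).comap (primeLocalToGlobal q)

instance cycN_normal (q : Nat.Primes) (m : ℕ) : (cycN p q m).Normal := by
  unfold cycN
  infer_instance

/-- `subgroupOf` form for the local cyclotomic level and everything below it -/
theorem pow_dvd_index_subgroupOf_local (hodd : Odd p) (q : Nat.Primes)
    (D : Subgroup (primeLocalGaloisGroup q)) (hD : D.index ≠ 0)
    (hχ : ∀ s ∈ D, cycloChar p (primeLocalToGlobal q s) = 1) (k m : ℕ)
    (hm : k + lossAt p q + padicValNat p D.index ≤ m)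
    (N : Subgroup (primeLocalGaloisGroup q)) (hN : N ≤ cycN p q m) :
    p ^ k ∣ (N.subgroupOf D).index :=
  pow_dvd_relIndex_local p hodd q D hD hχ k m hm N (fun _ hs => mem_fixRoots.1 (hN hs))

/-- existential form -/
theorem exists_pow_dvd_index (hodd : Odd p) (q : Nat.Primes)
    (D : Subgroup (primeLocalGaloisGroup q)) (hD : D.index ≠ 0)
    (hχ : ∀ s ∈ D, cycloChar p (primeLocalToGlobal q s) = 1) (k : ℕ) :
    ∃ m₀, ∀ m, m₀ ≤ m → p ^ k ∣ ((cycN p q m).subgroupOf D).index :=
  ⟨k + lossAt p q + padicValNat p D.index, fun m hm =>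
    pow_dvd_index_subgroupOf_local p hodd q D hD hχ k m hm _ le_rfl⟩

end Fermat.Agent.S55.Middle.CycloGrowLocalD
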