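/-
S55 / Middle / CycloGrowStab (helper24): growth of `[Sg : Sg ∩ Gal(ℚ̄/ℚ(μ_{p^m}))]` for every subgroup
`Sg` containing the image of a local group — e.g. `Sg = ` stabiliser (decomposition group) of a place
above ANY prime `q` (in `S` or off `S`), with NO decomposition-group dictionary.

`P ≤ G_ℚ` of finite index with `χ_p|P = 1`, `q` a prime, `t ∈ G_ℚ`, `D = conjSub ι_q P t`
(`= KSite.Dloc P q t`), `κ_t d = t ι_q(d) t⁻¹`.  For `k + lossAt p q + v_p([Γ_q : D]) ≤ m`: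

* `pow_dvd_relIndex_fixRoots`   : `Sg ≤ G_ℚ`, `κ_t(D) ⊆ Sg` ⟹ `p^k ∣ (fixRoots (p^m)).relIndex Sg`;
* `pow_dvd_relIndex_subgroupOf` : `Sg' ≤ ↥P`, `conjHom ι_q P t d ∈ Sg'` for all `d` ⟹
                                   `p^k ∣ ((fixRoots (p^m)).subgroupOf P).relIndex Sg'`
                                   `= (((fixRoots (p^m)).subgroupOf P).subgroupOf Sg').index`.
-/
import Fermat.Agent.S55.Middle.CycloGrowIndex

set_option autoImplicit false
set_option linter.style.haveILetI false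
set_option linter.unusedSectionVars false

namespace Fermat.Agent.S55.Middle.CycloGrowStab

open Fermat.Agent.S55.Bridge.LocalGlobal Fermat.Agent.S55.Middle.CycloGrow
  Fermat.Agent.S55.Middle.CycloGrowIndex Fermat.Agent.S55.Bridge.Mackey ExtCitation

local notation "Qbar" => AlgebraicClosure ℚ
local notation "GQ" => (AlgebraicClosure ℚ ≃ₐ[ℚ] AlgebraicClosure ℚ)

local instance isAlgebraicQbar_cgs : Algebra.IsAlgebraic ℚ (AlgebraicClosure ℚ) :=
  AlgebraicClosure.isAlgebraic ℚ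

/-- abstract: `φ(D)` inside a group of order `p^r`, `D` of finite index, `p^s ∣ #φ(Γ)` ⟹
`p^(s - v_p([Γ:D])) ∣ #φ(D)`. -/
theorem pow_dvd_card_map {Γ A : Type*} [Group Γ] [Group A] (p : ℕ) [hp : Fact p.Prime]
    (φ : Γ →* A) {D : Subgroup Γ} (U : Subgroup A) {r : ℕ} (hU : Nat.card U = p ^ r)
    (hDU : D.map φ ≤ U) (hD : D.index ≠ 0) {s : ℕ} (hs : p ^ s ∣ Nat.card φ.range) :
    p ^ (s - padicValNat p D.index) ∣ Nat.card (D.map φ) := by
  have hp' := hp.out
  have h1 : Nat.card (D.map φ) ∣ p ^ r := by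
    rw [← hU]
    exact Subgroup.card_dvd_of_le hDU
  obtain ⟨j, -, hj⟩ := (Nat.dvd_prime_pow hp').1 h1
  rw [hj]
  apply pow_dvd_pow
  have h2 : p ^ s ∣ p ^ j * D.index := by
    rw [← hj]; exact dvd_trans hs (card_range_dvd_card_map_mul_index φ D)
  have h3 : s ≤ padicValNat p (p ^ j * D.index) :=
    (padicValNat_dvd_iff_le (mul_ne_zero (pow_ne_zero _ hp'.ne_zero) hD)).1 h2
  rw [padicValNat.mul (pow_ne_zero _ hp'.ne_zero) hD, padicValNat.prime_pow] at h3
  omega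

variable (p : ℕ) [hp : Fact p.Prime]

/-- **Growth for every subgroup containing the image of the local group.** -/
theorem pow_dvd_relIndex_fixRoots (hodd : Odd p) (q : Nat.Primes) (P : Subgroup GQ)
    (hPfin : P.index ≠ 0) (hPχ : ∀ g ∈ P, cycloChar p g = 1) (t : GQ) (k m : ℕ)
    (hm : k + lossAt p q + padicValNat p (conjSub (primeLocalToGlobal q) P t).index ≤ m)
    (Sg : Subgroup GQ)
    (hSg : ∀ d ∈ conjSub (primeLocalToGlobal q) P t, t * primeLocalToGlobal q d * t⁻¹ ∈ Sg) :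
    p ^ k ∣ (fixRoots (p ^ m)).relIndex Sg := by
  have hp' := hp.out
  haveI hqF : Fact ((q : ℕ).Prime) := ⟨q.2⟩
  rcases Nat.eq_zero_or_pos m with rfl | hm0
  · have : k = 0 := by omega
    subst this
    simp
  haveI : NeZero (p ^ m) := ⟨pow_ne_zero _ hp'.ne_zero⟩
  haveI : NeZero ((p ^ m : ℕ) : Qbar) := ⟨by exact_mod_cast (NeZero.ne (p ^ m))⟩
  obtain ⟨ζ, hζ⟩ := HasEnoughRootsOfUnity.exists_primitiveRoot Qbar (p ^ m)
  set f := primeLocalToGlobal q with hf
  set χ := hζ.autToPow ℚ with hχ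
  set κ := conjMap f t with hκ
  set φ := χ.comp κ with hφ
  have hφf : φ = χ.comp (localGaloisToGlobal (q : ℕ)) := by
    ext d
    change ((χ (t * f d * t⁻¹) : (ZMod (p ^ m))ˣ) : ZMod (p ^ m)) = _
    rw [map_mul, map_mul, map_inv, mul_comm (χ t), mul_inv_cancel_right]
    rfl
  have hDU : (conjSub f P t).map φ ≤
      (ZMod.unitsMap (dvd_pow_self p hm0.ne') : (ZMod (p ^ m))ˣ →* (ZMod p)ˣ).ker := by
    rintro _ ⟨d, hd, rfl⟩
    rw [hφ, MonoidHom.comp_apply, hχ]
    apply autToPow_mem_ker_unitsMap p hm0 hζ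
    apply apply_eq_of_cycloChar_eq_one p _ (hPχ _ hd)
    rw [← pow_mul, ← pow_succ, Nat.sub_add_cancel hm0]
    exact hζ.pow_eq_one
  have hidx : (conjSub f P t).index ≠ 0 := index_conjSub_ne_zero f P t hPfin
  have hs : p ^ (m - lossAt p q) ∣ Nat.card φ.range := by
    rw [hφf]
    exact pow_dvd_card_range_local (q := (q : ℕ)) p hodd hm0 hζ
  have key := pow_dvd_card_map p φ _ (card_ker_unitsMap p hm0) hDU hidx hs
  rw [fixRoots_eq_ker hζ, Subgroup.relIndex_ker]
  have hle : (conjSub f P t).map φ ≤ Sg.map χ := by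
    rintro _ ⟨d, hd, rfl⟩
    exact ⟨κ d, hSg d hd, rfl⟩
  exact dvd_trans (dvd_trans (pow_dvd_pow p (by omega)) key) (Subgroup.card_dvd_of_le hle)

/-- the same inside `↥P` (the shape of stabilisers for an action of `↥P`) -/
theorem pow_dvd_relIndex_subgroupOf (hodd : Odd p) (q : Nat.Primes) (P : Subgroup GQ)
    (hPfin : P.index ≠ 0) (hPχ : ∀ g ∈ P, cycloChar p g = 1) (t : GQ) (k m : ℕ)
    (hm : k + lossAt p q + padicValNat p (conjSub (primeLocalToGlobal q) P t).index ≤ m)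
    (Sg' : Subgroup ↥P)
    (hSg : ∀ d : ↥(conjSub (primeLocalToGlobal q) P t),
      conjHom (primeLocalToGlobal q) P t d ∈ Sg') :
    p ^ k ∣ ((fixRoots (p ^ m)).subgroupOf P).relIndex Sg' := by
  have h : ((fixRoots (p ^ m)).subgroupOf P).relIndex Sg' =
      (fixRoots (p ^ m)).relIndex (Sg'.map P.subtype) := by
    rw [Subgroup.subgroupOf, Subgroup.relIndex_comap]
  rw [h]
  refine pow_dvd_relIndex_fixRoots p hodd q P hPfin hPχ t k m hm _ ?_
  intro d hd
  exact ⟨conjHom (primeLocalToGlobal q) P t ⟨d, hd⟩, hSg ⟨d, hd⟩, rfl⟩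

/-- `index` form of `pow_dvd_relIndex_subgroupOf` -/
theorem pow_dvd_index_subgroupOf_subgroupOf (hodd : Odd p) (q : Nat.Primes) (P : Subgroup GQ)
    (hPfin : P.index ≠ 0) (hPχ : ∀ g ∈ P, cycloChar p g = 1) (t : GQ) (k m : ℕ)
    (hm : k + lossAt p q + padicValNat p (conjSub (primeLocalToGlobal q) P t).index ≤ m)
    (Sg' : Subgroup ↥P)
    (hSg : ∀ d : ↥(conjSub (primeLocalToGlobal q) P t),
      conjHom (primeLocalToGlobal q) P t d ∈ Sg') :
    p ^ k ∣ (((fixRoots (p ^ m)).subgroupOf P).subgroupOf Sg').index :=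
  pow_dvd_relIndex_subgroupOf p hodd q P hPfin hPχ t k m hm Sg' hSg

end Fermat.Agent.S55.Middle.CycloGrowStab
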