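/-
S55 / Middle / CycloGrowXoff (helper24): growth of the decomposition groups OFF `S` in the
cyclotomic tower, in the language of `CapDiv.Xoff S` (places `(q, A)` of `ℚ̄`, `q ∉ S`).

`P ≤ G_ℚ` open for the `S`-basis with `χ_p|P = 1`, acting on `Xoff S` through `G_ℚ`.  With
`N_m := (fixRoots (p^m)).subgroupOf P` (the level of `K(μ_{p^m})` in `↥P`):

* `exists_pow_dvd_relIndex_stabilizer` : for `x : Xoff S`, `k`: `∃ m₀, ∀ m ≥ m₀,
    p^k ∣ N_m.relIndex (stabilizer ↥P x)`;
* `exists_level_finset` : for finitely many `x` and `k` there is ONE `m > 0` with `N_m ∈ basisP S P`,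
    `N_m.index ∣ p^(m-1)` (so `P/N_m` is a `p`-group) and
    `p^k ∣ (N_m.subgroupOf (stabilizer ↥P x)).index` for all `x` of the family
  (= leaf (B) GROWTH of helper60's (C5) plan).
-/
import Fermat.Agent.S55.Middle.CapDiv
import Fermat.Agent.S55.Middle.CapNorm
import Fermat.Agent.S55.Middle.CycloGrowStab
import Fermat.Agent.S55.Middle.CycloGrowLevel

set_option autoImplicit false
set_option linter.style.haveILetI false
set_option linter.unusedSectionVars false

open scoped Pointwise

namespace Fermat.Agent.S55.Middle.CycloGrowXoff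

open Fermat.Agent.S55.Formal Fermat.Agent.S55.Formal.PreludeLC
  Fermat.Agent.S55.Bridge.ShapiroLC Fermat.Agent.S55.Bridge.Mackey
  Fermat.Agent.S55.Middle.KSite Fermat.Agent.S55.Middle.CapDiv
  Fermat.Agent.S55.Middle.CycloGrowIndex Fermat.Agent.S55.Middle.CycloGrowStab
  Fermat.Agent.S55.Middle.CycloGrowLevel ExtCitation

local notation "Qbar" => AlgebraicClosure ℚ
local notation "GQ" => (AlgebraicClosure ℚ ≃ₐ[ℚ] AlgebraicClosure ℚ)

variable (p : ℕ) [hp : Fact p.Prime] {S : Finset Nat.Primes}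

/-- every place off `S` is a translate of the standard place over its prime -/
theorem exists_ring_eq_smul (x : Xoff S) :
    ∃ t : GQ, x.ring = t • primeLocalPlace x.prime := by
  haveI : Fact ((x.prime : ℕ).Prime) := ⟨x.prime.2⟩
  exact Fermat.Agent.S55.Middle.CapNorm.exists_smul_padicPlace_eq (x.prime : ℕ) x.liesOver

/-- the image of the local group at `(q, t)` stabilises the place `t • (standard place over q)` -/
theorem conj_smul_eq (q : Nat.Primes) (t : GQ) (d : primeLocalGaloisGroup q) :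
    (t * primeLocalToGlobal q d * t⁻¹) • (t • primeLocalPlace q) = t • primeLocalPlace q := by
  haveI : Fact ((q : ℕ).Prime) := ⟨q.2⟩
  have h : primeLocalToGlobal q d • primeLocalPlace q = primeLocalPlace q :=
    MulAction.mem_stabilizer_iff.1 (localGaloisToGlobal_mem_decompositionSubgroup (q : ℕ) d)
  rw [← mul_smul, inv_mul_cancel_right, mul_smul, h]

theorem exists_pow_dvd_relIndex_stabilizer (hodd : Odd p) {P : Subgroup GQ}
    (hP : IsOpenS S P) (hPχ : ∀ g ∈ P, cycloChar p g = 1) (x : Xoff S) (k : ℕ) :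
    ∃ m₀ : ℕ, ∀ m, m₀ ≤ m →
      p ^ k ∣ ((fixRoots (p ^ m)).subgroupOf P).relIndex (MulAction.stabilizer ↥P x) := by
  haveI := finiteIndex_of_isOpenS hP
  have hPfin : P.index ≠ 0 := Subgroup.FiniteIndex.index_ne_zero
  obtain ⟨t, ht⟩ := exists_ring_eq_smul x
  refine ⟨k + lossAt p x.prime +
    padicValNat p (conjSub (primeLocalToGlobal x.prime) P t).index, fun m hm => ?_⟩
  refine pow_dvd_relIndex_subgroupOf p hodd x.prime P hPfin hPχ t k m hm _ ?_
  intro d
  rw [MulAction.mem_stabilizer_iff]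
  refine Xoff.ext (y := conjHom (primeLocalToGlobal x.prime) P t d • x) (z := x) rfl ?_
  change ((conjHom (primeLocalToGlobal x.prime) P t d : ↥P) : GQ) • x.ring = x.ring
  rw [coe_conjHom, ht]
  exact conj_smul_eq x.prime t d

/-- **Leaf (B) GROWTH**: one cyclotomic level for finitely many places off `S`. -/
theorem exists_level_finset (hodd : Odd p) (hpS : pPrime p ∈ S) {P : Subgroup GQ}
    (hP : IsOpenS S P) (hPχ : ∀ g ∈ P, cycloChar p g = 1) (xs : Finset (Xoff S)) (k : ℕ) :
    ∃ m : ℕ, 0 < m ∧ (basisP S P).mem ((fixRoots (p ^ m)).subgroupOf P) ∧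
      ((fixRoots (p ^ m)).subgroupOf P).index ∣ p ^ (m - 1) ∧
      ∀ x ∈ xs, p ^ k ∣
        (((fixRoots (p ^ m)).subgroupOf P).subgroupOf (MulAction.stabilizer ↥P x)).index := by
  classical
  choose m₀ hm₀ using fun x : Xoff S => exists_pow_dvd_relIndex_stabilizer p hodd hP hPχ x k
  refine ⟨xs.sup m₀ + 1, Nat.succ_pos _, cycloLevel_mem_basisP p hpS P _,
    index_cycloLevel_dvd p P hPχ (Nat.succ_pos _), fun x hx => ?_⟩
  exact hm₀ x _ (le_trans (Finset.le_sup (f := m₀) hx) (Nat.le_succ _))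

end Fermat.Agent.S55.Middle.CycloGrowXoff
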