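/-
S55 / Middle (helper63): LEVEL DESCENT in degree 2 and injectivity of inflation into `H²_LC`.

`G` a group with basis `𝒰`, `M : Rep k G`, `V ≤ G` normal.  If `H¹` of the subgroup `V` with values
in `M` vanishes (explicit LC form `H1SubVanish 𝒰 M V`), then an LC `2`-cochain `c` of level `V` which
is the coboundary of an LC `1`-cochain is the coboundary of a `1`-cochain OF LEVEL `V`
(`level_descent`; inflation–restriction, cocycle form, no quotient groups).

Instances of `H1SubVanish`: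
* `h1SubVanish_div`     : `M = Div 𝒰 X` (any `G`-set `X`, any subgroup `V`);
* `h1SubVanish_trivial` : `M = ℤ` with trivial action.

Corollaries: `Dict.inflH2 𝒰 M hV` is injective under `H1SubVanish 𝒰 M V`
(`inflH2_injective`), in particular for `Div` and for trivial `ℤ` coefficients
(`inflH2_div_injective`, `inflH2_trivial_injective`).
-/
import Mathlib
import Fermat.Agent.S55.Middle.DivDef
import Fermat.Agent.S55.Middle.Dict
import Fermat.Agent.S55.Middle.Perm

set_option autoImplicit false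

open CategoryTheory groupCohomology

namespace Fermat.Agent.S55.Middle.DivInfl

open Fermat.Agent.S55.Formal
open Fermat.Agent.S55.Middle.DivDef
open Fermat.Agent.S55.Middle.Dict
open Fermat.Agent.S55.Middle.Perm (rep tau tau_smul rep_smul inv_tau_smul_rep
  finite_range_of_invariant)

section Generic

variable {k : Type} [CommRing k] {G : Type} [Group G] (𝒰 : NBasis G) (M : Rep.{0, 0, 0} k G)

/-- `H¹(V; M) = 0` in explicit LC form: every `1`-cocycle `V → M` which is right-invariant under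
a basic subgroup `W ≤ V` is a coboundary. -/
def H1SubVanish (V : Subgroup G) : Prop :=
  ∀ γ : V → M, (∀ a b : V, γ (a * b) = M.ρ (a : G) (γ b) + γ a) →
    (∃ W, 𝒰.mem W ∧ W ≤ V ∧ ∀ a s : V, (s : G) ∈ W → γ (a * s) = γ a) →
    ∃ m : M, ∀ a : V, γ a = M.ρ (a : G) m - m

variable {𝒰 M}

/-- **Level descent** (inflation–restriction in degree 2, cocycle form). -/
theorem level_descent {V : Subgroup G} (hV : 𝒰.mem V) (h1 : H1SubVanish 𝒰 M V)
    {c : G × G → M} (hc : IsLevel₂ M V c) {β : G → M} (hβ : β ∈ C₁ 𝒰 M)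
    (hd : (d₁₂ M).hom β = c) :
    ∃ β' : G → M, IsLevel₁ M V β' ∧ (d₁₂ M).hom β' = c := by
  have hVn : V.Normal := 𝒰.normal hV
  obtain ⟨W₀, hW₀, hβW₀⟩ := hβ
  obtain ⟨W, hW, hWle⟩ := 𝒰.inf hW₀ hV
  have hβW : ∀ s ∈ W, ∀ g, β (g * s) = β g := fun s hs g => (hβW₀ s (hWle hs).1 g).1
  have hWV : W ≤ V := fun s hs => (hWle hs).2
  -- pointwise form of `d β = c`
  have hdc : ∀ g h, M.ρ g (β h) - β (g * h) + β g = c (g, h) := fun g h => by
    have := congrFun hd (g, h)
    rwa [d₁₂_hom_apply] at this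
  set m₀ : M := β 1 with hm₀
  have hc11 : c (1, 1) = m₀ := by
    have := hdc 1 1
    simp only [mul_one, map_one, Module.End.one_apply, sub_self, zero_add] at this
    exact this.symm
  have hm₀fix : ∀ s ∈ V, M.ρ s m₀ = m₀ := fun s hs => by
    rw [← hc11]; exact (hc s hs 1 1).2.2
  have hcV : ∀ n ∈ V, ∀ n' ∈ V, c (n, n') = m₀ := by
    intro n hn n' hn'
    have h1' := (hc n hn 1 n').1
    have h2' := (hc n' hn' 1 1).2.1
    rw [one_mul] at h1' h2'
    rw [h1', h2', hc11]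
  -- the cocycle `γ = β|_V - m₀`
  let γ : V → M := fun a => β (a : G) - m₀
  have hγcoc : ∀ a b : V, γ (a * b) = M.ρ (a : G) (γ b) + γ a := by
    intro a b
    have e := hdc (a : G) (b : G)
    rw [hcV _ a.2 _ b.2] at e
    show β ((a : G) * (b : G)) - m₀ = M.ρ (a : G) (β (b : G) - m₀) + (β (a : G) - m₀)
    rw [map_sub, hm₀fix _ a.2]
    have e' : β ((a : G) * (b : G)) = M.ρ (a : G) (β (b : G)) + β (a : G) - m₀ := by
      rw [← e]; abel
    rw [e']; abel
  have hγlev : ∃ W', 𝒰.mem W' ∧ W' ≤ V ∧ ∀ a s : V, (s : G) ∈ W' → γ (a * s) = γ a :=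
    ⟨W, hW, hWV, fun a s hs => by
      show β ((a : G) * (s : G)) - m₀ = β (a : G) - m₀
      rw [hβW _ hs]⟩
  obtain ⟨m, hm⟩ := h1 γ hγcoc hγlev
  -- the corrected primitive
  let β' : G → M := fun g => β g - (M.ρ g m - m)
  have hβ'V : ∀ n ∈ V, β' n = m₀ := by
    intro n hn
    have := hm ⟨n, hn⟩
    show β n - (M.ρ n m - m) = m₀
    have e : β n - m₀ = M.ρ n m - m := this
    rw [← e]; abel
  have hdβ' : ∀ g h, M.ρ g (β' h) - β' (g * h) + β' g = c (g, h) := by
    intro g h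
    rw [← hdc g h]
    show M.ρ g (β h - (M.ρ h m - m)) - (β (g * h) - (M.ρ (g * h) m - m)) + (β g - (M.ρ g m - m))
      = _
    simp only [map_sub, map_mul, Module.End.mul_apply]
    abel
  have hright : ∀ n ∈ V, ∀ g, β' (g * n) = β' g := by
    intro n hn g
    have e1 := hdβ' g n
    have e2 := hdβ' g 1
    have e3 : c (g, n) = c (g, 1) := by
      have := (hc n hn g 1).2.1
      rw [one_mul] at this
      exact this
    rw [hβ'V n hn, e3, ← e2, hβ'V 1 V.one_mem, mul_one] at e1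
    have : β' (g * n) = β' g := by
      have h3 : M.ρ g m₀ - β' (g * n) + β' g = M.ρ g m₀ - β' g + β' g := e1
      exact sub_right_injective (add_right_cancel h3)
    exact this
  have hfix : ∀ n ∈ V, ∀ g, M.ρ n (β' g) = β' g := by
    intro n hn g
    have e1 := hdβ' n g
    have e2 := hdβ' 1 g
    have e3 : c (n, g) = c (1, g) := by
      have := (hc n hn 1 g).1
      rw [one_mul] at this
      exact this
    have hconj : g⁻¹ * n * g ∈ V := by
      have := hVn.conj_mem n hn g⁻¹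
      rwa [inv_inv] at this
    have e4 : β' (n * g) = β' g := by
      have : n * g = g * (g⁻¹ * n * g) := by group
      rw [this, hright _ hconj]
    rw [e3, ← e2, hβ'V n hn, hβ'V 1 V.one_mem, e4, one_mul, map_one, Module.End.one_apply] at e1
    have h3 : M.ρ n (β' g) - β' g + m₀ = β' g - β' g + m₀ := e1
    exact sub_left_injective (add_right_cancel h3)
  refine ⟨β', fun s hs g => ⟨hright s hs g, hfix s hs g⟩, ?_⟩
  funext ⟨g, h⟩
  rw [d₁₂_hom_apply]
  exact hdβ' g h

/-- **Inflation into `H²_LC` is injective** when `H¹(V; M) = 0`. -/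
theorem inflH2_injective {V : Subgroup G} [V.Normal] (hV : 𝒰.mem V) (h1 : H1SubVanish 𝒰 M V) :
    Function.Injective (inflH2 𝒰 M hV) := by
  rw [← LinearMap.ker_eq_bot, LinearMap.ker_eq_bot']
  intro y hy
  obtain ⟨x, rfl⟩ := H2π_surjective (Inv M V) y
  erw [inflH2_π] at hy
  have hx : dC₂ 𝒰 M (lc₂ 𝒰 M hV x.1) = 0 := by
    have hx' : (d₂₃ (Inv M V)).hom x.1 = 0 := x.2
    rw [dC₂_lc₂, hx', map_zero]
  rw [cl₂_eq_of 𝒰 M hV x hx, Hmid.of_eq_zero_iff] at hy
  obtain ⟨β, hβ⟩ := hy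
  have hd : (d₁₂ M).hom (β : G → M) = infl₂ M V x.1 := congrArg Subtype.val hβ
  obtain ⟨β', hβ'lev, hβ'd⟩ := level_descent hV h1 (isLevel₂_infl₂ M V x.1) β.2 hd
  refine (H2π_eq_zero_iff x).mpr ⟨desc₁ hβ'lev, ?_⟩
  apply infl₂_injective M V
  rw [infl₂_d₁₂, infl₁_desc₁, hβ'd]
  rfl

end Generic

section Trivial

variable {G : Type} [Group G] (𝒰 : NBasis G)

/-- `Hom_LC(V, ℤ) = 0`. -/
theorem h1SubVanish_trivial (V : Subgroup G) :
    H1SubVanish 𝒰 (Rep.trivial ℤ G ℤ) V := by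
  intro γ hcoc ⟨W, hW, hWV, hlev⟩
  have hcoc' : ∀ a b : V, γ (a * b) = γ b + γ a := fun a b => hcoc a b
  have hone : γ 1 = 0 := by
    have := hcoc' 1 1
    rw [mul_one] at this
    linarith
  have hγW : ∀ s : V, (s : G) ∈ W → γ s = 0 := by
    intro s hs
    have := hlev 1 s hs
    rw [one_mul] at this
    rw [this, hone]
  have hpow : ∀ (a : V) (n : ℕ), γ (a ^ n) = n * γ a := by
    intro a n
    induction n with
    | zero => simp [hone]
    | succ n ih =>
      rw [pow_succ, hcoc', ih]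
      push_cast
      ring
  have := 𝒰.normal hW
  have hfi := 𝒰.finiteIndex hW
  refine ⟨0, fun a => ?_⟩
  have hmem : ((a ^ W.index : V) : G) ∈ W := by
    rw [Subgroup.coe_pow]
    exact W.pow_index_mem _
  have h0 := hγW _ hmem
  rw [hpow] at h0
  have hne : (W.index : ℤ) ≠ 0 := by exact_mod_cast hfi.index_ne_zero
  have : γ a = 0 := (mul_eq_zero.mp h0).resolve_left hne
  rw [this]
  simp

theorem inflH2_trivial_injective {V : Subgroup G} [V.Normal] (hV : 𝒰.mem V) :
    Function.Injective (inflH2 𝒰 (Rep.trivial ℤ G ℤ) hV) :=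
  inflH2_injective hV (h1SubVanish_trivial 𝒰 V)

end Trivial

section DivInst

variable {G : Type} [Group G] (𝒰 : NBasis G) (X : Type) [MulAction G X]

/-- **`H¹(H; Div) = 0` for every subgroup `H`** (explicit LC form). -/
theorem h1SubVanish_div (H : Subgroup G) : H1SubVanish 𝒰 (Div 𝒰 X) H := by
  classical
  intro γ hcoc ⟨W, hW, hWH, hlev⟩
  have hWn := 𝒰.normal hW
  have hWfi := 𝒰.finiteIndex hW
  -- pointwise cocycle relation
  have coc_pt : ∀ (a b : H) (x : X),
      toFun 𝒰 X (γ (a * b)) x = toFun 𝒰 X (γ b) ((a : G)⁻¹ • x) + toFun 𝒰 X (γ a) x := by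
    intro a b x
    rw [hcoc a b, toFun_add, toFun_ρ]
  have hone : γ 1 = 0 := by
    ext x
    have := coc_pt 1 1 x
    simp only [mul_one, Subgroup.coe_one, inv_one, one_smul] at this
    rw [toFun_zero]
    linarith
  have hγW : ∀ s : H, (s : G) ∈ W → γ s = 0 := by
    intro s hs
    have := hlev 1 s hs
    rw [one_mul] at this
    rw [this, hone]
  -- stabilisers
  have hstab : ∀ (x₀ : X) (s : H), (s : G) • x₀ = x₀ → toFun 𝒰 X (γ s) x₀ = 0 := by
    intro x₀ s hs
    have hs' : (s : G)⁻¹ • x₀ = x₀ := by rw [inv_smul_eq_iff, hs]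
    have hpow : ∀ n : ℕ, toFun 𝒰 X (γ (s ^ n)) x₀ = n * toFun 𝒰 X (γ s) x₀ := by
      intro n
      induction n with
      | zero => simp [hone]
      | succ n ih =>
        rw [pow_succ', coc_pt s (s ^ n) x₀, hs', ih]
        push_cast
        ring
    have hmem : ((s ^ W.index : H) : G) ∈ W := by
      rw [Subgroup.coe_pow]
      exact W.pow_index_mem _
    have h0 := hpow W.index
    rw [hγW _ hmem, toFun_zero] at h0
    have hne : (W.index : ℤ) ≠ 0 := by exact_mod_cast hWfi.index_ne_zero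
    exact (mul_eq_zero.mp h0.symm).resolve_left hne
  have hwell : ∀ (x₀ : X) (h h' : H), (h : G) • x₀ = (h' : G) • x₀ →
      toFun 𝒰 X (γ h') ((h : G) • x₀) = toFun 𝒰 X (γ h) ((h : G) • x₀) := by
    intro x₀ h h' hh
    have hs : ((h⁻¹ * h' : H) : G) • x₀ = x₀ := by
      rw [Subgroup.coe_mul, Subgroup.coe_inv, mul_smul, ← hh, inv_smul_smul]
    have e : h' = h * (h⁻¹ * h') := by group
    rw [e, coc_pt h (h⁻¹ * h') ((h : G) • x₀), inv_smul_smul, hstab x₀ _ hs, zero_add]
  -- orbit representatives for the action of `H`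
  let pick : X → H := fun x => (tau ↥H x)⁻¹
  have pick_spec : ∀ x, ((pick x : H) : G) • rep ↥H x = x := fun x => inv_tau_smul_rep (G := ↥H) x
  let m0 : X → ℤ := fun x => - toFun 𝒰 X (γ (pick x)) x
  have m0_eq : ∀ (h : H) (x : X), (h : G) • rep ↥H x = x → m0 x = - toFun 𝒰 X (γ h) x := by
    intro h x hx
    show - toFun 𝒰 X (γ (pick x)) x = - toFun 𝒰 X (γ h) x
    have hh : (h : G) • rep ↥H x = ((pick x : H) : G) • rep ↥H x := by rw [hx, pick_spec]
    have := hwell (rep ↥H x) h (pick x) hh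
    rw [hx] at this
    rw [this]
  have htriv : ∀ (g : H) (x : X), m0 ((g : G)⁻¹ • x) - m0 x = toFun 𝒰 X (γ g) x := by
    intro g x
    have hrep : rep ↥H ((g : G)⁻¹ • x) = rep ↥H x := rep_smul (G := ↥H) g⁻¹ x
    have h1 : ((g⁻¹ * pick x : H) : G) • rep ↥H ((g : G)⁻¹ • x) = (g : G)⁻¹ • x := by
      rw [hrep, Subgroup.coe_mul, Subgroup.coe_inv, mul_smul, pick_spec]
    rw [m0_eq _ _ h1, m0_eq _ _ (pick_spec x)]
    have h2 := coc_pt g (g⁻¹ * pick x) x
    rw [mul_inv_cancel_left] at h2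
    linarith
  have hinv : ∀ u ∈ W, ∀ x, m0 (u • x) = m0 x := by
    intro u hu x
    have := htriv ⟨u⁻¹, hWH (W.inv_mem hu)⟩ x
    simp only [inv_inv] at this
    rw [hγW _ (W.inv_mem hu), toFun_zero] at this
    linarith
  -- support
  have hWHfi : (W.subgroupOf H).FiniteIndex := inferInstance
  have hfin : (Set.range γ).Finite :=
    finite_range_of_invariant (G := ↥H) (N := W.subgroupOf H) γ
      (fun a s hs => hlev a s (Subgroup.mem_subgroupOf.mp hs))
  have hF : ∀ d : Div 𝒰 X, ∃ F : Finset X, ∀ x, toFun 𝒰 X d x ≠ 0 →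
      ∃ g : G, ∃ y ∈ F, x = g • y := fun d => (isDiv_toFun 𝒰 X d).2
  choose F hFs using hF
  have hm0 : IsDiv 𝒰 X m0 := by
    refine ⟨⟨W, hW, hinv⟩, ⟨hfin.toFinset.biUnion F, fun x hx => ?_⟩⟩
    have hne : toFun 𝒰 X (γ (pick x)) x ≠ 0 := by
      intro h0
      apply hx
      show - toFun 𝒰 X (γ (pick x)) x = 0
      rw [h0, neg_zero]
    obtain ⟨g, y, hy, rfl⟩ := hFs _ _ hne
    refine ⟨g, y, ?_, rfl⟩
    rw [Finset.mem_biUnion]
    exact ⟨γ (pick (g • y)), by simp, hy⟩
  refine ⟨mkDiv 𝒰 X m0 hm0, fun a => ?_⟩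
  ext x
  rw [toFun_sub, toFun_ρ, toFun_mkDiv]
  exact (htriv a x).symm

/-- **Inflation `H²(G ⧸ V, Div^V) → H²_LC(G; Div)` is injective.** -/
theorem inflH2_div_injective {V : Subgroup G} [V.Normal] (hV : 𝒰.mem V) :
    Function.Injective (inflH2 𝒰 (Div 𝒰 X) hV) :=
  inflH2_injective hV (h1SubVanish_div 𝒰 X V)

end DivInst

end Fermat.Agent.S55.Middle.DivInfl
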