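/-
S55 / Middle / LCInfRes (helper37): GENERIC inflation–restriction in degree `2` for level-constant
cohomology (`Formal/LC.lean`), in the language of the level dictionary `Middle/Dict.lean`.

`G` a group with basis `𝒰`, `M : Rep k G`, `N ∈ 𝒰` (an open normal subgroup).  The subgroup `N` is
given through a MODEL `(N', 𝒱, j)`: a group `N'` with a basis `𝒱` and a homomorphism `j : N' →* G`
with image `N`, continuous (`hcont`) and such that `𝒱` is not finer than the basis induced by `𝒰`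
(`hcoarse`).  Examples: `N' = ↥N`, `j = N.subtype`, `𝒱 = subBasis 𝒰 N` or `Defs.NBasis.sub 𝒰 N`;
or, for `G = ↥P`, `P' ≤ P ≤ G_ℚ`: `N' = ↥P'`, `j = Subgroup.inclusion`.

**Theorem** (`exists_cl₂_of_res_eq_zero`).  If `H¹_LC(N'; M) = 0` and `z ∈ H²_LC(G; M)` restricts to
`0` in `H²_LC(N'; M)`, then `z` is the class of a finite-level cocycle of `G ⧸ N` with values in
`M^N`:  `z = Dict.cl₂ 𝒰 M hN y`.

Proof: pass to a deep finite level `V ≤ N` and apply the cocycle form of inflation–restriction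
for abstract groups (`Coh/InfRes2.exists_infl_cohomologous`, helper60) to `(G ⧸ V, N ⧸ V, M^V)`.
-/
import Mathlib
import Fermat.Agent.S55.Middle.Dict
import Fermat.Agent.S55.Coh.InfRes2
import Fermat.Agent.S55.Formal.LCLevelInj

set_option autoImplicit false
set_option linter.unusedSectionVars false
set_option linter.unusedVariables false

open CategoryTheory groupCohomology

namespace Fermat.Agent.S55.Middle.LCInfRes

open Fermat.Agent.S55.Formal Fermat.Agent.S55.Middle.Dict Fermat.Agent.S55.Formal.LCLevelInj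
open Fermat.Agent.S55.Coh.InfRes2

variable {k : Type} [CommRing k] {G : Type} [Group G] {N' : Type} [Group N']
variable (𝒰 : NBasis G) (M : Rep.{0, 0, 0} k G) {N : Subgroup G} [N.Normal]
variable (𝒱 : NBasis N') (j : N' →* G)

/-- `H¹(N ⧸ V, M^V) = 0` at every finite level `V ≤ N`, from `H¹_LC(N'; M) = 0`. -/
theorem h1Vanishes_level (hj : ∀ g, g ∈ N ↔ ∃ n, j n = g) (hcont : IsCont 𝒰 𝒱 j)
    (h1 : ∀ f : ↥(C₁ 𝒱 (Rep.res j M)), dC₁ 𝒱 (Rep.res j M) f = 0 →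
      ∃ m : ↥(C₀ 𝒱 (Rep.res j M)), dC₀ 𝒱 (Rep.res j M) m = f)
    {V : Subgroup G} [V.Normal] (hV : 𝒰.mem V) (hVN : V ≤ N) :
    H1Vanishes (Inv M V) (relSub N V) := by
  intro χ hχ
  -- `χ 1 = 0`
  have hχ1 : χ 1 = 0 := by
    have := hχ 1 1
    rw [mul_one, OneMemClass.coe_one, map_one, Module.End.one_apply] at this
    exact left_eq_add.mp this |>.symm ▸ rfl
  -- the inflated cocycle on `N'`
  have hmem : ∀ n : N', ((j n : G) : G ⧸ V) ∈ relSub N V := fun n =>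
    mk_mem_relSub N V ((hj _).2 ⟨n, rfl⟩)
  let F : N' → M := fun n => ((χ ⟨((j n : G) : G ⧸ V), hmem n⟩ : Inv M V) : M)
  obtain ⟨W, hW, hWV⟩ := hcont V hV
  have hmk : ∀ (n s : N'), s ∈ W → (⟨((j (n * s) : G) : G ⧸ V), hmem (n * s)⟩ : relSub N V) =
      ⟨((j n : G) : G ⧸ V), hmem n⟩ := by
    intro n s hs
    apply Subtype.ext
    show ((j (n * s) : G) : G ⧸ V) = ((j n : G) : G ⧸ V)
    rw [map_mul, QuotientGroup.mk_mul, (QuotientGroup.eq_one_iff (j s)).mpr (hWV s hs), mul_one]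
  have hF : F ∈ C₁ 𝒱 (Rep.res j M) := by
    refine ⟨W, hW, fun s hs n => ⟨?_, ?_⟩⟩
    · show ((χ ⟨((j (n * s) : G) : G ⧸ V), hmem (n * s)⟩ : Inv M V) : M) = _
      rw [hmk n s hs]
    · exact inv_fixed M V _ (hWV s hs)
  have hdF : dC₁ 𝒱 (Rep.res j M) ⟨F, hF⟩ = 0 := by
    apply Subtype.ext
    funext ⟨n₁, n₂⟩
    show (d₁₂ (Rep.res j M)).hom F (n₁, n₂) = 0
    rw [d₁₂_hom_apply]
    have h := hχ ⟨((j n₁ : G) : G ⧸ V), hmem n₁⟩ ⟨((j n₂ : G) : G ⧸ V), hmem n₂⟩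
    have hmul : (⟨((j n₁ : G) : G ⧸ V), hmem n₁⟩ * ⟨((j n₂ : G) : G ⧸ V), hmem n₂⟩ : relSub N V) =
        ⟨((j (n₁ * n₂) : G) : G ⧸ V), hmem (n₁ * n₂)⟩ := by
      apply Subtype.ext
      show ((j n₁ : G) : G ⧸ V) * ((j n₂ : G) : G ⧸ V) = ((j (n₁ * n₂) : G) : G ⧸ V)
      rw [map_mul, QuotientGroup.mk_mul]
    rw [hmul] at h
    have h' := congrArg (fun a : Inv M V => (a : M)) h
    simp only at h'
    show M.ρ (j n₁) (F n₂) - F (n₁ * n₂) + F n₁ = 0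
    show M.ρ (j n₁) (F n₂) - ((χ ⟨((j (n₁ * n₂) : G) : G ⧸ V), hmem (n₁ * n₂)⟩ : Inv M V) : M) +
      F n₁ = 0
    rw [h']
    show M.ρ (j n₁) (F n₂) - (M.ρ (j n₁) (F n₂) + F n₁) + F n₁ = 0
    abel
  obtain ⟨m, hm⟩ := h1 ⟨F, hF⟩ hdF
  have hm' : ∀ n : N', M.ρ (j n) (m : M) - (m : M) = F n := fun n => by
    have := congrArg (fun f : ↥(C₁ 𝒱 (Rep.res j M)) => (f : N' → M) n) hm
    exact this
  -- `m` is `V`-fixed
  have hfix : ∀ s ∈ V, M.ρ s (m : M) = (m : M) := by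
    intro s hs
    obtain ⟨n, rfl⟩ := (hj s).1 (hVN hs)
    have h0 : F n = 0 := by
      have e : (⟨((j n : G) : G ⧸ V), hmem n⟩ : relSub N V) = 1 := by
        apply Subtype.ext
        exact (QuotientGroup.eq_one_iff (j n)).mpr hs
      show ((χ ⟨((j n : G) : G ⧸ V), hmem n⟩ : Inv M V) : M) = 0
      rw [e, hχ1]
      rfl
    have := hm' n
    rw [h0] at this
    exact sub_eq_zero.mp this
  refine ⟨toInv M V (m : M) hfix, fun u => ?_⟩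
  obtain ⟨g, hg, hgu⟩ := u.2
  obtain ⟨n, rfl⟩ := (hj g).1 hg
  have e : u = ⟨((j n : G) : G ⧸ V), hmem n⟩ := Subtype.ext hgu.symm
  rw [e]
  apply Subtype.ext
  exact (hm' n).symm

/-- **Inflation–restriction for LC cohomology, degree `2`.**  A class of `H²_LC(G; M)` whose
restriction to the open normal subgroup `N` vanishes comes from the finite level `N`, provided
`H¹_LC(N; M) = 0`. -/
theorem exists_cl₂_of_res_eq_zero (hN : 𝒰.mem N)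
    (hj : ∀ g, g ∈ N ↔ ∃ n, j n = g) (hcont : IsCont 𝒰 𝒱 j)
    (hcoarse : ∀ W, 𝒱.mem W → ∃ V, 𝒰.mem V ∧ ∀ n, j n ∈ V → n ∈ W)
    (h1 : ∀ f : ↥(C₁ 𝒱 (Rep.res j M)), dC₁ 𝒱 (Rep.res j M) f = 0 →
      ∃ m : ↥(C₀ 𝒱 (Rep.res j M)), dC₀ 𝒱 (Rep.res j M) m = f)
    (z : H2 𝒰 M) (hz : (Mor.res 𝒰 𝒱 j hcont M).h2 z = 0) :
    ∃ y : cocycles₂ (Inv M N), cl₂ 𝒰 M hN y = z := by
  obtain ⟨c, hc, rfl⟩ := Hmid.exists_of z
  set α := Mor.res 𝒰 𝒱 j hcont M with hα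
  have hc' : dC₂ 𝒱 (Rep.res j M) (α.c₂ c) = 0 := by
    have := LinearMap.congr_fun α.c₃_dC₂ c
    simp only [LinearMap.comp_apply] at this
    rw [← this, hc, map_zero]
  have hz' : (Hmid.of (α.c₂ c) hc' : H2 𝒱 (Rep.res j M)) = 0 := hz
  obtain ⟨b, hb⟩ := Hmid.of_eq_zero_iff.mp hz'
  -- a common deep level `V ≤ N`
  obtain ⟨W₀, hW₀, hbW⟩ := b.2
  obtain ⟨V₀, hV₀, hV₀W⟩ := hcoarse W₀ hW₀
  obtain ⟨Vc, hVc, hcV⟩ := c.2
  obtain ⟨V₁, hV₁, hle₁⟩ := 𝒰.inf hV₀ hVc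
  obtain ⟨V, hV, hle⟩ := 𝒰.inf hV₁ hN
  have hVnormal : V.Normal := 𝒰.normal hV
  have hVN : V ≤ N := fun s hs => (hle hs).2
  have hVV₀ : V ≤ V₀ := fun s hs => (hle₁ (hle hs).1).1
  have hVVc : V ≤ Vc := fun s hs => (hle₁ (hle hs).1).2
  have hlev : IsLevel₂ M V (c : G × G → M) := fun s hs => hcV s (hVVc hs)
  have hcz : (d₂₃ M).hom (c : G × G → M) = 0 := by
    have := congrArg Subtype.val hc
    rwa [dC₂_coe] at this
  have hcoc : (d₂₃ (Inv M V)).hom (desc₂ hlev) = 0 := by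
    apply infl₃_injective M V
    rw [infl₃_d₂₃, infl₂_desc₂, hcz, map_zero]
  let x : cocycles₂ (Inv M V) := ⟨desc₂ hlev, hcoc⟩
  have hxz : cl₂ 𝒰 M hV x = Hmid.of c hc := by
    show Hmid.mk _ _ _ = Hmid.mk _ _ _
    congr 1
    exact Subtype.ext (Subtype.ext (infl₂_desc₂ hlev))
  -- the finite-level `1`-cochain on `N ⧸ V`
  have hpre : ∀ s : relSub N V, ∃ n : N', ((j n : G) : G ⧸ V) = (s : G ⧸ V) := by
    intro s
    obtain ⟨g, hg, hgs⟩ := s.2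
    obtain ⟨n, rfl⟩ := (hj g).1 hg
    exact ⟨n, hgs⟩
  choose ν hν using hpre
  have hbfix : ∀ n : N', ∀ s ∈ V, M.ρ s ((b : N' → M) n) = (b : N' → M) n := by
    intro n s hs
    obtain ⟨n', rfl⟩ := (hj s).1 (hVN hs)
    exact (hbW n' (hV₀W n' (hVV₀ hs)) n).2
  let bbar : relSub N V → Inv M V := fun s => toInv M V ((b : N' → M) (ν s)) (hbfix (ν s))
  have hbwd : ∀ n n' : N', ((j n : G) : G ⧸ V) = ((j n' : G) : G ⧸ V) →
      (b : N' → M) n = (b : N' → M) n' := by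
    intro n n' h
    have h2 : j (n'⁻¹ * n) ∈ V := by
      rw [map_mul, map_inv]
      exact QuotientGroup.eq.mp h.symm
    have h3 := (hbW (n'⁻¹ * n) (hV₀W _ (hVV₀ h2)) n').1
    rw [← h3]
    group
  have hbc : ∀ n₁ n₂ : N', M.ρ (j n₁) ((b : N' → M) n₂) - (b : N' → M) (n₁ * n₂) +
      (b : N' → M) n₁ = (c : G × G → M) (j n₁, j n₂) := by
    intro n₁ n₂
    have := congrArg (fun f : ↥(C₂ 𝒱 (Rep.res j M)) => (f : N' × N' → M) (n₁, n₂)) hb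
    exact this
  have hb' : ∀ s t : relSub N V, x ((s : G ⧸ V), (t : G ⧸ V)) =
      (Inv M V).ρ (s : G ⧸ V) (bbar t) - bbar (s * t) + bbar s := by
    intro s t
    apply Subtype.ext
    have e1 : ((x ((s : G ⧸ V), (t : G ⧸ V)) : Inv M V) : M) =
        (c : G × G → M) (j (ν s), j (ν t)) := by
      have := congrFun (infl₂_desc₂ hlev) (j (ν s), j (ν t))
      rw [infl₂_apply, hν s, hν t] at this
      exact this
    have e2 : (b : N' → M) (ν (s * t)) = (b : N' → M) (ν s * ν t) := by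
      apply hbwd
      rw [hν (s * t), map_mul, QuotientGroup.mk_mul, hν s, hν t]
      rfl
    have e3 : (((Inv M V).ρ (s : G ⧸ V) (bbar t) : Inv M V) : M) =
        M.ρ (j (ν s)) ((b : N' → M) (ν t)) := by
      rw [← hν s]
      rfl
    show ((x ((s : G ⧸ V), (t : G ⧸ V)) : Inv M V) : M) =
      (((Inv M V).ρ (s : G ⧸ V) (bbar t) : Inv M V) : M) - (b : N' → M) (ν (s * t)) +
        (b : N' → M) (ν s)
    rw [e1, e2, e3, hbc]
  have hS : H1Vanishes (Inv M V) (relSub N V) := h1Vanishes_level 𝒰 M 𝒱 j hj hcont h1 hV hVN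
  obtain ⟨f, hf⟩ := exists_infl_cohomologous (Inv M V) (relSub N V) hS x bbar hb'
  obtain ⟨β, hβ⟩ := (H2π_eq_iff _ _).1 hf
  -- the cocycle of `G ⧸ N` with values in `M^N`
  let yf : (G ⧸ N) × (G ⧸ N) → Inv M N := fun q =>
    ⟨((f (θ N V q.1, θ N V q.2)).1).1, fun u => by
      have h2 := (f (θ N V q.1, θ N V q.2)).2
        ⟨(QuotientGroup.mk (u : G) : G ⧸ V), mk_mem_relSub N V u.2⟩
      exact congrArg Subtype.val h2⟩
  have hty : trans₂ M hVN yf = ⇑(infl (Inv M V) (relSub N V) f) := by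
    funext ⟨q, r⟩
    induction q using QuotientGroup.induction_on with
    | H g =>
      induction r using QuotientGroup.induction_on with
      | H g' =>
        apply Subtype.ext
        rfl
  have hyc : (d₂₃ (Inv M N)).hom yf = 0 := by
    apply trans₃_injective M hVN
    rw [trans₃_d₂₃, hty, map_zero]
    exact (infl (Inv M V) (relSub N V) f).2
  refine ⟨⟨yf, hyc⟩, ?_⟩
  rw [← hxz, ← cl₂_transZ₂ M hVN 𝒰 hN hV ⟨yf, hyc⟩]
  have e : transZ₂ M hVN ⟨yf, hyc⟩ = infl (Inv M V) (relSub N V) f := Subtype.ext hty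
  rw [e, ← sub_eq_zero, ← map_sub, cl₂_eq_zero_iff]
  refine ⟨V, inferInstance, hV, le_rfl, β, ?_⟩
  rw [trans₂_refl]
  exact hβ

/-- The same statement with Mathlib's `H²` of the finite level `G ⧸ N`. -/
theorem exists_inflH2_of_res_eq_zero (hN : 𝒰.mem N)
    (hj : ∀ g, g ∈ N ↔ ∃ n, j n = g) (hcont : IsCont 𝒰 𝒱 j)
    (hcoarse : ∀ W, 𝒱.mem W → ∃ V, 𝒰.mem V ∧ ∀ n, j n ∈ V → n ∈ W)
    (h1 : ∀ f : ↥(C₁ 𝒱 (Rep.res j M)), dC₁ 𝒱 (Rep.res j M) f = 0 →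
      ∃ m : ↥(C₀ 𝒱 (Rep.res j M)), dC₀ 𝒱 (Rep.res j M) m = f)
    (z : H2 𝒰 M) (hz : (Mor.res 𝒰 𝒱 j hcont M).h2 z = 0) :
    ∃ y : groupCohomology.H2 (Inv M N), inflH2 𝒰 M hN y = z := by
  obtain ⟨y, hy⟩ := exists_cl₂_of_res_eq_zero 𝒰 M 𝒱 j hN hj hcont hcoarse h1 z hz
  exact ⟨H2π (Inv M N) y, by rw [inflH2_π, hy]⟩

/-- Conversely, the restriction to `N` of a class coming from the finite level `N` vanishes. -/
theorem res_cl₂_eq_zero (hN : 𝒰.mem N) (hj : ∀ g, g ∈ N ↔ ∃ n, j n = g) (hcont : IsCont 𝒰 𝒱 j)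
    (y : cocycles₂ (Inv M N)) : (Mor.res 𝒰 𝒱 j hcont M).h2 (cl₂ 𝒰 M hN y) = 0 := by
  have hy : dC₂ 𝒰 M (lc₂ 𝒰 M hN y.1) = 0 := by
    have hx : (d₂₃ (Inv M N)).hom y.1 = 0 := y.2
    rw [dC₂_lc₂, hx, map_zero]
  rw [cl₂_eq_of 𝒰 M hN y hy]
  set α := Mor.res 𝒰 𝒱 j hcont M with hα
  have hc' : dC₂ 𝒱 (Rep.res j M) (α.c₂ (lc₂ 𝒰 M hN y.1)) = 0 := by
    have := LinearMap.congr_fun α.c₃_dC₂ (lc₂ 𝒰 M hN y.1)
    simp only [LinearMap.comp_apply] at this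
    rw [← this, hy, map_zero]
  show (Hmid.of (α.c₂ (lc₂ 𝒰 M hN y.1)) hc' : H2 𝒱 (Rep.res j M)) = 0
  rw [Hmid.of_eq_zero_iff]
  -- the restriction to `N` is the constant cocycle with value `a₀ = y (1, 1)`, a coboundary
  set a₀ : M := ((y.1 ((1 : G ⧸ N), (1 : G ⧸ N)) : Inv M N) : M) with ha₀
  have hfix : ∀ n : N', M.ρ (j n) a₀ = a₀ := fun n =>
    inv_fixed M N _ ((hj _).2 ⟨n, rfl⟩)
  have hmem : (fun _ : N' => a₀) ∈ C₁ 𝒱 (Rep.res j M) :=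
    ⟨⊤, 𝒱.top, fun s _ n => ⟨rfl, hfix s⟩⟩
  refine ⟨⟨fun _ => a₀, hmem⟩, ?_⟩
  apply Subtype.ext
  funext ⟨n₁, n₂⟩
  have h1 : ((j n₁ : G) : G ⧸ N) = 1 := (QuotientGroup.eq_one_iff _).mpr ((hj _).2 ⟨n₁, rfl⟩)
  have h2 : ((j n₂ : G) : G ⧸ N) = 1 := (QuotientGroup.eq_one_iff _).mpr ((hj _).2 ⟨n₂, rfl⟩)
  show (d₁₂ (Rep.res j M)).hom (fun _ : N' => a₀) (n₁, n₂) =
    ((y.1 (((j n₁ : G) : G ⧸ N), ((j n₂ : G) : G ⧸ N)) : Inv M N) : M)
  rw [d₁₂_hom_apply, h1, h2]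
  show M.ρ (j n₁) a₀ - a₀ + a₀ = a₀
  rw [hfix]
  abel

end Fermat.Agent.S55.Middle.LCInfRes
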