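/-
S55 / Middle (helper60): PASSAGE FROM THE LC LEVEL TO A FINITE `p`-LEVEL FOR `Div`
(leaf (L1) of the first half of (C5), hypothesis `hrealD` of `ImageLevel.h3O_eq_zero_rel`).

`G` a group with basis `𝒰`, `X` an arbitrary `G`-set, `Div 𝒰 X` the divisor module of
`Middle/DivDef.lean`.  A class `z ∈ H²_LC(G; Div)` killed by `p ^ n` comes from the finite level
`N ∈ 𝒰` (i.e. `z = Dict.inflH2 y`, `y ∈ H²(G ⧸ N, Div^N)`) as soon as, at every point `x` where the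
residue `(resMor 𝒰 X x).h2 z` is non-zero,

* the stabiliser `Stab x` has CYCLIC image in every finite quotient `G ⧸ V`, `V ∈ 𝒰`
  (decomposition groups of unramified places), and
* `p ^ n ∣ [Stab x : Stab x ∩ N]` (growth of the local degrees in the `p`-cyclotomic tower).

Reason: `H²_LC(Stab x; ℤ) = Hom_LC(Stab x, ℚ/ℤ)` and a character of order dividing `p ^ n` of a
procyclic group dies on every open subgroup of index divisible by `p ^ n`; residues are injective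
on `H²_LC(N; Div)` (`DivH2.h2_eq_zero_of_res`); inflation–restriction (`LCInfRes`).

* `res_h2_eq_zero_of_cyclic` : the elementary cochain lemma on `H²_LC(D; ℤ)`;
* `toSub`, `ofSub` : `Res^G_N (Div 𝒰 X) ≅ Div (subBasis 𝒰 N) X`;
* `res_h2_eq_zero` : the restriction of `z` to `N` vanishes;
* `exists_inflH2_of_pow_torsion` : the main statement;
* `exists_finset_support` : the points with non-zero residue lie in finitely many `G`-orbits;
  `cyclic_smul`, `index_smul` : the two conditions are constant on `G`-orbits.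
-/
import Mathlib
import Fermat.Agent.S55.Middle.DivDef
import Fermat.Agent.S55.Middle.DivH2
import Fermat.Agent.S55.Middle.DivInfl
import Fermat.Agent.S55.Middle.LCInfRes
import Fermat.Agent.S55.Formal.Functor
import Fermat.Agent.S55.Bridge.ShapiroLC

set_option autoImplicit false

open CategoryTheory groupCohomology

namespace Fermat.Agent.S55.Middle.DivTorsLevel

open Fermat.Agent.S55.Formal Fermat.Agent.S55.Formal.Functor
open Fermat.Agent.S55.Middle.DivDef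
open Fermat.Agent.S55.Bridge.ShapiroLC (subBasis)

/-! ### 1. The elementary lemma on `H²_LC(D; ℤ)` -/

section CyclicKill

variable {D : Type} [Group D]

/-- If `d` generates `D` modulo the normal subgroup `D₁`, then `d ^ k ∈ D₁` forces
`[D : D₁] ∣ k`. -/
lemma index_dvd_of_pow_mem (D₁ : Subgroup D) [D₁.Normal] (d : D)
    (hgen : ∀ s : D, ∃ k : ℕ, s⁻¹ * d ^ k ∈ D₁) (k : ℕ) (hk : d ^ k ∈ D₁) : D₁.index ∣ k := by
  have hz : ∀ q : D ⧸ D₁, q ∈ Subgroup.zpowers ((d : D ⧸ D₁)) := by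
    intro q
    obtain ⟨s, rfl⟩ := QuotientGroup.mk_surjective q
    obtain ⟨j, hj⟩ := hgen s
    refine ⟨(j : ℤ), ?_⟩
    have : ((s : D ⧸ D₁)) = ((d ^ j : D) : D ⧸ D₁) := QuotientGroup.eq.mpr hj
    rw [this]
    simp
  have hord : orderOf ((d : D ⧸ D₁)) = Nat.card (D ⧸ D₁) :=
    orderOf_eq_card_of_forall_mem_zpowers hz
  have h1 : ((d : D ⧸ D₁)) ^ k = 1 := by
    rw [← QuotientGroup.mk_pow]
    exact (QuotientGroup.eq_one_iff _).mpr hk
  have := orderOf_dvd_of_pow_eq_one h1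
  rwa [hord, ← Subgroup.index_eq_card] at this

variable {D'' : Type} [Group D'']

/-- **Characters of order `p ^ n` of a procyclic group die on open subgroups of index divisible by
`p ^ n`**, in the form of `H²` with trivial `ℤ`-coefficients.  `α` is a morphism of situations
which is the identity on the coefficients `ℤ` and whose group homomorphism has image in the open
normal subgroup `D₁` of `D`. -/
theorem res_h2_eq_zero_of_cyclic (𝒲 : NBasis D) (𝒲'' : NBasis D'')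
    (α : Mor 𝒲 (Rep.trivial ℤ D ℤ) 𝒲'' (Rep.trivial ℤ D'' ℤ)) (hφ : ∀ a, α.φ a = a)
    (D₁ : Subgroup D) [D₁.Normal] (himg : ∀ a, α.f a ∈ D₁)
    (hopen : ∃ W, 𝒲.mem W ∧ W ≤ D₁)
    (hcyc : ∀ W, 𝒲.mem W → ∃ d : D, ∀ s : D, ∃ k : ℕ, s⁻¹ * d ^ k ∈ W)
    (p n : ℕ) (hp : 0 < p) (hidx : p ^ n ∣ D₁.index)
    (ξ : H2 𝒲 (Rep.trivial ℤ D ℤ)) (hξ : (p ^ n) • ξ = 0) : α.h2 ξ = 0 := by
  obtain ⟨c, hc, rfl⟩ := Hmid.exists_of ξ
  -- a primitive `g` of `p ^ n • c`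
  have hξ' : (((p ^ n : ℕ) : ℤ)) • (Hmid.of c hc : H2 𝒲 (Rep.trivial ℤ D ℤ)) = 0 := by
    rw [Nat.cast_smul_eq_nsmul]
    exact hξ
  rw [← Hmid.of_smul, Hmid.of_eq_zero_iff] at hξ'
  obtain ⟨g, hg⟩ := hξ'
  have hgpt : ∀ a b : D, (g : D → ℤ) b - (g : D → ℤ) (a * b) + (g : D → ℤ) a =
      ((p ^ n : ℕ) : ℤ) * (c : D × D → ℤ) (a, b) := by
    intro a b
    have h1 := congrArg (fun f : ↥(C₂ 𝒲 (Rep.trivial ℤ D ℤ)) => (f : D × D → ℤ) (a, b)) hg
    simpa [dC₁_coe, d₁₂_hom_apply] using h1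
  obtain ⟨W₀, hW₀, hgW₀⟩ := g.2
  obtain ⟨W₁, hW₁, hW₁D⟩ := hopen
  obtain ⟨W, hW, hWle⟩ := 𝒲.inf hW₀ hW₁
  obtain ⟨d, hd⟩ := hcyc W hW
  have hglev : ∀ s ∈ W, ∀ a, (g : D → ℤ) (a * s) = (g : D → ℤ) a :=
    fun s hs a => (hgW₀ s (hWle hs).1 a).1
  have hWD : W ≤ D₁ := fun s hs => hW₁D (hWle hs).2
  -- `g` modulo `p ^ n` is a character
  set N := p ^ n with hN
  have hchar : ∀ a b : D, (((g : D → ℤ) (a * b) : ℤ) : ZMod N) =
      ((g : D → ℤ) a : ZMod N) + ((g : D → ℤ) b : ZMod N) := by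
    intro a b
    have h1 := congrArg (fun t : ℤ => (t : ZMod N)) (hgpt a b)
    simp only [Int.cast_add, Int.cast_sub, Int.cast_mul, Int.cast_natCast, ZMod.natCast_self,
      zero_mul] at h1
    linear_combination -h1
  have hone : (((g : D → ℤ) 1 : ℤ) : ZMod N) = 0 := by
    have := hchar 1 1
    rw [mul_one] at this
    linear_combination -this
  have hpow : ∀ j : ℕ, (((g : D → ℤ) (d ^ j) : ℤ) : ZMod N) = j * ((g : D → ℤ) d : ZMod N) := by
    intro j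
    induction j with
    | zero => simp [hone]
    | succ j ih =>
      rw [pow_succ, hchar, ih]
      push_cast
      ring
  -- on `D₁` the values of `g` are divisible by `p ^ n`
  have hdvd : ∀ a ∈ D₁, ((N : ℕ) : ℤ) ∣ (g : D → ℤ) a := by
    intro a ha
    obtain ⟨j, hj⟩ := hd a
    have hdj : d ^ j ∈ D₁ := by
      have : d ^ j = a * (a⁻¹ * d ^ j) := by group
      rw [this]
      exact D₁.mul_mem ha (hWD hj)
    have hgen : ∀ s : D, ∃ k : ℕ, s⁻¹ * d ^ k ∈ D₁ := fun s => by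
      obtain ⟨k, hk⟩ := hd s
      exact ⟨k, hWD hk⟩
    have hNj : N ∣ j := hidx.trans (index_dvd_of_pow_mem D₁ d hgen j hdj)
    have hga : (g : D → ℤ) (d ^ j) = (g : D → ℤ) a := by
      have : d ^ j = a * (a⁻¹ * d ^ j) := by group
      rw [this]
      exact hglev _ hj a
    rw [← ZMod.intCast_zmod_eq_zero_iff_dvd, ← hga, hpow]
    obtain ⟨e, rfl⟩ := hNj
    push_cast
    rw [ZMod.natCast_self]
    ring
  -- the primitive on `D''`
  have hNpos : (0 : ℤ) < ((N : ℕ) : ℤ) := by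
    have : 0 < N := pow_pos hp n
    exact_mod_cast this
  let h : D'' → ℤ := fun a => (g : D → ℤ) (α.f a) / ((N : ℕ) : ℤ)
  have hh : ∀ a : D'', ((N : ℕ) : ℤ) * h a = (g : D → ℤ) (α.f a) := fun a =>
    Int.mul_ediv_cancel' (hdvd _ (himg a))
  have hhmem : h ∈ C₁ 𝒲'' (Rep.trivial ℤ D'' ℤ) := by
    obtain ⟨U', hU', hU'W⟩ := α.cont W hW
    refine ⟨U', hU', fun s hs a => ⟨?_, rfl⟩⟩
    show (g : D → ℤ) (α.f (a * s)) / ((N : ℕ) : ℤ) = (g : D → ℤ) (α.f a) / ((N : ℕ) : ℤ)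
    rw [map_mul, hglev _ (hU'W s hs)]
  have hc' : dC₂ 𝒲'' (Rep.trivial ℤ D'' ℤ) (α.c₂ c) = 0 := by
    have := LinearMap.congr_fun α.c₃_dC₂ c
    simp only [LinearMap.comp_apply] at this
    rw [← this, hc, map_zero]
  rw [h2_of α c hc hc', Hmid.of_eq_zero_iff]
  refine ⟨⟨h, hhmem⟩, ?_⟩
  apply Subtype.ext
  funext ⟨a, b⟩
  show (d₁₂ (Rep.trivial ℤ D'' ℤ)).hom h (a, b) = α.φ ((c : D × D → ℤ) (α.f a, α.f b))
  rw [d₁₂_hom_apply, hφ]
  show h b - h (a * b) + h a = _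
  have h1 := hgpt (α.f a) (α.f b)
  rw [← map_mul, ← hh, ← hh, ← hh] at h1
  have h2 : ((N : ℕ) : ℤ) * (h b - h (a * b) + h a) =
      ((N : ℕ) : ℤ) * (c : D × D → ℤ) (α.f a, α.f b) := by
    rw [← h1]
    ring
  exact mul_left_cancel₀ hNpos.ne' h2

end CyclicKill

/-! ### 2. `Res^G_N (Div 𝒰 X) ≅ Div (subBasis 𝒰 N) X` -/

section SubIso

variable {G : Type} [Group G] (𝒰 : NBasis G) (X : Type) [MulAction G X] (N : Subgroup G)

/-- smooth compactly supported for `G` implies the same for a normal subgroup of finite index -/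
lemma isDiv_sub [N.Normal] [N.FiniteIndex] {f : X → ℤ} (hf : IsDiv 𝒰 X f) :
    IsDiv (subBasis 𝒰 N) X f := by
  classical
  obtain ⟨⟨U, hU, hinv⟩, ⟨F, hF⟩⟩ := hf
  refine ⟨⟨U.subgroupOf N, ⟨U, hU, rfl⟩, fun u hu x => hinv (u : G) hu x⟩, ?_⟩
  have : Finite (G ⧸ N) := Subgroup.finite_quotient_of_finiteIndex
  let _ : Fintype (G ⧸ N) := Fintype.ofFinite _
  refine ⟨(Finset.univ ×ˢ F).image (fun qy : (G ⧸ N) × X => (Quotient.out qy.1 : G) • qy.2),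
    fun x hx => ?_⟩
  obtain ⟨g, y, hy, rfl⟩ := hF x hx
  obtain ⟨s, hs⟩ := QuotientGroup.mk_out_eq_mul N g
  set r : G := Quotient.out (QuotientGroup.mk g : G ⧸ N) with hr
  have hmem : r * (s : G)⁻¹ * r⁻¹ ∈ N :=
    (inferInstance : N.Normal).conj_mem _ (N.inv_mem s.2) r
  refine ⟨⟨r * (s : G)⁻¹ * r⁻¹, hmem⟩, r • y, ?_, ?_⟩
  · rw [Finset.mem_image]
    exact ⟨((QuotientGroup.mk g : G ⧸ N), y), Finset.mem_product.mpr ⟨Finset.mem_univ _, hy⟩, rfl⟩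
  · show g • y = (r * (s : G)⁻¹ * r⁻¹) • r • y
    rw [smul_smul]
    congr 1
    rw [hs]
    group

/-- conversely, for `N ∈ 𝒰` -/
lemma isDiv_of_sub (hN : 𝒰.mem N) {f : X → ℤ} (hf : IsDiv (subBasis 𝒰 N) X f) :
    IsDiv 𝒰 X f := by
  obtain ⟨⟨U', ⟨U, hU, rfl⟩, hinv⟩, ⟨F, hF⟩⟩ := hf
  obtain ⟨W, hW, hWle⟩ := 𝒰.inf hU hN
  refine ⟨⟨W, hW, fun u hu x => ?_⟩, ⟨F, fun x hx => ?_⟩⟩
  · exact hinv ⟨u, (hWle hu).2⟩ (Subgroup.mem_subgroupOf.mpr (hWle hu).1) x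
  · obtain ⟨g, y, hy, e⟩ := hF x hx
    exact ⟨(g : G), y, hy, e⟩

variable [N.Normal] [N.FiniteIndex]

/-- `Res^G_N (Div 𝒰 X) ⟶ Div (subBasis 𝒰 N) X`, the identity on functions -/
noncomputable def toSub : Rep.res N.subtype (Div 𝒰 X) ⟶ Div (subBasis 𝒰 N) X :=
  Rep.ofHom ⟨(AddMonoidHom.mk' (fun f : Div 𝒰 X =>
      mkDiv (subBasis 𝒰 N) X (toFun 𝒰 X f) (isDiv_sub 𝒰 X N (isDiv_toFun 𝒰 X f)))
      (fun _ _ => rfl)).toIntLinearMap,
    fun _ => LinearMap.ext fun _ => rfl⟩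

@[simp] lemma toFun_toSub (f : Div 𝒰 X) (x : X) :
    toFun (subBasis 𝒰 N) X ((toSub 𝒰 X N).hom.toLinearMap f) x = toFun 𝒰 X f x := rfl

/-- `Div (subBasis 𝒰 N) X ⟶ Res^G_N (Div 𝒰 X)`, the identity on functions -/
noncomputable def ofSub (hN : 𝒰.mem N) : Div (subBasis 𝒰 N) X ⟶ Rep.res N.subtype (Div 𝒰 X) :=
  Rep.ofHom ⟨(AddMonoidHom.mk' (fun f : Div (subBasis 𝒰 N) X =>
      (mkDiv 𝒰 X (toFun (subBasis 𝒰 N) X f)
        (isDiv_of_sub 𝒰 X N hN (isDiv_toFun (subBasis 𝒰 N) X f)) : Div 𝒰 X))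
      (fun _ _ => rfl)).toIntLinearMap,
    fun _ => LinearMap.ext fun _ => rfl⟩

lemma toSub_ofSub (hN : 𝒰.mem N) : toSub 𝒰 X N ≫ ofSub 𝒰 X N hN = 𝟙 _ := by
  ext f
  rfl

/-- the comparison map is injective on `H²_LC` -/
lemma toSub_h2_injective (hN : 𝒰.mem N) :
    Function.Injective (Mor.ofHom (subBasis 𝒰 N) (toSub 𝒰 X N)).h2 := by
  have h : (Mor.ofHom (subBasis 𝒰 N) (ofSub 𝒰 X N hN)).h2 ∘ₗ
      (Mor.ofHom (subBasis 𝒰 N) (toSub 𝒰 X N)).h2 = LinearMap.id := by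
    rw [← ofHom_comp_h2, toSub_ofSub, ofHom_id_h2]
  intro a b hab
  have := congrArg (Mor.ofHom (subBasis 𝒰 N) (ofSub 𝒰 X N hN)).h2 hab
  have ha := LinearMap.congr_fun h a
  have hb := LinearMap.congr_fun h b
  simp only [LinearMap.comp_apply, LinearMap.id_apply] at ha hb
  rw [← ha, ← hb, this]

end SubIso

/-! ### 3. The restriction to `N` vanishes; the main statement -/

section Main

variable {G : Type} [Group G] (𝒰 : NBasis G) (X : Type) [MulAction G X] (N : Subgroup G)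

/-- the inclusion is continuous -/
lemma isCont_subtype' : IsCont 𝒰 (subBasis 𝒰 N) N.subtype :=
  fun U hU => ⟨U.subgroupOf N, ⟨U, hU, rfl⟩, fun _ hs => hs⟩

/-- inclusion of the stabilisers -/
def stabIncl (x : X) : MulAction.stabilizer ↥N x →* MulAction.stabilizer G x where
  toFun a := ⟨((a : ↥N) : G), by
    have := a.2
    rw [MulAction.mem_stabilizer_iff] at this ⊢
    exact this⟩
  map_one' := rfl
  map_mul' _ _ := rfl

/-- restriction from `Stab_G x` to `Stab_N x`, trivial coefficients `ℤ` -/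
def stabMor (x : X) :
    Mor (stabBasis 𝒰 X x) (Rep.trivial ℤ (MulAction.stabilizer G x) ℤ)
      (stabBasis (subBasis 𝒰 N) X x) (Rep.trivial ℤ (MulAction.stabilizer ↥N x) ℤ) where
  f := stabIncl X N x
  cont := by
    rintro U ⟨V, hV, rfl⟩
    exact ⟨(V.subgroupOf N).comap (MulAction.stabilizer ↥N x).subtype,
      ⟨V.subgroupOf N, ⟨V, hV, rfl⟩, rfl⟩, fun s hs => hs⟩
  φ := LinearMap.id
  equivar _ _ := rfl

variable [N.Normal] [N.FiniteIndex]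

/-- the residue at `x` over `N` of the restriction is the restriction of the residue over `G` -/
lemma res_comp_resMor (x : X) :
    (Mor.res 𝒰 (subBasis 𝒰 N) N.subtype (isCont_subtype' 𝒰 N) (Div 𝒰 X)).comp
        ((Mor.ofHom (subBasis 𝒰 N) (toSub 𝒰 X N)).comp (resMor (subBasis 𝒰 N) X x)) =
      (resMor 𝒰 X x).comp (stabMor 𝒰 X N x) :=
  mor_ext (MonoidHom.ext fun _ => rfl) (LinearMap.ext fun _ => rfl)

/-- **The restriction to `N` of a `p ^ n`-torsion class of `H²_LC(G; Div)` vanishes**, under the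
cyclicity and index conditions at the points with non-zero residue. -/
theorem res_h2_eq_zero (hN : 𝒰.mem N) (p n : ℕ) (hp : 0 < p)
    (z : H2 𝒰 (Div 𝒰 X)) (hz : (p ^ n) • z = 0)
    (hx : ∀ x : X, (resMor 𝒰 X x).h2 z ≠ 0 →
      (∀ V, 𝒰.mem V → ∃ d : G, d • x = x ∧ ∀ s : G, s • x = x → ∃ k : ℕ, s⁻¹ * d ^ k ∈ V) ∧
      p ^ n ∣ (N.subgroupOf (MulAction.stabilizer G x)).index) :
    (Mor.res 𝒰 (subBasis 𝒰 N) N.subtype (isCont_subtype' 𝒰 N) (Div 𝒰 X)).h2 z = 0 := by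
  apply toSub_h2_injective 𝒰 X N hN
  rw [map_zero]
  apply DivH2.h2_eq_zero_of_res
  intro x
  have hcomm := congrArg (fun α => α.h2 z) (res_comp_resMor 𝒰 X N x)
  simp only [comp_h2, LinearMap.comp_apply] at hcomm
  rw [hcomm]
  by_cases h0 : (resMor 𝒰 X x).h2 z = 0
  · rw [h0, map_zero]
  obtain ⟨hcyc, hidx⟩ := hx x h0
  refine res_h2_eq_zero_of_cyclic (stabBasis 𝒰 X x) (stabBasis (subBasis 𝒰 N) X x)
    (stabMor 𝒰 X N x) (fun _ => rfl) (N.subgroupOf (MulAction.stabilizer G x))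
    (fun a => (a : ↥N).2) ⟨N.subgroupOf (MulAction.stabilizer G x), ⟨N, hN, rfl⟩, le_refl _⟩
    ?_ p n hp hidx _ ?_
  · rintro W ⟨V, hV, rfl⟩
    obtain ⟨d, hd, hgen⟩ := hcyc V hV
    refine ⟨⟨d, hd⟩, fun s => ?_⟩
    obtain ⟨k, hk⟩ := hgen (s : G) s.2
    exact ⟨k, hk⟩
  · rw [← map_nsmul, hz, map_zero]

omit [N.Normal] [N.FiniteIndex] in
/-- `H¹_LC(N; Res (Div 𝒰 X)) = 0` in the shape needed by `LCInfRes`. -/
theorem h1_res_div (hN : 𝒰.mem N)
    (f : ↥(C₁ (subBasis 𝒰 N) (Rep.res N.subtype (Div 𝒰 X))))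
    (hf : dC₁ (subBasis 𝒰 N) (Rep.res N.subtype (Div 𝒰 X)) f = 0) :
    ∃ m : ↥(C₀ (subBasis 𝒰 N) (Rep.res N.subtype (Div 𝒰 X))),
      dC₀ (subBasis 𝒰 N) (Rep.res N.subtype (Div 𝒰 X)) m = f := by
  obtain ⟨U', ⟨U, hU, rfl⟩, hlev⟩ := f.2
  obtain ⟨W, hW, hWle⟩ := 𝒰.inf hU hN
  have hcoc : ∀ a b : ↥N, (f : ↥N → Div 𝒰 X) (a * b) =
      (Div 𝒰 X).ρ (a : G) ((f : ↥N → Div 𝒰 X) b) + (f : ↥N → Div 𝒰 X) a := by
    intro a b
    have h1 := congrArg (fun c : ↥(C₂ (subBasis 𝒰 N) (Rep.res N.subtype (Div 𝒰 X))) =>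
      (c : ↥N × ↥N → Div 𝒰 X) (a, b)) hf
    simp only [dC₁_coe, d₁₂_hom_apply] at h1
    have h2 : (Div 𝒰 X).ρ (a : G) ((f : ↥N → Div 𝒰 X) b) - (f : ↥N → Div 𝒰 X) (a * b) +
        (f : ↥N → Div 𝒰 X) a = 0 := h1
    rw [sub_add_eq_add_sub, sub_eq_zero] at h2
    exact h2.symm
  obtain ⟨m, hm⟩ := DivInfl.h1SubVanish_div 𝒰 X N (f : ↥N → Div 𝒰 X) hcoc
    ⟨W, hW, fun s hs => (hWle hs).2, fun a s hs =>
      (hlev s (Subgroup.mem_subgroupOf.mpr (hWle hs).1) a).1⟩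
  have hm0 : (m : Rep.res N.subtype (Div 𝒰 X)) ∈
      C₀ (subBasis 𝒰 N) (Rep.res N.subtype (Div 𝒰 X)) := by
    obtain ⟨V, hV, hVm⟩ := DivDef.isLC₀ 𝒰 X m
    exact ⟨V.subgroupOf N, ⟨V, hV, rfl⟩, fun s hs => hVm (s : G) hs⟩
  refine ⟨⟨m, hm0⟩, ?_⟩
  apply Subtype.ext
  funext a
  show (d₀₁ (Rep.res N.subtype (Div 𝒰 X))).hom m a = (f : ↥N → Div 𝒰 X) a
  rw [d₀₁_hom_apply, hm a]
  rfl

omit [N.FiniteIndex] in
open Fermat.Agent.S55.Middle.Dict in
/-- **MAIN STATEMENT.**  A `p ^ n`-torsion class of `H²_LC(G; Div 𝒰 X)` comes from the finite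
level `N ∈ 𝒰`, provided that at every point `x` with non-zero residue the stabiliser has cyclic
image in every `G ⧸ V` (`V ∈ 𝒰`) and `p ^ n ∣ [Stab x : Stab x ∩ N]`. -/
theorem exists_inflH2_of_pow_torsion (hN : 𝒰.mem N) (p n : ℕ) (hp : 0 < p)
    (z : H2 𝒰 (Div 𝒰 X)) (hz : (p ^ n) • z = 0)
    (hx : ∀ x : X, (resMor 𝒰 X x).h2 z ≠ 0 →
      (∀ V, 𝒰.mem V → ∃ d : G, d • x = x ∧ ∀ s : G, s • x = x → ∃ k : ℕ, s⁻¹ * d ^ k ∈ V) ∧
      p ^ n ∣ (N.subgroupOf (MulAction.stabilizer G x)).index) :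
    ∃ y : groupCohomology.H2 (Inv (Div 𝒰 X) N), inflH2 𝒰 (Div 𝒰 X) hN y = z :=
  have := 𝒰.finiteIndex hN
  LCInfRes.exists_inflH2_of_res_eq_zero 𝒰 (Div 𝒰 X) (subBasis 𝒰 N) N.subtype hN
    (fun g => ⟨fun hg => ⟨⟨g, hg⟩, rfl⟩, fun ⟨a, ha⟩ => ha ▸ a.2⟩)
    (isCont_subtype' 𝒰 N)
    (by
      rintro W ⟨V, hV, rfl⟩
      exact ⟨V, hV, fun a ha => Subgroup.mem_subgroupOf.mpr ha⟩)
    (h1_res_div 𝒰 X N hN) z (res_h2_eq_zero 𝒰 X N hN p n hp z hz hx)

/-! ### 4. Support of the residues; the conditions are constant on orbits -/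

omit [N.Normal] [N.FiniteIndex] in
/-- **The points with non-zero residue lie in finitely many `G`-orbits.** -/
theorem exists_finset_support (z : H2 𝒰 (Div 𝒰 X)) :
    ∃ F : Finset X, ∀ x : X, (resMor 𝒰 X x).h2 z ≠ 0 → ∃ g : G, ∃ y ∈ F, x = g • y := by
  obtain ⟨c, hc, rfl⟩ := Hmid.exists_of z
  obtain ⟨N₀, hN₀, hcN⟩ := c.2
  have := 𝒰.finiteIndex hN₀
  obtain ⟨F, hF⟩ := DivH2.exists_support_bound₂ (𝒰 := 𝒰) (X := X) (N := N₀)
    (c : G × G → Div 𝒰 X) (fun g h s hs => ⟨(hcN s hs g h).1, (hcN s hs g h).2.1⟩)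
  refine ⟨F, fun x hx => ?_⟩
  by_contra hcon
  apply hx
  have hzero : ∀ g h : G, toFun 𝒰 X ((c : G × G → Div 𝒰 X) (g, h)) x = 0 := by
    intro g h
    by_contra hne
    exact hcon (hF g h x hne)
  have hc' : dC₂ (stabBasis 𝒰 X x) (Rep.trivial ℤ (MulAction.stabilizer G x) ℤ)
      ((resMor 𝒰 X x).c₂ c) = 0 := by
    have := LinearMap.congr_fun (resMor 𝒰 X x).c₃_dC₂ c
    simp only [LinearMap.comp_apply] at this
    rw [← this, hc, map_zero]
  rw [h2_of (resMor 𝒰 X x) c hc hc']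
  have h0 : (resMor 𝒰 X x).c₂ c = 0 := by
    apply Subtype.ext
    funext ⟨s, t⟩
    exact hzero (s : G) (t : G)
  rw [Hmid.of_eq_zero_iff]
  exact ⟨0, by rw [map_zero, h0]⟩

omit [N.Normal] [N.FiniteIndex] in
/-- the cyclicity condition at `y` implies the cyclicity condition at `g • y` -/
theorem cyclic_smul (g : G) (y : X)
    (h : ∀ V, 𝒰.mem V → ∃ d : G, d • y = y ∧ ∀ s : G, s • y = y → ∃ k : ℕ, s⁻¹ * d ^ k ∈ V) :
    ∀ V, 𝒰.mem V → ∃ d : G, d • (g • y) = g • y ∧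
      ∀ s : G, s • (g • y) = g • y → ∃ k : ℕ, s⁻¹ * d ^ k ∈ V := by
  intro V hV
  obtain ⟨d, hd, hgen⟩ := h V hV
  refine ⟨g * d * g⁻¹, ?_, fun s hs => ?_⟩
  · rw [smul_smul, inv_mul_cancel_right, mul_smul, hd]
  · have hs' : (g⁻¹ * s * g) • y = y := by
      rw [mul_smul, mul_smul, hs, inv_smul_smul]
    obtain ⟨k, hk⟩ := hgen _ hs'
    refine ⟨k, ?_⟩
    have e : s⁻¹ * (g * d * g⁻¹) ^ k = g * ((g⁻¹ * s * g)⁻¹ * d ^ k) * g⁻¹ := by
      rw [conj_pow]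
      group
    rw [e]
    exact (𝒰.normal hV).conj_mem _ hk g

omit [N.FiniteIndex] in
/-- the index `[Stab x : Stab x ∩ N]` is constant on `G`-orbits -/
theorem index_smul (g : G) (y : X) :
    (N.subgroupOf (MulAction.stabilizer G (g • y))).index =
      (N.subgroupOf (MulAction.stabilizer G y)).index := by
  show N.relIndex (MulAction.stabilizer G (g • y)) = N.relIndex (MulAction.stabilizer G y)
  rw [MulAction.stabilizer_smul_eq_stabilizer_map_conj, ← Subgroup.relIndex_comap]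
  congr 1
  ext a
  rw [Subgroup.mem_comap]
  show g * a * g⁻¹ ∈ N ↔ a ∈ N
  constructor
  · intro h
    have := (inferInstance : N.Normal).conj_mem _ h g⁻¹
    simpa [mul_assoc] using this
  · intro h
    exact (inferInstance : N.Normal).conj_mem _ h g

omit [N.FiniteIndex] in
open Fermat.Agent.S55.Middle.Dict in
/-- **MAIN STATEMENT, orbit-representative form**: the two conditions are only required at the
points of a finite set `F` whose orbits contain all points with non-zero residue. -/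
theorem exists_inflH2_of_pow_torsion_of_finset (hN : 𝒰.mem N) (p n : ℕ) (hp : 0 < p)
    (z : H2 𝒰 (Div 𝒰 X)) (hz : (p ^ n) • z = 0) (F : Finset X)
    (hF : ∀ x : X, (resMor 𝒰 X x).h2 z ≠ 0 → ∃ g : G, ∃ y ∈ F, x = g • y)
    (hy : ∀ y ∈ F,
      (∀ V, 𝒰.mem V → ∃ d : G, d • y = y ∧ ∀ s : G, s • y = y → ∃ k : ℕ, s⁻¹ * d ^ k ∈ V) ∧
      p ^ n ∣ (N.subgroupOf (MulAction.stabilizer G y)).index) :
    ∃ y : groupCohomology.H2 (Inv (Div 𝒰 X) N), inflH2 𝒰 (Div 𝒰 X) hN y = z := by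
  refine exists_inflH2_of_pow_torsion 𝒰 X N hN p n hp z hz fun x hx => ?_
  obtain ⟨g, y, hyF, rfl⟩ := hF x hx
  exact ⟨cyclic_smul 𝒰 X g y (hy y hyF).1, by rw [index_smul]; exact (hy y hyF).2⟩

end Main

/-! ### 5. Packaged form: existence of a level -/

section Package

variable {G : Type} [Group G] (𝒰 : NBasis G) (X : Type) [MulAction G X]

open Fermat.Agent.S55.Middle.Dict in
/-- **Existence of a level.**  Suppose all stabilisers have cyclic image in the finite quotients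
`G ⧸ V` (`V ∈ 𝒰`), and that for every finite set `F` of points there is a level `N ∈ 𝒰` with a given
property `Good N` such that `p ^ n ∣ [Stab y : Stab y ∩ N]` for all `y ∈ F`.  Then every
`p ^ n`-torsion class of `H²_LC(G; Div 𝒰 X)` comes from a finite level `N` with `Good N`. -/
theorem exists_level_of_pow_torsion (Good : Subgroup G → Prop) (p n : ℕ) (hp : 0 < p)
    (hcyc : ∀ (x : X) (V : Subgroup G), 𝒰.mem V →
      ∃ d : G, d • x = x ∧ ∀ s : G, s • x = x → ∃ k : ℕ, s⁻¹ * d ^ k ∈ V)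
    (hgrow : ∀ F : Finset X, ∃ N : Subgroup G, 𝒰.mem N ∧ Good N ∧
      ∀ y ∈ F, p ^ n ∣ (N.subgroupOf (MulAction.stabilizer G y)).index)
    (z : H2 𝒰 (Div 𝒰 X)) (hz : (p ^ n) • z = 0) :
    ∃ (N : Subgroup G) (_ : N.Normal) (hN : 𝒰.mem N), Good N ∧
      ∃ y : groupCohomology.H2 (Inv (Div 𝒰 X) N), inflH2 𝒰 (Div 𝒰 X) hN y = z := by
  obtain ⟨F, hF⟩ := exists_finset_support 𝒰 X z
  obtain ⟨N, hN, hgood, hidx⟩ := hgrow F
  have : N.Normal := 𝒰.normal hN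
  refine ⟨N, inferInstance, hN, hgood, ?_⟩
  exact exists_inflH2_of_pow_torsion_of_finset 𝒰 X N hN p n hp z hz F hF
    (fun y hy => ⟨hcyc y, hidx y hy⟩)

end Package

end Fermat.Agent.S55.Middle.DivTorsLevel
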