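/-
S55 / MIDDLE block, row M.h3.stabCyclic (helper63) = leaf (A) CYCLIC of helper60's row
M.h3.divTorsLevel (hypothesis of `DivTorsLevel.exists_inflH2_of_pow_torsion`).

The decomposition group of a place of `ℚ̄` over a prime `q ∉ S` has CYCLIC image in every finite
`S`-level:

* `exists_generator_mod_ker` : a homomorphism `φ : D → C` to a finite cyclic group: `D` is generated
  by one element modulo `ker φ`, with natural-number exponents;
* `isCyclic_stabilizer_of_inertia_eq_bot` : (finite level) the stabiliser in `Gal(F/K)` of a nonzero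
  prime of `𝓞 F` with trivial inertia group is cyclic (it embeds into the Galois group of the
  finite residue field, `Ideal.Quotient.stabilizerHom`);
* `exists_generator_mod_fixingSubgroup` : `F₀/ℚ` finite Galois unramified outside `S`, `A` a place of
  `ℚ̄` over `q ∉ S`, `j : D → G_ℚ` with values in the decomposition group of `A`: `D` is generated by
  one element modulo `j⁻¹(Gal(ℚ̄/F₀))` (`Bridge.Unram.inertia_eq_bot_of_isUnramifiedOutside`);
* `exists_stab_generator_global` : for `x : CapDiv.Xoff S`, `N ∈ globalBasis S`: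
  `∃ d, d • x = x ∧ ∀ s, s • x = x → ∃ k : ℕ, s⁻¹ * d ^ k ∈ N`;
* `exists_stab_generator` : the same over `↥P` and `basisP S P` (literal shape asked for).
-/
import Mathlib
import Fermat.Agent.S55.Bridge.Unram
import Fermat.Agent.S55.Middle.CapDiv
import Fermat.Agent.S55.Middle.KSite

set_option autoImplicit false

open scoped Pointwise NumberField

namespace Fermat.Agent.S55.Middle.StabCyclic

/-! ### group theory -/

/-- a homomorphism to a finite cyclic group: its source is "cyclic modulo the kernel", with a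
natural-number exponent. -/
theorem exists_generator_mod_ker {D C : Type*} [Group D] [Group C] [IsCyclic C] [Finite C]
    (φ : D →* C) : ∃ d : D, ∀ s : D, ∃ k : ℕ, s⁻¹ * d ^ k ∈ φ.ker := by
  obtain ⟨g, hg⟩ := IsCyclic.exists_generator (α := ↥φ.range)
  obtain ⟨d, hd⟩ := g.2
  refine ⟨d, fun s => ?_⟩
  obtain ⟨z, hz⟩ := Subgroup.mem_zpowers_iff.1 (hg ⟨φ s, s, rfl⟩)
  have hz' : (φ d) ^ z = φ s := by
    have := congrArg Subtype.val hz
    rw [Subgroup.coe_zpow, ← hd] at this
    exact this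
  have hfin : IsOfFinOrder (φ d) := isOfFinOrder_of_finite _
  have hpos : (0 : ℤ) < orderOf (φ d) := by exact_mod_cast hfin.orderOf_pos
  refine ⟨(z % (orderOf (φ d) : ℤ)).toNat, ?_⟩
  rw [MonoidHom.mem_ker, map_mul, map_inv, map_pow, ← hz', ← zpow_natCast,
    Int.toNat_of_nonneg (Int.emod_nonneg _ hpos.ne'), zpow_mod_orderOf, inv_mul_cancel]

/-! ### finite level: the decomposition group of an unramified prime is cyclic -/

section FiniteLevel

variable {K F : Type*} [Field K] [Field F] [NumberField F] [Algebra K F]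

/-- The stabiliser of a nonzero prime with trivial inertia group is cyclic (it embeds into the
Galois group of the finite residue field). -/
theorem isCyclic_stabilizer_of_inertia_eq_bot (P : Ideal (𝓞 F)) [hP : P.IsPrime] (hP0 : P ≠ ⊥)
    (hI : Ideal.inertia (F ≃ₐ[K] F) P = ⊥) :
    IsCyclic (MulAction.stabilizer (F ≃ₐ[K] F) P) := by
  have hmax : P.IsMaximal := Ring.DimensionLEOne.maximalOfPrime hP0 hP
  let : Field (𝓞 F ⧸ P) := Ideal.Quotient.field P
  have hmaxZ : (P.under ℤ).IsMaximal := inferInstance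
  let : Field (ℤ ⧸ P.under ℤ) := Ideal.Quotient.field _
  have : Finite (𝓞 F ⧸ P) := Ideal.finiteQuotientOfFreeOfNeBot P hP0
  let φ := Ideal.Quotient.stabilizerHom P (P.under ℤ) (F ≃ₐ[K] F)
  have hinj : Function.Injective φ := by
    rw [← MonoidHom.ker_eq_bot_iff, eq_bot_iff]
    intro g hg
    have hg' : (g : F ≃ₐ[K] F) ∈ Ideal.inertia (F ≃ₐ[K] F) P := by
      rw [← Ideal.Quotient.map_ker_stabilizer_subtype P (P.under ℤ)]
      exact ⟨g, hg, rfl⟩
    rw [hI, Subgroup.mem_bot] at hg'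
    exact Subtype.ext hg'
  exact isCyclic_of_injective φ hinj

end FiniteLevel


/-! ### the algebraic closure of `ℚ` -/

section AlgClosure

local notation "Qbar" => AlgebraicClosure ℚ
local notation "GQ" => (AlgebraicClosure ℚ ≃ₐ[ℚ] AlgebraicClosure ℚ)

local instance instIsGaloisQbarStabCyclic : IsGalois ℚ Qbar :=
  Fermat.Agent.Lib.UnramifiedTrivial.isGalois_algebraicClosure_rat

attribute [local instance 10000] IntermediateField.algebra'

open Fermat.Agent.S55.Bridge.Unram Fermat.Agent.Lib.InertiaBridge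

variable {S : Finset Nat.Primes}

/-- **Decomposition groups off `S` are cyclic modulo every `S`-level.**  `F₀/ℚ` finite Galois,
unramified outside `S`; `A` a place of `ℚ̄` over `q ∉ S`; `j : D → G_ℚ` a homomorphism with values
in the decomposition group of `A`.  Then `D` is generated by one element modulo
`j⁻¹(Gal(ℚ̄/F₀))`. -/
theorem exists_generator_mod_fixingSubgroup (F₀ : IntermediateField ℚ Qbar)
    (hF : F₀.IsUnramifiedOutside S) (hN : F₀.fixingSubgroup.Normal)
    (q : Nat.Primes) (hq : q ∉ S) (A : ValuationSubring Qbar) (hA : A.LiesOverPrime (q : ℕ))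
    {D : Type*} [Group D] (j : D →* GQ) (hj : ∀ s, j s ∈ A.decompositionSubgroup ℚ) :
    ∃ d : D, ∀ s : D, ∃ k : ℕ, j (s⁻¹ * d ^ k) ∈ F₀.fixingSubgroup := by
  have : FiniteDimensional ℚ ↥F₀ := hF.1
  have : NumberField ↥F₀ := { to_charZero := inferInstance, to_finiteDimensional := inferInstance }
  have hGal : IsGalois ℚ ↥F₀ := (InfiniteGalois.normal_iff_isGalois _).1 hN
  let ι : ↥F₀ →+* Qbar := algebraMap ↥F₀ Qbar
  have himg : imageField ι = F₀ := by
    ext x
    rw [mem_imageField]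
    exact ⟨fun ⟨y, hy⟩ => hy ▸ y.2, fun hx => ⟨⟨x, hx⟩, rfl⟩⟩
  have hF' : (imageField ι).IsUnramifiedOutside S := himg.symm ▸ hF
  have hqP : (((q : ℕ) : ℕ) : 𝓞 ↥F₀) ∈ primeBelow ι A := natCast_mem_primeBelow hA
  have hI : Ideal.inertia (↥F₀ ≃ₐ[ℚ] ↥F₀) (primeBelow ι A) = ⊥ :=
    inertia_eq_bot_of_isUnramifiedOutside (K := ℚ) ι hF' q hq (primeBelow ι A) hqP
  have hP0 : primeBelow ι A ≠ ⊥ := by
    intro h
    rw [h, Ideal.mem_bot] at hqP
    exact (Nat.cast_ne_zero.2 q.2.ne_zero) hqP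
  have := isCyclic_stabilizer_of_inertia_eq_bot (K := ℚ) (primeBelow ι A) hP0 hI
  let r : GQ →* (↥F₀ ≃ₐ[ℚ] ↥F₀) := AlgEquiv.restrictNormalHom ↥F₀
  have hr : ∀ σ ∈ A.decompositionSubgroup ℚ,
      r σ ∈ MulAction.stabilizer (↥F₀ ≃ₐ[ℚ] ↥F₀) (primeBelow ι A) := by
    intro σ hσ
    rw [MulAction.mem_stabilizer_iff]
    ext x
    rw [Ideal.mem_pointwise_smul_iff_inv_smul_mem, mem_primeBelow, mem_primeBelow]
    have h1 : ι (((r σ)⁻¹ • x : 𝓞 ↥F₀) : ↥F₀) = σ⁻¹ (ι (x : ↥F₀)) := by
      rw [← map_inv]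
      exact AlgEquiv.restrictNormalHom_apply F₀ σ⁻¹ (x : ↥F₀)
    rw [h1, ← Lift.mem_nonunits_smul_iff, MulAction.mem_stabilizer_iff.1 hσ]
  let φ : D →* MulAction.stabilizer (↥F₀ ≃ₐ[ℚ] ↥F₀) (primeBelow ι A) :=
    (r.comp j).codRestrict _ (fun s => hr _ (hj s))
  obtain ⟨d, hd⟩ := exists_generator_mod_ker φ
  refine ⟨d, fun s => ?_⟩
  obtain ⟨k, hk⟩ := hd s
  rw [MonoidHom.mem_ker] at hk
  have h2 : r (j (s⁻¹ * d ^ k)) = 1 := congrArg Subtype.val hk
  refine ⟨k, ?_⟩
  rw [← IntermediateField.restrictNormalHom_ker F₀]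
  exact h2

end AlgClosure

/-! ### the literal forms over `Xoff S` -/

section Literal

open Fermat.Agent.S55.Formal
open Fermat.Agent.S55.Formal.PreludeLC hiding GQ Qbar
open Fermat.Agent.S55.Bridge.ShapiroLC Fermat.Agent.S55.Middle.Defs
open Fermat.Agent.S55.Middle.CapDiv Fermat.Agent.S55.Middle.KSite

variable (S : Finset Nat.Primes)

/-- the stabiliser of a place `x` off `S` lies in the decomposition group of its ring. -/
theorem mem_decompositionSubgroup_of_smul_eq {x : Xoff S} {g : GQ} (hg : g • x = x) :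
    g ∈ x.ring.decompositionSubgroup ℚ := by
  rw [MulAction.mem_stabilizer_iff]
  have := congrArg Xoff.ring hg
  rwa [Xoff.smul_ring] at this

/-- **(A) CYCLIC, `G_ℚ`-form**: the image of the stabiliser of a place off `S` in every finite
level `G_ℚ / N`, `N ∈ globalBasis S`, is cyclic. -/
theorem exists_stab_generator_global (x : Xoff S) (N : Subgroup GQ) (hN : (globalBasis S).mem N) :
    ∃ d : GQ, d • x = x ∧ ∀ s : GQ, s • x = x → ∃ k : ℕ, s⁻¹ * d ^ k ∈ N := by
  obtain ⟨F₀, hF, hFN, rfl⟩ := hN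
  obtain ⟨d, hd⟩ := exists_generator_mod_fixingSubgroup F₀ hF hFN x.prime x.prime_notMem x.ring
    x.liesOver (MulAction.stabilizer GQ x).subtype
    (fun s => mem_decompositionSubgroup_of_smul_eq S s.2)
  refine ⟨d.1, d.2, fun s hs => ?_⟩
  obtain ⟨k, hk⟩ := hd ⟨s, hs⟩
  exact ⟨k, hk⟩

/-- **(A) CYCLIC, `K`-site form** (literal hypothesis of `DivTorsLevel`): for `P ≤ G_ℚ`, a place `x`
off `S` and `V` in the induced basis `basisP S P`, the image of `Stab_P(x)` in `P / V` is cyclic. -/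
theorem exists_stab_generator (P : Subgroup GQ) (x : Xoff S) (V : Subgroup ↥P)
    (hV : (basisP S P).mem V) :
    ∃ d : ↥P, d • x = x ∧ ∀ s : ↥P, s • x = x → ∃ k : ℕ, s⁻¹ * d ^ k ∈ V := by
  obtain ⟨N, ⟨F₀, hF, hFN, rfl⟩, rfl⟩ := hV
  obtain ⟨d, hd⟩ := exists_generator_mod_fixingSubgroup F₀ hF hFN x.prime x.prime_notMem x.ring
    x.liesOver (P.subtype.comp (MulAction.stabilizer ↥P x).subtype)
    (fun s => mem_decompositionSubgroup_of_smul_eq S (x := x) (g := ((s : ↥P) : GQ)) s.2)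
  refine ⟨d.1, d.2, fun s hs => ?_⟩
  obtain ⟨k, hk⟩ := hd ⟨s, hs⟩
  exact ⟨k, hk⟩

end Literal

end Fermat.Agent.S55.Middle.StabCyclic
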