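/-
S55 / MIDDLE block, row M.h3.divTorsLevel.inst (helper63): the passage LC → `p`-cyclotomic level
for `Div` over the `K`-site, for the REAL objects.

`P ≤ G_ℚ` open for the `S`-basis with `χ_p|P = 1`, `p` odd, `p ∈ S`.  Every `p ^ n`-torsion class of
`H²_LC(P; Div (basisP S P) (Xoff S))` is inflated (`Dict.inflH2`) from the level
`N_m = (fixRoots (p ^ m)).subgroupOf P` of `K(μ_{p^m})` for some `m > 0`; `P / N_m` is a `p`-group.

= `DivTorsLevel.exists_level_of_pow_torsion` (helper60) + `StabCyclic.exists_stab_generator`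
(leaf (A)) + `CycloGrowXoff.exists_level_finset` (helper24, leaf (B)).
-/
import Fermat.Agent.S55.Middle.DivTorsLevel
import Fermat.Agent.S55.Middle.StabCyclic
import Fermat.Agent.S55.Middle.CycloGrowXoff

set_option autoImplicit false

namespace Fermat.Agent.S55.Middle.DivTorsLevelInst

open Fermat.Agent.S55.Formal Fermat.Agent.S55.Formal.PreludeLC
  Fermat.Agent.S55.Bridge.ShapiroLC
  Fermat.Agent.S55.Middle.KSite Fermat.Agent.S55.Middle.CapDiv
  Fermat.Agent.S55.Middle.CycloGrowIndex Fermat.Agent.S55.Middle.DivDef ExtCitation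

variable (p : ℕ) [hp : Fact p.Prime] {S : Finset Nat.Primes}

/-- **`p`-primary classes of `H²_LC(P; Div)` live on `p`-cyclotomic levels.** -/
theorem exists_pLevel_of_pow_torsion (hodd : Odd p) (hpS : pPrime p ∈ S) {P : Subgroup GQ}
    (hP : IsOpenS S P) (hPχ : ∀ g ∈ P, cycloChar p g = 1) (n : ℕ)
    (z : H2 (basisP S P) (Div (basisP S P) (Xoff S))) (hz : (p ^ n) • z = 0) :
    ∃ m : ℕ, 0 < m ∧ ∃ hN : (basisP S P).mem ((fixRoots (p ^ m)).subgroupOf P),
      ((fixRoots (p ^ m)).subgroupOf P).index ∣ p ^ (m - 1) ∧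
      ∃ y : groupCohomology.H2 (Dict.Inv (Div (basisP S P) (Xoff S))
          ((fixRoots (p ^ m)).subgroupOf P)),
        Dict.inflH2 (basisP S P) (Div (basisP S P) (Xoff S)) hN y = z := by
  obtain ⟨N, _, hN, ⟨m, hm, rfl, hidx⟩, y, hy⟩ :=
    DivTorsLevel.exists_level_of_pow_torsion (basisP S P) (Xoff S)
      (fun N => ∃ m : ℕ, 0 < m ∧ N = (fixRoots (p ^ m)).subgroupOf P ∧ N.index ∣ p ^ (m - 1))
      p n hp.out.pos
      (fun x V hV => StabCyclic.exists_stab_generator S P x V hV)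
      (fun F => by
        obtain ⟨m, hm, hmem, hidx, hdvd⟩ :=
          CycloGrowXoff.exists_level_finset p hodd hpS hP hPχ F n
        exact ⟨_, hmem, ⟨m, hm, rfl, hidx⟩, hdvd⟩)
      z hz
  exact ⟨m, hm, hN, hidx, y, hy⟩

end Fermat.Agent.S55.Middle.DivTorsLevelInst
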