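/-
S55 / MIDDLE block, row 9 of helper17 #2284 (helper32): THE FINAL ASSEMBLY OF THE MIDDLE BLOCK.

Everything of `Formal.ArithSite.ArithBase` is a theorem on main EXCEPT the five closed Props

  `Blocks.HasseO p S`, `Blocks.H2ODivisible p S`, `Blocks2.ImageG3 p S`, `Blocks2.ImageNSS p S`,
  `Blocks.H3OTorsion p S`                                     (`p` odd, `p ∈ S`).

This file wires them:

* `outputs_of_open` : the five Props `→ Blocks.Outputs p S`
  (`H3MuInst.kVanish₃` helper58, `FinMain.kFin` helper48 + `DlocTors.localTorsFinite` helper72,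
  `KummerSquare.kG3 / kNSS` helper17, `KG2Closed.kg2'` helper53);
* `baseA_of_open`, `arithBase_of_open` : `BaseA (arithSite S) 𝔽_p χ_p` and `ArithBase` from the five
  Props, through helper41's `InvFinal` (field `inv` from `KG3 + KNSS`) and helper51's `OutCoverLM`.

So `Fermat/Agent/S55.lean` is
`Formal.Top.result_of_arithBase (Middle.Final.arithBase_of_open fun hp2 S hpS => ⟨…five theorems…⟩) …`.
-/
import Fermat.Agent.S55.Middle.InvFinal
import Fermat.Agent.S55.Middle.KG2Closed
import Fermat.Agent.S55.Middle.FinMain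
import Fermat.Agent.S55.Middle.H3MuInst
import Fermat.Agent.S55.Middle.KummerSquare
import Fermat.Agent.S55.LM.DlocTors

set_option autoImplicit false
set_option linter.unusedSectionVars false

open CategoryTheory groupCohomology Module ExtCitation

namespace Fermat.Agent.S55.Middle.Final

open Fermat.Agent.S55.Formal Fermat.Agent.S55.Formal.ArithSite
open Fermat.Agent.S55.Middle.Blocks Fermat.Agent.S55.Middle.Blocks2

variable {p : ℕ} [Fact p.Prime] {S : Finset Nat.Primes}

/-- The five open Props of the Middle block at `(p, S)`. -/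
structure OpenProps (p : ℕ) [Fact p.Prime] (S : Finset Nat.Primes) : Prop where
  /-- (C3) the Hasse principle for `O_S` -/
  hasseO : HasseO p S
  /-- (C4) divisibility of the `p`-primary part of `H²_LC(P; O_S)` -/
  h2ODiv : H2ODivisible p S
  /-- (C4-G3) -/
  imageG3 : ImageG3 p S
  /-- (C4-NSS) -/
  imageNSS : ImageNSS p S
  /-- (C5a) `H³_LC(P; O_S)` has no `p`-torsion -/
  h3OTors : H3OTorsion p S

/-- **The outputs of the Middle block from its five open Props.** -/
theorem outputs_of_open (hp2 : p ≠ 2) (hpS : pPrime p ∈ S) (h : OpenProps p S) : Outputs p S where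
  vanish₃ := H3MuInst.kVanish₃ p S hpS h.h3OTors h.h2ODiv
  fin := FinMain.kFin hpS h.hasseO (LM.DlocTors.localTorsFinite p S)
  g₃ := KummerSquare.kG3 p S hpS h.imageG3
  g₂ := KG2Closed.kg2' p S hp2 hpS h.hasseO
  nss := KummerSquare.kNSS p S hpS h.imageNSS

/-- **`BaseA` of the arithmetic site from the five open Props.** -/
theorem baseA_of_open (hp2 : p ≠ 2) (hpS : pPrime p ∈ S) (h : OpenProps p S) :
    BaseA (arithSite S) (ZMod p) (cycloChar p) :=
  InvFinal.baseA_of_outputs_only hpS (outputs_of_open hp2 hpS h)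

/-- **`ArithBase` from the five open Props.** -/
theorem arithBase_of_open
    (h : ∀ {p : ℕ} [Fact p.Prime], p ≠ 2 → ∀ (S : Finset Nat.Primes), pPrime p ∈ S →
      OpenProps p S) : ArithBase := fun hp2 S hpS =>
  baseA_of_open hp2 hpS (h hp2 S hpS)

end Fermat.Agent.S55.Middle.Final
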