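/-
S55 / Middle (helper60): variant of `SylowRel.H3_pow_torsion_eq_zero` whose finite-level hypothesis
only concerns levels `N ∈ 𝒰` CONTAINED in the open subgroup `H` (the shape produced by the Galois
dictionary: `N = Gal(ℚ̄/L) ≤ H = Gal(ℚ̄/K')`, `H/N = Gal(L/K')` a `p`-group).

* `PLevelsDieLe 𝒰 M p k H` : for every `N ∈ 𝒰`, `N ≤ H`, with `H/N` a `p`-group, every class of
  `H³(H/N, M^N)` killed by `p^k` dies at a deeper level `N₂ ∈ 𝒰`, `N₂ ≤ N`;
* `H3_pow_torsion_eq_zero_le` : if `PLevelsDieLe` holds for every open `H ≤ P`, then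
  `H³_LC(P; M)` has no `p^k`-torsion.
-/
import Mathlib
import Fermat.Agent.S55.Middle.SylowRel

set_option autoImplicit false
set_option linter.unusedSectionVars false
set_option linter.unusedVariables false
set_option linter.style.haveILetI false

open CategoryTheory groupCohomology

namespace Fermat.Agent.S55.Middle.SylowRelLe

open Fermat.Agent.S55.Formal Fermat.Agent.S55.Bridge.ShapiroLC
open Fermat.Agent.S55.Middle.Dict Fermat.Agent.S55.Middle.DictH3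
open Fermat.Agent.S55.Middle.SylowRel

noncomputable section

variable {k : Type} [CommRing k] {G : Type} [Group G] (𝒰 : NBasis G) (M : Rep.{0, 0, 0} k G)

/-- The finite-level input, for levels `N ∈ 𝒰` contained in `H` only.  (The normality instance of
`N.subgroupOf H` is an explicit instance binder; consumers provide it by `inferInstance` after
`haveI := 𝒰.normal hN`.) -/
def PLevelsDieLe (p k : ℕ) (H : Subgroup G) : Prop :=
  ∀ (N : Subgroup G) (_ : 𝒰.mem N) (_ : N ≤ H) [(N.subgroupOf H).Normal],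
    (∀ h ∈ H, ∃ j : ℕ, h ^ (p ^ j) ∈ N) →
    ∀ y : groupCohomology (Inv (Rep.res H.subtype M) (N.subgroupOf H)) 3, (p ^ k) • y = 0 →
      ∃ (N₂ : Subgroup G) (_ : 𝒰.mem N₂) (hle : N₂ ≤ N) (_ : (N₂.subgroupOf H).Normal),
        transH3 (Rep.res H.subtype M) (Subgroup.subgroupOf_mono H hle) y = 0

/-- **`H³_LC(P; M)` has no `p^k`-torsion**, from the `p`-group levels contained in the open
subgroups `H ≤ P`. -/
theorem H3_pow_torsion_eq_zero_le {P : Subgroup G} (p k : ℕ) [Fact p.Prime]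
    (hP : ∃ N, 𝒰.mem N ∧ N ≤ P)
    (hfin : ∀ H : Subgroup G, H ≤ P → (∃ N, 𝒰.mem N ∧ N ≤ H) → PLevelsDieLe 𝒰 M p k H)
    (x : H3 (subBasis 𝒰 P) (Rep.res P.subtype M)) (hx : (p ^ k) • x = 0) : x = 0 := by
  obtain ⟨V, hVn, hV, y, rfl, hy⟩ :=
    exists_inflH3_nsmul_eq_zero (subBasis 𝒰 P) (Rep.res P.subtype M) (p ^ k) x hx
  obtain ⟨N₁, hN₁, rfl⟩ := hV
  obtain ⟨N₀, hN₀, hN₀P⟩ := hP
  obtain ⟨N, hN, hle⟩ := 𝒰.inf hN₁ hN₀
  have hNP : N ≤ P := fun n hn => hN₀P (hle hn).2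
  haveI := 𝒰.normal hN
  haveI : (N.subgroupOf P).Normal := inferInstance
  have hVW : N.subgroupOf P ≤ N₁.subgroupOf P := fun s hs => (hle hs).1
  have hV1 : (subBasis 𝒰 P).mem (N₁.subgroupOf P) := ⟨N₁, hN₁, rfl⟩
  have hV2 : (subBasis 𝒰 P).mem (N.subgroupOf P) := ⟨N, hN, rfl⟩
  rw [← inflH3_transH3 (subBasis 𝒰 P) (Rep.res P.subtype M) hVW hV1 hV2 y]
  set y' := transH3 (Rep.res P.subtype M) hVW y with hy'
  have hy'0 : (p ^ k) • y' = 0 := by rw [hy', ← map_nsmul, hy, map_zero]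
  obtain ⟨H, hNH, hHP, hpH, hHp⟩ := exists_sylow_open 𝒰 p hN hNP
  have hHo : ∃ N, 𝒰.mem N ∧ N ≤ H := ⟨N, hN, hNH⟩
  have hcop : Nat.Coprime (p ^ k) (H.relIndex P) :=
    Nat.Coprime.pow_left k ((Nat.Prime.coprime_iff_not_dvd Fact.out).mpr hpH)
  apply eq_zero_of_res_rel_h3 𝒰 M hHP hHo hcop
  · rw [← map_nsmul, hy'0, map_zero]
  · haveI : (N.subgroupOf H).Normal := inferInstance
    have hV3 : (subBasis 𝒰 H).mem (N.subgroupOf H) := ⟨N, hN, rfl⟩
    have hle' : ∀ s ∈ N.subgroupOf H, (resPH 𝒰 M hHP).f s ∈ N.subgroupOf P := fun s hs => hs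
    rw [h3_inflH3 (resPH 𝒰 M hHP) hle' hV2 hV3 y']
    set y'' := (groupCohomology.map (qf (resPH 𝒰 M hHP) hle')
      (lvlHom (resPH 𝒰 M hHP) hle') 3).hom y' with hy''
    have hy''0 : (p ^ k) • y'' = 0 := by rw [hy'', ← map_nsmul, hy'0, map_zero]
    obtain ⟨N₂, hN₂, hle₂, hn₂, h0⟩ := hfin H hHP hHo N hN hNH hHp y'' hy''0
    exact (inflH3_eq_zero_iff (subBasis 𝒰 H) (Rep.res H.subtype M) hV3 y'').mpr
      ⟨N₂.subgroupOf H, hn₂, ⟨N₂, hN₂, rfl⟩, Subgroup.subgroupOf_mono H hle₂, h0⟩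

/-- the general-level hypothesis of `SylowRel` implies the restricted one -/
theorem pLevelsDieLe_of_pLevelsDie {p k : ℕ} {H : Subgroup G}
    (hH : ∃ N, 𝒰.mem N ∧ N ≤ H) (h : PLevelsDie 𝒰 M p k H) :
    PLevelsDieLe 𝒰 M p k H := by
  intro N hN hNH hn hpg y hy
  obtain ⟨W', hW'n, ⟨N', hN', rfl⟩, hle, h0⟩ :=
    h (N.subgroupOf H) hn ⟨N, hN, rfl⟩ (fun h => by
      obtain ⟨j, hj⟩ := hpg h.1 h.2
      exact ⟨j, by simpa [Subgroup.mem_subgroupOf] using hj⟩) y hy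
  -- shrink `N'` to a member of `𝒰` inside `N`
  obtain ⟨N₂, hN₂, hle₂⟩ := 𝒰.inf hN' hN
  haveI := 𝒰.normal hN₂
  have hN₂N : N₂ ≤ N := fun s hs => (hle₂ hs).2
  have hN₂N' : N₂.subgroupOf H ≤ N'.subgroupOf H := fun s hs => (hle₂ hs).1
  refine ⟨N₂, hN₂, hN₂N, inferInstance, ?_⟩
  -- transition to `N₂` factors through the transition to `N'`
  have hcomp : transH3 (Rep.res H.subtype M) (Subgroup.subgroupOf_mono H hN₂N) y =
      transH3 (Rep.res H.subtype M) hN₂N' (transH3 (Rep.res H.subtype M) hle y) := by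
    obtain ⟨z, rfl⟩ := Coh.H3Pi.H3π_surjective _ y
    rw [transH3_π, transH3_π, transH3_π]
    congr 1
    apply Subtype.ext
    exact (trans₃_trans₃ (Rep.res H.subtype M) hle hN₂N' z.1).symm
  rw [hcomp, h0, map_zero]

end

end Fermat.Agent.S55.Middle.SylowRelLe
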