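/-
S55 / Middle (helper66, second seat of row H3KS = M.hbnH3.level, table #2284 row 5):
FINAL ASSEMBLY of the colimit form of (HBN-H3):

  `H³_LC(P; ℚ_Sˣ)` has no `p`-power torsion  (`H3OInst.H3KxTorsionFree p S`).

* `LevelKill p S` : the finite-level statement in the language of the Galois dictionary: for an
  open `H` on which the mod `p` cyclotomic character is trivial and a Galois level `L` with `H/lvl`
  a `p`-group, there is `k` such that every deeper `p`-group level `L₂ ⊇ L(μ_{p^k})` kills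
  `H³(H/lvl H L, (KS S)^{lvl})`;
* `h3KxTorsionFree_of_levelKill` : `LevelKill p S → H3OInst.H3KxTorsionFree p S`
  (`SylowRelLe.H3_pow_torsion_eq_zero_le` + `CycloPow`);
* (in `Middle/H3KSLevel.lean`) `levelKill` : `LevelKill p S` from `Blocks4.CycloKillsH3 p` and
  `H³(J) = 0` (`HbnH3Cyclo.hbnH3_cyclo` transported by `GaloisDictTrans.transH3_eq_zero_iff`).
-/
import Fermat.Agent.S55.Middle.SylowRelLe
import Fermat.Agent.S55.Middle.GaloisDict
import Fermat.Agent.S55.Middle.CycloPow
import Fermat.Agent.S55.Middle.H3OInst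

set_option autoImplicit false
set_option linter.unusedSectionVars false
set_option linter.unusedVariables false
set_option linter.style.haveILetI false

open CategoryTheory groupCohomology ExtCitation

namespace Fermat.Agent.S55.Middle.H3KSAsm

noncomputable section

open Fermat.Agent.S55.Formal
open Fermat.Agent.S55.Formal.PreludeLC hiding GQ Qbar
open Fermat.Agent.S55.Middle.Defs Fermat.Agent.S55.Middle.Dict
open Fermat.Agent.S55.Middle.GaloisDict
open Fermat.Agent.S55.Middle.CycloPow (cycloPowField)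

local instance isAlgebraicQbar_h3ks : Algebra.IsAlgebraic ℚ (AlgebraicClosure ℚ) :=
  AlgebraicClosure.isAlgebraic ℚ
local instance isAlgClosureQbar_h3ks : IsAlgClosure ℚ (AlgebraicClosure ℚ) :=
  ⟨inferInstance, inferInstance⟩
local instance normalQbar_h3ks : Normal ℚ (AlgebraicClosure ℚ) :=
  IsAlgClosure.normal ℚ (AlgebraicClosure ℚ)
local instance isGaloisQbar_h3ks : IsGalois ℚ (AlgebraicClosure ℚ) := ⟨⟩

variable (p : ℕ) [Fact p.Prime] (S : Finset Nat.Primes)

/-- **Finite-level form of (HBN-H3) in the language of the Galois dictionary.** -/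
def LevelKill : Prop :=
  ∀ (H : Subgroup GQ), IsOpenSub (globalBasis S) H → (∀ g ∈ H, cycloChar p g = 1) →
    ∀ (L : IntermediateField ℚ Qbar) [Normal ℚ L], L.IsUnramifiedOutside S →
      L.fixingSubgroup ≤ H → (∀ h ∈ H, ∃ j : ℕ, h ^ (p ^ j) ∈ L.fixingSubgroup) →
      ∃ k : ℕ, ∀ (L₂ : IntermediateField ℚ Qbar) [Normal ℚ L₂], L₂.IsUnramifiedOutside S →
        ∀ (hLL : L ≤ L₂), L₂.fixingSubgroup ≤ H →
          (∀ h ∈ H, ∃ j : ℕ, h ^ (p ^ j) ∈ L₂.fixingSubgroup) → cycloPowField p k ≤ L₂ →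
          ∀ y : groupCohomology (Inv (KSH S H) (lvl H L)) 3,
            DictH3.transH3 (KSH S H) (lvl_le_of_le H L L₂ hLL) y = 0

variable {p S}

/-- the fixing subgroup of a normal intermediate field is normal -/
theorem fixingSubgroup_normal (L : IntermediateField ℚ Qbar) [Normal ℚ L] :
    L.fixingSubgroup.Normal := by
  rw [← resL_ker L]
  infer_instance

/-- powers: if `h ^ (p ^ a) ∈ A` and `h ^ (p ^ b) ∈ B` then `h ^ (p ^ (a + b)) ∈ A ⊓ B`. -/
theorem pow_mem_inf {G : Type} [Group G] {A B : Subgroup G} {h : G} {a b : ℕ}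
    (ha : h ^ (p ^ a) ∈ A) (hb : h ^ (p ^ b) ∈ B) : h ^ (p ^ (a + b)) ∈ A ⊓ B := by
  refine ⟨?_, ?_⟩
  · rw [pow_add, pow_mul]
    exact A.pow_mem ha _
  · rw [pow_add, mul_comm, pow_mul]
    exact B.pow_mem hb _

/-- **Assembly**: the finite-level statement gives the colimit statement. -/
theorem h3KxTorsionFree_of_levelKill (hpS : pPrime p ∈ S) (h : LevelKill p S) :
    H3OInst.H3KxTorsionFree p S := by
  intro P hP x j hx
  refine SylowRelLe.H3_pow_torsion_eq_zero_le (globalBasis S) (KS S) p j hP.isOpen ?_ x hx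
  intro H hHP hHo N hN hNH inst hpg y hy
  obtain ⟨F, hF, hn, rfl⟩ := hN
  haveI : Normal ℚ F := normal_of_fixingSubgroup_normal F hn
  have hχ : ∀ g ∈ H, cycloChar p g = 1 := fun g hg => hP.triv g (hHP hg)
  obtain ⟨k, hk⟩ := h H hHo hχ F hF hNH hpg
  have hnC : (cycloPowField p k).fixingSubgroup.Normal :=
    CycloPow.normal_fixingSubgroup_cycloPowField p k
  have hn₂ : (F ⊔ cycloPowField p k).fixingSubgroup.Normal := by
    rw [IntermediateField.fixingSubgroup_sup]
    haveI := hn
    haveI := hnC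
    infer_instance
  haveI : Normal ℚ ↥(F ⊔ cycloPowField p k) := normal_of_fixingSubgroup_normal _ hn₂
  have hL₂ : (F ⊔ cycloPowField p k).IsUnramifiedOutside S :=
    hF.sup (CycloPow.cycloPowField_isUnramifiedOutside p k hpS)
  have hLL : F ≤ F ⊔ cycloPowField p k := le_sup_left
  have hle₂ : (F ⊔ cycloPowField p k).fixingSubgroup ≤ H :=
    (IntermediateField.fixingSubgroup_antitone hLL).trans hNH
  have hpg₂ : ∀ h ∈ H, ∃ j : ℕ, h ^ (p ^ j) ∈ (F ⊔ cycloPowField p k).fixingSubgroup := by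
    intro g hg
    obtain ⟨a, ha⟩ := hpg g hg
    obtain ⟨b, hb⟩ := CycloPow.exists_pow_mem_fixingSubgroup p k g (hχ g hg)
    refine ⟨a + b, ?_⟩
    rw [IntermediateField.fixingSubgroup_sup]
    exact pow_mem_inf ha hb
  have h0 := hk (F ⊔ cycloPowField p k) hL₂ hLL hle₂ hpg₂ le_sup_right y
  haveI := hn₂
  exact ⟨(F ⊔ cycloPowField p k).fixingSubgroup, ⟨F ⊔ cycloPowField p k, hL₂, hn₂, rfl⟩,
    IntermediateField.fixingSubgroup_antitone hLL, inferInstance, h0⟩

end

end Fermat.Agent.S55.Middle.H3KSAsm
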