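/-
S55 / MIDDLE block, row M.hbnH3.cyclo (helper63; LEAF 1 of helper21's row M.hbnH3.level).

`hbnH3_cyclo` : the UNIFORM form of (HBN-H3): `K ∋ ζ_p`, `p` odd, `L/K` Galois of degree `p ^ a`.
Then there is `k` such that for EVERY `M ⊇ L`, Galois of `p`-power degree over `K` and containing a
primitive `p ^ k`-th root of unity, every class of `H³(Gal(L/K), Lˣ)` dies in `H³(Gal(M/K), Mˣ)`.

Proof: `CycloLayer.exists_cyclic_layer` gives a cyclic layer `F ≤ K(ζ_{p^k})` of degree `p ^ a`;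
a primitive `p ^ k`-th root of unity in `M` gives `K(ζ_{p^k}) →ₐ[K] M`, and the image `F'` of `F`
in `M` is a cyclic cyclotomic layer inside `M` with `[F' : K] = [L : K]`; apply `HbnH3Inst.hbnH3`.
-/
import Mathlib
import Fermat.Agent.S55.Middle.HbnH3Inst
import Fermat.Agent.S55.Global.CycloLayer

set_option autoImplicit false

namespace Fermat.Agent.S55.Middle.HbnH3Cyclo

open CategoryTheory CategoryTheory.Limits groupCohomology Rep NumberField Polynomial
open Fermat.Agent.S55.Global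

/-- a primitive `n`-th root of unity in `M` gives an embedding of the `n`-th cyclotomic field. -/
theorem nonempty_cyclotomicField_algHom (n : ℕ) [NeZero n] (K M : Type) [Field K] [CharZero K]
    [Field M] [Algebra K M] (h : ∃ ζ : M, IsPrimitiveRoot ζ n) :
    Nonempty (CyclotomicField n K →ₐ[K] M) := by
  obtain ⟨ζ, hζ⟩ := h
  have : IsSplittingField K (CyclotomicField n K) (X ^ n - 1) :=
    IsCyclotomicExtension.isSplittingField_X_pow_sub_one (n := n) K (CyclotomicField n K)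
  refine ⟨IsSplittingField.lift (CyclotomicField n K) (X ^ n - 1 : K[X]) ?_⟩
  have := X_pow_sub_one_splits hζ
  simpa using this

/-- transport of the cyclic layer along an embedding. -/
theorem exists_layer_map (K C M : Type) [Field K] [Field C] [Field M] [Algebra K C] [Algebra K M]
    (f : C →ₐ[K] M) (F : IntermediateField K C) (hgal : IsGalois K F)
    (hcyc : IsCyclic (F ≃ₐ[K] F)) :
    IsGalois K ↥(F.map f) ∧ IsCyclic (↥(F.map f) ≃ₐ[K] ↥(F.map f)) ∧
      Module.finrank K ↥(F.map f) = Module.finrank K F ∧ Nonempty (↥(F.map f) →ₐ[K] C) := by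
  let e : F ≃ₐ[K] ↥(F.map f) := IntermediateField.equivMap F f
  refine ⟨IsGalois.of_algEquiv e, ?_, e.toLinearEquiv.finrank_eq.symm,
    ⟨F.val.comp (e.symm : ↥(F.map f) →ₐ[K] F)⟩⟩
  exact isCyclic_of_surjective (AlgEquiv.autCongr e) (AlgEquiv.autCongr e).surjective

/-- **(HBN-H3), uniform cyclotomic form.** -/
theorem hbnH3_cyclo {p : ℕ} (K L : Type) [Field K] [NumberField K] [Field L] [NumberField L]
    [Algebra K L] [IsGalois K L] (hkill : Blocks4.CycloKillsH3 p)
    (hJ3 : ∀ T : Finset Nat.Primes, IsZero (groupCohomology (Objects2.Jn K L T) 3))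
    (hp : p.Prime) (hodd : p ≠ 2) (hζ : ∃ ζ : K, IsPrimitiveRoot ζ p) (a : ℕ)
    (hLK : Module.finrank K L = p ^ a) :
    ∃ k : ℕ, ∀ (M : Type) [Field M] [NumberField M] [Algebra K M] [Algebra L M]
      [IsScalarTower K L M] [IsGalois K M], (∃ n : ℕ, Module.finrank K M = p ^ n) →
      (∃ ζ : M, IsPrimitiveRoot ζ (p ^ k)) →
      ∀ y : groupCohomology (Objects2.Lxn K L) 3, (TransitionQ.inflLxn K L M 3).hom y = 0 := by
  have : Fact p.Prime := ⟨hp⟩
  obtain ⟨k, F, hgal, hdeg, hcyc⟩ := CycloLayer.exists_cyclic_layer p hodd K a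
  refine ⟨k, fun M _ _ _ _ _ _ hpp hζM y => ?_⟩
  have : NeZero (p ^ k) := ⟨pow_ne_zero _ hp.ne_zero⟩
  obtain ⟨f⟩ := nonempty_cyclotomicField_algHom (p ^ k) K M hζM
  obtain ⟨hgal', hcyc', hfr, hC⟩ :=
    exists_layer_map K (CyclotomicField (p ^ k) K) M f F hgal hcyc
  exact HbnH3Inst.hbnH3 K L ↥(F.map f) M hkill hJ3 hp hodd hζ hpp hcyc'
    ⟨k, CyclotomicField (p ^ k) K, inferInstance, inferInstance, inferInstance, hC⟩
    (by rw [hfr, hdeg, hLK]) y

end Fermat.Agent.S55.Middle.HbnH3Cyclo
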