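/-
S55 / Middle (helper66, second seat of row H3KS = M.hbnH3.level): PART B of the assembly of
`H3OInst.H3KxTorsionFree p S`.

* `levelKill` : `H3KSAsm.LevelKill p S` — the finite-level (HBN-H3) in the language of the Galois
  dictionary — from `HbnH3Cyclo.hbnH3_cyclo` (uniform cyclotomic form of (HBN-H3)) transported by
  `GaloisDictTrans.transH3_eq_zero_iff`;
* `h3KxTorsionFree (hodd : p ≠ 2) (hpS : pPrime p ∈ S) : H3OInst.H3KxTorsionFree p S`
  (UNCONDITIONAL: `Global.FinalClosed.cycloKillsH3`, `Global.Final.isZero_H3_Jn`).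
-/
import Fermat.Agent.S55.Middle.H3KSAsm
import Fermat.Agent.S55.Middle.GaloisDictTrans
import Fermat.Agent.S55.Middle.HbnH3Cyclo
import Fermat.Agent.S55.Middle.LevelField
import Fermat.Agent.S55.Global.FinalClosed

set_option autoImplicit false
set_option linter.unusedSectionVars false
set_option linter.unusedVariables false
set_option linter.style.haveILetI false

open CategoryTheory groupCohomology ExtCitation

namespace Fermat.Agent.S55.Middle.H3KSLevel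

noncomputable section

open Fermat.Agent.S55.Formal
open Fermat.Agent.S55.Formal.PreludeLC hiding GQ Qbar
open Fermat.Agent.S55.Middle.Defs Fermat.Agent.S55.Middle.Dict
open Fermat.Agent.S55.Middle.GaloisDict Fermat.Agent.S55.Middle.GaloisDictModel
open Fermat.Agent.S55.Middle.GaloisDictTrans Fermat.Agent.S55.Middle.OSDict
open Fermat.Agent.S55.Middle.CycloPow (cycloPowField)
open Fermat.Agent.S55.Global

local instance isAlgebraicQbar_h3kl : Algebra.IsAlgebraic ℚ (AlgebraicClosure ℚ) :=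
  AlgebraicClosure.isAlgebraic ℚ
local instance isAlgClosureQbar_h3kl : IsAlgClosure ℚ (AlgebraicClosure ℚ) :=
  ⟨inferInstance, inferInstance⟩
local instance normalQbar_h3kl : Normal ℚ (AlgebraicClosure ℚ) :=
  IsAlgClosure.normal ℚ (AlgebraicClosure ℚ)
local instance isGaloisQbar_h3kl : IsGalois ℚ (AlgebraicClosure ℚ) := ⟨⟩

variable {p : ℕ} [Fact p.Prime] {S : Finset Nat.Primes}

/-- the degree of a `p`-group level is a power of `p` -/
theorem exists_finrank_Lext_eq_pow (H : Subgroup GQ) (L : IntermediateField ℚ Qbar) [Normal ℚ L]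
    (hKL : K₀ H ≤ L) (hL : L.IsUnramifiedOutside S) (hle : L.fixingSubgroup ≤ H)
    (hpg : ∀ h ∈ H, ∃ j : ℕ, h ^ (p ^ j) ∈ L.fixingSubgroup) :
    ∃ a : ℕ, Module.finrank ↥(K₀ H) ↥(Lext H L hKL) = p ^ a := by
  haveI : FiniteDimensional ℚ ↥L := hL.1
  haveI : L.fixingSubgroup.FiniteIndex := finiteIndex_fixingSubgroup L
  haveI : (lvl H L).FiniteIndex := inferInstance
  have hpg' : ∀ g : ↥H, ∃ j : ℕ, g ^ (p ^ j) ∈ lvl H L := by
    intro g
    obtain ⟨j, hj⟩ := hpg g.1 g.2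
    exact ⟨j, by simpa [Subgroup.mem_subgroupOf] using hj⟩
  obtain ⟨a, ha⟩ := SylowRel.exists_card_quotient_eq_pow p (lvl H L) hpg'
  exact ⟨a, by rw [finrank_Lext S H L hKL hL hle, ha]⟩

/-- a primitive `p ^ k`-th root of unity in a level containing `ℚ(μ_{p^k})` -/
theorem exists_primitiveRoot_Lext (H : Subgroup GQ) (L : IntermediateField ℚ Qbar)
    (hKL : K₀ H ≤ L) (k : ℕ) (hC : cycloPowField p k ≤ L) :
    ∃ ζ : ↥(Lext H L hKL), IsPrimitiveRoot ζ (p ^ k) := by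
  obtain ⟨ζ, hζ⟩ := CycloPow.exists_primitiveRoot_cycloPowField p k
  have h1 : IsPrimitiveRoot ((ζ : ↥(cycloPowField p k)) : Qbar) (p ^ k) :=
    hζ.map_of_injective (f := (cycloPowField p k).val) (cycloPowField p k).val.injective
  refine ⟨⟨(ζ : Qbar), hC ζ.2⟩, ?_⟩
  exact IsPrimitiveRoot.of_map_of_injective (f := (Lext H L hKL).val) (by simpa using h1)
    (Lext H L hKL).val.injective

/-- **PART B**: the finite-level (HBN-H3) in the language of the Galois dictionary. -/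
theorem levelKill (hodd : p ≠ 2) (hpS : pPrime p ∈ S) (hkill : Blocks4.CycloKillsH3 p) :
    H3KSAsm.LevelKill p S := by
  intro H hH hχ L _ hL hle hpg
  have hKL : K₀ H ≤ L := fixedField_le_of_le hle
  haveI : NumberField ↥(K₀ H) := numberField_K₀ hH
  haveI : NumberField ↥(Lext H L hKL) := numberField_Lext L hKL hL
  haveI : IsGalois ↥(K₀ H) ↥(Lext H L hKL) := isGalois_Lext H L hKL
  have hζ : ∃ ζ : ↥(K₀ H), IsPrimitiveRoot ζ p :=
    LevelField.exists_zeta (p := p) (S := S) (P := H) ⟨hH, hχ⟩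
  obtain ⟨a, ha⟩ := exists_finrank_Lext_eq_pow H L hKL hL hle hpg
  obtain ⟨k, hk⟩ := HbnH3Cyclo.hbnH3_cyclo ↥(K₀ H) ↥(Lext H L hKL) hkill
    (fun T => Final.isZero_H3_Jn ↥(K₀ H) ↥(Lext H L hKL) T) (Fact.out : p.Prime) hodd hζ a ha
  refine ⟨k, fun L₂ _ hL₂ hLL hle₂ hpg₂ hC y => ?_⟩
  have hKL₂ : K₀ H ≤ L₂ := fixedField_le_of_le hle₂
  haveI : NumberField ↥(Lext H L₂ hKL₂) := numberField_Lext L₂ hKL₂ hL₂
  haveI : IsGalois ↥(K₀ H) ↥(Lext H L₂ hKL₂) := isGalois_Lext H L₂ hKL₂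
  letI : Algebra ↥(Lext H L hKL) ↥(Lext H L₂ hKL₂) := algebraLext H L L₂ hKL hKL₂ hLL
  haveI : IsScalarTower ↥(K₀ H) ↥(Lext H L hKL) ↥(Lext H L₂ hKL₂) :=
    isScalarTower_Lext H L L₂ hKL hKL₂ hLL
  haveI : Normal ↥(K₀ H) ↥(Lext H L hKL) := normal_Lext H L hKL
  have hpp : ∃ n : ℕ, Module.finrank ↥(K₀ H) ↥(Lext H L₂ hKL₂) = p ^ n :=
    exists_finrank_Lext_eq_pow H L₂ hKL₂ hL₂ hle₂ hpg₂
  have hζM : ∃ ζ : ↥(Lext H L₂ hKL₂), IsPrimitiveRoot ζ (p ^ k) :=
    exists_primitiveRoot_Lext H L₂ hKL₂ k hC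
  have h0 := hk ↥(Lext H L₂ hKL₂) hpp hζM ((cohIsoExt S H L hKL hL hle 3).hom.hom y)
  exact (transH3_eq_zero_iff S H L L₂ hKL hKL₂ hLL hL hL₂ hle hle₂ (fun _ => rfl) y).mpr h0

/-- **(HBN-H3), colimit form — UNCONDITIONAL**: `H³_LC(P; ℚ_Sˣ)` has no `p`-power torsion. -/
theorem h3KxTorsionFree (hodd : p ≠ 2) (hpS : pPrime p ∈ S) : H3OInst.H3KxTorsionFree p S :=
  H3KSAsm.h3KxTorsionFree_of_levelKill hpS (levelKill hodd hpS (FinalClosed.cycloKillsH3 p))

end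

end Fermat.Agent.S55.Middle.H3KSLevel
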