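/-
S55 / Middle (helper79): ROW (LOC-off), `off ∘ inflL` for an ARBITRARY global class.

`LocOff.off_inflL_of_isTUnitClass` computes `off (inflL y) = jB T (y ⊗ 1)` for a `T`-unit class `y`.
Every class is a `T`-unit class for `T` large, and `jB` does not depend on the auxiliary set of
primes (`LocOffMono`), hence for ANY `y` and any class `b` over a set `T₁` of primes agreeing with
`y` at the primes (places) of `T₁ ∖ S`, `y` being trivial at the primes (places) off `T₁ ∪ S`:

  `off (inflL y) = jB T₁ b`.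

* `exists_finset_isTUnitClass` : every class of `H²(Gal(L/K), Lˣ)` is a `T`-unit class, `T ⊇ T₀`;
* `off_inflL_eq_jB_of_proj` : the statement above, per-prime form (`LocalProdT.projQ`, `LxToJA`);
* `map_LxToJA_eq_of_places` : per-place ⇒ per-prime (`LocalProdBridge.cohEquivPlace`);
* `off_inflL_eq_jB_of_locFam` : the per-place form (`ImageFiniteCore.locFam`, `cohEquivLoc`);
* `off_inflL_eq_jB_toJn` : the family form (`ImageFiniteCore.toJn`).
-/
import Mathlib
import Fermat.Agent.S55.Middle.LocOffMono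
import Fermat.Agent.S55.Global.LocalProdBridge
import Fermat.Agent.S55.Middle.ImageFiniteCore

set_option autoImplicit false
set_option linter.unusedSectionVars false
set_option linter.style.haveILetI false

open scoped TensorProduct Pointwise
open CategoryTheory groupCohomology

namespace Fermat.Agent.S55.Middle.LocOffGlobal

noncomputable section

open Fermat.Agent.S55.Formal Fermat.Agent.S55.Formal.LCLevel Fermat.Agent.S55.Formal.LCLevelH
open Fermat.Agent.S55.Middle.Defs Fermat.Agent.S55.Middle.DivDef Fermat.Agent.S55.Middle.Cap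
open Fermat.Agent.S55.Middle.CapDiv Fermat.Agent.S55.Middle.LocOffVal
open Fermat.Agent.S55.Middle.LocOffNorm Fermat.Agent.S55.Middle.LocOff
open Fermat.Agent.S55.Middle.LocOffSupp Fermat.Agent.S55.Middle.LocOffMono
open Fermat.Agent.S55.Global.Objects Fermat.Agent.S55.Global.Objects2
open Fermat.Agent.S55.Global Fermat.Agent.S55.Global.Blocks3
open Fermat.Agent.S55.Global.LocalProd Fermat.Agent.S55.Global.LocalProdT
open Fermat.Agent.S55.Global.LocalProdCoh Fermat.Agent.S55.Global.LocalProdBridge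
open Fermat.Agent.S55.Middle.ImageFiniteCore

section TUnit

variable (K : Type) [Field K] [NumberField K] (L : Type) [Field L] [NumberField L] [Algebra K L]

/-- every class of `H²(Gal(L/K), Lˣ)` is a `T`-unit class for all `T` containing a suitable finite
set of primes -/
theorem exists_finset_isTUnitClass (y : groupCohomology (Rep.ofAlgebraAutOnUnits K L) 2) :
    ∃ T₀ : Finset Nat.Primes, ∀ T : Finset Nat.Primes, T₀ ⊆ T →
      HbnCoker.IsTUnitClass K L T y := by
  induction y using H2_induction_on with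
  | h f =>
    haveI : FiniteDimensional K L := Module.Finite.of_restrictScalars_finite ℚ K L
    haveI : Finite (L ≃ₐ[K] L) := inferInstance
    have h := HasseH2.exists_finset_forall_mem_EUnitsQ L
      (fun gh : (L ≃ₐ[K] L) × (L ≃ₐ[K] L) => (Additive.toMul (f gh) : Lˣ))
    cases' h with T₀ hT₀
    exact ⟨T₀, fun T hT => ⟨f, rfl, fun g h => hT₀ T hT (g, h)⟩⟩

/-- per-place ⇒ per-prime: a class `x` of `H²(Gal(L/K), (L ⊗ ℚ_q)ˣ)` all of whose place-components
are the localisations of the global class `y` is the image of `y` -/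
theorem map_LxToJA_eq_of_places (T : Finset Nat.Primes) (q : T)
    (y : groupCohomology (Rep.ofAlgebraAutOnUnits K L) 2)
    (x : groupCohomology (Jq K L (q : Nat.Primes)) 2)
    (h : ∀ 𝔪 : MaximalSpectrum (Ksemi K (q : Nat.Primes)),
      (locH K L (Kloc K (q : Nat.Primes) 𝔪.asIdeal) 2).hom y =
        (groupCohomology.map (MonoidHom.id (L ≃ₐ[K] L)) (projPlace K L T q 𝔪) 2).hom x) :
    (groupCohomology.map (MonoidHom.id (L ≃ₐ[K] L))
        (LxToJA K L ℚ_[((q : Nat.Primes) : ℕ)]) 2).hom y = x := by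
  apply (cohEquivPlace K L T q 2).injective
  funext 𝔪
  rw [cohEquivPlace_apply, cohEquivPlace_apply]
  have e := groupCohomology.map_id_comp (LxToJA K L ℚ_[((q : Nat.Primes) : ℕ)])
    (projPlace K L T q 𝔪) 2
  rw [LxToJA_comp_projPlace K L T q 𝔪] at e
  have e' := congrArg (fun φ => φ.hom y) e
  exact e'.symm.trans (h 𝔪)

end TUnit

section Level

variable {S : Finset Nat.Primes} {P : Subgroup GQ} {𝒱 : NBasis ↥P}
  (hfine : IsCont (PreludeLC.globalBasis S) 𝒱 P.subtype) (hfin : P.FiniteIndex)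
variable (K : Type) [Field K] [NumberField K] {L : Type} [Field L] [NumberField L] [Algebra K L]
  (ι : L →+* Qbar) (T₁ : Finset Nat.Primes)
  {F : IntermediateField ℚ Qbar} (hF : F.IsUnramifiedOutside S) (hι : ∀ l : L, ι l ∈ F)
variable (V : Subgroup ↥P) [V.Normal] (φ : ↥P ⧸ V →* (L ≃ₐ[K] L))
  (hφ : ∀ (h : ↥P) (l : L), ι (φ (h : ↥P ⧸ V) l) = (h : GQ) (ι l))
variable [Finite (↥P ⧸ V)] (hV : 𝒱.mem V)

/-- **`off ∘ inflL` of an arbitrary global class, per-prime form.**  If `b` over `T₁` has the same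
components as the global class `y` at the primes of `T₁ ∖ S` and `y` is trivial at the primes off
`T₁ ∪ S`, then `off (inflL y) = jB T₁ b`. -/
theorem off_inflL_eq_jB_of_proj (y : groupCohomology (Rep.ofAlgebraAutOnUnits K L) 2)
    (b : groupCohomology (Jn K L T₁) 2)
    (h1 : ∀ (q : Nat.Primes) (h₁ : q ∈ T₁), q ∉ S →
      (groupCohomology.map (MonoidHom.id (L ≃ₐ[K] L))
        (LxToJA K L ℚ_[((q : Nat.Primes) : ℕ)]) 2).hom y =
        (groupCohomology.map (MonoidHom.id (L ≃ₐ[K] L)) (projQ K L T₁ ⟨q, h₁⟩) 2).hom b)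
    (h2 : ∀ q : Nat.Primes, q ∉ S → q ∉ T₁ →
      (groupCohomology.map (MonoidHom.id (L ≃ₐ[K] L))
        (LxToJA K L ℚ_[((q : Nat.Primes) : ℕ)]) 2).hom y = 0) :
    (Mor.ofHom 𝒱 (divMap hfine hfin)).h2 (inflL K ι hF hι V φ hφ hV y) =
      jB hfine hfin K ι T₁ hF hι V φ hφ hV b := by
  have h := exists_finset_isTUnitClass K L y
  cases' h with T₀ hT₀
  have hz := hT₀ (T₀ ∪ T₁) Finset.subset_union_left
  rw [off_inflL_of_isTUnitClass hfine hfin K ι (T₀ ∪ T₁) hF hι V φ hφ hV y hz]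
  exact jB_LxToJn_eq_of_proj hfine hfin K ι T₁ (T₀ ∪ T₁) hF hι V φ hφ hV
    Finset.subset_union_right y b h1 (fun q _ hqS hq₁ => h2 q hqS hq₁)

/-- **`off ∘ inflL` of an arbitrary global class, per-place form.** -/
theorem off_inflL_eq_jB_of_locFam (y : groupCohomology (Rep.ofAlgebraAutOnUnits K L) 2)
    (b : groupCohomology (Jn K L T₁) 2)
    (h1 : ∀ x : PlaceIdx K T₁, ((x.1 : T₁) : Nat.Primes) ∉ S →
      locFam K L y ⟨x.1.1, x.2⟩ = cohEquivLoc K L T₁ 2 b x)
    (h2 : ∀ x : Pl K, x.1 ∉ S → x.1 ∉ T₁ → locFam K L y x = 0) :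
    (Mor.ofHom 𝒱 (divMap hfine hfin)).h2 (inflL K ι hF hι V φ hφ hV y) =
      jB hfine hfin K ι T₁ hF hι V φ hφ hV b := by
  apply off_inflL_eq_jB_of_proj hfine hfin K ι T₁ hF hι V φ hφ hV y b
  · intro q h₁ hqS
    apply map_LxToJA_eq_of_places K L T₁ ⟨q, h₁⟩ y
    intro 𝔪
    have e1 := h1 ⟨⟨q, h₁⟩, 𝔪⟩ hqS
    rw [locFam_apply, cohEquivLoc_apply] at e1
    refine e1.trans ?_
    exact (map_projPlace_map_projQ K L T₁ 2 b ⟨q, h₁⟩ 𝔪).symm
  · intro q hqS hq₁
    apply map_LxToJA_eq_of_places K L {q} ⟨q, Finset.mem_singleton_self q⟩ y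
    intro 𝔪
    have e2 := h2 ⟨q, 𝔪⟩ hqS hq₁
    rw [locFam_apply] at e2
    rw [map_zero]
    exact e2

/-- **`off ∘ inflL` of an arbitrary global class, family form.**  If the family of localisations
of `y` agrees off `S` with a family `c` supported in `T₁ ∪ S`, then
`off (inflL y) = jB T₁ (toJn T₁ c)`. -/
theorem off_inflL_eq_jB_toJn (y : groupCohomology (Rep.ofAlgebraAutOnUnits K L) 2)
    (c : Fam K L) (hy : ∀ x : Pl K, x.1 ∉ S → locFam K L y x = c x)
    (hc : ∀ x : Pl K, x.1 ∉ S → x.1 ∉ T₁ → c x = 0) :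
    (Mor.ofHom 𝒱 (divMap hfine hfin)).h2 (inflL K ι hF hι V φ hφ hV y) =
      jB hfine hfin K ι T₁ hF hι V φ hφ hV (toJn T₁ c) := by
  apply off_inflL_eq_jB_of_locFam hfine hfin K ι T₁ hF hι V φ hφ hV y (toJn T₁ c)
  · intro x hx
    rw [cohEquivLoc_toJn]
    exact hy ⟨x.1.1, x.2⟩ hx
  · intro x hxS hx₁
    rw [hy x hxS]
    exact hc x hxS hx₁

end Level

end

end Fermat.Agent.S55.Middle.LocOffGlobal
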