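/-
S55 / Middle (helper5): ROW (LOC-off), version 2 = the hypothesis `hjB : Function.Injective jB` of
`ImageLevel.adj_of_level` / `not_rel_of_level`.

* `eq_zero_of_map_eq_zero`, `map_injective` (abstract, Mathlib `groupCohomology`): for a bijective
  `f : G' →* G`, representations `U J` of `G`, `D` of `G'`, `incl : U ⟶ J` injective,
  `val : res f J ⟶ D` with kernel `range incl`, `H²(G, U) = 0`, and an equivariant endomorphism `e`
  of `D` fixing the values of `val` and with `range e ⊆ range val`: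
  `H²(f, val) : H²(G, J) → H²(G', D)` is injective.
* `suppProj 𝒰 X Y` : the projector "restrict a divisor to the `G`-stable subset `Y ⊆ X`" of
  `DivDef.Div 𝒰 X`;
* `jB_injective` : for `val : res f J ⟶ (Div 𝒰 X)^V` with kernel `U`, `H²(U) = 0`, values
  supported in `Y` and onto the `V`-invariant divisors supported in `Y`, the composite
  `ι₂ ∘ H²(f, val) : H²(Γ, J) → H²_LC(G; Div)` is injective (uses `DivLevel.ι₂_div_injective`).
-/
import Mathlib
import Fermat.Agent.S55.Middle.DivLevel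

set_option autoImplicit false
set_option linter.unusedSectionVars false

open CategoryTheory groupCohomology

namespace Fermat.Agent.S55.Middle.LocOffInj

section Abs

variable {k G G' : Type} [CommRing k] [Group G] [Group G']

/-- every `2`-cocycle of a representation with vanishing `H²` is a coboundary -/
theorem exists_d₁₂_eq_of_isZero {U : Rep.{0, 0, 0} k G}
    (hU : Limits.IsZero (groupCohomology.H2 U)) (c : cocycles₂ U) :
    ∃ γ : G → U, (d₁₂ U).hom γ = ⇑c := by
  have h0 : H2π U c = 0 := by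
    have : H2π U = 0 := hU.eq_of_tgt _ _
    rw [this]; rfl
  rw [H2π_eq_zero_iff] at h0
  exact h0

variable {U J : Rep.{0, 0, 0} k G} {D : Rep.{0, 0, 0} k G'}

/-- **Abstract injectivity of `H²(f, val)`.**  `f : G' →* G` bijective, `val : res f J ⟶ D` with
kernel (the image of) `U`, `H²(G, U) = 0`, and `val` onto the image of an equivariant endomorphism
`e` of `D` fixing the values of `val`.  Then `H²(G, J) → H²(G', D)` is injective. -/
theorem eq_zero_of_map_eq_zero (f : G' →* G) (hf : Function.Bijective f)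
    (incl : U ⟶ J) (val : Rep.res f J ⟶ D) (e : D ⟶ D)
    (hinj : Function.Injective incl.hom)
    (hker : ∀ j : J, val.hom j = 0 → ∃ u : U, incl.hom u = j)
    (he : ∀ j : J, e.hom (val.hom j) = val.hom j)
    (hsurj : ∀ d : D, ∃ j : J, val.hom j = e.hom d)
    (hU : Limits.IsZero (groupCohomology.H2 U))
    (x : groupCohomology.H2 J)
    (hx : (groupCohomology.map f val 2).hom x = 0) : x = 0 := by
  induction x using H2_induction_on with
  | h c =>
    have h1 := H2π_comp_map_apply (A := J) (B := D) f val c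
    rw [h1, H2π_eq_zero_iff] at hx
    obtain ⟨m, hm⟩ := hx
    -- `hm : d₁₂ m = val ∘ c ∘ (f × f)`
    have hm' : ∀ g h : G', D.ρ g (m h) - m (g * h) + m g = val.hom (c (f g, f h)) := by
      intro g h
      have h2 := congrFun hm (g, h)
      have h3 : (mapCocycles₂ (A := J) (B := D) f val c) (g, h)
          = val.hom (c (f g, f h)) := rfl
      rw [h3] at h2
      simpa using h2
    have hval : ∀ (g : G') (j : J), val.hom (J.ρ (f g) j) = D.ρ g (val.hom j) := fun g j =>
      Rep.hom_comm_apply val g j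
    choose β' hβ' using fun g : G' => hsurj (m g)
    obtain ⟨s, hs⟩ := hf.2.hasRightInverse
    have hs' : ∀ g : G', s (f g) = g := fun g => hf.1 (hs _)
    set β : G → J := fun g => β' (s g) with hβdef
    -- the corrected cocycle takes values in the kernel of `val`
    have hc' : ∀ g h : G, val.hom (c (g, h) - (J.ρ g (β h) - β (g * h) + β g)) = 0 := by
      intro g h
      obtain ⟨g', rfl⟩ := hf.2 g
      obtain ⟨h', rfl⟩ := hf.2 h
      simp only [hβdef, ← map_mul, hs']
      rw [map_sub, map_add, map_sub, hval, hβ', hβ', hβ', ← Rep.hom_comm_apply,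
        ← map_sub, ← map_add, hm', he, sub_self]
    choose cU hcU using fun gh : G × G => hker _ (hc' gh.1 gh.2)
    have hcUmem : cU ∈ cocycles₂ U := by
      rw [mem_cocycles₂_iff]
      intro g h j
      apply hinj
      have hc := (mem_cocycles₂_iff (A := J) ⇑c).1 c.2 g h j
      simp only [map_add, Rep.hom_comm_apply, hcU, map_sub, mul_assoc]
      simp only [map_mul, Module.End.mul_apply]
      rw [← sub_eq_zero] at hc ⊢
      rw [← hc]
      abel
    obtain ⟨γ, hγ⟩ := exists_d₁₂_eq_of_isZero hU ⟨cU, hcUmem⟩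
    rw [H2π_eq_zero_iff]
    refine ⟨fun g => β g + incl.hom (γ g), ?_⟩
    funext ⟨g, h⟩
    have h2 := congrFun hγ (g, h)
    have h3 := hcU (g, h)
    simp only [d₁₂_hom_apply] at h2 ⊢
    have h4 : incl.hom (cU (g, h)) = incl.hom (U.ρ g (γ h) - γ (g * h) + γ g) := by
      rw [h2]; rfl
    rw [h3, map_add, map_sub, Rep.hom_comm_apply] at h4
    simp only [map_add]
    rw [← sub_eq_zero] at h4
    rw [← sub_eq_zero, ← neg_eq_zero, ← h4]
    abel

/-- the same statement as injectivity -/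
theorem map_injective (f : G' →* G) (hf : Function.Bijective f)
    (incl : U ⟶ J) (val : Rep.res f J ⟶ D) (e : D ⟶ D)
    (hinj : Function.Injective incl.hom)
    (hker : ∀ j : J, val.hom j = 0 → ∃ u : U, incl.hom u = j)
    (he : ∀ j : J, e.hom (val.hom j) = val.hom j)
    (hsurj : ∀ d : D, ∃ j : J, val.hom j = e.hom d)
    (hU : Limits.IsZero (groupCohomology.H2 U)) :
    Function.Injective (groupCohomology.map f val 2).hom := by
  rw [injective_iff_map_eq_zero]
  exact fun x hx => eq_zero_of_map_eq_zero f hf incl val e hinj hker he hsurj hU x hx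

end Abs

section DivPart

open Fermat.Agent.S55.Formal Fermat.Agent.S55.Formal.LCLevelH
open Fermat.Agent.S55.Middle.DivDef

variable {G : Type} [Group G] (𝒰 : NBasis G) (X : Type) [MulAction G X]

variable {X} in
lemma isDiv_indicator (Y : Set X) (hY : ∀ (g : G) (x : X), x ∈ Y → g • x ∈ Y) {f : X → ℤ}
    (hf : IsDiv 𝒰 X f) : IsDiv 𝒰 X (Y.indicator f) := by
  obtain ⟨⟨W, hW, hinv⟩, ⟨F, hF⟩⟩ := hf
  refine ⟨⟨W, hW, fun u hu x => ?_⟩, ⟨F, fun x hx => hF x fun h0 => hx ?_⟩⟩
  · by_cases hx : x ∈ Y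
    · rw [Set.indicator_of_mem hx, Set.indicator_of_mem (hY u x hx), hinv u hu x]
    · have hux : u • x ∉ Y := fun h => hx (by simpa using hY u⁻¹ _ h)
      rw [Set.indicator_of_notMem hx, Set.indicator_of_notMem hux]
  · by_cases hx' : x ∈ Y
    · rw [Set.indicator_of_mem hx', h0]
    · rw [Set.indicator_of_notMem hx']

/-- the support projector, as a linear map -/
noncomputable def suppLin (Y : Set X) (hY : ∀ (g : G) (x : X), x ∈ Y → g • x ∈ Y) :
    (Div 𝒰 X) →ₗ[ℤ] (Div 𝒰 X) where
  toFun := fun d : Div 𝒰 X =>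
    mkDiv 𝒰 X (Y.indicator (toFun 𝒰 X d)) (isDiv_indicator 𝒰 Y hY (isDiv_toFun 𝒰 X d))
  map_add' := fun a b => by
    apply div_ext
    intro x
    show Y.indicator (toFun 𝒰 X (a + b)) x
      = Y.indicator (toFun 𝒰 X a) x + Y.indicator (toFun 𝒰 X b) x
    by_cases hx : x ∈ Y
    · rw [Set.indicator_of_mem hx, Set.indicator_of_mem hx, Set.indicator_of_mem hx, toFun_add]
    · rw [Set.indicator_of_notMem hx, Set.indicator_of_notMem hx, Set.indicator_of_notMem hx,
        add_zero]
  map_smul' := fun c a => by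
    apply div_ext
    intro x
    show Y.indicator (toFun 𝒰 X (c • a)) x = c • Y.indicator (toFun 𝒰 X a) x
    have h2 : toFun 𝒰 X (c • a) x = c • toFun 𝒰 X a x := rfl
    by_cases hx : x ∈ Y
    · rw [Set.indicator_of_mem hx, Set.indicator_of_mem hx, h2]
    · rw [Set.indicator_of_notMem hx, Set.indicator_of_notMem hx, smul_zero]

variable {X} in
lemma toFun_suppLin (Y : Set X) (hY : ∀ (g : G) (x : X), x ∈ Y → g • x ∈ Y) (d : Div 𝒰 X) :
    toFun 𝒰 X (suppLin 𝒰 X Y hY d) = Y.indicator (toFun 𝒰 X d) := rfl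

variable {X} in
lemma suppLin_ρ (Y : Set X) (hY : ∀ (g : G) (x : X), x ∈ Y → g • x ∈ Y) (g : G)
    (d : Div 𝒰 X) :
    suppLin 𝒰 X Y hY ((Div 𝒰 X).ρ g d) = (Div 𝒰 X).ρ g (suppLin 𝒰 X Y hY d) := by
  apply div_ext
  intro x
  rw [toFun_ρ, toFun_suppLin, toFun_suppLin]
  by_cases hx : x ∈ Y
  · rw [Set.indicator_of_mem hx, Set.indicator_of_mem (hY g⁻¹ x hx), toFun_ρ]
  · have hgx : g⁻¹ • x ∉ Y := fun h => hx (by simpa using hY g _ h)
    rw [Set.indicator_of_notMem hx, Set.indicator_of_notMem hgx]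

/-- **the support projector** of `Div 𝒰 X` attached to a `G`-stable subset `Y ⊆ X`. -/
noncomputable def suppProj (Y : Set X) (hY : ∀ (g : G) (x : X), x ∈ Y → g • x ∈ Y) :
    Div 𝒰 X ⟶ Div 𝒰 X :=
  Rep.ofHom ⟨suppLin 𝒰 X Y hY, fun g => LinearMap.ext fun d => suppLin_ρ 𝒰 Y hY g d⟩

variable {X} in
lemma toFun_suppProj (Y : Set X) (hY : ∀ (g : G) (x : X), x ∈ Y → g • x ∈ Y)
    (d : Div 𝒰 X) :
    toFun 𝒰 X ((suppProj 𝒰 X Y hY).hom d) = Y.indicator (toFun 𝒰 X d) := rfl

section JB

open Fermat.Agent.S55.Middle.DivLevel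

variable {𝒰 X}
variable (V : Subgroup G) [V.Normal] [Finite (G ⧸ V)] (hV : 𝒰.mem V)
  {Γ : Type} [Group Γ] (f : G ⧸ V →* Γ)
  {U J : Rep.{0, 0, 0} ℤ Γ} (incl : U ⟶ J)
  (val : Rep.res f J ⟶ (Div 𝒰 X).quotientToInvariants V)
  (Y : Set X)

/-- **Injectivity of `H²(f, val)` for a valuation-type map to the `V`-invariant divisors.** -/
theorem map_val_injective (hf : Function.Bijective f)
    (hY : ∀ (g : G) (x : X), x ∈ Y → g • x ∈ Y)
    (hinj : Function.Injective incl.hom)
    (hker : ∀ j : J, val.hom j = 0 → ∃ u : U, incl.hom u = j)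
    (hsupp : ∀ (j : J) (x : X), x ∉ Y →
      toFun 𝒰 X ((val.hom j : (Div 𝒰 X).quotientToInvariants V).1 : Div 𝒰 X) x = 0)
    (hsurj : ∀ d : (Div 𝒰 X).quotientToInvariants V,
      (∀ x : X, x ∉ Y → toFun 𝒰 X (d.1 : Div 𝒰 X) x = 0) → ∃ j : J, val.hom j = d)
    (hU : Limits.IsZero (groupCohomology.H2 U)) :
    Function.Injective (groupCohomology.map f val 2).hom := by
  refine map_injective f hf incl val (levelHom V (suppProj 𝒰 X Y hY)) hinj hker ?_ ?_ hU
  · intro j
    apply Subtype.ext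
    apply div_ext
    intro x
    rw [levelHom_apply_coe, toFun_suppProj]
    by_cases hx : x ∈ Y
    · rw [Set.indicator_of_mem hx]
    · rw [Set.indicator_of_notMem hx, hsupp j x hx]
  · intro d
    refine hsurj ((levelHom V (suppProj 𝒰 X Y hY)).hom d) (fun x hx => ?_)
    rw [levelHom_apply_coe, toFun_suppProj, Set.indicator_of_notMem hx]

/-- **`hjB`** : the composite `ι₂ ∘ H²(f, val) : H²(Γ, J) → H²_LC(G; Div 𝒰 X)` is injective. -/
theorem jB_injective (hf : Function.Bijective f)
    (hY : ∀ (g : G) (x : X), x ∈ Y → g • x ∈ Y)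
    (hinj : Function.Injective incl.hom)
    (hker : ∀ j : J, val.hom j = 0 → ∃ u : U, incl.hom u = j)
    (hsupp : ∀ (j : J) (x : X), x ∉ Y →
      toFun 𝒰 X ((val.hom j : (Div 𝒰 X).quotientToInvariants V).1 : Div 𝒰 X) x = 0)
    (hsurj : ∀ d : (Div 𝒰 X).quotientToInvariants V,
      (∀ x : X, x ∉ Y → toFun 𝒰 X (d.1 : Div 𝒰 X) x = 0) → ∃ j : J, val.hom j = d)
    (hU : Limits.IsZero (groupCohomology.H2 U)) :
    Function.Injective fun x : groupCohomology.H2 J =>
      ι₂ 𝒰 (Div 𝒰 X) V hV ((groupCohomology.map f val 2).hom x) :=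
  (ι₂_div_injective 𝒰 X V hV).comp
    (map_val_injective V f incl val Y hf hY hinj hker hsupp hsurj hU)

end JB

end DivPart

end Fermat.Agent.S55.Middle.LocOffInj
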