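/-
S55 / Middle (helper5): ROW (LOC-off) v2, the SURJECTIVITY input of `LocOffInj.jB_injective`:
prescribed normalised valuations at the places over a finite set of primes, by weak approximation.
-/
import Mathlib
import Fermat.Agent.S55.Middle.CapDictK
import Fermat.Agent.S55.Middle.SUnitDict
import Fermat.Agent.S55.Global.WeakApprox
import Fermat.Agent.S55.Middle.LocOffVal

set_option autoImplicit false
set_option linter.unusedSectionVars false
set_option linter.style.haveILetI false

open scoped NumberField Pointwise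
open IsDedekindDomain WithZero

namespace Fermat.Agent.S55.Middle.LocOffWA

open Fermat.Agent.S55.Middle.Defs Fermat.Agent.S55.Middle.Cap Fermat.Agent.S55.Middle.CapDiv
open Fermat.Agent.S55.Middle.CapDictK

variable {S : Finset Nat.Primes}
variable (K : IntermediateField ℚ Qbar) [NumberField K]

/-- **Prescribed valuations.**  `K ⊆ ℚ̄` a number field unramified outside `S`, `T'` a finite set
of primes, `f` a function on the places of `ℚ̄` off `S` which is invariant under `Gal(ℚ̄ / K)`.
Then there is `a ∈ Kˣ` whose normalised valuation at every place `y` over `T'` is `f y`. -/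
theorem exists_ordAt_eq (hK : K.IsUnramifiedOutside S) (T' : Finset Nat.Primes)
    (f : Xoff S → ℤ) (hinv : ∀ u : GQ, u ∈ K.fixingSubgroup → ∀ y, f (u • y) = f y) :
    ∃ a : Kˣ, ∀ y : Xoff S, y.prime ∈ T' →
      ordAt y.ring (y.prime : ℕ) (((a : Kˣ) : K) : Qbar) = f y := by
  classical
  set P : Finset (HeightOneSpectrum (𝓞 K)) :=
    (SUnitDict.placesAbove_finite (F := K) T').toFinset with hP
  -- the prescribed exponent at `v`
  set n : HeightOneSpectrum (𝓞 K) → ℤ := fun v =>
    if h : ∃ y : Xoff S, BelowK K y v then f h.choose else 0 with hn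
  have hnf : ∀ (y : Xoff S) (v : HeightOneSpectrum (𝓞 K)), BelowK K y v → n v = f y := by
    intro y v hyv
    have h : ∃ y : Xoff S, BelowK K y v := ⟨y, hyv⟩
    rw [hn]
    simp only [dif_pos h]
    obtain ⟨u, hu, hy⟩ := h.choose_spec.exists_smul_eq hyv
    rw [hy, hinv u hu]
  -- uniformisers
  choose π hπ using fun v : HeightOneSpectrum (𝓞 K) => v.valuation_exists_uniformizer K
  have hx : ∀ v : HeightOneSpectrum (𝓞 K), v.valuation K (π v ^ n v) = exp (-(n v)) := by
    intro v
    rw [map_zpow₀, hπ, ← exp_zsmul]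
    simp
  obtain ⟨a, ha⟩ := Fermat.Agent.S55.Global.WeakApprox.exists_valuation_sub_lt (R := 𝓞 K) (K := K) P
    (fun v => π v ^ n v) (fun v => exp (-(n v))) (fun v _ => exp_ne_zero)
  have hva : ∀ v ∈ P, v.valuation K a = exp (-(n v)) := by
    intro v hv
    have h1 := ha v hv
    rw [← hx v] at h1
    have h2 : a = (a - π v ^ n v) + π v ^ n v := by ring
    rw [h2, Valuation.map_add_eq_of_lt_right _ h1, hx v]
  have hmemP : ∀ (y : Xoff S) (v : HeightOneSpectrum (𝓞 K)), y.prime ∈ T' → BelowK K y v → v ∈ P := by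
    intro y v hy hyv
    rw [hP, Set.Finite.mem_toFinset]
    exact ⟨y.prime, hy, hyv.natCast_mem⟩
  by_cases ha0 : a = 0
  · -- then no place over `T'` exists
    refine ⟨1, fun y hy => ?_⟩
    exfalso
    obtain ⟨v, hyv⟩ := exists_belowK K y
    have := hva v (hmemP y v hy hyv)
    rw [ha0, map_zero] at this
    exact exp_ne_zero this.symm
  · refine ⟨Units.mk0 a ha0, fun y hy => ?_⟩
    obtain ⟨v, hyv⟩ := exists_belowK K y
    rw [Units.val_mk0, ordAt_eq_neg_log hK hyv a ha0, hva v (hmemP y v hy hyv), log_exp, neg_neg]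
    exact hnf y v hyv


/-! ### the `valT` form -/

section ValT

open Fermat.Agent.S55.Middle.LocOffVal Fermat.Agent.S55.Bridge.Unram
open Fermat.Agent.S55.Global.Objects Fermat.Agent.S55.Global.Objects2

variable {L : Type} [Field L] [NumberField L] (ι : L →+* Qbar) (T : Finset Nat.Primes)
  {F : IntermediateField ℚ Qbar}

/-- the image of `ι` is unramified outside `S` as soon as it is contained in such a field -/
theorem isUnramifiedOutside_imageField (hF : F.IsUnramifiedOutside S) (hι : ∀ l : L, ι l ∈ F) :
    (imageField ι).IsUnramifiedOutside S := by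
  have hle : imageField ι ≤ F := by
    rintro x ⟨l, rfl⟩
    exact hι l
  exact ⟨finiteDimensional_imageField ι, fun q hq A hA =>
    (hF.2 q hq A hA).trans (IntermediateField.fixingSubgroup_le hle)⟩

/-- **Surjectivity of the valuation map** onto the functions on the places off `S` which are
invariant under `Gal(ℚ̄ / ι L)` and supported over `T`: they are already valuations of GLOBAL
units `u ⊗ 1`, `u ∈ Lˣ`. -/
theorem exists_valT_eq (hF : F.IsUnramifiedOutside S) (hι : ∀ l : L, ι l ∈ F)
    (f : Xoff S → ℤ)
    (hinv : ∀ u : GQ, (∀ l : L, u (ι l) = ι l) → ∀ y, f (u • y) = f y)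
    (hsupp : ∀ y : Xoff S, y.prime ∉ T → f y = 0) :
    ∃ u : Lˣ, ∀ y : Xoff S, valT (S := S) ι T (inclUnits ℚ L (QT T) u) y = f y := by
  have hK := isUnramifiedOutside_imageField (S := S) ι hF hι
  haveI : NumberField (imageField ι) :=
    numberField_of_finiteDimensional _ (finiteDimensional_imageField ι)
  obtain ⟨a, ha⟩ := exists_ordAt_eq (imageField ι) hK T f
    (fun u hu y => hinv u (mem_fixingSubgroup_imageField.1 hu) y)
  obtain ⟨l, hl⟩ : ∃ l : L, ι l = (((a : (imageField ι)ˣ) : imageField ι) : Qbar) :=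
    mem_imageField.1 ((a : (imageField ι)ˣ) : imageField ι).2
  have hl0 : l ≠ 0 := by
    rintro rfl
    rw [map_zero] at hl
    exact a.ne_zero (Subtype.ext hl.symm)
  refine ⟨Units.mk0 l hl0, fun y => ?_⟩
  rw [valT_inclUnits ι T (fun l => ⟨F, hF, hι l⟩) (Units.mk0 l hl0) y]
  split_ifs with h
  · rw [Units.val_mk0, hl]
    exact ha y h
  · exact (hsupp y h).symm

end ValT

end Fermat.Agent.S55.Middle.LocOffWA
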