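/-
S55 / Middle (helper5): ROW (LOC-off) v2 — `hjB` of `ImageLevel` / `ImageLevelZ` for helper99's
`LocOff.jB`:

  `jB_injective` : `LocOff.jB T : H²(Gal(L/K), (L ⊗[ℚ] ℚ_T)ˣ) →+ H²_LC(P; Div 𝒱 (Xoff S))` is INJECTIVE

as soon as `φ : P ⧸ V →* Gal(L/K)` is bijective, `Gal(ℚ̄ / ι L) ≤ P`, and the kernel of the valuation
map `valT ι T` is (the image of) a sub-representation `U` with `H²(Gal(L/K), U) = 0`
(row (U1): `U = UnramUnitsQ.UTn K L T T`, `T ∩ S = ∅`).

Ingredients: `LocOffInj.jB_injective` (abstract core + `DivLevel.ι₂_div_injective`),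
`LocOffWA.exists_valT_eq` (weak approximation: every invariant divisor over `T` is `valT (u ⊗ 1)`).
-/
import Mathlib
import Fermat.Agent.S55.Middle.LocOff
import Fermat.Agent.S55.Middle.LocOffInj
import Fermat.Agent.S55.Middle.LocOffWA

set_option autoImplicit false
set_option linter.unusedSectionVars false
set_option linter.style.haveILetI false

open scoped TensorProduct Pointwise
open CategoryTheory groupCohomology

namespace Fermat.Agent.S55.Middle.LocOffJB

open Fermat.Agent.S55.Formal Fermat.Agent.S55.Formal.LCLevel Fermat.Agent.S55.Formal.LCLevelH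
open Fermat.Agent.S55.Middle.Defs Fermat.Agent.S55.Middle.DivDef Fermat.Agent.S55.Middle.Cap
open Fermat.Agent.S55.Middle.CapDiv Fermat.Agent.S55.Middle.LocOffVal
open Fermat.Agent.S55.Middle.LocOff
open Fermat.Agent.S55.Global.Objects Fermat.Agent.S55.Global.Objects2

variable {S : Finset Nat.Primes} {P : Subgroup GQ} {𝒱 : NBasis ↥P}
  (hfine : IsCont (PreludeLC.globalBasis S) 𝒱 P.subtype) (hfin : P.FiniteIndex)
variable (K : Type) [Field K] [NumberField K] {L : Type} [Field L] [NumberField L] [Algebra K L]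
  (ι : L →+* Qbar) (T : Finset Nat.Primes)
  {F : IntermediateField ℚ Qbar} (hF : F.IsUnramifiedOutside S) (hι : ∀ l : L, ι l ∈ F)
variable (V : Subgroup ↥P) [V.Normal] (φ : ↥P ⧸ V →* (L ≃ₐ[K] L))
  (hφ : ∀ (h : ↥P) (l : L), ι (φ (h : ↥P ⧸ V) l) = (h : GQ) (ι l))
variable [Finite (↥P ⧸ V)] (hV : 𝒱.mem V)

/-- the places over `T` -/
def overT : Set (Xoff S) := {y | y.prime ∈ T}

theorem overT_stable (g : ↥P) (y : Xoff S) (hy : y ∈ overT (S := S) T) :
    g • y ∈ overT (S := S) T := hy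

/-- an element of `G_ℚ` fixing `ι L` lies in `V` -/
theorem mem_V_of_fixes
    (hφ' : ∀ (h : ↥P) (l : L), ι (φ (h : ↥P ⧸ V) l) = (h : GQ) (ι l))
    (hφinj : Function.Injective φ)
    (hle : ∀ u : GQ, (∀ l : L, u (ι l) = ι l) → u ∈ P)
    (u : GQ) (hu : ∀ l : L, u (ι l) = ι l) : (⟨u, hle u hu⟩ : ↥P) ∈ V := by
  rw [← QuotientGroup.eq_one_iff]
  apply hφinj
  rw [map_one]
  ext l
  apply ι.injective
  rw [hφ' ⟨u, hle u hu⟩ l]
  exact hu l

/-- **`hjB`** : helper99's `jB T` is injective. -/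
theorem jB_injective (hφbij : Function.Bijective φ)
    (hle : ∀ u : GQ, (∀ l : L, u (ι l) = ι l) → u ∈ P)
    {U : Rep.{0, 0, 0} ℤ (L ≃ₐ[K] L)} (incl : U ⟶ Jn K L T)
    (hinj : Function.Injective incl.hom)
    (hker : ∀ a : Jn K L T, (∀ y : Xoff S, valT (S := S) ι T (Additive.toMul a) y = 0) →
      ∃ u : U, incl.hom u = a)
    (hU : Limits.IsZero (groupCohomology.H2 U)) :
    Function.Injective (jB hfine hfin K ι T hF hι V φ hφ hV) := by
  have key := LocOffInj.jB_injective (𝒰 := 𝒱) (X := Xoff S) V hV φ incl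
    (valRep hfine hfin K ι T hF hι V φ hφ) (overT (S := S) T) hφbij
    (fun g y hy => overT_stable T g y hy) hinj ?_ ?_ ?_ hU
  · exact key
  · -- kernel
    intro a ha
    refine hker a (fun y => ?_)
    have h1 := congrArg (fun d : (Div 𝒱 (Xoff S)).quotientToInvariants V =>
      toFun 𝒱 (Xoff S) (d.1 : Div 𝒱 (Xoff S)) y) ha
    have h2 : toFun 𝒱 (Xoff S) (((valRep hfine hfin K ι T hF hι V φ hφ).hom a :
        (Div 𝒱 (Xoff S)).quotientToInvariants V).1 : Div 𝒱 (Xoff S)) y =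
        valT (S := S) ι T (Additive.toMul a) y := by
      rw [valRep_apply_coe, toFun_divT]
    exact h2.symm.trans h1
  · -- support
    intro a y hy
    rw [valRep_apply_coe, toFun_divT]
    exact valT_of_notMem ι T _ y hy
  · -- surjectivity
    intro d hd
    have hdinv : ∀ (v : ↥P), v ∈ V → (Div 𝒱 (Xoff S)).ρ v (d.1 : Div 𝒱 (Xoff S)) = d.1 :=
      fun v hv => d.2 ⟨v, hv⟩
    have hinvf : ∀ g : GQ, (∀ l : L, g (ι l) = ι l) → ∀ y : Xoff S,
        toFun 𝒱 (Xoff S) (d.1 : Div 𝒱 (Xoff S)) (g • y) =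
          toFun 𝒱 (Xoff S) (d.1 : Div 𝒱 (Xoff S)) y := by
      intro g hg y
      have hgV := mem_V_of_fixes K ι V φ hφ hφbij.1 hle g hg
      have hinvV : (⟨g, hle g hg⟩ : ↥P)⁻¹ ∈ V := V.inv_mem hgV
      have h1 := congrArg (fun e : Div 𝒱 (Xoff S) => toFun 𝒱 (Xoff S) e y) (hdinv _ hinvV)
      simp only [toFun_ρ, inv_inv] at h1
      exact h1
    obtain ⟨u, hu⟩ := LocOffWA.exists_valT_eq (S := S) ι T hF hι
      (toFun 𝒱 (Xoff S) (d.1 : Div 𝒱 (Xoff S))) hinvf hd
    set a : Jn K L T := (Additive.ofMul (inclUnits ℚ L (QT T) u) : JQ L T) with ha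
    refine ⟨a, ?_⟩
    apply Subtype.ext
    apply div_ext
    intro y
    rw [valRep_apply_coe, toFun_divT]
    exact hu y

end Fermat.Agent.S55.Middle.LocOffJB
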