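/-
S55 / Middle (helper79): ROW (LOC-off), SURJECTIVITY half = leaf (L2) of the `hrealD` chain.

Abstract core, dual to `LocOffInj.eq_zero_of_map_eq_zero` (same binders): for a bijective
`f : G' →* G`, representations `U J` of `G`, `D` of `G'`, `incl : U ⟶ J` injective,
`val : res f J ⟶ D` with kernel exactly `range incl`, an equivariant endomorphism `e` of `D` with
`range e ⊆ range val`, and `H³(G, U) = 0`:

  every class `H²(e) y` (`y : H²(G', D)`) is in the image of `H²(f, val) : H²(G, J) → H²(G', D)`.

Cocycle-level proof: lift `e ∘ c` pointwise to a cochain `c̃` of `J`; `d c̃` is a `U`-valued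
`3`-cocycle, hence `d b`; `c̃ - incl ∘ b` is a `2`-cocycle of `J` lifting `e ∘ c`.
-/
import Mathlib
import Fermat.Agent.S55.Coh.H3Explicit

set_option autoImplicit false
set_option linter.unusedSectionVars false

open CategoryTheory groupCohomology

namespace Fermat.Agent.S55.Middle.LocOffSurj

open Fermat.Agent.S55.Coh

section Abs

variable {k G G' : Type} [CommRing k] [Group G] [Group G']

variable {U J : Rep.{0, 0, 0} k G} {D : Rep.{0, 0, 0} k G'}

/-- **Abstract surjectivity of `H²(f, val)` onto the `e`-part.** -/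
theorem exists_map_eq (f : G' →* G) (hf : Function.Bijective f)
    (incl : U ⟶ J) (val : Rep.res f J ⟶ D) (e : D ⟶ D)
    (hinj : Function.Injective incl.hom)
    (hzero : ∀ u : U, val.hom (incl.hom u) = 0)
    (hker : ∀ j : J, val.hom j = 0 → ∃ u : U, incl.hom u = j)
    (hsurj : ∀ d : D, ∃ j : J, val.hom j = e.hom d)
    (hU : Limits.IsZero (groupCohomology U 3))
    (y : groupCohomology.H2 D) :
    ∃ x : groupCohomology.H2 J,
      (groupCohomology.map f val 2).hom x =
        (groupCohomology.map (MonoidHom.id G') e 2).hom y := by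
  induction y using H2_induction_on with
  | h c =>
    have hval : ∀ (g : G') (j : J), val.hom (J.ρ (f g) j) = D.ρ g (val.hom j) := fun g j =>
      Rep.hom_comm_apply val g j
    have hecomm : ∀ (g : G') (d : D), e.hom (D.ρ g d) = D.ρ g (e.hom d) := fun g d =>
      Rep.hom_comm_apply e g d
    have hicomm : ∀ (g : G) (u : U), incl.hom (U.ρ g u) = J.ρ g (incl.hom u) := fun g u =>
      Rep.hom_comm_apply incl g u
    choose j' hj' using fun gh : G' × G' => hsurj (c gh)
    obtain ⟨s, hs⟩ := hf.2.hasRightInverse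
    have hs' : ∀ g : G', s (f g) = g := fun g => hf.1 (hs _)
    set ct : G × G → J := fun gh => j' (s gh.1, s gh.2) with hctdef
    -- `d ct` takes values in the kernel of `val`
    have hcoc : ∀ g h l : G',
        D.ρ g (c (h, l)) - c (g * h, l) + c (g, h * l) - c (g, h) = 0 :=
      (mem_cocycles₂_def (A := D) ⇑c).1 c.2
    have hval0 : ∀ ghl : G × G × G, val.hom ((d₂₃ J).hom ct ghl) = 0 := by
      rintro ⟨g, h, l⟩
      obtain ⟨g', rfl⟩ := hf.2 g
      obtain ⟨h', rfl⟩ := hf.2 h
      obtain ⟨l', rfl⟩ := hf.2 l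
      rw [d₂₃_hom_apply]
      simp only [hctdef, ← map_mul, hs']
      rw [map_sub, map_add, map_sub, hval, hj', hj', hj', hj', ← hecomm, ← map_sub, ← map_add,
        ← map_sub, hcoc, map_zero]
    choose tU htU using fun ghl : G × G × G => hker _ (hval0 ghl)
    have h34 : H3Explicit.d₃₄ U tU = 0 := by
      funext ⟨g₁, g₂, g₃, g₄⟩
      apply hinj
      have h0 := congrFun (H3Explicit.d₃₄_d₂₃ J ct) (g₁, g₂, g₃, g₄)
      rw [H3Explicit.d₃₄_apply] at h0 ⊢
      simp only [map_add, map_sub, hicomm, htU, Pi.zero_apply, map_zero]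
      exact h0
    obtain ⟨b, hb⟩ := H3Explicit.exists_d₂₃_eq_of_isZero U hU tU h34
    set c' : G × G → J := fun gh => ct gh - incl.hom (b gh) with hc'def
    have hc'mem : c' ∈ cocycles₂ J := by
      rw [mem_cocycles₂_def]
      intro g h l
      have h1 := htU (g, h, l)
      have h2 := congrFun hb (g, h, l)
      rw [d₂₃_hom_apply] at h1 h2
      rw [← h2] at h1
      simp only [map_add, map_sub, hicomm] at h1
      simp only [hc'def, map_sub]
      rw [← sub_eq_zero] at h1
      rw [← neg_eq_zero, ← h1]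
      abel
    refine ⟨H2π J ⟨c', hc'mem⟩, ?_⟩
    have h1 := H2π_comp_map_apply (A := J) (B := D) f val ⟨c', hc'mem⟩
    have h2 := H2π_comp_map_apply (A := D) (B := D) (MonoidHom.id G') e c
    rw [h1, h2]
    congr 1
    apply cocycles₂_ext
    intro g h
    have h3 : (mapCocycles₂ (A := J) (B := D) f val ⟨c', hc'mem⟩) (g, h)
        = val.hom (c' (f g, f h)) := rfl
    have h4 : (mapCocycles₂ (A := D) (B := D) (MonoidHom.id G') e c) (g, h)
        = e.hom (c (g, h)) := rfl
    rw [h3, h4]
    simp only [hc'def, hctdef, map_sub, hzero, sub_zero, hs', hj']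

/-- the same statement, range form -/
theorem range_map_le (f : G' →* G) (hf : Function.Bijective f)
    (incl : U ⟶ J) (val : Rep.res f J ⟶ D) (e : D ⟶ D)
    (hinj : Function.Injective incl.hom)
    (hzero : ∀ u : U, val.hom (incl.hom u) = 0)
    (hker : ∀ j : J, val.hom j = 0 → ∃ u : U, incl.hom u = j)
    (hsurj : ∀ d : D, ∃ j : J, val.hom j = e.hom d)
    (hU : Limits.IsZero (groupCohomology U 3)) :
    LinearMap.range (groupCohomology.map (MonoidHom.id G') e 2).hom ≤
      LinearMap.range (groupCohomology.map f val 2).hom := by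
  rintro _ ⟨y, rfl⟩
  obtain ⟨x, hx⟩ := exists_map_eq f hf incl val e hinj hzero hker hsurj hU y
  exact ⟨x, hx⟩

end Abs

end Fermat.Agent.S55.Middle.LocOffSurj
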