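/-
S55 / Middle (helper79): ROW (LOC-off), SURJECTIVITY half in the `Div` / LC language
(dual of `LocOffInj.jB_injective`; leaf (L2) of the `hrealD` chain).

* `suppProj_h2_eq_self` : a class of `H²_LC(G; Div 𝒰 X)` all of whose residues off the `G`-stable
  subset `Y ⊆ X` vanish is fixed by the support projector `suppProj Y`;
* `exists_map_val_eq` : for `val : res f J ⟶ (Div 𝒰 X)^V` with kernel `U`, `H³(U) = 0`, onto the
  `V`-invariant divisors supported in `Y`: every class of `H²(G ⧸ V, Div^V)`, projected to `Y`,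
  is `H²(f, val)` of a class of `H²(Γ, J)`;
* `exists_jB_eq` : a class `ι₂ y` of finite level `V` whose residues off `Y` vanish is
  `ι₂ (H²(f, val) b)` for some `b : H²(Γ, J)`.
-/
import Mathlib
import Fermat.Agent.S55.Middle.LocOffSurj
import Fermat.Agent.S55.Middle.LocOffInj
import Fermat.Agent.S55.Formal.Functor

set_option autoImplicit false
set_option linter.unusedSectionVars false

open CategoryTheory groupCohomology

namespace Fermat.Agent.S55.Middle.LocOffSurjDiv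

open Fermat.Agent.S55.Formal Fermat.Agent.S55.Formal.LCLevelH
open Fermat.Agent.S55.Middle.DivDef Fermat.Agent.S55.Middle.DivLevel
open Fermat.Agent.S55.Middle.LocOffInj

variable {G : Type} [Group G] (𝒰 : NBasis G) (X : Type) [MulAction G X]

section Residues

variable {X}
variable (Y : Set X) (hY : ∀ (g : G) (x : X), x ∈ Y → g • x ∈ Y)

/-- the residue at a point of `Y` does not see the support projector -/
theorem resMor_h2_suppProj_of_mem {x : X} (hx : x ∈ Y) (ξ : H2 𝒰 (Div 𝒰 X)) :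
    (resMor 𝒰 X x).h2 ((Mor.ofHom 𝒰 (suppProj 𝒰 X Y hY)).h2 ξ) = (resMor 𝒰 X x).h2 ξ := by
  have h1 : (resMor 𝒰 X x).h2 ((Mor.ofHom 𝒰 (suppProj 𝒰 X Y hY)).h2 ξ)
      = (((Mor.ofHom 𝒰 (suppProj 𝒰 X Y hY)).comp (resMor 𝒰 X x)).h2) ξ := by
    rw [Functor.comp_h2]; rfl
  rw [h1]
  have h2 : (Mor.ofHom 𝒰 (suppProj 𝒰 X Y hY)).comp (resMor 𝒰 X x) = resMor 𝒰 X x := by
    apply Functor.mor_ext
    · rfl
    · apply LinearMap.ext
      intro d
      show toFun 𝒰 X ((suppProj 𝒰 X Y hY).hom d) x = toFun 𝒰 X d x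
      rw [toFun_suppProj, Set.indicator_of_mem hx]
  rw [h2]

/-- the residue at a point outside `Y` kills the support projector -/
theorem resMor_h2_suppProj_of_notMem {x : X} (hx : x ∉ Y) (ξ : H2 𝒰 (Div 𝒰 X)) :
    (resMor 𝒰 X x).h2 ((Mor.ofHom 𝒰 (suppProj 𝒰 X Y hY)).h2 ξ) = 0 := by
  obtain ⟨c, hc, rfl⟩ := Hmid.exists_of ξ
  have hc1 : dC₂ 𝒰 (Div 𝒰 X) ((Mor.ofHom 𝒰 (suppProj 𝒰 X Y hY)).c₂ c) = 0 := by
    have := LinearMap.congr_fun (Mor.ofHom 𝒰 (suppProj 𝒰 X Y hY)).c₃_dC₂ c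
    simp only [LinearMap.comp_apply] at this
    rw [← this, hc, map_zero]
  have hc2 : dC₂ (stabBasis 𝒰 X x) (Rep.trivial ℤ (MulAction.stabilizer G x) ℤ)
      ((resMor 𝒰 X x).c₂ ((Mor.ofHom 𝒰 (suppProj 𝒰 X Y hY)).c₂ c)) = 0 := by
    have := LinearMap.congr_fun (resMor 𝒰 X x).c₃_dC₂ ((Mor.ofHom 𝒰 (suppProj 𝒰 X Y hY)).c₂ c)
    simp only [LinearMap.comp_apply] at this
    rw [← this, hc1, map_zero]
  rw [Functor.h2_of _ c hc hc1, Functor.h2_of _ _ hc1 hc2, Hmid.of_eq_zero_iff]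
  refine ⟨0, ?_⟩
  rw [map_zero]
  apply Subtype.ext
  funext ⟨u, v⟩
  show (0 : ℤ) = toFun 𝒰 X ((suppProj 𝒰 X Y hY).hom ((c : G × G → Div 𝒰 X) (u, v))) x
  rw [toFun_suppProj, Set.indicator_of_notMem hx]

/-- **classes with vanishing residues off `Y` are fixed by the support projector** -/
theorem suppProj_h2_eq_self (ξ : H2 𝒰 (Div 𝒰 X))
    (hres : ∀ x : X, x ∉ Y → (resMor 𝒰 X x).h2 ξ = 0) :
    (Mor.ofHom 𝒰 (suppProj 𝒰 X Y hY)).h2 ξ = ξ := by
  rw [← sub_eq_zero]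
  apply DivH2.h2_eq_zero_of_res
  intro x
  rw [map_sub]
  by_cases hx : x ∈ Y
  · rw [resMor_h2_suppProj_of_mem 𝒰 Y hY hx, sub_self]
  · rw [resMor_h2_suppProj_of_notMem 𝒰 Y hY hx, hres x hx, sub_self]

end Residues

section JB

variable {𝒰 X}
variable (V : Subgroup G) [V.Normal] [Finite (G ⧸ V)] (hV : 𝒰.mem V)
  {Γ : Type} [Group Γ] (f : G ⧸ V →* Γ)
  {U J : Rep.{0, 0, 0} ℤ Γ} (incl : U ⟶ J)
  (val : Rep.res f J ⟶ (Div 𝒰 X).quotientToInvariants V)
  (Y : Set X)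

/-- **Surjectivity of `H²(f, val)` onto the `Y`-part**, finite level. -/
theorem exists_map_val_eq (hf : Function.Bijective f)
    (hY : ∀ (g : G) (x : X), x ∈ Y → g • x ∈ Y)
    (hinj : Function.Injective incl.hom)
    (hzero : ∀ u : U, val.hom (incl.hom u) = 0)
    (hker : ∀ j : J, val.hom j = 0 → ∃ u : U, incl.hom u = j)
    (hsurj : ∀ d : (Div 𝒰 X).quotientToInvariants V,
      (∀ x : X, x ∉ Y → toFun 𝒰 X (d.1 : Div 𝒰 X) x = 0) → ∃ j : J, val.hom j = d)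
    (hU : Limits.IsZero (groupCohomology U 3))
    (y : groupCohomology.H2 ((Div 𝒰 X).quotientToInvariants V)) :
    ∃ b : groupCohomology.H2 J,
      (groupCohomology.map f val 2).hom b = levelH2 V (suppProj 𝒰 X Y hY) y := by
  refine LocOffSurj.exists_map_eq f hf incl val (levelHom V (suppProj 𝒰 X Y hY)) hinj hzero hker
    ?_ hU y
  intro d
  refine hsurj ((levelHom V (suppProj 𝒰 X Y hY)).hom d) (fun x hx => ?_)
  rw [levelHom_apply_coe, toFun_suppProj, Set.indicator_of_notMem hx]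

/-- **Surjectivity of `jB = ι₂ ∘ H²(f, val)`** onto the classes of level `V` whose residues off
`Y` vanish. -/
theorem exists_jB_eq (hf : Function.Bijective f)
    (hY : ∀ (g : G) (x : X), x ∈ Y → g • x ∈ Y)
    (hinj : Function.Injective incl.hom)
    (hzero : ∀ u : U, val.hom (incl.hom u) = 0)
    (hker : ∀ j : J, val.hom j = 0 → ∃ u : U, incl.hom u = j)
    (hsurj : ∀ d : (Div 𝒰 X).quotientToInvariants V,
      (∀ x : X, x ∉ Y → toFun 𝒰 X (d.1 : Div 𝒰 X) x = 0) → ∃ j : J, val.hom j = d)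
    (hU : Limits.IsZero (groupCohomology U 3))
    (y : groupCohomology.H2 ((Div 𝒰 X).quotientToInvariants V))
    (hres : ∀ x : X, x ∉ Y → (resMor 𝒰 X x).h2 (ι₂ 𝒰 (Div 𝒰 X) V hV y) = 0) :
    ∃ b : groupCohomology.H2 J,
      ι₂ 𝒰 (Div 𝒰 X) V hV ((groupCohomology.map f val 2).hom b) = ι₂ 𝒰 (Div 𝒰 X) V hV y := by
  obtain ⟨b, hb⟩ := exists_map_val_eq V f incl val Y hf hY hinj hzero hker hsurj hU y
  refine ⟨b, ?_⟩
  rw [hb, ← ofHom_h2_ι₂ V hV (suppProj 𝒰 X Y hY) y]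
  exact suppProj_h2_eq_self 𝒰 Y hY _ hres

/-- the same, for a class `e'` of `H²_LC(G; Div)` known to come from level `V`. -/
theorem exists_jB_eq_of_level (hf : Function.Bijective f)
    (hY : ∀ (g : G) (x : X), x ∈ Y → g • x ∈ Y)
    (hinj : Function.Injective incl.hom)
    (hzero : ∀ u : U, val.hom (incl.hom u) = 0)
    (hker : ∀ j : J, val.hom j = 0 → ∃ u : U, incl.hom u = j)
    (hsurj : ∀ d : (Div 𝒰 X).quotientToInvariants V,
      (∀ x : X, x ∉ Y → toFun 𝒰 X (d.1 : Div 𝒰 X) x = 0) → ∃ j : J, val.hom j = d)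
    (hU : Limits.IsZero (groupCohomology U 3))
    (e' : H2 𝒰 (Div 𝒰 X))
    (hlev : ∃ y : groupCohomology.H2 ((Div 𝒰 X).quotientToInvariants V),
      ι₂ 𝒰 (Div 𝒰 X) V hV y = e')
    (hres : ∀ x : X, x ∉ Y → (resMor 𝒰 X x).h2 e' = 0) :
    ∃ b : groupCohomology.H2 J,
      ι₂ 𝒰 (Div 𝒰 X) V hV ((groupCohomology.map f val 2).hom b) = e' := by
  obtain ⟨y, rfl⟩ := hlev
  exact exists_jB_eq V hV f incl val Y hf hY hinj hzero hker hsurj hU y hres

end JB

end Fermat.Agent.S55.Middle.LocOffSurjDiv
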