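/-
S55 / Middle (helper79): ROW (LOC-off), SURJECTIVITY of helper99's `LocOff.jB` onto the classes of
level `V` whose residues at the places outside `T` vanish (leaf (L2) of the `hrealD` chain; dual of
helper5's `LocOffJB.jB_injective`, same binders):

  `exists_jB_eq` : for `φ : P ⧸ V →* Gal(L/K)` bijective, `Gal(ℚ̄ / ι L) ≤ P`, `U ⟶ Jn K L T` a
  sub-representation which is exactly the kernel of the valuation map `valT ι T` and has
  `H³(Gal(L/K), U) = 0` (row (U1), `n = 3`): every `y : H²(P ⧸ V, Div^V)` such that all residues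
  of `ι₂ y` at the places `x` with `x.prime ∉ T` vanish satisfies `ι₂ y = jB b` for some
  `b : H²(Gal(L/K), (L ⊗[ℚ] ℚ_T)ˣ)`.

Ingredients: `LocOffSurjDiv.exists_jB_eq` (abstract core + residue injectivity on `Div`),
`LocOffWA.exists_valT_eq` (weak approximation, helper5).
-/
import Mathlib
import Fermat.Agent.S55.Middle.LocOffJB
import Fermat.Agent.S55.Middle.LocOffSurjDiv

set_option autoImplicit false
set_option linter.unusedSectionVars false
set_option linter.style.haveILetI false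

open scoped TensorProduct Pointwise
open CategoryTheory groupCohomology

namespace Fermat.Agent.S55.Middle.LocOffSurjJB

open Fermat.Agent.S55.Formal Fermat.Agent.S55.Formal.LCLevel Fermat.Agent.S55.Formal.LCLevelH
open Fermat.Agent.S55.Middle.Defs Fermat.Agent.S55.Middle.DivDef Fermat.Agent.S55.Middle.Cap
open Fermat.Agent.S55.Middle.CapDiv Fermat.Agent.S55.Middle.LocOffVal
open Fermat.Agent.S55.Middle.LocOff Fermat.Agent.S55.Middle.LocOffJB
open Fermat.Agent.S55.Global.Objects Fermat.Agent.S55.Global.Objects2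

variable {S : Finset Nat.Primes} {P : Subgroup GQ} {𝒱 : NBasis ↥P}
  (hfine : IsCont (PreludeLC.globalBasis S) 𝒱 P.subtype) (hfin : P.FiniteIndex)
variable (K : Type) [Field K] [NumberField K] {L : Type} [Field L] [NumberField L] [Algebra K L]
  (ι : L →+* Qbar) (T : Finset Nat.Primes)
  {F : IntermediateField ℚ Qbar} (hF : F.IsUnramifiedOutside S) (hι : ∀ l : L, ι l ∈ F)
variable (V : Subgroup ↥P) [V.Normal] (φ : ↥P ⧸ V →* (L ≃ₐ[K] L))
  (hφ : ∀ (h : ↥P) (l : L), ι (φ (h : ↥P ⧸ V) l) = (h : GQ) (ι l))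
variable [Finite (↥P ⧸ V)] (hV : 𝒱.mem V)

/-- **Surjectivity of `jB T`** onto the classes of level `V` with vanishing residues outside `T`. -/
theorem exists_jB_eq (hφbij : Function.Bijective φ)
    (hle : ∀ u : GQ, (∀ l : L, u (ι l) = ι l) → u ∈ P)
    {U : Rep.{0, 0, 0} ℤ (L ≃ₐ[K] L)} (incl : U ⟶ Jn K L T)
    (hinj : Function.Injective incl.hom)
    (hzero : ∀ (u : U) (y : Xoff S), valT (S := S) ι T (Additive.toMul (incl.hom u)) y = 0)
    (hker : ∀ a : Jn K L T, (∀ y : Xoff S, valT (S := S) ι T (Additive.toMul a) y = 0) →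
      ∃ u : U, incl.hom u = a)
    (hU : Limits.IsZero (groupCohomology U 3))
    (y : groupCohomology.H2 ((Div 𝒱 (Xoff S)).quotientToInvariants V))
    (hres : ∀ x : Xoff S, x.prime ∉ T →
      (resMor 𝒱 (Xoff S) x).h2 (ι₂ 𝒱 (Div 𝒱 (Xoff S)) V hV y) = 0) :
    ∃ b : groupCohomology (Jn K L T) 2,
      jB hfine hfin K ι T hF hι V φ hφ hV b = ι₂ 𝒱 (Div 𝒱 (Xoff S)) V hV y := by
  have key := LocOffSurjDiv.exists_jB_eq (𝒰 := 𝒱) (X := Xoff S) V hV φ incl
    (valRep hfine hfin K ι T hF hι V φ hφ) (overT (S := S) T) hφbij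
    (fun g y hy => overT_stable T g y hy) hinj ?_ ?_ ?_ hU y
    (fun x hx => hres x hx)
  · exact key
  · -- `val ∘ incl = 0`
    intro u
    apply Subtype.ext
    apply div_ext
    intro y
    rw [valRep_apply_coe, toFun_divT]
    exact hzero u y
  · -- kernel
    intro a ha
    refine hker a (fun y => ?_)
    have h1 := congrArg (fun d : (Div 𝒱 (Xoff S)).quotientToInvariants V =>
      toFun 𝒱 (Xoff S) (d.1 : Div 𝒱 (Xoff S)) y) ha
    have h2 : toFun 𝒱 (Xoff S) (((valRep hfine hfin K ι T hF hι V φ hφ).hom a :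
        (Div 𝒱 (Xoff S)).quotientToInvariants V).1 : Div 𝒱 (Xoff S)) y =
        valT (S := S) ι T (Additive.toMul a) y := by
      rw [valRep_apply_coe, toFun_divT]
    exact h2.symm.trans h1
  · -- surjectivity (weak approximation, as in `LocOffJB.jB_injective`)
    intro d hd
    have hdinv : ∀ (v : ↥P), v ∈ V → (Div 𝒱 (Xoff S)).ρ v (d.1 : Div 𝒱 (Xoff S)) = d.1 :=
      fun v hv => d.2 ⟨v, hv⟩
    have hinvf : ∀ g : GQ, (∀ l : L, g (ι l) = ι l) → ∀ y : Xoff S,
        toFun 𝒱 (Xoff S) (d.1 : Div 𝒱 (Xoff S)) (g • y) =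
          toFun 𝒱 (Xoff S) (d.1 : Div 𝒱 (Xoff S)) y := by
      intro g hg y
      have hgV := mem_V_of_fixes K ι V φ hφ hφbij.1 hle g hg
      have hinvV : (⟨g, hle g hg⟩ : ↥P)⁻¹ ∈ V := V.inv_mem hgV
      have h1 := congrArg (fun e : Div 𝒱 (Xoff S) => toFun 𝒱 (Xoff S) e y) (hdinv _ hinvV)
      simp only [toFun_ρ, inv_inv] at h1
      exact h1
    obtain ⟨u, hu⟩ := LocOffWA.exists_valT_eq (S := S) ι T hF hι
      (toFun 𝒱 (Xoff S) (d.1 : Div 𝒱 (Xoff S))) hinvf hd
    refine ⟨(Additive.ofMul (inclUnits ℚ L (QT T) u) : JQ L T), ?_⟩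
    apply Subtype.ext
    apply div_ext
    intro y
    exact (show _ = valT (S := S) ι T (inclUnits ℚ L (QT T) u) y from rfl).trans (hu y)

/-- the same, for a class `e'` of `H²_LC(P; Div)` known to come from level `V`. -/
theorem exists_jB_eq_of_level (hφbij : Function.Bijective φ)
    (hle : ∀ u : GQ, (∀ l : L, u (ι l) = ι l) → u ∈ P)
    {U : Rep.{0, 0, 0} ℤ (L ≃ₐ[K] L)} (incl : U ⟶ Jn K L T)
    (hinj : Function.Injective incl.hom)
    (hzero : ∀ (u : U) (y : Xoff S), valT (S := S) ι T (Additive.toMul (incl.hom u)) y = 0)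
    (hker : ∀ a : Jn K L T, (∀ y : Xoff S, valT (S := S) ι T (Additive.toMul a) y = 0) →
      ∃ u : U, incl.hom u = a)
    (hU : Limits.IsZero (groupCohomology U 3))
    (e' : H2 𝒱 (Div 𝒱 (Xoff S)))
    (hlev : ∃ y : groupCohomology.H2 ((Div 𝒱 (Xoff S)).quotientToInvariants V),
      ι₂ 𝒱 (Div 𝒱 (Xoff S)) V hV y = e')
    (hres : ∀ x : Xoff S, x.prime ∉ T → (resMor 𝒱 (Xoff S) x).h2 e' = 0) :
    ∃ b : groupCohomology (Jn K L T) 2, jB hfine hfin K ι T hF hι V φ hφ hV b = e' := by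
  obtain ⟨y, rfl⟩ := hlev
  exact exists_jB_eq hfine hfin K ι T hF hι V φ hφ hV hφbij hle incl hinj hzero hker hU y hres

end Fermat.Agent.S55.Middle.LocOffSurjJB
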