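/-
S55 / Middle (helper79): ROW (LOC-off), choice of the finite set of primes `T` for the
surjectivity half (leaf (L2) of the `hrealD` / `RealOffPLevel` chain).

* `exists_primes_finset` : for every class `z` of `H²_LC(P; Div 𝒱 (Xoff S))` there is a finite
  set `T₀` of primes such that the residues of `z` at all places `x` with `x.prime ∉ T₀` vanish
  (`DivTorsLevel.exists_finset_support`: the non-zero residues lie in finitely many `P`-orbits,
  and the prime below a place is constant on orbits);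
* `exists_primes_finset_ge` : the same with `T₀ ⊆ T` prescribed from below;
* `exists_T_exists_jB_eq` : a class `e'` of level `V`, and inputs `(U T, incl T, …)` of
  `LocOffSurjJB.exists_jB_eq` given for every finite `T ⊇ T₁`: there are `T ⊇ T₁` and
  `b : H²(Gal(L/K), (L ⊗[ℚ] ℚ_T)ˣ)` with `jB T b = e'`.
-/
import Mathlib
import Fermat.Agent.S55.Middle.LocOffSurjJB
import Fermat.Agent.S55.Middle.DivTorsLevel

set_option autoImplicit false
set_option linter.unusedSectionVars false
set_option linter.style.haveILetI false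

open scoped TensorProduct Pointwise
open CategoryTheory groupCohomology

namespace Fermat.Agent.S55.Middle.LocOffSurjT

open Fermat.Agent.S55.Formal Fermat.Agent.S55.Formal.LCLevel Fermat.Agent.S55.Formal.LCLevelH
open Fermat.Agent.S55.Middle.Defs Fermat.Agent.S55.Middle.DivDef Fermat.Agent.S55.Middle.Cap
open Fermat.Agent.S55.Middle.CapDiv Fermat.Agent.S55.Middle.LocOffVal
open Fermat.Agent.S55.Middle.LocOff
open Fermat.Agent.S55.Global.Objects Fermat.Agent.S55.Global.Objects2

variable {S : Finset Nat.Primes} {P : Subgroup GQ} {𝒱 : NBasis ↥P}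

/-- **finitely many primes carry the residues** of a class of `H²_LC(P; Div)`. -/
theorem exists_primes_finset (z : H2 𝒱 (Div 𝒱 (Xoff S))) :
    ∃ T₀ : Finset Nat.Primes, ∀ x : Xoff S, x.prime ∉ T₀ →
      (resMor 𝒱 (Xoff S) x).h2 z = 0 := by
  have h := DivTorsLevel.exists_finset_support 𝒱 (Xoff S) z
  cases' h with F hF
  refine ⟨F.image (fun y : Xoff S => y.prime), ?_⟩
  intro x hx
  by_contra hne
  have h2 := hF x hne
  obtain ⟨g, y, hy, hxy⟩ := h2
  apply hx
  rw [Finset.mem_image]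
  refine ⟨y, hy, ?_⟩
  rw [hxy]
  rfl

/-- the same, above a prescribed finite set of primes -/
theorem exists_primes_finset_ge (T₁ : Finset Nat.Primes) (z : H2 𝒱 (Div 𝒱 (Xoff S))) :
    ∃ T : Finset Nat.Primes, T₁ ⊆ T ∧ ∀ x : Xoff S, x.prime ∉ T →
      (resMor 𝒱 (Xoff S) x).h2 z = 0 := by
  have h := exists_primes_finset (S := S) (P := P) (𝒱 := 𝒱) z
  cases' h with T₀ hT₀
  refine ⟨T₁ ∪ T₀, Finset.subset_union_left, ?_⟩
  intro x hx
  exact hT₀ x (fun h => hx (Finset.mem_union_right _ h))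

variable (hfine : IsCont (PreludeLC.globalBasis S) 𝒱 P.subtype) (hfin : P.FiniteIndex)
variable (K : Type) [Field K] [NumberField K] {L : Type} [Field L] [NumberField L] [Algebra K L]
  (ι : L →+* Qbar)
  {F : IntermediateField ℚ Qbar} (hF : F.IsUnramifiedOutside S) (hι : ∀ l : L, ι l ∈ F)
variable (V : Subgroup ↥P) [V.Normal] (φ : ↥P ⧸ V →* (L ≃ₐ[K] L))
  (hφ : ∀ (h : ↥P) (l : L), ι (φ (h : ↥P ⧸ V) l) = (h : GQ) (ι l))
variable [Finite (↥P ⧸ V)] (hV : 𝒱.mem V)

/-- **(L2) with the choice of `T` inside**: if for every finite `T ⊇ T₁` the kernel of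
`valT ι T` is a sub-representation `U T` of `Jn K L T` with `H³(Gal(L/K), U T) = 0`, then every
class `e'` of `H²_LC(P; Div)` coming from the level `V` is `jB T b` for some `T ⊇ T₁` and some
`b : H²(Gal(L/K), Jn K L T)`. -/
theorem exists_T_exists_jB_eq (hφbij : Function.Bijective φ)
    (hle : ∀ u : GQ, (∀ l : L, u (ι l) = ι l) → u ∈ P)
    (T₁ : Finset Nat.Primes)
    (U : Finset Nat.Primes → Rep.{0, 0, 0} ℤ (L ≃ₐ[K] L))
    (incl : ∀ T : Finset Nat.Primes, U T ⟶ Jn K L T)
    (hinj : ∀ T, T₁ ⊆ T → Function.Injective (incl T).hom)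
    (hzero : ∀ T, T₁ ⊆ T → ∀ (u : U T) (y : Xoff S),
      valT (S := S) ι T (Additive.toMul ((incl T).hom u)) y = 0)
    (hker : ∀ T, T₁ ⊆ T → ∀ a : Jn K L T,
      (∀ y : Xoff S, valT (S := S) ι T (Additive.toMul a) y = 0) → ∃ u : U T, (incl T).hom u = a)
    (hU : ∀ T, T₁ ⊆ T → Limits.IsZero (groupCohomology (U T) 3))
    (e' : H2 𝒱 (Div 𝒱 (Xoff S)))
    (hlev : ∃ y : groupCohomology.H2 ((Div 𝒱 (Xoff S)).quotientToInvariants V),
      ι₂ 𝒱 (Div 𝒱 (Xoff S)) V hV y = e') :
    ∃ T : Finset Nat.Primes, T₁ ⊆ T ∧ ∃ b : groupCohomology (Jn K L T) 2,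
      jB hfine hfin K ι T hF hι V φ hφ hV b = e' := by
  have h := exists_primes_finset_ge (S := S) (P := P) (𝒱 := 𝒱) T₁ e'
  cases' h with T hT
  cases' hT with hT₁ hres
  refine ⟨T, hT₁, ?_⟩
  exact LocOffSurjJB.exists_jB_eq_of_level hfine hfin K ι T hF hι V φ hφ hV hφbij hle (incl T)
    (hinj T hT₁) (hzero T hT₁) (hker T hT₁) (hU T hT₁) e' hlev hres

end Fermat.Agent.S55.Middle.LocOffSurjT
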