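/-
S55 / Middle (helper79): (C5a), the FINITE-LEVEL REALISATION of a `p`-primary class of
`H²(P/V, Div^V)` by a global class (.B hedge of the `RealDivCore` announced in report #2457, same
literal shape), in helper99's abstract finite-level model (`LocOff` `Level` binders).

Chain: `d ↦ T₀` (finitely many primes carry the residues, `LocOffSurjT`) `↦ b₀` over `T₀` with
`jB T₀ b₀ = ι₂ d` (`LocOffKerConv.exists_jB_eq_of_unram`), `p ^ k • b₀ = 0`
(`LocOffKerConv.jB_injective_of_unram`) `↦ c` := the family of place-components of `b₀` `↦ y` global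
with `locFam y = c + single x₀ a`, `x₀ ∣ S` (`ImageFiniteClosed.exists_isGlobal_add_place`,
unconditional) `↦ off (inflL y) = jB T₀ b₀ = ι₂ d` (`LocOffGlobal.off_inflL_eq_jB_of_locFam`).

* `famOfJn`, `famOfJn_of_mem`, `famOfJn_of_notMem`, `suppIn_famOfJn`, `nsmul_famOfJn`;
* `exists_off_inflL_eq`     : the realisation;
* `exists_off_inflL_eq_tors` : the same with `p ^ n • y = 0` (`[L : K] = p ^ n`).
-/
import Mathlib
import Fermat.Agent.S55.Middle.LocOffGlobal
import Fermat.Agent.S55.Middle.LocOffKerConv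
import Fermat.Agent.S55.Middle.LocOffSurjT
import Fermat.Agent.S55.Middle.ImageFiniteClosed
import Fermat.Agent.S55.Tate.ResCor

set_option autoImplicit false
set_option linter.unusedSectionVars false
set_option linter.style.haveILetI false
set_option synthInstance.maxHeartbeats 400000
set_option maxHeartbeats 1600000

open scoped TensorProduct Pointwise
open CategoryTheory groupCohomology

namespace Fermat.Agent.S55.Middle.RealDivCoreB

noncomputable section

open Fermat.Agent.S55.Formal Fermat.Agent.S55.Formal.LCLevel Fermat.Agent.S55.Formal.LCLevelH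
open Fermat.Agent.S55.Middle.Defs Fermat.Agent.S55.Middle.DivDef Fermat.Agent.S55.Middle.Cap
open Fermat.Agent.S55.Middle.CapDiv Fermat.Agent.S55.Middle.LocOffVal
open Fermat.Agent.S55.Middle.LocOffNorm Fermat.Agent.S55.Middle.LocOff
open Fermat.Agent.S55.Global.Objects Fermat.Agent.S55.Global.Objects2
open Fermat.Agent.S55.Global Fermat.Agent.S55.Global.Blocks3
open Fermat.Agent.S55.Global.LocalProd Fermat.Agent.S55.Global.LocalProdT
open Fermat.Agent.S55.Global.LocalProdCoh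
open Fermat.Agent.S55.Middle.ImageFiniteCore

section Fam

variable {K : Type} [Field K] [NumberField K] {L : Type} [Field L] [NumberField L] [Algebra K L]

/-- the family of place-components of a class over `T`, extended by zero -/
def famOfJn (T : Finset Nat.Primes) (b : groupCohomology (Jn K L T) 2) : Fam K L :=
  fun x => if h : x.1 ∈ T then cohEquivLoc K L T 2 b ⟨⟨x.1, h⟩, x.2⟩ else 0

theorem famOfJn_of_mem (T : Finset Nat.Primes) (b : groupCohomology (Jn K L T) 2) (x : Pl K)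
    (h : x.1 ∈ T) : famOfJn T b x = cohEquivLoc K L T 2 b ⟨⟨x.1, h⟩, x.2⟩ :=
  dif_pos h

theorem famOfJn_of_notMem (T : Finset Nat.Primes) (b : groupCohomology (Jn K L T) 2) (x : Pl K)
    (h : x.1 ∉ T) : famOfJn T b x = 0 :=
  dif_neg h

theorem suppIn_famOfJn (T : Finset Nat.Primes) (b : groupCohomology (Jn K L T) 2) :
    SuppIn T (famOfJn T b) := fun x hx => famOfJn_of_notMem T b x hx

theorem nsmul_famOfJn (T : Finset Nat.Primes) (b : groupCohomology (Jn K L T) 2) (n : ℕ) :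
    n • famOfJn T b = famOfJn T (n • b) := by
  funext x
  rw [Pi.smul_apply]
  by_cases h : x.1 ∈ T
  · have e : cohEquivLoc K L T 2 (n • b) = n • cohEquivLoc K L T 2 b := map_nsmul _ _ _
    rw [famOfJn_of_mem T b x h, famOfJn_of_mem T (n • b) x h, e, Pi.smul_apply]
  · rw [famOfJn_of_notMem T b x h, famOfJn_of_notMem T (n • b) x h, smul_zero]

theorem famOfJn_zero (T : Finset Nat.Primes) :
    famOfJn T (0 : groupCohomology (Jn K L T) 2) = 0 := by
  funext x
  by_cases h : x.1 ∈ T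
  · rw [famOfJn_of_mem T 0 x h, map_zero]
    rfl
  · rw [famOfJn_of_notMem T 0 x h]
    rfl

end Fam

section Level

variable {S : Finset Nat.Primes} {P : Subgroup GQ} {𝒱 : NBasis ↥P}
  (hfine : IsCont (PreludeLC.globalBasis S) 𝒱 P.subtype) (hfin : P.FiniteIndex)
variable (K : Type) [Field K] [NumberField K] {L : Type} [Field L] [NumberField L] [Algebra K L]
  [IsGalois K L] (ι : L →+* Qbar)
  {F : IntermediateField ℚ Qbar} (hF : F.IsUnramifiedOutside S) (hι : ∀ l : L, ι l ∈ F)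
variable (V : Subgroup ↥P) [V.Normal] (φ : ↥P ⧸ V →* (L ≃ₐ[K] L))
  (hφ : ∀ (h : ↥P) (l : L), ι (φ (h : ↥P ⧸ V) l) = (h : GQ) (ι l))
variable [Finite (↥P ⧸ V)] (hV : 𝒱.mem V)

/-- **(C5a), finite-level realisation.**  `K ∋ ζ_p`, `p` odd, `L/K` Galois of `p`-power degree,
unramified off `S`; `d` a class of `H²(P/V, Div^V)` killed by `p ^ k`; `x₀` a place of `K` above
`S` whose decomposition group in `L/K` has order divisible by `p ^ k`.  Then `ι₂ d` is
`off (inflL y)` for a global class `y ∈ H²(Gal(L/K), Lˣ)`. -/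
theorem exists_off_inflL_eq {p : ℕ} (hp : p.Prime) (hodd : p ≠ 2)
    (hζ : ∃ ζ : K, IsPrimitiveRoot ζ p) (hpp : ∃ n : ℕ, Module.finrank K L = p ^ n)
    (hunr : ∀ q : Nat.Primes, q ∉ S → ∀ (𝔪 : Ideal (Ksemi K q)) [𝔪.IsMaximal]
      (m : Ideal (L ⊗[K] Kloc K q 𝔪)) [m.IsMaximal], UnramVal.IsUnramAtKloc K L q 𝔪 m)
    (hφbij : Function.Bijective φ)
    (hle : ∀ u : GQ, (∀ l : L, u (ι l) = ι l) → u ∈ P)
    (d : groupCohomology.H2 ((Div 𝒱 (Xoff S)).quotientToInvariants V)) (k : ℕ)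
    (hk : p ^ k • d = 0)
    (x₀ : Pl K) (hx₀ : x₀.1 ∈ S)
    (m : Ideal (L ⊗[K] Kloc K x₀.1 x₀.2.asIdeal)) [m.IsMaximal]
    (hdvd : p ^ k ∣ Nat.card (MulAction.stabilizer (L ≃ₐ[K] L) m)) :
    ∃ y : groupCohomology (Rep.ofAlgebraAutOnUnits K L) 2,
      (Mor.ofHom 𝒱 (divMap hfine hfin)).h2 (inflL K ι hF hι V φ hφ hV y) =
        ι₂ 𝒱 (Div 𝒱 (Xoff S)) V hV d := by
  classical
  -- the primes carrying the residues of `ι₂ d`
  have hT := LocOffSurjT.exists_primes_finset (S := S) (P := P) (𝒱 := 𝒱)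
    (ι₂ 𝒱 (Div 𝒱 (Xoff S)) V hV d)
  cases' hT with T hT
  have hT₀S : ∀ q ∈ T.filter (· ∉ S), q ∉ S := fun q hq => (Finset.mem_filter.1 hq).2
  have hres : ∀ x : Xoff S, x.prime ∉ T.filter (· ∉ S) →
      (resMor 𝒱 (Xoff S) x).h2 (ι₂ 𝒱 (Div 𝒱 (Xoff S)) V hV d) = 0 := fun x hx =>
    hT x (fun h => hx (Finset.mem_filter.2 ⟨h, x.prime_notMem⟩))
  -- the class `b₀` over `T₀ := T ∖ S`
  have hb := LocOffKerConv.exists_jB_eq_of_unram hfine hfin K ι (T.filter (· ∉ S)) hF hι V φ hφ hV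
    (fun q _ hqS 𝔪 _ m _ => hunr q hqS 𝔪 m) hφbij hle d hres
  cases' hb with b₀ hb₀
  have hinj := LocOffKerConv.jB_injective_of_unram hfine hfin K ι (T.filter (· ∉ S)) hF hι V φ hφ
    hV hT₀S (fun q hq 𝔪 _ m _ => hunr q (hT₀S q hq) 𝔪 m) hφbij hle
  have hkb : p ^ k • b₀ = 0 := by
    apply hinj
    have e1 : jB hfine hfin K ι (T.filter (· ∉ S)) hF hι V φ hφ hV (p ^ k • b₀) =
        p ^ k • jB hfine hfin K ι (T.filter (· ∉ S)) hF hι V φ hφ hV b₀ := map_nsmul _ _ _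
    have e2 : ι₂ 𝒱 (Div 𝒱 (Xoff S)) V hV (p ^ k • d) =
        p ^ k • ι₂ 𝒱 (Div 𝒱 (Xoff S)) V hV d := map_nsmul _ _ _
    rw [e1, hb₀, ← e2, hk, map_zero, map_zero]
  -- the family of components of `b₀`
  have hc : SuppIn (T.filter (· ∉ S)) (famOfJn (K := K) (L := L) (T.filter (· ∉ S)) b₀) :=
    suppIn_famOfJn _ b₀
  have hkc : p ^ k • famOfJn (K := K) (L := L) (T.filter (· ∉ S)) b₀ = 0 := by
    rw [nsmul_famOfJn, hkb, famOfJn_zero]
  have hg := ImageFiniteClosed.exists_isGlobal_add_place hp hodd hζ hpp (T.filter (· ∉ S))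
    (famOfJn (K := K) (L := L) (T.filter (· ∉ S)) b₀) hc k hkc x₀ m hdvd
  cases' hg with a hg
  cases' hg with y hy
  refine ⟨y, ?_⟩
  rw [← hb₀]
  apply LocOffGlobal.off_inflL_eq_jB_of_locFam hfine hfin K ι (T.filter (· ∉ S)) hF hι V φ hφ hV
    y b₀
  · intro x hx
    have hne : (⟨x.1.1, x.2⟩ : Pl K) ≠ x₀ := by
      intro h
      apply hx
      have : ((x.1 : (T.filter (· ∉ S) : Finset Nat.Primes)) : Nat.Primes) = x₀.1 :=
        congrArg Sigma.fst h
      rw [this]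
      exact hx₀
    rw [hy, Pi.add_apply, Pi.single_eq_of_ne hne, add_zero,
      famOfJn_of_mem (T.filter (· ∉ S)) b₀ ⟨x.1.1, x.2⟩ x.1.2]
  · intro x hxS hx₁
    have hne : x ≠ x₀ := by
      intro h
      apply hxS
      rw [h]
      exact hx₀
    rw [hy, Pi.add_apply, Pi.single_eq_of_ne hne, add_zero,
      famOfJn_of_notMem (T.filter (· ∉ S)) b₀ x hx₁]

/-- the same, recording that the realising class is `p`-primary -/
theorem exists_off_inflL_eq_tors {p : ℕ} (hp : p.Prime) (hodd : p ≠ 2)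
    (hζ : ∃ ζ : K, IsPrimitiveRoot ζ p) (n : ℕ) (hpp : Module.finrank K L = p ^ n)
    (hunr : ∀ q : Nat.Primes, q ∉ S → ∀ (𝔪 : Ideal (Ksemi K q)) [𝔪.IsMaximal]
      (m : Ideal (L ⊗[K] Kloc K q 𝔪)) [m.IsMaximal], UnramVal.IsUnramAtKloc K L q 𝔪 m)
    (hφbij : Function.Bijective φ)
    (hle : ∀ u : GQ, (∀ l : L, u (ι l) = ι l) → u ∈ P)
    (d : groupCohomology.H2 ((Div 𝒱 (Xoff S)).quotientToInvariants V)) (k : ℕ)
    (hk : p ^ k • d = 0)
    (x₀ : Pl K) (hx₀ : x₀.1 ∈ S)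
    (m : Ideal (L ⊗[K] Kloc K x₀.1 x₀.2.asIdeal)) [m.IsMaximal]
    (hdvd : p ^ k ∣ Nat.card (MulAction.stabilizer (L ≃ₐ[K] L) m)) :
    ∃ y : groupCohomology (Rep.ofAlgebraAutOnUnits K L) 2, p ^ n • y = 0 ∧
      p ^ n • inflL K ι hF hι V φ hφ hV y = 0 ∧
      (Mor.ofHom 𝒱 (divMap hfine hfin)).h2 (inflL K ι hF hι V φ hφ hV y) =
        ι₂ 𝒱 (Div 𝒱 (Xoff S)) V hV d := by
  have h := exists_off_inflL_eq hfine hfin K ι hF hι V φ hφ hV hp hodd hζ ⟨n, hpp⟩ hunr hφbij hle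
    d k hk x₀ hx₀ m hdvd
  cases' h with y hy
  haveI : FiniteDimensional K L := Module.Finite.of_restrictScalars_finite ℚ K L
  have hcard : Nat.card (L ≃ₐ[K] L) = p ^ n := by
    rw [IsGalois.card_aut_eq_finrank, hpp]
  have hy0 : p ^ n • y = 0 := by
    have := Tate.ResCor.card_smul_eq_zero₂ (Rep.ofAlgebraAutOnUnits K L) y
    rwa [hcard] at this
  refine ⟨y, hy0, ?_, hy⟩
  rw [← map_nsmul, hy0, map_zero]

end Level

end

end Fermat.Agent.S55.Middle.RealDivCoreB
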