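/-
S55 / MIDDLE block, row `M.levelPackage` (helper86): ONE-STOP PACKAGE for the `ℚ`-normal `p`-levels
of a subgroup `P ≤ G_ℚ` (`Level p S P`), in the language of the Galois dictionary.

The finite-level class field theory of the Global block (`ImageFiniteClosed.*`, `Final.hasseH2`,
`Final.noSingleSupport`, `HbnFinite`, `UnitClassUnramT`) is stated for abstract number fields
`K ⊆ L'` with hypotheses `[IsGalois K L']`, `hζ : ∃ ζ : K, IsPrimitiveRoot ζ p`,
`hpp : ∃ n, finrank K L' = p ^ n`, `hram` (ramified primes lie above `T`).  The LC side produces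
group-theoretic levels `N ∈ globalBasis S`, `N ≤ P`, `[P : N] = p ^ a`
(`SylowType.exists_pLevel_card`).  This file turns the latter into the former for
`K = K₀ P = ℚ̄^P`, `L' = Lext P L hKL`.

* `exists_field_of_mem`   : a member `N` of `globalBasis S` is `L.fixingSubgroup` with `L/ℚ` normal,
                            unramified outside `S`;
* `LevelFacts p S P L hKL`: the bundle `[NumberField K] [NumberField L'] [IsGalois K L']`,
                            `Finite (P ⧸ lvl P L)`, `(basisP S P).mem (lvl P L)`, `hζ`, `hram`,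
                            `finrank K L' = card (P ⧸ lvl P L) = [P : N]`;
* `levelFacts`            : the bundle holds for every `ℚ`-normal level `L` below a `Level p S P`;
* `exists_pLevel_field`   : for `P` of `p`-Sylow type and every `m` there is such a level `L` with
                            `L.fixingSubgroup ≤ fixRoots (p ^ m)` and `[L' : K]` a power of `p`.
-/
import Mathlib
import Fermat.Agent.S55.Middle.SylowType
import Fermat.Agent.S55.Middle.LevelField
import Fermat.Agent.S55.Middle.OSDict
import Fermat.Agent.S55.Middle.UnramOffAdapter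

set_option autoImplicit false
set_option linter.unusedSectionVars false
set_option linter.style.haveILetI false

open CategoryTheory groupCohomology NumberField IsDedekindDomain ExtCitation

namespace Fermat.Agent.S55.Middle.LevelPackage

open Fermat.Agent.S55.Formal
open Fermat.Agent.S55.Formal.PreludeLC hiding GQ Qbar
open Fermat.Agent.S55.Global.Objects Fermat.Agent.S55.Global.Objects2
open Fermat.Agent.S55.Middle.Defs Fermat.Agent.S55.Middle.KSite Fermat.Agent.S55.Middle.Blocks
open Fermat.Agent.S55.Middle.GaloisDict Fermat.Agent.S55.Middle.GaloisDictModel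
open Fermat.Agent.S55.Middle.CycloGrowIndex Fermat.Agent.S55.Middle.CycloGrowLevel

variable {p : ℕ} [Fact p.Prime] {S : Finset Nat.Primes}

/-- A member of `globalBasis S` is the fixing subgroup of a finite normal extension of `ℚ` inside
`ℚ̄`, unramified outside `S`. -/
theorem exists_field_of_mem {N : Subgroup GQ} (hN : (globalBasis S).mem N) :
    ∃ (L : IntermediateField ℚ Qbar) (_ : Normal ℚ L), L.IsUnramifiedOutside S ∧
      L.fixingSubgroup = N := by
  obtain ⟨F, hF, hFn, rfl⟩ := hN
  exact ⟨F, normal_of_fixingSubgroup_normal F hFn, hF, rfl⟩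

/-- The hypotheses consumed by the finite-level theorems of the Global block, for the level
`L' = Lext P L hKL` over `K = K₀ P`. -/
structure LevelFacts (p : ℕ) (S : Finset Nat.Primes) (P : Subgroup GQ)
    (L : IntermediateField ℚ Qbar) (hKL : K₀ P ≤ L) : Prop where
  numberFieldK : NumberField ↥(K₀ P)
  numberFieldL : NumberField ↥(Lext P L hKL)
  isGalois : IsGalois ↥(K₀ P) ↥(Lext P L hKL)
  finiteQuot : Finite (↥P ⧸ lvl P L)
  mem_basisP : (basisP S P).mem (lvl P L)
  zeta : ∃ ζ : ↥(K₀ P), IsPrimitiveRoot ζ p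
  finrank_eq : Module.finrank ↥(K₀ P) ↥(Lext P L hKL) = Nat.card (↥P ⧸ lvl P L)
  finrank_eq_index : Module.finrank ↥(K₀ P) ↥(Lext P L hKL) = (lvl P L).index

/-- the ramification hypothesis `hram` (= `AdmissibleQ.ram`) of a `ℚ`-normal level. -/
theorem LevelFacts.ram {P : Subgroup GQ} {L : IntermediateField ℚ Qbar} {hKL : K₀ P ≤ L}
    (h : LevelFacts p S P L hKL) (hL : L.IsUnramifiedOutside S) :
    haveI := h.numberFieldK
    haveI := h.numberFieldL
    ∀ w : Place ↥(Lext P L hKL),
      (∃ σ : ↥(Lext P L hKL) ≃ₐ[↥(K₀ P)] ↥(Lext P L hKL),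
        σ ∈ w.asIdeal.inertia (↥(Lext P L hKL) ≃ₐ[↥(K₀ P)] ↥(Lext P L hKL)) ∧ σ ≠ 1) →
      w ∈ placesAboveQ ↥(Lext P L hKL) S := by
  haveI := h.numberFieldK
  haveI := h.numberFieldL
  haveI := h.isGalois
  exact UnramOffAdapter.ram_of_isUnramifiedOutside S P L hKL hL

/-- **The bundle holds for every `ℚ`-normal level below a `Level p S P`.** -/
theorem levelFacts {P : Subgroup GQ} (hP : Level p S P) (L : IntermediateField ℚ Qbar)
    [Normal ℚ L] (hL : L.IsUnramifiedOutside S) (hn : L.fixingSubgroup.Normal)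
    (hle : L.fixingSubgroup ≤ P) (hKL : K₀ P ≤ L) : LevelFacts p S P L hKL := by
  have hmemN : (globalBasis S).mem L.fixingSubgroup := ⟨L, hL, hn, rfl⟩
  have hmem : (basisP S P).mem (lvl P L) := ⟨L.fixingSubgroup, hmemN, rfl⟩
  haveI hfin : Finite (↥P ⧸ lvl P L) := by
    haveI := (basisP S P).finiteIndex hmem
    exact Subgroup.finite_quotient_of_finiteIndex
  have hfr : Module.finrank ↥(K₀ P) ↥(Lext P L hKL) = Nat.card (↥P ⧸ lvl P L) :=
    OSDict.finrank_Lext S P L hKL hL hle
  exact
    { numberFieldK := OSDict.numberField_K₀ hP.isOpen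
      numberFieldL := OSDict.numberField_Lext L hKL hL
      isGalois := OSDict.isGalois_Lext P L hKL
      finiteQuot := hfin
      mem_basisP := hmem
      zeta := LevelField.exists_zeta hP
      finrank_eq := hfr
      finrank_eq_index := by rw [hfr, Subgroup.index_eq_card] }

/-- **`ℚ`-normal `p`-levels in field form.**  For `P` of `p`-Sylow type (`Level p S P`, `p ∈ S`) and
every `m` there is a finite normal `L/ℚ` inside `ℚ̄`, unramified outside `S`, with
`Gal(ℚ̄/L) ≤ P`, `Gal(ℚ̄/L) ≤ fixRoots (p ^ m)` (i.e. `L ∋ ζ_{p^m}`), all the hypotheses of the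
finite-level theorems, and `[L' : K₀ P]` a power of `p`. -/
theorem exists_pLevel_field {P : Subgroup GQ} (hpS : pPrime p ∈ S) (hP : Level p S P)
    (hT : SylowType.IsSylowType p S P) (m : ℕ) :
    ∃ (L : IntermediateField ℚ Qbar) (_ : Normal ℚ L) (_ : L.IsUnramifiedOutside S)
      (_ : L.fixingSubgroup ≤ P) (hKL : K₀ P ≤ L),
      (globalBasis S).mem L.fixingSubgroup ∧ L.fixingSubgroup ≤ fixRoots (p ^ m) ∧
      LevelFacts p S P L hKL ∧
      (∀ h ∈ P, ∃ j : ℕ, h ^ (p ^ j) ∈ L.fixingSubgroup) ∧
      ∃ a : ℕ, Module.finrank ↥(K₀ P) ↥(Lext P L hKL) = p ^ a := by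
  obtain ⟨N, hN, hNP, hNm, hpow⟩ := SylowType.exists_pLevel hpS hP hT m
  obtain ⟨L, hLn, hL, rfl⟩ := exists_field_of_mem hN
  haveI := hLn
  have hn : L.fixingSubgroup.Normal := (globalBasis S).normal hN
  have hKL : K₀ P ≤ L := fixedField_le_of_le hNP
  have hF := levelFacts hP L hL hn hNP hKL
  refine ⟨L, hLn, hL, hNP, hKL, hN, hNm, hF, hpow, ?_⟩
  haveI := hn
  haveI := (globalBasis S).finiteIndex hN
  haveI : (lvl P L).Normal := inferInstance
  haveI : (lvl P L).FiniteIndex := inferInstance
  obtain ⟨a, ha⟩ := SylowRel.exists_card_quotient_eq_pow p (lvl P L) (fun g => by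
    obtain ⟨j, hj⟩ := hpow g.1 g.2
    exact ⟨j, hj⟩)
  exact ⟨a, by rw [hF.finrank_eq, ha]⟩

end Fermat.Agent.S55.Middle.LevelPackage
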