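/-
S55 / Middle layer (helper67, requested by helper5 #2377): side conditions of the finite-level
model `LocOffDict` needed by the LOC-off consumers (`LocOffJB.jB_injective`,
`LocOffJBSurj.exists_jB_eq`, `LocOffApprox.valRep_surjective_on_supp`):

* `φ₀_bijective`  : `Function.Bijective φ₀`;
* `mem_of_fixes`  : an element of `GQ` fixing `ιL L'` pointwise lies in `H`;
* `mem_lvl_of_fixes` (`hfix` of `LocOffApprox.valRep_surjective_on_supp`): it even lies in the
  level `lvl H L`;
* `fixes_of_mem_lvl` : the converse.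
-/
import Fermat.Agent.S55.Middle.LocOffDict

set_option autoImplicit false
set_option linter.unusedSectionVars false

namespace Fermat.Agent.S55.Middle.LocOffDictCor

noncomputable section

open Fermat.Agent.S55.Formal Fermat.Agent.S55.Formal.PreludeLC Fermat.Agent.S55.Middle.Defs
open Fermat.Agent.S55.Middle.Dict Fermat.Agent.S55.Middle.GaloisDict
open Fermat.Agent.S55.Middle.GaloisDictModel Fermat.Agent.S55.Middle.OSDict
open Fermat.Agent.S55.Middle.GaloisDictTrans Fermat.Agent.S55.Middle.LocOffDict

variable (S : Finset Nat.Primes) (H : Subgroup Defs.GQ) (L : IntermediateField ℚ Defs.Qbar)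
  [Normal ℚ L] (hKL : K₀ H ≤ L) (hL : L.IsUnramifiedOutside S) (hle : L.fixingSubgroup ≤ H)

/-- (a) the dictionary homomorphism `↥H ⧸ lvl H L →* Gal(L'/K)` is bijective. -/
theorem φ₀_bijective : Function.Bijective (φ₀ S H L hKL hL hle) :=
  (pairExt S H L hKL hL hle).e.bijective

theorem φ₀_injective : Function.Injective (φ₀ S H L hKL hL hle) :=
  (φ₀_bijective S H L hKL hL hle).1

theorem φ₀_surjective : Function.Surjective (φ₀ S H L hKL hL hle) :=
  (φ₀_bijective S H L hKL hL hle).2

/-- an element of `GQ` fixing the image of `L'` pointwise fixes `L` pointwise. -/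
theorem mem_fixingSubgroup_of_fixes (u : Defs.GQ)
    (hu : ∀ l : ↥(Lext H L hKL), u (ιL H L hKL l) = ιL H L hKL l) : u ∈ L.fixingSubgroup := by
  rw [IntermediateField.mem_fixingSubgroup_iff]
  intro x hx
  exact hu ⟨x, hx⟩

include hle in
/-- (b) an element of `GQ` fixing the image of `L'` pointwise lies in `H`. -/
theorem mem_of_fixes (u : Defs.GQ)
    (hu : ∀ l : ↥(Lext H L hKL), u (ιL H L hKL l) = ιL H L hKL l) : u ∈ H :=
  hle (mem_fixingSubgroup_of_fixes H L hKL u hu)

include hle in
/-- (`hfix` of `LocOffApprox.valRep_surjective_on_supp`) an element of `GQ` fixing the image of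
`L'` pointwise lies in the level `lvl H L`. -/
theorem mem_lvl_of_fixes (u : Defs.GQ)
    (hu : ∀ l : ↥(Lext H L hKL), u (ιL H L hKL l) = ιL H L hKL l) :
    ∃ h : u ∈ H, (⟨u, h⟩ : ↥H) ∈ lvl H L :=
  ⟨mem_of_fixes H L hKL hle u hu, by
    rw [Subgroup.mem_subgroupOf]
    exact mem_fixingSubgroup_of_fixes H L hKL u hu⟩

/-- conversely the elements of the level fix the image of `L'` pointwise. -/
theorem fixes_of_mem_lvl (v : ↥H) (hv : v ∈ lvl H L) (l : ↥(Lext H L hKL)) :
    (v : Defs.GQ) (ιL H L hKL l) = ιL H L hKL l := by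
  rw [Subgroup.mem_subgroupOf, IntermediateField.mem_fixingSubgroup_iff] at hv
  exact hv _ l.2

end

end Fermat.Agent.S55.Middle.LocOffDictCor
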