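/-
S55 / Middle, row (U): ADAPTER (helper71) producing helper25's hypothesis
`UnramVal.IsUnramAtKloc K L q 𝔪 m` ("`E = (L ⊗[K] Kloc K q 𝔪) ⧸ m` is unramified over
`Kloc K q 𝔪`", `FiniteExtLF` norms) from the GLOBAL arithmetic statement "`L/K` is unramified over
the place `v = PlaceBij.placeOfMax 𝔪`" (resp. over the rational prime `q`), via
`Global/UnramDictKloc.lean`.

* `isUnramAtKloc_of_uniformizer`      : some `π ∈ K` is a uniformizer at the place of `L` cut out by `m`;
* `isUnramAtKloc_of_ramificationIdx`  : `e(P | v) = 1` for the primes `P` of `L` over `v`;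
* `isUnramAtKloc_of_inertia`          : `L/K` Galois, trivial inertia groups over `v`;
* `isUnramAtKloc_of_ramificationIdx_above`, `isUnramAtKloc_of_inertia_above` : the same with the
  hypothesis on ALL primes of `L` containing the rational prime `q`, concluding for ALL `𝔪`, `m`
  (the literal `hunr` of helper26's `isZero_UTn`).
-/
import Mathlib
import Fermat.Agent.S55.Middle.UnramVal
import Fermat.Agent.S55.Global.UnramDictKloc

set_option autoImplicit false
set_option linter.unusedSectionVars false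
set_option linter.style.haveILetI false

namespace Fermat.Agent.S55.Middle.UnramAtKloc

open NumberField IsDedekindDomain
open scoped TensorProduct NumberField
open Fermat.Agent.S55.Global Fermat.Agent.S55.Global.PlaceBij Fermat.Agent.S55.Global.Blocks3
open Fermat.Agent.S55.Global.UnramDictKloc Fermat.Agent.S55.Middle.UnramVal

attribute [local instance] Algebra.TensorProduct.rightAlgebra

variable (K L : Type) [Field K] [NumberField K] [Field L] [NumberField L] [Algebra K L]
  [IsGalois K L]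
variable (q : Nat.Primes) (𝔪 : Ideal (Ksemi K q)) [h𝔪 : 𝔪.IsMaximal]
variable (m : Ideal (L ⊗[K] Kloc K q 𝔪)) [hm : m.IsMaximal]

/-- A uniformizer of `K` staying a uniformizer at the place of `m` ⇒ unramified at `m`. -/
theorem isUnramAtKloc_of_uniformizer {π : K}
    (hπ : (placeAt K L q 𝔪 m).valuation L (algebraMap K L π) = WithZero.exp (-1 : ℤ)) :
    IsUnramAtKloc K L q 𝔪 m :=
  isUnram_Kloc_of_uniformizer K L q 𝔪 m hπ

/-- `e = 1` over `v = placeOfMax 𝔪` ⇒ unramified at every `m`. -/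
theorem isUnramAtKloc_of_ramificationIdx
    (he : ∀ P : Ideal (𝓞 L), P.IsPrime → P.LiesOver (placeOfMax 𝔪).asIdeal →
      P.ramificationIdx (𝓞 K) = 1) :
    IsUnramAtKloc K L q 𝔪 m :=
  isUnram_Kloc_of_ramificationIdx K L q 𝔪 m he

/-- Trivial inertia over `v = placeOfMax 𝔪` ⇒ unramified at every `m`. -/
theorem isUnramAtKloc_of_inertia
    (hunr : ∀ P : Ideal (𝓞 L), P.IsPrime → P.LiesOver (placeOfMax 𝔪).asIdeal →
      ∀ σ ∈ Ideal.inertia (L ≃ₐ[K] L) P, σ = 1) :
    IsUnramAtKloc K L q 𝔪 m :=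
  isUnram_Kloc_of_inertia K L q 𝔪 m hunr

/-- A prime of `L` over `placeOfMax 𝔪` contains the rational prime `q`. -/
theorem natCast_mem_of_liesOver (P : Ideal (𝓞 L)) (hP : P.LiesOver (placeOfMax 𝔪).asIdeal) :
    (((q : ℕ) : ℕ) : 𝓞 L) ∈ P := by
  have h := (Ideal.mem_of_liesOver P (placeOfMax 𝔪).asIdeal (((q : ℕ) : ℕ) : 𝓞 K)).mp
    (natCast_mem_placeOfMax 𝔪)
  rwa [map_natCast] at h

end Fermat.Agent.S55.Middle.UnramAtKloc

namespace Fermat.Agent.S55.Middle.UnramAtKloc

open NumberField IsDedekindDomain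
open scoped TensorProduct NumberField
open Fermat.Agent.S55.Global Fermat.Agent.S55.Global.PlaceBij Fermat.Agent.S55.Global.Blocks3
open Fermat.Agent.S55.Global.UnramDictKloc Fermat.Agent.S55.Middle.UnramVal

attribute [local instance] Algebra.TensorProduct.rightAlgebra

variable (K L : Type) [Field K] [NumberField K] [Field L] [NumberField L] [Algebra K L]
  [IsGalois K L]
variable (q : Nat.Primes)

/-- `L/K` has `e = 1` at all primes above the rational prime `q` ⇒ unramified at every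
`(𝔪, m)` above `q`. -/
theorem isUnramAtKloc_of_ramificationIdx_above
    (he : ∀ P : Ideal (𝓞 L), P.IsPrime → (((q : ℕ) : ℕ) : 𝓞 L) ∈ P →
      P.ramificationIdx (𝓞 K) = 1)
    (𝔪 : Ideal (Ksemi K q)) [𝔪.IsMaximal] (m : Ideal (L ⊗[K] Kloc K q 𝔪)) [m.IsMaximal] :
    IsUnramAtKloc K L q 𝔪 m :=
  isUnramAtKloc_of_ramificationIdx K L q 𝔪 m
    (fun P hP hPv => he P hP (natCast_mem_of_liesOver K L q 𝔪 P hPv))

/-- `L/K` has trivial inertia at all primes above the rational prime `q` ⇒ unramified at every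
`(𝔪, m)` above `q`. -/
theorem isUnramAtKloc_of_inertia_above
    (hunr : ∀ P : Ideal (𝓞 L), P.IsPrime → (((q : ℕ) : ℕ) : 𝓞 L) ∈ P →
      ∀ σ ∈ Ideal.inertia (L ≃ₐ[K] L) P, σ = 1)
    (𝔪 : Ideal (Ksemi K q)) [𝔪.IsMaximal] (m : Ideal (L ⊗[K] Kloc K q 𝔪)) [m.IsMaximal] :
    IsUnramAtKloc K L q 𝔪 m :=
  isUnramAtKloc_of_inertia K L q 𝔪 m
    (fun P hP hPv => hunr P hP (natCast_mem_of_liesOver K L q 𝔪 P hPv))

end Fermat.Agent.S55.Middle.UnramAtKloc
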