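/-
S55 / Middle / M.h3.realDivInst (helper86): INSTANTIATION GLUE for the first half of (C5).

helper60's finite-level core `RealDivCore.exists_off_inflL_eq` is stated in helper99's abstract
finite-level model (`LocOff`, `Level` section: `hfine hfin K ι hF hι V φ hφ hV`).  The LC side
(helper58, `RealDivDeep.RealDivDeepLevel p S`) wants the realisation of the `p`-primary classes of
`H²(H/N, Div^N)` at the deep `ℚ`-normal `p`-group levels `N ≤ H ⊓ fixRoots (p ^ m₀)`.  This file
instantiates the model at the real objects `(K₀ H, Lext H L hKL, ιL, lvl H L, φ₀)` of the Galois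
dictionary and supplies every side condition:

* `Core p`      : the finite-level core, abstract model, as a closed Prop;
* `FLReal p S`  : the same statement specialised to the real objects;
* `flReal_of_core : Core p → FLReal p S`;
* `realDivDeepLevel (hodd) (hpS) : FLReal p S → RealDivDeep.RealDivDeepLevel p S`;
* `h3OTorsion_of_flReal`, `h3OTorsion_of_core` : `Blocks.H3OTorsion p S` from the core and
  `H3OInst.H3KxTorsionFree p S`.
-/
import Mathlib
import Fermat.Agent.S55.Middle.RealDivDeep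
import Fermat.Agent.S55.Middle.LevelPackage
import Fermat.Agent.S55.Middle.LocOffDictCor
import Fermat.Agent.S55.Middle.LocSCard
import Fermat.Agent.S55.Middle.UnramAtKloc
import Fermat.Agent.S55.Middle.DictBridge
import Fermat.Agent.S55.Tate.ResCor

set_option autoImplicit false
set_option linter.unusedSectionVars false
set_option linter.style.haveILetI false

open scoped TensorProduct Pointwise
open CategoryTheory groupCohomology ExtCitation

namespace Fermat.Agent.S55.Middle.RealDivInst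

noncomputable section

open Fermat.Agent.S55.Formal
open Fermat.Agent.S55.Formal.PreludeLC hiding GQ Qbar
open Fermat.Agent.S55.Formal.LCLevel Fermat.Agent.S55.Formal.LCLevelH
open Fermat.Agent.S55.Middle.Defs Fermat.Agent.S55.Middle.KSite
open Fermat.Agent.S55.Middle.DivDef Fermat.Agent.S55.Middle.Cap Fermat.Agent.S55.Middle.CapDiv
open Fermat.Agent.S55.Middle.GaloisDict Fermat.Agent.S55.Middle.GaloisDictModel
open Fermat.Agent.S55.Middle.LocOffDict Fermat.Agent.S55.Middle.LocOffDictCor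
open Fermat.Agent.S55.Middle.H3OInst
open Fermat.Agent.S55.Middle.CycloGrowIndex (fixRoots lossAt)
open Fermat.Agent.S55.Global Fermat.Agent.S55.Global.Objects Fermat.Agent.S55.Global.Objects2
open Fermat.Agent.S55.Global.Blocks3
open Fermat.Agent.S55.Middle.LocS


set_option synthInstance.maxHeartbeats 400000 in
/-- **The finite-level core** (helper60, `RealDivCore.exists_off_inflL_eq`), in helper99's abstract
finite-level model: every class `d` of `H²(P/V, Div^V)` killed by `p ^ k` is `off (inflL y)` for a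
global class `y` of `H²(Gal(L/K), Lˣ)`, provided `L/K` is a `p`-extension of number fields with
`ζ_p ∈ K`, unramified outside `S`, and some place `x₀` of `K` above `S` has a decomposition group
of order divisible by `p ^ k`. -/
def Core (p : ℕ) : Prop :=
  ∀ {S : Finset Nat.Primes} {P : Subgroup GQ} {𝒱 : NBasis ↥P}
    (hfine : IsCont (PreludeLC.globalBasis S) 𝒱 P.subtype) (hfin : P.FiniteIndex)
    (K : Type) [Field K] [NumberField K] {L : Type} [Field L] [NumberField L] [Algebra K L]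
    [IsGalois K L] (ι : L →+* Qbar)
    {F : IntermediateField ℚ Qbar} (hF : F.IsUnramifiedOutside S) (hι : ∀ l : L, ι l ∈ F)
    (V : Subgroup ↥P) [V.Normal] (φ : ↥P ⧸ V →* (L ≃ₐ[K] L))
    (hφ : ∀ (h : ↥P) (l : L), ι (φ (h : ↥P ⧸ V) l) = (h : GQ) (ι l))
    [Finite (↥P ⧸ V)] (hV : 𝒱.mem V),
    Function.Bijective φ → (∀ u : GQ, (∀ l : L, u (ι l) = ι l) → u ∈ P) →
    p.Prime → p ≠ 2 → (∃ ζ : K, IsPrimitiveRoot ζ p) → (∃ n : ℕ, Module.finrank K L = p ^ n) →
    (∀ q : Nat.Primes, q ∉ S → ∀ (𝔪 : Ideal (Ksemi K q)) [𝔪.IsMaximal]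
      (m : Ideal (L ⊗[K] Kloc K q 𝔪)) [m.IsMaximal], UnramVal.IsUnramAtKloc K L q 𝔪 m) →
    ∀ (d : groupCohomology.H2 ((Div 𝒱 (Xoff S)).quotientToInvariants V)) (k : ℕ),
      p ^ k • d = 0 →
    ∀ (x₀ : ImageFiniteCore.Pl K), x₀.1 ∈ S →
    ∀ (m : Ideal (L ⊗[K] Kloc K x₀.1 x₀.2.asIdeal)) [m.IsMaximal],
      p ^ k ∣ Nat.card (MulAction.stabilizer (L ≃ₐ[K] L) m) →
    ∃ y : groupCohomology (Rep.ofAlgebraAutOnUnits K L) 2,
      (Mor.ofHom 𝒱 (divMap hfine hfin)).h2 (LocOff.inflL K ι hF hι V φ hφ hV y) =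
        ι₂ 𝒱 (Div 𝒱 (Xoff S)) V hV d

set_option synthInstance.maxHeartbeats 400000 in
/-- **The finite-level core at the real objects** `K = K₀ H`, `L' = Lext H L hKL`, `V = lvl H L`,
`φ₀`, over the basis `basisP S H`. -/
def FLReal (p : ℕ) (S : Finset Nat.Primes) : Prop :=
  ∀ (H : Subgroup GQ) (hfin : H.FiniteIndex) (L : IntermediateField ℚ Qbar) [Normal ℚ L]
    (hKL : K₀ H ≤ L) (hL : L.IsUnramifiedOutside S) (hle : L.fixingSubgroup ≤ H)
    [NumberField ↥(K₀ H)] [NumberField ↥(Lext H L hKL)] [IsGalois ↥(K₀ H) ↥(Lext H L hKL)]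
    [(lvl H L).Normal] [Finite (↥H ⧸ lvl H L)] (hV : (basisP S H).mem (lvl H L)),
    (∃ ζ : ↥(K₀ H), IsPrimitiveRoot ζ p) →
    (∃ n : ℕ, Module.finrank ↥(K₀ H) ↥(Lext H L hKL) = p ^ n) →
    ∀ (d : groupCohomology.H2 ((DivP S H).quotientToInvariants (lvl H L))) (k : ℕ),
      p ^ k • d = 0 →
    ∀ (x₀ : ImageFiniteCore.Pl ↥(K₀ H)), x₀.1 ∈ S →
    ∀ (m : Ideal (↥(Lext H L hKL) ⊗[↥(K₀ H)] Kloc ↥(K₀ H) x₀.1 x₀.2.asIdeal)) [m.IsMaximal],
      p ^ k ∣ Nat.card
        (MulAction.stabilizer (↥(Lext H L hKL) ≃ₐ[↥(K₀ H)] ↥(Lext H L hKL)) m) →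
    ∃ y : groupCohomology (Rep.ofAlgebraAutOnUnits ↥(K₀ H) ↥(Lext H L hKL)) 2,
      (Mor.ofHom (basisP S H) (divMap (CapDiv.isCont_subBasis S H) hfin)).h2
          (LocOff.inflL ↥(K₀ H) (ιL H L hKL) hL (ιL_mem H L hKL) (lvl H L)
            (φ₀ S H L hKL hL hle) (hφ₀ S H L hKL hL hle) hV y) =
        ι₂ (basisP S H) (DivP S H) (lvl H L) hV d

variable {p : ℕ} [Fact p.Prime] {S : Finset Nat.Primes}

set_option synthInstance.maxHeartbeats 400000 in
/-- the abstract core gives the core at the real objects (`LocOffDict` is a finite-level model). -/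
theorem flReal_of_core (hodd : p ≠ 2) (hcore : Core p) : FLReal p S := by
  intro H hfin L _ hKL hL hle _ _ _ _ _ hV hζ hpp d k hk x₀ hx₀ m _ hdvd
  refine hcore (CapDiv.isCont_subBasis S H) hfin ↥(K₀ H) (ιL H L hKL) hL (ιL_mem H L hKL)
    (lvl H L) (φ₀ S H L hKL hL hle) (hφ₀ S H L hKL hL hle) hV
    (φ₀_bijective S H L hKL hL hle) (mem_of_fixes H L hKL hle) (Fact.out) hodd hζ hpp
    (fun q hq 𝔪 _ m' _ => ?_) d k hk x₀ hx₀ m hdvd
  refine UnramAtKloc.isUnramAtKloc_of_inertia_above ↥(K₀ H) ↥(Lext H L hKL) q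
    (fun Q hQ hqQ σ hσ => ?_) 𝔪 m'
  haveI := hQ
  have hbot := UnramOffAdapter.inertia_eq_bot_Lext S H L hKL hL q hq Q hqQ
  rw [hbot, Subgroup.mem_bot] at hσ
  exact hσ

set_option synthInstance.maxHeartbeats 400000 in
set_option maxHeartbeats 1600000 in
/-- **The deep-level realisation for the real objects from the finite-level core.**  The depth is
`m₀ = a + lossAt p p + v_p [Γ_p : D_H]` (local degree at the place of `K₀ H` above `p` cut out by
the fixed embedding `ℚ̄ → ℚ̄_p`). -/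
theorem realDivDeepLevel (hodd : p ≠ 2) (hpS : pPrime p ∈ S) (h : FLReal p S) :
    RealDivDeep.RealDivDeepLevel p S := by
  intro H hH a
  refine ⟨a + lossAt p (pPrime p) + padicValNat p (Dloc H (pPrime p) 1).index, ?_⟩
  intro N hN hNH _ hNm hpg d hd
  obtain ⟨L, hLn, hL, rfl⟩ := LevelPackage.exists_field_of_mem hN
  haveI := hLn
  have hn : L.fixingSubgroup.Normal := (globalBasis S).normal hN
  have hKL : K₀ H ≤ L := fixedField_le_of_le hNH
  have hF := LevelPackage.levelFacts hH L hL hn hNH hKL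
  haveI := hF.numberFieldK
  haveI := hF.numberFieldL
  haveI := hF.isGalois
  haveI := hF.finiteQuot
  have hfin := level_finiteIndex hH
  have hpp : ∃ n : ℕ, Module.finrank ↥(K₀ H) ↥(Lext H L hKL) = p ^ n := by
    haveI := hn
    haveI := (globalBasis S).finiteIndex hN
    haveI : (lvl H L).FiniteIndex := inferInstance
    obtain ⟨n, hn'⟩ := SylowRel.exists_card_quotient_eq_pow p (lvl H L) (fun g => by
      obtain ⟨j, hj⟩ := hpg g.1 g.2
      exact ⟨j, hj⟩)
    exact ⟨n, by rw [hF.finrank_eq, hn']⟩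
  let x₀ : ImageFiniteCore.Pl ↥(K₀ H) := ⟨pPrime p, ⟨mAt H (pPrime p) 1, inferInstance⟩⟩
  obtain ⟨m, hm⟩ := ImageFiniteLocal.exists_maximal_tensor (L := ↥(Lext H L hKL)) x₀
  haveI := hm
  have hodd' : Odd p := (Fact.out : p.Prime).odd_of_ne_two hodd
  have hdvd := LocSCard.pow_dvd_card_stabilizer_mAt S H p L hL hNH hKL (pPrime p) 1 hodd'
    hH.triv a _ le_rfl hNm m
  obtain ⟨y, hy⟩ := h H hfin L hKL hL hNH hF.mem_basisP hF.zeta hpp d a hd x₀ hpS m hdvd
  refine ⟨LocOff.inflL ↥(K₀ H) (ιL H L hKL) hL (ιL_mem H L hKL) (lvl H L)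
    (φ₀ S H L hKL hL hNH) (hφ₀ S H L hKL hL hNH) hF.mem_basisP y, ?_, ?_⟩
  · obtain ⟨n, hn'⟩ := hpp
    refine ⟨n, ?_⟩
    have h0 : p ^ n • y = 0 := by
      have h1 := Tate.ResCor.card_smul_eq_zero₂
        (Rep.ofAlgebraAutOnUnits ↥(K₀ H) ↥(Lext H L hKL)) y
      rwa [IsGalois.card_aut_eq_finrank, hn'] at h1
    rw [← map_nsmul, h0, map_zero]
  · have hb : Dict.inflH2 (basisP S H) (DivP S H) hF.mem_basisP d =
        ι₂ (basisP S H) (DivP S H) (lvl H L) hF.mem_basisP d := by
      rw [DictBridge.inflH2_eq_ι₂]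
    exact hy.trans hb.symm

/-- `H3OLevels.RealDivPLevel p S` from the core at the real objects. -/
theorem realDivPLevel_of_flReal (hodd : p ≠ 2) (hpS : pPrime p ∈ S) (h : FLReal p S) :
    H3OLevels.RealDivPLevel p S :=
  RealDivDeep.realDivPLevel_of_deep p hpS (realDivDeepLevel hodd hpS h)

/-- `H3OLevels.RealDivPLevel p S` from the abstract finite-level core. -/
theorem realDivPLevel_of_core (hodd : p ≠ 2) (hpS : pPrime p ∈ S) (hcore : Core p) :
    H3OLevels.RealDivPLevel p S :=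
  realDivPLevel_of_flReal hodd hpS (flReal_of_core hodd hcore)

/-- **(C5), first half**, from (HBN-H3) and the core at the real objects. -/
theorem h3OTorsion_of_flReal (hodd : p ≠ 2) (hpS : pPrime p ∈ S)
    (h3K : H3KxTorsionFree p S) (h : FLReal p S) : Blocks.H3OTorsion p S :=
  RealDivDeep.h3OTorsion_of_deep p hpS h3K (realDivDeepLevel hodd hpS h)

/-- **(C5), first half**, from (HBN-H3) and the abstract finite-level core. -/
theorem h3OTorsion_of_core (hodd : p ≠ 2) (hpS : pPrime p ∈ S)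
    (h3K : H3KxTorsionFree p S) (hcore : Core p) : Blocks.H3OTorsion p S :=
  h3OTorsion_of_flReal hodd hpS h3K (flReal_of_core hodd hcore)

end

end Fermat.Agent.S55.Middle.RealDivInst
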