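/-
S55 / Middle / M.h3.h3OTorsionClosed (helper86): ROW 5 CLOSED.

`RealDivInst.Core p` is helper79's `RealDivCoreB.exists_off_inflL_eq` (finite-level realisation of
residues in the abstract `LocOff` model).  Hence, unconditionally (`p` odd, `p ∈ S`):

* `core p : RealDivInst.Core p`;
* `realDivDeepLevel`, `realDivPLevel`, `realOffPLevel` : helper58's realisation Props;
* `h3OTorsion : Blocks.H3OTorsion p S` (with `H3KSLevel.h3KxTorsionFree`, helper66);
* `h3OTorsionT : Blocks3.H3OTorsionT p S`.
-/
import Mathlib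
import Fermat.Agent.S55.Middle.RealDivInst
import Fermat.Agent.S55.Middle.RealDivCoreB
import Fermat.Agent.S55.Middle.H3KSLevel
import Fermat.Agent.S55.Middle.Blocks3

set_option autoImplicit false
set_option linter.unusedSectionVars false
set_option linter.style.haveILetI false

open CategoryTheory groupCohomology ExtCitation

namespace Fermat.Agent.S55.Middle.H3OTorsionClosed

open Fermat.Agent.S55.Middle.Defs Fermat.Agent.S55.Middle.KSite

set_option synthInstance.maxHeartbeats 400000 in
/-- the finite-level core, closed. -/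
theorem core (p : ℕ) : RealDivInst.Core p :=
  fun hfine hfin K _ _ _ _ _ _ _ ι _ hF hι V _ φ hφ _ hV hφbij hle hp hodd hζ hpp hunr d k hk x₀
      hx₀ m _ hdvd =>
    RealDivCoreB.exists_off_inflL_eq hfine hfin K ι hF hι V φ hφ hV hp hodd hζ hpp hunr hφbij hle
      d k hk x₀ hx₀ m hdvd

variable {p : ℕ} [Fact p.Prime] {S : Finset Nat.Primes}

theorem realDivDeepLevel (hodd : p ≠ 2) (hpS : pPrime p ∈ S) :
    RealDivDeep.RealDivDeepLevel p S :=
  RealDivInst.realDivDeepLevel hodd hpS (RealDivInst.flReal_of_core hodd (core p))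

theorem realDivPLevel (hodd : p ≠ 2) (hpS : pPrime p ∈ S) : H3OLevels.RealDivPLevel p S :=
  RealDivInst.realDivPLevel_of_core hodd hpS (core p)

theorem realOffPLevel (hodd : p ≠ 2) (hpS : pPrime p ∈ S) : H3OLevels.RealOffPLevel p S :=
  H3OLevels.realOffPLevel_of_div p (realDivPLevel hodd hpS)

/-- **(C5), first half, UNCONDITIONAL**: `H³_LC(P; O_S)` has no `p`-torsion. -/
theorem h3OTorsion (hodd : p ≠ 2) (hpS : pPrime p ∈ S) : Blocks.H3OTorsion p S :=
  RealDivInst.h3OTorsion_of_core hodd hpS (H3KSLevel.h3KxTorsionFree hodd hpS) (core p)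

/-- the restricted form consumed by `ArithBaseN`. -/
theorem h3OTorsionT (hodd : p ≠ 2) (hpS : pPrime p ∈ S) : Blocks3.H3OTorsionT p S :=
  Blocks3.h3OTorsionT_of (h3OTorsion hodd hpS)

end Fermat.Agent.S55.Middle.H3OTorsionClosed
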