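import Fermat.Agent.S55.Middle.ImageInstF2
import Fermat.Agent.S55.Middle.Blocks3
import Fermat.Agent.S55.Middle.UnramOffAdapter
import Fermat.Agent.S55.Middle.LevelField
import Fermat.Agent.S55.Middle.OSDict

/-!
# S55 / Middle, (C4) hub: the closed forms, modulo the level-datum constructor (helper34)

`Blocks3.ImageNSSN`, `Blocks3.ImageG3N`, `Blocks3.H2ODivisibleT` from the wrapper theorems
`ImageInstF.imageNSS_at`, `ImageInstF2.imageG3_at`, `ImageInstF2.h2ODivisible_at`, the unconditional
Hasse principle `UnramOffAdapter.hasseO`, and a constructor `HasLevelData p S` of level data at the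
levels of `p`-Sylow type (produced in `LevelDatumInst`).
-/

set_option autoImplicit false
set_option linter.unusedSectionVars false
set_option linter.style.haveILetI false

open CategoryTheory groupCohomology ExtCitation

namespace Fermat.Agent.S55.Middle.ImageHubClosed

noncomputable section

open Fermat.Agent.S55.Formal
open Fermat.Agent.S55.Formal.PreludeLC hiding GQ Qbar
open Fermat.Agent.S55.Middle.Defs
open Fermat.Agent.S55.Middle.KSite Fermat.Agent.S55.Middle.GaloisDict
open Fermat.Agent.S55.Middle.GaloisDictModel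
open Fermat.Agent.S55.Middle.Blocks Fermat.Agent.S55.Middle.Blocks2
open Fermat.Agent.S55.Middle.SylowType
open Fermat.Agent.S55.Middle.ImageInstF Fermat.Agent.S55.Middle.ImageInstF2

attribute [local instance] Fermat.Agent.S55.LM.Defs.fact_q

variable (p : ℕ) [Fact p.Prime] (S : Finset Nat.Primes)

/-- **The constructor of the hub**: level data of every depth exist at the levels of `p`-Sylow
type. -/
def HasLevelData : Prop :=
  ∀ (P : Subgroup GQ) (hP : Level p S P), IsSylowType p S P → ∀ [NumberField ↥(K₀ P)]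
    (R : Reps S P) (k : ℕ), Nonempty (LevelDatum p hP.isOpen R k)

variable {p S}

/-- the Hasse principle at `(P, R)` in the shape consumed by the wrapper. -/
theorem hasse_at (hp2 : p ≠ 2) (hpS : pPrime p ∈ S) {P : Subgroup GQ} (hP : Level p S P)
    (R : Reps S P) (x : H2 (basisP S P) (resP P (OS S))) (hx : ∃ j : ℕ, p ^ j • x = 0)
    (h : ∀ i : R.Idx, (locOS S P i.1.1 i.2.1).h2 x = 0) : x = 0 := by
  obtain ⟨j, hj⟩ := hx
  exact UnramOffAdapter.hasseO hp2 hpS P hP R x j hj h

/-- **(C4-NSS), normal levels**. -/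
theorem imageNSSN_of (hp2 : p ≠ 2) (hD : HasLevelData p S) : Blocks3.ImageNSSN p S := by
  intro P hP hmem R
  haveI : NumberField ↥(K₀ P) := OSDict.numberField_K₀ hP.isOpen
  obtain ⟨D⟩ := hD P hP (isSylowType_of_mem hmem) R 1
  exact imageNSS_at hp2 (LevelField.exists_zeta hP) D

/-- **(C4-G3), normal levels**. -/
theorem imageG3N_of (hp2 : p ≠ 2) (hpS : pPrime p ∈ S) (hD : HasLevelData p S) :
    Blocks3.ImageG3N p S := by
  intro P hP hmem R
  haveI : NumberField ↥(K₀ P) := OSDict.numberField_K₀ hP.isOpen
  obtain ⟨D⟩ := hD P hP (isSylowType_of_mem hmem) R 1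
  exact imageG3_at hp2 hpS (LevelField.exists_zeta hP) D (hasse_at hp2 hpS hP R)

/-- **(C4), divisibility, Sylow-type levels**. -/
theorem h2ODivisibleT_of (hp2 : p ≠ 2) (hpS : pPrime p ∈ S) (hD : HasLevelData p S) :
    Blocks3.H2ODivisibleT p S := by
  intro P hP hT x j hx
  haveI : NumberField ↥(K₀ P) := OSDict.numberField_K₀ hP.isOpen
  obtain ⟨R⟩ : Nonempty (Reps S P) := by
    haveI : P.FiniteIndex := by
      obtain ⟨N, hN, hNP⟩ := hP.isOpen
      haveI := (globalBasis S).finiteIndex hN
      exact Subgroup.finiteIndex_of_le hNP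
    exact nonempty_reps S P
  exact h2ODivisible_at hp2 hpS (LevelField.exists_zeta hP)
    (fun k => Classical.choice (hD P hP hT R k)) (hasse_at hp2 hpS hP R) x j hx

end

end Fermat.Agent.S55.Middle.ImageHubClosed
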