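/-
S55 / Middle / PLevelField (helper74): the LEVEL CHOOSER of the ImageInst hub.

For `P ≤ G_ℚ` with `Blocks.Level p S P` and of `p`-Sylow type (`SylowType.IsSylowType p S P`), a
system of representatives `R : Reps S P` and `k : ℕ`, there is a level `L` which is simultaneously

* IN THE DICTIONARY: `L : IntermediateField ℚ ℚ̄`, `Normal ℚ L`, unramified outside `S`,
  `L.fixingSubgroup ≤ P`, `K₀ P ≤ L`, with all the instance binders of `LocS.Statement` /
  `LocSR.StatementR` / `OSDict` / `GaloisDictModel.cohIsoExt`;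
* OF `p`-POWER DEGREE over `K = K₀ P`: `finrank K (Lext P L hKL) = p ^ n` (the hypothesis `hpp` of
  `ImageFiniteClosed`, `Final.noSingleSupport`, `Final.hasseH2`, …);
* DEEP: `L ⊇ ℚ(μ_{p^m})` and `p ^ k` divides the index of the level subgroup
  `levelSub P q t L.fixingSubgroup` of the local group `Dloc P q t` for every place
  `(q, t) : R.Idx` (so `LM/TorsLevel` / `LocSR` lift every `p^k`-torsion local class to level `L`).
-/
import Fermat.Agent.S55.Middle.SylowType
import Fermat.Agent.S55.Middle.OSDict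
import Fermat.Agent.S55.LM.DlocDict

set_option autoImplicit false
set_option linter.unusedSectionVars false
set_option linter.style.haveILetI false

open CategoryTheory groupCohomology ExtCitation

namespace Fermat.Agent.S55.Middle.PLevelField

open Fermat.Agent.S55.Formal
open Fermat.Agent.S55.Formal.PreludeLC hiding GQ Qbar
open Fermat.Agent.S55.Middle.Defs Fermat.Agent.S55.Middle.KSite Fermat.Agent.S55.Middle.Blocks
open Fermat.Agent.S55.Middle.GaloisDict Fermat.Agent.S55.Middle.GaloisDictModel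
open Fermat.Agent.S55.Middle.OSDict Fermat.Agent.S55.Middle.SylowType
open Fermat.Agent.S55.Middle.CycloGrowIndex Fermat.Agent.S55.Middle.CycloGrowLevel
open Fermat.Agent.S55.LM.DlocDict

local instance isAlgebraicQbar_plf : Algebra.IsAlgebraic ℚ (AlgebraicClosure ℚ) :=
  AlgebraicClosure.isAlgebraic ℚ
local instance isAlgClosureQbar_plf : IsAlgClosure ℚ (AlgebraicClosure ℚ) :=
  ⟨inferInstance, inferInstance⟩
local instance normalQbar_plf : Normal ℚ (AlgebraicClosure ℚ) :=
  IsAlgClosure.normal ℚ (AlgebraicClosure ℚ)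
local instance isGaloisQbar_plf : IsGalois ℚ (AlgebraicClosure ℚ) := ⟨⟩

variable {p : ℕ} [Fact p.Prime] {S : Finset Nat.Primes}

/-- **The level chooser.** -/
theorem exists_pLevelField (hp2 : p ≠ 2) (hpS : pPrime p ∈ S) {P : Subgroup GQ}
    (hP : Level p S P) (hT : IsSylowType p S P) (R : Reps S P) (k m₁ : ℕ) :
    ∃ (L : IntermediateField ℚ Qbar) (_ : Normal ℚ L) (hL : L.IsUnramifiedOutside S)
      (hle : L.fixingSubgroup ≤ P) (hKL : K₀ P ≤ L) (_ : NumberField ↥(K₀ P))
      (_ : NumberField ↥(Lext P L hKL)) (_ : Finite (↥P ⧸ lvl P L))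
      (_ : (basisP S P).mem (lvl P L)),
      (globalBasis S).mem L.fixingSubgroup ∧
      (∃ m : ℕ, m₁ ≤ m ∧ L.fixingSubgroup ≤ fixRoots (p ^ m)) ∧
      (∃ n : ℕ, Module.finrank ↥(K₀ P) ↥(Lext P L hKL) = p ^ n) ∧
      ∀ i : R.Idx, p ^ k ∣ (levelSub P i.1.1 i.2.1 L.fixingSubgroup).index := by
  have hodd : Odd p := (Fact.out : p.Prime).eq_two_or_odd'.resolve_left hp2
  obtain ⟨m₀, hm₀⟩ := exists_cycloLevel p hodd hP.isOpen hP.triv R k
  obtain ⟨N, hN, hNP, hNm, a, ha⟩ := exists_pLevel_card hpS hP hT (max m₀ m₁)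
  obtain ⟨F, hF, hFn, rfl⟩ := hN
  haveI : Normal ℚ F := normal_of_fixingSubgroup_normal F hFn
  have hKL : K₀ P ≤ F := fixedField_le_of_le hNP
  have hopen : IsOpenSub (globalBasis S) P := hP.isOpen
  haveI hK : NumberField ↥(K₀ P) := numberField_K₀ hopen
  haveI hL' : NumberField ↥(Lext P F hKL) := numberField_Lext F hKL hF
  have hmem : (globalBasis S).mem F.fixingSubgroup := ⟨F, hF, hFn, rfl⟩
  haveI := (globalBasis S).finiteIndex hmem
  haveI : (lvl P F).FiniteIndex := by
    show (F.fixingSubgroup.subgroupOf P).FiniteIndex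
    infer_instance
  haveI hfin : Finite (↥P ⧸ lvl P F) := Subgroup.finite_quotient_of_finiteIndex
  have hV : (basisP S P).mem (lvl P F) := ⟨F.fixingSubgroup, hmem, rfl⟩
  refine ⟨F, inferInstance, hF, hNP, hKL, hK, hL', hfin, hV, hmem,
    ⟨max m₀ m₁, le_max_right _ _, hNm⟩, ⟨a, ?_⟩, fun i => ?_⟩
  · rw [finrank_Lext S P F hKL hF hNP, ← Subgroup.index_eq_card]
    exact ha
  · exact hm₀ (max m₀ m₁) (le_max_left _ _) i F.fixingSubgroup hNP hNm

/-- the chosen level contains `ℚ(μ_{p^m})`. -/
theorem cycloPowField_le_of_fixingSubgroup_le {L : IntermediateField ℚ Qbar} {m : ℕ}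
    (h : L.fixingSubgroup ≤ fixRoots (p ^ m)) : CycloPow.cycloPowField p m ≤ L := by
  rw [fixRoots_eq_fixingSubgroup] at h
  calc CycloPow.cycloPowField p m
      = IntermediateField.fixedField (CycloPow.cycloPowField p m).fixingSubgroup :=
        (InfiniteGalois.fixedField_fixingSubgroup _).symm
    _ ≤ IntermediateField.fixedField L.fixingSubgroup :=
        IntermediateField.fixedField_antitone h
    _ = L := InfiniteGalois.fixedField_fixingSubgroup L

end Fermat.Agent.S55.Middle.PLevelField
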