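/-
S55 / MIDDLE block, ImageInst hub, the `SuppIn` half of the descent step (W2) WITHOUT the
`LOC-off` dictionary (helper64).

`P ≤ G_ℚ` an `S`-open subgroup, `K = ℚ̄^P`.  For a class `x ∈ H²_LC(P; O_S)` the image
`z = i₂ x ∈ H²_LC(P; ℚ_Sˣ)` is locally trivial at EVERY place of `K` above a prime `q ∉ S`:

* `exists_level_i₂` : `i₂ x = ι₂ (cohIsoExt⁻¹ (image of e))` for a class `e` of `S`-units of a finite
  Galois level `L₁` (`OSDict.exists_finite_level_H2_OS`, in the `basisP` language);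
* `locKS_i₂_eq_zero_off` : `(locKS S P q t).h2 (i₂ x) = 0` for all `q ∉ S` and all `t`
  (`LocS.statement` at `(L₁, q, t)` — it holds for ANY prime `q` — and row (U2′) `UnramOff S`);
* `locH_eq_zero_off` : hence, if `i₂ x = ι₂ (cohIsoExt⁻¹ y)` for a class `y ∈ H²(Gal(L'/K), L'ˣ)` of ANY
  finite Galois level `L` (e.g. the descended class of `ImageDesc.hdesc`), then `y` is locally
  trivial at every place `𝔪` of `K` above every `q ∉ S` (`LocS.statement` at `(L, q, t)`: `jA`
  injective; `LocSCover.exists_mAt_eq`: every `𝔪` is some `mAt P q t`);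
* `suppIn_locFam` : the same in the family language of `ImageFiniteCore`: `SuppIn S (locFam K L' y)`.

The LC group `H²_LC(D_{q,t}; Ω_qˣ)` plays the role of a common refinement of the two finite levels
`L₁` and `L`; no `T`, no `T`-unit class of `y`, no injectivity of `jB` is needed.
-/
import Fermat.Agent.S55.Middle.HbnColimB
import Fermat.Agent.S55.Middle.LocS
import Fermat.Agent.S55.Middle.LocSCover
import Fermat.Agent.S55.Middle.ImageFiniteCore

set_option autoImplicit false
set_option linter.unusedSectionVars false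
set_option linter.style.haveILetI false

open CategoryTheory groupCohomology ExtCitation

namespace Fermat.Agent.S55.Middle.SuppInOff

noncomputable section

open Fermat.Agent.S55.Formal Fermat.Agent.S55.Formal.LCLevelH
open Fermat.Agent.S55.Formal.PreludeLC hiding GQ Qbar
open Fermat.Agent.S55.Middle.Defs Fermat.Agent.S55.Middle.KSite
open Fermat.Agent.S55.Middle.Blocks Fermat.Agent.S55.Middle.LESGlueV
open Fermat.Agent.S55.Middle.GaloisDict Fermat.Agent.S55.Middle.GaloisDictModel
open Fermat.Agent.S55.Middle.OSDict Fermat.Agent.S55.Middle.HbnColimB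
open Fermat.Agent.S55.Global.Blocks3 Fermat.Agent.S55.Global.Objects2

variable {S : Finset Nat.Primes}

/-- `i₂ x` comes from a class of `S`-units of a finite Galois level (`basisP` language). -/
theorem exists_level_i₂ (hS : S.Nonempty) {P : Subgroup GQ} (hP : IsOpenS S P)
    (x : H2 (basisP S P) (resP P (OS S))) :
    ∃ (L : IntermediateField ℚ Qbar) (_ : Normal ℚ L) (hL : L.IsUnramifiedOutside S)
      (hle : L.fixingSubgroup ≤ P) (hKL : K₀ P ≤ L) (hV : (basisP S P).mem (lvl P L))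
      (_ : Finite (↥P ⧸ lvl P L)) (_ : NumberField ↥(K₀ P)) (_ : NumberField ↥(Lext P L hKL))
      (e : groupCohomology (En ↥(K₀ P) ↥(Lext P L hKL) S) 2),
      i₂ S P (basisP S P) x =
        ι₂ (basisP S P) (resP P (KS S)) (lvl P L) hV
          ((cohIsoExt S P L hKL hL hle 2).inv.hom
            ((groupCohomology.map (MonoidHom.id (↥(Lext P L hKL) ≃ₐ[↥(K₀ P)] ↥(Lext P L hKL)))
              (UnitsToL.EntoLxn ↥(K₀ P) ↥(Lext P L hKL) S hS) 2).hom e)) := by
  have hopen : IsOpenSub (globalBasis S) P := hP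
  have hr := BasisChange.subBasis_refines_sub (globalBasis S) P hopen
  have hr' := BasisChange.sub_refines_subBasis (globalBasis S) P
  have hx' : 0 • (BasisChange.idMor hr (oH S P)).h2 x = 0 := zero_smul _ _
  obtain ⟨L, hN, hL, hle, hKL, hV, hfin, hK, hL', e, -, heq⟩ :=
    exists_finite_level_H2_OS hopen hS _ 0 hx'
  haveI := hN
  haveI := hfin
  haveI := hK
  haveI := hL'
  have hV' : (basisP S P).mem (lvl P L) := mem_subBasis_of_mem_sub hV
  refine ⟨L, hN, hL, hle, hKL, hV', hfin, hK, hL', e, ?_⟩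
  apply (BasisChange.idMor_h2_bijective (kH S P) hr hr').1
  rw [idMor_h2_ι₂ hr _ _ hV' hV, idMor_i₂ hopen x]
  exact heq

/-- **`i₂ x` is locally trivial off `S`**: for `x ∈ H²_LC(P; O_S)`, `q ∉ S` and every `t`, the local
component of `i₂ x ∈ H²_LC(P; ℚ_Sˣ)` at the place `(q, t)` of `K = ℚ̄^P` vanishes. -/
theorem locKS_i₂_eq_zero_off (hU : UnramOff S) (hS : S.Nonempty) {P : Subgroup GQ}
    (hP : IsOpenS S P) (x : H2 (basisP S P) (resP P (OS S))) (q : Nat.Primes) (hq : q ∉ S)
    (t : GQ) : (locKS S P q t).h2 (i₂ S P (basisP S P) x) = 0 := by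
  obtain ⟨L, hN, hL, hle, hKL, hV, hfin, hK, hL', e, key⟩ := exists_level_i₂ hS hP x
  haveI := hN
  haveI := hfin
  haveI := hK
  haveI := hL'
  obtain ⟨jA, -, hcompat⟩ := LocS.statement S P L hL hle hKL hV q t
  rw [key, ← hcompat]
  have h0 := hU P hP L hL hle hKL hS q hq (LocS.mAt P q t) inferInstance e
  exact (congrArg jA h0).trans (map_zero jA)

/-- **Local triviality off `S` at any finite level.**  If `i₂ x` is inflated from a class `y` of a
finite Galois level `L`, then `y` is locally trivial at every place of `K` above every `q ∉ S`. -/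
theorem locH_eq_zero_off (hU : UnramOff S) (hS : S.Nonempty) {P : Subgroup GQ}
    (hP : IsOpenS S P) (x : H2 (basisP S P) (resP P (OS S)))
    (L : IntermediateField ℚ Qbar) [Normal ℚ L] (hL : L.IsUnramifiedOutside S)
    (hle : L.fixingSubgroup ≤ P) (hKL : K₀ P ≤ L)
    [NumberField ↥(K₀ P)] [NumberField ↥(Lext P L hKL)] [Finite (↥P ⧸ lvl P L)]
    (hV : (basisP S P).mem (lvl P L))
    (y : groupCohomology (Rep.ofAlgebraAutOnUnits ↥(K₀ P) ↥(Lext P L hKL)) 2)
    (hy : ι₂ (basisP S P) (resP P (KS S)) (lvl P L) hV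
        ((cohIsoExt S P L hKL hL hle 2).inv.hom y) = i₂ S P (basisP S P) x)
    (q : Nat.Primes) (hq : q ∉ S) (𝔪 : Ideal (Ksemi ↥(K₀ P) q)) [𝔪.IsMaximal] :
    (locH ↥(K₀ P) ↥(Lext P L hKL) (Kloc ↥(K₀ P) q 𝔪) 2).hom y = 0 := by
  obtain ⟨t, rfl⟩ := LocSCover.exists_mAt_eq P q 𝔪
  obtain ⟨jA, hinj, hcompat⟩ := LocS.statement S P L hL hle hKL hV q t
  apply hinj
  rw [map_zero, hcompat, hy]
  exact locKS_i₂_eq_zero_off hU hS hP x q hq t

/-- The same in the family language of `ImageFiniteCore`. -/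
theorem suppIn_locFam (hU : UnramOff S) (hS : S.Nonempty) {P : Subgroup GQ}
    (hP : IsOpenS S P) (x : H2 (basisP S P) (resP P (OS S)))
    (L : IntermediateField ℚ Qbar) [Normal ℚ L] (hL : L.IsUnramifiedOutside S)
    (hle : L.fixingSubgroup ≤ P) (hKL : K₀ P ≤ L)
    [NumberField ↥(K₀ P)] [NumberField ↥(Lext P L hKL)] [Finite (↥P ⧸ lvl P L)]
    (hV : (basisP S P).mem (lvl P L))
    (y : groupCohomology (Rep.ofAlgebraAutOnUnits ↥(K₀ P) ↥(Lext P L hKL)) 2)
    (hy : ι₂ (basisP S P) (resP P (KS S)) (lvl P L) hV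
        ((cohIsoExt S P L hKL hL hle 2).inv.hom y) = i₂ S P (basisP S P) x) :
    ImageFiniteCore.SuppIn S (ImageFiniteCore.locFam ↥(K₀ P) ↥(Lext P L hKL) y) := by
  intro pl hpl
  haveI := pl.2.isMaximal
  exact locH_eq_zero_off hU hS hP x L hL hle hKL hV y hy pl.1 hpl pl.2.asIdeal

/-- Variant for a class given on the LC side of the dictionary: if `i₂ x = ι₂ y'` with
`y' ∈ H²(P ⧸ lvl P L, (ℚ_Sˣ)^{lvl P L})`, then the Galois avatar `cohIsoExt y'` is supported in `S`. -/
theorem suppIn_locFam_hom (hU : UnramOff S) (hS : S.Nonempty) {P : Subgroup GQ}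
    (hP : IsOpenS S P) (x : H2 (basisP S P) (resP P (OS S)))
    (L : IntermediateField ℚ Qbar) [Normal ℚ L] (hL : L.IsUnramifiedOutside S)
    (hle : L.fixingSubgroup ≤ P) (hKL : K₀ P ≤ L)
    [NumberField ↥(K₀ P)] [NumberField ↥(Lext P L hKL)] [Finite (↥P ⧸ lvl P L)]
    (hV : (basisP S P).mem (lvl P L))
    (y' : groupCohomology ((resP P (KS S)).quotientToInvariants (lvl P L)) 2)
    (hy : ι₂ (basisP S P) (resP P (KS S)) (lvl P L) hV y' = i₂ S P (basisP S P) x) :
    ImageFiniteCore.SuppIn S (ImageFiniteCore.locFam ↥(K₀ P) ↥(Lext P L hKL)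
      ((cohIsoExt S P L hKL hL hle 2).hom.hom y')) := by
  refine suppIn_locFam hU hS hP x L hL hle hKL hV _ ?_
  rw [← hy]
  congr 1
  exact Iso.hom_inv_id_apply (cohIsoExt S P L hKL hL hle 2) y'

end

end Fermat.Agent.S55.Middle.SuppInOff
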