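/-
S55 / MIDDLE block, ImageInst hub, leaf (W2) "backward: Rel ⇒ global" COMPLETE (helper38).

One call for the whole backward step of the hub, in the field / family language of
`LocS.Statement`, `ImageFiniteCore` (`locFam`, `SuppIn`) and `PLevelField`:

* `hdesc_suppIn_of_dvd` : `P` a level, `L` a level field (normal, unramified outside `S`,
  `K₀ P ≤ L`, `L.fixingSubgroup ≤ P`) whose local indices at the representatives are divisible by
  `p^k`; `z ∈ H²_LC(P; ℚ_Sˣ)` `p`-primary, locally trivial off `S`, with `p^k • locK_i z = 0` for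
  all `i : R.Idx`.  Then `z = ι₂ (lvl P L) ((cohIsoExt ..).inv y)` for a class
  `y ∈ H²(Gal(L'/K), L'ˣ)` with `SuppIn S (locFam K L' y)`.
  (`ImageDescField.hdesc_field_of_dvd` + `SuppInOff.suppIn_locFam`, with `Blocks.HasseO` and
  `HbnColimB.UnramOff` discharged by `UnramOffAdapter`.)
* `exists_pLevelField_desc` : the level chooser `PLevelField.exists_pLevelField` (for `P` of
  `p`-Sylow type) TOGETHER with the descent property of the chosen level.
-/
import Fermat.Agent.S55.Middle.ImageDescField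
import Fermat.Agent.S55.Middle.SuppInOff
import Fermat.Agent.S55.Middle.PLevelField
import Fermat.Agent.S55.Middle.UnramOffAdapter

set_option autoImplicit false
set_option linter.unusedSectionVars false
set_option linter.style.haveILetI false

open CategoryTheory groupCohomology ExtCitation

namespace Fermat.Agent.S55.Middle.ImageDescSupp

noncomputable section

open Fermat.Agent.S55.Formal Fermat.Agent.S55.Formal.LCLevelH
open Fermat.Agent.S55.Formal.PreludeLC hiding GQ Qbar
open Fermat.Agent.S55.Middle.Defs Fermat.Agent.S55.Middle.KSite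
open Fermat.Agent.S55.Middle.Blocks Fermat.Agent.S55.Middle.LESGlueV
open Fermat.Agent.S55.Middle.GaloisDict Fermat.Agent.S55.Middle.GaloisDictModel
open Fermat.Agent.S55.Middle.ImageDesc Fermat.Agent.S55.Middle.ImageDescField
open Fermat.Agent.S55.Middle.SylowType Fermat.Agent.S55.Middle.CycloGrowIndex
open Fermat.Agent.S55.LM.DlocDict

variable {p : ℕ} [Fact p.Prime] {S : Finset Nat.Primes} {P : Subgroup GQ}

/-- **(W2), complete, at a given level field.** -/
theorem hdesc_suppIn_of_dvd (hp2 : p ≠ 2) (hpS : pPrime p ∈ S) (hP : Level p S P)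
    (R : Reps S P) (k : ℕ)
    (L : IntermediateField ℚ Qbar) [Normal ℚ L] (hL : L.IsUnramifiedOutside S)
    (hle : L.fixingSubgroup ≤ P) (hKL : K₀ P ≤ L)
    [NumberField ↥(K₀ P)] [NumberField ↥(Lext P L hKL)] [Finite (↥P ⧸ lvl P L)]
    (hV : (basisP S P).mem (lvl P L))
    (h1 : ∀ i : R.Idx, p ^ k ∣ (lvlLoc L.fixingSubgroup P i.1.1 i.2.1).index)
    (z : H2 (basisP S P) (resP P (KS S))) (hz : ∃ n : ℕ, p ^ n • z = 0)
    (hoff : CapLToff.LToffP S (BlocksC1.isOpenSub_of_isOpenS S hP.isOpen) z)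
    (hloc : ∀ i : R.Idx, p ^ k • (locKS S P i.1.1 i.2.1).h2 z = 0) :
    ∃ y : groupCohomology (Rep.ofAlgebraAutOnUnits ↥(K₀ P) ↥(Lext P L hKL)) 2,
      ι₂ (basisP S P) (resP P (KS S)) (lvl P L) hV
        ((cohIsoExt S P L hKL hL hle 2).inv.hom y) = z ∧
      ImageFiniteCore.SuppIn S (ImageFiniteCore.locFam ↥(K₀ P) ↥(Lext P L hKL) y) := by
  obtain ⟨x, j, hx, hxz⟩ := exists_os_lift S p hpS hP.isOpen z hz hoff
  obtain ⟨y, hy⟩ := hdesc_field_of_dvd S p hpS (UnramOffAdapter.hasseO hp2 hpS) hP R k L hL hle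
    hKL hV h1 z hz hoff hloc
  refine ⟨y, hy, ?_⟩
  exact SuppInOff.suppIn_locFam (UnramOffAdapter.unramOff S) ⟨pPrime p, hpS⟩ hP.isOpen x L hL hle
    hKL hV y (hy.trans hxz.symm)

set_option maxHeartbeats 2000000 in
/-- **The level chooser with its descent property** (`P` of `p`-Sylow type): the level field of
`PLevelField.exists_pLevelField`, and every `p`-primary `z`, locally trivial off `S`, with
`p^k • locK_i z = 0` at the representatives, descends to it with support in `S`. -/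
theorem exists_pLevelField_desc (hp2 : p ≠ 2) (hpS : pPrime p ∈ S)
    (hP : Level p S P) (hT : IsSylowType p S P) (R : Reps S P) (k m₁ : ℕ) :
    ∃ (L : IntermediateField ℚ Qbar) (_ : Normal ℚ L) (hL : L.IsUnramifiedOutside S)
      (hle : L.fixingSubgroup ≤ P) (hKL : K₀ P ≤ L) (_ : NumberField ↥(K₀ P))
      (_ : NumberField ↥(Lext P L hKL)) (_ : Finite (↥P ⧸ lvl P L))
      (hV : (basisP S P).mem (lvl P L)),
      (globalBasis S).mem L.fixingSubgroup ∧
      (∃ m : ℕ, m₁ ≤ m ∧ L.fixingSubgroup ≤ fixRoots (p ^ m)) ∧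
      (∃ n : ℕ, Module.finrank ↥(K₀ P) ↥(Lext P L hKL) = p ^ n) ∧
      (∀ i : R.Idx, p ^ k ∣ (levelSub P i.1.1 i.2.1 L.fixingSubgroup).index) ∧
      ∀ z : H2 (basisP S P) (resP P (KS S)), (∃ n : ℕ, p ^ n • z = 0) →
        CapLToff.LToffP S (BlocksC1.isOpenSub_of_isOpenS S hP.isOpen) z →
        (∀ i : R.Idx, p ^ k • (locKS S P i.1.1 i.2.1).h2 z = 0) →
        ∃ y : groupCohomology (Rep.ofAlgebraAutOnUnits ↥(K₀ P) ↥(Lext P L hKL)) 2,
          ι₂ (basisP S P) (resP P (KS S)) (lvl P L) hV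
            ((cohIsoExt S P L hKL hL hle 2).inv.hom y) = z ∧
          ImageFiniteCore.SuppIn S (ImageFiniteCore.locFam ↥(K₀ P) ↥(Lext P L hKL) y) := by
  obtain ⟨L, hn, hL, hle, hKL, hK, hL', hfin, hV, hmem, hm, hpp, hidx⟩ :=
    PLevelField.exists_pLevelField hp2 hpS hP hT R k m₁
  haveI := hn
  haveI := hK
  haveI := hL'
  haveI := hfin
  exact ⟨L, hn, hL, hle, hKL, hK, hL', hfin, hV, hmem, hm, hpp, hidx,
    fun z hz hoff hloc => hdesc_suppIn_of_dvd hp2 hpS hP R k L hL hle hKL hV hidx z hz hoff hloc⟩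

end

end Fermat.Agent.S55.Middle.ImageDescSupp
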