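import Fermat.Agent.S55.Middle.ImageFiniteClosed
import Fermat.Agent.S55.Middle.LocSFam
import Fermat.Agent.S55.Middle.HasseOStep
import Fermat.Agent.S55.Middle.CapLToff
import Fermat.Agent.S55.Middle.Blocks2
import Fermat.Agent.S55.Middle.Image
import Fermat.Agent.S55.LM.DlocTors
import Fermat.Agent.S55.Tate.ResCor

/-!
# S55 / Middle, (C4) hub: THE WRAPPER in family language (helper34)

For an `S`-open `P ≤ G_ℚ` (`K = K₀ P ∋ ζ_p`) and representatives `R : Reps S P` of the places of `K`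
above `S`, this file derives the LITERAL conclusions of `Blocks2.ImageNSS`, `Blocks2.ImageG3` and
`Blocks.H2ODivisible` at `(P, R)` from

* a **level datum** `LevelDatum p hP R k` (one finite Galois level `L/K` of `p`-power degree, deep
  enough for `p^k`): the dictionary between the LC cohomology of `P` and the finite-level groups
  `H²(Gal(L/K), Lˣ)`, `H²(Gal(L/K), Jloc K L x)` — fields `infl`, `jA`, `hcA` (LOC-S),
  `ltoff_iff` (LOC-off), `hdesc` (descent), `htors` (range of `jA`), `hdvd` (local degree);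
* the Hasse principle `Blocks.HasseO` at `(P, R)` (for `ImageG3`, `H2ODivisible`);
* everything else (finite-level reciprocity `ImageFiniteClosed`, the (Div) long exact sequence
  `LESGlueV`, `CapLToff`, local divisibility `LM.DlocTors`) is on main and used here directly.
-/

set_option autoImplicit false
set_option linter.unusedSectionVars false
set_option linter.style.haveILetI false

open CategoryTheory groupCohomology ExtCitation

namespace Fermat.Agent.S55.Middle.ImageInstF

noncomputable section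

open Fermat.Agent.S55.Formal
open Fermat.Agent.S55.Formal.PreludeLC hiding GQ Qbar
open Fermat.Agent.S55.Middle.Defs
open Fermat.Agent.S55.Middle.KSite Fermat.Agent.S55.Middle.GaloisDict
open Fermat.Agent.S55.Middle.GaloisDictModel
open Fermat.Agent.S55.Global.Blocks3
open Fermat.Agent.S55.Middle.LocS Fermat.Agent.S55.Middle.LocSFam
open Fermat.Agent.S55.Middle.ImageFiniteCore
open Fermat.Agent.S55.Middle.Blocks Fermat.Agent.S55.Middle.Blocks2
open Fermat.Agent.S55.Middle.LESGlueV

attribute [local instance] Fermat.Agent.S55.LM.Defs.fact_q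

variable {S : Finset Nat.Primes} {P : Subgroup GQ} [NumberField ↥(K₀ P)]

/-- **Level datum** of depth `k` for `(P, R)`: a finite Galois level `L/K` of `p`-power degree with
the LC ↔ finite-level dictionary. -/
structure LevelDatum (p : ℕ) (hP : IsOpenS S P) (R : Reps S P) (k : ℕ) : Type 1 where
  /-- the level field -/
  L : Type
  [instField : Field L]
  [instNF : NumberField L]
  [instAlg : Algebra ↥(K₀ P) L]
  [instGal : IsGalois ↥(K₀ P) L]
  /-- the degree is a power of `p` -/
  hpp : ∃ n : ℕ, Module.finrank ↥(K₀ P) L = p ^ n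
  /-- inflation `H²(Gal(L/K), Lˣ) → H²_LC(P; ℚ_Sˣ)` -/
  infl : groupCohomology (Rep.ofAlgebraAutOnUnits ↥(K₀ P) L) 2 →+ H2 (basisP S P) (resP P (KS S))
  /-- local inflation at the place `i` (LOC-S) -/
  jA : ∀ i : R.Idx, HJ ↥(K₀ P) L (plOf R i) →+ BrLoc R i
  jA_injective : ∀ i : R.Idx, Function.Injective (jA i)
  /-- compatibility of the localisations (LOC-S) -/
  hcA : ∀ (y : groupCohomology (Rep.ofAlgebraAutOnUnits ↥(K₀ P) L) 2) (i : R.Idx),
    (locKS S P i.1.1 i.2.1).h2 (infl y) = jA i (locFam ↥(K₀ P) L y (plOf R i))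
  /-- LOC-off: `infl y` is locally trivial off `S` iff `y` is locally trivial at all places of `K`
  above the primes `q ∉ S` -/
  ltoff_iff : ∀ y : groupCohomology (Rep.ofAlgebraAutOnUnits ↥(K₀ P) L) 2,
    CapLToff.LToffP S hP (infl y) ↔ SuppIn S (locFam ↥(K₀ P) L y)
  /-- descent to the level -/
  hdesc : ∀ z : H2 (basisP S P) (resP P (KS S)), (∃ n : ℕ, p ^ n • z = 0) →
    CapLToff.LToffP S hP z → (∀ i : R.Idx, p ^ k • (locKS S P i.1.1 i.2.1).h2 z = 0) →
      ∃ y, infl y = z
  /-- the `p^k`-torsion of the local groups comes from the level -/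
  htors : ∀ (i : R.Idx) (a : BrLoc R i), p ^ k • a = 0 → ∃ bL, jA i bL = a
  /-- some place above `S` has local degree divisible by `p` -/
  hdvd : ∃ i₀ : R.Idx, p ∣ Nat.card (HJ ↥(K₀ P) L (plOf R i₀))

attribute [instance] LevelDatum.instField LevelDatum.instNF LevelDatum.instAlg LevelDatum.instGal

section lemmas

variable {p : ℕ} [Fact p.Prime]

/-- **Lifting with control of the order** (the (Div) long exact sequence + (C2)): a `p^k`-torsion
class of `H²_LC(P; ℚ_Sˣ)` which is locally trivial off `S` is `i₂ x` with `p^k • x = 0`. -/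
theorem exists_lift (hpS : pPrime p ∈ S) (hP : IsOpenS S P) (k : ℕ)
    (z : H2 (basisP S P) (resP P (KS S))) (hz : p ^ k • z = 0)
    (hoff : CapLToff.LToffP S hP z) :
    ∃ x : H2 (basisP S P) (resP P (OS S)), p ^ k • x = 0 ∧ i₂ S P (basisP S P) x = z := by
  have hc := isCont_subBasis S P
  refine Image.lift_torsion p k (i₂ S P (basisP S P)) (π₂ S P (basisP S P)) (d₁ hc)
    (exists_i₂_of_π₂ hc) (exists_d₁_of_i₂ hc) (i₂_d₁ hc) (CapLToff.hPdiv_P S hP p hpS) z hz ?_
  exact CapLToff.hres_P S hP p hpS z ⟨k, hz⟩ hoff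

/-- classes coming from `O_S` are locally trivial off `S`. -/
theorem ltoff_i₂ (hP : IsOpenS S P) (x : H2 (basisP S P) (resP P (OS S))) :
    CapLToff.LToffP S hP (i₂ S P (basisP S P) x) :=
  CapLToff.hoff_P S hP x

/-- the local Brauer groups are `p`-divisible. -/
theorem exists_nsmul_eq (hP : IsOpenS S P) (R : Reps S P) (i : R.Idx) (a : BrLoc R i) :
    ∃ b : BrLoc R i, p • b = a := by
  obtain ⟨b, hb⟩ := LM.DlocTors.h2Divisible p i.1.1 (Dloc P i.1.1 i.2.1)
    (LM.DlocFields.facts_Dloc S P i.1.1 i.2.1 hP) a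
  exact ⟨b, by rw [← hb]; exact (Nat.cast_smul_eq_nsmul ℤ p b).symm⟩

/-- the tuple of local classes supported at the place `i₀`. -/
def singleBr (R : Reps S P) (i₀ : R.Idx) (a : BrLoc R i₀) : ∀ i : R.Idx, BrLoc R i :=
  @Pi.single R.Idx (fun i => BrLoc R i) (fun _ => inferInstance) (Classical.decEq _) i₀ a

theorem singleBr_same (R : Reps S P) (i₀ : R.Idx) (a : BrLoc R i₀) : singleBr R i₀ a i₀ = a := by
  unfold singleBr
  exact @Pi.single_eq_same R.Idx (fun i => BrLoc R i) (fun _ => inferInstance) (Classical.decEq _) i₀ a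

theorem singleBr_of_ne (R : Reps S P) {i i₀ : R.Idx} (h : i ≠ i₀) (a : BrLoc R i₀) :
    singleBr R i₀ a i = 0 := by
  unfold singleBr
  exact @Pi.single_eq_of_ne R.Idx (fun i => BrLoc R i) (fun _ => inferInstance) (Classical.decEq _)
    i₀ i h a

theorem nsmul_singleBr (R : Reps S P) (i₀ : R.Idx) (a : BrLoc R i₀) (n : ℕ) (hn : n • a = 0)
    (i : R.Idx) : n • singleBr R i₀ a i = 0 := by
  by_cases hi : i = i₀
  · subst hi
    rw [singleBr_same, hn]
  · rw [singleBr_of_ne R hi, smul_zero]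

end lemmas

section level

variable {p : ℕ} [Fact p.Prime] {hP : IsOpenS S P} {R : Reps S P} {k : ℕ}

/-- every class of the level is killed by a power of `p`. -/
theorem LevelDatum.exists_pow_smul (D : LevelDatum p hP R k)
    (y : groupCohomology (Rep.ofAlgebraAutOnUnits ↥(K₀ P) D.L) 2) :
    ∃ n : ℕ, p ^ n • y = 0 := by
  obtain ⟨n, hn⟩ := D.hpp
  refine ⟨n, ?_⟩
  have h := Tate.ResCor.card_smul_eq_zero₂ (Rep.ofAlgebraAutOnUnits ↥(K₀ P) D.L) y
  rwa [IsGalois.card_aut_eq_finrank, hn] at h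

/-- the tuple of local components of `infl y`. -/
theorem LevelDatum.infl_supp (D : LevelDatum p hP R k)
    (y : groupCohomology (Rep.ofAlgebraAutOnUnits ↥(K₀ P) D.L) 2)
    (hy : SuppIn S (locFam ↥(K₀ P) D.L y)) :
    (∃ n : ℕ, p ^ n • D.infl y = 0) ∧ CapLToff.LToffP S hP (D.infl y) := by
  refine ⟨?_, (D.ltoff_iff y).2 hy⟩
  obtain ⟨n, hn⟩ := D.exists_pow_smul y
  exact ⟨n, by rw [← map_nsmul, hn, map_zero]⟩

/-- a family supported in `S` whose `jA`-components vanish is zero. -/
theorem LevelDatum.eq_of_jA_eq (D : LevelDatum p hP R k) {c c' : Fam ↥(K₀ P) D.L}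
    (hc : SuppIn S c) (hc' : SuppIn S c')
    (h : ∀ i : R.Idx, D.jA i (c (plOf R i)) = D.jA i (c' (plOf R i))) : c = c' := by
  funext x
  by_cases hx : x.1 ∈ S
  · obtain ⟨i, rfl⟩ := exists_plOf_eq R x hx
    exact D.jA_injective i (h i)
  · rw [hc x hx, hc' x hx]

/-- a class of the level which is locally trivial off `S` comes from a `p`-primary class of
`H²_LC(P; O_S)` with the expected local components. -/
theorem LevelDatum.exists_class (D : LevelDatum p hP R k) (hpS : pPrime p ∈ S)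
    (y : groupCohomology (Rep.ofAlgebraAutOnUnits ↥(K₀ P) D.L) 2)
    (hy : SuppIn S (locFam ↥(K₀ P) D.L y)) :
    ∃ (m : ℕ) (x : H2 (basisP S P) (resP P (OS S))), p ^ m • x = 0 ∧
      i₂ S P (basisP S P) x = D.infl y ∧
      ∀ i : R.Idx, (locOS S P i.1.1 i.2.1).h2 x = D.jA i (locFam ↥(K₀ P) D.L y (plOf R i)) := by
  obtain ⟨⟨m, hm⟩, hoff⟩ := D.infl_supp y hy
  obtain ⟨x, hxm, hix⟩ := exists_lift hpS hP m (D.infl y) hm hoff
  refine ⟨m, x, hxm, hix, fun i => ?_⟩
  have e1 : (locOS S P i.1.1 i.2.1).h2 x = (locKS S P i.1.1 i.2.1).h2 (D.infl y) :=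
    (HasseOStep.locKS_i₂ S P i.1.1 i.2.1 x).symm.trans
      (congrArg (fun z => (locKS S P i.1.1 i.2.1).h2 z) hix)
  exact e1.trans (D.hcA y i)

end level

section main

variable {p : ℕ} [Fact p.Prime] {hP : IsOpenS S P} {R : Reps S P}

/-- **`Blocks2.ImageNSS` at `(P, R)`**: a `p`-torsion class of `H²_LC(P; O_S)` which is locally
trivial at all places above `S` but one is locally trivial there too. -/
theorem imageNSS_at (hp2 : p ≠ 2) (hζ : ∃ ζ : ↥(K₀ P), IsPrimitiveRoot ζ p)
    (D : LevelDatum p hP R 1)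
    (x : H2 (basisP S P) (resP P (OS S))) (hx : p • x = 0) (i₀ : R.Idx)
    (h : ∀ i : R.Idx, i ≠ i₀ → (locOS S P i.1.1 i.2.1).h2 x = 0) :
    (locOS S P i₀.1.1 i₀.2.1).h2 x = 0 := by
  have hp : p.Prime := Fact.out
  set z := i₂ S P (basisP S P) x with hz
  have hpz : p • z = 0 := by rw [hz, ← map_nsmul, hx, map_zero]
  have hloc : ∀ i : R.Idx, (locKS S P i.1.1 i.2.1).h2 z = (locOS S P i.1.1 i.2.1).h2 x :=
    fun i => HasseOStep.locKS_i₂ S P i.1.1 i.2.1 x
  obtain ⟨y, hy⟩ := D.hdesc z ⟨1, by rw [pow_one]; exact hpz⟩ (ltoff_i₂ hP x)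
    (fun i => by rw [pow_one, ← map_nsmul, hpz, map_zero])
  have hsupp : SuppIn S (locFam ↥(K₀ P) D.L y) := (D.ltoff_iff y).1 (by rw [hy]; exact ltoff_i₂ hP x)
  -- all components of `y` away from `plOf R i₀` vanish
  have hzero : ∀ x' : Pl ↥(K₀ P), x' ≠ plOf R i₀ → locFam ↥(K₀ P) D.L y x' = 0 := by
    intro x' hx'
    by_cases hS : x'.1 ∈ S
    · obtain ⟨i, rfl⟩ := exists_plOf_eq R x' hS
      have hi : i ≠ i₀ := fun e => hx' (by rw [e])
      apply D.jA_injective i
      rw [← D.hcA y i, hy, hloc i, h i hi, map_zero]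
    · exact hsupp x' hS
  have h0 : locFam ↥(K₀ P) D.L y (plOf R i₀) = 0 := by
    by_contra hne
    exact ImageFiniteClosed.not_isGlobal_of_single hp hp2 hζ D.hpp (plOf R i₀) _ hzero hne ⟨y, rfl⟩
  rw [← hloc i₀, ← hy, D.hcA y i₀, h0, map_zero]

end main

end

end Fermat.Agent.S55.Middle.ImageInstF
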