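/-
S55 / MIDDLE block, ImageInst hub: `SuppInOff` with the hypothesis `HbnColimB.UnramOff S` discharged
by `UnramOffAdapter.unramOff` (helper64).  UNCONDITIONAL statements (`S` nonempty, `P` `S`-open):

* `locKS_i₂_eq_zero_off` : for `x ∈ H²_LC(P; O_S)`, `q ∉ S`, all `t`: `(locKS S P q t).h2 (i₂ x) = 0`;
* `locH_eq_zero_off`     : a finite-level class `y` with `ι₂ (cohIsoExt⁻¹ y) = i₂ x` is locally
  trivial at every place above every `q ∉ S`;
* `suppIn_locFam`, `suppIn_locFam_hom` : the same in the family language of `ImageFiniteCore`.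
-/
import Fermat.Agent.S55.Middle.SuppInOff
import Fermat.Agent.S55.Middle.UnramOffAdapter

set_option autoImplicit false
set_option linter.unusedSectionVars false

open CategoryTheory groupCohomology ExtCitation

namespace Fermat.Agent.S55.Middle.SuppInOffClosed

noncomputable section

open Fermat.Agent.S55.Formal Fermat.Agent.S55.Formal.LCLevelH
open Fermat.Agent.S55.Formal.PreludeLC hiding GQ Qbar
open Fermat.Agent.S55.Middle.Defs Fermat.Agent.S55.Middle.KSite
open Fermat.Agent.S55.Middle.Blocks Fermat.Agent.S55.Middle.LESGlueV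
open Fermat.Agent.S55.Middle.GaloisDict Fermat.Agent.S55.Middle.GaloisDictModel
open Fermat.Agent.S55.Global.Blocks3 Fermat.Agent.S55.Global.Objects2

variable {S : Finset Nat.Primes}

/-- `i₂ x` is locally trivial off `S` (unconditional). -/
theorem locKS_i₂_eq_zero_off (hS : S.Nonempty) {P : Subgroup GQ}
    (hP : IsOpenS S P) (x : H2 (basisP S P) (resP P (OS S))) (q : Nat.Primes) (hq : q ∉ S)
    (t : GQ) : (locKS S P q t).h2 (i₂ S P (basisP S P) x) = 0 :=
  SuppInOff.locKS_i₂_eq_zero_off (UnramOffAdapter.unramOff S) hS hP x q hq t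

/-- Local triviality off `S` of a finite-level representative of `i₂ x` (unconditional). -/
theorem locH_eq_zero_off (hS : S.Nonempty) {P : Subgroup GQ}
    (hP : IsOpenS S P) (x : H2 (basisP S P) (resP P (OS S)))
    (L : IntermediateField ℚ Qbar) [Normal ℚ L] (hL : L.IsUnramifiedOutside S)
    (hle : L.fixingSubgroup ≤ P) (hKL : K₀ P ≤ L)
    [NumberField ↥(K₀ P)] [NumberField ↥(Lext P L hKL)] [Finite (↥P ⧸ lvl P L)]
    (hV : (basisP S P).mem (lvl P L))
    (y : groupCohomology (Rep.ofAlgebraAutOnUnits ↥(K₀ P) ↥(Lext P L hKL)) 2)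
    (hy : ι₂ (basisP S P) (resP P (KS S)) (lvl P L) hV
        ((cohIsoExt S P L hKL hL hle 2).inv.hom y) = i₂ S P (basisP S P) x)
    (q : Nat.Primes) (hq : q ∉ S) (𝔪 : Ideal (Ksemi ↥(K₀ P) q)) [𝔪.IsMaximal] :
    (locH ↥(K₀ P) ↥(Lext P L hKL) (Kloc ↥(K₀ P) q 𝔪) 2).hom y = 0 :=
  SuppInOff.locH_eq_zero_off (UnramOffAdapter.unramOff S) hS hP x L hL hle hKL hV y hy q hq 𝔪

/-- Family form (unconditional). -/
theorem suppIn_locFam (hS : S.Nonempty) {P : Subgroup GQ}
    (hP : IsOpenS S P) (x : H2 (basisP S P) (resP P (OS S)))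
    (L : IntermediateField ℚ Qbar) [Normal ℚ L] (hL : L.IsUnramifiedOutside S)
    (hle : L.fixingSubgroup ≤ P) (hKL : K₀ P ≤ L)
    [NumberField ↥(K₀ P)] [NumberField ↥(Lext P L hKL)] [Finite (↥P ⧸ lvl P L)]
    (hV : (basisP S P).mem (lvl P L))
    (y : groupCohomology (Rep.ofAlgebraAutOnUnits ↥(K₀ P) ↥(Lext P L hKL)) 2)
    (hy : ι₂ (basisP S P) (resP P (KS S)) (lvl P L) hV
        ((cohIsoExt S P L hKL hL hle 2).inv.hom y) = i₂ S P (basisP S P) x) :
    ImageFiniteCore.SuppIn S (ImageFiniteCore.locFam ↥(K₀ P) ↥(Lext P L hKL) y) :=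
  SuppInOff.suppIn_locFam (UnramOffAdapter.unramOff S) hS hP x L hL hle hKL hV y hy

/-- Family form for a class given on the LC side of the dictionary (unconditional). -/
theorem suppIn_locFam_hom (hS : S.Nonempty) {P : Subgroup GQ}
    (hP : IsOpenS S P) (x : H2 (basisP S P) (resP P (OS S)))
    (L : IntermediateField ℚ Qbar) [Normal ℚ L] (hL : L.IsUnramifiedOutside S)
    (hle : L.fixingSubgroup ≤ P) (hKL : K₀ P ≤ L)
    [NumberField ↥(K₀ P)] [NumberField ↥(Lext P L hKL)] [Finite (↥P ⧸ lvl P L)]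
    (hV : (basisP S P).mem (lvl P L))
    (y' : groupCohomology ((resP P (KS S)).quotientToInvariants (lvl P L)) 2)
    (hy : ι₂ (basisP S P) (resP P (KS S)) (lvl P L) hV y' = i₂ S P (basisP S P) x) :
    ImageFiniteCore.SuppIn S (ImageFiniteCore.locFam ↥(K₀ P) ↥(Lext P L hKL)
      ((cohIsoExt S P L hKL hL hle 2).hom.hom y')) :=
  SuppInOff.suppIn_locFam_hom (UnramOffAdapter.unramOff S) hS hP x L hL hle hKL hV y' hy

end

end Fermat.Agent.S55.Middle.SuppInOffClosed
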