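/-
S55 / MIDDLE block, (C4) hub (owner helper34), leaf (A) "ASSEMBLER" (helper14): the CONSTRUCTOR of
`ImageInstF.LevelDatum` for the real objects.

For a level `P` (`Blocks.Level p S P`) of `p`-Sylow type, representatives `R : Reps S P` and a depth
`k`, there is a level datum `LevelDatum p hP.isOpen R k`:

* the level field `Lm` is the one of `ImageDescSupp.exists_pLevelField_desc` (helper38 on top of
  helper74's `PLevelField`) at depth `max k 1`: `ℚ`-normal, unramified outside `S`, of `p`-power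
  degree over `K = K₀ P`, with `p^(max k 1)` dividing all the local indices at the places of `R`,
  and with the descent property;
* `L := Lext P Lm hKL`, `infl := ι₂ ∘ cohIsoExt⁻¹` (`ImageLocS.infl`), `jA`, `jA_injective`, `hcA`
  from `LocSR.statementR` (`ImageLocS.jAi`, …);
* `ltoff_iff` : (⇐) `LocOffFwd.ltoff_of_suppIn` (helper13), (⇒) `ImageInstF.exists_lift` +
  `SuppInOffClosed.suppIn_locFam` (helper64);
* `hdesc` : the descent clause of the level chooser;
* `htors` : `LM.TorsLevel.mem_range_ι₂_Ox_pow` (helper85) + the range clause `ImageLocS.jAi_range`;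
* `hdvd` : `LocSCard.card_H2_Jloc_mAt` (helper24) at the place `(p, 1)`.
-/
import Fermat.Agent.S55.Middle.ImageInstF
import Fermat.Agent.S55.Middle.ImageDescSupp
import Fermat.Agent.S55.Middle.ImageLocS
import Fermat.Agent.S55.Middle.LocOffFwd
import Fermat.Agent.S55.Middle.SuppInOffClosed
import Fermat.Agent.S55.Middle.LocSCard
import Fermat.Agent.S55.LM.TorsLevel
import Fermat.Agent.S55.LM.DlocFields
import Fermat.Agent.S55.Middle.Blocks3
import Fermat.Agent.S55.Middle.OSDict
import Fermat.Agent.S55.Middle.LevelField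

set_option autoImplicit false
set_option linter.unusedSectionVars false
set_option linter.style.haveILetI false

open CategoryTheory groupCohomology ExtCitation

namespace Fermat.Agent.S55.Middle.LevelDatumInst

noncomputable section

open Fermat.Agent.S55.Formal
open Fermat.Agent.S55.Formal.PreludeLC hiding GQ Qbar
open Fermat.Agent.S55.Middle.Defs
open Fermat.Agent.S55.Middle.KSite Fermat.Agent.S55.Middle.GaloisDict
open Fermat.Agent.S55.Middle.GaloisDictModel
open Fermat.Agent.S55.Global.Blocks3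
open Fermat.Agent.S55.Formal.LCLevelH
open Fermat.Agent.S55.LM.DlocDict
open Fermat.Agent.S55.Middle.LocS Fermat.Agent.S55.Middle.LocSFam
open Fermat.Agent.S55.Middle.ImageFiniteCore
open Fermat.Agent.S55.Middle.Blocks Fermat.Agent.S55.Middle.Blocks2
open Fermat.Agent.S55.Middle.LESGlueV
open Fermat.Agent.S55.Middle.ImageInstF

attribute [local instance] Fermat.Agent.S55.LM.Defs.fact_q

variable {p : ℕ} [Fact p.Prime] {S : Finset Nat.Primes} {P : Subgroup GQ}

/-! ### the fields at a given level field -/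

section AtLevel

variable (L : IntermediateField ℚ Qbar) [Normal ℚ L] (hL : L.IsUnramifiedOutside S)
  (hle : L.fixingSubgroup ≤ P) (hKL : K₀ P ≤ L)
  [NumberField ↥(K₀ P)] [NumberField ↥(Lext P L hKL)] [Finite (↥P ⧸ lvl P L)]
  (hV : (basisP S P).mem (lvl P L))

/-- every class of the level is killed by a power of `p`. -/
theorem exists_pow_smul_eq_zero
    (hpp : ∃ n : ℕ, Module.finrank ↥(K₀ P) ↥(Lext P L hKL) = p ^ n)
    (y : groupCohomology (Rep.ofAlgebraAutOnUnits ↥(K₀ P) ↥(Lext P L hKL)) 2) :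
    ∃ n : ℕ, p ^ n • y = 0 := by
  haveI := isGalois_Lext P L hKL
  obtain ⟨n, hn⟩ := hpp
  refine ⟨n, ?_⟩
  have h := Tate.ResCor.card_smul_eq_zero₂ (Rep.ofAlgebraAutOnUnits ↥(K₀ P) ↥(Lext P L hKL)) y
  rwa [IsGalois.card_aut_eq_finrank, hn] at h

/-- **`ltoff_iff`** at the level `L`. -/
theorem ltoff_iff (hpS : pPrime p ∈ S) (hP : IsOpenS S P)
    (hpp : ∃ n : ℕ, Module.finrank ↥(K₀ P) ↥(Lext P L hKL) = p ^ n)
    (y : groupCohomology (Rep.ofAlgebraAutOnUnits ↥(K₀ P) ↥(Lext P L hKL)) 2) :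
    CapLToff.LToffP S hP (ImageLocS.infl L hL hle hKL hV y) ↔
      SuppIn S (locFam ↥(K₀ P) ↥(Lext P L hKL) y) := by
  constructor
  · intro hoff
    obtain ⟨n, hn⟩ := exists_pow_smul_eq_zero (p := p) L hKL hpp y
    have hz : p ^ n • ImageLocS.infl L hL hle hKL hV y = 0 := by
      rw [← map_nsmul, hn, map_zero]
    obtain ⟨x, -, hx⟩ := exists_lift hpS hP n (ImageLocS.infl L hL hle hKL hV y) hz hoff
    exact SuppInOffClosed.suppIn_locFam ⟨pPrime p, hpS⟩ hP x L hL hle hKL hV y hx.symm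
  · intro hy
    exact LocOffFwd.ltoff_of_suppIn S P L hL hle hKL hV _ y hy

/-- **`htors`** at the level `L`: the `p^k`-torsion of the local Brauer group at `i` comes from the
level as soon as `p^k` divides the local index. -/
theorem htors (hP : IsOpenS S P) (R : Reps S P) (k : ℕ) (i : R.Idx)
    (hd : p ^ k ∣ (levelSub P i.1.1 i.2.1 L.fixingSubgroup).index)
    (a : BrLoc R i) (ha : p ^ k • a = 0) :
    ∃ bL, ImageLocS.jAi R L hL hle hKL hV i bL = a := by
  have hW : (basisLoc P i.1.1 i.2.1).mem (levelSub P i.1.1 i.2.1 L.fixingSubgroup) :=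
    levelSub_mem_basisLoc S P i.1.1 i.2.1 _ (fixingSubgroup_mem S L hL)
  haveI : Finite (↥(Dloc P i.1.1 i.2.1) ⧸ levelSub P i.1.1 i.2.1 L.fixingSubgroup) :=
    DictBridge.finite_quotient _ hW
  have hmem := Fermat.Agent.S55.LM.TorsLevel.mem_range_ι₂_Ox_pow i.1.1 (Dloc P i.1.1 i.2.1)
    (Fermat.Agent.S55.LM.DlocFields.facts_Dloc S P i.1.1 i.2.1 hP)
    (levelSub P i.1.1 i.2.1 L.fixingSubgroup) hW hd a ha
  obtain ⟨y, hy⟩ := LinearMap.mem_range.1 hmem
  obtain ⟨b, hb⟩ := ImageLocS.jAi_range R L hL hle hKL hV i hW y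
  exact ⟨b, hb.trans hy⟩

include hL hle in
/-- the order of the local group at the place of an index is the local index. -/
theorem card_HJ_plOf (R : Reps S P) (i : R.Idx) :
    Nat.card (HJ ↥(K₀ P) ↥(Lext P L hKL) (plOf R i)) =
      (levelSub P i.1.1 i.2.1 L.fixingSubgroup).index :=
  LocSCard.card_H2_Jloc_mAt S P L hL hle hKL i.1.1 i.2.1

include hL hle in
/-- **`hdvd`** at the level `L`. -/
theorem hdvd (hpS : pPrime p ∈ S) (R : Reps S P)
    (hd : ∀ i : R.Idx, p ∣ (levelSub P i.1.1 i.2.1 L.fixingSubgroup).index) :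
    ∃ i₀ : R.Idx, p ∣ Nat.card (HJ ↥(K₀ P) ↥(Lext P L hKL) (plOf R i₀)) := by
  refine ⟨⟨⟨pPrime p, hpS⟩, ⟨1, R.one_mem _⟩⟩, ?_⟩
  rw [card_HJ_plOf L hL hle hKL R]
  exact hd _

/-- **`hcA`** at the level `L`. -/
theorem hcA (R : Reps S P)
    (y : groupCohomology (Rep.ofAlgebraAutOnUnits ↥(K₀ P) ↥(Lext P L hKL)) 2) (i : R.Idx) :
    (locKS S P i.1.1 i.2.1).h2 (ImageLocS.infl L hL hle hKL hV y) =
      ImageLocS.jAi R L hL hle hKL hV i (locFam ↥(K₀ P) ↥(Lext P L hKL) y (plOf R i)) :=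
  (ImageLocS.jAi_loc R L hL hle hKL hV i y).symm

/-- **The level datum at a level field `L`** with the index and descent properties. -/
def mkDatum (hpS : pPrime p ∈ S) (hP : IsOpenS S P) (R : Reps S P) (k : ℕ)
    (hpp : ∃ n : ℕ, Module.finrank ↥(K₀ P) ↥(Lext P L hKL) = p ^ n)
    (hk : ∀ i : R.Idx, p ^ k ∣ (levelSub P i.1.1 i.2.1 L.fixingSubgroup).index)
    (h1 : ∀ i : R.Idx, p ∣ (levelSub P i.1.1 i.2.1 L.fixingSubgroup).index)
    (hdesc : ∀ z : H2 (basisP S P) (resP P (KS S)), (∃ n : ℕ, p ^ n • z = 0) →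
      CapLToff.LToffP S hP z → (∀ i : R.Idx, p ^ k • (locKS S P i.1.1 i.2.1).h2 z = 0) →
        ∃ y, ImageLocS.infl L hL hle hKL hV y = z) :
    LevelDatum p hP R k :=
  haveI := isGalois_Lext P L hKL
  { L := ↥(Lext P L hKL)
    hpp := hpp
    infl := ImageLocS.infl L hL hle hKL hV
    jA := fun i => ImageLocS.jAi R L hL hle hKL hV i
    jA_injective := fun i => ImageLocS.jAi_injective R L hL hle hKL hV i
    hcA := fun y i => hcA L hL hle hKL hV R y i
    ltoff_iff := fun y => ltoff_iff L hL hle hKL hV hpS hP hpp y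
    hdesc := hdesc
    htors := fun i a ha => htors L hL hle hKL hV hP R k i (hk i) a ha
    hdvd := hdvd L hL hle hKL hpS R h1 }

end AtLevel

/-! ### the constructor -/

set_option maxHeartbeats 4000000 in
/-- **The level datum exists** for a level `P` of `p`-Sylow type. -/
theorem nonempty_levelDatum (hp2 : p ≠ 2) (hpS : pPrime p ∈ S) (hP : Level p S P)
    (hT : SylowType.IsSylowType p S P) [NumberField ↥(K₀ P)] (R : Reps S P) (k : ℕ) :
    Nonempty (LevelDatum p hP.isOpen R k) := by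
  obtain ⟨L, hn, hL, hle, hKL, hK, hL', hfin, hV, -, -, hpp, hidx, hdesc⟩ :=
    ImageDescSupp.exists_pLevelField_desc hp2 hpS hP hT R (max k 1) 0
  haveI := hn
  haveI := hL'
  haveI := hfin
  have hk : ∀ i : R.Idx, p ^ k ∣ (levelSub P i.1.1 i.2.1 L.fixingSubgroup).index := fun i =>
    (pow_dvd_pow p (le_max_left k 1)).trans (hidx i)
  have h1 : ∀ i : R.Idx, p ∣ (levelSub P i.1.1 i.2.1 L.fixingSubgroup).index := fun i =>
    (dvd_pow_self p (by have := le_max_right k 1; omega)).trans (hidx i)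
  have hdesc' : ∀ z : H2 (basisP S P) (resP P (KS S)), (∃ n : ℕ, p ^ n • z = 0) →
      CapLToff.LToffP S hP.isOpen z →
      (∀ i : R.Idx, p ^ k • (locKS S P i.1.1 i.2.1).h2 z = 0) →
        ∃ y, ImageLocS.infl L hL hle hKL hV y = z := by
    intro z hz hoff hloc
    obtain ⟨y, hy, -⟩ := hdesc z hz hoff (fun i => by
      obtain ⟨c, hc⟩ := Nat.exists_eq_add_of_le (le_max_left k 1)
      rw [hc, pow_add, mul_comm, mul_smul, hloc i, smul_zero])
    exact ⟨y, hy⟩
  exact ⟨mkDatum L hL hle hKL hV hpS hP.isOpen R k hpp hk h1 hdesc'⟩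

/-- a chosen level datum. -/
def levelDatum (hp2 : p ≠ 2) (hpS : pPrime p ∈ S) (hP : Level p S P)
    (hT : SylowType.IsSylowType p S P) [NumberField ↥(K₀ P)] (R : Reps S P) (k : ℕ) :
    LevelDatum p hP.isOpen R k :=
  Classical.choice (nonempty_levelDatum hp2 hpS hP hT R k)

/-- the level datum at a member of `globalBasis S`. -/
theorem nonempty_levelDatum_of_mem (hp2 : p ≠ 2) (hpS : pPrime p ∈ S) (hP : Level p S P)
    (hm : (globalBasis S).mem P) [NumberField ↥(K₀ P)] (R : Reps S P) (k : ℕ) :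
    Nonempty (LevelDatum p hP.isOpen R k) :=
  nonempty_levelDatum hp2 hpS hP (SylowType.isSylowType_of_mem hm) R k

/-! ### first consequence: `Blocks3.ImageNSSN` -/

set_option maxHeartbeats 4000000 in
/-- **(C4-NSS) at the members of `globalBasis S`, CLOSED**: `ImageInstF.imageNSS_at` at the level
datum of depth `1`. -/
theorem imageNSSN (hp2 : p ≠ 2) (hpS : pPrime p ∈ S) : Blocks3.ImageNSSN p S := by
  intro P hP hm R x hx i₀ h
  haveI := OSDict.numberField_K₀ hP.isOpen
  obtain ⟨D⟩ := nonempty_levelDatum_of_mem hp2 hpS hP hm R 1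
  exact imageNSS_at hp2 (LevelField.exists_zeta hP) D x hx i₀ h

end

end Fermat.Agent.S55.Middle.LevelDatumInst
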