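/-
S55 / Middle / FourClosed (helper48): THE FOUR RESTRICTED PROPS OF THE MIDDLE BLOCK ARE THEOREMS, hence
`Formal.ArithSite.ArithBase` and the frozen statement S55, unconditionally.

* `Blocks3.H3OTorsionT p S`   : `H3OTorsionClosed.h3OTorsionT` (helper86/79/60/58/61/66, row 5);
* the constructor of the (C4) hub : `LevelDatumInst.nonempty_levelDatum` (helper14; twin
  `LevelDatumInstB`, helper34), i.e. `ImageHubClosed.HasLevelData p S`;
* `Blocks3.H2ODivisibleT`, `Blocks3.ImageNSSN`, `Blocks3.ImageG3N` :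
  `ImageHubClosed.{h2ODivisibleT_of, imageNSSN_of, imageG3N_of}` (helper34);
* the assembly : `ArithBaseN.arithBase_of_four`, `ArithBaseN.result_of_four` (helper48).
-/
import Mathlib
import Fermat.Agent.S55.Middle.ArithBaseN
import Fermat.Agent.S55.Middle.ImageHubClosed
import Fermat.Agent.S55.Middle.LevelDatumInst
import Fermat.Agent.S55.Middle.H3OTorsionClosed

set_option autoImplicit false

open CategoryTheory Module groupCohomology ExtCitation

namespace Fermat.Agent.S55.Middle.FourClosed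

open Fermat.Agent.S55.Formal

variable {p : ℕ} [Fact p.Prime] {S : Finset Nat.Primes}

/-- the constructor of the (C4) hub, in the closed form consumed by `ImageHubClosed`. -/
theorem hasLevelData (hp2 : p ≠ 2) (hpS : pPrime p ∈ S) : ImageHubClosed.HasLevelData p S :=
  fun _ hP hT _ R k => LevelDatumInst.nonempty_levelDatum hp2 hpS hP hT R k

/-- **the four restricted Props of the Middle block are theorems** (`p` odd, `p ∈ S`). -/
theorem fourProps (hp2 : p ≠ 2) (hpS : pPrime p ∈ S) : ArithBaseN.FourProps p S where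
  h2ODivisibleT := ImageHubClosed.h2ODivisibleT_of hp2 hpS (hasLevelData hp2 hpS)
  h3OTorsionT := H3OTorsionClosed.h3OTorsionT hp2 hpS
  imageNSSN := ImageHubClosed.imageNSSN_of hp2 (hasLevelData hp2 hpS)
  imageG3N := ImageHubClosed.imageG3N_of hp2 hpS (hasLevelData hp2 hpS)

/-- **The arithmetic base**, unconditionally. -/
theorem arithBase : ArithSite.ArithBase :=
  ArithBaseN.arithBase_of_four fun hp2 _ hpS => fourProps hp2 hpS

/-- **The frozen statement S55** (Poitou–Tate duality in the form of the statement file). -/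
theorem s55
    {p : ℕ} [Fact p.Prime] (hp2 : p ≠ 2) (S : Finset Nat.Primes) (hpS : pPrime p ∈ S)
    (M : Rep (ZMod p) (AlgebraicClosure ℚ ≃ₐ[ℚ] AlgebraicClosure ℚ))
    [FiniteDimensional (ZMod p) M]
    (hsm : ∀ m : M, ∃ F : IntermediateField ℚ (AlgebraicClosure ℚ), FiniteDimensional ℚ F ∧
      ∀ s ∈ F.fixingSubgroup, M.ρ s m = m)
    (hMur : ∀ q : Nat.Primes, q ∉ S → ∀ A : ValuationSubring (AlgebraicClosure ℚ),
      A.LiesOverPrime (q : ℕ) → ∀ g ∈ A.inertiaSubgroupIn ℚ, M.ρ g = 1) :
    ∃ B : sha₁ S (M.dualTwist (cycloChar p)) →ₗ[ZMod p] sha₂ S M →ₗ[ZMod p] ZMod p,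
      (∀ y, (∀ x, B y x = 0) → y = 0) ∧ (∀ x, (∀ y, B y x = 0) → x = 0) :=
  ArithBaseN.result_of_four (fun hp2 _ hpS => fourProps hp2 hpS) hp2 S hpS M hsm hMur

end Fermat.Agent.S55.Middle.FourClosed
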