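/-
S55 / MIDDLE block, row M.count.globalH1 (helper10), FINAL NUMERIC FORM of count (a) of (C6), in the
literal `K`-site language of `Middle/Blocks.lean` (`basisP S P`, `kP p P`) for `P = K₀.fixingSubgroup`:

* `exists_card_ptorsion_eq_pow` : the `p`-torsion of a finite commutative group has `p ^ c` elements;
* `pow_mul_card_le`  : `p ^ (rank 𝓞_{K₀}ˣ + #SK + 1) * #Cl_{SK}(K₀)[p] ≤ p ^ dim H¹_LC(P; 𝔽_p)`;
* `exists_c`         : `∃ c, #Cl_{SK}(K₀)[p] = p ^ c ∧ rank + #SK + 1 + c ≤ dim H¹_LC(P; 𝔽_p)`;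
* `exists_c_SK`      : the same with `SK := LevelField.SK S K₀` (ALL primes of `K₀` over `S`), the
  form consumed by the (K-G2) arithmetic: together with `Sha1LC.finrank_sha1_le_kummerVS`
  (`p ^ dim Ш¹ ≤ #Cl_{SK}[p]`) one gets `dim Ш¹ ≤ c`.
-/
import Fermat.Agent.S55.Middle.GlobalH1Count
import Fermat.Agent.S55.Middle.LevelField

set_option autoImplicit false
set_option linter.unusedSectionVars false

open scoped NumberField

namespace Fermat.Agent.S55.Middle.GlobalH1Final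

open IsDedekindDomain Module
open Fermat.Agent.S55 Fermat.Agent.S55.Formal
open Fermat.Agent.S55.Formal.PreludeLC hiding GQ Qbar
open Fermat.Agent.S55.Middle.Defs Fermat.Agent.S55.Middle.KSite Fermat.Agent.S55.Middle

/-- the `p`-torsion of a finite commutative group has `p`-power order. -/
theorem exists_card_ptorsion_eq_pow (p : ℕ) [Fact p.Prime] (A : Type*) [CommGroup A] [Finite A] :
    ∃ c : ℕ, Nat.card {x : A // x ^ p = 1} = p ^ c := by
  have hP : IsPGroup p ↥(powMonoidHom p : A →* A).ker := by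
    intro x
    refine ⟨1, ?_⟩
    rw [pow_one]
    apply Subtype.ext
    have := x.2
    rw [MonoidHom.mem_ker, powMonoidHom_apply] at this
    simpa using this
  obtain ⟨c, hc⟩ := hP.exists_card_eq
  refine ⟨c, ?_⟩
  rw [← hc]
  rfl

variable {p : ℕ} [Fact p.Prime] (S : Finset Nat.Primes) (K₀ : IntermediateField ℚ Qbar)
  [NumberField K₀]

/-- **Count (a), multiplicative form.** -/
theorem pow_mul_card_le (hpS : ∃ q ∈ S, ((q : Nat.Primes) : ℕ) = p)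
    (hK : K₀.IsUnramifiedOutside S) (hζ : ∃ ζ : K₀, IsPrimitiveRoot ζ p)
    (SK : Finset (HeightOneSpectrum (𝓞 K₀)))
    (hSK : ∀ v ∈ SK, ∃ q ∈ S, (((q : Nat.Primes) : ℕ) : 𝓞 K₀) ∈ v.asIdeal)
    [Module.Finite (ZMod p) (H1 (basisP S K₀.fixingSubgroup) (Blocks.kP p K₀.fixingSubgroup))] :
    p ^ (NumberField.Units.rank K₀ + SK.card + 1) *
        Nat.card {x : KummerVS.ClS (R := 𝓞 K₀) K₀ (SK : Set (HeightOneSpectrum (𝓞 K₀))) //
          x ^ p = 1} ≤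
      p ^ finrank (ZMod p) (H1 (basisP S K₀.fixingSubgroup) (Blocks.kP p K₀.fixingSubgroup)) := by
  obtain ⟨ζ, hζ⟩ := hζ
  rw [← KummerVS.relIndex_pPow_VS_numberField K₀ p SK hζ]
  exact GlobalH1Count.relIndex_VS_le_pow_finrank K₀ hζ S hpS hK SK hSK

/-- **Count (a), additive form**: `#Cl_{SK}(K₀)[p] = p ^ c` and
`rank 𝓞_{K₀}ˣ + #SK + 1 + c ≤ dim H¹_LC(P; 𝔽_p)`. -/
theorem exists_c (hpS : ∃ q ∈ S, ((q : Nat.Primes) : ℕ) = p)
    (hK : K₀.IsUnramifiedOutside S) (hζ : ∃ ζ : K₀, IsPrimitiveRoot ζ p)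
    (SK : Finset (HeightOneSpectrum (𝓞 K₀)))
    (hSK : ∀ v ∈ SK, ∃ q ∈ S, (((q : Nat.Primes) : ℕ) : 𝓞 K₀) ∈ v.asIdeal)
    [Module.Finite (ZMod p) (H1 (basisP S K₀.fixingSubgroup) (Blocks.kP p K₀.fixingSubgroup))] :
    ∃ c : ℕ,
      Nat.card {x : KummerVS.ClS (R := 𝓞 K₀) K₀ (SK : Set (HeightOneSpectrum (𝓞 K₀))) //
          x ^ p = 1} = p ^ c ∧
      NumberField.Units.rank K₀ + SK.card + 1 + c ≤
        finrank (ZMod p) (H1 (basisP S K₀.fixingSubgroup) (Blocks.kP p K₀.fixingSubgroup)) := by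
  haveI : Finite (KummerVS.ClS (R := 𝓞 K₀) K₀ (SK : Set (HeightOneSpectrum (𝓞 K₀)))) :=
    inferInstance
  obtain ⟨c, hc⟩ := exists_card_ptorsion_eq_pow p
    (KummerVS.ClS (R := 𝓞 K₀) K₀ (SK : Set (HeightOneSpectrum (𝓞 K₀))))
  refine ⟨c, hc, ?_⟩
  have h := pow_mul_card_le S K₀ hpS hK hζ SK hSK
  rw [hc, ← pow_add] at h
  exact (Nat.pow_le_pow_iff_right (Fact.out : p.Prime).one_lt).1 h

/-- the same with `SK` = ALL primes of `K₀` over `S`. -/
theorem exists_c_SK (hpS : ∃ q ∈ S, ((q : Nat.Primes) : ℕ) = p)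
    (hK : K₀.IsUnramifiedOutside S) (hζ : ∃ ζ : K₀, IsPrimitiveRoot ζ p)
    [Module.Finite (ZMod p) (H1 (basisP S K₀.fixingSubgroup) (Blocks.kP p K₀.fixingSubgroup))] :
    ∃ c : ℕ,
      Nat.card {x : KummerVS.ClS (R := 𝓞 K₀) K₀
          (LevelField.SK S K₀ : Set (HeightOneSpectrum (𝓞 K₀))) // x ^ p = 1} = p ^ c ∧
      NumberField.Units.rank K₀ + (LevelField.SK S K₀).card + 1 + c ≤
        finrank (ZMod p) (H1 (basisP S K₀.fixingSubgroup) (Blocks.kP p K₀.fixingSubgroup)) :=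
  exists_c S K₀ hpS hK hζ (LevelField.SK S K₀) (LevelField.SK_spec S K₀)

end Fermat.Agent.S55.Middle.GlobalH1Final
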