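/-
S55 / MIDDLE (helper93): the SYLOW REDUCTION for the divisibility statement (C4),
`Blocks.H2ODivisible p S`.

Why.  The finite-level theorems feeding the (C4) hub need levels `L/K` of `p`-POWER degree, while
the LC ↔ number-field dictionaries (`GaloisDictModel.cohIsoExt`, `LocS.Statement`) only speak about
levels `L ⊇ K` which are Galois over `ℚ`.  If `P` is not normal in `G_ℚ` such a level of `p`-power
degree over `K = ℚ̄^P` need not exist.  It does exist as soon as `P` is `p`-GOOD: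

  `PGood p S P` : some `N ∈ globalBasis S` (normal in `G_ℚ`) lies in `P` with `P/N` a `p`-group

(then `N ⊓ fixRoots (p^m)` are levels of `p`-power degree, Galois over `ℚ`).  Every member of
`globalBasis S` is `p`-good, and between any level `N ≤ P` and `P` the preimage `H` of a Sylow
subgroup of `P/N` is `p`-good with `[P : H]` prime to `p`.

* `divisible_of_sylow` : the abstract statement (any group, basis, coefficients): if the
  `p`-primary part of `H²_LC(H; M)` is `p`-divisible (with control of the order) for all such `H`,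
  then the same holds for `P`  (divide `res x`, corestrict, multiply by `[P : H]⁻¹ mod p^(j+1)`);
* `h2ODivisible_of_good` : `Blocks.H2ODivisible p S` (ALL `P` with `Level p S P`) from the same
  statement for the `p`-good `P` only.
-/
import Fermat.Agent.S55.Middle.SylowRel
import Fermat.Agent.S55.Middle.Blocks

set_option autoImplicit false
set_option linter.unusedSectionVars false
set_option linter.style.haveILetI false

open CategoryTheory

namespace Fermat.Agent.S55.Middle.H2ODivSylow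

open Fermat.Agent.S55.Formal Fermat.Agent.S55.Bridge.ShapiroLC
open Fermat.Agent.S55.Formal.Functor
open Fermat.Agent.S55.Middle.SylowRel

noncomputable section

section Abstract

variable {k : Type} [CommRing k] {G : Type} [Group G] (𝒰 : NBasis G) (M : Rep.{0, 0, 0} k G)
variable {H P : Subgroup G} (hHP : H ≤ P)

/-- the relative corestriction `H²_LC(H; M) → H²_LC(P; M)` for `H ≤ P ≤ G`. -/
def corPH (hH : ∃ N, 𝒰.mem N ∧ N ≤ H) :
    H2 (subBasis 𝒰 H) (Rep.res H.subtype M) →ₗ[k] H2 (subBasis 𝒰 P) (Rep.res P.subtype M) :=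
  (Sylow.cor2 (nest H P) (Rep.res P.subtype M) (subBasis 𝒰 P) (nest_open 𝒰 hH)) ∘ₗ
    (nestIsoInv 𝒰 M hHP).h2

/-- `cor ∘ res = [P : H]`. -/
theorem corPH_res (hH : ∃ N, 𝒰.mem N ∧ N ≤ H)
    (x : H2 (subBasis 𝒰 P) (Rep.res P.subtype M)) :
    corPH 𝒰 M hHP hH ((resPH 𝒰 M hHP).h2 x) = (H.relIndex P) • x := by
  show Sylow.cor2 (nest H P) (Rep.res P.subtype M) (subBasis 𝒰 P) (nest_open 𝒰 hH)
    ((nestIsoInv 𝒰 M hHP).h2 ((resPH 𝒰 M hHP).h2 x)) = _
  rw [resPH_eq, comp_h2, LinearMap.comp_apply, nestIsoInv_h2_nestIso, Sylow.cor2_res,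
    Nat.cast_smul_eq_nsmul]
  rfl

/-- arithmetic: an inverse of `n` modulo `m` when `n` and `m` are coprime. -/
theorem exists_mul_eq_add_one {n m : ℕ} (h : Nat.Coprime n m) (hm : 1 < m) :
    ∃ u t : ℕ, u * n = t * m + 1 := by
  obtain ⟨u, -, hu⟩ := Nat.exists_mul_mod_eq_one_of_coprime h hm
  refine ⟨u, n * u / m, ?_⟩
  have := Nat.div_add_mod (n * u) m
  rw [hu] at this
  rw [mul_comm u n, mul_comm (n * u / m) m]
  exact this.symm

/-- **Sylow reduction for divisibility.**  If for every `H ≤ P` containing a level `N ∈ 𝒰` with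
`H/N` a `p`-group the `p`-primary part of `H²_LC(H; M)` is `p`-divisible with control of the order,
then so is the `p`-primary part of `H²_LC(P; M)`. -/
theorem divisible_of_sylow (p : ℕ) [Fact p.Prime] (hP : ∃ N, 𝒰.mem N ∧ N ≤ P)
    (hgood : ∀ H : Subgroup G, H ≤ P → ∀ N : Subgroup G, 𝒰.mem N → N ≤ H →
      (∀ h ∈ H, ∃ j : ℕ, h ^ (p ^ j) ∈ N) →
      ∀ (y : H2 (subBasis 𝒰 H) (Rep.res H.subtype M)) (j : ℕ), p ^ j • y = 0 →
        ∃ y' : H2 (subBasis 𝒰 H) (Rep.res H.subtype M), p ^ (j + 1) • y' = 0 ∧ p • y' = y)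
    (x : H2 (subBasis 𝒰 P) (Rep.res P.subtype M)) (j : ℕ) (hx : p ^ j • x = 0) :
    ∃ x' : H2 (subBasis 𝒰 P) (Rep.res P.subtype M), p ^ (j + 1) • x' = 0 ∧ p • x' = x := by
  obtain ⟨N, hN, hNP⟩ := hP
  obtain ⟨H, hNH, hHP, hidx, hpow⟩ := exists_sylow_open 𝒰 p hN hNP
  have hH : ∃ N, 𝒰.mem N ∧ N ≤ H := ⟨N, hN, hNH⟩
  have hy : p ^ j • (resPH 𝒰 M hHP).h2 x = 0 := by rw [← map_nsmul, hx, map_zero]
  obtain ⟨y', hy'1, hy'2⟩ := hgood H hHP N hN hNH hpow _ j hy
  have hp : p.Prime := Fact.out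
  have hcop : Nat.Coprime (H.relIndex P) (p ^ (j + 1)) :=
    Nat.Coprime.pow_right _ ((Nat.Prime.coprime_iff_not_dvd hp).2 hidx).symm
  obtain ⟨u, t, hut⟩ := exists_mul_eq_add_one hcop (Nat.one_lt_pow (Nat.succ_ne_zero j) hp.one_lt)
  refine ⟨u • corPH 𝒰 M hHP hH y', ?_, ?_⟩
  · rw [smul_comm, ← map_nsmul, hy'1, map_zero, smul_zero]
  · rw [smul_comm, ← map_nsmul, hy'2, corPH_res, smul_smul, hut, add_smul, one_smul, mul_smul,
      pow_succ', mul_smul, hx, smul_zero, smul_zero, zero_add]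

end Abstract

section Arith

open Fermat.Agent.S55.Formal.PreludeLC hiding GQ Qbar
open Fermat.Agent.S55.Middle.Defs Fermat.Agent.S55.Middle.KSite Fermat.Agent.S55.Middle.Blocks

variable (p : ℕ) [Fact p.Prime] (S : Finset Nat.Primes)

/-- `P` is **`p`-good**: it contains a member `N` of `globalBasis S` (normal in `G_ℚ`) with `P/N` a
`p`-group.  For such `P` the levels `N ⊓ fixRoots (p ^ m)` are Galois over `ℚ`, contain `K = ℚ̄^P`
and are of `p`-power degree over `K`. -/
def PGood (P : Subgroup GQ) : Prop :=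
  ∃ N, (globalBasis S).mem N ∧ N ≤ P ∧ ∀ h ∈ P, ∃ j : ℕ, h ^ (p ^ j) ∈ N

/-- every member of `globalBasis S` is `p`-good. -/
theorem pGood_of_mem {P : Subgroup GQ} (hP : (globalBasis S).mem P) : PGood p S P :=
  ⟨P, hP, le_rfl, fun h hh => ⟨0, by simpa using hh⟩⟩

/-- a `p`-good subgroup is open. -/
theorem PGood.isOpenS {P : Subgroup GQ} (h : PGood p S P) : IsOpenS S P := by
  obtain ⟨N, hN, hNP, -⟩ := h
  exact ⟨N, hN, hNP⟩

/-- **(C4), divisibility, for the `p`-good `P` only.** -/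
def H2ODivisibleGood : Prop :=
  ∀ (P : Subgroup GQ), Level p S P → PGood p S P →
    ∀ (x : H2 (basisP S P) (resP P (OS S))) (j : ℕ), p ^ j • x = 0 →
      ∃ x' : H2 (basisP S P) (resP P (OS S)), p ^ (j + 1) • x' = 0 ∧ p • x' = x

/-- **`Blocks.H2ODivisible p S`** (all `P` with `Level p S P`) from the `p`-good case. -/
theorem h2ODivisible_of_good (h : H2ODivisibleGood p S) : H2ODivisible p S := by
  intro P hP x j hx
  refine divisible_of_sylow (globalBasis S) (OS S) p hP.isOpen ?_ x j hx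
  intro H hHP N hN hNH hpow y j' hy
  exact h H ⟨⟨N, hN, hNH⟩, fun g hg => hP.triv g (hHP hg)⟩ ⟨N, hN, hNH, hpow⟩ y j' hy

end Arith

end

end Fermat.Agent.S55.Middle.H2ODivSylow
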