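/-
S55 / Middle / M.hbnH3.asm.B (helper61): the COLIMIT FORM of (HBN-H3),

  `h3KxTorsionFree : H3OInst.H3KxTorsionFree p S`   (`p` odd, `p ∈ S`),

i.e. `H³_LC(P; ℚ_Sˣ)` has no `p`-power torsion for every `P` with `Blocks.Level p S P`.

Assembly of landed pieces:
* `SylowRelLe.H3_pow_torsion_eq_zero_le` (helper60): reduction to `p`-group levels `N ≤ H`,
  `N ∈ globalBasis S`, of the open subgroups `H ≤ P`;
* `N = L.fixingSubgroup`, `L/ℚ` finite Galois unramified outside `S`; `GaloisDictModel.cohIsoExt`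
  and `GaloisDictTrans.transH3_eq_zero_iff` (helper67): the class dies at the deeper level `L₂` iff
  its Galois avatar dies under `TransitionQ.inflLxn K L' L₂' 3`;
* `HbnH3Cyclo.hbnH3_cyclo` (helper63, helper21) + `Global.FinalClosed.cycloKillsH3`,
  `Global.Final.isZero_H3_Jn` (helper78): it dies in every `p`-power Galois `M ⊇ L'` containing a
  primitive `p^k`-th root of unity;
* `L₂ := L ⊔ ℚ(μ_{p^k})` (`CycloPow`, helper81): normal, unramified outside `S`, `H/N₂` a `p`-group.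
-/
import Fermat.Agent.S55.Middle.H3OInst
import Fermat.Agent.S55.Middle.SylowRelLe
import Fermat.Agent.S55.Middle.GaloisDictTrans
import Fermat.Agent.S55.Middle.HbnH3Cyclo
import Fermat.Agent.S55.Middle.CycloPow
import Fermat.Agent.S55.Middle.LevelField
import Fermat.Agent.S55.Global.FinalClosed

set_option autoImplicit false
set_option linter.unusedSectionVars false
set_option linter.style.haveILetI false

open CategoryTheory groupCohomology ExtCitation

namespace Fermat.Agent.S55.Middle.H3KSB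

noncomputable section

open Fermat.Agent.S55.Formal Fermat.Agent.S55.Formal.PreludeLC Fermat.Agent.S55.Middle.Defs
open Fermat.Agent.S55.Middle.Dict Fermat.Agent.S55.Middle.GaloisDict
open Fermat.Agent.S55.Middle.GaloisDictModel Fermat.Agent.S55.Middle.OSDict
open Fermat.Agent.S55.Middle.GaloisDictTrans Fermat.Agent.S55.Middle.CycloPow
open Fermat.Agent.S55.Middle.KSite
open Fermat.Agent.S55.Global.TransitionQ

variable (p : ℕ) [hp : Fact p.Prime] (S : Finset Nat.Primes)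

/-- `H/(H ∩ N)` is a `p`-group: element form to cardinality. -/
theorem exists_card_lvl_eq (H : Subgroup Defs.GQ) (L : IntermediateField ℚ Defs.Qbar) [Normal ℚ L]
    (hL : L.IsUnramifiedOutside S)
    (hpg : ∀ h ∈ H, ∃ j : ℕ, h ^ (p ^ j) ∈ L.fixingSubgroup) :
    ∃ a : ℕ, Nat.card (↥H ⧸ lvl H L) = p ^ a := by
  haveI : FiniteDimensional ℚ ↥L := hL.1
  haveI : L.fixingSubgroup.FiniteIndex := finiteIndex_fixingSubgroup L
  haveI : (lvl H L).FiniteIndex := inferInstance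
  refine SylowRel.exists_card_quotient_eq_pow p (lvl H L) (fun h => ?_)
  obtain ⟨j, hj⟩ := hpg h.1 h.2
  exact ⟨j, by simpa [Subgroup.mem_subgroupOf] using hj⟩

/-- The level `L₂ = L ⊔ ℚ(μ_{p^k})`: still a `p`-group quotient of `H`. -/
theorem pgroup_sup (H : Subgroup Defs.GQ) (hχ : ∀ g ∈ H, cycloChar p g = 1)
    (L : IntermediateField ℚ Defs.Qbar) (k : ℕ)
    (hpg : ∀ h ∈ H, ∃ j : ℕ, h ^ (p ^ j) ∈ L.fixingSubgroup) :
    ∀ h ∈ H, ∃ j : ℕ, h ^ (p ^ j) ∈ (L ⊔ cycloPowField p k).fixingSubgroup := by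
  intro h hh
  obtain ⟨j, hj⟩ := hpg h hh
  refine ⟨j + k, ?_⟩
  rw [IntermediateField.fixingSubgroup_sup]
  constructor
  · rw [pow_add, pow_mul]
    exact Subgroup.pow_mem _ hj _
  · rw [pow_add, mul_comm, pow_mul]
    exact Subgroup.pow_mem _ (pow_mem_fixingSubgroup p k h (hχ h hh)) _

/-- `L ⊔ ℚ(μ_{p^k})` is normal over `ℚ`. -/
instance normal_sup_cycloPowField (L : IntermediateField ℚ Defs.Qbar) [Normal ℚ L] (k : ℕ) :
    Normal ℚ ↥(L ⊔ cycloPowField p k) := by
  have h : L.fixingSubgroup.Normal := by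
    rw [← resL_ker L]
    infer_instance
  refine normal_of_fixingSubgroup_normal _ ?_
  rw [IntermediateField.fixingSubgroup_sup]
  haveI := h
  haveI := normal_fixingSubgroup_cycloPowField p k
  infer_instance

/-- **One level dies**: for `H` with `Level p S H`, a finite Galois `L/ℚ` unramified outside `S` with
`Gal(ℚ̄/L) ≤ H` and `H/Gal(ℚ̄/L)` a `p`-group, there is `k` such that every class of
`H³(H/N, (ℚ_Sˣ)^N)` dies at the level `L ⊔ ℚ(μ_{p^k})`. -/
theorem level_dies (hodd : p ≠ 2) (hpS : pPrime p ∈ S) (H : Subgroup Defs.GQ)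
    (hH : Blocks.Level p S H) (L : IntermediateField ℚ Defs.Qbar) [Normal ℚ L]
    (hL : L.IsUnramifiedOutside S) (hle : L.fixingSubgroup ≤ H)
    (hpg : ∀ h ∈ H, ∃ j : ℕ, h ^ (p ^ j) ∈ L.fixingSubgroup) :
    ∃ k : ℕ, ∀ y : groupCohomology (Inv (KSH S H) (lvl H L)) 3,
      Fermat.Agent.S55.Middle.DictH3.transH3 (KSH S H)
        (lvl_le_of_le H L (L ⊔ cycloPowField p k) le_sup_left) y = 0 := by
  have hp' := hp.out
  have hKL : K₀ H ≤ L := fixedField_le_of_le hle
  haveI : NumberField ↥(K₀ H) := numberField_K₀ hH.isOpen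
  haveI : NumberField ↥(Lext H L hKL) := numberField_Lext L hKL hL
  haveI : IsGalois ↥(K₀ H) ↥(Lext H L hKL) := isGalois_Lext H L hKL
  obtain ⟨a, ha⟩ := exists_card_lvl_eq p S H L hL hpg
  have hfr : Module.finrank ↥(K₀ H) ↥(Lext H L hKL) = p ^ a := by
    rw [finrank_Lext S H L hKL hL hle, ha]
  have hζ : ∃ ζ : ↥(K₀ H), IsPrimitiveRoot ζ p := LevelField.exists_zeta hH
  obtain ⟨k, hk⟩ := HbnH3Cyclo.hbnH3_cyclo ↥(K₀ H) ↥(Lext H L hKL)
    (Fermat.Agent.S55.Global.FinalClosed.cycloKillsH3 p)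
    (fun T => Fermat.Agent.S55.Global.Final.isZero_H3_Jn ↥(K₀ H) ↥(Lext H L hKL) T)
    hp' hodd hζ a hfr
  refine ⟨k, fun y => ?_⟩
  -- the deeper level
  set L₂ : IntermediateField ℚ Defs.Qbar := L ⊔ cycloPowField p k with hL₂def
  haveI : Normal ℚ ↥L₂ := normal_sup_cycloPowField p L k
  have hLL : L ≤ L₂ := le_sup_left
  have hL₂ : L₂.IsUnramifiedOutside S := hL.sup (cycloPowField_isUnramifiedOutside p k hpS)
  have hle₂ : L₂.fixingSubgroup ≤ H :=
    (IntermediateField.fixingSubgroup_antitone hLL).trans hle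
  have hKL₂ : K₀ H ≤ L₂ := hKL.trans hLL
  haveI : NumberField ↥(Lext H L₂ hKL₂) := numberField_Lext L₂ hKL₂ hL₂
  haveI : IsGalois ↥(K₀ H) ↥(Lext H L₂ hKL₂) := isGalois_Lext H L₂ hKL₂
  letI := algebraLext H L L₂ hKL hKL₂ hLL
  haveI := isScalarTower_Lext H L L₂ hKL hKL₂ hLL
  haveI : Normal ↥(K₀ H) ↥(Lext H L hKL) := normal_Lext H L hKL
  -- degree of the deeper level
  obtain ⟨a₂, ha₂⟩ := exists_card_lvl_eq p S H L₂ hL₂ (pgroup_sup p H hH.triv L k hpg)
  have hfr₂ : ∃ n : ℕ, Module.finrank ↥(K₀ H) ↥(Lext H L₂ hKL₂) = p ^ n :=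
    ⟨a₂, by rw [finrank_Lext S H L₂ hKL₂ hL₂ hle₂, ha₂]⟩
  -- a primitive `p^k`-th root of unity in `L₂'`
  have hroot : ∃ ζ : ↥(Lext H L₂ hKL₂), IsPrimitiveRoot ζ (p ^ k) := by
    obtain ⟨ζ, hζ⟩ := exists_primitiveRoot_cycloPowField p k
    have hmem : (ζ : Defs.Qbar) ∈ L₂ := (le_sup_right : cycloPowField p k ≤ L₂) ζ.2
    refine ⟨⟨(ζ : Defs.Qbar), hmem⟩, ?_⟩
    have h1 : IsPrimitiveRoot (ζ : Defs.Qbar) (p ^ k) := by
      have := hζ.map_of_injective (f := (cycloPowField p k).val) (cycloPowField p k).val.injective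
      simpa using this
    exact IsPrimitiveRoot.of_map_of_injective (f := (Lext H L₂ hKL₂).val) (by simpa using h1)
      (Lext H L₂ hKL₂).val.injective
  have h0 := hk ↥(Lext H L₂ hKL₂) hfr₂ hroot ((cohIsoExt S H L hKL hL hle 3).hom.hom y)
  exact (transH3_eq_zero_iff S H L L₂ hKL hKL₂ hLL hL hL₂ hle hle₂ (fun _ => rfl) y).2 h0

/-- The finite-level input of `SylowRelLe.H3_pow_torsion_eq_zero_le`, for every `H` with
`Level p S H`. -/
theorem pLevelsDieLe (hodd : p ≠ 2) (hpS : pPrime p ∈ S) (H : Subgroup Defs.GQ)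
    (hH : Blocks.Level p S H) (j : ℕ) :
    SylowRelLe.PLevelsDieLe (globalBasis S) (KS S) p j H := by
  intro N hN hNH _ hpg y _
  obtain ⟨L, hL, hLn, rfl⟩ := hN
  haveI : Normal ℚ ↥L := normal_of_fixingSubgroup_normal L hLn
  obtain ⟨k, hk⟩ := level_dies p S hodd hpS H hH L hL hNH hpg
  have hLL : L ≤ L ⊔ cycloPowField p k := le_sup_left
  have hL₂ : (L ⊔ cycloPowField p k).IsUnramifiedOutside S :=
    hL.sup (cycloPowField_isUnramifiedOutside p k hpS)
  have hn₂ : (L ⊔ cycloPowField p k).fixingSubgroup.Normal := by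
    rw [IntermediateField.fixingSubgroup_sup]
    haveI := hLn
    haveI := normal_fixingSubgroup_cycloPowField p k
    infer_instance
  refine ⟨(L ⊔ cycloPowField p k).fixingSubgroup, ⟨_, hL₂, hn₂, rfl⟩,
    IntermediateField.fixingSubgroup_antitone hLL, inferInstance, ?_⟩
  exact hk y

/-- **(HBN-H3), colimit form**: `H³_LC(P; ℚ_Sˣ)` has no `p`-power torsion (`p` odd, `p ∈ S`). -/
theorem h3KxTorsionFree (hodd : p ≠ 2) (hpS : pPrime p ∈ S) : H3OInst.H3KxTorsionFree p S := by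
  intro P hP x j hx
  refine SylowRelLe.H3_pow_torsion_eq_zero_le (globalBasis S) (KS S) p j hP.isOpen
    (fun H hHP hHo => ?_) x hx
  exact pLevelsDieLe p S hodd hpS H ⟨hHo, fun g hg => hP.triv g (hHP hg)⟩ j

end

end Fermat.Agent.S55.Middle.H3KSB
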