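/-
S55 / Middle / M.h3 (helper58): FIRST HALF OF (C5) FROM THE `p`-GROUP LEVELS ONLY (Sylow route).

`Blocks.H3OTorsion p S` (`H³_LC(P; O_S)` has no `p`-torsion) is reduced, through the generic
`SylowDelta.H3_torsion_eq_zero_of_pLevels` applied to (Div) `0 → O_S → ℚ_Sˣ → Prin → 0`, to

* `H3OInst.H3KxTorsionFree p S` ((HBN-H3), colimit form), and
* `RealOffPLevel p S` : realisation of residues ONLY for classes inflated from a level `N ≤ H` with
  `H/N` a `p`-GROUP, `H ≤ P` open (so the level field has `p`-power degree over `K_H ∋ ζ_p`, which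
  is where `CycloSettingExists` / `Blocks4.H2CyclicIn` / (HBN-coker) live).  No statement about
  arbitrary levels, procyclic decomposition groups or growth off `S` is needed.
* `RealDivPLevel p S` : the same in `Div`-form (every `p`-primary class of `H²(H/N, Div^N)`),
  `realOffPLevel_of_div : RealDivPLevel p S → RealOffPLevel p S`.
* `h3OTorsion_of_pLevels (hpS) : H3KxTorsionFree p S → RealOffPLevel p S → Blocks.H3OTorsion p S`.
-/
import Fermat.Agent.S55.Middle.H3OInst
import Fermat.Agent.S55.Middle.SylowDelta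

set_option autoImplicit false
set_option linter.style.haveILetI false

open CategoryTheory ExtCitation

namespace Fermat.Agent.S55.Middle.H3OLevels

open Fermat.Agent.S55.Formal
open Fermat.Agent.S55.Formal.PreludeLC hiding GQ Qbar
open Fermat.Agent.S55.Formal.CoefExactSmooth
open Fermat.Agent.S55.Middle Fermat.Agent.S55.Middle.KSite
open Fermat.Agent.S55.Middle.Defs (GQ KS OS PrinS)
open Fermat.Agent.S55.Middle.H3OInst

noncomputable section

variable (p : ℕ) [Fact p.Prime] (S : Finset Nat.Primes)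

/-- **Realisation of residues at the `p`-group levels** (finite-level class field theory:
(LOC-off) + (U1) + (HBN-coker) + growth at one place over `p`): over an `S`-open `H` with `μ_p ⊂ K_H`,
for a level `N ∈ globalBasis S`, `N ≤ H`, with `H/N` a `p`-group, the image in `H²_LC(H; Div)` of the
inflation of a `p`-primary class `y` of `H²(H/N, Prin^N)` is `off z` for a `p`-primary class `z` of
`H²_LC(H; ℚ_Sˣ)`. -/
def RealOffPLevel : Prop :=
  ∀ (H : Subgroup GQ) (hH : Blocks.Level p S H) (N : Subgroup GQ) (hN : (globalBasis S).mem N)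
    (_ : N ≤ H) [(N.subgroupOf H).Normal], (∀ g ∈ H, ∃ j : ℕ, g ^ (p ^ j) ∈ N) →
    ∀ y : groupCohomology.H2 (Dict.Inv (resP H (PrinS S)) (N.subgroupOf H)),
      (∃ a : ℕ, p ^ a • y = 0) →
        ∃ z : H2 (basisP S H) (resP H (KS S)), (∃ n : ℕ, p ^ n • z = 0) ∧
          off (level_finiteIndex hH) z =
            rho (level_finiteIndex hH)
              (Dict.inflH2 (basisP S H) (resP H (PrinS S)) ⟨N, hN, rfl⟩ y)

/-- **Realisation at the `p`-group levels, `Div`-form** (what the finite-level producers deliver):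
every `p`-primary class `d` of `H²(H/N, Div^N)` (level `N` with `H/N` a `p`-group) inflates to
`off z` for a `p`-primary class `z` of `H²_LC(H; ℚ_Sˣ)`. -/
def RealDivPLevel : Prop :=
  ∀ (H : Subgroup GQ) (hH : Blocks.Level p S H) (N : Subgroup GQ) (hN : (globalBasis S).mem N)
    (_ : N ≤ H) [(N.subgroupOf H).Normal], (∀ g ∈ H, ∃ j : ℕ, g ^ (p ^ j) ∈ N) →
    ∀ d : groupCohomology.H2 (Dict.Inv (DivP S H) (N.subgroupOf H)),
      (∃ a : ℕ, p ^ a • d = 0) →
        ∃ z : H2 (basisP S H) (resP H (KS S)), (∃ n : ℕ, p ^ n • z = 0) ∧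
          off (level_finiteIndex hH) z =
            Dict.inflH2 (basisP S H) (DivP S H) ⟨N, hN, rfl⟩ d

variable {S}

/-- the `Div`-form implies the `Prin`-form (naturality of inflation). -/
theorem realOffPLevel_of_div (h : RealDivPLevel p S) : RealOffPLevel p S := by
  intro H hH N hN hNH _ hpg y hy
  have hV : (basisP S H).mem (N.subgroupOf H) := ⟨N, hN, rfl⟩
  set α := Mor.ofHom (basisP S H)
    (CapDiv.prinDiv (CapDiv.isCont_subBasis S H) (level_finiteIndex hH)) with hα
  have hle : ∀ s ∈ N.subgroupOf H, α.f s ∈ N.subgroupOf H := fun s hs => hs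
  obtain ⟨z, hz, hzd⟩ := h H hH N hN hNH hpg
    ((groupCohomology.map (Dict.qf α hle) (Dict.lvlHom α hle) 2).hom y) (by
      obtain ⟨a, ha⟩ := hy
      exact ⟨a, by rw [← map_nsmul, ha, map_zero]⟩)
  refine ⟨z, hz, hzd.trans ?_⟩
  exact (Dict.h2_inflH2 α hle hV hV y).symm

/-- abstract step: a `p`-primary `e` with `ρ e = ρ (π z)`, `z` `p`-primary, equals `π z` when `ρ` is
injective on `p`-primary elements. -/
theorem eq_of_rho_eq {X Y Z : Type*} [AddCommGroup X] [AddCommGroup Y] [AddCommGroup Z] (p : ℕ)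
    (π : X →+ Y) (ρ : Y →+ Z)
    (hinj : ∀ e : Y, (∃ n : ℕ, p ^ n • e = 0) → ρ e = 0 → e = 0) (z : X) (e : Y)
    (hz : ∃ n : ℕ, p ^ n • z = 0) (he : ∃ a : ℕ, p ^ a • e = 0) (h : ρ (π z) = ρ e) :
    e = π z := by
  obtain ⟨n, hn⟩ := hz
  obtain ⟨a, ha⟩ := he
  have hdiff : π z - e = 0 := by
    refine hinj _ ⟨n + a, ?_⟩ (by rw [map_sub, h, sub_self])
    have h1 : p ^ (n + a) • π z = 0 := by
      rw [← map_nsmul, pow_add, mul_comm, mul_smul, hn, smul_zero, map_zero]
    have h2 : p ^ (n + a) • e = 0 := by rw [pow_add, mul_smul, ha, smul_zero]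
    rw [smul_sub, h1, h2, sub_zero]
  exact (sub_eq_zero.mp hdiff).symm

theorem level_of_le {P H : Subgroup GQ} (hP : Blocks.Level p S P) (hHP : H ≤ P)
    (hH : ∃ N, (globalBasis S).mem N ∧ N ≤ H) : Blocks.Level p S H :=
  ⟨hH, fun g hg => hP.triv g (hHP hg)⟩

set_option maxHeartbeats 800000 in
/-- `RealOffPLevel` gives the finite-level hypothesis of `SylowDelta` for (Div). -/
theorem pLevelsKilled (hpS : pPrime p ∈ S) (hreal : RealOffPLevel p S) {H : Subgroup GQ}
    (hH : Blocks.Level p S H) :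
    SylowDelta.PLevelsKilled (globalBasis S) (UnitsLES.divSES S) p H := by
  intro N hN hNH _ hpg y hy
  obtain ⟨z, hz, hzy⟩ := hreal H hH N hN hNH hpg y hy
  have hc := LESGlueV.isCont_subBasis S H
  have hfin := level_finiteIndex hH
  have hy' : ∃ a : ℕ, p ^ a •
      (Dict.inflH2 (basisP S H) (resP H (PrinS S)) ⟨N, hN, rfl⟩ y) = 0 := by
    obtain ⟨a, ha⟩ := hy
    exact ⟨a, by rw [← map_nsmul, ha, map_zero]⟩
  have heq := eq_of_rho_eq p (LESGlueV.π₂ S H (basisP S H)) (rho hfin)
    (fun e he h => rho_injective_on_primary p hpS hH e he h) z _ hz hy'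
    (by rw [rho_π₂]; exact hzy)
  show δ₂ (SylowDelta.sesSub (globalBasis S) (UnitsLES.divSES S) H) _ = 0
  rw [heq]
  exact LESGlueV.d₂_π₂ hc z

/-- **(C5), first half, from the `p`-group levels only** (Sylow route). -/
theorem h3OTorsion_of_pLevels (hpS : pPrime p ∈ S) (h3K : H3KxTorsionFree p S)
    (hreal : RealOffPLevel p S) : Blocks.H3OTorsion p S := by
  intro P hP x hx
  refine SylowDelta.H3_torsion_eq_zero_of_pLevels (globalBasis S) (UnitsLES.divSES S) p hP.isOpen
    (fun y hy => ?_) (fun H hHP hH => pLevelsKilled p hpS hreal (level_of_le p hP hHP hH))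
    x ⟨1, by rwa [pow_one]⟩
  obtain ⟨n, hn⟩ := hy
  exact h3K P hP y n hn

end

end Fermat.Agent.S55.Middle.H3OLevels
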