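/-
S55 / MIDDLE block, row M.h90 (helper94): Hilbert 90 for LC cohomology, instance for helper24's model
`Units.Kx S` of `ℚ_Sˣ` (see `Middle/H90.lean` for the generic form and the `Defs.KS` instance).
-/
import Fermat.Agent.S55.Middle.H90
import Fermat.Agent.S55.Middle.Units

set_option autoImplicit false

open CategoryTheory groupCohomology

namespace Fermat.Agent.S55.Middle.H90

open Fermat.Agent.S55.Formal

local notation "Qbar" => AlgebraicClosure ℚ
local notation "GQ" => (AlgebraicClosure ℚ ≃ₐ[ℚ] AlgebraicClosure ℚ)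

variable (S : Finset Nat.Primes)

/-- **Hilbert 90**: `H¹_LC(H; ℚ_Sˣ) = 0` for every open subgroup `H ≤ GQ` (model `Units.Kx`). -/
theorem h90_Kx (H : Subgroup GQ) (hH : Defs.IsOpenSub (PreludeLC.globalBasis S) H)
    (f : ↥(C₁ (Defs.NBasis.sub (PreludeLC.globalBasis S) H) (Rep.res H.subtype (Units.Kx S))))
    (hf : dC₁ (Defs.NBasis.sub (PreludeLC.globalBasis S) H) (Rep.res H.subtype (Units.Kx S)) f = 0) :
    ∃ m : ↥(C₀ (Defs.NBasis.sub (PreludeLC.globalBasis S) H) (Rep.res H.subtype (Units.Kx S))),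
      dC₀ (Defs.NBasis.sub (PreludeLC.globalBasis S) H) (Rep.res H.subtype (Units.Kx S)) m = f := by
  refine lc_hilbert90 (Defs.NBasis.sub (PreludeLC.globalBasis S) H) H.subtype
    (Rep.res H.subtype (Units.Kx S))
    (fun a => Units.toUnit (SubQuot.val (show Units.Kx S from a)))
    (fun a b => rfl) (fun a b h => SubQuot.val_injective (Units.toUnit_injective h))
    (fun g a => rfl) ?_ f hf
  intro V hV
  obtain ⟨V', F, hV', hle, hVF, hF, hFH⟩ := exists_level S H hH V hV
  refine ⟨V', F, hV', hle, hVF, fun β hβ => ?_⟩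
  have hβF : (β : Qbar) ∈ F := by
    apply mem_of_fixed F
    intro s hs
    have hs' : (⟨s, hFH hs⟩ : ↥H) ∈ V' := by
      rw [hVF]
      exact hs
    exact hβ _ hs'
  exact ⟨SubQuot.mk' (Units.subOf (Units.KxSub S)) (Units.isStable_subOf (Units.KxSub_stable S))
    (Units.ofUnit β) ⟨F, hF, hβF⟩, rfl⟩

end Fermat.Agent.S55.Middle.H90
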