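/-
S55 / MIDDLE block, row M.hasse (helper94): (C3) for the REAL objects.

`H ≤ GQ` open for `globalBasis S`, `𝒰_H := Defs.NBasis.sub (globalBasis S) H`, coefficient modules the
restrictions to `H` of `Defs.muP p ≤ Defs.OS S ≤ Defs.KS S`, `Defs.PrinS S`, LC cohomology of
`Formal/LC.lean`, the two long exact sequences of `UnitsLES.kummerSES_open`, `UnitsLES.divSES_open`.

* `H1_KS_eq_zero`   : `H¹_LC(H; ℚ_Sˣ) = 0` (Hilbert 90, `Middle/H90.lean`);
* `δ₁_div_injective`: the connecting map `H¹(Prin) → H²(O)` of (Div) is injective;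
* `hasse`           : a `p`-primary class of `H²_LC(H; O_S)` whose image in `H²_LC(H; ℚ_Sˣ)` is locally
  trivial at `S` vanishes — modulo the three inputs of the leaf rows, as hypotheses:
  `hP` (M.cap + M.div), `hoff` (Local + M.loccompare), `hbn` (M.hbnInj + M.dict);
* `sha_le_range`    : the `S`-locally trivial classes of `H²_LC(H; μ_p)` lie in the image of the
  Kummer connecting map `δ₁ : H¹_LC(H; O_S) → H²_LC(H; μ_p)`.
-/
import Fermat.Agent.S55.Middle.Hasse
import Fermat.Agent.S55.Middle.H90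
import Fermat.Agent.S55.Middle.UnitsLES

set_option autoImplicit false

open CategoryTheory groupCohomology ExtCitation

namespace Fermat.Agent.S55.Middle.HasseInst

open Fermat.Agent.S55.Formal Fermat.Agent.S55.Formal.PreludeLC
open Fermat.Agent.S55.Formal.CoefExactSmooth
open Fermat.Agent.S55.Middle

noncomputable section

variable (S : Finset Nat.Primes) (H : Subgroup Defs.GQ)

/-- the restricted basis on the open subgroup `H` -/
abbrev basis : NBasis ↥H := Defs.NBasis.sub (globalBasis S) H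

/-- restriction of a `GQ`-module to `H` -/
abbrev resH (M : Rep.{0, 0, 0} ℤ Defs.GQ) : Rep.{0, 0, 0} ℤ ↥H := (Rep.resFunctor H.subtype).obj M

variable {S H}

/-- **Hilbert 90**: `H¹_LC(H; ℚ_Sˣ) = 0`. -/
theorem H1_KS_eq_zero (hH : Defs.IsOpenSub (globalBasis S) H)
    (x : H1 (basis S H) (resH H (Defs.KS S))) : x = 0 := by
  obtain ⟨f, hf, rfl⟩ := Hmid.exists_of x
  rw [Hmid.of_eq_zero_iff]
  exact H90.h90_KS S H hH f hf

/-- the connecting map `H¹(Prin) → H²(O_S)` of (Div) is injective -/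
theorem δ₁_div_injective (hH : Defs.IsOpenSub (globalBasis S) H) :
    Function.Injective (δ₁ (UnitsLES.divSES_open hH)) := by
  rw [injective_iff_map_eq_zero]
  intro e he
  obtain ⟨y, rfl⟩ := (exact_h1_δ₁ (UnitsLES.divSES_open hH) e).1 he
  rw [H1_KS_eq_zero hH y, map_zero]

/-- **(C3), Hasse principle for `O_S`.** -/
theorem hasse (hH : Defs.IsOpenSub (globalBasis S) H) (p : ℕ)
    (hP : ∀ e : H1 (basis S H) (resH H (Defs.PrinS S)), p • e = 0 → e = 0)
    (LTS LToff : H2 (basis S H) (resH H (Defs.KS S)) → Prop)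
    (hoff : ∀ x : H2 (basis S H) (resH H (Defs.OS S)),
      LToff ((Mor.ofHom (basis S H) ((Rep.resFunctor H.subtype).map (Defs.osToKS S))).h2 x))
    (hbn : ∀ z : H2 (basis S H) (resH H (Defs.KS S)), (∃ n : ℕ, p ^ n • z = 0) → LTS z →
      LToff z → z = 0)
    (x : H2 (basis S H) (resH H (Defs.OS S))) (hx : ∃ n : ℕ, p ^ n • x = 0)
    (hloc : LTS ((Mor.ofHom (basis S H) ((Rep.resFunctor H.subtype).map (Defs.osToKS S))).h2 x)) :
    x = 0 :=
  Hasse.hasse_O p
    ((Mor.ofHom (basis S H) ((Rep.resFunctor H.subtype).map (Defs.osToKS S))).h2).toAddMonoidHom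
    (δ₁ (UnitsLES.divSES_open hH)).toAddMonoidHom
    (fun x hx => (exact_δ₁_h2 (UnitsLES.divSES_open hH) x).1 hx)
    (δ₁_div_injective hH) hP LTS LToff hoff hbn x hx hloc

/-- `H²` of a module killed by `c` is killed by `c` -/
theorem H2_smul_eq_zero {k : Type} [CommRing k] {G : Type} [Group G] (𝒰 : NBasis G)
    (M : Rep.{0, 0, 0} k G) (c : k) (hM : ∀ m : M, c • m = 0) (y : H2 𝒰 M) : c • y = 0 := by
  obtain ⟨b, hb, rfl⟩ := Hmid.exists_of y
  rw [← Hmid.of_smul]
  have h0 : (c • b) = 0 := by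
    apply Subtype.ext
    funext g
    show c • ((b : G × G → M) g) = 0
    exact hM _
  simp only [h0]
  exact Hmid.of_zero

/-- `μ_p` is killed by `p` -/
theorem muP_zsmul (p : ℕ) (m : resH H (Defs.muP p)) : (p : ℤ) • m = 0 := by
  have hm : Defs.toUnit (Subtype.val (show ↥(Defs.muSub p) from m)) ^ p = 1 :=
    (show ↥(Defs.muSub p) from m).2
  rw [Nat.cast_smul_eq_nsmul]
  exact Subtype.ext hm

/-- **(C3), second half**: the `S`-locally trivial classes of `H²_LC(H; μ_p)` come from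
`H¹_LC(H; O_S)` through the Kummer connecting map. -/
theorem sha_le_range (hH : Defs.IsOpenSub (globalBasis S) H) (p : ℕ) [Fact p.Prime]
    (hpS : pPrime p ∈ S)
    (hP : ∀ e : H1 (basis S H) (resH H (Defs.PrinS S)), p • e = 0 → e = 0)
    (LTS LToff : H2 (basis S H) (resH H (Defs.KS S)) → Prop)
    (hoff : ∀ x : H2 (basis S H) (resH H (Defs.OS S)),
      LToff ((Mor.ofHom (basis S H) ((Rep.resFunctor H.subtype).map (Defs.osToKS S))).h2 x))
    (hbn : ∀ z : H2 (basis S H) (resH H (Defs.KS S)), (∃ n : ℕ, p ^ n • z = 0) → LTS z →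
      LToff z → z = 0)
    (Sha : AddSubgroup (H2 (basis S H) (resH H (Defs.muP p))))
    (hSha : ∀ y ∈ Sha, LTS ((Mor.ofHom (basis S H)
      ((Rep.resFunctor H.subtype).map (Defs.osToKS S))).h2
        ((Mor.ofHom (basis S H) ((Rep.resFunctor H.subtype).map (UnitsLES.muToOS S p hpS))).h2 y))) :
    Sha ≤ (δ₁ (UnitsLES.kummerSES_open p hpS hH)).toAddMonoidHom.range := by
  intro y hy
  have hx : (Mor.ofHom (basis S H) ((Rep.resFunctor H.subtype).map (UnitsLES.muToOS S p hpS))).h2 y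
      = 0 := by
    refine hasse hH p hP LTS LToff hoff hbn _ ⟨1, ?_⟩ (hSha y hy)
    have h0 : p • y = 0 := by
      rw [← Nat.cast_smul_eq_nsmul ℤ]
      exact H2_smul_eq_zero _ _ (p : ℤ) (muP_zsmul p) y
    rw [pow_one, ← map_nsmul, h0, map_zero]
  exact (exact_δ₁_h2 (UnitsLES.kummerSES_open p hpS hH) y).1 hx

end

end Fermat.Agent.S55.Middle.HasseInst
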