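/-
S55 / MIDDLE block, row M.hasse (helper94): the COUNT `#Ш²(μ_p) ≤ #H¹_LC(H; O_S)[p]`
(= item (7)[c] of MIDDLE DECISIONS v2), WITHOUT the class group.

* `card_range_le_of_torsion` : pure algebra.  `A` a torsion abelian group with finite `A[p]`; a
  homomorphism out of `A` killing `pA` has finite image of order `≤ #A[p]`  (`#(A/pA) ≤ #A[p]`:
  any finitely many classes live in a finite subgroup `F`, where `#(F/pF) = #F[p]`).
* `H1_torsion` : `H¹_LC` of any module is a torsion group (a class of level `V` is killed by the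
  index of `V`).
* `h1_ofHom_eq_smul` : a coefficient endomorphism which is multiplication by `n` induces
  multiplication by `n` on `H¹_LC`.
* `card_sha2_le` : for open `H ≤ GQ`: the `S`-locally trivial classes `Sha ≤ H²_LC(H; μ_p)` form a
  finite group of order `≤ #H¹_LC(H; O_S)[p]`, given the inputs of `HasseInst.sha_le_range` and the
  finiteness of `H¹_LC(H; μ_p)` (row M.fin).
-/
import Fermat.Agent.S55.Middle.HasseInst

set_option autoImplicit false

open CategoryTheory groupCohomology ExtCitation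

namespace Fermat.Agent.S55.Middle.HasseCount

open Fermat.Agent.S55.Formal Fermat.Agent.S55.Formal.PreludeLC
open Fermat.Agent.S55.Formal.CoefExactSmooth
open Fermat.Agent.S55.Middle

section Algebra

variable {A : Type*} [AddCommGroup A] {B : Type*} [AddCommGroup B]

/-- a finitely generated subgroup of a torsion abelian group is finite -/
theorem finite_closure_of_torsion (htors : ∀ a : A, ∃ n : ℕ, 0 < n ∧ n • a = 0) (s : Finset A) :
    Finite ↥(AddSubgroup.closure (s : Set A)) := by
  haveI : AddGroup.FG ↥(AddSubgroup.closure (s : Set A)) :=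
    (AddGroup.fg_iff_addSubgroup_fg _).mpr ⟨s, rfl⟩
  apply AddCommGroup.finite_of_fg_isAddTorsion
  intro x
  obtain ⟨n, hn, hx⟩ := htors (x : A)
  rw [isOfFinAddOrder_iff_nsmul_eq_zero]
  exact ⟨n, hn, Subtype.ext (by simpa using hx)⟩

/-- **`#(A/pA) ≤ #A[p]` for a torsion abelian group with finite `p`-torsion**, in the form: a
homomorphism `k` out of `A` killing `pA` has finite image of order at most `#A[p]`. -/
theorem card_range_le_of_torsion (p : ℕ) (htors : ∀ a : A, ∃ n : ℕ, 0 < n ∧ n • a = 0)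
    [Finite {a : A // p • a = 0}] (k : A →+ B) (hk : ∀ a : A, k (p • a) = 0) :
    Finite k.range ∧ Nat.card k.range ≤ Nat.card {a : A // p • a = 0} := by
  classical
  set N := Nat.card {a : A // p • a = 0} with hN
  have key : ∀ t : Finset k.range, t.card ≤ N := by
    intro t
    -- choose preimages
    have hpre : ∀ y : k.range, ∃ a : A, k a = (y : B) := fun y => y.2
    choose pre hpre' using hpre
    set s : Finset A := t.image pre with hs
    set F := AddSubgroup.closure (s : Set A) with hF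
    haveI : Finite ↥F := finite_closure_of_torsion htors s
    set kF : ↥F →+ B := k.comp F.subtype with hkF
    -- `#range kF ≤ #F[p] ≤ N`
    have h1 : (nsmulAddMonoidHom (α := ↥F) p).range ≤ kF.ker := by
      rintro _ ⟨a, rfl⟩
      rw [AddMonoidHom.mem_ker]
      show k ((p • a : ↥F) : A) = 0
      rw [AddSubgroup.coe_nsmul]
      exact hk _
    have h2 : kF.ker.index ∣ (nsmulAddMonoidHom (α := ↥F) p).range.index :=
      AddSubgroup.index_dvd_of_le h1
    have h3 : (nsmulAddMonoidHom (α := ↥F) p).range.index =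
        Nat.card (nsmulAddMonoidHom (α := ↥F) p).ker := Hasse.index_range_nsmul_eq_card_ker p
    have h4 : Nat.card (nsmulAddMonoidHom (α := ↥F) p).ker ≤ N := by
      refine Nat.card_le_card_of_injective
        (fun x => (⟨((x : ↥F) : A), by
          have h0 : p • (x : ↥F) = 0 := x.2
          have h := congrArg (Subtype.val : ↥F → A) h0
          rw [AddSubgroup.coe_nsmul] at h
          exact h⟩ : {a : A // p • a = 0})) ?_
      intro x y hxy
      apply Subtype.ext
      apply Subtype.ext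
      have := congrArg (Subtype.val : {a : A // p • a = 0} → A) hxy
      exact this
    have h5 : Nat.card kF.range = kF.ker.index := (AddSubgroup.index_ker kF).symm
    have hpos : 0 < Nat.card (nsmulAddMonoidHom (α := ↥F) p).ker := Nat.card_pos
    have h6 : Nat.card kF.range ≤ N := by
      rw [h5]
      exact (Nat.le_of_dvd (h3 ▸ hpos) h2).trans (h3 ▸ h4)
    -- `t` injects into `range kF`
    have hmem : ∀ y ∈ t, (y : B) ∈ kF.range := by
      intro y hy
      refine ⟨⟨pre y, AddSubgroup.subset_closure ?_⟩, hpre' y⟩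
      exact Finset.mem_coe.2 (Finset.mem_image_of_mem pre hy)
    haveI : Finite kF.range := by
      exact Finite.of_surjective (fun x : ↥F => (⟨kF x, ⟨x, rfl⟩⟩ : kF.range))
        (by rintro ⟨_, x, rfl⟩; exact ⟨x, rfl⟩)
    have h7 : t.card ≤ Nat.card kF.range := by
      rw [← Nat.card_eq_finsetCard]
      refine Nat.card_le_card_of_injective
        (fun y : t => (⟨((y : k.range) : B), hmem y.1 y.2⟩ : kF.range)) ?_
      intro x y hxy
      apply Subtype.ext
      apply Subtype.ext
      have := congrArg (Subtype.val : kF.range → B) hxy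
      exact this
    exact h7.trans h6
  let _ : Fintype k.range := fintypeOfFinsetCardLe N key
  refine ⟨inferInstance, ?_⟩
  rw [Nat.card_eq_fintype_card]
  exact key Finset.univ

end Algebra

section Torsion

variable {k : Type} [CommRing k] {G : Type} [Group G] (𝒰 : NBasis G) (M : Rep.{0, 0, 0} k G)

lemma out_eq_mul' (V : Subgroup G) (g : G) :
    ∃ s ∈ V, (QuotientGroup.mk g : G ⧸ V).out = g * s := by
  refine ⟨g⁻¹ * (QuotientGroup.mk g : G ⧸ V).out, ?_, by group⟩
  exact QuotientGroup.eq.mp (QuotientGroup.out_eq' _).symm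

/-- an LC `1`-cocycle of level `V` times the index of `V` is an LC coboundary -/
theorem exists_dC₀_eq_index_smul (f : ↥(C₁ 𝒰 M)) (hf : dC₁ 𝒰 M f = 0) :
    ∃ n : ℕ, 0 < n ∧ ∃ m : ↥(C₀ 𝒰 M), dC₀ 𝒰 M m = (n : k) • f := by
  classical
  obtain ⟨f, V, hV, hlev⟩ := f
  haveI : V.Normal := 𝒰.normal hV
  haveI : V.FiniteIndex := 𝒰.finiteIndex hV
  haveI : Finite (G ⧸ V) := Subgroup.finite_quotient_of_finiteIndex
  have : Fintype (G ⧸ V) := Fintype.ofFinite _
  have hf' : (d₁₂ M).hom f = 0 := congrArg Subtype.val hf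
  have hcoc : ∀ g h : G, f (g * h) = M.ρ g (f h) + f g := by
    intro g h
    have := congrFun hf' (g, h)
    rw [d₁₂_hom_apply] at this
    have h0 : M.ρ g (f h) - f (g * h) + f g = 0 := this
    have h2 : M.ρ g (f h) + f g - f (g * h) = 0 := by
      rw [← h0]; abel
    exact (sub_eq_zero.1 h2).symm
  set m0 : M := ∑ x : G ⧸ V, f x.out with hm0
  have hshift : ∀ g : G, ∑ x : G ⧸ V, f (g * x.out) = m0 := by
    intro g
    have step : ∀ x : G ⧸ V, f (g * x.out) = f ((QuotientGroup.mk g : G ⧸ V) * x).out := by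
      intro x
      obtain ⟨s, hs, hout⟩ := out_eq_mul' V (g * x.out)
      have hmk : (QuotientGroup.mk (g * x.out) : G ⧸ V) = (QuotientGroup.mk g : G ⧸ V) * x := by
        rw [QuotientGroup.mk_mul, QuotientGroup.out_eq']
      rw [hmk] at hout
      rw [hout, (hlev s hs _).1]
    calc ∑ x : G ⧸ V, f (g * x.out)
        = ∑ x : G ⧸ V, f ((QuotientGroup.mk g : G ⧸ V) * x).out :=
          Finset.sum_congr rfl fun x _ => step x
      _ = m0 := Equiv.sum_comp (Equiv.mulLeft (QuotientGroup.mk g : G ⧸ V)) fun y => f y.out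
  have hmain : ∀ g : G, (Fintype.card (G ⧸ V) : k) • f g = M.ρ g (-m0) - (-m0) := by
    intro g
    have h1 : m0 = M.ρ g m0 + (Fintype.card (G ⧸ V) : k) • f g := by
      calc m0 = ∑ x : G ⧸ V, f (g * x.out) := (hshift g).symm
        _ = ∑ x : G ⧸ V, (M.ρ g (f x.out) + f g) := by simp only [hcoc g]
        _ = M.ρ g m0 + (Fintype.card (G ⧸ V) : k) • f g := by
          rw [Finset.sum_add_distrib, Finset.sum_const, Finset.card_univ, hm0, map_sum,
            Nat.cast_smul_eq_nsmul]
    rw [map_neg]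
    have : (Fintype.card (G ⧸ V) : k) • f g = m0 - M.ρ g m0 := by
      rw [eq_sub_iff_add_eq, add_comm]
      exact h1.symm
    rw [this]; abel
  have hm0fix : ∀ s ∈ V, M.ρ s (-m0) = -m0 := by
    intro s hs
    rw [map_neg, hm0, map_sum]
    congr 1
    exact Finset.sum_congr rfl fun x _ => (hlev s hs _).2
  refine ⟨Fintype.card (G ⧸ V), Fintype.card_pos, ⟨-m0, V, hV, hm0fix⟩, ?_⟩
  apply Subtype.ext
  rw [dC₀_coe]
  funext g
  show (d₀₁ M).hom (-m0) g = (Fintype.card (G ⧸ V) : k) • f g
  rw [d₀₁_hom_apply, hmain g]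

/-- **`H¹_LC` is a torsion group.** -/
theorem H1_torsion (x : H1 𝒰 M) : ∃ n : ℕ, 0 < n ∧ n • x = 0 := by
  obtain ⟨f, hf, rfl⟩ := Hmid.exists_of x
  obtain ⟨n, hn, m, hm⟩ := exists_dC₀_eq_index_smul 𝒰 M f hf
  refine ⟨n, hn, ?_⟩
  rw [← Nat.cast_smul_eq_nsmul k, ← Hmid.of_smul, Hmid.of_eq_zero_iff]
  exact ⟨m, hm⟩

end Torsion

section Smul

variable {k : Type} [CommRing k] {G : Type} [Group G] (𝒰 : NBasis G) {M : Rep.{0, 0, 0} k G}

/-- a coefficient endomorphism which is multiplication by `c` induces multiplication by `c` on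
`H¹_LC` -/
theorem h1_ofHom_eq_smul (φ : M ⟶ M) (c : k) (hφ : ∀ m : M, φ.hom m = c • m) (x : H1 𝒰 M) :
    (Mor.ofHom 𝒰 φ).h1 x = c • x := by
  obtain ⟨f, hf, rfl⟩ := Hmid.exists_of x
  rw [← Hmid.of_smul]
  have h0 : (Mor.ofHom 𝒰 φ).c₁ f = c • f := by
    apply Subtype.ext
    funext g
    exact hφ _
  have h1 : (Mor.ofHom 𝒰 φ).h1 (Hmid.of f hf) = Hmid.of ((Mor.ofHom 𝒰 φ).c₁ f) (by
      have := LinearMap.congr_fun (Mor.ofHom 𝒰 φ).c₂_dC₁ f
      simp only [LinearMap.comp_apply] at this
      rw [← this, hf, map_zero]) := rfl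
  rw [h1]
  simp only [h0]

end Smul

noncomputable section Count

variable {S : Finset Nat.Primes} {H : Subgroup Defs.GQ}

open HasseInst

/-- `powOS S n` is multiplication by `n` -/
theorem powOS_hom_apply (n : ℕ) (x : Defs.OS S) : (UnitsLES.powOS S n).hom x = (n : ℤ) • x := rfl

/-- **(7)[c]**: `#Ш²(μ_p) ≤ #H¹_LC(H; O_S)[p]`. -/
theorem card_sha2_le (hH : Defs.IsOpenSub (globalBasis S) H) (p : ℕ) [Fact p.Prime]
    (hpS : pPrime p ∈ S)
    (hfin : Finite (H1 (basis S H) (resH H (Defs.muP p))))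
    (hP : ∀ e : H1 (basis S H) (resH H (Defs.PrinS S)), p • e = 0 → e = 0)
    (LTS LToff : H2 (basis S H) (resH H (Defs.KS S)) → Prop)
    (hoff : ∀ x : H2 (basis S H) (resH H (Defs.OS S)),
      LToff ((Mor.ofHom (basis S H) ((Rep.resFunctor H.subtype).map (Defs.osToKS S))).h2 x))
    (hbn : ∀ z : H2 (basis S H) (resH H (Defs.KS S)), (∃ n : ℕ, p ^ n • z = 0) → LTS z →
      LToff z → z = 0)
    (Sha : AddSubgroup (H2 (basis S H) (resH H (Defs.muP p))))
    (hSha : ∀ y ∈ Sha, LTS ((Mor.ofHom (basis S H)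
      ((Rep.resFunctor H.subtype).map (Defs.osToKS S))).h2
        ((Mor.ofHom (basis S H) ((Rep.resFunctor H.subtype).map (UnitsLES.muToOS S p hpS))).h2 y))) :
    Finite {a : H1 (basis S H) (resH H (Defs.OS S)) // p • a = 0} ∧ Finite Sha ∧
      Nat.card Sha ≤ Nat.card {a : H1 (basis S H) (resH H (Defs.OS S)) // p • a = 0} := by
  set hK := UnitsLES.kummerSES_open p hpS hH with hKdef
  -- the map induced by `powOS` is multiplication by `p`
  have hpow : ∀ a : H1 (basis S H) (resH H (Defs.OS S)),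
      (Mor.ofHom (basis S H) ((Rep.resFunctor H.subtype).map (UnitsLES.powOS S p))).h1 a = p • a := by
    intro a
    rw [h1_ofHom_eq_smul (basis S H) ((Rep.resFunctor H.subtype).map (UnitsLES.powOS S p)) (p : ℤ)
      (fun m => rfl) a]
    exact Nat.cast_smul_eq_nsmul ℤ p a
  -- `H¹(O)[p]` is finite: it is a quotient of `H¹(μ_p)`
  have hfinT : Finite {a : H1 (basis S H) (resH H (Defs.OS S)) // p • a = 0} := by
    haveI := hfin
    have hsurj : ∀ a : {a : H1 (basis S H) (resH H (Defs.OS S)) // p • a = 0},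
        ∃ y : H1 (basis S H) (resH H (Defs.muP p)),
          (Mor.ofHom (basis S H)
            ((Rep.resFunctor H.subtype).map (UnitsLES.muToOS S p hpS))).h1 y = a.1 := by
      intro a
      have h0 : (Mor.ofHom (basis S H)
          ((Rep.resFunctor H.subtype).map (UnitsLES.powOS S p))).h1 a.1 = 0 := by
        rw [hpow, a.2]
      exact (exact_h1_h1 hK a.1).1 h0
    choose y hy using hsurj
    exact Finite.of_injective y (fun a b hab => Subtype.ext (by rw [← hy a, ← hy b, hab]))
  haveI := hfinT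
  -- the Kummer connecting map kills `pA`
  have hk : ∀ a : H1 (basis S H) (resH H (Defs.OS S)), (δ₁ hK).toAddMonoidHom (p • a) = 0 := by
    intro a
    rw [← hpow a]
    exact (exact_h1_δ₁ hK _).2 ⟨a, rfl⟩
  obtain ⟨hfr, hcard⟩ := card_range_le_of_torsion p (H1_torsion (basis S H) (resH H (Defs.OS S)))
    (δ₁ hK).toAddMonoidHom hk
  have hle : Sha ≤ (δ₁ hK).toAddMonoidHom.range :=
    sha_le_range hH p hpS hP LTS LToff hoff hbn Sha hSha
  haveI := hfr
  have hinj : Function.Injective (fun y : Sha => (⟨y.1, hle y.2⟩ : (δ₁ hK).toAddMonoidHom.range)) :=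
    fun a b hab => Subtype.ext (congrArg (fun z : (δ₁ hK).toAddMonoidHom.range => z.1) hab)
  exact ⟨hfinT, Finite.of_injective _ hinj, (Nat.card_le_card_of_injective _ hinj).trans hcard⟩

end Count

end Fermat.Agent.S55.Middle.HasseCount
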