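import Fermat.Agent.S55.Middle.HbnCoker
import Fermat.Agent.S55.Global.AdmissibleQExists

/-!
# S55 / Middle, row `M.hbnInj`: `Blocks3.HasseH2 p` from `(G-i)` and row `G.localProd` only

helper56's `Global/AdmissibleQExists.exists_admissibleQ` discharges the hypothesis
`HasseH2.AdmissibleQExists`; the only remaining input besides `(G-i)` is `HasseH2.LocalProdZero`
(row `G.localProd`, helper1).

Also: the "existence" packaging used by Middle (C4): every class of `H²(Gal(L/K), Lˣ)` is a `T`-unit
class for an ADMISSIBLE `T` containing any prescribed finite set of rational primes.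
-/

set_option autoImplicit false

open CategoryTheory groupCohomology NumberField

namespace Fermat.Agent.S55.Middle.HasseH2Adm

open Fermat.Agent.S55.Global.Objects Fermat.Agent.S55.Global.Objects2
open Fermat.Agent.S55.Global.Blocks2 Fermat.Agent.S55.Global.Blocks3
open Fermat.Agent.S55.Middle

/-- `HasseH2.AdmissibleQExists` holds (helper56, row `G.admissible`, interface v3). -/
theorem admissibleQExists : HasseH2.AdmissibleQExists :=
  fun K L _ _ _ _ _ _ hp T₀ => Global.AdmissibleQExists.exists_admissibleQ K L hp T₀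

/-- **(HBN-inj) = `Blocks3.HasseH2 p`** from `(G-i)` and row `G.localProd`. -/
theorem hasseH2 {p : ℕ} (h1 : H1Vanish p) (hLP : HasseH2.LocalProdZero) : HasseH2 p :=
  HasseH2.hasseH2_of_H1Vanish h1 hLP admissibleQExists

variable {K : Type} [Field K] [NumberField K]
variable {L : Type} [Field L] [NumberField L] [Algebra K L]

/-- Every class of `H²(Gal(L/K), Lˣ)` is a `T`-unit class for some `T ⊇ T₀` with
`Blocks2.Setting p K L T`. -/
theorem exists_setting_isTUnitClass {p : ℕ} (hp : p.Prime) (hodd : p ≠ 2)
    (hζ : ∃ ζ : K, IsPrimitiveRoot ζ p) [IsGalois K L]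
    (hpp : ∃ n : ℕ, Module.finrank K L = p ^ n) (T₀ : Finset Nat.Primes)
    (z : groupCohomology (Rep.ofAlgebraAutOnUnits K L) 2) :
    ∃ T : Finset Nat.Primes, T₀ ⊆ T ∧ Setting p K L T ∧ HbnCoker.IsTUnitClass K L T z := by
  classical
  obtain ⟨T₁, hT₁⟩ := HbnCoker.exists_finset_isTUnitClass (K := K) (L := L) z
  obtain ⟨T, hT, hS⟩ := Global.AdmissibleQExists.exists_setting K L hp hodd hζ hpp (T₀ ∪ T₁)
  exact ⟨T, Finset.union_subset_left hT, hS, hT₁ T (Finset.union_subset_right hT)⟩

end Fermat.Agent.S55.Middle.HasseH2Adm
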