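import Fermat.Agent.S55.Middle.HasseH2Final
import Fermat.Agent.S55.Global.CyclicLayerFinal
import Fermat.Agent.S55.Global.DescentClosed

/-!
# S55: `(G-i)` and the Hasse principle `Blocks3.HasseH2 p`, UNCONDITIONAL

* `h1Vanish p : Blocks2.H1Vanish p`  — from `CyclicLayerFinal.h1Vanish_of_descent` (helper31: both
  inequalities on main) and `DescentClosed.descentFixedQ` (helper38).
* `hasseH2 p : Blocks3.HasseH2 p`    — from `HasseH2Final.hasseH2`.
-/

set_option autoImplicit false

namespace Fermat.Agent.S55.Middle.HasseH2Closed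

open Fermat.Agent.S55.Global

/-- **(G-i)** `H¹(Gal(L/K), C_{L,T}) = 0`, unconditional. -/
theorem h1Vanish (p : ℕ) : Blocks2.H1Vanish p :=
  CyclicLayerFinal.h1Vanish_of_descent (DescentClosed.descentFixedQ p)

/-- **(G-ii, weak form)** `card H²(Gal(L/K), C_{L,T}) ∣ [L:K]`, unconditional. -/
theorem h2CardDvd (p : ℕ) : Blocks2.H2CardDvd p :=
  CyclicLayerFinal.h2CardDvd_of_descent (DescentClosed.descentFixedQ p)

/-- **(HBN-inj)** = `Blocks3.HasseH2 p`, unconditional. -/
theorem hasseH2 (p : ℕ) : Blocks3.HasseH2 p :=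
  HasseH2Final.hasseH2 (h1Vanish p)

end Fermat.Agent.S55.Middle.HasseH2Closed
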