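import Fermat.Agent.S55.Middle.HasseH2Adm
import Fermat.Agent.S55.Global.SemilocalH3Jn

/-!
# S55 / Middle, row `M.hbnInj`, FINAL: `Blocks3.HasseH2 p` from `(G-i)` alone

`HasseH2.LocalProdZero` is proved from helper49's product decomposition
`SemilocalH3Jn.isProdDecomp_projPlace` (`L ⊗[ℚ] ℚ_T = ∏_{(q,𝔪)} L ⊗[K] K_𝔪`, built on helper1's
`LocalProdAbs` / `LocalProdTensor`), so

  `hasseH2 : Blocks2.H1Vanish p → Blocks3.HasseH2 p`.
-/

set_option autoImplicit false
set_option linter.unusedSectionVars false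
set_option linter.style.haveILetI false

open CategoryTheory CategoryTheory.Limits groupCohomology NumberField TensorProduct

namespace Fermat.Agent.S55.Middle.HasseH2Final

open Fermat.Agent.S55.Global.Objects Fermat.Agent.S55.Global.Objects2
open Fermat.Agent.S55.Global.Blocks2 Fermat.Agent.S55.Global.Blocks3
open Fermat.Agent.S55.Global Fermat.Agent.S55.Global.LocalProdAbs
open Fermat.Agent.S55.Global.SemilocalH3Jn
open Fermat.Agent.S55.Middle

section abstractPlaces

variable (K L : Type) [Field K] [NumberField K] [Field L] [NumberField L] [Algebra K L]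
variable {ι : Type} [Fintype ι] [DecidableEq ι] (A : ι → Type) [∀ i, CommRing (A i)]
  [∀ i, Algebra K (A i)] (R : Type) [CommRing R] [Algebra ℚ R]
  (π : ∀ i, L ⊗[ℚ] R →+* L ⊗[K] A i) (φ : ∀ i, R → A i)

/-- The `i`-th projection `(L ⊗[ℚ] R)ˣ ⟶ (L ⊗[K] A i)ˣ` as a morphism of `Gal(L/K)`-modules. -/
noncomputable def projRep
    (hφ : ∀ (i : ι) (l : L) (r : R), π i (l ⊗ₜ[ℚ] r) = l ⊗ₜ[K] φ i r) (i : ι) :
    Rep.res (resHom K L) (JRep ℚ L R) ⟶ JRep K L (A i) :=
  letI := actQ K L R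
  LocalProdAbs.proj (G := L ≃ₐ[K] L) (R := L ⊗[ℚ] R) (B := fun i => L ⊗[K] A i) (π := π)
    (fun i g u => Units.ext (smul_of_tmul K L A R π φ i (hφ i) g (u : L ⊗[ℚ] R))) i

theorem projRep_apply
    (hφ : ∀ (i : ι) (l : L) (r : R), π i (l ⊗ₜ[ℚ] r) = l ⊗ₜ[K] φ i r) (i : ι)
    (a : Rep.res (resHom K L) (JRep ℚ L R)) :
    (projRep K L A R π φ hφ i).hom a =
      Additive.ofMul (Units.map (π i : L ⊗[ℚ] R →* L ⊗[K] A i) (Additive.toMul a)) := rfl

/-- A class of `Hⁿ(Gal(L/K), (L ⊗[ℚ] R)ˣ)` all of whose components in the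
`Hⁿ(Gal(L/K), (L ⊗[K] A i)ˣ)` vanish is zero. -/
theorem eq_zero_of_places (hπ : IsProdDecomp π)
    (hφ : ∀ (i : ι) (l : L) (r : R), π i (l ⊗ₜ[ℚ] r) = l ⊗ₜ[K] φ i r) (n : ℕ)
    (y : groupCohomology (Rep.res (resHom K L) (JRep ℚ L R)) n)
    (hy : ∀ i, groupCohomology.map (MonoidHom.id (L ≃ₐ[K] L)) (projRep K L A R π φ hφ i) n y = 0) :
    y = 0 := by
  letI := actQ K L R
  have h := eq_zero_of_proj (G := L ≃ₐ[K] L) (R := L ⊗[ℚ] R) (B := fun i => L ⊗[K] A i) (π := π) hπ
    (fun i g u => Units.ext (smul_of_tmul K L A R π φ i (hφ i) g (u : L ⊗[ℚ] R))) n y hy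
  exact h

end abstractPlaces

section main

variable (K L : Type) [Field K] [NumberField K] [Field L] [NumberField L] [Algebra K L]
  [IsGalois K L]
variable (T : Finset Nat.Primes)

/-- `x ⊗ 1 ↦ x ⊗ 1`: the place-component of `LxToJn` is `LxToJ`. -/
theorem LxToJn_comp_projRep [Fintype (PlacesT K T)] [DecidableEq (PlacesT K T)]
    (x : PlacesT K T) :
    HasseH2.LxToJn K L T ≫
      projRep K L (fun x : PlacesT K T => Kloc K (x.1 : Nat.Primes) x.2.asIdeal) (QT T)
        (projPlace K L T) (fun x f => Ideal.Quotient.mk x.2.asIdeal ((1 : K) ⊗ₜ[ℚ] f x.1))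
        (fun x l f => projPlace_tmul K L T x l f) x =
      LxToJ K L (Kloc K (x.1 : Nat.Primes) x.2.asIdeal) := by
  apply Rep.hom_ext
  apply Representation.IntertwiningMap.ext
  refine LinearMap.ext fun a => ?_
  apply congrArg Additive.ofMul
  apply Units.ext
  have h := projPlace_tmul K L T x ((Additive.toMul a : Lˣ) : L) (1 : QT T)
  have h1 : (Ideal.Quotient.mk x.2.asIdeal ((1 : K) ⊗ₜ[ℚ] ((1 : QT T) x.1)) :
      Kloc K (x.1 : Nat.Primes) x.2.asIdeal) = 1 := by
    rw [Pi.one_apply, ← Algebra.TensorProduct.one_def, map_one]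
  rw [h1] at h
  exact h

/-- **Row `G.localProd`, consumer form.** -/
theorem localProdZero : HasseH2.LocalProdZero := by
  intro K L _ _ _ _ _ _ T x hloc
  classical
  haveI : ∀ q : T, Finite (PlacesQ K (q : Nat.Primes)) := fun q => finite_PlacesQ K q
  haveI : Finite (PlacesT K T) := inferInstance
  letI := Fintype.ofFinite (PlacesT K T)
  apply eq_zero_of_places K L (fun x : PlacesT K T => Kloc K (x.1 : Nat.Primes) x.2.asIdeal)
    (QT T) (projPlace K L T)
    (fun x f => Ideal.Quotient.mk x.2.asIdeal ((1 : K) ⊗ₜ[ℚ] f x.1))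
    (isProdDecomp_projPlace K L T) (fun x l f => projPlace_tmul K L T x l f) 2
  intro i
  have h := hloc (i.1 : Nat.Primes) i.2.asIdeal i.2.isMaximal
  unfold locH at h
  rw [← LxToJn_comp_projRep K L T i, groupCohomology.map_id_comp] at h
  exact h

end main

/-- **(HBN-inj) = `Blocks3.HasseH2 p`** from `(G-i)` alone. -/
theorem hasseH2 {p : ℕ} (h1 : H1Vanish p) : HasseH2 p :=
  HasseH2Adm.hasseH2 h1 localProdZero

end Fermat.Agent.S55.Middle.HasseH2Final
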