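import Mathlib

/-!
# S55 / Middle, rows `M.hbnInj`, `M.hbnCoker`: abstract homological core

For a short exact sequence `0 → E → J → C → 0` of `G`-modules:

* `map_injective_of_isZero_H1` : if `H¹(G, C) = 0` then `H²(G, E) → H²(G, J)` is injective;
* `ker_map_g_eq_range_map_f`   : `ker (H²(G, J) → H²(G, C)) = range (H²(G, E) → H²(G, J))`;
* `exists_functional`          : if `H²(G, C)` is finite cyclic of order `n`, there is a
  `ℤ`-linear `Λ : H²(G, J) → ZMod n` with `ker Λ = range (H²(G, E) → H²(G, J))`.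
* `shortExact_subtype_mkQ`     : `0 → W → A → A ⧸ W → 0` is short exact in `Rep k G`.
-/

set_option autoImplicit false

namespace Fermat.Agent.S55.Middle.HbnAbs

open CategoryTheory CategoryTheory.Limits groupCohomology Rep

universe u

variable {k G : Type u} [CommRing k] [Group G]

/-- exactness of a short complex of representations, elementwise. -/
theorem exact_of_forall (S : ShortComplex (Rep k G))
    (h : ∀ x : S.X₂, S.g.hom x = 0 → ∃ y : S.X₁, S.f.hom y = x) : S.Exact := by
  rw [← ShortComplex.exact_map_iff_of_faithful S (forget₂ (Rep k G) (ModuleCat k)),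
    ShortComplex.moduleCat_exact_iff]
  exact h

/-- `0 → W → A → A ⧸ W → 0` is short exact. -/
theorem shortExact_subtype_mkQ (A : Rep k G) (W : Submodule k A)
    (hW : ∀ g, W ≤ W.comap (A.ρ g)) :
    (ShortComplex.mk (Rep.subtype A W hW) (Rep.mkQ A W hW) (by
      ext x
      exact (Submodule.Quotient.mk_eq_zero W).2 x.2)).ShortExact := by
  refine ShortComplex.ShortExact.mk' (exact_of_forall _ ?_) ?_ ?_
  · intro x hx
    exact ⟨⟨x, (Submodule.Quotient.mk_eq_zero W).1 hx⟩, rfl⟩
  · rw [Rep.mono_iff_injective]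
    exact W.injective_subtype
  · rw [Rep.epi_iff_surjective]
    exact W.mkQ_surjective

variable {X : ShortComplex (Rep k G)} (hX : X.ShortExact)

include hX

/-- `H²(G, X₁) → H²(G, X₂)` is injective when `H¹(G, X₃) = 0`. -/
theorem map_injective_of_isZero_H1 (h : IsZero (groupCohomology X.X₃ 1)) :
    Function.Injective (groupCohomology.map (MonoidHom.id G) X.f 2).hom := by
  have hex := mapShortComplex₁_exact hX (i := 1) (j := 2) rfl
  rw [ShortComplex.moduleCat_exact_iff] at hex
  rw [injective_iff_map_eq_zero]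
  intro x hx
  obtain ⟨y, hy⟩ := hex x hx
  have hsub : Subsingleton ↑(groupCohomology X.X₃ 1) := ModuleCat.subsingleton_of_isZero h
  have hy0 : y = 0 := Subsingleton.elim (α := ↑(groupCohomology X.X₃ 1)) y 0
  rw [← hy, hy0]
  exact map_zero _

/-- exactness of `H²(G, X₁) → H²(G, X₂) → H²(G, X₃)`, elementwise. -/
theorem ker_map_g_eq_range_map_f :
    LinearMap.ker (groupCohomology.map (MonoidHom.id G) X.g 2).hom =
      LinearMap.range (groupCohomology.map (MonoidHom.id G) X.f 2).hom := by
  have hex := mapShortComplex₂_exact hX 2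
  rw [ShortComplex.moduleCat_exact_iff_range_eq_ker] at hex
  exact hex.symm

omit hX in
/-- A finite cyclic group of order `n` (generated by `u`) is isomorphic to `ZMod n`. -/
theorem exists_addEquiv_zmod {H : Type*} [AddCommGroup H] (n : ℕ) [NeZero n]
    (hcard : Nat.card H = n) (u : H) (hu : ∀ x : H, ∃ m : ℤ, x = m • u) :
    ∃ e : H ≃+ ZMod n, e u = 1 := by
  have hfin : Finite H := Nat.finite_of_card_ne_zero (by rw [hcard]; exact NeZero.ne n)
  have hnu : (n : ℤ) • u = 0 := by
    rw [natCast_zsmul, ← hcard]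
    exact card_nsmul_eq_zero'
  let f : ZMod n →+ H := ZMod.lift n ⟨(zmultiplesHom H) u, by simpa using hnu⟩
  have hf1 : f 1 = u := by
    have := ZMod.lift_coe n ⟨(zmultiplesHom H) u, by simpa using hnu⟩ (1 : ℤ)
    simpa [f] using this
  have hfint : ∀ m : ℤ, f (m : ZMod n) = m • u := by
    intro m
    have := ZMod.lift_coe n ⟨(zmultiplesHom H) u, by simpa using hnu⟩ m
    simp [f, this]
  have hsurj : Function.Surjective f := by
    intro x
    obtain ⟨m, rfl⟩ := hu x
    exact ⟨(m : ZMod n), hfint m⟩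
  have hbij : Function.Bijective f := by
    have hc : Nat.card (ZMod n) = Nat.card H := by rw [hcard, Nat.card_zmod]
    have : Finite (ZMod n) := inferInstance
    exact (Function.Surjective.bijective_of_nat_card_le hsurj (le_of_eq hc))
  let e : ZMod n ≃+ H := AddEquiv.ofBijective f hbij
  refine ⟨e.symm, ?_⟩
  rw [AddEquiv.symm_apply_eq]
  exact hf1.symm

/-- If `H²(G, X₃)` is cyclic of order `n`, the image of `H²(G, X₁)` in `H²(G, X₂)` is the kernel
of a homomorphism to `ZMod n`. -/
theorem exists_functional (n : ℕ) [NeZero n]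
    (hcard : Nat.card (groupCohomology X.X₃ 2) = n) (u : groupCohomology X.X₃ 2)
    (hu : ∀ x : groupCohomology X.X₃ 2, ∃ m : ℤ, x = m • u) :
    ∃ Λ : groupCohomology X.X₂ 2 →+ ZMod n,
      (∀ x, Λ x = 0 ↔ x ∈ LinearMap.range (groupCohomology.map (MonoidHom.id G) X.f 2).hom) ∧
      ∀ x, Λ x = 1 ↔ (groupCohomology.map (MonoidHom.id G) X.g 2).hom x = u := by
  obtain ⟨e, he⟩ := exists_addEquiv_zmod n hcard u hu
  refine ⟨e.toAddMonoidHom.comp
    (groupCohomology.map (MonoidHom.id G) X.g 2).hom.toAddMonoidHom, fun x => ?_, fun x => ?_⟩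
  · rw [← ker_map_g_eq_range_map_f hX, LinearMap.mem_ker]
    simp only [AddMonoidHom.coe_comp, Function.comp_apply]
    exact e.map_eq_zero_iff
  · simp only [AddMonoidHom.coe_comp, Function.comp_apply]
    rw [← he]
    exact e.injective.eq_iff

end Fermat.Agent.S55.Middle.HbnAbs
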