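import Fermat.Agent.S55.Middle.HbnCoker
import Fermat.Agent.S55.Global.Blocks4

/-!
# S55 / Middle, row `M.hbnCoker` in the form consumable from `Blocks4.H2CyclicIn` (helper34)

`HbnInjQ.hbnCoker_En` / `HbnCoker.hbnCoker_Jn` take the GLOBAL Prop `Blocks2.H2Cyclic p` as a
hypothesis, which (ruling #1926 of the Global sub-architect) stays unproved: the provable form of
(G-ii) is `Blocks4.H2CyclicIn p` (`T` admissible for a big field `M ⊇ L·F`).  Both theorems only use
the cyclicity of `H²(Gal(L/K), Cn K L T)` for the ONE triple `(K, L, T)` at hand, so here they are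
restated with that POINTWISE hypothesis, and then in the `Blocks4` form:

* `hbnCoker_En_of`, `hbnCoker_Jn_of` : from `Nat.card H²(Cn K L T) = [L:K]` and a generator `u`;
  the functional `Λ : H²(Jn K L T) →+ ZMod [L:K]` also satisfies `Λ x = 1 ↔ (JntoCn)_* x = u`;
* `hbnCoker_En_in`, `hbnCoker_Jn_in` : from `Blocks4.H2CyclicIn p` in a `Blocks4.CycloSetting`.
-/

set_option autoImplicit false

open CategoryTheory CategoryTheory.Limits groupCohomology NumberField IsDedekindDomain TensorProduct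

namespace Fermat.Agent.S55.Middle.HbnCokerIn

open Fermat.Agent.S55.Global.Objects Fermat.Agent.S55.Global.Objects2
open Fermat.Agent.S55.Global.Blocks2 Fermat.Agent.S55.Global.Blocks3
open Fermat.Agent.S55.Global.Blocks4
open Fermat.Agent.S55.Middle Fermat.Agent.S55.Middle.HasseH2 Fermat.Agent.S55.Middle.HbnCoker

section pointwise

variable {K : Type} [Field K] [NumberField K]
variable {L : Type} [Field L] [NumberField L] [Algebra K L]
variable {T : Finset Nat.Primes}

/-- **(HBN-coker), `T`-unit form**, from the cyclicity of `H²(Gal(L/K), Cn K L T)` alone. -/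
theorem hbnCoker_En_of
    (hcard : Nat.card (groupCohomology (Cn K L T) 2) = Module.finrank K L)
    (u : groupCohomology (Cn K L T) 2)
    (hu : ∀ x : groupCohomology (Cn K L T) 2, ∃ n : ℤ, x = n • u) :
    ∃ Λ : groupCohomology (Jn K L T) 2 →+ ZMod (Module.finrank K L),
      (∀ x, Λ x = 0 ↔
        x ∈ LinearMap.range
          (groupCohomology.map (A := En K L T) (MonoidHom.id (L ≃ₐ[K] L))
            (HbnInjQ.EntoJn K L T) 2).hom) ∧
      ∀ x, Λ x = 1 ↔
        (groupCohomology.map (MonoidHom.id (L ≃ₐ[K] L)) (HbnInjQ.JntoCn K L T) 2).hom x = u := by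
  have : FiniteDimensional K L := Module.Finite.of_restrictScalars_finite ℚ K L
  have : NeZero (Module.finrank K L) := ⟨Module.finrank_pos.ne'⟩
  exact HbnAbs.exists_functional (HbnInjQ.ejcn_shortExact K L T) (Module.finrank K L) hcard u hu

/-- **(HBN-coker), `T`-unit-class form**, from the cyclicity of `H²(Gal(L/K), Cn K L T)` alone. -/
theorem hbnCoker_Jn_of (hT : T.Nonempty)
    (hcard : Nat.card (groupCohomology (Cn K L T) 2) = Module.finrank K L)
    (u : groupCohomology (Cn K L T) 2)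
    (hu : ∀ x : groupCohomology (Cn K L T) 2, ∃ n : ℤ, x = n • u) :
    ∃ Λ : groupCohomology (Jn K L T) 2 →+ ZMod (Module.finrank K L),
      (∀ a, Λ a = 0 ↔ ∃ z, IsTUnitClass K L T z ∧
        (groupCohomology.map (MonoidHom.id (L ≃ₐ[K] L)) (LxToJn K L T) 2).hom z = a) ∧
      ∀ x, Λ x = 1 ↔
        (groupCohomology.map (MonoidHom.id (L ≃ₐ[K] L)) (HbnInjQ.JntoCn K L T) 2).hom x = u := by
  obtain ⟨Λ, hΛ, hΛ1⟩ := hbnCoker_En_of hcard u hu
  refine ⟨Λ, fun a => ⟨fun h => exists_isTUnitClass_of_mem_range hT ((hΛ a).1 h), ?_⟩, hΛ1⟩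
  rintro ⟨z, hz, rfl⟩
  exact (hΛ _).2 hz.mem_range

end pointwise

section cyclo

variable {K L F M : Type} [Field K] [NumberField K] [Field L] [NumberField L] [Field F]
  [NumberField F] [Field M] [NumberField M] [Algebra K L] [Algebra K F] [Algebra K M]
  [Algebra L M] [Algebra F M] [IsScalarTower K L M] [IsScalarTower K F M] [IsGalois K L]
  [IsGalois K F] {T : Finset Nat.Primes}

theorem nonempty_of_cycloSetting {p : ℕ} (hC : CycloSetting p K L F M T) : T.Nonempty := by
  obtain ⟨q, hq, -⟩ := hC.big.adm.mem_p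
  exact ⟨q, hq⟩

/-- **(HBN-coker), `T`-unit form**, from `Blocks4.H2CyclicIn p` in a `CycloSetting`. -/
theorem hbnCoker_En_in {p : ℕ} (h2 : H2CyclicIn p) (hC : CycloSetting p K L F M T) :
    ∃ Λ : groupCohomology (Jn K L T) 2 →+ ZMod (Module.finrank K L),
      ∀ x, Λ x = 0 ↔
        x ∈ LinearMap.range
          (groupCohomology.map (A := En K L T) (MonoidHom.id (L ≃ₐ[K] L))
            (HbnInjQ.EntoJn K L T) 2).hom := by
  obtain ⟨hcard, u, hu⟩ := h2 K L F M T hC
  obtain ⟨Λ, hΛ, -⟩ := hbnCoker_En_of hcard u hu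
  exact ⟨Λ, hΛ⟩

/-- **(HBN-coker), `T`-unit-class form**, from `Blocks4.H2CyclicIn p` in a `CycloSetting`. -/
theorem hbnCoker_Jn_in {p : ℕ} (h2 : H2CyclicIn p) (hC : CycloSetting p K L F M T) :
    ∃ Λ : groupCohomology (Jn K L T) 2 →+ ZMod (Module.finrank K L),
      ∀ a, Λ a = 0 ↔ ∃ z, IsTUnitClass K L T z ∧
        (groupCohomology.map (MonoidHom.id (L ≃ₐ[K] L)) (LxToJn K L T) 2).hom z = a := by
  obtain ⟨hcard, u, hu⟩ := h2 K L F M T hC
  obtain ⟨Λ, hΛ, -⟩ := hbnCoker_Jn_of (nonempty_of_cycloSetting hC) hcard u hu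
  exact ⟨Λ, hΛ⟩

end cyclo

end Fermat.Agent.S55.Middle.HbnCokerIn
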