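import Fermat.Agent.S55.Middle.HbnCokerIn
import Fermat.Agent.S55.Global.LocalProdCoh

/-!
# S55 / Middle, row `M.hbnCoker`, PLACE-WISE form (helper93)

`PlaceIdx K T = Σ q : T, MaximalSpectrum (K ⊗[ℚ] ℚ_[q])` = the places of `K` above `T`
(helper1 `Global/LocalProd`), `Hloc K L T := ∏_{x ∈ PlaceIdx K T} H²(Gal(L/K), Jloc K L x)`.

* `hbnCoker_places_of` : from cyclicity of `H²(Gal(L/K), Cn K L T)` (pointwise form of helper34):
  there is `Λ : Hloc K L T →+ ZMod [L:K]` with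
  `Λ a = 0 ↔ ∃ z, IsTUnitClass K L T z ∧ ∀ x, locH K L (Kloc K x) 2 z = a x`
  — a family of local classes at the places above `T` is the family of local components of a
  `T`-unit class iff it is killed by `Λ`;
* `hbnCoker_places_in` : the same from `Blocks4.H2CyclicIn p` in a `Blocks4.CycloSetting`;
* `single_ne_zero` : **no single support for `Λ`**: if `T`-unit classes are locally trivial off `T`
  (`(U2)`, literal shape of helper86/helper56/helper71), then by `Blocks3.NoSingleSupport p` a family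
  supported at ONE place `x₀` with nonzero component is NOT killed by `Λ`
  (this is the `hΛb₀` of `ImageLevel`, uniformly in the admissible `T`).
-/

set_option autoImplicit false
set_option linter.unusedSectionVars false

open CategoryTheory CategoryTheory.Limits groupCohomology NumberField IsDedekindDomain TensorProduct

namespace Fermat.Agent.S55.Middle.HbnCokerPlaces

open Fermat.Agent.S55.Global.Objects Fermat.Agent.S55.Global.Objects2
open Fermat.Agent.S55.Global.Blocks2 Fermat.Agent.S55.Global.Blocks3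
open Fermat.Agent.S55.Global.Blocks4
open Fermat.Agent.S55.Global.LocalProd Fermat.Agent.S55.Global.LocalProdCoh
open Fermat.Agent.S55.Middle Fermat.Agent.S55.Middle.HasseH2 Fermat.Agent.S55.Middle.HbnCoker

section pointwise

variable (K : Type) [Field K] [NumberField K]
variable (L : Type) [Field L] [NumberField L] [Algebra K L]
variable (T : Finset Nat.Primes)

/-- `∏_{x | T} H²(Gal(L/K), (L ⊗[K] K_x)ˣ)`. -/
abbrev Hloc : Type :=
  ∀ x : PlaceIdx K T, groupCohomology (Jloc K L (x.1 : Nat.Primes) x.2.asIdeal) 2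

/-- The family of local components at the places above `T` of a class of `H²(Gal(L/K), Lˣ)`. -/
noncomputable def locT (z : groupCohomology (Rep.ofAlgebraAutOnUnits K L) 2) : Hloc K L T :=
  fun x => locH K L (Kloc K (x.1 : Nat.Primes) x.2.asIdeal) 2 z

theorem cohEquivLoc_map_LxToJn (z : groupCohomology (Rep.ofAlgebraAutOnUnits K L) 2) :
    cohEquivLoc K L T 2
      ((groupCohomology.map (MonoidHom.id (L ≃ₐ[K] L)) (LxToJn K L T) 2).hom z) = locT K L T z := by
  funext x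
  exact cohEquivLoc_map_incl K L T (LxToJn K L T) (fun _ => rfl) 2 z x

variable {K L T}

/-- **(HBN-coker), place-wise form**, from the cyclicity of `H²(Gal(L/K), Cn K L T)`. -/
theorem hbnCoker_places_of (hT : T.Nonempty)
    (hcard : Nat.card (groupCohomology (Cn K L T) 2) = Module.finrank K L)
    (u : groupCohomology (Cn K L T) 2)
    (hu : ∀ x : groupCohomology (Cn K L T) 2, ∃ n : ℤ, x = n • u) :
    ∃ Λ : Hloc K L T →+ ZMod (Module.finrank K L),
      ∀ a, Λ a = 0 ↔ ∃ z, IsTUnitClass K L T z ∧ locT K L T z = a := by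
  obtain ⟨Λ₀, hΛ₀, -⟩ := HbnCokerIn.hbnCoker_Jn_of hT hcard u hu
  refine ⟨Λ₀.comp (cohEquivLoc K L T 2).symm.toAddMonoidHom, fun a => ?_⟩
  have h1 : (Λ₀.comp (cohEquivLoc K L T 2).symm.toAddMonoidHom) a =
      Λ₀ ((cohEquivLoc K L T 2).symm a) := rfl
  rw [h1, hΛ₀]
  constructor
  · rintro ⟨z, hz, hza⟩
    refine ⟨z, hz, ?_⟩
    rw [← cohEquivLoc_map_LxToJn, hza, AddEquiv.apply_symm_apply]
  · rintro ⟨z, hz, hza⟩
    refine ⟨z, hz, ?_⟩
    rw [← hza, ← cohEquivLoc_map_LxToJn, AddEquiv.symm_apply_apply]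

/-- **No single support for `Λ`.**  `hΛ` = the kernel description of `hbnCoker_places_of`;
`hU2` = `T`-unit classes are locally trivial off `T`; `hNSS` = `(G-iv)` for `L/K`. -/
theorem single_ne_zero [DecidableEq (PlaceIdx K T)] {n : ℕ}
    (Λ : Hloc K L T →+ ZMod n)
    (hΛ : ∀ a, Λ a = 0 ↔ ∃ z, IsTUnitClass K L T z ∧ locT K L T z = a)
    (hU2 : ∀ z, IsTUnitClass K L T z → ∀ q : Nat.Primes, q ∉ T →
      ∀ 𝔪 : Ideal (Ksemi K q), 𝔪.IsMaximal → locH K L (Kloc K q 𝔪) 2 z = 0)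
    (hNSS : ∀ (x : groupCohomology (Rep.ofAlgebraAutOnUnits K L) 2)
      (q₀ : Nat.Primes) (𝔪₀ : Ideal (Ksemi K q₀)), 𝔪₀.IsMaximal →
      (∀ (q : Nat.Primes) (𝔪 : Ideal (Ksemi K q)), 𝔪.IsMaximal →
        ¬ (∃ h : q = q₀, h ▸ 𝔪 = 𝔪₀) → locH K L (Kloc K q 𝔪) 2 x = 0) →
      locH K L (Kloc K q₀ 𝔪₀) 2 x = 0)
    (x₀ : PlaceIdx K T)
    (c : groupCohomology (Jloc K L (x₀.1 : Nat.Primes) x₀.2.asIdeal) 2) (hc : c ≠ 0) :
    Λ (Pi.single x₀ c) ≠ 0 := by
  intro h0
  obtain ⟨z, hz, hza⟩ := (hΛ _).1 h0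
  apply hc
  have hx₀ : locH K L (Kloc K (x₀.1 : Nat.Primes) x₀.2.asIdeal) 2 z = c := by
    have := congrFun hza x₀
    rwa [Pi.single_eq_same] at this
  rw [← hx₀]
  apply hNSS z (x₀.1 : Nat.Primes) x₀.2.asIdeal x₀.2.isMaximal
  intro q 𝔪 h𝔪 hne
  by_cases hq : q ∈ T
  · -- a place above `T` different from `x₀`
    let x : PlaceIdx K T := ⟨⟨q, hq⟩, ⟨𝔪, h𝔪⟩⟩
    have hxx₀ : x ≠ x₀ := by
      intro hxe
      apply hne
      have h1 : q = (x₀.1 : Nat.Primes) := congrArg (fun y : PlaceIdx K T => (y.1 : Nat.Primes)) hxe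
      refine ⟨h1, ?_⟩
      subst hxe
      rfl
    have := congrFun hza x
    rw [Pi.single_eq_of_ne hxx₀] at this
    exact this
  · exact hU2 z hz q hq 𝔪 h𝔪

/-- `single_ne_zero` with `(G-iv)` in its closed form `Blocks3.NoSingleSupport p`
(`Global.Final.noSingleSupport p`). -/
theorem single_ne_zero_of_nss [DecidableEq (PlaceIdx K T)] {p n : ℕ} (hNSS : NoSingleSupport p)
    [IsGalois K L] (hp : p.Prime) (hodd : p ≠ 2) (hζ : ∃ ζ : K, IsPrimitiveRoot ζ p)
    (hpp : ∃ m : ℕ, Module.finrank K L = p ^ m)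
    (Λ : Hloc K L T →+ ZMod n)
    (hΛ : ∀ a, Λ a = 0 ↔ ∃ z, IsTUnitClass K L T z ∧ locT K L T z = a)
    (hU2 : ∀ z, IsTUnitClass K L T z → ∀ q : Nat.Primes, q ∉ T →
      ∀ 𝔪 : Ideal (Ksemi K q), 𝔪.IsMaximal → locH K L (Kloc K q 𝔪) 2 z = 0)
    (x₀ : PlaceIdx K T)
    (c : groupCohomology (Jloc K L (x₀.1 : Nat.Primes) x₀.2.asIdeal) 2) (hc : c ≠ 0) :
    Λ (Pi.single x₀ c) ≠ 0 :=
  single_ne_zero Λ hΛ hU2 (fun x q₀ 𝔪₀ h𝔪₀ h => hNSS K L hp hodd hζ hpp x q₀ 𝔪₀ h𝔪₀ h) x₀ c hc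

end pointwise

section cyclo

variable {K L F M : Type} [Field K] [NumberField K] [Field L] [NumberField L] [Field F]
  [NumberField F] [Field M] [NumberField M] [Algebra K L] [Algebra K F] [Algebra K M]
  [Algebra L M] [Algebra F M] [IsScalarTower K L M] [IsScalarTower K F M] [IsGalois K L]
  [IsGalois K F] {T : Finset Nat.Primes}

/-- **(HBN-coker), place-wise form**, from `Blocks4.H2CyclicIn p` in a `CycloSetting`. -/
theorem hbnCoker_places_in {p : ℕ} (h2 : H2CyclicIn p) (hC : CycloSetting p K L F M T) :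
    ∃ Λ : Hloc K L T →+ ZMod (Module.finrank K L),
      ∀ a, Λ a = 0 ↔ ∃ z, IsTUnitClass K L T z ∧ locT K L T z = a := by
  obtain ⟨hcard, u, hu⟩ := h2 K L F M T hC
  exact hbnCoker_places_of (HbnCokerIn.nonempty_of_cycloSetting hC) hcard u hu

end cyclo

end Fermat.Agent.S55.Middle.HbnCokerPlaces
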