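/-
S55 / MIDDLE block, row M.hbnH3.level (helper21): the COLIMIT FORM of (HBN-H3).

`H³_LC(P; ℚ_Sˣ)` has no `p`-power torsion, for every open subgroup `P ≤ G_ℚ` of `S`-level on which
the mod `p` cyclotomic character is trivial (`p` odd, `p ∈ S`): this is the hypothesis `hH3K` of
`Middle/H3.h3O_eq_zero`.  The only open input is `Global.Blocks4.CycloGen p`.

* `pair_square`        : two isomorphisms of pairs intertwining `(f, φ)` and `(g, ψ)` give a commutative
                         square in cohomology;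
* `pairExt`            : `(↥H ⧸ lvl H L, (KS S)^V) ≅ (Gal(L/K₀), Lˣ)`, `K₀ = ℚ̄^H`, `L` as an extension of
                         `K₀` (`GaloisDictModel.Lext`), with the explicit formulas `pairExt_e_mk_apply`,
                         `pairExt_φ_coe`;
* `pairExt_transH3`    : the dictionary turns `DictH3.transH3` into `TransitionQ.inflLxn`;
* `numberField_Lext`, `isGalois_Lext`, `towerAlgebra`, `finrank_Lext` : the number-field instances;
* `level_dies`         : (HBN-H3) at a finite level: `H / Gal(ℚ̄/L)` a `p`-group ⇒ every class of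
                         `H³(H ⧸ V, (KS S)^V)` dies at the level `L(μ_{p^k})`;
* `h3Kx_torsion_free`  : the colimit statement, via the relative Sylow reduction of `Middle/SylowRel`.
-/
import Mathlib
import Fermat.Agent.S55.Middle.GaloisDictModel
import Fermat.Agent.S55.Middle.SylowRel
import Fermat.Agent.S55.Middle.HbnH3Inst
import Fermat.Agent.S55.Middle.Blocks
import Fermat.Agent.S55.Middle.HbnH3Cyclo
import Fermat.Agent.S55.Middle.CycloPow
import Fermat.Agent.S55.Middle.LevelField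
import Fermat.Agent.S55.Global.Final

set_option autoImplicit false
set_option linter.unusedSectionVars false
set_option linter.unusedVariables false
set_option linter.style.haveILetI false

open CategoryTheory groupCohomology

namespace Fermat.Agent.S55.Middle.HbnH3Level

noncomputable section

open Fermat.Agent.S55.Coh.PairEquiv

/-! ### A: squares of pairs -/

section Square

variable {k : Type} [CommRing k] {G₁ G₂ Γ₁ Γ₂ : Type} [Group G₁] [Group G₂] [Group Γ₁] [Group Γ₂]

theorem map_comp_map_eq (f : G₂ →* G₁) (g : Γ₂ →* Γ₁) (a : Γ₁ →* G₁) (b : Γ₂ →* G₂)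
    {B₁ : Rep k G₁} {B₂ : Rep k G₂} {A₁ : Rep k Γ₁} {A₂ : Rep k Γ₂}
    (φ : Rep.res f B₁ ⟶ B₂) (ψ : Rep.res g A₁ ⟶ A₂) (α : Rep.res a B₁ ⟶ A₁)
    (β : Rep.res b B₂ ⟶ A₂)
    (hgrp : f.comp b = a.comp g)
    (hmod : ∀ x : B₁.V, β.hom (φ.hom x) = ψ.hom (α.hom x)) (n : ℕ) :
    groupCohomology.map f φ n ≫ groupCohomology.map b β n =
      groupCohomology.map a α n ≫ groupCohomology.map g ψ n := by
  rw [← groupCohomology.map_comp, ← groupCohomology.map_comp]
  exact groupCohomology.map_congr hgrp (LinearMap.ext fun x => hmod x) n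

/-- two isomorphisms of pairs intertwining `(f, φ)` and `(g, ψ)` give a commutative square in
cohomology. -/
theorem pair_square {B₁ : Rep k G₁} {B₂ : Rep k G₂} {A₁ : Rep k Γ₁} {A₂ : Rep k Γ₂}
    (P : PairEquiv B₁ A₁) (P' : PairEquiv B₂ A₂) (f : G₂ →* G₁) (g : Γ₂ →* Γ₁)
    (φ : Rep.res f B₁ ⟶ B₂) (ψ : Rep.res g A₁ ⟶ A₂)
    (hgrp : ∀ t : G₂, P.e (f t) = g (P'.e t))
    (hmod : ∀ x : B₁.V, P'.φ (φ.hom x) = ψ.hom (P.φ x)) (n : ℕ)
    (y : groupCohomology B₁ n) :
    (P'.cohomologyIso n).hom ((groupCohomology.map f φ n).hom y) =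
      (groupCohomology.map g ψ n).hom ((P.cohomologyIso n).hom y) := by
  have hg : f.comp (P'.e.symm : Γ₂ →* G₂) = (P.e.symm : Γ₁ →* G₁).comp g := by
    ext τ
    show f (P'.e.symm τ) = P.e.symm (g τ)
    apply P.e.injective
    rw [hgrp, MulEquiv.apply_symm_apply, MulEquiv.apply_symm_apply]
  have key := map_comp_map_eq f g (P.e.symm : Γ₁ →* G₁) (P'.e.symm : Γ₂ →* G₂) φ ψ
    (Rep.ofHom ⟨P.φ, fun h => by
      refine LinearMap.ext fun x => ?_
      have := P.comm (P.e.symm h) x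
      rw [MulEquiv.apply_symm_apply] at this
      exact this⟩)
    (Rep.ofHom ⟨P'.φ, fun h => by
      refine LinearMap.ext fun x => ?_
      have := P'.comm (P'.e.symm h) x
      rw [MulEquiv.apply_symm_apply] at this
      exact this⟩) hg hmod n
  have := congrArg (fun t => t.hom y) key
  simp only [ModuleCat.hom_comp, LinearMap.comp_apply] at this
  exact this

end Square

/-! ### B: the pair `(↥H ⧸ lvl H L, (KS S)^V) ≅ (Gal(L/K₀), Lˣ)` -/

section PairExt

open Fermat.Agent.S55.Formal Fermat.Agent.S55.Formal.PreludeLC Fermat.Agent.S55.Middle.Defs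
open Fermat.Agent.S55.Middle.Dict Fermat.Agent.S55.Middle.GaloisDict
open Fermat.Agent.S55.Middle.GaloisDictModel

variable (S : Finset Nat.Primes) (H : Subgroup Defs.GQ) (L : IntermediateField ℚ Defs.Qbar)
  [Normal ℚ L] (hL : L.IsUnramifiedOutside S) (hle : L.fixingSubgroup ≤ H)

/-- `(H̄, Lˣ) ≅ (Gal(L/L^H̄), Lˣ)` -/
def resSubPair [FiniteDimensional ℚ ↥L] :
    PairEquiv (LxH H L) (Rep.ofAlgebraAutOnUnits ↥(baseField H L) ↥L) where
  e := IntermediateField.subgroupEquivAlgEquiv (Hbar H L)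
  φ := LinearEquiv.refl ℤ _
  comm _ _ := rfl

/-- the dictionary with values in the model `Lext` over `K₀ = ℚ̄^H` -/
def pairExt : PairEquiv (Inv (KSH S H) (lvl H L))
    (Rep.ofAlgebraAutOnUnits ↥(K₀ H) ↥(Lext H L (fixedField_le_of_le hle))) :=
  haveI : FiniteDimensional ℚ ↥L := hL.1
  (pairKS S H L hL hle).trans ((resSubPair H L).trans
    (pairOfRingEquiv (toExt H L (fixedField_le_of_le hle)) (toExt_range H L (fixedField_le_of_le hle))))

lemma pairExt_e_mk_apply (h : ↥H) (y : ↥(Lext H L (fixedField_le_of_le hle))) :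
    ((((pairExt S H L hL hle).e (h : ↥H ⧸ lvl H L)) y : ↥(Lext H L (fixedField_le_of_le hle))) :
      Defs.Qbar) = h.1 (y : Defs.Qbar) := by
  haveI : FiniteDimensional ℚ ↥L := hL.1
  show ((resL L h.1 ⟨(y : Defs.Qbar), y.2⟩ : ↥L) : Defs.Qbar) = h.1 (y : Defs.Qbar)
  rw [resL_apply_coe]

lemma pairExt_φ_coe (x : Inv (KSH S H) (lvl H L)) :
    (((Additive.toMul ((pairExt S H L hL hle).φ x) :
      (↥(Lext H L (fixedField_le_of_le hle)))ˣ) : ↥(Lext H L (fixedField_le_of_le hle))) :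
        Defs.Qbar) =
      ((uOf H L (galStable_qsSubgroup S) x : Defs.Qbarˣ) : Defs.Qbar) := by
  have h := unitsIncl_ksEquiv S H L hL hle x
  have h2 := congrArg (fun u : Defs.Qbarˣ => (u : Defs.Qbar)) h
  exact h2

end PairExt

/-! ### C: compatibility of the dictionary with the transition maps -/

section Compat

open Fermat.Agent.S55.Formal Fermat.Agent.S55.Formal.PreludeLC Fermat.Agent.S55.Middle.Defs
open Fermat.Agent.S55.Middle.Dict Fermat.Agent.S55.Middle.DictH3 Fermat.Agent.S55.Middle.GaloisDict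
open Fermat.Agent.S55.Middle.GaloisDictModel
open Fermat.Agent.S55.Global.Objects2 Fermat.Agent.S55.Global.TransitionQ

variable (S : Finset Nat.Primes) (H : Subgroup Defs.GQ) (L L' : IntermediateField ℚ Defs.Qbar)
  [Normal ℚ L] [Normal ℚ L'] (hL : L.IsUnramifiedOutside S) (hL' : L'.IsUnramifiedOutside S)
  (hle : L.fixingSubgroup ≤ H) (hle' : L'.fixingSubgroup ≤ H) (hLL : L ≤ L')

theorem pairExt_transH3
    [NumberField ↥(K₀ H)] [NumberField ↥(Lext H L (fixedField_le_of_le hle))]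
    [NumberField ↥(Lext H L' (fixedField_le_of_le hle'))]
    [Algebra ↥(Lext H L (fixedField_le_of_le hle)) ↥(Lext H L' (fixedField_le_of_le hle'))]
    [IsScalarTower ↥(K₀ H) ↥(Lext H L (fixedField_le_of_le hle))
      ↥(Lext H L' (fixedField_le_of_le hle'))]
    [Normal ↥(K₀ H) ↥(Lext H L (fixedField_le_of_le hle))]
    (halg : ∀ y : ↥(Lext H L (fixedField_le_of_le hle)),
      ((algebraMap ↥(Lext H L (fixedField_le_of_le hle))
        ↥(Lext H L' (fixedField_le_of_le hle')) y : ↥(Lext H L' (fixedField_le_of_le hle'))) :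
          Defs.Qbar) = (y : Defs.Qbar))
    (y : groupCohomology (Inv (KSH S H) (lvl H L)) 3) :
    ((pairExt S H L' hL' hle').cohomologyIso 3).hom
        (transH3 (KSH S H) (lvl_le_of_le H L L' hLL) y) =
      (inflLxn ↥(K₀ H) ↥(Lext H L (fixedField_le_of_le hle))
        ↥(Lext H L' (fixedField_le_of_le hle')) 3).hom
        (((pairExt S H L hL hle).cohomologyIso 3).hom y) := by
  refine pair_square (pairExt S H L hL hle) (pairExt S H L' hL' hle')
    (qmap (lvl_le_of_le H L L' hLL))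
    (rnHom ↥(K₀ H) ↥(Lext H L (fixedField_le_of_le hle)) ↥(Lext H L' (fixedField_le_of_le hle')))
    (transHom (KSH S H) (lvl_le_of_le H L L' hLL))
    (transLxn ↥(K₀ H) ↥(Lext H L (fixedField_le_of_le hle))
      ↥(Lext H L' (fixedField_le_of_le hle'))) ?_ ?_ 3 y
  · intro t
    induction t using QuotientGroup.induction_on with
    | H h =>
      refine AlgEquiv.ext fun z => Subtype.ext ?_
      rw [qmap_mk, pairExt_e_mk_apply]
      rw [← halg ((rnHom ↥(K₀ H) ↥(Lext H L (fixedField_le_of_le hle))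
        ↥(Lext H L' (fixedField_le_of_le hle'))) ((pairExt S H L' hL' hle').e ↑h) z),
        rnHom_commutes, pairExt_e_mk_apply, halg]
  · intro x
    apply Additive.toMul.injective
    apply Units.ext
    apply Subtype.ext
    have h1 := pairExt_φ_coe S H L' hL' hle' ((transHom (KSH S H) (lvl_le_of_le H L L' hLL)).hom x)
    have h2 := pairExt_φ_coe S H L hL hle x
    refine h1.trans ?_
    have h3 : uOf H L' (galStable_qsSubgroup S)
        ((transHom (KSH S H) (lvl_le_of_le H L L' hLL)).hom x) =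
          uOf H L (galStable_qsSubgroup S) x := rfl
    rw [h3, ← h2]
    exact (halg _).symm

end Compat

/-! ### D: the number-field instances -/

section Inst

open Fermat.Agent.S55.Formal Fermat.Agent.S55.Formal.PreludeLC Fermat.Agent.S55.Middle.Defs
open Fermat.Agent.S55.Middle.Dict Fermat.Agent.S55.Middle.DictH3 Fermat.Agent.S55.Middle.GaloisDict
open Fermat.Agent.S55.Middle.GaloisDictModel

variable (H : Subgroup Defs.GQ) (L L' : IntermediateField ℚ Defs.Qbar)
  (hKL : K₀ H ≤ L) (hKL' : K₀ H ≤ L') (hLL : L ≤ L')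

/-- `L` is a number field. -/
theorem numberField_of_finite (hfd : FiniteDimensional ℚ ↥L) : NumberField ↥L :=
  { to_charZero := inferInstance, to_finiteDimensional := inferInstance }

/-- `Lext` is a number field. -/
theorem numberField_Lext (hfd : FiniteDimensional ℚ ↥L) : NumberField ↥(Lext H L hKL) :=
  haveI := numberField_of_finite L hfd
  NumberField.of_ringEquiv _ _ (toExt H L hKL)

/-- the inclusion `Lext L ⊆ Lext L'` as an algebra structure -/
@[reducible] def towerAlgebra : Algebra ↥(Lext H L hKL) ↥(Lext H L' hKL') :=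
  (IntermediateField.inclusion
    (show Lext H L hKL ≤ Lext H L' hKL' from hLL)).toRingHom.toAlgebra

theorem towerAlgebra_coe (y : ↥(Lext H L hKL)) :
    ((@algebraMap ↥(Lext H L hKL) ↥(Lext H L' hKL') _ _ (towerAlgebra H L L' hKL hKL' hLL) y :
      ↥(Lext H L' hKL')) : Defs.Qbar) = (y : Defs.Qbar) := rfl

theorem towerAlgebra_isScalarTower :
    @IsScalarTower ↥(K₀ H) ↥(Lext H L hKL) ↥(Lext H L' hKL') _
      (towerAlgebra H L L' hKL hKL' hLL).toSMul _ :=
  letI := towerAlgebra H L L' hKL hKL' hLL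
  IsScalarTower.of_algebraMap_eq (fun x => rfl)

/-- `Lext / K₀` is Galois when `L / ℚ` is normal. -/
theorem isGalois_Lext [Normal ℚ ↥L] : IsGalois ↥(K₀ H) ↥(Lext H L hKL) := by
  have h1 : Normal ℚ ↥(Lext H L hKL) :=
    Normal.of_algEquiv (AlgEquiv.ofRingEquiv (f := toExt H L hKL) (fun q => rfl))
  have hn : Normal ↥(K₀ H) ↥(Lext H L hKL) := Normal.tower_top_of_normal ℚ ↥(K₀ H) ↥(Lext H L hKL)
  haveI := hn.toIsAlgebraic
  exact { to_isSeparable := inferInstance, to_normal := hn }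

end Inst

/-! ### E: the finite-level theorem and the colimit form -/

section Main

open Fermat.Agent.S55.Formal Fermat.Agent.S55.Formal.PreludeLC Fermat.Agent.S55.Middle.Defs
open Fermat.Agent.S55.Middle.Dict Fermat.Agent.S55.Middle.DictH3 Fermat.Agent.S55.Middle.GaloisDict
open Fermat.Agent.S55.Middle.GaloisDictModel
open Fermat.Agent.S55.Global.Objects2 Fermat.Agent.S55.Global.TransitionQ
open Fermat.Agent.S55.Global ExtCitation

variable {p : ℕ} [Fact p.Prime] {S : Finset Nat.Primes}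

/-- the degree of `Lext / K₀` is the order of the level quotient -/
theorem finrank_Lext (H : Subgroup Defs.GQ) (L : IntermediateField ℚ Defs.Qbar) [Normal ℚ ↥L]
    (hL : L.IsUnramifiedOutside S) (hle : L.fixingSubgroup ≤ H) :
    Module.finrank ↥(K₀ H) ↥(Lext H L (fixedField_le_of_le hle)) = Nat.card (↥H ⧸ lvl H L) := by
  haveI := isGalois_Lext H L (fixedField_le_of_le hle)
  haveI : FiniteDimensional ℚ ↥L := hL.1
  haveI : FiniteDimensional ↥(K₀ H) ↥(Lext H L (fixedField_le_of_le hle)) := by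
    haveI : Module.Finite ℚ ↥(Lext H L (fixedField_le_of_le hle)) :=
      @Module.Finite.equiv ℚ ↥L ↥(Lext H L (fixedField_le_of_le hle)) _ _ _ _ _ hL.1
        (AlgEquiv.ofRingEquiv (f := toExt H L (fixedField_le_of_le hle))
        (fun q => rfl)).toLinearEquiv
    exact Module.Finite.of_restrictScalars_finite ℚ ↥(K₀ H) ↥(Lext H L (fixedField_le_of_le hle))
  rw [← IsGalois.card_aut_eq_finrank]
  exact (Nat.card_congr (pairExt S H L hL hle).e.toEquiv).symm

/-- the compositum of two normal subfields of `ℚ̄` is normal (default `ℚ`-algebra instances) -/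
theorem normal_sup_Qbar (L C : IntermediateField ℚ Defs.Qbar) [hL : Normal ℚ ↥L]
    [hC : Normal ℚ ↥C] : Normal ℚ ↥(L ⊔ C) := by
  have h1 : @Normal ℚ ↥L _ _ (IntermediateField.algebra' L) := by
    convert hL
    exact Subsingleton.elim _ _
  have h2 : @Normal ℚ ↥C _ _ (IntermediateField.algebra' C) := by
    convert hC
    exact Subsingleton.elim _ _
  have h3 := @IntermediateField.normal_sup ℚ Defs.Qbar _ _ _ L C h1 h2
  convert h3
  exact Subsingleton.elim _ _

/-- **(HBN-H3) at a finite level of the LC site.**  `H` an `S`-level open subgroup on which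
`cycloChar p` is trivial, `L/ℚ` Galois unramified outside `S` with `Gal(ℚ̄/L) ≤ H` and
`H / Gal(ℚ̄/L)` a `p`-group.  Every class of `H³(H ⧸ V, (KS S)^V)` dies at a deeper Galois level. -/
theorem level_dies (hodd : p ≠ 2) (hpS : pPrime p ∈ S) (hgen : Blocks4.CycloGen p)
    (H : Subgroup Defs.GQ) (hH : Blocks.Level p S H)
    (L : IntermediateField ℚ Defs.Qbar) [Normal ℚ ↥L] (hL : L.IsUnramifiedOutside S)
    (hle : L.fixingSubgroup ≤ H) (hpg : ∀ h : ↥H, ∃ j : ℕ, h ^ (p ^ j) ∈ lvl H L)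
    (y : groupCohomology (Inv (KSH S H) (lvl H L)) 3) :
    ∃ (L' : IntermediateField ℚ Defs.Qbar) (_ : Normal ℚ ↥L') (_ : L'.IsUnramifiedOutside S)
      (_ : L'.fixingSubgroup ≤ H) (hLL : L ≤ L'),
      transH3 (KSH S H) (lvl_le_of_le H L L' hLL) y = 0 := by
  have hp : p.Prime := Fact.out
  have hKL : K₀ H ≤ L := fixedField_le_of_le hle
  -- the base field
  haveI : NumberField ↥(K₀ H) := LevelField.numberField_fld hH
  haveI : NumberField ↥(Lext H L hKL) := numberField_Lext H L hKL hL.1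
  haveI : IsGalois ↥(K₀ H) ↥(Lext H L hKL) := isGalois_Lext H L hKL
  obtain ⟨ζ, hζ⟩ := LevelField.exists_zeta hH
  -- the degree of `L / K₀` is a power of `p`
  have hLn : L.fixingSubgroup.Normal := by
    rw [← resL_ker L]; infer_instance
  haveI : L.fixingSubgroup.FiniteIndex := (globalBasis S).finiteIndex ⟨L, hL, hLn, rfl⟩
  haveI : (lvl H L).FiniteIndex := inferInstance
  obtain ⟨a, ha⟩ := SylowRel.exists_card_quotient_eq_pow p (lvl H L) hpg
  have hdeg : Module.finrank ↥(K₀ H) ↥(Lext H L hKL) = p ^ a := by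
    rw [finrank_Lext H L hL hle, ha]
  obtain ⟨k, hk⟩ := HbnH3Cyclo.hbnH3_cyclo ↥(K₀ H) ↥(Lext H L hKL) (Final.cycloKillsH3 hgen)
    (fun T => Final.isZero_H3_Jn _ _ T) hp hodd ⟨ζ, hζ⟩ a hdeg
  -- the deeper level `L' = L(μ_{p^k})`
  haveI hCn : Normal ℚ ↥(CycloPow.cycloPowField p k) := CycloPow.normal_cycloPowField p k
  have hCur : (CycloPow.cycloPowField p k).IsUnramifiedOutside S :=
    CycloPow.cycloPowField_isUnramifiedOutside p k hpS
  have hL'n : Normal ℚ ↥(L ⊔ CycloPow.cycloPowField p k) := normal_sup_Qbar L _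
  have hL' : (L ⊔ CycloPow.cycloPowField p k).IsUnramifiedOutside S := hL.sup hCur
  have hLL : L ≤ L ⊔ CycloPow.cycloPowField p k := le_sup_left
  have hCL : CycloPow.cycloPowField p k ≤ L ⊔ CycloPow.cycloPowField p k := le_sup_right
  have hle' : (L ⊔ CycloPow.cycloPowField p k).fixingSubgroup ≤ H :=
    (IntermediateField.fixingSubgroup_antitone hLL).trans hle
  refine ⟨L ⊔ CycloPow.cycloPowField p k, hL'n, hL', hle', hLL, ?_⟩
  haveI := hL'n
  have hKL' : K₀ H ≤ L ⊔ CycloPow.cycloPowField p k := fixedField_le_of_le hle'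
  haveI : NumberField ↥(Lext H (L ⊔ CycloPow.cycloPowField p k) hKL') :=
    numberField_Lext H _ hKL' hL'.1
  haveI : IsGalois ↥(K₀ H) ↥(Lext H (L ⊔ CycloPow.cycloPowField p k) hKL') :=
    isGalois_Lext H _ hKL'
  letI : Algebra ↥(Lext H L hKL) ↥(Lext H (L ⊔ CycloPow.cycloPowField p k) hKL') :=
    towerAlgebra H L _ hKL hKL' hLL
  haveI : IsScalarTower ↥(K₀ H) ↥(Lext H L hKL)
      ↥(Lext H (L ⊔ CycloPow.cycloPowField p k) hKL') :=
    towerAlgebra_isScalarTower H L _ hKL hKL' hLL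
  -- the degree of `L' / K₀` is a power of `p`
  have hpg' : ∀ h : ↥H, ∃ j : ℕ, h ^ (p ^ j) ∈ lvl H (L ⊔ CycloPow.cycloPowField p k) := by
    intro h
    obtain ⟨j₁, hj₁⟩ := hpg h
    obtain ⟨j₂, hj₂⟩ := CycloPow.exists_pow_mem_fixingSubgroup p k h.1 (hH.triv h.1 h.2)
    refine ⟨j₁ + j₂, ?_⟩
    rw [Subgroup.mem_subgroupOf] at hj₁ ⊢
    rw [IntermediateField.fixingSubgroup_sup]
    refine ⟨?_, ?_⟩
    · have : ((h ^ (p ^ (j₁ + j₂)) : ↥H) : Defs.GQ) = ((h ^ (p ^ j₁) : ↥H) : Defs.GQ) ^ (p ^ j₂) := by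
        rw [pow_add, pow_mul]; rfl
      rw [this]
      exact Subgroup.pow_mem _ hj₁ _
    · have : ((h ^ (p ^ (j₁ + j₂)) : ↥H) : Defs.GQ) = (h.1 ^ (p ^ j₂)) ^ (p ^ j₁) := by
        rw [pow_add, mul_comm, pow_mul]; rfl
      rw [this]
      exact Subgroup.pow_mem _ hj₂ _
  have hL'norm : (L ⊔ CycloPow.cycloPowField p k).fixingSubgroup.Normal := by
    rw [← resL_ker (L ⊔ CycloPow.cycloPowField p k)]; infer_instance
  haveI : (L ⊔ CycloPow.cycloPowField p k).fixingSubgroup.FiniteIndex :=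
    (globalBasis S).finiteIndex ⟨_, hL', hL'norm, rfl⟩
  haveI : (lvl H (L ⊔ CycloPow.cycloPowField p k)).FiniteIndex := inferInstance
  obtain ⟨n, hn⟩ := SylowRel.exists_card_quotient_eq_pow p
    (lvl H (L ⊔ CycloPow.cycloPowField p k)) hpg'
  have hdeg' : Module.finrank ↥(K₀ H) ↥(Lext H (L ⊔ CycloPow.cycloPowField p k) hKL') = p ^ n := by
    rw [finrank_Lext H _ hL' hle', hn]
  -- a primitive `p^k`-th root of unity in `L'`
  obtain ⟨ζ', hζ'⟩ := CycloPow.exists_primitiveRoot_cycloPowField p k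
  have hζQ : IsPrimitiveRoot ((ζ' : ↥(CycloPow.cycloPowField p k)) : Defs.Qbar) (p ^ k) :=
    hζ'.map_of_injective (f := (CycloPow.cycloPowField p k).val)
      (CycloPow.cycloPowField p k).val.injective
  have hroot : ∃ ζ : ↥(Lext H (L ⊔ CycloPow.cycloPowField p k) hKL'),
      IsPrimitiveRoot ζ (p ^ k) :=
    ⟨⟨(ζ' : Defs.Qbar), hCL ζ'.2⟩, IsPrimitiveRoot.of_map_of_injective
      (f := (Lext H (L ⊔ CycloPow.cycloPowField p k) hKL').val) hζQ
      (Lext H (L ⊔ CycloPow.cycloPowField p k) hKL').val.injective⟩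
  have h0 := hk ↥(Lext H (L ⊔ CycloPow.cycloPowField p k) hKL') ⟨n, hdeg'⟩ hroot
    (((pairExt S H L hL hle).cohomologyIso 3).hom y)
  have hc := pairExt_transH3 S H L (L ⊔ CycloPow.cycloPowField p k) hL hL' hle hle' hLL
    (fun y => rfl) y
  have hc2 := hc.trans h0
  have h5 := Iso.hom_inv_id_apply ((pairExt S H (L ⊔ CycloPow.cycloPowField p k) hL'
    hle').cohomologyIso 3) (transH3 (KSH S H) (lvl_le_of_le H L _ hLL) y)
  rw [hc2] at h5
  exact h5.symm.trans (map_zero _)

open Fermat.Agent.S55.Bridge.ShapiroLC Fermat.Agent.S55.Middle.SylowRel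
open Fermat.Agent.S55.Formal.Functor Fermat.Agent.S55.Middle.KSite

set_option maxHeartbeats 1600000 in
/-- **(HBN-H3), colimit form**: `H³_LC(P; ℚ_Sˣ)` has no `p`-power torsion, for every open `P` of
`S`-level on which `cycloChar p` is trivial (`p` odd, `p ∈ S`).  The only open input is
`Blocks4.CycloGen p`. -/
theorem h3Kx_torsion_free (hodd : p ≠ 2) (hpS : pPrime p ∈ S) (hgen : Blocks4.CycloGen p)
    (P : Subgroup Defs.GQ) (hP : Blocks.Level p S P)
    (x : H3 (basisP S P) (resP P (KS S))) (j : ℕ) (hx : p ^ j • x = 0) : x = 0 := by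
  obtain ⟨V, hVn, hV, y, rfl, hy⟩ :=
    exists_inflH3_nsmul_eq_zero (subBasis (globalBasis S) P) (Rep.res P.subtype (KS S)) (p ^ j) x hx
  obtain ⟨N₁, hN₁, rfl⟩ := hV
  obtain ⟨N₀, hN₀, hN₀P⟩ := hP.isOpen
  obtain ⟨N, hN, hle⟩ := (globalBasis S).inf hN₁ hN₀
  have hNP : N ≤ P := fun n hn => hN₀P (hle hn).2
  haveI := (globalBasis S).normal hN
  haveI : (N.subgroupOf P).Normal := inferInstance
  have hVW : N.subgroupOf P ≤ N₁.subgroupOf P := fun s hs => (hle hs).1
  have hV1 : (subBasis (globalBasis S) P).mem (N₁.subgroupOf P) := ⟨N₁, hN₁, rfl⟩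
  have hV2 : (subBasis (globalBasis S) P).mem (N.subgroupOf P) := ⟨N, hN, rfl⟩
  rw [← inflH3_transH3 (subBasis (globalBasis S) P) (Rep.res P.subtype (KS S)) hVW hV1 hV2 y]
  set y' := transH3 (Rep.res P.subtype (KS S)) hVW y with hy'
  have hy'0 : (p ^ j) • y' = 0 := by rw [hy', ← map_nsmul, hy, map_zero]
  obtain ⟨H, hNH, hHP, hpH, hHp⟩ := exists_sylow_open (globalBasis S) p hN hNP
  have hHo : ∃ N, (globalBasis S).mem N ∧ N ≤ H := ⟨N, hN, hNH⟩
  have hcop : Nat.Coprime (p ^ j) (H.relIndex P) :=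
    Nat.Coprime.pow_left j ((Nat.Prime.coprime_iff_not_dvd Fact.out).mpr hpH)
  apply eq_zero_of_res_rel_h3 (globalBasis S) (KS S) hHP hHo hcop
  · rw [← map_nsmul, hy'0, map_zero]
  · haveI : (N.subgroupOf H).Normal := inferInstance
    have hV3 : (subBasis (globalBasis S) H).mem (N.subgroupOf H) := ⟨N, hN, rfl⟩
    have hle' : ∀ s ∈ N.subgroupOf H, (resPH (globalBasis S) (KS S) hHP).f s ∈ N.subgroupOf P :=
      fun s hs => hs
    rw [h3_inflH3 (resPH (globalBasis S) (KS S) hHP) hle' hV2 hV3 y']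
    set y'' := (groupCohomology.map (qf (resPH (globalBasis S) (KS S) hHP) hle')
      (lvlHom (resPH (globalBasis S) (KS S) hHP) hle') 3).hom y' with hy''
    have hpg : ∀ h : ↥H, ∃ j : ℕ, h ^ (p ^ j) ∈ N.subgroupOf H := by
      intro h
      obtain ⟨j, hj⟩ := hHp h.1 h.2
      exact ⟨j, by simpa [Subgroup.mem_subgroupOf] using hj⟩
    refine (inflH3_eq_zero_iff (subBasis (globalBasis S) H) (Rep.res H.subtype (KS S)) hV3
      y'').mpr ?_
    -- the finite-level statement
    have hHlevel : Blocks.Level p S H := ⟨hHo, fun g hg => hP.triv g (hHP hg)⟩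
    obtain ⟨L, hL, hLn, rfl⟩ := hN
    haveI : Normal ℚ ↥L := normal_of_fixingSubgroup_normal L hLn
    obtain ⟨L', hL'n, hL', hle'', hLL, h0⟩ :=
      level_dies hodd hpS hgen H hHlevel L hL hNH hpg y''
    haveI := hL'n
    have hL'norm : L'.fixingSubgroup.Normal := by
      rw [← resL_ker L']; infer_instance
    exact ⟨lvl H L', inferInstance, ⟨L'.fixingSubgroup, ⟨L', hL', hL'norm, rfl⟩, rfl⟩,
      lvl_le_of_le H L L' hLL, h0⟩

end Main

end

end Fermat.Agent.S55.Middle.HbnH3Level
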