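import Fermat.Agent.S55.Global.Blocks
import Fermat.Agent.S55.Middle.HbnAbs

/-!
# S55 / Middle, rows `M.hbnInj` and `M.hbnCoker`, finite level, `T`-unit form

`L/K` Galois of `p`-power degree, `K ∋ ζ_p`, `T` admissible (`Blocks.Setting p K L T`),
`G = Gal(L/K)`, `0 → E_{L,T} → J_{L,T} → C_{L,T} → 0` (`Global/Objects.lean`).

* `ejc_shortExact` : the sequence is short exact in `Rep ℤ G`.
* `hbnInj_E`  (HBN-inj, `T`-unit form): from `(G-i)`: a class of `H²(G, E_{L,T})` which dies in
  `H²(G, J_{L,T})` (i.e. is locally trivial at every place of `T`) is zero.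
* `hbnCoker_E` (HBN-coker, `T`-unit form): from `(G-ii)`: there is `Λ : H²(G, J_{L,T}) → ZMod [L:K]`
  whose kernel is exactly the image of `H²(G, E_{L,T})`.
-/

set_option autoImplicit false

open CategoryTheory CategoryTheory.Limits groupCohomology

namespace Fermat.Agent.S55.Middle.HbnInj

open Fermat.Agent.S55.Global.Objects Fermat.Agent.S55.Global.Blocks
open Fermat.Agent.S55.Middle

variable (K : Type) [Field K] [NumberField K]
variable (L : Type) [Field L] [NumberField L] [Algebra K L]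
variable (T : Finset (Place K))

/-- The short complex `E_{L,T} ⟶ J_{L,T} ⟶ C_{L,T}`. -/
noncomputable abbrev ejc : ShortComplex (Rep ℤ (L ≃ₐ[K] L)) :=
  ShortComplex.mk (EtoJ K L T) (JtoC K L T) (by
    ext x
    exact (Submodule.Quotient.mk_eq_zero (ESub K L T)).2 x.2)

theorem ejc_shortExact : (ejc K L T).ShortExact :=
  HbnAbs.shortExact_subtype_mkQ (J K L T) (ESub K L T) (ESub_stable T)

variable {K L T}

/-- **(HBN-inj), `T`-unit form.** -/
theorem hbnInj_E {p : ℕ} (h1 : H1Vanish p) (hS : Setting p K L T)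
    (x : groupCohomology (E K L T) 2)
    (hx : (groupCohomology.map (A := E K L T) (MonoidHom.id (L ≃ₐ[K] L)) (EtoJ K L T) 2).hom x
      = 0) : x = 0 := by
  have hinj := HbnAbs.map_injective_of_isZero_H1 (ejc_shortExact K L T) (h1 K L T hS)
  apply hinj
  rw [map_zero]
  exact hx

/-- **(HBN-coker), `T`-unit form.** -/
theorem hbnCoker_E {p : ℕ} (h2 : H2Cyclic p) (hS : Setting p K L T) :
    ∃ Λ : groupCohomology (J K L T) 2 →+ ZMod (Module.finrank K L),
      ∀ x, Λ x = 0 ↔
        x ∈ LinearMap.range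
          (groupCohomology.map (A := E K L T) (MonoidHom.id (L ≃ₐ[K] L)) (EtoJ K L T) 2).hom := by
  obtain ⟨hcard, u, hu⟩ := h2 K L T hS
  have : FiniteDimensional K L := by
    obtain ⟨n, hn⟩ := hS.ppower
    apply FiniteDimensional.of_finrank_pos
    rw [hn]
    exact pow_pos hS.prime.pos n
  have : NeZero (Module.finrank K L) := ⟨Module.finrank_pos.ne'⟩
  obtain ⟨Λ, hΛ, -⟩ := HbnAbs.exists_functional (ejc_shortExact K L T) (Module.finrank K L)
    hcard u hu
  exact ⟨Λ, hΛ⟩

end Fermat.Agent.S55.Middle.HbnInj
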