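import Fermat.Agent.S55.Global.Blocks3
import Fermat.Agent.S55.Middle.HbnAbs

/-!
# S55 / Middle, rows `M.hbnInj` and `M.hbnCoker`, finite level, `T`-unit form, INTERFACE v3

`L/K` Galois of `p`-power degree, `K ∋ ζ_p`, `T` an admissible finite set of RATIONAL primes
(`Blocks2.Setting p K L T`), `G = Gal(L/K)`, and the `ℚ`-based modules of `Global/Objects2.lean`:
`0 → En K L T → Jn K L T → Cn K L T → 0`.

* `ejcQ_shortExact` : `0 → EQ → JQ → CQ → 0` is short exact in `Rep ℤ (Aut(L/ℚ))`.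
* `ejcn_shortExact` : its restriction to `Gal(L/K)` is short exact.
* `hbnInj_En`  (HBN-inj, `T`-unit form): from `(G-i)`: a class of `H²(G, En)` which dies in
  `H²(G, Jn)` is zero.
* `hbnCoker_En` (HBN-coker, `T`-unit form): from `(G-ii)`: there is
  `Λ : H²(G, Jn) → ZMod [L:K]` whose kernel is exactly the image of `H²(G, En)`.
-/

set_option autoImplicit false

open CategoryTheory CategoryTheory.Limits groupCohomology

namespace Fermat.Agent.S55.Middle.HbnInjQ

open Fermat.Agent.S55.Global.Objects Fermat.Agent.S55.Global.Objects2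
open Fermat.Agent.S55.Global.Blocks2
open Fermat.Agent.S55.Middle

variable (K : Type) [Field K] [NumberField K]
variable (L : Type) [Field L] [NumberField L] [Algebra K L]
variable (T : Finset Nat.Primes)

/-- The short complex `EQ L T ⟶ JQ L T ⟶ CQ L T` of `Aut(L/ℚ)`-modules. -/
noncomputable abbrev ejcQ : ShortComplex (Rep ℤ (L ≃ₐ[ℚ] L)) :=
  ShortComplex.mk (EQtoJQ L T) (JQtoCQ L T) (by
    ext x
    exact (Submodule.Quotient.mk_eq_zero (ESubQ L T)).2 x.2)

theorem ejcQ_shortExact : (ejcQ L T).ShortExact :=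
  HbnAbs.shortExact_subtype_mkQ (JQ L T) (ESubQ L T) (ESubQ_stable L T)

/-- `En K L T ⟶ Jn K L T`. -/
noncomputable abbrev EntoJn : En K L T ⟶ Jn K L T :=
  (Rep.resFunctor (resHom K L)).map (EQtoJQ L T)

/-- `Jn K L T ⟶ Cn K L T`. -/
noncomputable abbrev JntoCn : Jn K L T ⟶ Cn K L T :=
  (Rep.resFunctor (resHom K L)).map (JQtoCQ L T)

/-- The short complex `En K L T ⟶ Jn K L T ⟶ Cn K L T` of `Gal(L/K)`-modules. -/
noncomputable abbrev ejcn : ShortComplex (Rep ℤ (L ≃ₐ[K] L)) :=
  ShortComplex.mk (X₁ := En K L T) (X₂ := Jn K L T) (X₃ := Cn K L T)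
    (EntoJn K L T) (JntoCn K L T)
    ((ejcQ L T).map (Rep.resFunctor (resHom K L))).zero

theorem ejcn_shortExact : (ejcn K L T).ShortExact :=
  (Rep.shortExact_res (resHom K L)).2 (ejcQ_shortExact L T)

variable {K L T}

/-- **(HBN-inj), `T`-unit form, interface v3.** -/
theorem hbnInj_En {p : ℕ} (h1 : H1Vanish p) (hS : Setting p K L T)
    (x : groupCohomology (En K L T) 2)
    (hx : (groupCohomology.map (A := En K L T) (MonoidHom.id (L ≃ₐ[K] L))
      (EntoJn K L T) 2).hom x = 0) : x = 0 := by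
  have hinj := HbnAbs.map_injective_of_isZero_H1 (ejcn_shortExact K L T) (h1 K L T hS)
  exact hinj (hx.trans (map_zero _).symm)

/-- **(HBN-coker), `T`-unit form, interface v3.** -/
theorem hbnCoker_En {p : ℕ} (h2 : H2Cyclic p) (hS : Setting p K L T) :
    ∃ Λ : groupCohomology (Jn K L T) 2 →+ ZMod (Module.finrank K L),
      ∀ x, Λ x = 0 ↔
        x ∈ LinearMap.range
          (groupCohomology.map (A := En K L T) (MonoidHom.id (L ≃ₐ[K] L))
            (EntoJn K L T) 2).hom := by
  obtain ⟨hcard, u, hu⟩ := h2 K L T hS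
  have : FiniteDimensional K L := by
    obtain ⟨n, hn⟩ := hS.ppower
    apply FiniteDimensional.of_finrank_pos
    rw [hn]
    exact pow_pos hS.prime.pos n
  have : NeZero (Module.finrank K L) := ⟨Module.finrank_pos.ne'⟩
  obtain ⟨Λ, hΛ, -⟩ := HbnAbs.exists_functional (ejcn_shortExact K L T) (Module.finrank K L)
    hcard u hu
  exact ⟨Λ, hΛ⟩

end Fermat.Agent.S55.Middle.HbnInjQ
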