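/-
S55 / Middle / ImageLevelAt (helper74): PER-WITNESS forms of `ImageLevel.adj_of_level` and
`ImageLevel.not_rel_of_level` (remedy of report 2265, helper93).

In `ImageLevel.adj_of_level` / `not_rel_of_level` the hypothesis `hdesc` quantifies over ALL classes
`z` for ONE fixed level datum `(H2L, BL, C, Λ, …)`.  In the instantiation the level datum is the
`T`-unit model `H²(G_L, E_{L,T})` and `hker` = (HBN-coker) is only available for `T`-unit classes,
so `hdesc` would need "zero residues off `T` ⇒ `T`-unit class" for a FIXED `T`.  Here the descent is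
an INPUT: the witness `z` of `Rel` is given together with a class `y` of the level datum with
`infl y = z`, so the caller may choose the level datum (in particular `T`) AFTER `z`.

* `adj_of_level_at`      : the conclusion of `adj_of_level` for one witness `z = infl y`;
* `adj_of_level_at'`     : the same with `b = jA bL` already lifted to the level (no `htors`);
* `not_rel_of_level_at`  : the contradiction of `not_rel_of_level` for one witness `z = infl y`
                           (only the reciprocity direction `Λ (locL y, offL y) = 0` of `hker` is used);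
* `hadj_of_forall_witness`, `not_rel_of_forall_witness` : the `Rel`-shapes consumed by
  `ImageLevel.divisible_rel` / the no-single-support argument, from per-witness statements.

Mathlib + `Middle/ImageLevel`; plain abelian groups.
-/
import Mathlib
import Fermat.Agent.S55.Middle.ImageLevel

set_option autoImplicit false

namespace Fermat.Agent.S55.Middle.ImageLevelAt

open Fermat.Agent.S55.Middle.ImageLevel

section Level

variable {H2K A Dv H2L AL BL C : Type*} [AddCommGroup H2K] [AddCommGroup A] [AddCommGroup Dv]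
  [AddCommGroup H2L] [AddCommGroup AL] [AddCommGroup BL] [AddCommGroup C]

/-- **`hadj` for one witness, lifted form.**  The level datum `(H2L, AL, BL, C, infl, locL, offL, jA,
jB, Λ)` may depend on the witness `z = infl y`.  `b = jA bL` is already lifted to the level.

* `hpow`  : `H2L` is killed by `p ^ m`;
* `hcA`, `hcB` : compatibility of the finite-level components with the LC-level ones;
* `hjA`, `hjB` : injectivity of the two comparison maps;
* `hrec`  : reciprocity, `Λ (locL y, offL y) = 0`;
* `hex`   : existence, `Λ x = 0 → x = (locL y, offL y)` [(HBN-coker)];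
* `hC`    : the `p`-torsion of `C` is cyclic;
* `b₀`    : (HBN-single) a `p`-torsion element of `AL` not killed by `Λ`;
* `y`     : the descended witness: `off (infl y) = 0`, `locK (infl y) = p • jA bL`. -/
theorem adj_of_level_at' (p : ℕ) (locK : H2K →+ A) (off : H2K →+ Dv)
    (infl : H2L →+ H2K) (locL : H2L →+ AL) (offL : H2L →+ BL) (jA : AL →+ A) (jB : BL →+ Dv)
    (Λ : AL × BL →+ C) (m : ℕ)
    (hpow : ∀ y : H2L, p ^ m • y = 0)
    (hcA : ∀ y : H2L, locK (infl y) = jA (locL y))
    (hcB : ∀ y : H2L, off (infl y) = jB (offL y))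
    (hjA : Function.Injective jA) (hjB : Function.Injective jB)
    (hrec : ∀ y : H2L, Λ (locL y, offL y) = 0)
    (hex : ∀ x : AL × BL, Λ x = 0 → ∃ y : H2L, (locL y, offL y) = x)
    (hC : ∀ c c' : C, p • c = 0 → p • c' = 0 → c ≠ 0 → ∃ n : ℕ, c' = n • c)
    (b₀ : AL) (hb₀ : p • b₀ = 0) (hΛb₀ : Λ (b₀, 0) ≠ 0)
    (bL : AL) (y : H2L) (hyoff : off (infl y) = 0) (hyb : locK (infl y) = p • jA bL) :
    ∃ t : A, p • t = 0 ∧ Rel p locK off (jA bL - t) := by
  have hy1 : locL y = p • bL := hjA (by rw [← hcA, hyb, map_nsmul])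
  have hy2 : offL y = 0 := hjB (by rw [← hcB, hyoff, map_zero])
  -- `p • Λ (bL, 0) = 0`
  have hΛ : p • Λ (bL, 0) = 0 := by
    rw [← map_nsmul]
    have h := hrec y
    rw [hy1, hy2] at h
    have e : p • ((bL, 0) : AL × BL) = (p • bL, 0) := by
      ext <;> simp
    rw [e]
    exact h
  have hΛ0 : p • Λ (b₀, 0) = 0 := by
    rw [← map_nsmul]
    have : p • ((b₀, 0) : AL × BL) = 0 := by
      ext
      · simpa using hb₀
      · simp
    rw [this, map_zero]
  obtain ⟨n, hn⟩ := hC _ _ hΛ0 hΛ hΛb₀
  -- correct by `n • b₀`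
  have hΛ' : Λ (bL - n • b₀, 0) = 0 := by
    have : ((bL - n • b₀, 0) : AL × BL) = (bL, 0) - n • (b₀, 0) := by
      ext <;> simp
    rw [this, map_sub, map_nsmul, hn, sub_self]
  obtain ⟨y', hy'⟩ := hex _ hΛ'
  have hy'1 : locL y' = bL - n • b₀ := congrArg Prod.fst hy'
  have hy'2 : offL y' = 0 := congrArg Prod.snd hy'
  refine ⟨jA (n • b₀), ?_, infl y', ⟨m, ?_⟩, ?_, ?_⟩
  · rw [← map_nsmul, smul_comm, hb₀, smul_zero, map_zero]
  · rw [← map_nsmul, hpow, map_zero]
  · rw [hcB, hy'2, map_zero]
  · rw [hcA, hy'1, map_sub]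

/-- **`hadj` for one witness** (`b : A` with a lift `bL` to the level, e.g. from `htors`). -/
theorem adj_of_level_at (p : ℕ) (locK : H2K →+ A) (off : H2K →+ Dv)
    (infl : H2L →+ H2K) (locL : H2L →+ AL) (offL : H2L →+ BL) (jA : AL →+ A) (jB : BL →+ Dv)
    (Λ : AL × BL →+ C) (m : ℕ)
    (hpow : ∀ y : H2L, p ^ m • y = 0)
    (hcA : ∀ y : H2L, locK (infl y) = jA (locL y))
    (hcB : ∀ y : H2L, off (infl y) = jB (offL y))
    (hjA : Function.Injective jA) (hjB : Function.Injective jB)
    (hker : ∀ x : AL × BL, Λ x = 0 ↔ ∃ y : H2L, (locL y, offL y) = x)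
    (hC : ∀ c c' : C, p • c = 0 → p • c' = 0 → c ≠ 0 → ∃ n : ℕ, c' = n • c)
    (b₀ : AL) (hb₀ : p • b₀ = 0) (hΛb₀ : Λ (b₀, 0) ≠ 0)
    (b : A) (hbL : ∃ bL : AL, jA bL = b)
    (z : H2K) (hzoff : off z = 0) (hzb : locK z = p • b) (hy : ∃ y : H2L, infl y = z) :
    ∃ t : A, p • t = 0 ∧ Rel p locK off (b - t) := by
  obtain ⟨bL, rfl⟩ := hbL
  obtain ⟨y, rfl⟩ := hy
  exact adj_of_level_at' p locK off infl locL offL jA jB Λ m hpow hcA hcB hjA hjB
    (fun y => (hker _).2 ⟨y, rfl⟩) (fun x hx => (hker x).1 hx) hC b₀ hb₀ hΛb₀ bL y hzoff hzb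

/-- **No single support, for one witness.**  If `Λ (b, 0) ≠ 0`, then no class `y` of the level datum
satisfies `off (infl y) = 0` and `locK (infl y) = jA b`.  Only reciprocity (`hrec`) is used. -/
theorem not_rel_of_level_at (locK : H2K →+ A) (off : H2K →+ Dv)
    (infl : H2L →+ H2K) (locL : H2L →+ AL) (offL : H2L →+ BL) (jA : AL →+ A) (jB : BL →+ Dv)
    (Λ : AL × BL →+ C)
    (hcA : ∀ y : H2L, locK (infl y) = jA (locL y))
    (hcB : ∀ y : H2L, off (infl y) = jB (offL y))
    (hjA : Function.Injective jA) (hjB : Function.Injective jB)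
    (hrec : ∀ y : H2L, Λ (locL y, offL y) = 0)
    (b : AL) (hΛb : Λ (b, 0) ≠ 0)
    (y : H2L) (hyoff : off (infl y) = 0) (hyb : locK (infl y) = jA b) : False := by
  have hy1 : locL y = b := hjA (by rw [← hcA, hyb])
  have hy2 : offL y = 0 := hjB (by rw [← hcB, hyoff, map_zero])
  apply hΛb
  have h := hrec y
  rwa [hy1, hy2] at h

end Level

section Shapes

variable {H2K A Dv : Type*} [AddCommGroup H2K] [AddCommGroup A] [AddCommGroup Dv]

/-- The `hadj` hypothesis of `ImageLevel.divisible_rel` from a PER-WITNESS statement: the caller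
proves the correction for each `(k, b, z)` separately (choosing the level datum after `z`). -/
theorem hadj_of_forall_witness (p : ℕ) (locK : H2K →+ A) (off : H2K →+ Dv)
    (h : ∀ (k : ℕ) (b : A) (z : H2K), p ^ (k + 1) • b = 0 → (∃ n : ℕ, p ^ n • z = 0) →
      off z = 0 → locK z = p • b → ∃ t : A, p • t = 0 ∧ Rel p locK off (b - t)) :
    ∀ (k : ℕ) (b : A), p ^ (k + 1) • b = 0 → Rel p locK off (p • b) →
      ∃ t : A, p • t = 0 ∧ Rel p locK off (b - t) := by
  rintro k b hb ⟨z, hz, hzoff, hzb⟩
  exact h k b z hb hz hzoff hzb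

/-- `¬ Rel a` from a per-witness contradiction. -/
theorem not_rel_of_forall_witness (p : ℕ) (locK : H2K →+ A) (off : H2K →+ Dv) (a : A)
    (h : ∀ z : H2K, (∃ n : ℕ, p ^ n • z = 0) → off z = 0 → locK z = a → False) :
    ¬ Rel p locK off a := by
  rintro ⟨z, hz, hzoff, hza⟩
  exact h z hz hzoff hza

end Shapes

end Fermat.Agent.S55.Middle.ImageLevelAt
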