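/-
S55 / MIDDLE block, ImageInst hub (helper80): the PER-WITNESS `hadj` of `ImageLevel.divisible_rel` for the
REAL objects, in the LC language of `Middle/ImageInstB` (`ALoc R`, `locK R`, `off hP`).

* `adj_of_fam_supp` : abstract variant of `ImageFamRel.adj_of_fam` where the support of the witness `y`
  is a hypothesis (instead of `hoff₂` for all `y`), and the target group `AA` is any abelian group with
  jointly injective evaluations `ev i : AA →+ A i` (no dependent `Pi` instance is needed);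
* `adj_at_level` : the instantiation at one finite Galois level `L` (binders of `LocS.Statement`);
* `hadj_witness` : for `Level p S P` + `IsSylowType p S P`: the level is chosen after `(k, b, z)`
  (`PLevelField.exists_pLevelField`), `z` is descended (`ImageDescField.hdesc_field_of_dvd`), its finite
  level avatar is supported in `S` (`SuppInOffClosed.suppIn_locFam`);
* `hadj` : the literal `hadj` hypothesis of `ImageLevel.divisible_rel`.
-/
import Fermat.Agent.S55.Middle.ImageInstB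
import Fermat.Agent.S55.Middle.ImageFamRel
import Fermat.Agent.S55.Middle.ImageLevelAt
import Fermat.Agent.S55.Middle.ImageLocS
import Fermat.Agent.S55.Middle.LocSFam
import Fermat.Agent.S55.Middle.LocSCard
import Fermat.Agent.S55.Middle.PLevelField
import Fermat.Agent.S55.Middle.ImageDescField
import Fermat.Agent.S55.Middle.SuppInOffClosed
import Fermat.Agent.S55.Middle.ImageFiniteClosed
import Fermat.Agent.S55.Middle.UnramOffAdapter
import Fermat.Agent.S55.Middle.LocOffFwd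
import Fermat.Agent.S55.LM.TorsLevel
import Fermat.Agent.S55.LM.DlocFields
import Fermat.Agent.S55.Tate.ResCor
import Fermat.Agent.S55.Middle.Blocks3
import Fermat.Agent.S55.LM.DlocTors

set_option autoImplicit false
set_option linter.unusedSectionVars false
set_option linter.style.haveILetI false

open CategoryTheory groupCohomology ExtCitation

namespace Fermat.Agent.S55.Middle.ImageAdjReal

open Fermat.Agent.S55.Middle.ImageLevel Fermat.Agent.S55.Middle.ImageFamRel

section Abs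

variable {H2K Dv H2L AA : Type*} [AddCommGroup H2K] [AddCommGroup Dv] [AddCommGroup H2L]
  [AddCommGroup AA]
  {I : Type*} {A : I → Type*} [instA : ∀ i, AddCommGroup (A i)]
  {X : Type*} {F : X → Type*} [instF : ∀ x, AddCommGroup (F x)]

/-- **`hadj`, family form, for one witness, with the support of the witness as a hypothesis.** -/
theorem adj_of_fam_supp (p : ℕ) (locK : H2K →+ AA) (off : H2K →+ Dv)
    (ev : ∀ i, AA →+ A i) (hev : ∀ a : AA, (∀ i, ev i a = 0) → a = 0)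
    (infl : H2L →+ H2K) (locFam : H2L →+ (∀ x, F x)) (inS : X → Prop) (pl : I → X)
    (famOf : (∀ i, F (pl i)) → (∀ x, F x)) (jA : ∀ i, F (pl i) →+ A i) (m : ℕ)
    (hcov : ∀ x, inS x → ∃ i, pl i = x)
    (hfpl : ∀ b i, famOf b (pl i) = b i) (hfoff : ∀ b x, ¬ inS x → famOf b x = 0)
    (hjA : ∀ i, Function.Injective (jA i))
    (hcA : ∀ y i, ev i (locK (infl y)) = jA i (locFam y (pl i)))
    (hoff₁ : ∀ y, (∀ x, ¬ inS x → locFam y x = 0) → off (infl y) = 0)
    (hpow : ∀ y : H2L, p ^ m • y = 0)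
    (β₀ : ∀ i, F (pl i)) (hβ₀ : ∀ i, p • β₀ i = 0)
    (hcyc : ∀ c : (∀ x, F x), (∀ x, ¬ inS x → c x = 0) → (∃ y, locFam y = p • c) →
      ∃ (n : ℕ) (y' : H2L), locFam y' = c - n • famOf β₀)
    (b : AA) (bL : ∀ i, F (pl i)) (hbL : ∀ i, jA i (bL i) = ev i b)
    (y : H2L) (hysupp : ∀ x, ¬ inS x → locFam y x = 0)
    (hyb : locK (infl y) = p • b) :
    ∃ t : AA, p • t = 0 ∧ Rel p locK off (b - t) := by
  have hglob : locFam y = p • famOf bL := by
    refine fam_ext inS pl hcov _ _ (fun i => ?_) (fun x hx => ?_)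
    · apply hjA i
      have h1 : jA i (locFam y (pl i)) = p • jA i (bL i) := by
        rw [← hcA, hyb, map_nsmul, hbL]
      have h2 : (p • famOf bL) (pl i) = p • bL i := by
        rw [Pi.smul_apply, hfpl]
      rw [h1, h2, map_nsmul]
    · rw [hysupp x hx, Pi.smul_apply, hfoff bL x hx, smul_zero]
  obtain ⟨n, y', hy'⟩ := hcyc (famOf bL) (fun x hx => hfoff bL x hx) ⟨y, hglob⟩
  refine ⟨b - locK (infl y'), ?_, ?_⟩
  · apply hev
    intro i
    have h3 : locFam y' (pl i) = bL i - n • β₀ i := by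
      rw [hy', Pi.sub_apply, Pi.smul_apply, hfpl, hfpl]
    rw [map_nsmul, map_sub, hcA, h3, ← hbL i, ← map_sub, sub_sub_cancel, ← map_nsmul, smul_comm,
      hβ₀, smul_zero, map_zero]
  · rw [sub_sub_cancel]
    refine ⟨infl y', ⟨m, ?_⟩, ?_, rfl⟩
    · rw [← map_nsmul, hpow, map_zero]
    · apply hoff₁
      intro x hx
      rw [hy', Pi.sub_apply, Pi.smul_apply, hfoff bL x hx, hfoff β₀ x hx, smul_zero, sub_zero]

end Abs


noncomputable section

open Fermat.Agent.S55.Formal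
open Fermat.Agent.S55.Formal.PreludeLC hiding GQ Qbar
open Fermat.Agent.S55.Middle.Defs
open Fermat.Agent.S55.Middle.KSite Fermat.Agent.S55.Middle.GaloisDict
open Fermat.Agent.S55.Middle.GaloisDictModel
open Fermat.Agent.S55.Global.Blocks3 Fermat.Agent.S55.Global.Objects
open Fermat.Agent.S55.Formal.LCLevelH
open Fermat.Agent.S55.LM.DlocDict
open Fermat.Agent.S55.Middle.LocS
open Fermat.Agent.S55.Middle.Blocks Fermat.Agent.S55.Middle.LESGlueV
open Fermat.Agent.S55.Middle.ImageFiniteCore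
open Fermat.Agent.S55.Middle.LocSFam

attribute [local instance] Fermat.Agent.S55.LM.Defs.fact_q
attribute [local instance] Fermat.Agent.S55.Global.SemilocalH3.finiteDimensional_nf

variable {p : ℕ} [Fact p.Prime] {S : Finset Nat.Primes} {P : Subgroup GQ}

/-- evaluation of a tuple at the place `i`. -/
def ev (R : Reps S P) (i : R.Idx) : ImageInstB.ALoc R →+ Blocks2.BrLoc R i where
  toFun a := a i
  map_zero' := rfl
  map_add' _ _ := rfl

@[simp] theorem ev_apply (R : Reps S P) (i : R.Idx) (a : ImageInstB.ALoc R) : ev R i a = a i := rfl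

theorem ev_ext (R : Reps S P) (a : ImageInstB.ALoc R) (h : ∀ i, ev R i a = 0) : a = 0 :=
  funext h

section Level

variable (R : Reps S P) (L : IntermediateField ℚ Qbar) [Normal ℚ L] (hL : L.IsUnramifiedOutside S)
  (hle : L.fixingSubgroup ≤ P) (hKL : K₀ P ≤ L)
  [NumberField ↥(K₀ P)] [NumberField ↥(Lext P L hKL)] [Finite (↥P ⧸ lvl P L)]
  (hV : (basisP S P).mem (lvl P L))

/-- **`htors`, one component**: a class of `H²_LC(D_i; Ω^×)` killed by `p^k` comes from the level `L`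
as soon as `p^k` divides the local index. -/
theorem exists_jAi_eq (hP : IsOpenS S P) (i : R.Idx) (k : ℕ)
    (hdvd : p ^ k ∣ (levelSub P i.1.1 i.2.1 L.fixingSubgroup).index)
    (a : Blocks2.BrLoc R i) (ha : p ^ k • a = 0) :
    ∃ bi, ImageLocS.jAi R L hL hle hKL hV i bi = a := by
  have hW : (basisLoc P i.1.1 i.2.1).mem (levelSub P i.1.1 i.2.1 L.fixingSubgroup) :=
    levelSub_mem_basisLoc S P i.1.1 i.2.1 _ (fixingSubgroup_mem S L hL)
  haveI : Finite (↥(Dloc P i.1.1 i.2.1) ⧸ levelSub P i.1.1 i.2.1 L.fixingSubgroup) :=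
    Fermat.Agent.S55.Middle.DictBridge.finite_quotient _ hW
  obtain ⟨y, hy⟩ := Fermat.Agent.S55.LM.TorsLevel.exists_ι₂_eq_Ox i.1.1 (Dloc P i.1.1 i.2.1)
    (Fermat.Agent.S55.LM.DlocFields.facts_Dloc S P i.1.1 i.2.1 hP)
    (levelSub P i.1.1 i.2.1 L.fixingSubgroup) hW hdvd a ha
  obtain ⟨bi, hbi⟩ := ImageLocS.jAi_range R L hL hle hKL hV i hW y
  exact ⟨bi, hbi.trans hy⟩

/-- **`hpow`**: `[L' : K] = p^n` kills `H²(Gal(L'/K), L'ˣ)`. -/
theorem hpow_at_level (n : ℕ) (hn : Module.finrank ↥(K₀ P) ↥(Lext P L hKL) = p ^ n)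
    (y : groupCohomology (Rep.ofAlgebraAutOnUnits ↥(K₀ P) ↥(Lext P L hKL)) 2) :
    p ^ n • y = 0 := by
  haveI := isGalois_Lext P L hKL
  have h := Fermat.Agent.S55.Tate.ResCor.card_smul_eq_zero₂
    (Rep.ofAlgebraAutOnUnits ↥(K₀ P) ↥(Lext P L hKL)) y
  rwa [IsGalois.card_aut_eq_finrank, hn] at h

include hL hle in
/-- **`hcyc`** with its generator `β₀` (a nonzero `p`-torsion class at the place `i₀`). -/
theorem hcyc_at_level (hp2 : p ≠ 2) (hP : Level p S P)
    (hpp : ∃ n : ℕ, Module.finrank ↥(K₀ P) ↥(Lext P L hKL) = p ^ n) (i₀ : R.Idx)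
    (hdvd : p ∣ (levelSub P i₀.1.1 i₀.2.1 L.fixingSubgroup).index) :
    ∃ β₀ : ∀ i : R.Idx, HJ ↥(K₀ P) ↥(Lext P L hKL) (plOf R i), (∀ i, p • β₀ i = 0) ∧
      ∀ c : Fam ↥(K₀ P) ↥(Lext P L hKL), (∀ x : Pl ↥(K₀ P), ¬ x.1 ∈ S → c x = 0) →
        (∃ y, locFam ↥(K₀ P) ↥(Lext P L hKL) y = p • c) →
        ∃ (n : ℕ) (y' : groupCohomology (Rep.ofAlgebraAutOnUnits ↥(K₀ P) ↥(Lext P L hKL)) 2),
          locFam ↥(K₀ P) ↥(Lext P L hKL) y' = c - n • famOf ↥(Lext P L hKL) R β₀ := by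
  classical
  haveI := isGalois_Lext P L hKL
  have hcard : p ∣ Nat.card (HJ ↥(K₀ P) ↥(Lext P L hKL) (plOf R i₀)) := by
    have h := LocSCard.card_H2_Jloc_mAt S P L hL hle hKL i₀.1.1 i₀.2.1
    show p ∣ Nat.card (groupCohomology
      (Jloc ↥(K₀ P) ↥(Lext P L hKL) i₀.1.1 (mAt P i₀.1.1 i₀.2.1)) 2)
    rw [h]
    exact hdvd
  obtain ⟨b₀, hb₀, hne⟩ := ImageFiniteLocal.exists_torsion_ne_zero (Fact.out : p.Prime)
    (plOf R i₀) hcard
  refine ⟨Pi.single i₀ b₀, fun i => ?_, fun c hc hpc => ?_⟩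
  · by_cases hi : i = i₀
    · subst hi
      rw [Pi.single_eq_same]
      exact hb₀
    · rw [Pi.single_eq_of_ne hi, smul_zero]
  · obtain ⟨n, y', hy'⟩ := ImageFiniteClosed.exists_isGlobal_sub_nsmul_single
      (Fact.out : p.Prime) hp2 (LevelField.exists_zeta hP) hpp S c hc hpc (plOf R i₀)
      (plOf_fst_mem R i₀) b₀ hb₀ hne
    refine ⟨n, y', ?_⟩
    rw [famOf_single hP.isOpen R i₀ b₀]
    exact hy'

include hL hle in
/-- **`hadj` for one witness at one level `L`.** -/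
theorem adj_at_level (hp2 : p ≠ 2) (hP : Level p S P)
    (hpp : ∃ n : ℕ, Module.finrank ↥(K₀ P) ↥(Lext P L hKL) = p ^ n) (k : ℕ)
    (hidx : ∀ i : R.Idx, p ^ (k + 1) ∣ (levelSub P i.1.1 i.2.1 L.fixingSubgroup).index)
    (i₀ : R.Idx)
    (b : ImageInstB.ALoc R) (hb : p ^ (k + 1) • b = 0)
    (y : groupCohomology (Rep.ofAlgebraAutOnUnits ↥(K₀ P) ↥(Lext P L hKL)) 2)
    (hysupp : SuppIn S (locFam ↥(K₀ P) ↥(Lext P L hKL) y))
    (hyb : ImageInstB.locK R (ImageLocS.infl L hL hle hKL hV y) = p • b) :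
    ∃ t : ImageInstB.ALoc R, p • t = 0 ∧
      Rel p (ImageInstB.locK R) (ImageInstB.off hP.isOpen) (b - t) := by
  obtain ⟨n, hn⟩ := hpp
  obtain ⟨β₀, hβ₀, hcyc⟩ := hcyc_at_level R L hL hle hKL hp2 hP ⟨n, hn⟩ i₀
    (dvd_trans (dvd_pow_self p (Nat.succ_ne_zero k)) (hidx i₀))
  have htors : ∀ i : R.Idx, ∃ bi, ImageLocS.jAi R L hL hle hKL hV i bi = b i := fun i =>
    exists_jAi_eq R L hL hle hKL hV hP.isOpen i (k + 1) (hidx i) (b i) (congrFun hb i)
  choose bL hbL using htors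
  exact adj_of_fam_supp (A := fun i : R.Idx => Blocks2.BrLoc R i)
    (instA := fun i => (inferInstance : AddCommGroup (Blocks2.BrLoc R i)))
    (F := fun x : Pl ↥(K₀ P) => HJ ↥(K₀ P) ↥(Lext P L hKL) x) p (ImageInstB.locK R) (ImageInstB.off hP.isOpen) (ev R) (ev_ext R)
    (ImageLocS.infl L hL hle hKL hV) (locFam ↥(K₀ P) ↥(Lext P L hKL)) (fun x => x.1 ∈ S)
    (plOf R) (famOf ↥(Lext P L hKL) R) (fun i => ImageLocS.jAi R L hL hle hKL hV i) n
    (fun x hx => exists_plOf_eq R x hx)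
    (fun b i => famOf_plOf ↥(Lext P L hKL) hP.isOpen R b i)
    (fun b x hx => famOf_of_not_mem ↥(Lext P L hKL) R b x hx)
    (fun i => ImageLocS.jAi_injective R L hL hle hKL hV i)
    (fun y i => (ImageLocS.jAi_loc R L hL hle hKL hV i y).symm)
    (fun y hy => LocOffFwd.off_eq_zero_of_suppIn S P L hL hle hKL hV
      (CapDiv.finiteIndex_of_isOpenSub S hP.isOpen) y hy)
    (fun y => hpow_at_level L hKL n hn y)
    β₀ hβ₀ hcyc b bL hbL y hysupp hyb

end Level

/-- **`hadj` of `ImageLevel.divisible_rel`, per witness, for the real objects.** -/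
theorem hadj_witness (hp2 : p ≠ 2) (hpS : pPrime p ∈ S) {P : Subgroup GQ} (hP : Level p S P)
    (hT : SylowType.IsSylowType p S P) (R : Reps S P) (k : ℕ) (b : ImageInstB.ALoc R)
    (z : H2 (basisP S P) (resP P (KS S))) (hb : p ^ (k + 1) • b = 0)
    (hz : ∃ n : ℕ, p ^ n • z = 0) (hzoff : ImageInstB.off hP.isOpen z = 0)
    (hzb : ImageInstB.locK R z = p • b) :
    ∃ t : ImageInstB.ALoc R, p • t = 0 ∧
      Rel p (ImageInstB.locK R) (ImageInstB.off hP.isOpen) (b - t) := by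
  obtain ⟨L, hN, hL, hle, hKL, hK, hL', hfin, hV, -, -, hpp, hidx⟩ :=
    PLevelField.exists_pLevelField hp2 hpS hP hT R (k + 1) 0
  haveI := hN
  haveI := hK
  haveI := hL'
  haveI := hfin
  have hS : S.Nonempty := ⟨pPrime p, hpS⟩
  have hloc : ∀ i : R.Idx, p ^ (k + 1) • (locKS S P i.1.1 i.2.1).h2 z = 0 := by
    intro i
    have h1 : (locKS S P i.1.1 i.2.1).h2 z = p • b i := congrFun hzb i
    have h2 : p ^ (k + 1) • b i = 0 := congrFun hb i
    exact (congrArg (fun t => p ^ (k + 1) • t) h1).trans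
      ((smul_comm (p ^ (k + 1)) p (b i)).trans
        ((congrArg (fun t => p • t) h2).trans (smul_zero p)))
  -- `z = i₂ x`
  obtain ⟨x, j, -, hxz⟩ := ImageDescField.exists_os_lift S p hpS hP.isOpen z hz hzoff
  -- descent to the level `L`
  obtain ⟨y, hy⟩ := ImageDescField.hdesc_field_of_dvd S p hpS (UnramOffAdapter.hasseO hp2 hpS) hP R
    (k + 1) L hL hle hKL hV hidx z hz hzoff hloc
  have hysupp : SuppIn S (locFam ↥(K₀ P) ↥(Lext P L hKL) y) :=
    SuppInOffClosed.suppIn_locFam hS hP.isOpen x L hL hle hKL hV y (hy.trans hxz.symm)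
  have hyb : ImageInstB.locK R (ImageLocS.infl L hL hle hKL hV y) = p • b :=
    (congrArg (ImageInstB.locK R) hy).trans hzb
  exact adj_at_level R L hL hle hKL hV hp2 hP hpp k hidx
    ⟨⟨pPrime p, hpS⟩, ⟨1, R.one_mem _⟩⟩ b hb y hysupp hyb

/-- **The literal `hadj` hypothesis of `ImageLevel.divisible_rel`** for `(P, R)`. -/
theorem hadj (hp2 : p ≠ 2) (hpS : pPrime p ∈ S) {P : Subgroup GQ} (hP : Level p S P)
    (hT : SylowType.IsSylowType p S P) (R : Reps S P) :
    ∀ (k : ℕ) (b : ImageInstB.ALoc R), p ^ (k + 1) • b = 0 →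
      Rel p (ImageInstB.locK R) (ImageInstB.off hP.isOpen) (p • b) →
      ∃ t : ImageInstB.ALoc R, p • t = 0 ∧
        Rel p (ImageInstB.locK R) (ImageInstB.off hP.isOpen) (b - t) :=
  ImageLevelAt.hadj_of_forall_witness p (ImageInstB.locK R) (ImageInstB.off hP.isOpen)
    (fun k b z hb hz hzoff hzb => hadj_witness hp2 hpS hP hT R k b z hb hz hzoff hzb)

/-- **`Blocks3.H2ODivisibleT p S`**: the `p`-primary part of `H²_LC(P; O_S)` is `p`-divisible at every
level `P` of `p`-Sylow type (LC side: `Middle/ImageInstB`, skeleton: `ImageLevel.divisible_rel`). -/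
theorem h2ODivisibleT (hp2 : p ≠ 2) (hpS : pPrime p ∈ S) : Blocks3.H2ODivisibleT p S := by
  intro P hP hT x j hx
  haveI : P.FiniteIndex := CapDiv.finiteIndex_of_isOpenSub S hP.isOpen
  obtain ⟨R⟩ := nonempty_reps (S := S) (P := P)
  have hdivA : ∀ (k : ℕ) (a : ImageInstB.ALoc R), p ^ k • a = 0 →
      ∃ b : ImageInstB.ALoc R, p • b = a := by
    intro k a _
    have h : ∀ i : R.Idx, ∃ bi : Blocks2.BrLoc R i, p • bi = a i := fun i => by
      have hd := Fermat.Agent.S55.LM.DlocTors.h2Divisible p i.1.1 (Dloc P i.1.1 i.2.1)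
        (Fermat.Agent.S55.LM.DlocFields.facts_Dloc S P i.1.1 i.2.1 hP.isOpen)
      obtain ⟨y, hy⟩ := hd (a i)
      exact ⟨y, (Nat.cast_smul_eq_nsmul ℤ p y).symm.trans hy⟩
    choose b hb using h
    exact ⟨b, funext hb⟩
  obtain ⟨y, -, hy⟩ := divisible_rel p (i₂ S P (basisP S P)) (π₂ S P (basisP S P))
    (d₁ (isCont_subBasis S P)) ImageInstB.hexK ImageInstB.hex ImageInstB.hid
    (ImageInstB.hd hP.isOpen) (ImageInstB.hPt p hpS hP.isOpen) (ImageInstB.hPdiv p hpS hP.isOpen)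
    (ImageInstB.locK R) (ImageInstB.off hP.isOpen) (ImageInstB.hoff hP.isOpen)
    (ImageInstB.hres p hpS hP.isOpen)
    (ImageInstB.hbn_of_hasseO p hpS (UnramOffAdapter.hasseO hp2 hpS) hP R) hdivA
    (hadj hp2 hpS hP hT R) x ⟨j, hx⟩
  exact ⟨y, (congrArg (fun n : ℕ => n • y) (pow_succ p j)).trans
    ((mul_smul (p ^ j) p y).trans ((congrArg (fun t => p ^ j • t) hy).trans hx)), hy⟩

end

end Fermat.Agent.S55.Middle.ImageAdjReal
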