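/-
S55 / Middle / ImageDivTop (helper19): the TOP part of the direct proof of
`Blocks3.H2ODivisibleT p S` (the `p`-primary part of `H²_LC(P; O_S)` is `p`-divisible):

  for `P` with `Blocks.Level p S P` and ONE system of representatives `R : Reps S P`, the
  per-witness correction statement `HadjW p hP R` (the family side: one finite Galois level per depth
  `k`, reciprocity + existence of global classes) implies the body of `Blocks3.H2ODivisibleT` at `P`
  (`= KVanishSylow.H2ODivisibleAt p S P`).

* `HadjW p hP R` : for every depth `k`, every tuple `b` of local classes killed by `p^(k+1)` and every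
  `p`-primary class `z` of `H²_LC(P; ℚ_Sˣ)`, locally trivial off `S`, with `locK z = p • b`, there is
  a `p`-torsion tuple `t` such that `b - t` is the family of `S`-components of a `p`-primary class
  locally trivial off `S` (`ImageLevel.Rel`);
* `h2ODivisibleAt_of_hadj` : `HadjW ⇒ H2ODivisibleAt`, through `ImageLevel.divisible_rel` with the
  LC-side hypotheses of `ImageInstB` ((Div) LES, (C1), (C2), (C3) `UnramOffAdapter.hasseO`) and the
  `p`-divisibility of the local groups `H²_LC(D_i; Ω^×)` (`LM.DlocTors.h2Divisible`);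
* `h2ODivisibleT_of_hadj` : the closed form `Blocks3.H2ODivisibleT p S`.
-/
import Fermat.Agent.S55.Middle.ImageInstB
import Fermat.Agent.S55.Middle.ImageLevelAt
import Fermat.Agent.S55.Middle.UnramOffAdapter
import Fermat.Agent.S55.Middle.Blocks3
import Fermat.Agent.S55.LM.DlocFields
import Fermat.Agent.S55.LM.DlocTors

set_option autoImplicit false
set_option linter.unusedSectionVars false
set_option linter.style.haveILetI false

open CategoryTheory ExtCitation

namespace Fermat.Agent.S55.Middle.ImageDivTop

noncomputable section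

open Fermat.Agent.S55.Formal
open Fermat.Agent.S55.Formal.PreludeLC hiding GQ Qbar
open Fermat.Agent.S55.Middle.Defs Fermat.Agent.S55.Middle.KSite
open Fermat.Agent.S55.Middle.Blocks Fermat.Agent.S55.Middle.Blocks2
open Fermat.Agent.S55.Middle.LESGlueV
open Fermat.Agent.S55.Middle.ImageLevel

attribute [local instance] Fermat.Agent.S55.LM.Defs.fact_q

variable (p : ℕ) [Fact p.Prime] {S : Finset Nat.Primes} {P : Subgroup GQ}

/-- **The per-witness correction statement** (`hadj` of `ImageLevel.divisible_rel`, per witness, in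
the language of `ImageInstB`). -/
def HadjW (hP : IsOpenS S P) (R : Reps S P) : Prop :=
  ∀ (k : ℕ) (b : ImageInstB.ALoc R) (z : H2 (basisP S P) (resP P (KS S))),
    p ^ (k + 1) • b = 0 → (∃ n : ℕ, p ^ n • z = 0) → ImageInstB.off hP z = 0 →
      ImageInstB.locK R z = p • b →
        ∃ t : ImageInstB.ALoc R, p • t = 0 ∧
          Rel p (ImageInstB.locK R) (ImageInstB.off hP) (b - t)

variable {p}

/-- the local groups `H²_LC(D_i; Ω^×)` are `p`-divisible. -/
theorem brLoc_divisible (hP : IsOpenS S P) (R : Reps S P) (i : R.Idx) (a : BrLoc R i) :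
    ∃ b : BrLoc R i, p • b = a := by
  obtain ⟨b, hb⟩ := Fermat.Agent.S55.LM.DlocTors.h2Divisible p i.1.1 (Dloc P i.1.1 i.2.1)
    (Fermat.Agent.S55.LM.DlocFields.facts_Dloc S P i.1.1 i.2.1 hP) a
  exact ⟨b, (Nat.cast_smul_eq_nsmul ℤ p b).symm.trans hb⟩

/-- **(C4-div) at one level `P`** from the per-witness correction statement. -/
theorem h2ODivisibleAt_of_hadj (hp2 : p ≠ 2) (hpS : pPrime p ∈ S) (hP : Level p S P)
    (R : Reps S P) (h : HadjW p hP.isOpen R)
    (x : H2 (basisP S P) (resP P (OS S))) (j : ℕ) (hx : p ^ j • x = 0) :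
    ∃ x' : H2 (basisP S P) (resP P (OS S)), p ^ (j + 1) • x' = 0 ∧ p • x' = x := by
  have hH : Blocks.HasseO p S := UnramOffAdapter.hasseO hp2 hpS
  have hdivA' : ∀ (k : ℕ) (a : ImageInstB.ALoc R), p ^ k • a = 0 →
      ∃ b : ImageInstB.ALoc R, p • b = a := by
    intro k a _
    choose b hb using fun i => brLoc_divisible (p := p) hP.isOpen R i (a i)
    exact ⟨b, funext hb⟩
  obtain ⟨y, -, hy⟩ := divisible_rel p (i₂ S P (basisP S P)) (π₂ S P (basisP S P))
    (d₁ (isCont_subBasis S P)) ImageInstB.hexK ImageInstB.hex ImageInstB.hid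
    (ImageInstB.hd hP.isOpen) (ImageInstB.hPt p hpS hP.isOpen)
    (ImageInstB.hPdiv p hpS hP.isOpen) (ImageInstB.locK R) (ImageInstB.off hP.isOpen)
    (ImageInstB.hoff hP.isOpen) (ImageInstB.hres p hpS hP.isOpen)
    (ImageInstB.hbn_of_hasseO p hpS hH hP R) hdivA'
    (ImageLevelAt.hadj_of_forall_witness p (ImageInstB.locK R) (ImageInstB.off hP.isOpen) h)
    x ⟨j, hx⟩
  exact ⟨y, by rw [pow_succ, mul_smul, hy, hx], hy⟩

/-- **`Blocks3.H2ODivisibleT p S`** from the per-witness correction statement at the levels of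
`p`-Sylow type (for ONE system of representatives per level). -/
theorem h2ODivisibleT_of_hadj (hp2 : p ≠ 2) (hpS : pPrime p ∈ S)
    (h : ∀ (P : Subgroup GQ) (hP : Level p S P), SylowType.IsSylowType p S P →
      ∃ R : Reps S P, HadjW p hP.isOpen R) :
    Blocks3.H2ODivisibleT p S := by
  intro P hP hT
  obtain ⟨R, hR⟩ := h P hP hT
  exact h2ODivisibleAt_of_hadj hp2 hpS hP R hR

end

end Fermat.Agent.S55.Middle.ImageDivTop
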