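/-
S55 / MIDDLE block, ImageInst hub, leaf (W1)(a) of the hub cut (report 2383) (helper81).

`hpow` for the real objects: a class of `H²_LC(P; ℚ_Sˣ)` coming from the finite GaloisDict level
`L` (`L/ℚ` normal, unramified outside `S`, `Gal(ℚ̄/L) ≤ P`, `K = K₀ P ≤ L`, `L' = Lext P L hKL`)
is killed by the degree `[L' : K] = #(↥P ⧸ lvl P L)`; in particular it is `p`-primary when the
degree is a power of `p`.

* `card_smul_H2_eq_zero`   : `#G • y = 0` for `y ∈ H²(G, A)`, `G` finite (`Tate/ResCor`);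
* `finrank_smul_eq_zero`   : `[L' : K] • y = 0` for `y ∈ H²(Gal(L'/K), L'ˣ)`;
* `finrank_smul_inv_eq_zero`, `finrank_smul_ι₂_eq_zero` : the same after `cohIsoExt⁻¹` and `ι₂`;
* `exists_pow_smul_ι₂_eq_zero` : `(∃ n, [L' : K] = p ^ n) → ∃ n, p ^ n • ι₂ (cohIsoExt⁻¹ y) = 0`,
  the literal `hz` of `ImageLevel.Rel` for `z = ι₂ (cohIsoExt⁻¹ y)`;
* `index_smul_ι₂_eq_zero`, `exists_pow_smul_ι₂_eq_zero_of_index` : the same with the degree in the
  form `(lvl P L).index` (what `SylowType.exists_pLevel_card` produces).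
-/
import Fermat.Agent.S55.Middle.LocSDefs
import Fermat.Agent.S55.Middle.OSDict
import Fermat.Agent.S55.Tate.ResCor

set_option autoImplicit false
set_option linter.unusedSectionVars false
set_option linter.style.haveILetI false

open CategoryTheory groupCohomology ExtCitation

namespace Fermat.Agent.S55.Middle.ImageHpow

noncomputable section

open Fermat.Agent.S55.Formal
open Fermat.Agent.S55.Formal.PreludeLC hiding GQ Qbar
open Fermat.Agent.S55.Middle.Defs
open Fermat.Agent.S55.Middle.KSite Fermat.Agent.S55.Middle.GaloisDict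
open Fermat.Agent.S55.Middle.GaloisDictModel
open Fermat.Agent.S55.Formal.LCLevelH

/-- `H²(G, A)` is killed by `#G` (`G` finite), for Mathlib's `groupCohomology … 2`. -/
theorem card_smul_H2_eq_zero {k G : Type} [CommRing k] [Group G] [Finite G]
    (A : Rep.{0, 0, 0} k G) (y : groupCohomology A 2) : Nat.card G • y = 0 :=
  Fermat.Agent.S55.Tate.ResCor.card_smul_eq_zero₂ (A := A) y

variable (S : Finset Nat.Primes) (P : Subgroup GQ)
variable (L : IntermediateField ℚ Qbar) [Normal ℚ L] (hL : L.IsUnramifiedOutside S)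
  (hle : L.fixingSubgroup ≤ P) (hKL : K₀ P ≤ L)

include hL in
/-- `H²(Gal(L'/K), L'ˣ)` is killed by the degree `[L' : K]`. -/
theorem finrank_smul_eq_zero
    (y : groupCohomology (Rep.ofAlgebraAutOnUnits ↥(K₀ P) ↥(Lext P L hKL)) 2) :
    Module.finrank ↥(K₀ P) ↥(Lext P L hKL) • y = 0 := by
  haveI := OSDict.isGalois_Lext P L hKL
  haveI := OSDict.finiteDimensional_Lext S P L hKL hL
  rw [← IsGalois.card_aut_eq_finrank]
  exact card_smul_H2_eq_zero _ y

/-- the class at the finite level `↥P ⧸ lvl P L` attached to `y` is killed by `[L' : K]`. -/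
theorem finrank_smul_inv_eq_zero
    (y : groupCohomology (Rep.ofAlgebraAutOnUnits ↥(K₀ P) ↥(Lext P L hKL)) 2) :
    Module.finrank ↥(K₀ P) ↥(Lext P L hKL) • (cohIsoExt S P L hKL hL hle 2).inv.hom y = 0 := by
  rw [← map_nsmul, finrank_smul_eq_zero S P L hL hKL y, map_zero]

variable [Finite (↥P ⧸ lvl P L)] (hV : (basisP S P).mem (lvl P L))

/-- **`hpow`, degree form.**  The class of `H²_LC(P; ℚ_Sˣ)` attached to
`y ∈ H²(Gal(L'/K), L'ˣ)` is killed by `[L' : K]`. -/
theorem finrank_smul_ι₂_eq_zero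
    (y : groupCohomology (Rep.ofAlgebraAutOnUnits ↥(K₀ P) ↥(Lext P L hKL)) 2) :
    Module.finrank ↥(K₀ P) ↥(Lext P L hKL) •
      ι₂ (basisP S P) (resP P (KS S)) (lvl P L) hV
        ((cohIsoExt S P L hKL hL hle 2).inv.hom y) = 0 := by
  rw [← map_nsmul, finrank_smul_inv_eq_zero S P L hL hle hKL y, map_zero]

/-- **`hpow`, `p`-primary form** (the literal first component of `ImageLevel.Rel` for
`z = ι₂ (cohIsoExt⁻¹ y)`). -/
theorem exists_pow_smul_ι₂_eq_zero (p : ℕ)
    (hpp : ∃ n : ℕ, Module.finrank ↥(K₀ P) ↥(Lext P L hKL) = p ^ n)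
    (y : groupCohomology (Rep.ofAlgebraAutOnUnits ↥(K₀ P) ↥(Lext P L hKL)) 2) :
    ∃ n : ℕ, p ^ n • ι₂ (basisP S P) (resP P (KS S)) (lvl P L) hV
      ((cohIsoExt S P L hKL hL hle 2).inv.hom y) = 0 := by
  obtain ⟨n, hn⟩ := hpp
  exact ⟨n, hn ▸ finrank_smul_ι₂_eq_zero S P L hL hle hKL hV y⟩

/-- **`hpow`, index form.** -/
theorem index_smul_ι₂_eq_zero
    (y : groupCohomology (Rep.ofAlgebraAutOnUnits ↥(K₀ P) ↥(Lext P L hKL)) 2) :
    (lvl P L).index • ι₂ (basisP S P) (resP P (KS S)) (lvl P L) hV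
      ((cohIsoExt S P L hKL hL hle 2).inv.hom y) = 0 := by
  have h := finrank_smul_ι₂_eq_zero S P L hL hle hKL hV y
  rwa [OSDict.finrank_Lext S P L hKL hL hle, ← Subgroup.index_eq_card] at h

/-- **`hpow`, `p`-primary form from the index** (`SylowType.exists_pLevel_card`). -/
theorem exists_pow_smul_ι₂_eq_zero_of_index (p : ℕ)
    (hpp : ∃ n : ℕ, (lvl P L).index = p ^ n)
    (y : groupCohomology (Rep.ofAlgebraAutOnUnits ↥(K₀ P) ↥(Lext P L hKL)) 2) :
    ∃ n : ℕ, p ^ n • ι₂ (basisP S P) (resP P (KS S)) (lvl P L) hV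
      ((cohIsoExt S P L hKL hL hle 2).inv.hom y) = 0 := by
  obtain ⟨n, hn⟩ := hpp
  exact ⟨n, hn ▸ index_smul_ι₂_eq_zero S P L hL hle hKL hV y⟩

include hL hle in
/-- the degree `[L' : K]` is the index of the level. -/
theorem finrank_eq_index :
    Module.finrank ↥(K₀ P) ↥(Lext P L hKL) = (lvl P L).index := by
  rw [OSDict.finrank_Lext S P L hKL hL hle, ← Subgroup.index_eq_card]

end

end Fermat.Agent.S55.Middle.ImageHpow
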