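/-
S55 / MIDDLE block, (C4) hub, DIRECT HEDGE for `Blocks3.ImageG3N` (helper77).

End-to-end proof of the body of `Blocks2.ImageG3` at `(P, R)` for `P` with `Blocks.Level p S P` of
`p`-Sylow type (in particular for `P ∈ globalBasis S`), from leaves on main only:

* level chooser            : `PLevelField.exists_pLevelField` (helper74), depth `k = 1`;
* `jA`, `hjA`, `hcA`, `htors` : `BrLocTuples.exists_tuple_of_tors`, `exists_single_tors` (helper72);
* family bookkeeping       : `LocSFam` (helper44);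
* finite-level core        : `ImageFiniteClosed.exists_isGlobal_sub_nsmul`,
                             `not_isGlobal_of_single` (helper34);
* forward (LOC-off)        : `LocOffFwd.ltoff_of_suppIn` (helper13);
* `hpow`                   : `ImageHpow.finrank_smul_eq_zero` (helper81);
* family → `Rel` bridge    : `ImageFamRel.gen_of_fam` (helper16);
* LES side                 : `ImageInstB` (`hexK … hbn_of_hasseO`, helper19) +
                             `ImageLevel.exists_lift_mod_rel` (helper37);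
* (C3)                     : `UnramOffAdapter.hasseO` (helper86).
-/
import Fermat.Agent.S55.Middle.ImageFamRel
import Fermat.Agent.S55.Middle.ImageFiniteClosed
import Fermat.Agent.S55.Middle.BrLocTuples
import Fermat.Agent.S55.Middle.LocOffFwd
import Fermat.Agent.S55.Middle.PLevelField
import Fermat.Agent.S55.Middle.ImageInstB
import Fermat.Agent.S55.Middle.ImageHpow
import Fermat.Agent.S55.Middle.UnramOffAdapter
import Fermat.Agent.S55.Middle.LevelField
import Fermat.Agent.S55.Middle.Blocks3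

set_option autoImplicit false
set_option linter.unusedSectionVars false
set_option linter.style.haveILetI false

open CategoryTheory groupCohomology ExtCitation

namespace Fermat.Agent.S55.Middle.ImageG3Direct

noncomputable section

open Fermat.Agent.S55.Formal
open Fermat.Agent.S55.Formal.PreludeLC hiding GQ Qbar
open Fermat.Agent.S55.Middle.Defs
open Fermat.Agent.S55.Middle.KSite Fermat.Agent.S55.Middle.GaloisDict
open Fermat.Agent.S55.Middle.GaloisDictModel
open Fermat.Agent.S55.Formal.LCLevelH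
open Fermat.Agent.S55.LM.DlocDict
open Fermat.Agent.S55.Middle.LocSFam
open Fermat.Agent.S55.Middle.ImageFiniteCore
open Fermat.Agent.S55.Middle.Blocks Fermat.Agent.S55.Middle.Blocks2
open Fermat.Agent.S55.Middle.LESGlueV
open Fermat.Agent.S55.Middle.ImageLevel

attribute [local instance] Fermat.Agent.S55.LM.Defs.fact_q

variable {p : ℕ} [Fact p.Prime] {S : Finset Nat.Primes} {P : Subgroup GQ}

section Level

variable (R : Reps S P)
  (L : IntermediateField ℚ Qbar) [Normal ℚ L] (hL : L.IsUnramifiedOutside S)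
  (hle : L.fixingSubgroup ≤ P) (hKL : K₀ P ≤ L)
  [NumberField ↥(K₀ P)] [NumberField ↥(Lext P L hKL)] [Finite (↥P ⧸ lvl P L)]
  (hV : (basisP S P).mem (lvl P L))

/-- the family `famOf β` of a tuple supported at one index `i₀` vanishes off `plOf R i₀`. -/
theorem famOf_eq_zero_of_ne (hP : IsOpenS S P) (i₀ : R.Idx)
    (β : ∀ i : R.Idx, HJ ↥(K₀ P) ↥(Lext P L hKL) (plOf R i))
    (hβ : ∀ i : R.Idx, i ≠ i₀ → β i = 0) (x : Pl ↥(K₀ P)) (hx : x ≠ plOf R i₀) :
    famOf ↥(Lext P L hKL) R β x = 0 := by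
  by_cases h : ∃ i : R.Idx, plOf R i = x
  · obtain ⟨i, rfl⟩ := h
    rw [famOf_plOf ↥(Lext P L hKL) hP R β i]
    exact hβ i (fun hi => hx (by rw [hi]))
  · exact famOf_of_not_exists ↥(Lext P L hKL) R β x h

include hL hle hV in
/-- **`hgen` at one level** (the `hgen` hypothesis of `ImageLevel.exists_lift_mod_rel`): modulo the
tautological relation `Rel`, every `p`-torsion tuple of local classes is a multiple of ONE tuple
`a₀` (supported at the place `i₀`). -/
theorem hgen_at_level (hp2 : p ≠ 2) (hpS : pPrime p ∈ S) (hP : Level p S P)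
    (hpp : ∃ n : ℕ, Module.finrank ↥(K₀ P) ↥(Lext P L hKL) = p ^ n)
    (hk : ∀ i : R.Idx, p ^ 1 ∣ (levelSub P i.1.1 i.2.1 L.fixingSubgroup).index) (i₀ : R.Idx) :
    ∃ a₀ : ImageInstB.ALoc R, p • a₀ = 0 ∧
      ∀ a : ImageInstB.ALoc R, p • a = 0 →
        ∃ n : ℕ, Rel p (ImageInstB.locK R) (ImageInstB.off hP.isOpen) (a - n • a₀) := by
  have hp : p.Prime := Fact.out
  haveI : IsGalois ↥(K₀ P) ↥(Lext P L hKL) := OSDict.isGalois_Lext P L hKL
  have hζ : ∃ ζ : ↥(K₀ P), IsPrimitiveRoot ζ p := LevelField.exists_zeta hP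
  obtain ⟨jA, hinj, hcompat, htors⟩ :=
    BrLocTuples.exists_tuple_of_tors (p := p) R L hL hle hKL hV hP.isOpen 1 hk
  -- the generator: a `p`-torsion tuple supported at `i₀`, lifted to the level
  obtain ⟨a₀, ha₀, ha₀ne, ha₀z⟩ := BrLocTuples.exists_single_tors p R hP.isOpen i₀
  obtain ⟨β₀, hβ₀a, hβ₀t⟩ := htors a₀ (fun i => by rw [pow_one]; exact ha₀ i)
  have hβ₀z : ∀ i : R.Idx, i ≠ i₀ → β₀ i = 0 := by
    intro i hi
    apply hinj i
    rw [hβ₀a i, ha₀z i hi, map_zero]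
  have hβ₀ne : β₀ i₀ ≠ 0 := by
    intro h0
    apply ha₀ne
    rw [← hβ₀a i₀, h0, map_zero]
  have hβ₀p : p • β₀ = 0 := by
    funext i
    have := hβ₀t i
    rw [pow_one] at this
    exact this
  -- the family of the generator is not global, `p` times it is
  set c₀ : Fam ↥(K₀ P) ↥(Lext P L hKL) := famOf ↥(Lext P L hKL) R β₀ with hc₀
  have hc₀S : SuppIn S c₀ := suppIn_famOf ↥(Lext P L hKL) R β₀
  have hpc₀ : IsGlobal (p • c₀) := by
    rw [hc₀, ← famOf_nsmul hP.isOpen R p β₀, hβ₀p, famOf_zero]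
    exact isGlobal_zero
  have hng : ¬ IsGlobal c₀ := by
    refine ImageFiniteClosed.not_isGlobal_of_single hp hp2 hζ hpp (plOf R i₀) c₀
      (fun x hx => famOf_eq_zero_of_ne R L hKL hP.isOpen i₀ β₀ hβ₀z x hx) ?_
    rw [hc₀, famOf_plOf ↥(Lext P L hKL) hP.isOpen R β₀ i₀]
    exact hβ₀ne
  -- the hypothesis `hcyc` of `ImageFamRel.gen_of_fam`
  have hcyc : ∀ c : Fam ↥(K₀ P) ↥(Lext P L hKL), (∀ x : Pl ↥(K₀ P), ¬ x.1 ∈ S → c x = 0) →
      (∃ y, locFam ↥(K₀ P) ↥(Lext P L hKL) y = p • c) →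
      ∃ (n : ℕ) (y' : groupCohomology (Rep.ofAlgebraAutOnUnits ↥(K₀ P) ↥(Lext P L hKL)) 2),
        locFam ↥(K₀ P) ↥(Lext P L hKL) y' = c - n • famOf ↥(Lext P L hKL) R β₀ := by
    intro c hc hpc
    obtain ⟨n, y', hy'⟩ := ImageFiniteClosed.exists_isGlobal_sub_nsmul hp hp2 hζ hpp S c c₀
      hc hc₀S hpc hpc₀ hng
    exact ⟨n, y', hy'⟩
  obtain ⟨m, hm⟩ := hpp
  have hfin : P.FiniteIndex := CapDiv.finiteIndex_of_isOpenSub S hP.isOpen
  refine ⟨a₀, ImageInstB.ALoc_ext R (fun i => ha₀ i), fun a ha => ?_⟩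
  obtain ⟨bL, hbLa, -⟩ := htors a (fun i => by rw [pow_one]; exact congrFun ha i)
  have key := @ImageFamRel.gen_of_fam (H2 (basisP S P) (resP P (KS S))) (ImageInstB.H2Div S P)
    (groupCohomology (Rep.ofAlgebraAutOnUnits ↥(K₀ P) ↥(Lext P L hKL)) 2)
    inferInstance inferInstance inferInstance R.Idx (fun i : R.Idx => BrLoc R i)
    (fun i => inferInstance) (Pl ↥(K₀ P)) (fun x => HJ ↥(K₀ P) ↥(Lext P L hKL) x)
    (fun x => inferInstance) p (ImageInstB.locK R) (ImageInstB.off hP.isOpen)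
    (LocOffFwd.inflHom S P L hL hle hKL hV) (locFam ↥(K₀ P) ↥(Lext P L hKL))
    (fun x => x.1 ∈ S) (plOf R) (famOf ↥(Lext P L hKL) R) jA m
    (fun x hx => exists_plOf_eq R x hx)
    (fun b i => famOf_plOf ↥(Lext P L hKL) hP.isOpen R b i)
    (fun b x hx => famOf_of_not_mem ↥(Lext P L hKL) R b x hx)
    hinj
    (fun y i => (hcompat i y).symm)
    (fun y hy => (ImageInstB.off_eq_zero_iff hP.isOpen _).2
      (LocOffFwd.ltoff_of_suppIn S P L hL hle hKL hV hfin y hy))
    (fun y => by rw [← hm]; exact ImageHpow.finrank_smul_eq_zero S P L hL hKL y)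
    β₀ hcyc bL
    (funext fun i => by
      show p • jA i (bL i) = 0
      rw [hbLa i]
      exact congrFun ha i)
  obtain ⟨n, z, hz, hzoff, hzl⟩ := key
  refine ⟨n, z, hz, hzoff, hzl.trans (ImageInstB.ALoc_ext R fun i => ?_)⟩
  show jA i (bL i) - n • jA i (β₀ i) = a i - n • a₀ i
  rw [hbLa i, hβ₀a i]

end Level

/-- **(C4-G3) at one `(P, R)`**, `P` of `p`-Sylow type: the literal body of `Blocks2.ImageG3`. -/
theorem imageG3_at (hp2 : p ≠ 2) (hpS : pPrime p ∈ S) (hP : Level p S P)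
    (hT : SylowType.IsSylowType p S P) (R : Reps S P) :
    ∃ a₀ : ∀ i : R.Idx, BrLoc R i, (∀ i, p • a₀ i = 0) ∧
      ∀ a : ∀ i : R.Idx, BrLoc R i, (∀ i, p • a i = 0) →
        ∃ (n : ℕ) (x : H2 (basisP S P) (resP P (OS S))), p • x = 0 ∧
          ∀ i : R.Idx, (locOS S P i.1.1 i.2.1).h2 x = a i - n • a₀ i := by
  obtain ⟨L, hLn, hL, hle, hKL, hK, hL', hfin, hV, -, -, hpp, hk⟩ :=
    PLevelField.exists_pLevelField hp2 hpS hP hT R 1 0
  haveI := hLn
  haveI := hK
  haveI := hL'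
  haveI := hfin
  have hH : Blocks.HasseO p S := UnramOffAdapter.hasseO hp2 hpS
  let i₀ : R.Idx := ⟨⟨pPrime p, hpS⟩, ⟨1, R.one_mem _⟩⟩
  obtain ⟨a₀, ha₀, hgen⟩ := hgen_at_level R L hL hle hKL hV hp2 hpS hP hpp hk i₀
  refine ⟨a₀, fun i => congrFun ha₀ i, fun (a : ImageInstB.ALoc R) ha => ?_⟩
  have ha' : p • a = 0 := funext ha
  obtain ⟨n, x, hx, hxa⟩ := exists_lift_mod_rel p (i₂ S P (basisP S P)) (π₂ S P (basisP S P))
    (d₁ (isCont_subBasis S P)) ImageInstB.hexK ImageInstB.hex ImageInstB.hid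
    (ImageInstB.hPdiv p hpS hP.isOpen) (ImageInstB.locK R) (ImageInstB.off hP.isOpen)
    (ImageInstB.hoff hP.isOpen) (ImageInstB.hres p hpS hP.isOpen)
    (ImageInstB.hbn_of_hasseO p hpS hH hP R) a₀ ha₀ hgen a ha'
  refine ⟨n, x, hx, fun i => ?_⟩
  rw [← ImageInstB.locK_i₂ R x i, hxa]
  rfl

/-- **`Blocks3.ImageG3N p S`**, unconditionally (`p` odd, `p ∈ S`). -/
theorem imageG3N (hp2 : p ≠ 2) (hpS : pPrime p ∈ S) : Blocks3.ImageG3N p S :=
  fun _ hP hPn R => imageG3_at hp2 hpS hP (SylowType.isSylowType_of_mem hPn) R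

end

end Fermat.Agent.S55.Middle.ImageG3Direct
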