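/-
S55 / MIDDLE block, ImageInst hub (helper80): DIRECT forms of `Blocks3.ImageG3N` and `Blocks3.ImageNSSN`,
twins of `Middle/ImageAdjReal` (same LC side `Middle/ImageInstB`, same finite-level leaves).

* `gen_of_fam_ev` : abstract `hgen` (variant of `ImageFamRel.gen_of_fam`, target group `AA` with jointly
  injective evaluations);
* `gen_at_level`  : its instantiation at one finite Galois level;
* `imageG3N`      : `Blocks3.ImageG3N p S`;
* `imageNSSN`     : `Blocks3.ImageNSSN p S` (`ImageFiniteClosed.not_isGlobal_of_single` applied to the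
  family of localisations of the descended class itself).
-/
import Fermat.Agent.S55.Middle.ImageAdjReal

set_option autoImplicit false
set_option linter.unusedSectionVars false
set_option linter.style.haveILetI false

open CategoryTheory groupCohomology ExtCitation

namespace Fermat.Agent.S55.Middle.ImageG3NSSReal

open Fermat.Agent.S55.Middle.ImageLevel Fermat.Agent.S55.Middle.ImageFamRel
open Fermat.Agent.S55.Middle.ImageAdjReal

section Abs

variable {H2K Dv H2L AA : Type*} [AddCommGroup H2K] [AddCommGroup Dv] [AddCommGroup H2L]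
  [AddCommGroup AA]
  {I : Type*} {A : I → Type*} [instA : ∀ i, AddCommGroup (A i)]
  {X : Type*} {F : X → Type*} [instF : ∀ x, AddCommGroup (F x)]

/-- **`hgen`, family form**: a `p`-torsion element `b` of `AA` coming from the level is, modulo `Rel`,
a multiple of `a₀` (the element with components `jA i (β₀ i)`). -/
theorem gen_of_fam_ev (p : ℕ) (locK : H2K →+ AA) (off : H2K →+ Dv)
    (ev : ∀ i, AA →+ A i) (hev : ∀ a : AA, (∀ i, ev i a = 0) → a = 0)
    (infl : H2L →+ H2K) (locFam : H2L →+ (∀ x, F x)) (inS : X → Prop) (pl : I → X)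
    (famOf : (∀ i, F (pl i)) → (∀ x, F x)) (jA : ∀ i, F (pl i) →+ A i) (m : ℕ)
    (hcov : ∀ x, inS x → ∃ i, pl i = x)
    (hfpl : ∀ b i, famOf b (pl i) = b i) (hfoff : ∀ b x, ¬ inS x → famOf b x = 0)
    (hjA : ∀ i, Function.Injective (jA i))
    (hcA : ∀ y i, ev i (locK (infl y)) = jA i (locFam y (pl i)))
    (hoff₁ : ∀ y, (∀ x, ¬ inS x → locFam y x = 0) → off (infl y) = 0)
    (hpow : ∀ y : H2L, p ^ m • y = 0)
    (β₀ : ∀ i, F (pl i)) (a₀ : AA) (ha₀ : ∀ i, ev i a₀ = jA i (β₀ i))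
    (hcyc : ∀ c : (∀ x, F x), (∀ x, ¬ inS x → c x = 0) → (∃ y, locFam y = p • c) →
      ∃ (n : ℕ) (y' : H2L), locFam y' = c - n • famOf β₀)
    (b : AA) (bL : ∀ i, F (pl i)) (hbL : ∀ i, jA i (bL i) = ev i b) (hb : p • b = 0) :
    ∃ n : ℕ, Rel p locK off (b - n • a₀) := by
  have hbL0 : ∀ i, p • bL i = 0 := by
    intro i
    apply hjA i
    rw [map_nsmul, map_zero, hbL i, ← map_nsmul, hb, map_zero]
  have hglob : locFam 0 = p • famOf bL := by
    rw [map_zero]
    refine fam_ext inS pl hcov _ _ (fun i => ?_) (fun x hx => ?_)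
    · rw [Pi.smul_apply, hfpl, hbL0]
      rfl
    · rw [Pi.smul_apply, hfoff bL x hx, smul_zero]
      rfl
  obtain ⟨n, y', hy'⟩ := hcyc (famOf bL) (fun x hx => hfoff bL x hx) ⟨0, hglob⟩
  refine ⟨n, infl y', ⟨m, ?_⟩, ?_, ?_⟩
  · rw [← map_nsmul, hpow, map_zero]
  · apply hoff₁
    intro x hx
    rw [hy', Pi.sub_apply, Pi.smul_apply, hfoff bL x hx, hfoff β₀ x hx, smul_zero, sub_zero]
  · have h0 : locK (infl y') - (b - n • a₀) = 0 := by
      apply hev
      intro i
      have h3 : locFam y' (pl i) = bL i - n • β₀ i := by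
        rw [hy', Pi.sub_apply, Pi.smul_apply, hfpl, hfpl]
      rw [map_sub, map_sub, map_nsmul, hcA, h3, ha₀, ← hbL i, map_sub, map_nsmul, sub_self]
    exact sub_eq_zero.1 h0

end Abs

noncomputable section

open Fermat.Agent.S55.Formal
open Fermat.Agent.S55.Formal.PreludeLC hiding GQ Qbar
open Fermat.Agent.S55.Middle.Defs
open Fermat.Agent.S55.Middle.KSite Fermat.Agent.S55.Middle.GaloisDict
open Fermat.Agent.S55.Middle.GaloisDictModel
open Fermat.Agent.S55.Global.Blocks3 Fermat.Agent.S55.Global.Objects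
open Fermat.Agent.S55.Formal.LCLevelH
open Fermat.Agent.S55.LM.DlocDict
open Fermat.Agent.S55.Middle.LocS
open Fermat.Agent.S55.Middle.Blocks Fermat.Agent.S55.Middle.LESGlueV
open Fermat.Agent.S55.Middle.ImageFiniteCore
open Fermat.Agent.S55.Middle.LocSFam

attribute [local instance] Fermat.Agent.S55.LM.Defs.fact_q
attribute [local instance] Fermat.Agent.S55.Global.SemilocalH3.finiteDimensional_nf

variable {p : ℕ} [Fact p.Prime] {S : Finset Nat.Primes} {P : Subgroup GQ}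

section Level

variable (R : Reps S P) (L : IntermediateField ℚ Qbar) [Normal ℚ L] (hL : L.IsUnramifiedOutside S)
  (hle : L.fixingSubgroup ≤ P) (hKL : K₀ P ≤ L)
  [NumberField ↥(K₀ P)] [NumberField ↥(Lext P L hKL)] [Finite (↥P ⧸ lvl P L)]
  (hV : (basisP S P).mem (lvl P L))

include hL hle hV in
/-- **`hgen` at one level `L`** with its generator `a₀`. -/
theorem gen_at_level (hp2 : p ≠ 2) (hP : Level p S P)
    (hpp : ∃ n : ℕ, Module.finrank ↥(K₀ P) ↥(Lext P L hKL) = p ^ n)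
    (hidx : ∀ i : R.Idx, p ^ 1 ∣ (levelSub P i.1.1 i.2.1 L.fixingSubgroup).index)
    (i₀ : R.Idx) :
    ∃ a₀ : ImageInstB.ALoc R, p • a₀ = 0 ∧
      ∀ b : ImageInstB.ALoc R, p • b = 0 →
        ∃ n : ℕ, Rel p (ImageInstB.locK R) (ImageInstB.off hP.isOpen) (b - n • a₀) := by
  obtain ⟨n, hn⟩ := hpp
  obtain ⟨β₀, hβ₀, hcyc⟩ := hcyc_at_level R L hL hle hKL hp2 hP ⟨n, hn⟩ i₀
    (dvd_trans (dvd_of_eq (pow_one p).symm) (hidx i₀))
  refine ⟨fun i => ImageLocS.jAi R L hL hle hKL hV i (β₀ i), funext fun i => ?_, fun b hb => ?_⟩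
  · exact (map_nsmul (ImageLocS.jAi R L hL hle hKL hV i) p (β₀ i)).symm.trans
      ((congrArg (ImageLocS.jAi R L hL hle hKL hV i) (hβ₀ i)).trans (map_zero _))
  · have htors : ∀ i : R.Idx, ∃ bi, ImageLocS.jAi R L hL hle hKL hV i bi = b i := fun i =>
      exists_jAi_eq R L hL hle hKL hV hP.isOpen i 1 (hidx i) (b i)
        ((congrArg (fun n : ℕ => n • b i) (pow_one p)).trans (congrFun hb i))
    choose bL hbL using htors
    exact gen_of_fam_ev (A := fun i : R.Idx => Blocks2.BrLoc R i)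
      (instA := fun i => (inferInstance : AddCommGroup (Blocks2.BrLoc R i)))
      (F := fun x : Pl ↥(K₀ P) => HJ ↥(K₀ P) ↥(Lext P L hKL) x) p (ImageInstB.locK R)
      (ImageInstB.off hP.isOpen) (ev R) (ev_ext R)
      (ImageLocS.infl L hL hle hKL hV) (locFam ↥(K₀ P) ↥(Lext P L hKL)) (fun x => x.1 ∈ S)
      (plOf R) (famOf ↥(Lext P L hKL) R) (fun i => ImageLocS.jAi R L hL hle hKL hV i) n
      (fun x hx => exists_plOf_eq R x hx)
      (fun b i => famOf_plOf ↥(Lext P L hKL) hP.isOpen R b i)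
      (fun b x hx => famOf_of_not_mem ↥(Lext P L hKL) R b x hx)
      (fun i => ImageLocS.jAi_injective R L hL hle hKL hV i)
      (fun y i => (ImageLocS.jAi_loc R L hL hle hKL hV i y).symm)
      (fun y hy => LocOffFwd.off_eq_zero_of_suppIn S P L hL hle hKL hV
        (CapDiv.finiteIndex_of_isOpenSub S hP.isOpen) y hy)
      (fun y => hpow_at_level L hKL n hn y)
      β₀ (fun i => ImageLocS.jAi R L hL hle hKL hV i (β₀ i)) (fun _ => rfl) hcyc b bL hbL hb

end Level

/-- elimination form of `PLevelField.exists_pLevelField` (destructuring it by `obtain` inside a goal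
living over the `K`-site is slow). -/
theorem level_elim (hp2 : p ≠ 2) (hpS : pPrime p ∈ S) {P : Subgroup GQ} (hP : Level p S P)
    (hT : SylowType.IsSylowType p S P) (R : Reps S P) (k : ℕ) {C : Prop}
    (h : ∀ (L : IntermediateField ℚ Qbar) [Normal ℚ L] (_ : L.IsUnramifiedOutside S)
      (_ : L.fixingSubgroup ≤ P) (hKL : K₀ P ≤ L) [NumberField ↥(K₀ P)]
      [NumberField ↥(Lext P L hKL)] [Finite (↥P ⧸ lvl P L)] (_ : (basisP S P).mem (lvl P L)),
      (∃ n : ℕ, Module.finrank ↥(K₀ P) ↥(Lext P L hKL) = p ^ n) →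
      (∀ i : R.Idx, p ^ k ∣ (levelSub P i.1.1 i.2.1 L.fixingSubgroup).index) → C) : C := by
  obtain ⟨L, hN, hL, hle, hKL, hK, hL', hfin, hV, -, -, hpp, hidx⟩ :=
    PLevelField.exists_pLevelField hp2 hpS hP hT R k 0
  exact @h L hN hL hle hKL hK hL' hfin hV hpp hidx

set_option maxHeartbeats 4000000 in
/-- **(C4-G3)** for one `(P, R)`, `P` of `p`-Sylow type. -/
theorem imageG3_at (hp2 : p ≠ 2) (hpS : pPrime p ∈ S) {P : Subgroup GQ} (hP : Level p S P)
    (hT : SylowType.IsSylowType p S P) (R : Reps S P) :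
    ∃ a₀ : ∀ i : R.Idx, Blocks2.BrLoc R i, (∀ i, p • a₀ i = 0) ∧
      ∀ a : ∀ i : R.Idx, Blocks2.BrLoc R i, (∀ i, p • a i = 0) →
        ∃ (n : ℕ) (x : H2 (basisP S P) (resP P (OS S))), p • x = 0 ∧
          ∀ i : R.Idx, (locOS S P i.1.1 i.2.1).h2 x = a i - n • a₀ i := by
  refine level_elim hp2 hpS hP hT R 1 (fun L _ hL hle hKL _ _ _ hV hpp hidx => ?_)
  obtain ⟨a₀, ha₀, hgen⟩ := gen_at_level R L hL hle hKL hV hp2 hP hpp hidx
    ⟨⟨pPrime p, hpS⟩, ⟨1, R.one_mem _⟩⟩
  refine ⟨a₀, fun i => congrFun ha₀ i, fun (a : ImageInstB.ALoc R) ha => ?_⟩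
  have ha' : p • a = 0 := funext ha
  obtain ⟨n, x, hx, hxa⟩ := exists_lift_mod_rel p (i₂ S P (basisP S P)) (π₂ S P (basisP S P))
    (d₁ (isCont_subBasis S P)) ImageInstB.hexK ImageInstB.hex ImageInstB.hid
    (ImageInstB.hPdiv p hpS hP.isOpen) (ImageInstB.locK R) (ImageInstB.off hP.isOpen)
    (ImageInstB.hoff hP.isOpen) (ImageInstB.hres p hpS hP.isOpen)
    (ImageInstB.hbn_of_hasseO p hpS (UnramOffAdapter.hasseO hp2 hpS) hP R) a₀ ha₀ hgen a ha'
  refine ⟨n, x, hx, fun i => ?_⟩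
  exact (ImageInstB.locK_i₂ R x i).symm.trans (congrFun hxa i)

/-- **`Blocks3.ImageG3N p S`.** -/
theorem imageG3N (hp2 : p ≠ 2) (hpS : pPrime p ∈ S) : Blocks3.ImageG3N p S :=
  fun _ hP hmem R => imageG3_at hp2 hpS hP (SylowType.isSylowType_of_mem hmem) R

set_option maxHeartbeats 4000000 in
/-- **(C4-NSS)** for one `(P, R)`, `P` of `p`-Sylow type. -/
theorem imageNSS_at (hp2 : p ≠ 2) (hpS : pPrime p ∈ S) {P : Subgroup GQ} (hP : Level p S P)
    (hT : SylowType.IsSylowType p S P) (R : Reps S P)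
    (x : H2 (basisP S P) (resP P (OS S))) (hx : p • x = 0) (i₀ : R.Idx)
    (h : ∀ i : R.Idx, i ≠ i₀ → (locOS S P i.1.1 i.2.1).h2 x = 0) :
    (locOS S P i₀.1.1 i₀.2.1).h2 x = 0 := by
  refine level_elim hp2 hpS hP hT R 1 (fun L _ hL hle hKL _ _ _ hV hpp hidx => ?_)
  haveI := isGalois_Lext P L hKL
  have hS : S.Nonempty := ⟨pPrime p, hpS⟩
  have hz : ∃ n : ℕ, p ^ n • i₂ S P (basisP S P) x = 0 :=
    ⟨1, (congrArg (fun n : ℕ => n • i₂ S P (basisP S P) x) (pow_one p)).trans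
      ((map_nsmul (i₂ S P (basisP S P)) p x).symm.trans
        ((congrArg (i₂ S P (basisP S P)) hx).trans (map_zero _)))⟩
  have hloc : ∀ i : R.Idx, p ^ 1 • (locKS S P i.1.1 i.2.1).h2 (i₂ S P (basisP S P) x) = 0 := by
    intro i
    exact (congrArg (fun n : ℕ => n • (locKS S P i.1.1 i.2.1).h2 (i₂ S P (basisP S P) x))
      (pow_one p)).trans ((map_nsmul (locKS S P i.1.1 i.2.1).h2 p _).symm.trans
        ((congrArg (locKS S P i.1.1 i.2.1).h2
          ((map_nsmul (i₂ S P (basisP S P)) p x).symm.trans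
            ((congrArg (i₂ S P (basisP S P)) hx).trans (map_zero _)))).trans (map_zero _)))
  obtain ⟨y, hy⟩ := ImageDescField.hdesc_field_of_dvd S p hpS (UnramOffAdapter.hasseO hp2 hpS) hP R
    1 L hL hle hKL hV hidx (i₂ S P (basisP S P) x) hz (ImageInstB.hoff hP.isOpen x) hloc
  have hysupp : SuppIn S (locFam ↥(K₀ P) ↥(Lext P L hKL) y) :=
    SuppInOffClosed.suppIn_locFam hS hP.isOpen x L hL hle hKL hV y hy
  -- components of `locFam y` at the places of the `K`-site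
  have hcomp : ∀ i : R.Idx, ImageLocS.jAi R L hL hle hKL hV i
      (locFam ↥(K₀ P) ↥(Lext P L hKL) y (plOf R i)) = (locOS S P i.1.1 i.2.1).h2 x := fun i =>
    (ImageLocS.jAi_loc R L hL hle hKL hV i y).trans
      ((congrArg (locKS S P i.1.1 i.2.1).h2 hy).trans (HasseOStep.locKS_i₂ S P i.1.1 i.2.1 x))
  by_contra hne
  have h0 : locFam ↥(K₀ P) ↥(Lext P L hKL) y (plOf R i₀) ≠ 0 := by
    intro h0
    apply hne
    exact (hcomp i₀).symm.trans ((congrArg (ImageLocS.jAi R L hL hle hKL hV i₀) h0).trans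
      (map_zero _))
  have hsupp : ∀ x' : Pl ↥(K₀ P), x' ≠ plOf R i₀ →
      locFam ↥(K₀ P) ↥(Lext P L hKL) y x' = 0 := by
    intro x' hx'
    by_cases hxS : x'.1 ∈ S
    · obtain ⟨i, rfl⟩ := exists_plOf_eq R x' hxS
      have hi : i ≠ i₀ := fun e => hx' (congrArg (plOf R) e)
      apply ImageLocS.jAi_injective R L hL hle hKL hV i
      exact (hcomp i).trans ((h i hi).trans (map_zero _).symm)
    · exact hysupp x' hxS
  exact ImageFiniteClosed.not_isGlobal_of_single (Fact.out : p.Prime) hp2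
    (LevelField.exists_zeta hP) hpp (plOf R i₀) (locFam ↥(K₀ P) ↥(Lext P L hKL) y) hsupp h0
    ⟨y, rfl⟩

/-- **`Blocks3.ImageNSSN p S`.** -/
theorem imageNSSN (hp2 : p ≠ 2) (hpS : pPrime p ∈ S) : Blocks3.ImageNSSN p S :=
  fun _ hP hmem R x hx i₀ h =>
    imageNSS_at hp2 hpS hP (SylowType.isSylowType_of_mem hmem) R x hx i₀ h

end

end Fermat.Agent.S55.Middle.ImageG3NSSReal
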