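/-
S55 / MIDDLE block, ImageInst hub (helper16): DIRECT closed forms of the two remaining image outputs
`Blocks3.ImageNSSN p S` and `Blocks3.ImageG3N p S` for the REAL objects, on the pattern of
`Middle/ImageAdjReal` (helper80), in the LC language of `Middle/ImageInstB` (`ALoc R`, `locK R`,
`off hP`).  HEDGE of the `LevelDatum` route (`LevelDatumInst` + `ImageHubClosed`).

* `gen_at_level` : `hgen` of `ImageLevel.exists_lift_mod_rel` at ONE finite Galois level `L` whose local
  indices at the representatives are divisible by `p` (no descent is needed: the classes are produced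
  at the level `L`);
* `imageG3_at` : the literal body of `Blocks2.ImageG3` at `(P, R)`, `P` of `p`-Sylow type;
* `imageNSS_at` : the literal body of `Blocks2.ImageNSS` at `(P, R)`: the class is descended to a level
  (`ImageDescField.hdesc_field_of_dvd`), its family of localisations is supported in `S`
  (`SuppInOffClosed.suppIn_locFam`) and at the single place `i₀`, hence vanishes
  (`ImageFiniteClosed.not_isGlobal_of_single`);
* `imageG3N`, `imageNSSN` : the closed forms at the members of `globalBasis S`.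
-/
import Fermat.Agent.S55.Middle.ImageAdjReal
import Fermat.Agent.S55.Middle.SylowType
import Fermat.Agent.S55.Middle.LevelField

set_option autoImplicit false
set_option linter.unusedSectionVars false
set_option linter.style.haveILetI false

open CategoryTheory groupCohomology ExtCitation

namespace Fermat.Agent.S55.Middle.ImageGenNssReal

open Fermat.Agent.S55.Middle.ImageLevel

noncomputable section

open Fermat.Agent.S55.Formal
open Fermat.Agent.S55.Formal.PreludeLC hiding GQ Qbar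
open Fermat.Agent.S55.Middle.Defs
open Fermat.Agent.S55.Middle.KSite Fermat.Agent.S55.Middle.GaloisDict
open Fermat.Agent.S55.Middle.GaloisDictModel
open Fermat.Agent.S55.Global.Blocks3 Fermat.Agent.S55.Global.Objects
open Fermat.Agent.S55.Formal.LCLevelH
open Fermat.Agent.S55.LM.DlocDict
open Fermat.Agent.S55.Middle.LocS
open Fermat.Agent.S55.Middle.Blocks Fermat.Agent.S55.Middle.LESGlueV
open Fermat.Agent.S55.Middle.ImageFiniteCore
open Fermat.Agent.S55.Middle.LocSFam

attribute [local instance] Fermat.Agent.S55.LM.Defs.fact_q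
attribute [local instance] Fermat.Agent.S55.Global.SemilocalH3.finiteDimensional_nf

variable {p : ℕ} [Fact p.Prime] {S : Finset Nat.Primes} {P : Subgroup GQ}

section Level

variable (R : Reps S P) (L : IntermediateField ℚ Qbar) [Normal ℚ L] (hL : L.IsUnramifiedOutside S)
  (hle : L.fixingSubgroup ≤ P) (hKL : K₀ P ≤ L)
  [NumberField ↥(K₀ P)] [NumberField ↥(Lext P L hKL)] [Finite (↥P ⧸ lvl P L)]
  (hV : (basisP S P).mem (lvl P L))

include hL hle hV in
/-- **`hgen` at one level `L`** (with its generator `a₀`). -/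
theorem gen_at_level (hp2 : p ≠ 2) (hP : Level p S P)
    (hpp : ∃ n : ℕ, Module.finrank ↥(K₀ P) ↥(Lext P L hKL) = p ^ n)
    (hidx : ∀ i : R.Idx, p ^ 1 ∣ (levelSub P i.1.1 i.2.1 L.fixingSubgroup).index)
    (i₀ : R.Idx) :
    ∃ a₀ : ImageInstB.ALoc R, p • a₀ = 0 ∧ ∀ a : ImageInstB.ALoc R, p • a = 0 →
      ∃ n : ℕ, Rel p (ImageInstB.locK R) (ImageInstB.off hP.isOpen) (a - n • a₀) := by
  obtain ⟨n, hn⟩ := hpp
  obtain ⟨β₀, hβ₀, hcyc⟩ := ImageAdjReal.hcyc_at_level R L hL hle hKL hp2 hP ⟨n, hn⟩ i₀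
    (dvd_trans (dvd_pow_self p one_ne_zero) (hidx i₀))
  refine ⟨fun i => ImageLocS.jAi R L hL hle hKL hV i (β₀ i), ?_, fun a ha => ?_⟩
  · funext i
    show p • ImageLocS.jAi R L hL hle hKL hV i (β₀ i) = 0
    exact (map_nsmul (ImageLocS.jAi R L hL hle hKL hV i) p (β₀ i)).symm.trans
      ((congrArg (ImageLocS.jAi R L hL hle hKL hV i) (hβ₀ i)).trans
        (map_zero (ImageLocS.jAi R L hL hle hKL hV i)))
  · have htors : ∀ i : R.Idx, ∃ bi : HJ ↥(K₀ P) ↥(Lext P L hKL) (plOf R i),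
        ImageLocS.jAi R L hL hle hKL hV i bi = a i := fun i =>
      ImageAdjReal.exists_jAi_eq R L hL hle hKL hV hP.isOpen i 1 (hidx i) (a i)
        ((congrArg (fun t : ℕ => t • a i) (pow_one p)).trans (congrFun ha i))
    choose bL hbL using htors
    have hbL0 : ∀ i : R.Idx, p • bL i = 0 := fun i => by
      apply ImageLocS.jAi_injective R L hL hle hKL hV i
      exact (map_nsmul (ImageLocS.jAi R L hL hle hKL hV i) p (bL i)).trans
        ((congrArg (fun t => p • t) (hbL i)).trans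
          ((congrFun ha i).trans (map_zero (ImageLocS.jAi R L hL hle hKL hV i)).symm))
    have hpc : p • famOf ↥(Lext P L hKL) R bL = 0 := by
      funext x
      by_cases hx : x.1 ∈ S
      · obtain ⟨i, rfl⟩ := exists_plOf_eq R x hx
        rw [Pi.smul_apply, famOf_plOf ↥(Lext P L hKL) hP.isOpen R bL i]
        exact hbL0 i
      · rw [Pi.smul_apply, famOf_of_not_mem ↥(Lext P L hKL) R bL x hx, smul_zero]
        rfl
    obtain ⟨m, y', hy'⟩ := hcyc (famOf ↥(Lext P L hKL) R bL)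
      (fun x hx => famOf_of_not_mem ↥(Lext P L hKL) R bL x hx)
      ⟨0, by rw [map_zero, hpc]⟩
    refine ⟨m, ImageLocS.infl L hL hle hKL hV y', ⟨n, ?_⟩, ?_, ?_⟩
    · rw [← map_nsmul, ImageAdjReal.hpow_at_level L hKL n hn, map_zero]
    · apply LocOffFwd.off_eq_zero_of_suppIn S P L hL hle hKL hV
        (CapDiv.finiteIndex_of_isOpenSub S hP.isOpen) y'
      intro x hx
      rw [hy', Pi.sub_apply, Pi.smul_apply, famOf_of_not_mem ↥(Lext P L hKL) R bL x hx,
        famOf_of_not_mem ↥(Lext P L hKL) R β₀ x hx, smul_zero, sub_zero]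
    · funext i
      have h1 : ImageInstB.locK R (ImageLocS.infl L hL hle hKL hV y') i =
          ImageLocS.jAi R L hL hle hKL hV i
            (locFam ↥(K₀ P) ↥(Lext P L hKL) y' (plOf R i)) :=
        (ImageLocS.jAi_loc R L hL hle hKL hV i y').symm
      have h2 : locFam ↥(K₀ P) ↥(Lext P L hKL) y' (plOf R i) = bL i - m • β₀ i := by
        rw [hy', Pi.sub_apply, Pi.smul_apply, famOf_plOf ↥(Lext P L hKL) hP.isOpen R bL i,
          famOf_plOf ↥(Lext P L hKL) hP.isOpen R β₀ i]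
      show ImageInstB.locK R (ImageLocS.infl L hL hle hKL hV y') i =
        a i - m • ImageLocS.jAi R L hL hle hKL hV i (β₀ i)
      rw [h1, h2]
      exact (map_sub (ImageLocS.jAi R L hL hle hKL hV i) (bL i) (m • β₀ i)).trans
        (congrArg₂ (fun u v => u - v) (hbL i)
          (map_nsmul (ImageLocS.jAi R L hL hle hKL hV i) m (β₀ i)))

end Level

/-- **`hgen` of `ImageLevel.exists_lift_mod_rel` for the real objects** at a level of `p`-Sylow type. -/
theorem hgen (hp2 : p ≠ 2) (hpS : pPrime p ∈ S) {P : Subgroup GQ} (hP : Level p S P)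
    (hT : SylowType.IsSylowType p S P) (R : Reps S P) :
    ∃ a₀ : ImageInstB.ALoc R, p • a₀ = 0 ∧ ∀ a : ImageInstB.ALoc R, p • a = 0 →
      ∃ n : ℕ, Rel p (ImageInstB.locK R) (ImageInstB.off hP.isOpen) (a - n • a₀) := by
  obtain ⟨L, hN, hL, hle, hKL, hK, hL', hfin, hV, -, -, hpp, hidx⟩ :=
    PLevelField.exists_pLevelField hp2 hpS hP hT R 1 0
  haveI := hN
  haveI := hK
  haveI := hL'
  haveI := hfin
  exact gen_at_level R L hL hle hKL hV hp2 hP hpp hidx ⟨⟨pPrime p, hpS⟩, ⟨1, R.one_mem _⟩⟩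

/-- **The body of `Blocks2.ImageG3` at `(P, R)`**, `P` of `p`-Sylow type. -/
theorem imageG3_at (hp2 : p ≠ 2) (hpS : pPrime p ∈ S) {P : Subgroup GQ} (hP : Level p S P)
    (hT : SylowType.IsSylowType p S P) (R : Reps S P) :
    ∃ a₀ : ∀ i : R.Idx, Blocks2.BrLoc R i, (∀ i, p • a₀ i = 0) ∧
      ∀ a : ∀ i : R.Idx, Blocks2.BrLoc R i, (∀ i, p • a i = 0) →
        ∃ (n : ℕ) (x : H2 (basisP S P) (resP P (OS S))), p • x = 0 ∧
          ∀ i : R.Idx, (locOS S P i.1.1 i.2.1).h2 x = a i - n • a₀ i := by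
  obtain ⟨a₀, ha₀, hg⟩ := hgen hp2 hpS hP hT R
  refine ⟨a₀, fun i => congrFun ha₀ i, fun (a : ImageInstB.ALoc R) ha => ?_⟩
  have ha' : p • a = 0 := funext ha
  obtain ⟨n, x, hx, hxa⟩ := exists_lift_mod_rel p (i₂ S P (basisP S P)) (π₂ S P (basisP S P))
    (d₁ (isCont_subBasis S P)) ImageInstB.hexK ImageInstB.hex ImageInstB.hid
    (ImageInstB.hPdiv p hpS hP.isOpen) (ImageInstB.locK R) (ImageInstB.off hP.isOpen)
    (ImageInstB.hoff hP.isOpen) (ImageInstB.hres p hpS hP.isOpen)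
    (ImageInstB.hbn_of_hasseO p hpS (UnramOffAdapter.hasseO hp2 hpS) hP R) a₀ ha₀ hg a ha'
  refine ⟨n, x, hx, fun i => ?_⟩
  rw [← ImageInstB.locK_i₂ R x i, hxa]
  rfl

/-- **The body of `Blocks2.ImageNSS` at `(P, R)`**, `P` of `p`-Sylow type. -/
theorem imageNSS_at (hp2 : p ≠ 2) (hpS : pPrime p ∈ S) {P : Subgroup GQ} (hP : Level p S P)
    (hT : SylowType.IsSylowType p S P) (R : Reps S P)
    (x : H2 (basisP S P) (resP P (OS S))) (hx : p • x = 0) (i₀ : R.Idx)
    (h : ∀ i : R.Idx, i ≠ i₀ → (locOS S P i.1.1 i.2.1).h2 x = 0) :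
    (locOS S P i₀.1.1 i₀.2.1).h2 x = 0 := by
  obtain ⟨L, hN, hL, hle, hKL, hK, hL', hfin, hV, -, -, hpp, hidx⟩ :=
    PLevelField.exists_pLevelField hp2 hpS hP hT R 1 0
  haveI := hN
  haveI := hK
  haveI := hL'
  haveI := hfin
  haveI := isGalois_Lext P L hKL
  have hS : S.Nonempty := ⟨pPrime p, hpS⟩
  have hz1 : p ^ 1 • i₂ S P (basisP S P) x = 0 := by
    rw [pow_one, ← map_nsmul, hx, map_zero]
  have hzoff : ImageInstB.off hP.isOpen (i₂ S P (basisP S P) x) = 0 := ImageInstB.hoff hP.isOpen x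
  have hloc : ∀ i : R.Idx, p ^ 1 • (locKS S P i.1.1 i.2.1).h2 (i₂ S P (basisP S P) x) = 0 := by
    intro i
    rw [← map_nsmul, hz1, map_zero]
  obtain ⟨y, hy⟩ := ImageDescField.hdesc_field_of_dvd S p hpS (UnramOffAdapter.hasseO hp2 hpS) hP R
    1 L hL hle hKL hV hidx (i₂ S P (basisP S P) x) ⟨1, hz1⟩ hzoff hloc
  have hysupp : SuppIn S (locFam ↥(K₀ P) ↥(Lext P L hKL) y) :=
    SuppInOffClosed.suppIn_locFam hS hP.isOpen x L hL hle hKL hV y hy
  have hcomp : ∀ i : R.Idx, ImageLocS.jAi R L hL hle hKL hV i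
      (locFam ↥(K₀ P) ↥(Lext P L hKL) y (plOf R i)) = (locOS S P i.1.1 i.2.1).h2 x := by
    intro i
    have h1 := ImageLocS.jAi_loc R L hL hle hKL hV i y
    rw [hy] at h1
    exact h1.trans (ImageInstB.locK_i₂ R x i)
  by_contra hne
  have hc₀ : locFam ↥(K₀ P) ↥(Lext P L hKL) y (plOf R i₀) ≠ 0 := by
    intro h0
    apply hne
    exact (hcomp i₀).symm.trans ((congrArg (ImageLocS.jAi R L hL hle hKL hV i₀) h0).trans
      (map_zero (ImageLocS.jAi R L hL hle hKL hV i₀)))
  refine ImageFiniteClosed.not_isGlobal_of_single (Fact.out : p.Prime) hp2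
    (LevelField.exists_zeta hP) hpp (plOf R i₀) (locFam ↥(K₀ P) ↥(Lext P L hKL) y) ?_ hc₀ ⟨y, rfl⟩
  intro x' hx'
  by_cases hxS : x'.1 ∈ S
  · obtain ⟨i, rfl⟩ := exists_plOf_eq R x' hxS
    have hi : i ≠ i₀ := fun e => hx' (by rw [e])
    apply ImageLocS.jAi_injective R L hL hle hKL hV i
    exact (hcomp i).trans ((h i hi).trans (map_zero (ImageLocS.jAi R L hL hle hKL hV i)).symm)
  · exact hysupp x' hxS

/-- **`Blocks3.ImageG3N p S`**, unconditional. -/
theorem imageG3N (hp2 : p ≠ 2) (hpS : pPrime p ∈ S) : Blocks3.ImageG3N p S :=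
  fun _ hP hmem R => imageG3_at hp2 hpS hP (SylowType.isSylowType_of_mem hmem) R

/-- **`Blocks3.ImageNSSN p S`**, unconditional. -/
theorem imageNSSN (hp2 : p ≠ 2) (hpS : pPrime p ∈ S) : Blocks3.ImageNSSN p S :=
  fun _ hP hmem R x hx i₀ h =>
    imageNSS_at hp2 hpS hP (SylowType.isSylowType_of_mem hmem) R x hx i₀ h

end

end Fermat.Agent.S55.Middle.ImageGenNssReal
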