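/-
S55 / Middle (helper5): ROW (LOC-off), SURJECTIVITY half for the real objects = leaf (L2) of the
`hrealD` chain, instantiation of helper79's `LocOffSurj.exists_map_eq` at helper99's
`LocOff.valRep` / `LocOff.jB`.

* `exists_valRep_eq` : every `V`-invariant divisor supported over `T` is `valRep b`
  (weak approximation, `LocOffWA.exists_valT_eq`);
* `exists_map_valRep_eq` : if the kernel of `valT ι T` is (the image of) a sub-representation `U`
  with `H³(Gal(L/K), U) = 0`, every class `y ∈ H²(P ⧸ V, Div^V)`, projected to its part over `T`,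
  is `H²(φ, valRep)` of a class of `H²(Gal(L/K), Jn K L T)`;
* `exists_jB_eq` : the same after `ι₂`, i.e. in `H²_LC(P; Div)`, for helper99's `jB`;
* `exists_jB_eq_of_supp` : for a class `y` supported over `T` at cocycle level no projection is
  needed.
-/
import Mathlib
import Fermat.Agent.S55.Middle.LocOffJB
import Fermat.Agent.S55.Middle.LocOffSurj

set_option autoImplicit false
set_option linter.unusedSectionVars false
set_option linter.style.haveILetI false

open scoped TensorProduct Pointwise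
open CategoryTheory groupCohomology

namespace Fermat.Agent.S55.Middle.LocOffJBSurj

open Fermat.Agent.S55.Formal Fermat.Agent.S55.Formal.LCLevel Fermat.Agent.S55.Formal.LCLevelH
open Fermat.Agent.S55.Middle.Defs Fermat.Agent.S55.Middle.DivDef Fermat.Agent.S55.Middle.Cap
open Fermat.Agent.S55.Middle.CapDiv Fermat.Agent.S55.Middle.LocOffVal
open Fermat.Agent.S55.Middle.LocOff Fermat.Agent.S55.Middle.LocOffJB
open Fermat.Agent.S55.Middle.DivLevel Fermat.Agent.S55.Middle.LocOffInj
open Fermat.Agent.S55.Global.Objects Fermat.Agent.S55.Global.Objects2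

variable {S : Finset Nat.Primes} {P : Subgroup GQ} {𝒱 : NBasis ↥P}
  (hfine : IsCont (PreludeLC.globalBasis S) 𝒱 P.subtype) (hfin : P.FiniteIndex)
variable (K : Type) [Field K] [NumberField K] {L : Type} [Field L] [NumberField L] [Algebra K L]
  (ι : L →+* Qbar) (T : Finset Nat.Primes)
  {F : IntermediateField ℚ Qbar} (hF : F.IsUnramifiedOutside S) (hι : ∀ l : L, ι l ∈ F)
variable (V : Subgroup ↥P) [V.Normal] (φ : ↥P ⧸ V →* (L ≃ₐ[K] L))
  (hφ : ∀ (h : ↥P) (l : L), ι (φ (h : ↥P ⧸ V) l) = (h : GQ) (ι l))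
variable [Finite (↥P ⧸ V)] (hV : 𝒱.mem V)

/-- the projector of `(Div)^V` onto the divisors supported over `T` -/
noncomputable abbrev projT : (Div 𝒱 (Xoff S)).quotientToInvariants V ⟶
    (Div 𝒱 (Xoff S)).quotientToInvariants V :=
  levelHom V (suppProj 𝒱 (Xoff S) (overT (S := S) T) (fun g y hy => overT_stable T g y hy))

theorem toFun_projT (d : (Div 𝒱 (Xoff S)).quotientToInvariants V) (y : Xoff S) :
    toFun 𝒱 (Xoff S) (((projT T V).hom d : (Div 𝒱 (Xoff S)).quotientToInvariants V).1 :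
      Div 𝒱 (Xoff S)) y = (overT (S := S) T).indicator (toFun 𝒱 (Xoff S) (d.1 : Div 𝒱 (Xoff S))) y := by
  rw [levelHom_apply_coe, toFun_suppProj]

/-- **Every `V`-invariant divisor supported over `T` is a `valRep b`.** -/
theorem exists_valRep_eq (hφinj : Function.Injective φ)
    (hle : ∀ u : GQ, (∀ l : L, u (ι l) = ι l) → u ∈ P)
    (d : (Div 𝒱 (Xoff S)).quotientToInvariants V)
    (hd : ∀ y : Xoff S, y.prime ∉ T → toFun 𝒱 (Xoff S) (d.1 : Div 𝒱 (Xoff S)) y = 0) :
    ∃ a : Jn K L T, (valRep hfine hfin K ι T hF hι V φ hφ).hom a = d := by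
  have hdinv : ∀ (v : ↥P), v ∈ V → (Div 𝒱 (Xoff S)).ρ v (d.1 : Div 𝒱 (Xoff S)) = d.1 :=
    fun v hv => d.2 ⟨v, hv⟩
  have hinvf : ∀ g : GQ, (∀ l : L, g (ι l) = ι l) → ∀ y : Xoff S,
      toFun 𝒱 (Xoff S) (d.1 : Div 𝒱 (Xoff S)) (g • y) =
        toFun 𝒱 (Xoff S) (d.1 : Div 𝒱 (Xoff S)) y := by
    intro g hg y
    have hgV := mem_V_of_fixes K ι V φ hφ hφinj hle g hg
    have hinvV : (⟨g, hle g hg⟩ : ↥P)⁻¹ ∈ V := V.inv_mem hgV
    have h1 := congrArg (fun e : Div 𝒱 (Xoff S) => toFun 𝒱 (Xoff S) e y) (hdinv _ hinvV)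
    simp only [toFun_ρ, inv_inv] at h1
    exact h1
  obtain ⟨u, hu⟩ := LocOffWA.exists_valT_eq (S := S) ι T hF hι
    (toFun 𝒱 (Xoff S) (d.1 : Div 𝒱 (Xoff S))) hinvf hd
  set a : Jn K L T := (Additive.ofMul (inclUnits ℚ L (QT T) u) : JQ L T) with ha
  refine ⟨a, ?_⟩
  apply Subtype.ext
  apply div_ext
  intro y
  rw [valRep_apply_coe, toFun_divT]
  exact hu y

/-- **(L2), finite-level form.**  If the kernel of the valuation map is `U` and
`H³(Gal(L/K), U) = 0`, every class of `H²(P ⧸ V, Div^V)`, projected to its part over `T`, comes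
from `H²(Gal(L/K), Jn K L T)`. -/
theorem exists_map_valRep_eq (hφbij : Function.Bijective φ)
    (hle : ∀ u : GQ, (∀ l : L, u (ι l) = ι l) → u ∈ P)
    {U : Rep.{0, 0, 0} ℤ (L ≃ₐ[K] L)} (incl : U ⟶ Jn K L T)
    (hinj : Function.Injective incl.hom)
    (hzero : ∀ (u : U) (y : Xoff S), valT (S := S) ι T (Additive.toMul (incl.hom u)) y = 0)
    (hker : ∀ a : Jn K L T, (∀ y : Xoff S, valT (S := S) ι T (Additive.toMul a) y = 0) →
      ∃ u : U, incl.hom u = a)
    (hU : Limits.IsZero (groupCohomology U 3))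
    (y : groupCohomology.H2 ((Div 𝒱 (Xoff S)).quotientToInvariants V)) :
    ∃ b : groupCohomology.H2 (Jn K L T),
      (groupCohomology.map φ (valRep hfine hfin K ι T hF hι V φ hφ) 2).hom b =
        (groupCohomology.map (MonoidHom.id (↥P ⧸ V)) (projT T V) 2).hom y := by
  have hval : ∀ (a : Jn K L T) (x : Xoff S),
      toFun 𝒱 (Xoff S) (((valRep hfine hfin K ι T hF hι V φ hφ).hom a :
        (Div 𝒱 (Xoff S)).quotientToInvariants V).1 : Div 𝒱 (Xoff S)) x =
      valT (S := S) ι T (Additive.toMul a) x := by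
    intro a x
    rw [valRep_apply_coe, toFun_divT]
  refine LocOffSurj.exists_map_eq φ hφbij incl (valRep hfine hfin K ι T hF hι V φ hφ)
    (projT T V) hinj ?_ ?_ ?_ hU y
  · intro u
    apply Subtype.ext
    apply div_ext
    intro x
    rw [hval]
    exact hzero u x
  · intro a ha
    refine hker a (fun x => ?_)
    have h1 := congrArg (fun d : (Div 𝒱 (Xoff S)).quotientToInvariants V =>
      toFun 𝒱 (Xoff S) (d.1 : Div 𝒱 (Xoff S)) x) ha
    exact (hval a x).symm.trans h1
  · intro d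
    refine exists_valRep_eq hfine hfin K ι T hF hι V φ hφ hφbij.1 hle _ (fun x hx => ?_)
    rw [toFun_projT]
    exact Set.indicator_of_notMem (s := overT (S := S) T) hx
      (toFun 𝒱 (Xoff S) (d.1 : Div 𝒱 (Xoff S)))

/-- **(L2), LC form** for helper99's `jB`. -/
theorem exists_jB_eq (hφbij : Function.Bijective φ)
    (hle : ∀ u : GQ, (∀ l : L, u (ι l) = ι l) → u ∈ P)
    {U : Rep.{0, 0, 0} ℤ (L ≃ₐ[K] L)} (incl : U ⟶ Jn K L T)
    (hinj : Function.Injective incl.hom)
    (hzero : ∀ (u : U) (y : Xoff S), valT (S := S) ι T (Additive.toMul (incl.hom u)) y = 0)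
    (hker : ∀ a : Jn K L T, (∀ y : Xoff S, valT (S := S) ι T (Additive.toMul a) y = 0) →
      ∃ u : U, incl.hom u = a)
    (hU : Limits.IsZero (groupCohomology U 3))
    (y : groupCohomology.H2 ((Div 𝒱 (Xoff S)).quotientToInvariants V)) :
    ∃ b : groupCohomology (Jn K L T) 2,
      jB hfine hfin K ι T hF hι V φ hφ hV b =
        ι₂ 𝒱 (Div 𝒱 (Xoff S)) V hV
          ((groupCohomology.map (MonoidHom.id (↥P ⧸ V)) (projT T V) 2).hom y) := by
  obtain ⟨b, hb⟩ := exists_map_valRep_eq hfine hfin K ι T hF hι V φ hφ hφbij hle incl hinj hzero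
    hker hU y
  exact ⟨b, congrArg (ι₂ 𝒱 (Div 𝒱 (Xoff S)) V hV) hb⟩

/-- the projection does nothing on a class represented by a cocycle supported over `T` -/
theorem map_projT_π_of_supp (c : cocycles₂ ((Div 𝒱 (Xoff S)).quotientToInvariants V))
    (hc : ∀ (g h : ↥P ⧸ V) (x : Xoff S), x.prime ∉ T →
      toFun 𝒱 (Xoff S) ((c (g, h) : (Div 𝒱 (Xoff S)).quotientToInvariants V).1 :
        Div 𝒱 (Xoff S)) x = 0) :
    (groupCohomology.map (MonoidHom.id (↥P ⧸ V)) (projT T V) 2).hom (H2π _ c) = H2π _ c := by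
  rw [H2π_comp_map_apply (A := (Div 𝒱 (Xoff S)).quotientToInvariants V)
    (B := (Div 𝒱 (Xoff S)).quotientToInvariants V)]
  congr 1
  apply cocycles₂_ext
  intro g h
  have h3 : (mapCocycles₂ (A := (Div 𝒱 (Xoff S)).quotientToInvariants V)
      (B := (Div 𝒱 (Xoff S)).quotientToInvariants V) (MonoidHom.id (↥P ⧸ V)) (projT T V) c) (g, h)
      = (projT T V).hom (c (g, h)) := rfl
  rw [h3]
  apply Subtype.ext
  apply div_ext
  intro x
  rw [toFun_projT]
  by_cases hx : x ∈ overT (S := S) T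
  · rw [Set.indicator_of_mem hx]
  · rw [Set.indicator_of_notMem hx]
    exact (hc g h x hx).symm

end Fermat.Agent.S55.Middle.LocOffJBSurj
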