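/-
S55 / Middle / ROW (LOC-off) (helper26): the KERNEL of the valuation map `LocOff.valRep` consists of
the unit ideles `UnramUnitsQ.UTsub` — the hypothesis `hker` of `LocOffInj.jB_injective` /
`map_val_injective` for the real objects.

The kernel of `LocOffVal.valT` lives in the "embeddings into `PadicAlgCl q`" model
(`locAt = semiHom q (embT ι q t) ∘ projT`), while `UnramUnitsQ.UTsub` (the `U` with `H² = 0`) lives in
the residue-field model `(L ⊗[K] Kloc K q 𝔪) ⧸ mAt`.  The bridge: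

* `exists_padicEmbedding_comp`, `exists_embT_eq` : every `ℚ`-embedding `L → PadicAlgCl q` is one of
  the `embT ι q t`, `t : G_ℚ`;
* `norm_semiHom_eq_one_of_valT_eq_zero` **(K-a)** : `valT b = 0` on `Xoff S` ⇒ `‖semiHom q ψ (projT b)‖ = 1`
  for all `ψ : L →ₐ[ℚ] PadicAlgCl q`, `q ∈ T`, `q ∉ S`;
* `exists_ringHom_norm_eq` : a tower `E/F/ℚ_[q]` with its `FiniteExtLF` norms embeds isometrically
  into `PadicAlgCl q`;
* `exists_algHom_norm_mk`, `exists_algHom_norm_mk_Kloc` : the residue norm at `m` of `g • ρ z` is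
  `‖semiHom q ψ z‖` for a suitable `ψ`;
* `mem_UTsub_of_forall_semiHom` **(K-b)** : norm one under all `semiHom q ψ`, `q ∈ T'` ⇒ `∈ UTsub K L T T'`;
* `mem_UTsub_of_divT_eq_zero`, `hker_valRep` **(K-c)** : the literal `hker`;
* `isZero_H2_UTn` : the literal `hU`.
-/
import Mathlib
import Fermat.Agent.S55.Middle.LocOff
import Fermat.Agent.S55.Global.UnramUnitsQ
import Fermat.Agent.S55.Global.UnitNormBridge

set_option autoImplicit false
set_option linter.unusedSectionVars false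
set_option linter.style.haveILetI false

open scoped TensorProduct Pointwise

namespace Fermat.Agent.S55.Middle.LocOffKer

noncomputable section

open Fermat.Agent.S55.Formal
open Fermat.Agent.S55.Middle.Defs Fermat.Agent.S55.Middle.LocOffNorm
open Fermat.Agent.S55.Middle.LocOffVal
open Fermat.Agent.S55.Global Fermat.Agent.S55.Global.Objects Fermat.Agent.S55.Global.Objects2
open Fermat.Agent.S55.Global.Blocks3 Fermat.Agent.S55.Global.SemilocalH3

attribute [local instance] Algebra.TensorProduct.rightAlgebra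


open Fermat.Agent.S55.Middle.DivDef Fermat.Agent.S55.Middle.Cap Fermat.Agent.S55.Middle.CapDiv

local instance isAlgebraicQbar_lok : Algebra.IsAlgebraic ℚ (AlgebraicClosure ℚ) :=
  AlgebraicClosure.isAlgebraic ℚ
local instance isAlgClosureQbar_lok : IsAlgClosure ℚ (AlgebraicClosure ℚ) :=
  ⟨inferInstance, inferInstance⟩
local instance normalQbar_lok : Normal ℚ (AlgebraicClosure ℚ) :=
  IsAlgClosure.normal ℚ (AlgebraicClosure ℚ)

section Emb

variable (q : ℕ) [Fact q.Prime]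

/-- every `ℚ`-embedding of `ℚ̄` into `PadicAlgCl q` is `padicEmbedding q` twisted by an element of
`G_ℚ` -/
theorem exists_padicEmbedding_comp (τ : Qbar →ₐ[ℚ] PadicAlgCl q) :
    ∃ s : GQ, ∀ x : Qbar, τ x = padicEmbedding q (s x) := by
  letI : Algebra Qbar (PadicAlgCl q) := (padicEmbedding q).toRingHom.toAlgebra
  haveI : IsScalarTower ℚ Qbar (PadicAlgCl q) :=
    IsScalarTower.of_algebraMap_eq' (Subsingleton.elim _ _)
  refine ⟨Normal.algHomEquivAut ℚ (PadicAlgCl q) Qbar τ, fun x => ?_⟩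
  have h := (Normal.algHomEquivAut ℚ (PadicAlgCl q) Qbar).left_inv τ
  have h2 := congrArg (fun f : Qbar →ₐ[ℚ] PadicAlgCl q => f x) h
  exact h2.symm

variable {L : Type} [Field L] [NumberField L] (ι : L →+* Qbar)

/-- every `ℚ`-embedding of `L` into `PadicAlgCl q` is one of the `embT ι q t` -/
theorem exists_embT_eq (ψ : L →ₐ[ℚ] PadicAlgCl q) : ∃ t : GQ, ψ = embT ι q t := by
  letI : Algebra L Qbar := ι.toAlgebra
  letI : Algebra L (PadicAlgCl q) := ψ.toRingHom.toAlgebra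
  haveI : IsScalarTower ℚ L Qbar := IsScalarTower.of_algebraMap_eq' (Subsingleton.elim _ _)
  haveI : Algebra.IsAlgebraic L Qbar := Algebra.IsAlgebraic.tower_top (K := ℚ) L
  let τ₀ : Qbar →ₐ[L] PadicAlgCl q := IsAlgClosed.lift
  let τ : Qbar →ₐ[ℚ] PadicAlgCl q := (τ₀ : Qbar →+* PadicAlgCl q).toRatAlgHom
  obtain ⟨s, hs⟩ := exists_padicEmbedding_comp q τ
  refine ⟨s⁻¹, AlgHom.ext fun l => ?_⟩
  rw [embT_apply, inv_inv, ← hs]
  exact (τ₀.commutes l).symm

end Emb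

section ValKer

variable {S : Finset Nat.Primes} {L : Type} [Field L] [NumberField L] (ι : L →+* Qbar)
  (T : Finset Nat.Primes) (hL : ∀ l : L, Units.InQS S (ι l))

/-- the place `(q, t • padicPlace q)` off `S` -/
def placeOfT (q : Nat.Primes) (hqS : q ∉ S) (t : GQ) : Xoff S :=
  ⟨(q, t • padicPlace (q : ℕ)), hqS,
    (Fermat.Agent.S55.GaloisLevel.liesOverPrime_smul_iff t _ _).2 (padicPlace_liesOver (q : ℕ))⟩

include hL in
/-- **(K-a)** an idele with trivial divisor off `S` has norm one under every local embedding at the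
primes of `T` off `S` -/
theorem norm_semiHom_eq_one_of_valT_eq_zero (b : (L ⊗[ℚ] QT T)ˣ)
    (hb : ∀ y : Xoff S, valT (S := S) ι T b y = 0) (q : Nat.Primes) (hqS : q ∉ S) (hq : q ∈ T)
    (ψ : L →ₐ[ℚ] PadicAlgCl (q : ℕ)) :
    ‖semiHom (q : ℕ) ψ (projT (L := L) T q hq (b : L ⊗[ℚ] QT T))‖ = 1 := by
  obtain ⟨t, rfl⟩ := exists_embT_eq (q : ℕ) ι ψ
  have h1 := hb (placeOfT q hqS t)
  have h2 := valT_eq (S := S) ι T b (placeOfT q hqS t) hq (t := t) rfl
  obtain ⟨n, hn⟩ := exists_zpow_norm_locAt ι T hL q hqS hq t b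
  have h3 : ordN (q : ℕ) (locAt ι T q hq t (b : L ⊗[ℚ] QT T)) = n := ordN_eq (q : ℕ) hn
  have h4 : n = 0 := by
    rw [← h3]
    exact h2.symm.trans h1
  rw [h4, neg_zero, zpow_zero] at hn
  exact hn

end ValKer


section Isom

variable (q : ℕ) [Fact q.Prime]

/-- a finite extension `E/F/ℚ_[q]` with its `FiniteExtLF` norms embeds isometrically into
`PadicAlgCl q`, compatibly with `ℚ_[q]` -/
theorem exists_ringHom_norm_eq (F E : Type) [Field F] [Algebra ℚ_[q] F]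
    [FiniteDimensional ℚ_[q] F] [Field E] [Algebra F E] [FiniteDimensional F E] :
    letI := FiniteExtLF.nontriviallyNormedFieldExt ℚ_[q] F
    haveI := FiniteExtLF.isUltrametricDistExt ℚ_[q] F
    haveI := FiniteExtLF.properSpaceExt ℚ_[q] F
    letI := FiniteExtLF.nontriviallyNormedFieldExt F E
    ∃ ψ : E →+* PadicAlgCl q,
      (∀ c : ℚ_[q], ψ (algebraMap F E (algebraMap ℚ_[q] F c)) =
        algebraMap ℚ_[q] (PadicAlgCl q) c) ∧ ∀ e : E, ‖ψ e‖ = ‖e‖ := by
  letI := FiniteExtLF.nontriviallyNormedFieldExt ℚ_[q] F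
  haveI := FiniteExtLF.isUltrametricDistExt ℚ_[q] F
  haveI := FiniteExtLF.properSpaceExt ℚ_[q] F
  letI := FiniteExtLF.nontriviallyNormedFieldExt F E
  letI : Algebra ℚ_[q] E := Algebra.compHom E (algebraMap ℚ_[q] F)
  haveI : IsScalarTower ℚ_[q] F E := IsScalarTower.of_algebraMap_eq (fun _ => rfl)
  haveI : FiniteDimensional ℚ_[q] E := FiniteDimensional.trans ℚ_[q] F E
  haveI : Algebra.IsAlgebraic ℚ_[q] E := Algebra.IsAlgebraic.of_finite _ _
  let ψ : E →ₐ[ℚ_[q]] PadicAlgCl q := IsAlgClosed.lift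
  refine ⟨ψ, fun c => ψ.commutes c, fun e => ?_⟩
  show ‖ψ e‖ = ‖e‖
  rw [UnitNormBridge.norm_algHom q ψ e, ← UnitNormBridge.spectralNorm_tower q F E e]
  rfl

end Isom

section PlaceF

variable (q : ℕ) [Fact q.Prime]
variable (K L : Type) [Field K] [NumberField K] [Field L] [NumberField L] [Algebra K L]
  [IsGalois K L]
variable (F : Type) [Field F] [Algebra K F] [Algebra ℚ_[q] F] [FiniteDimensional ℚ_[q] F]
variable (m : Ideal (L ⊗[K] F)) [hm : m.IsMaximal]

/-- **generic place lemma**: the residue norm at `m` of `g • ρ z` is the norm of `z` under one of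
the semilocal homs `semiHom q ψ` -/
theorem exists_algHom_norm_mk (ρ : L ⊗[ℚ] ℚ_[q] →+* L ⊗[K] F)
    (hρ : ∀ (l : L) (c : ℚ_[q]), ρ (l ⊗ₜ[ℚ] c) = l ⊗ₜ[K] algebraMap ℚ_[q] F c)
    (g : L ≃ₐ[K] L) :
    letI := FiniteExtLF.nontriviallyNormedFieldExt ℚ_[q] F
    haveI := FiniteExtLF.isUltrametricDistExt ℚ_[q] F
    haveI := FiniteExtLF.properSpaceExt ℚ_[q] F
    letI := Ideal.Quotient.field m
    haveI := finiteDimensional_quot K L F m
    letI := FiniteExtLF.nontriviallyNormedFieldExt F ((L ⊗[K] F) ⧸ m)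
    ∃ ψ : L →ₐ[ℚ] PadicAlgCl q, ∀ z : L ⊗[ℚ] ℚ_[q],
      ‖Ideal.Quotient.mk m (g • ρ z)‖ = ‖semiHom q ψ z‖ := by
  letI := FiniteExtLF.nontriviallyNormedFieldExt ℚ_[q] F
  haveI := FiniteExtLF.isUltrametricDistExt ℚ_[q] F
  haveI := FiniteExtLF.properSpaceExt ℚ_[q] F
  letI := Ideal.Quotient.field m
  haveI := finiteDimensional_quot K L F m
  letI := FiniteExtLF.nontriviallyNormedFieldExt F ((L ⊗[K] F) ⧸ m)
  obtain ⟨ψE, hc, hnorm⟩ := exists_ringHom_norm_eq q F ((L ⊗[K] F) ⧸ m)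
  -- the composite ring hom on `L`
  let Φ : L ⊗[K] F →+* PadicAlgCl q :=
    (ψE.comp (Ideal.Quotient.mk m)).comp
      (MulSemiringAction.toRingHom (L ≃ₐ[K] L) (L ⊗[K] F) g)
  have hΦ : ∀ b : L ⊗[K] F, Φ b = ψE (Ideal.Quotient.mk m (g • b)) := fun _ => rfl
  let ψ : L →ₐ[ℚ] PadicAlgCl q :=
    (Φ.comp (Algebra.TensorProduct.includeLeftRingHom : L →+* L ⊗[K] F)).toRatAlgHom
  have hψ : ∀ l : L, ψ l = Φ (l ⊗ₜ[K] (1 : F)) := fun _ => rfl
  have hright : ∀ c : ℚ_[q], Φ ((1 : L) ⊗ₜ[K] algebraMap ℚ_[q] F c) =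
      algebraMap ℚ_[q] (PadicAlgCl q) c := by
    intro c
    rw [hΦ, Objects.smul_tmul', map_one]
    exact hc c
  refine ⟨ψ, fun z => ?_⟩
  rw [← hnorm, ← hΦ]
  congr 1
  induction z using TensorProduct.induction_on with
  | zero => simp
  | tmul l c =>
    rw [hρ, semiHom_tmul, hψ, ← hright, ← map_mul, Algebra.TensorProduct.tmul_mul_tmul,
      mul_one, one_mul]
  | add x y hx hy => rw [map_add, map_add, map_add, hx, hy]

end PlaceF

section Place

open Fermat.Agent.S55.Global.SemilocalH3Jn Fermat.Agent.S55.Global.UnramUnitsPlace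
open Fermat.Agent.S55.Global.UnramUnitsQ

variable (K L : Type) [Field K] [NumberField K] [Field L] [NumberField L] [Algebra K L]
  [IsGalois K L]

/-- the place lemma at `F = Kloc K q 𝔪` -/
theorem exists_algHom_norm_mk_Kloc (q : Nat.Primes) (𝔪 : PlacesQ K q)
    (m : Ideal (L ⊗[K] Kloc K q 𝔪.asIdeal)) [hm : m.IsMaximal] (g : L ≃ₐ[K] L) :
    haveI := 𝔪.isMaximal
    letI := Ideal.Quotient.field 𝔪.asIdeal
    haveI := finiteDimensional_Kloc K q 𝔪.asIdeal
    letI := FiniteExtLF.nontriviallyNormedFieldExt ℚ_[(q : ℕ)] (Kloc K q 𝔪.asIdeal)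
    haveI := FiniteExtLF.isUltrametricDistExt ℚ_[(q : ℕ)] (Kloc K q 𝔪.asIdeal)
    haveI := FiniteExtLF.properSpaceExt ℚ_[(q : ℕ)] (Kloc K q 𝔪.asIdeal)
    letI := Ideal.Quotient.field m
    haveI := finiteDimensional_quot K L (Kloc K q 𝔪.asIdeal) m
    letI := FiniteExtLF.nontriviallyNormedFieldExt (Kloc K q 𝔪.asIdeal)
      ((L ⊗[K] Kloc K q 𝔪.asIdeal) ⧸ m)
    ∃ ψ : L →ₐ[ℚ] PadicAlgCl (q : ℕ), ∀ z : L ⊗[ℚ] ℚ_[(q : ℕ)],
      ‖Ideal.Quotient.mk m
        (g • (projLoc K L q 𝔪 (cancelEquiv K L q z)))‖ = ‖semiHom (q : ℕ) ψ z‖ := by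
  haveI := 𝔪.isMaximal
  letI := Ideal.Quotient.field 𝔪.asIdeal
  haveI := finiteDimensional_Kloc K q 𝔪.asIdeal
  exact exists_algHom_norm_mk (q : ℕ) K L (Kloc K q 𝔪.asIdeal) m
    ((projLoc K L q 𝔪).comp (cancelEquiv K L q).toRingHom)
    (fun l c => by
      show projLoc K L q 𝔪 (cancelEquiv K L q (l ⊗ₜ[ℚ] c)) = _
      rw [cancelEquiv_tmul, projLoc_tmul]
      rfl) g

/-- **(K-b)** an idele all of whose local embeddings at the primes of `T'` have norm one lies in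
`UTsub K L T T'` -/
theorem mem_UTsub_of_forall_semiHom (T T' : Finset Nat.Primes) (u : (L ⊗[ℚ] QT T)ˣ)
    (h : ∀ (q : Nat.Primes) (hq : q ∈ T), q ∈ T' → ∀ ψ : L →ₐ[ℚ] PadicAlgCl (q : ℕ),
      ‖semiHom (q : ℕ) ψ (projT (L := L) T q hq (u : L ⊗[ℚ] QT T))‖ = 1) :
    u ∈ UTsub K L T T' := by
  rw [mem_UTsub_iff]
  intro x hx
  haveI := x.2.isMaximal
  rw [mem_placeSub_iff]
  intro g
  obtain ⟨ψ, hψ⟩ := exists_algHom_norm_mk_Kloc K L (x.1 : Nat.Primes) x.2
    (mAt K L (x.1 : Nat.Primes) x.2.asIdeal) g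
  have h1 := hψ (projQ L T x.1 (u : L ⊗[ℚ] QT T))
  have h2 := h (x.1 : Nat.Primes) x.1.2 hx ψ
  exact h1.trans h2

end Place

/-! ### the literal `hker` of `LocOffInj.jB_injective` -/

section Hker

open Fermat.Agent.S55.Global.UnramUnitsQ Fermat.Agent.S55.Middle.LocOff
open Fermat.Agent.S55.Formal.LCLevel

variable {S : Finset Nat.Primes} {P : Subgroup GQ} {𝒱 : NBasis ↥P}
  (hfine : IsCont (PreludeLC.globalBasis S) 𝒱 P.subtype) (hfin : P.FiniteIndex)
variable (K : Type) [Field K] [NumberField K] {L : Type} [Field L] [NumberField L] [Algebra K L]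
  [IsGalois K L] (ι : L →+* Qbar) (T : Finset Nat.Primes)
  {F : IntermediateField ℚ Qbar} (hF : F.IsUnramifiedOutside S) (hι : ∀ l : L, ι l ∈ F)
variable (V : Subgroup ↥P) [V.Normal] (φ : ↥P ⧸ V →* (L ≃ₐ[K] L))
  (hφ : ∀ (h : ↥P) (l : L), ι (φ (h : ↥P ⧸ V) l) = (h : GQ) (ι l))

/-- an idele with trivial divisor off `S` is a unit idele at the primes of `T` off `S` -/
theorem mem_UTsub_of_divT_eq_zero (T' : Finset Nat.Primes) (hT'S : ∀ q ∈ T', q ∉ S)
    (b : (L ⊗[ℚ] QT T)ˣ) (hb : divT hfine hfin ι T hF hι b = 0) : b ∈ UTsub K L T T' := by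
  have hval : ∀ y : Xoff S, valT (S := S) ι T b y = 0 := by
    intro y
    rw [← toFun_divT hfine hfin ι T hF hι b y, hb, toFun_zero]
  exact mem_UTsub_of_forall_semiHom K L T T' b (fun q hq hq' ψ =>
    norm_semiHom_eq_one_of_valT_eq_zero ι T (inQS_of_mem ι hF hι) b hval q (hT'S q hq') hq ψ)

/-- **`hker`** of `LocOffInj.jB_injective` / `map_val_injective` for `val := LocOff.valRep`,
`incl := UTnIncl K L T T'` (`T'` any set of primes off `S`; take `T' = T` when `T ∩ S = ∅`). -/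
theorem hker_valRep (T' : Finset Nat.Primes) (hT'S : ∀ q ∈ T', q ∉ S) (j : Jn K L T)
    (hj : (valRep hfine hfin K ι T hF hι V φ hφ).hom j = 0) :
    ∃ u : UTn K L T T', (UTnIncl K L T T').hom u = j := by
  have hb : divT hfine hfin ι T hF hι (Additive.toMul j) = 0 := by
    rw [← valRep_apply_coe hfine hfin K ι T hF hι V φ hφ j, hj]
    rfl
  exact (mem_range_UTnIncl_iff K L T T' j).2
    (mem_UTsub_of_divT_eq_zero hfine hfin K ι T hF hι T' hT'S _ hb)

/-- **`hU`** of `LocOffInj.jB_injective` : `H²(Gal(L/K), UTn K L T T) = 0` when `L/K` is unramified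
at all places above `T`. -/
theorem isZero_H2_UTn
    (hunr : ∀ q ∈ T, ∀ (𝔪 : Ideal (Ksemi K q)) [𝔪.IsMaximal]
      (m : Ideal (L ⊗[K] Kloc K q 𝔪)) [m.IsMaximal], UnramVal.IsUnramAtKloc K L q 𝔪 m) :
    CategoryTheory.Limits.IsZero (groupCohomology.H2 (UTn K L T T)) :=
  isZero_UTn_of_subset K L T T (Finset.Subset.refl T)
    (fun q hq _ 𝔪 _ m _ => hunr q hq 𝔪 m) 2 (by norm_num)

end Hker

end

end Fermat.Agent.S55.Middle.LocOffKer
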