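/-
S55 / Middle / ROW (LOC-off) (helper26): the CONVERSE of `LocOffKer` — the unit ideles
`UnramUnitsQ.UTsub` lie in the kernel of the valuation map (`hzero` of the surjectivity half
`LocOffSurjJB.exists_jB_eq` / `LocOffJBSurj.exists_map_valRep_eq`), and the literal hypothesis
bundles of `LocOffJB.jB_injective` and `LocOffSurjJB.exists_jB_eq` with `U := UTn`.

* `norm_ringHom_eq` : a ring hom `E → PadicAlgCl q` from the top of a tower `E/F/ℚ_[q]`, canonical on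
  `ℚ_[q]`, is an isometry for the `FiniteExtLF` norms;
* `exists_smul_norm_eq` (generic `F`), `exists_smul_norm_eq_Kloc` : compatible embeddings `ψ : L → Ω_q`,
  `κ : F → Ω_q` glue to `Φ : L ⊗[K] F → Ω_q` and `‖Φ b‖ = ‖mk m (g • b)‖` for some `g ∈ Gal(L/K)`;
* `norm_semiHom_eq_one_of_mem_UTsub` : `u ∈ UTsub K L T T'` ⇒ `‖semiHom q ψ (projT u)‖ = 1`, `q ∈ T ∩ T'`;
* `valT_eq_zero_of_mem_UTsub`, `hzero_valT`, `hker_valT` : the literal `hzero` / `hker`;
* `jB_injective_of_unram` : `LocOff.jB T` is injective (`T ∩ S = ∅`, `L/K` unramified above `T`);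
* `exists_jB_eq_of_unram`, `exists_jB_eq_of_level_of_unram` : (L2), surjectivity of `jB T` onto the
  level-`V` classes with vanishing residues outside `T` (general `T`).
-/
import Mathlib
import Fermat.Agent.S55.Middle.LocOffKer
import Fermat.Agent.S55.Middle.LocOffSurjJB
import Fermat.Agent.S55.Local.BrauerUnramFinal

set_option autoImplicit false
set_option linter.unusedSectionVars false
set_option linter.style.haveILetI false

open scoped TensorProduct Pointwise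

namespace Fermat.Agent.S55.Middle.LocOffKerConv

noncomputable section

open Fermat.Agent.S55.Formal
open Fermat.Agent.S55.Middle.Defs Fermat.Agent.S55.Middle.LocOffNorm
open Fermat.Agent.S55.Middle.LocOffVal
open Fermat.Agent.S55.Global Fermat.Agent.S55.Global.Objects Fermat.Agent.S55.Global.Objects2
open Fermat.Agent.S55.Global.Blocks3 Fermat.Agent.S55.Global.SemilocalH3

attribute [local instance] Algebra.TensorProduct.rightAlgebra
attribute [local instance] finiteDimensional_nf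

section Isom

variable (q : ℕ) [Fact q.Prime]

/-- a ring hom from the top of a tower `E/F/ℚ_[q]` (with its `FiniteExtLF` norms) to `PadicAlgCl q`
which is the canonical embedding on `ℚ_[q]` is an isometry -/
theorem norm_ringHom_eq (F E : Type) [Field F] [Algebra ℚ_[q] F]
    [FiniteDimensional ℚ_[q] F] [Field E] [Algebra F E] [FiniteDimensional F E]
    (ψE : E →+* PadicAlgCl q)
    (hc : ∀ c : ℚ_[q], ψE (algebraMap F E (algebraMap ℚ_[q] F c)) =
      algebraMap ℚ_[q] (PadicAlgCl q) c) (e : E) :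
    letI := FiniteExtLF.nontriviallyNormedFieldExt ℚ_[q] F
    haveI := FiniteExtLF.isUltrametricDistExt ℚ_[q] F
    haveI := FiniteExtLF.properSpaceExt ℚ_[q] F
    letI := FiniteExtLF.nontriviallyNormedFieldExt F E
    ‖ψE e‖ = ‖e‖ := by
  letI := FiniteExtLF.nontriviallyNormedFieldExt ℚ_[q] F
  haveI := FiniteExtLF.isUltrametricDistExt ℚ_[q] F
  haveI := FiniteExtLF.properSpaceExt ℚ_[q] F
  letI := FiniteExtLF.nontriviallyNormedFieldExt F E
  letI : Algebra ℚ_[q] E := Algebra.compHom E (algebraMap ℚ_[q] F)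
  haveI : IsScalarTower ℚ_[q] F E := IsScalarTower.of_algebraMap_eq (fun _ => rfl)
  haveI : FiniteDimensional ℚ_[q] E := FiniteDimensional.trans ℚ_[q] F E
  let ψ : E →ₐ[ℚ_[q]] PadicAlgCl q := { ψE with commutes' := hc }
  show ‖ψ e‖ = ‖e‖
  rw [UnitNormBridge.norm_algHom q ψ e, ← UnitNormBridge.spectralNorm_tower q F E e]
  rfl

end Isom

section ConvF

variable (q : ℕ) [Fact q.Prime]
variable (K L : Type) [Field K] [NumberField K] [Field L] [NumberField L] [Algebra K L]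
  [IsGalois K L]
variable (F : Type) [Field F] [Algebra K F] [Algebra ℚ_[q] F] [FiniteDimensional ℚ_[q] F]
variable (m : Ideal (L ⊗[K] F)) [hm : m.IsMaximal]

/-- **generic converse place lemma**: a pair of compatible embeddings `ψ : L → Ω_q`, `κ : F → Ω_q`
glues to `Φ : L ⊗[K] F → Ω_q`, and `‖Φ b‖` is the residue norm at `m` of a conjugate of `b` -/
theorem exists_smul_norm_eq (ψ : L →+* PadicAlgCl q) (κ : F →+* PadicAlgCl q)
    (hK : ∀ k : K, κ (algebraMap K F k) = ψ (algebraMap K L k))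
    (hQ : ∀ c : ℚ_[q], κ (algebraMap ℚ_[q] F c) = algebraMap ℚ_[q] (PadicAlgCl q) c) :
    letI := FiniteExtLF.nontriviallyNormedFieldExt ℚ_[q] F
    haveI := FiniteExtLF.isUltrametricDistExt ℚ_[q] F
    haveI := FiniteExtLF.properSpaceExt ℚ_[q] F
    letI := Ideal.Quotient.field m
    haveI := finiteDimensional_quot K L F m
    letI := FiniteExtLF.nontriviallyNormedFieldExt F ((L ⊗[K] F) ⧸ m)
    ∃ (Φ : L ⊗[K] F →+* PadicAlgCl q) (g : L ≃ₐ[K] L),
      (∀ (l : L) (f : F), Φ (l ⊗ₜ[K] f) = ψ l * κ f) ∧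
      ∀ b : L ⊗[K] F, ‖Φ b‖ = ‖Ideal.Quotient.mk m (g • b)‖ := by
  letI := FiniteExtLF.nontriviallyNormedFieldExt ℚ_[q] F
  haveI := FiniteExtLF.isUltrametricDistExt ℚ_[q] F
  haveI := FiniteExtLF.properSpaceExt ℚ_[q] F
  letI := Ideal.Quotient.field m
  haveI := finiteDimensional_quot K L F m
  letI := FiniteExtLF.nontriviallyNormedFieldExt F ((L ⊗[K] F) ⧸ m)
  -- glue
  letI : Algebra K (PadicAlgCl q) := (ψ.comp (algebraMap K L)).toAlgebra
  let ψ' : L →ₐ[K] PadicAlgCl q := { ψ with commutes' := fun _ => rfl }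
  let κ' : F →ₐ[K] PadicAlgCl q := { κ with commutes' := fun k => hK k }
  let Φ : L ⊗[K] F →+* PadicAlgCl q := (Algebra.TensorProduct.productMap ψ' κ').toRingHom
  have hΦ : ∀ (l : L) (f : F), Φ (l ⊗ₜ[K] f) = ψ l * κ f := fun l f =>
    Algebra.TensorProduct.productMap_apply_tmul ψ' κ' l f
  -- the kernel is a maximal ideal, conjugate to `m`
  haveI : IsArtinianRing (L ⊗[K] F) := SemilocalTensor.isArtinianRing_tensor K L F
  haveI hp : (RingHom.ker Φ).IsPrime := RingHom.ker_isPrime Φ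
  haveI hM : (RingHom.ker Φ).IsMaximal := inferInstance
  obtain ⟨g, hg⟩ := SemilocalTensor.exists_smul_eq (G := L ≃ₐ[K] L) (hact K L F) m (RingHom.ker Φ)
  -- the twisted hom kills `m`
  let Φg : L ⊗[K] F →+* PadicAlgCl q :=
    Φ.comp (MulSemiringAction.toRingHom (L ≃ₐ[K] L) (L ⊗[K] F) g)
  have hΦg : ∀ b : L ⊗[K] F, Φg b = Φ (g • b) := fun _ => rfl
  have hkill : ∀ a ∈ m, Φg a = 0 := by
    intro a ha
    rw [hΦg, ← RingHom.mem_ker, hg]
    exact Ideal.smul_mem_pointwise_smul g a m ha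
  let ψE : (L ⊗[K] F) ⧸ m →+* PadicAlgCl q := Ideal.Quotient.lift m Φg hkill
  have hψE : ∀ b : L ⊗[K] F, ψE (Ideal.Quotient.mk m b) = Φ (g • b) := fun b =>
    Ideal.Quotient.lift_mk m Φg hkill
  have hc : ∀ c : ℚ_[q], ψE (algebraMap F ((L ⊗[K] F) ⧸ m) (algebraMap ℚ_[q] F c)) =
      algebraMap ℚ_[q] (PadicAlgCl q) c := by
    intro c
    have e1 : algebraMap F ((L ⊗[K] F) ⧸ m) (algebraMap ℚ_[q] F c) =
        Ideal.Quotient.mk m ((1 : L) ⊗ₜ[K] algebraMap ℚ_[q] F c) := rfl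
    rw [e1, hψE, Objects.smul_tmul', map_one, hΦ, map_one, one_mul, hQ]
  refine ⟨Φ, g⁻¹, hΦ, fun b => ?_⟩
  rw [← norm_ringHom_eq q F ((L ⊗[K] F) ⧸ m) ψE hc, hψE, smul_inv_smul]

end ConvF

section Conv

open Fermat.Agent.S55.Global.SemilocalH3Jn Fermat.Agent.S55.Global.UnramUnitsPlace
open Fermat.Agent.S55.Global.UnramUnitsQ

variable (K L : Type) [Field K] [NumberField K] [Field L] [NumberField L] [Algebra K L]
  [IsGalois K L]

/-- the converse place lemma at `F = Kloc K q 𝔪` -/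
theorem exists_smul_norm_eq_Kloc (q : Nat.Primes) (𝔪 : PlacesQ K q)
    (m : Ideal (L ⊗[K] Kloc K q 𝔪.asIdeal)) [hm : m.IsMaximal]
    (ψ : L →+* PadicAlgCl (q : ℕ)) (κ : Kloc K q 𝔪.asIdeal →+* PadicAlgCl (q : ℕ))
    (hK : ∀ k : K, κ (algebraMap K (Kloc K q 𝔪.asIdeal) k) = ψ (algebraMap K L k))
    (hQ : ∀ c : ℚ_[(q : ℕ)], κ (algebraMap ℚ_[(q : ℕ)] (Kloc K q 𝔪.asIdeal) c) =
      algebraMap ℚ_[(q : ℕ)] (PadicAlgCl (q : ℕ)) c) :
    haveI := 𝔪.isMaximal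
    letI := Ideal.Quotient.field 𝔪.asIdeal
    haveI := finiteDimensional_Kloc K q 𝔪.asIdeal
    letI := FiniteExtLF.nontriviallyNormedFieldExt ℚ_[(q : ℕ)] (Kloc K q 𝔪.asIdeal)
    haveI := FiniteExtLF.isUltrametricDistExt ℚ_[(q : ℕ)] (Kloc K q 𝔪.asIdeal)
    haveI := FiniteExtLF.properSpaceExt ℚ_[(q : ℕ)] (Kloc K q 𝔪.asIdeal)
    letI := Ideal.Quotient.field m
    haveI := finiteDimensional_quot K L (Kloc K q 𝔪.asIdeal) m
    letI := FiniteExtLF.nontriviallyNormedFieldExt (Kloc K q 𝔪.asIdeal)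
      ((L ⊗[K] Kloc K q 𝔪.asIdeal) ⧸ m)
    ∃ (Φ : L ⊗[K] Kloc K q 𝔪.asIdeal →+* PadicAlgCl (q : ℕ)) (g : L ≃ₐ[K] L),
      (∀ (l : L) (f : Kloc K q 𝔪.asIdeal), Φ (l ⊗ₜ[K] f) = ψ l * κ f) ∧
      ∀ b : L ⊗[K] Kloc K q 𝔪.asIdeal, ‖Φ b‖ = ‖Ideal.Quotient.mk m (g • b)‖ := by
  haveI := 𝔪.isMaximal
  letI := Ideal.Quotient.field 𝔪.asIdeal
  haveI := finiteDimensional_Kloc K q 𝔪.asIdeal
  exact exists_smul_norm_eq (q : ℕ) K L (Kloc K q 𝔪.asIdeal) m ψ κ hK hQ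

/-- the comparison at a place `x` of `K` over `T` whose ideal is killed by the restriction of
`ψ` to `K` -/
theorem norm_semiHom_eq_one_of_mem_UTsub_aux (T T' : Finset Nat.Primes) (u : (L ⊗[ℚ] QT T)ˣ)
    (hu : u ∈ UTsub K L T T') (x : PlacesT K T) (hx : (x.1 : Nat.Primes) ∈ T')
    (ψ : L →ₐ[ℚ] PadicAlgCl ((x.1 : Nat.Primes) : ℕ))
    (hle : ∀ a ∈ x.2.asIdeal, semiHom ((x.1 : Nat.Primes) : ℕ)
      (((ψ : L →+* PadicAlgCl ((x.1 : Nat.Primes) : ℕ)).comp (algebraMap K L)).toRatAlgHom) a = 0) :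
    ‖semiHom ((x.1 : Nat.Primes) : ℕ) ψ
      (projT (L := L) T (x.1 : Nat.Primes) x.1.2 (u : L ⊗[ℚ] QT T))‖ = 1 := by
  set ψK : K →ₐ[ℚ] PadicAlgCl ((x.1 : Nat.Primes) : ℕ) :=
    ((ψ : L →+* PadicAlgCl ((x.1 : Nat.Primes) : ℕ)).comp (algebraMap K L)).toRatAlgHom with hψKdef
  have hψK : ∀ k : K, ψK k = ψ (algebraMap K L k) := fun _ => rfl
  let κ₀ : Ksemi K (x.1 : Nat.Primes) →+* PadicAlgCl ((x.1 : Nat.Primes) : ℕ) :=
    (semiHom ((x.1 : Nat.Primes) : ℕ) ψK).toRingHom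
  have hκ₀ : ∀ (k : K) (c : ℚ_[((x.1 : Nat.Primes) : ℕ)]), κ₀ (k ⊗ₜ[ℚ] c) =
      ψ (algebraMap K L k) *
        algebraMap ℚ_[((x.1 : Nat.Primes) : ℕ)] (PadicAlgCl ((x.1 : Nat.Primes) : ℕ)) c :=
    fun k c => semiHom_tmul ((x.1 : Nat.Primes) : ℕ) ψK k c
  let κ : Kloc K (x.1 : Nat.Primes) x.2.asIdeal →+* PadicAlgCl ((x.1 : Nat.Primes) : ℕ) :=
    Ideal.Quotient.lift x.2.asIdeal κ₀ hle
  have hκ : ∀ a : Ksemi K (x.1 : Nat.Primes), κ (Ideal.Quotient.mk x.2.asIdeal a) = κ₀ a :=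
    fun a => Ideal.Quotient.lift_mk x.2.asIdeal κ₀ _
  have hK : ∀ k : K, κ (algebraMap K (Kloc K (x.1 : Nat.Primes) x.2.asIdeal) k) =
      ψ (algebraMap K L k) := by
    intro k
    have e1 : algebraMap K (Kloc K (x.1 : Nat.Primes) x.2.asIdeal) k =
        Ideal.Quotient.mk x.2.asIdeal (k ⊗ₜ[ℚ] (1 : ℚ_[((x.1 : Nat.Primes) : ℕ)])) := rfl
    rw [e1, hκ, hκ₀, map_one, mul_one]
  have hQ : ∀ c : ℚ_[((x.1 : Nat.Primes) : ℕ)],
      κ (algebraMap ℚ_[((x.1 : Nat.Primes) : ℕ)] (Kloc K (x.1 : Nat.Primes) x.2.asIdeal) c) =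
      algebraMap ℚ_[((x.1 : Nat.Primes) : ℕ)] (PadicAlgCl ((x.1 : Nat.Primes) : ℕ)) c := by
    intro c
    have e1 : algebraMap ℚ_[((x.1 : Nat.Primes) : ℕ)] (Kloc K (x.1 : Nat.Primes) x.2.asIdeal) c =
        Ideal.Quotient.mk x.2.asIdeal ((1 : K) ⊗ₜ[ℚ] c) := rfl
    rw [e1, hκ, hκ₀, map_one, map_one, one_mul]
  obtain ⟨Φ, g, hΦ, hnorm⟩ := exists_smul_norm_eq_Kloc K L (x.1 : Nat.Primes) x.2
    (mAt K L (x.1 : Nat.Primes) x.2.asIdeal) (ψ : L →+* PadicAlgCl ((x.1 : Nat.Primes) : ℕ)) κ hK hQ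
  -- `semiHom q ψ ∘ projT = Φ ∘ projPlace x`
  have hcomp : ∀ z : L ⊗[ℚ] QT T,
      semiHom ((x.1 : Nat.Primes) : ℕ) ψ (projT (L := L) T (x.1 : Nat.Primes) x.1.2 z) =
        Φ (projPlace K L T x z) := by
    intro z
    induction z using TensorProduct.induction_on with
    | zero => simp
    | tmul l f =>
      rw [projT_tmul, semiHom_tmul, projPlace_tmul, hΦ, hκ, hκ₀]
      simp only [map_one, one_mul]
      rfl
    | add a b ha hb =>
      rw [map_add, map_add, RingHom.map_add (projPlace K L T x), RingHom.map_add Φ, ha, hb]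
  rw [hcomp, hnorm]
  have h1 := (mem_UTsub_iff K L T T' u).1 hu x hx
  haveI := x.2.isMaximal
  rw [mem_placeSub_iff] at h1
  exact h1 g

/-- **the converse of `LocOffKer.mem_UTsub_of_forall_semiHom`** : the unit ideles at the primes of
`T'` have norm one under every local embedding at the primes of `T ∩ T'` -/
theorem norm_semiHom_eq_one_of_mem_UTsub (T T' : Finset Nat.Primes) (u : (L ⊗[ℚ] QT T)ˣ)
    (hu : u ∈ UTsub K L T T') (q : Nat.Primes) (hq : q ∈ T) (hq' : q ∈ T')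
    (ψ : L →ₐ[ℚ] PadicAlgCl (q : ℕ)) :
    ‖semiHom (q : ℕ) ψ (projT (L := L) T q hq (u : L ⊗[ℚ] QT T))‖ = 1 := by
  -- the place of `K` cut out by `ψ`
  let κ₀ : Ksemi K q →+* PadicAlgCl (q : ℕ) := (semiHom (q : ℕ)
    (((ψ : L →+* PadicAlgCl (q : ℕ)).comp (algebraMap K L)).toRatAlgHom)).toRingHom
  haveI : IsArtinianRing (Ksemi K q) := isArtinianRing_Ksemi K q
  haveI hp : (RingHom.ker κ₀).IsPrime := RingHom.ker_isPrime κ₀
  haveI hM : (RingHom.ker κ₀).IsMaximal := inferInstance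
  exact norm_semiHom_eq_one_of_mem_UTsub_aux K L T T' u hu ⟨⟨q, hq⟩, ⟨RingHom.ker κ₀, hM⟩⟩ hq' ψ
    (fun a ha => ha)

end Conv

/-! ### `valT` forms and the literal bundles -/

section Bundles

open Fermat.Agent.S55.Global.UnramUnitsQ Fermat.Agent.S55.Middle.LocOff
open Fermat.Agent.S55.Formal.LCLevel Fermat.Agent.S55.Formal.LCLevelH
open Fermat.Agent.S55.Middle.DivDef Fermat.Agent.S55.Middle.Cap Fermat.Agent.S55.Middle.CapDiv
open CategoryTheory

variable {S : Finset Nat.Primes} {P : Subgroup GQ} {𝒱 : NBasis ↥P}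
  (hfine : IsCont (PreludeLC.globalBasis S) 𝒱 P.subtype) (hfin : P.FiniteIndex)
variable (K : Type) [Field K] [NumberField K] {L : Type} [Field L] [NumberField L] [Algebra K L]
  [IsGalois K L] (ι : L →+* Qbar) (T : Finset Nat.Primes)
  {F : IntermediateField ℚ Qbar} (hF : F.IsUnramifiedOutside S) (hι : ∀ l : L, ι l ∈ F)
variable (V : Subgroup ↥P) [V.Normal] (φ : ↥P ⧸ V →* (L ≃ₐ[K] L))
  (hφ : ∀ (h : ↥P) (l : L), ι (φ (h : ↥P ⧸ V) l) = (h : GQ) (ι l))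
variable [Finite (↥P ⧸ V)] (hV : 𝒱.mem V)

/-- a unit idele at all primes of `T` off `S` has trivial divisor off `S` -/
theorem valT_eq_zero_of_mem_UTsub (T' : Finset Nat.Primes) (hT' : ∀ q ∈ T, q ∉ S → q ∈ T')
    (u : (L ⊗[ℚ] QT T)ˣ) (hu : u ∈ UTsub K L T T') (y : Xoff S) :
    valT (S := S) ι T u y = 0 := by
  by_cases h : y.prime ∈ T
  · unfold valT
    rw [dif_pos h]
    apply ordN_eq
    rw [neg_zero, zpow_zero]
    exact norm_semiHom_eq_one_of_mem_UTsub K L T T' u hu y.prime h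
      (hT' y.prime h y.prime_notMem) _
  · exact valT_of_notMem ι T u y h

/-- **`hzero`** of `LocOffSurjJB.exists_jB_eq` / `LocOffJBSurj.exists_map_valRep_eq`, literally -/
theorem hzero_valT (T' : Finset Nat.Primes) (hT' : ∀ q ∈ T, q ∉ S → q ∈ T')
    (u : UTn K L T T') (y : Xoff S) :
    valT (S := S) ι T (Additive.toMul ((UTnIncl K L T T').hom u)) y = 0 :=
  valT_eq_zero_of_mem_UTsub K ι T T' hT' _
    ((mem_range_UTnIncl_iff K L T T' _).1 ⟨u, rfl⟩) y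

include hF hι in
/-- **`hker`** of `LocOffJB.jB_injective` / `LocOffSurjJB.exists_jB_eq`, literally (valT form) -/
theorem hker_valT (T' : Finset Nat.Primes) (hT'S : ∀ q ∈ T', q ∉ S) (a : Jn K L T)
    (ha : ∀ y : Xoff S, valT (S := S) ι T (Additive.toMul a) y = 0) :
    ∃ u : UTn K L T T', (UTnIncl K L T T').hom u = a :=
  (mem_range_UTnIncl_iff K L T T' a).2
    (LocOffKer.mem_UTsub_of_forall_semiHom K L T T' _ (fun q hq hq' ψ =>
      LocOffKer.norm_semiHom_eq_one_of_valT_eq_zero ι T (inQS_of_mem ι hF hι) _ ha q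
        (hT'S q hq') hq ψ))

/-- **`hjB` closed**: `LocOff.jB T` is injective when `T ∩ S = ∅` and `L/K` is unramified at all
places above `T`. -/
theorem jB_injective_of_unram (hTS : ∀ q ∈ T, q ∉ S)
    (hunr : ∀ q ∈ T, ∀ (𝔪 : Ideal (Ksemi K q)) [𝔪.IsMaximal]
      (m : Ideal (L ⊗[K] Kloc K q 𝔪)) [m.IsMaximal], UnramVal.IsUnramAtKloc K L q 𝔪 m)
    (hφbij : Function.Bijective φ)
    (hle : ∀ u : GQ, (∀ l : L, u (ι l) = ι l) → u ∈ P) :
    Function.Injective (jB hfine hfin K ι T hF hι V φ hφ hV) :=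
  LocOffJB.jB_injective hfine hfin K ι T hF hι V φ hφ hV hφbij hle (UTnIncl K L T T)
    (UTnIncl_injective K L T T) (hker_valT K ι T hF hι T hTS)
    (LocOffKer.isZero_H2_UTn K T hunr)

/-- **(L2) closed**: surjectivity of `LocOff.jB T` onto the classes of level `V` with vanishing
residues outside `T`, when `L/K` is unramified at all places above the primes of `T` off `S`. -/
theorem exists_jB_eq_of_unram
    (hunr : ∀ q ∈ T, q ∉ S → ∀ (𝔪 : Ideal (Ksemi K q)) [𝔪.IsMaximal]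
      (m : Ideal (L ⊗[K] Kloc K q 𝔪)) [m.IsMaximal], UnramVal.IsUnramAtKloc K L q 𝔪 m)
    (hφbij : Function.Bijective φ)
    (hle : ∀ u : GQ, (∀ l : L, u (ι l) = ι l) → u ∈ P)
    (y : groupCohomology.H2 ((Div 𝒱 (Xoff S)).quotientToInvariants V))
    (hres : ∀ x : Xoff S, x.prime ∉ T →
      (resMor 𝒱 (Xoff S) x).h2 (ι₂ 𝒱 (Div 𝒱 (Xoff S)) V hV y) = 0) :
    ∃ b : groupCohomology (Jn K L T) 2,
      jB hfine hfin K ι T hF hι V φ hφ hV b = ι₂ 𝒱 (Div 𝒱 (Xoff S)) V hV y :=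
  LocOffSurjJB.exists_jB_eq hfine hfin K ι T hF hι V φ hφ hV hφbij hle
    (UTnIncl K L T (T.filter (· ∉ S))) (UTnIncl_injective K L T _)
    (hzero_valT K ι T _ (fun _ hq hqS => Finset.mem_filter.2 ⟨hq, hqS⟩))
    (hker_valT K ι T hF hι _ (fun _ hq => (Finset.mem_filter.1 hq).2))
    (isZero_UTn_three K L T _ Local.BrauerUnramFinal.h3Vanish
      (fun q hq hq' 𝔪 _ m _ => hunr q hq (Finset.mem_filter.1 hq').2 𝔪 m))
    y hres

/-- **(L2) closed, level form** -/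
theorem exists_jB_eq_of_level_of_unram
    (hunr : ∀ q ∈ T, q ∉ S → ∀ (𝔪 : Ideal (Ksemi K q)) [𝔪.IsMaximal]
      (m : Ideal (L ⊗[K] Kloc K q 𝔪)) [m.IsMaximal], UnramVal.IsUnramAtKloc K L q 𝔪 m)
    (hφbij : Function.Bijective φ)
    (hle : ∀ u : GQ, (∀ l : L, u (ι l) = ι l) → u ∈ P)
    (e' : H2 𝒱 (Div 𝒱 (Xoff S)))
    (hlev : ∃ y : groupCohomology.H2 ((Div 𝒱 (Xoff S)).quotientToInvariants V),
      ι₂ 𝒱 (Div 𝒱 (Xoff S)) V hV y = e')
    (hres : ∀ x : Xoff S, x.prime ∉ T → (resMor 𝒱 (Xoff S) x).h2 e' = 0) :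
    ∃ b : groupCohomology (Jn K L T) 2, jB hfine hfin K ι T hF hι V φ hφ hV b = e' := by
  obtain ⟨y, rfl⟩ := hlev
  exact exists_jB_eq_of_unram hfine hfin K ι T hF hι V φ hφ hV hunr hφbij hle y hres

end Bundles

end

end Fermat.Agent.S55.Middle.LocOffKerConv
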