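/-
S55 / Middle (helper5): ROW (LOC-off) — the CLOSED forms ("dict-corollaries").

helper26's `LocOffKerConv.jB_injective_of_unram` / `exists_jB_eq_of_unram` /
`exists_jB_eq_of_level_of_unram` still carry the hypothesis `hunr` (`L/K` unramified, in
`UnramVal.IsUnramAtKloc` form, at the places above the primes of `T` off `S`) and the level
dictionary `(hφbij, hle)`.  Here:

* `isUnramAtKloc_of_notMem` : `hunr` holds for every `q ∉ S` as soon as `ι L ⊆ F` with
  `F.IsUnramifiedOutside S` (helper14 `Bridge/Unram.inertia_eq_bot_of_isUnramifiedOutside` +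
  helper71 `UnramAtKloc.isUnramAtKloc_of_inertia_above`);
* `jB_injective_closed`, `exists_jB_eq_closed`, `exists_jB_eq_of_level_closed`,
  `exists_jB_projT_closed` : the LOC-off statements with `hunr` discharged;
* `jB_injective_dict`, `exists_jB_eq_dict`, `exists_jB_eq_of_level_dict`, `exists_jB_projT_dict` :
  the same at the objects of the Galois dictionary (`LocOffDict`: `K = K₀ H`, `L' = Lext H L hKL`,
  `ι = ιL`, `V = lvl H L`, `φ = φ₀`), with NO hypothesis left besides `T ∩ S = ∅` (injectivity)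
  resp. the vanishing of the residues outside `T` (surjectivity).
-/
import Mathlib
import Fermat.Agent.S55.Middle.LocOffKerConv
import Fermat.Agent.S55.Middle.LocOffJBSurj
import Fermat.Agent.S55.Middle.LocOffDictCor
import Fermat.Agent.S55.Middle.UnramAtKloc

set_option autoImplicit false
set_option linter.unusedSectionVars false
set_option linter.style.haveILetI false

open scoped TensorProduct Pointwise
open CategoryTheory groupCohomology

namespace Fermat.Agent.S55.Middle.LocOffClosed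

open Fermat.Agent.S55.Formal Fermat.Agent.S55.Formal.LCLevel Fermat.Agent.S55.Formal.LCLevelH
open Fermat.Agent.S55.Middle.Defs Fermat.Agent.S55.Middle.DivDef Fermat.Agent.S55.Middle.Cap
open Fermat.Agent.S55.Middle.CapDiv Fermat.Agent.S55.Middle.LocOffVal
open Fermat.Agent.S55.Middle.LocOff
open Fermat.Agent.S55.Global.Objects Fermat.Agent.S55.Global.Objects2
open Fermat.Agent.S55.Global.Blocks3
open Fermat.Agent.S55.Global.UnramUnitsQ
open Fermat.Agent.S55.Middle.UnramVal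

section Unram

variable {S : Finset Nat.Primes}
variable (K : Type) [Field K] [NumberField K] {L : Type} [Field L] [NumberField L] [Algebra K L]
  [IsGalois K L]

/-- **`hunr`** : `L/K` is unramified (in `IsUnramAtKloc` form) at all places above a prime
`q ∉ S`, when `ι L` lies in a field unramified outside `S`. -/
theorem isUnramAtKloc_of_notMem (ι : L →+* Qbar)
    {F : IntermediateField ℚ Qbar} (hF : F.IsUnramifiedOutside S) (hι : ∀ l : L, ι l ∈ F)
    (q : Nat.Primes) (hq : q ∉ S)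
    (𝔪 : Ideal (Ksemi K q)) [𝔪.IsMaximal] (m : Ideal (L ⊗[K] Kloc K q 𝔪)) [m.IsMaximal] :
    IsUnramAtKloc K L q 𝔪 m := by
  refine UnramAtKloc.isUnramAtKloc_of_inertia_above K L q ?_ 𝔪 m
  intro P hP hqP σ hσ
  haveI := hP
  have h := Bridge.Unram.inertia_eq_bot_of_isUnramifiedOutside (K := K) ι
    (LocOffWA.isUnramifiedOutside_imageField ι hF hι) q hq P hqP
  rw [h, Subgroup.mem_bot] at hσ
  exact hσ

/-- `H³(Gal(L/K), UTn K L T T') = 0` when the primes of `T ∩ T'` are outside `S`. -/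
theorem isZero_H3_UTn (ι : L →+* Qbar)
    {F : IntermediateField ℚ Qbar} (hF : F.IsUnramifiedOutside S) (hι : ∀ l : L, ι l ∈ F)
    (T T' : Finset Nat.Primes) (hT' : ∀ q ∈ T, q ∈ T' → q ∉ S) :
    Limits.IsZero (groupCohomology (UTn K L T T') 3) :=
  isZero_UTn_three K L T T' Local.BrauerUnramFinal.h3Vanish
    (fun q hq hq' 𝔪 _ m _ => isUnramAtKloc_of_notMem K ι hF hι q (hT' q hq hq') 𝔪 m)

/-- `Hⁿ(Gal(L/K), UTn K L T T') = 0` (`n > 0`) when `T ⊆ T'` and `T ∩ S = ∅`. -/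
theorem isZero_UTn_of_disjoint (ι : L →+* Qbar)
    {F : IntermediateField ℚ Qbar} (hF : F.IsUnramifiedOutside S) (hι : ∀ l : L, ι l ∈ F)
    (T T' : Finset Nat.Primes) (hTT' : T ⊆ T') (hTS : ∀ q ∈ T, q ∉ S) (n : ℕ) (hn : 0 < n) :
    Limits.IsZero (groupCohomology (UTn K L T T') n) :=
  isZero_UTn_of_subset K L T T' hTT'
    (fun q hq _ 𝔪 _ m _ => isUnramAtKloc_of_notMem K ι hF hι q (hTS q hq) 𝔪 m) n hn

end Unram

section Level

variable {S : Finset Nat.Primes} {P : Subgroup GQ} {𝒱 : NBasis ↥P}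
  (hfine : IsCont (PreludeLC.globalBasis S) 𝒱 P.subtype) (hfin : P.FiniteIndex)
variable (K : Type) [Field K] [NumberField K] {L : Type} [Field L] [NumberField L] [Algebra K L]
  [IsGalois K L]
  (ι : L →+* Qbar) (T : Finset Nat.Primes)
  {F : IntermediateField ℚ Qbar} (hF : F.IsUnramifiedOutside S) (hι : ∀ l : L, ι l ∈ F)
variable (V : Subgroup ↥P) [V.Normal] (φ : ↥P ⧸ V →* (L ≃ₐ[K] L))
  (hφ : ∀ (h : ↥P) (l : L), ι (φ (h : ↥P ⧸ V) l) = (h : GQ) (ι l))
variable [Finite (↥P ⧸ V)] (hV : 𝒱.mem V)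

/-- **`hjB`, closed**: for `T ∩ S = ∅`, `LocOff.jB T` is injective. -/
theorem jB_injective_closed (hTS : ∀ q ∈ T, q ∉ S) (hφbij : Function.Bijective φ)
    (hle : ∀ u : GQ, (∀ l : L, u (ι l) = ι l) → u ∈ P) :
    Function.Injective (jB hfine hfin K ι T hF hι V φ hφ hV) :=
  LocOffKerConv.jB_injective_of_unram hfine hfin K ι T hF hι V φ hφ hV hTS
    (fun q hq 𝔪 _ m _ => isUnramAtKloc_of_notMem K ι hF hι q (hTS q hq) 𝔪 m) hφbij hle

/-- **(L2), closed** (residue form): a class of level `V` whose residues vanish outside `T` is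
`jB T` of a class of `H²(Gal(L/K), (L ⊗ ℚ_T)ˣ)`. -/
theorem exists_jB_eq_closed (hφbij : Function.Bijective φ)
    (hle : ∀ u : GQ, (∀ l : L, u (ι l) = ι l) → u ∈ P)
    (y : groupCohomology.H2 ((Div 𝒱 (Xoff S)).quotientToInvariants V))
    (hres : ∀ x : Xoff S, x.prime ∉ T →
      (resMor 𝒱 (Xoff S) x).h2 (ι₂ 𝒱 (Div 𝒱 (Xoff S)) V hV y) = 0) :
    ∃ b : groupCohomology (Jn K L T) 2,
      jB hfine hfin K ι T hF hι V φ hφ hV b = ι₂ 𝒱 (Div 𝒱 (Xoff S)) V hV y :=
  LocOffKerConv.exists_jB_eq_of_unram hfine hfin K ι T hF hι V φ hφ hV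
    (fun q _ hqS 𝔪 _ m _ => isUnramAtKloc_of_notMem K ι hF hι q hqS 𝔪 m) hφbij hle y hres

/-- **(L2), closed** (class form). -/
theorem exists_jB_eq_of_level_closed (hφbij : Function.Bijective φ)
    (hle : ∀ u : GQ, (∀ l : L, u (ι l) = ι l) → u ∈ P)
    (e' : H2 𝒱 (Div 𝒱 (Xoff S)))
    (hlev : ∃ y : groupCohomology.H2 ((Div 𝒱 (Xoff S)).quotientToInvariants V),
      ι₂ 𝒱 (Div 𝒱 (Xoff S)) V hV y = e')
    (hres : ∀ x : Xoff S, x.prime ∉ T → (resMor 𝒱 (Xoff S) x).h2 e' = 0) :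
    ∃ b : groupCohomology (Jn K L T) 2, jB hfine hfin K ι T hF hι V φ hφ hV b = e' :=
  LocOffKerConv.exists_jB_eq_of_level_of_unram hfine hfin K ι T hF hι V φ hφ hV
    (fun q _ hqS 𝔪 _ m _ => isUnramAtKloc_of_notMem K ι hF hι q hqS 𝔪 m) hφbij hle e' hlev hres

/-- **(L2), closed** (projection form, no residue hypothesis): every class of `H²(P/V, Div^V)`,
projected onto the places over `T`, is `jB T` of a class of `H²(Gal(L/K), (L ⊗ ℚ_T)ˣ)`. -/
theorem exists_jB_projT_closed (hφbij : Function.Bijective φ)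
    (hle : ∀ u : GQ, (∀ l : L, u (ι l) = ι l) → u ∈ P)
    (y : groupCohomology.H2 ((Div 𝒱 (Xoff S)).quotientToInvariants V)) :
    ∃ b : groupCohomology (Jn K L T) 2,
      jB hfine hfin K ι T hF hι V φ hφ hV b =
        ι₂ 𝒱 (Div 𝒱 (Xoff S)) V hV
          ((groupCohomology.map (MonoidHom.id (↥P ⧸ V)) (LocOffJBSurj.projT T V) 2).hom y) :=
  LocOffJBSurj.exists_jB_eq hfine hfin K ι T hF hι V φ hφ hV hφbij hle
    (UTnIncl K L T (T.filter (· ∉ S))) (UTnIncl_injective K L T _)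
    (LocOffKerConv.hzero_valT K ι T _ (fun _ hq hqS => Finset.mem_filter.2 ⟨hq, hqS⟩))
    (LocOffKerConv.hker_valT K ι T hF hι _ (fun _ hq => (Finset.mem_filter.1 hq).2))
    (isZero_H3_UTn K ι hF hι T _ (fun _ _ hq' => (Finset.mem_filter.1 hq').2)) y

end Level

section DictObjects

open Fermat.Agent.S55.Formal.PreludeLC
open Fermat.Agent.S55.Middle.Dict Fermat.Agent.S55.Middle.GaloisDict
open Fermat.Agent.S55.Middle.GaloisDictModel Fermat.Agent.S55.Middle.OSDict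
open Fermat.Agent.S55.Middle.LocOffDict Fermat.Agent.S55.Middle.LocOffDictCor

variable (S : Finset Nat.Primes) (H : Subgroup Defs.GQ) (L : IntermediateField ℚ Defs.Qbar)
  [Normal ℚ L] (hKL : K₀ H ≤ L) (hL : L.IsUnramifiedOutside S) (hle : L.fixingSubgroup ≤ H)
variable [NumberField ↥(K₀ H)] [NumberField ↥(Lext H L hKL)]
  [IsGalois ↥(K₀ H) ↥(Lext H L hKL)]
variable {𝒱 : NBasis ↥H} (hfine : IsCont (PreludeLC.globalBasis S) 𝒱 H.subtype)
  (hfin : H.FiniteIndex) [Finite (↥H ⧸ lvl H L)] (hV : 𝒱.mem (lvl H L))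
  (T : Finset Nat.Primes)

/-- **`hjB` at the Galois dictionary**: for `T ∩ S = ∅`, `LocOff.jB T` is injective. -/
theorem jB_injective_dict (hTS : ∀ q ∈ T, q ∉ S) :
    Function.Injective (jB hfine hfin ↥(K₀ H) (ιL H L hKL) T hL (ιL_mem H L hKL) (lvl H L)
      (φ₀ S H L hKL hL hle) (hφ₀ S H L hKL hL hle) hV) :=
  jB_injective_closed hfine hfin ↥(K₀ H) (ιL H L hKL) T hL (ιL_mem H L hKL) (lvl H L)
    (φ₀ S H L hKL hL hle) (hφ₀ S H L hKL hL hle) hV hTS (φ₀_bijective S H L hKL hL hle)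
    (mem_of_fixes H L hKL hle)

/-- **(L2) at the Galois dictionary** (residue form). -/
theorem exists_jB_eq_dict
    (y : groupCohomology.H2 ((Div 𝒱 (Xoff S)).quotientToInvariants (lvl H L)))
    (hres : ∀ x : Xoff S, x.prime ∉ T →
      (resMor 𝒱 (Xoff S) x).h2 (ι₂ 𝒱 (Div 𝒱 (Xoff S)) (lvl H L) hV y) = 0) :
    ∃ b : groupCohomology (Jn ↥(K₀ H) ↥(Lext H L hKL) T) 2,
      jB hfine hfin ↥(K₀ H) (ιL H L hKL) T hL (ιL_mem H L hKL) (lvl H L)
        (φ₀ S H L hKL hL hle) (hφ₀ S H L hKL hL hle) hV b =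
        ι₂ 𝒱 (Div 𝒱 (Xoff S)) (lvl H L) hV y :=
  exists_jB_eq_closed hfine hfin ↥(K₀ H) (ιL H L hKL) T hL (ιL_mem H L hKL) (lvl H L)
    (φ₀ S H L hKL hL hle) (hφ₀ S H L hKL hL hle) hV (φ₀_bijective S H L hKL hL hle)
    (mem_of_fixes H L hKL hle) y hres

/-- **(L2) at the Galois dictionary** (class form). -/
theorem exists_jB_eq_of_level_dict (e' : H2 𝒱 (Div 𝒱 (Xoff S)))
    (hlev : ∃ y : groupCohomology.H2 ((Div 𝒱 (Xoff S)).quotientToInvariants (lvl H L)),
      ι₂ 𝒱 (Div 𝒱 (Xoff S)) (lvl H L) hV y = e')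
    (hres : ∀ x : Xoff S, x.prime ∉ T → (resMor 𝒱 (Xoff S) x).h2 e' = 0) :
    ∃ b : groupCohomology (Jn ↥(K₀ H) ↥(Lext H L hKL) T) 2,
      jB hfine hfin ↥(K₀ H) (ιL H L hKL) T hL (ιL_mem H L hKL) (lvl H L)
        (φ₀ S H L hKL hL hle) (hφ₀ S H L hKL hL hle) hV b = e' :=
  exists_jB_eq_of_level_closed hfine hfin ↥(K₀ H) (ιL H L hKL) T hL (ιL_mem H L hKL) (lvl H L)
    (φ₀ S H L hKL hL hle) (hφ₀ S H L hKL hL hle) hV (φ₀_bijective S H L hKL hL hle)
    (mem_of_fixes H L hKL hle) e' hlev hres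

/-- **(L2) at the Galois dictionary** (projection form). -/
theorem exists_jB_projT_dict
    (y : groupCohomology.H2 ((Div 𝒱 (Xoff S)).quotientToInvariants (lvl H L))) :
    ∃ b : groupCohomology (Jn ↥(K₀ H) ↥(Lext H L hKL) T) 2,
      jB hfine hfin ↥(K₀ H) (ιL H L hKL) T hL (ιL_mem H L hKL) (lvl H L)
        (φ₀ S H L hKL hL hle) (hφ₀ S H L hKL hL hle) hV b =
        ι₂ 𝒱 (Div 𝒱 (Xoff S)) (lvl H L) hV
          ((groupCohomology.map (MonoidHom.id (↥H ⧸ lvl H L))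
            (LocOffJBSurj.projT T (lvl H L)) 2).hom y) :=
  exists_jB_projT_closed hfine hfin ↥(K₀ H) (ιL H L hKL) T hL (ιL_mem H L hKL) (lvl H L)
    (φ₀ S H L hKL hL hle) (hφ₀ S H L hKL hL hle) hV (φ₀_bijective S H L hKL hL hle)
    (mem_of_fixes H L hKL hle) y

end DictObjects

end Fermat.Agent.S55.Middle.LocOffClosed
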