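/-
S55 / Middle (helper79): ROW (LOC-off), `T`-MONOTONICITY of helper99's `LocOff.jB`.

In the realisation chain `d ↦ T₁ ↦ b ↦ y ↦ off (inflL y)` the set `T₁` is chosen from the support
of `d` BEFORE the global class `y` exists, while the comparison `off (inflL y) = jB T₂ (…y…)`
(`LocOff.off_inflL_of_isTUnit…`) holds for a set `T₂` chosen AFTER `y`.  This file compares
`jB T₁` and `jB T₂` for `T₁ ⊆ T₂`.

* `evalQ_sec_eq`, `valT_sec_mono` : the divisor of the section at `q ∈ T₁` of a local unit does not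
  depend on the ambient set of primes;
* `valRep_secQ_mono`, `jB_secQ_mono` : the same for `valRep ∘ secQ q` and `jB ∘ (secQ q)_*`;
* `jB_eq_of_proj_mono` : `jB T₂ a₂ = jB T₁ b` as soon as `a₂`, `b` have the same components at the
  primes of `T₁ ∖ S` and the components of `a₂` at the primes of `T₂ ∖ (T₁ ∪ S)` vanish;
* `jB_LxToJn_mono` : for a global class `y` whose `q`-components vanish for `q ∈ T₂ ∖ (T₁ ∪ S)`:
  `jB T₂ (y ⊗ 1) = jB T₁ (y ⊗ 1)`.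
-/
import Mathlib
import Fermat.Agent.S55.Middle.LocOffSupp

set_option autoImplicit false
set_option linter.unusedSectionVars false
set_option linter.style.haveILetI false

open scoped TensorProduct Pointwise
open CategoryTheory groupCohomology

namespace Fermat.Agent.S55.Middle.LocOffMono

noncomputable section

open Fermat.Agent.S55.Formal Fermat.Agent.S55.Formal.LCLevel Fermat.Agent.S55.Formal.LCLevelH
open Fermat.Agent.S55.Middle.Defs Fermat.Agent.S55.Middle.DivDef Fermat.Agent.S55.Middle.Cap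
open Fermat.Agent.S55.Middle.CapDiv Fermat.Agent.S55.Middle.LocOffVal
open Fermat.Agent.S55.Middle.LocOffNorm Fermat.Agent.S55.Middle.LocOff
open Fermat.Agent.S55.Middle.LocOffSupp
open Fermat.Agent.S55.Global.Objects Fermat.Agent.S55.Global.Objects2
open Fermat.Agent.S55.Global Fermat.Agent.S55.Global.LocalProdT

section Val

variable {S : Finset Nat.Primes} {L : Type} [Field L] [NumberField L] (ι : L →+* Qbar)
  (T₁ T₂ : Finset Nat.Primes)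

/-- the components of the section at `q` of a local unit do not depend on the ambient set -/
theorem evalQ_sec_eq (q : Nat.Primes) (h₁ : q ∈ T₁) (h₂ : q ∈ T₂)
    (c : (L ⊗[ℚ] ℚ_[((q : Nat.Primes) : ℕ)])ˣ)
    (q' : Nat.Primes) (h₁' : q' ∈ T₁) (h₂' : q' ∈ T₂) :
    evalQ L T₁ ⟨q', h₁'⟩ (((isProdDecomp_evalQ L T₁).sec ⟨q, h₁⟩ c : (L ⊗[ℚ] QT T₁)ˣ) :
        L ⊗[ℚ] QT T₁) =
      evalQ L T₂ ⟨q', h₂'⟩ (((isProdDecomp_evalQ L T₂).sec ⟨q, h₂⟩ c : (L ⊗[ℚ] QT T₂)ˣ) :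
        L ⊗[ℚ] QT T₂) := by
  by_cases hqq : q' = q
  · subst hqq
    have e1 := (isProdDecomp_evalQ L T₁).map_sec_self ⟨q', h₁⟩ c
    have e2 := (isProdDecomp_evalQ L T₂).map_sec_self ⟨q', h₂⟩ c
    have e1' := congrArg (fun u : (Bq L T₁ ⟨q', h₁⟩)ˣ => (u : Bq L T₁ ⟨q', h₁⟩)) e1
    have e2' := congrArg (fun u : (Bq L T₂ ⟨q', h₂⟩)ˣ => (u : Bq L T₂ ⟨q', h₂⟩)) e2
    simp only [Units.coe_map] at e1' e2'
    exact e1'.trans e2'.symm
  · have hne₁ : (⟨q, h₁⟩ : T₁) ≠ ⟨q', h₁'⟩ := fun h => hqq (congrArg Subtype.val h).symm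
    have hne₂ : (⟨q, h₂⟩ : T₂) ≠ ⟨q', h₂'⟩ := fun h => hqq (congrArg Subtype.val h).symm
    have e1 := (isProdDecomp_evalQ L T₁).map_sec_of_ne hne₁ c
    have e2 := (isProdDecomp_evalQ L T₂).map_sec_of_ne hne₂ c
    have e1' := congrArg (fun u : (Bq L T₁ ⟨q', h₁'⟩)ˣ => (u : Bq L T₁ ⟨q', h₁'⟩)) e1
    have e2' := congrArg (fun u : (Bq L T₂ ⟨q', h₂'⟩)ˣ => (u : Bq L T₂ ⟨q', h₂'⟩)) e2
    simp only [Units.coe_map, Units.val_one] at e1' e2'
    exact e1'.trans e2'.symm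

/-- the divisor of the section at `q ∈ T₁` of a local unit does not depend on the ambient set -/
theorem valT_sec_mono (hT : T₁ ⊆ T₂) (q : Nat.Primes) (h₁ : q ∈ T₁)
    (c : (L ⊗[ℚ] ℚ_[((q : Nat.Primes) : ℕ)])ˣ) (y : Xoff S) :
    valT (S := S) ι T₂ ((isProdDecomp_evalQ L T₂).sec ⟨q, hT h₁⟩ c) y =
      valT (S := S) ι T₁ ((isProdDecomp_evalQ L T₁).sec ⟨q, h₁⟩ c) y := by
  by_cases hy₁ : y.prime ∈ T₁
  · have hy₂ : y.prime ∈ T₂ := hT hy₁
    unfold valT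
    rw [dif_pos hy₁, dif_pos hy₂]
    unfold locAt
    rw [projT_eq_evalQ, projT_eq_evalQ,
      evalQ_sec_eq T₁ T₂ q h₁ (hT h₁) c y.prime hy₁ hy₂]
  · rw [valT_of_notMem ι T₁ _ y hy₁]
    by_cases hy₂ : y.prime ∈ T₂
    · unfold valT
      rw [dif_pos hy₂]
      unfold locAt
      have hne : (⟨q, hT h₁⟩ : T₂) ≠ ⟨y.prime, hy₂⟩ := by
        intro h
        apply hy₁
        have : q = y.prime := congrArg Subtype.val h
        rw [← this]
        exact h₁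
      have e := (isProdDecomp_evalQ L T₂).map_sec_of_ne hne c
      have e' := congrArg (fun u : (Bq L T₂ ⟨y.prime, hy₂⟩)ˣ => (u : Bq L T₂ ⟨y.prime, hy₂⟩)) e
      simp only [Units.coe_map, Units.val_one] at e'
      rw [projT_eq_evalQ]
      have e'' : evalQ L T₂ ⟨y.prime, hy₂⟩
          (((isProdDecomp_evalQ L T₂).sec ⟨q, hT h₁⟩ c : (L ⊗[ℚ] QT T₂)ˣ) : L ⊗[ℚ] QT T₂) = 1 := e'
      rw [e'', map_one, ordN_one]
    · exact valT_of_notMem ι T₂ _ y hy₂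

end Val

section Level

variable {S : Finset Nat.Primes} {P : Subgroup GQ} {𝒱 : NBasis ↥P}
  (hfine : IsCont (PreludeLC.globalBasis S) 𝒱 P.subtype) (hfin : P.FiniteIndex)
variable (K : Type) [Field K] [NumberField K] {L : Type} [Field L] [NumberField L] [Algebra K L]
  (ι : L →+* Qbar) (T₁ T₂ : Finset Nat.Primes)
  {F : IntermediateField ℚ Qbar} (hF : F.IsUnramifiedOutside S) (hι : ∀ l : L, ι l ∈ F)
variable (V : Subgroup ↥P) [V.Normal] (φ : ↥P ⧸ V →* (L ≃ₐ[K] L))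
  (hφ : ∀ (h : ↥P) (l : L), ι (φ (h : ↥P ⧸ V) l) = (h : GQ) (ι l))

/-- `valRep ∘ secQ q` does not depend on the ambient set of primes -/
theorem valRep_secQ_mono (hT : T₁ ⊆ T₂) (q : Nat.Primes) (h₁ : q ∈ T₁) (c : Jq K L q) :
    (valRep hfine hfin K ι T₂ hF hι V φ hφ).hom ((secQ K L T₂ ⟨q, hT h₁⟩).hom c) =
      (valRep hfine hfin K ι T₁ hF hι V φ hφ).hom ((secQ K L T₁ ⟨q, h₁⟩).hom c) := by
  apply Subtype.ext
  apply div_ext
  intro y
  rw [valRep_apply_coe, toFun_divT, valRep_apply_coe, toFun_divT]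
  exact valT_sec_mono ι T₁ T₂ hT q h₁ (Additive.toMul c) y

variable [Finite (↥P ⧸ V)] (hV : 𝒱.mem V)

/-- `jB ∘ (secQ q)_*` does not depend on the ambient set of primes -/
theorem jB_secQ_mono (hT : T₁ ⊆ T₂) (q : Nat.Primes) (h₁ : q ∈ T₁)
    (x : groupCohomology (Jq K L q) 2) :
    jB hfine hfin K ι T₂ hF hι V φ hφ hV
        ((groupCohomology.map (MonoidHom.id (L ≃ₐ[K] L)) (secQ K L T₂ ⟨q, hT h₁⟩) 2).hom x) =
      jB hfine hfin K ι T₁ hF hι V φ hφ hV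
        ((groupCohomology.map (MonoidHom.id (L ≃ₐ[K] L)) (secQ K L T₁ ⟨q, h₁⟩) 2).hom x) := by
  induction x using H2_induction_on with
  | h f =>
    have e1 : (groupCohomology.map (MonoidHom.id (L ≃ₐ[K] L)) (secQ K L T₂ ⟨q, hT h₁⟩) 2).hom
        (H2π _ f) = H2π _ (mapCocycles₂ (A := Jq K L q) (B := Jn K L T₂)
          (MonoidHom.id (L ≃ₐ[K] L)) (secQ K L T₂ ⟨q, hT h₁⟩) f) :=
      H2π_comp_map_apply (A := Jq K L q) (B := Jn K L T₂)
        (MonoidHom.id (L ≃ₐ[K] L)) (secQ K L T₂ ⟨q, hT h₁⟩) f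
    have e1' : (groupCohomology.map (MonoidHom.id (L ≃ₐ[K] L)) (secQ K L T₁ ⟨q, h₁⟩) 2).hom
        (H2π _ f) = H2π _ (mapCocycles₂ (A := Jq K L q) (B := Jn K L T₁)
          (MonoidHom.id (L ≃ₐ[K] L)) (secQ K L T₁ ⟨q, h₁⟩) f) :=
      H2π_comp_map_apply (A := Jq K L q) (B := Jn K L T₁)
        (MonoidHom.id (L ≃ₐ[K] L)) (secQ K L T₁ ⟨q, h₁⟩) f
    have e2 := jB_π hfine hfin K ι T₂ hF hι V φ hφ hV
      (mapCocycles₂ (A := Jq K L q) (B := Jn K L T₂)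
        (MonoidHom.id (L ≃ₐ[K] L)) (secQ K L T₂ ⟨q, hT h₁⟩) f)
    have e2' := jB_π hfine hfin K ι T₁ hF hι V φ hφ hV
      (mapCocycles₂ (A := Jq K L q) (B := Jn K L T₁)
        (MonoidHom.id (L ≃ₐ[K] L)) (secQ K L T₁ ⟨q, h₁⟩) f)
    have e3 : mapCocycles₂ (A := Jn K L T₂) (B := (Div 𝒱 (Xoff S)).quotientToInvariants V) φ
        (valRep hfine hfin K ι T₂ hF hι V φ hφ)
        (mapCocycles₂ (A := Jq K L q) (B := Jn K L T₂)
          (MonoidHom.id (L ≃ₐ[K] L)) (secQ K L T₂ ⟨q, hT h₁⟩) f) =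
        mapCocycles₂ (A := Jn K L T₁) (B := (Div 𝒱 (Xoff S)).quotientToInvariants V) φ
        (valRep hfine hfin K ι T₁ hF hι V φ hφ)
        (mapCocycles₂ (A := Jq K L q) (B := Jn K L T₁)
          (MonoidHom.id (L ≃ₐ[K] L)) (secQ K L T₁ ⟨q, h₁⟩) f) := by
      apply Subtype.ext
      funext ⟨g, h⟩
      exact valRep_secQ_mono hfine hfin K ι T₁ T₂ hF hι V φ hφ hT q h₁ _
    refine ((congrArg (jB hfine hfin K ι T₂ hF hι V φ hφ hV) e1).trans e2).trans ?_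
    refine Eq.trans ?_ ((congrArg (jB hfine hfin K ι T₁ hF hι V φ hφ hV) e1').trans e2').symm
    rw [e3]

/-- the `q`-summand of `jB T a` (zero if `q ∉ T`) -/
def summand (T : Finset Nat.Primes) (a : groupCohomology (Jn K L T) 2) (q : Nat.Primes) :
    H2 𝒱 (Div 𝒱 (Xoff S)) :=
  if h : q ∈ T then jB hfine hfin K ι T hF hι V φ hφ hV
    ((groupCohomology.map (MonoidHom.id (L ≃ₐ[K] L)) (secQ K L T ⟨q, h⟩) 2).hom
      ((groupCohomology.map (MonoidHom.id (L ≃ₐ[K] L)) (projQ K L T ⟨q, h⟩) 2).hom a))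
  else 0

theorem summand_of_mem (T : Finset Nat.Primes) (a : groupCohomology (Jn K L T) 2)
    (q : Nat.Primes) (h : q ∈ T) :
    summand hfine hfin K ι hF hι V φ hφ hV T a q = jB hfine hfin K ι T hF hι V φ hφ hV
      ((groupCohomology.map (MonoidHom.id (L ≃ₐ[K] L)) (secQ K L T ⟨q, h⟩) 2).hom
        ((groupCohomology.map (MonoidHom.id (L ≃ₐ[K] L)) (projQ K L T ⟨q, h⟩) 2).hom a)) :=
  dif_pos h

theorem jB_eq_sum_summand (T : Finset Nat.Primes) (a : groupCohomology (Jn K L T) 2) :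
    jB hfine hfin K ι T hF hι V φ hφ hV a =
      ∑ q ∈ T, summand hfine hfin K ι hF hι V φ hφ hV T a q := by
  rw [jB_eq_sum hfine hfin K ι T hF hι V φ hφ hV a,
    ← Finset.sum_coe_sort T (summand hfine hfin K ι hF hι V φ hφ hV T a)]
  refine Finset.sum_congr rfl fun q _ => ?_
  exact (summand_of_mem hfine hfin K ι hF hι V φ hφ hV T a q.1 q.2).symm

/-- **`T`-monotonicity of `jB`.**  For `T₁ ⊆ T₂`: `jB T₂ a₂ = jB T₁ b` as soon as `a₂` and `b` have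
the same components at the primes of `T₁ ∖ S` and the components of `a₂` at the primes of
`T₂ ∖ (T₁ ∪ S)` vanish. -/
theorem jB_eq_of_proj_mono (hT : T₁ ⊆ T₂) (a₂ : groupCohomology (Jn K L T₂) 2)
    (b : groupCohomology (Jn K L T₁) 2)
    (h1 : ∀ (q : Nat.Primes) (h₁ : q ∈ T₁), q ∉ S →
      (groupCohomology.map (MonoidHom.id (L ≃ₐ[K] L)) (projQ K L T₂ ⟨q, hT h₁⟩) 2).hom a₂ =
        (groupCohomology.map (MonoidHom.id (L ≃ₐ[K] L)) (projQ K L T₁ ⟨q, h₁⟩) 2).hom b)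
    (h2 : ∀ q : T₂, (q : Nat.Primes) ∉ S → (q : Nat.Primes) ∉ T₁ →
      (groupCohomology.map (MonoidHom.id (L ≃ₐ[K] L)) (projQ K L T₂ q) 2).hom a₂ = 0) :
    jB hfine hfin K ι T₂ hF hι V φ hφ hV a₂ = jB hfine hfin K ι T₁ hF hι V φ hφ hV b := by
  rw [jB_eq_sum_summand hfine hfin K ι hF hι V φ hφ hV T₂ a₂,
    jB_eq_sum_summand hfine hfin K ι hF hι V φ hφ hV T₁ b]
  -- drop the primes of `T₂ ∖ T₁`
  have s₃ : ∑ q ∈ T₂, summand hfine hfin K ι hF hι V φ hφ hV T₂ a₂ q =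
      ∑ q ∈ T₁, summand hfine hfin K ι hF hι V φ hφ hV T₂ a₂ q := by
    refine (Finset.sum_subset hT fun q hq₂ hq₁ => ?_).symm
    rw [summand_of_mem hfine hfin K ι hF hι V φ hφ hV T₂ a₂ q hq₂]
    by_cases hqS : q ∈ S
    · exact jB_secQ_of_mem hfine hfin K ι T₂ hF hι V φ hφ hV ⟨q, hq₂⟩ hqS _
    · rw [h2 ⟨q, hq₂⟩ hqS hq₁, map_zero, map_zero]
  rw [s₃]
  refine Finset.sum_congr rfl fun q hq₁ => ?_
  rw [summand_of_mem hfine hfin K ι hF hι V φ hφ hV T₂ a₂ q (hT hq₁),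
    summand_of_mem hfine hfin K ι hF hι V φ hφ hV T₁ b q hq₁]
  by_cases hqS : q ∈ S
  · rw [jB_secQ_of_mem hfine hfin K ι T₂ hF hι V φ hφ hV ⟨q, hT hq₁⟩ hqS _,
      jB_secQ_of_mem hfine hfin K ι T₁ hF hι V φ hφ hV ⟨q, hq₁⟩ hqS _]
  · rw [h1 q hq₁ hqS]
    exact jB_secQ_mono hfine hfin K ι T₁ T₂ hF hι V φ hφ hV hT q hq₁ _

/-- `x ⊗ 1 ↦ x ⊗ 1` (for `HasseH2.LxToJn`). -/
theorem LxToJn_comp_projQ (T : Finset Nat.Primes) (q : T) :
    HasseH2.LxToJn K L T ≫ projQ K L T q = LxToJA K L ℚ_[((q : Nat.Primes) : ℕ)] :=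
  LxToJA_comp_projQ K L T q

/-- the `q`-component of the image of a global class -/
theorem map_projQ_LxToJn (T : Finset Nat.Primes) (q : T)
    (y : groupCohomology (Rep.ofAlgebraAutOnUnits K L) 2) :
    (groupCohomology.map (MonoidHom.id (L ≃ₐ[K] L)) (projQ K L T q) 2).hom
        ((groupCohomology.map (MonoidHom.id (L ≃ₐ[K] L)) (HasseH2.LxToJn K L T) 2).hom y) =
      (groupCohomology.map (MonoidHom.id (L ≃ₐ[K] L))
        (LxToJA K L ℚ_[((q : Nat.Primes) : ℕ)]) 2).hom y := by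
  have h := groupCohomology.map_id_comp (HasseH2.LxToJn K L T) (projQ K L T q) 2
  rw [LxToJn_comp_projQ K T q] at h
  rw [h]
  rfl

/-- **`T`-independence of `jB` on global classes.**  For `T₁ ⊆ T₂` and a global class `y` whose
`q`-components vanish at the primes of `T₂ ∖ (T₁ ∪ S)`: `jB T₂ (y ⊗ 1) = jB T₁ (y ⊗ 1)`. -/
theorem jB_LxToJn_mono (hT : T₁ ⊆ T₂) (y : groupCohomology (Rep.ofAlgebraAutOnUnits K L) 2)
    (h2 : ∀ q ∈ T₂, q ∉ S → q ∉ T₁ →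
      (groupCohomology.map (MonoidHom.id (L ≃ₐ[K] L))
        (LxToJA K L ℚ_[((q : Nat.Primes) : ℕ)]) 2).hom y = 0) :
    jB hfine hfin K ι T₂ hF hι V φ hφ hV
        ((groupCohomology.map (MonoidHom.id (L ≃ₐ[K] L)) (HasseH2.LxToJn K L T₂) 2).hom y) =
      jB hfine hfin K ι T₁ hF hι V φ hφ hV
        ((groupCohomology.map (MonoidHom.id (L ≃ₐ[K] L)) (HasseH2.LxToJn K L T₁) 2).hom y) := by
  apply jB_eq_of_proj_mono hfine hfin K ι T₁ T₂ hF hι V φ hφ hV hT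
  · intro q h₁ _
    rw [map_projQ_LxToJn K T₂ ⟨q, hT h₁⟩ y, map_projQ_LxToJn K T₁ ⟨q, h₁⟩ y]
  · intro q hqS hq₁
    rw [map_projQ_LxToJn K T₂ q y]
    exact h2 q.1 q.2 hqS hq₁

/-- **Realisation with a late `T`.**  If `b` over `T₁` has the same components as the global class
`y` at the primes of `T₁ ∖ S`, and `y` is trivial at the primes of `T₂ ∖ (T₁ ∪ S)`, then
`jB T₂ (y ⊗ 1) = jB T₁ b`. -/
theorem jB_LxToJn_eq_of_proj (hT : T₁ ⊆ T₂) (y : groupCohomology (Rep.ofAlgebraAutOnUnits K L) 2)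
    (b : groupCohomology (Jn K L T₁) 2)
    (h1 : ∀ (q : Nat.Primes) (h₁ : q ∈ T₁), q ∉ S →
      (groupCohomology.map (MonoidHom.id (L ≃ₐ[K] L))
        (LxToJA K L ℚ_[((q : Nat.Primes) : ℕ)]) 2).hom y =
        (groupCohomology.map (MonoidHom.id (L ≃ₐ[K] L)) (projQ K L T₁ ⟨q, h₁⟩) 2).hom b)
    (h2 : ∀ q ∈ T₂, q ∉ S → q ∉ T₁ →
      (groupCohomology.map (MonoidHom.id (L ≃ₐ[K] L))
        (LxToJA K L ℚ_[((q : Nat.Primes) : ℕ)]) 2).hom y = 0) :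
    jB hfine hfin K ι T₂ hF hι V φ hφ hV
        ((groupCohomology.map (MonoidHom.id (L ≃ₐ[K] L)) (HasseH2.LxToJn K L T₂) 2).hom y) =
      jB hfine hfin K ι T₁ hF hι V φ hφ hV b := by
  apply jB_eq_of_proj_mono hfine hfin K ι T₁ T₂ hF hι V φ hφ hV hT
  · intro q h₁ hqS
    rw [map_projQ_LxToJn K T₂ ⟨q, hT h₁⟩ y]
    exact h1 q h₁ hqS
  · intro q hqS hq₁
    rw [map_projQ_LxToJn K T₂ q y]
    exact h2 q.1 q.2 hqS hq₁

end Level

end

end Fermat.Agent.S55.Middle.LocOffMono
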