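/-
S55 / Middle / ROW (LOC-off), the EQUIVALENCE `ltoff_iff` for the REAL objects (helper99)
= leaf (B) of the (C4) hub (`ImageInstF.LevelDatum.ltoff_iff`):

  for `y ∈ H²(Gal(L/K), Lˣ)`:   `off (infl y) = 0  ↔  locFam y` is supported above `S`.

* (⇐) is helper13's `LocOffFwd` (`T` chosen after `y`, `hcB`, support lemma);
* (⇒) `locH_eq_zero_of_off_inflL_eq_zero` (abstract finite-level model of `Middle/LocOff.lean`):
  for a prime `q ∉ S` take `T := T₁(y) ∪ {q}` such that `y` is a `T`-unit class; then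
  `off (inflL y) = jB T (y ⊗ 1)` (`LocOff.off_inflL_of_isTUnitClass`)
  `= jB T' (y ⊗ 1)` with `T' := T ∖ S` (`LocOffMono.jB_LxToJn_mono`), and `jB T'` is injective
  (`LocOffClosed.jB_injective_closed`), so `y ⊗ 1 = 0` in `H²(G, (L ⊗ ℚ_{T'})ˣ)`; its component at
  the place `(q, 𝔪)` is the localisation of `y`.  No (U2) / `Setting` is needed.
* `suppIn_of_ltoff`, `ltoff_iff`, `off_eq_zero_iff` : `KSite` language, binders of
  `LocS.Statement`; `ltoff_iff` is LITERALLY the field `ltoff_iff` of `ImageInstF.LevelDatum` for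
  `infl := ι₂ (basisP S P) (resP P (KS S)) (lvl P L) hV ∘ (cohIsoExt S P L hKL hL hle 2).inv.hom`.
-/
import Mathlib
import Fermat.Agent.S55.Middle.LocOffFwd
import Fermat.Agent.S55.Middle.LocOffMono
import Fermat.Agent.S55.Middle.LocOffClosed

set_option autoImplicit false
set_option linter.unusedSectionVars false
set_option linter.style.haveILetI false

open scoped TensorProduct Pointwise
open CategoryTheory groupCohomology

namespace Fermat.Agent.S55.Middle.LocOffIff

noncomputable section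

open Fermat.Agent.S55.Global.Objects Fermat.Agent.S55.Global.Objects2
open Fermat.Agent.S55.Global.Blocks3
open Fermat.Agent.S55.Global.LocalProd Fermat.Agent.S55.Global.LocalProdCoh

/-! ### the abstract finite-level model of `Middle/LocOff.lean` -/

section Abstract

open Fermat.Agent.S55.Formal Fermat.Agent.S55.Formal.LCLevel Fermat.Agent.S55.Formal.LCLevelH
open Fermat.Agent.S55.Middle.Defs Fermat.Agent.S55.Middle.DivDef Fermat.Agent.S55.Middle.Cap
open Fermat.Agent.S55.Middle.CapDiv Fermat.Agent.S55.Middle.LocOffVal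
open Fermat.Agent.S55.Middle.LocOff

variable {S : Finset Nat.Primes} {P : Subgroup GQ} {𝒱 : NBasis ↥P}
  (hfine : IsCont (PreludeLC.globalBasis S) 𝒱 P.subtype) (hfin : P.FiniteIndex)
variable (K : Type) [Field K] [NumberField K] {L : Type} [Field L] [NumberField L] [Algebra K L]
  [IsGalois K L]
  (ι : L →+* Qbar)
  {F : IntermediateField ℚ Qbar} (hF : F.IsUnramifiedOutside S) (hι : ∀ l : L, ι l ∈ F)
variable (V : Subgroup ↥P) [V.Normal] (φ : ↥P ⧸ V →* (L ≃ₐ[K] L))
  (hφ : ∀ (h : ↥P) (l : L), ι (φ (h : ↥P ⧸ V) l) = (h : GQ) (ι l))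
variable [Finite (↥P ⧸ V)] (hV : 𝒱.mem V)

/-- **(LOC-off), backward half, abstract form.**  If the image of `inflL y` in `H²_LC(P; Div)`
vanishes, then `y` is locally trivial at every place of `K` above a prime `q ∉ S`. -/
theorem locH_eq_zero_of_off_inflL_eq_zero (hφbij : Function.Bijective φ)
    (hle : ∀ u : GQ, (∀ l : L, u (ι l) = ι l) → u ∈ P)
    (y : groupCohomology (Rep.ofAlgebraAutOnUnits K L) 2)
    (h0 : (Mor.ofHom 𝒱 (divMap hfine hfin)).h2 (inflL K ι hF hι V φ hφ hV y) = 0)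
    (q : Nat.Primes) (hq : q ∉ S) (𝔪 : MaximalSpectrum (Ksemi K q)) :
    (locH K L (Kloc K q 𝔪.asIdeal) 2).hom y = 0 := by
  classical
  obtain ⟨T₁, hT₁⟩ := HbnCoker.exists_finset_isTUnitClass (K := K) (L := L) y
  have hT : HbnCoker.IsTUnitClass K L (insert q T₁) y := hT₁ _ (Finset.subset_insert q T₁)
  have hT'T : (insert q T₁).filter (fun q' => q' ∉ S) ⊆ insert q T₁ := Finset.filter_subset _ _
  have hqT' : q ∈ (insert q T₁).filter (fun q' => q' ∉ S) :=
    Finset.mem_filter.2 ⟨Finset.mem_insert_self q T₁, hq⟩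
  have e1 := off_inflL_of_isTUnitClass hfine hfin K ι (insert q T₁) hF hι V φ hφ hV y hT
  have e2 := LocOffMono.jB_LxToJn_mono hfine hfin K ι
    ((insert q T₁).filter (fun q' => q' ∉ S)) (insert q T₁) hF hι V φ hφ hV hT'T y
    (fun q' hq'T hq'S hq'T' => absurd (Finset.mem_filter.2 ⟨hq'T, hq'S⟩) hq'T')
  have e3 : jB hfine hfin K ι ((insert q T₁).filter (fun q' => q' ∉ S)) hF hι V φ hφ hV
      ((groupCohomology.map (MonoidHom.id (L ≃ₐ[K] L))
        (HasseH2.LxToJn K L ((insert q T₁).filter (fun q' => q' ∉ S))) 2).hom y) = 0 :=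
    (e2.symm.trans e1.symm).trans h0
  have hinj := LocOffClosed.jB_injective_closed hfine hfin K ι
    ((insert q T₁).filter (fun q' => q' ∉ S)) hF hι V φ hφ hV
    (fun q' hq' => (Finset.mem_filter.1 hq').2) hφbij hle
  have e4 : (groupCohomology.map (MonoidHom.id (L ≃ₐ[K] L))
      (HasseH2.LxToJn K L ((insert q T₁).filter (fun q' => q' ∉ S))) 2).hom y = 0 :=
    hinj (e3.trans (map_zero _).symm)
  have e5 : ImageFiniteCore.toJn ((insert q T₁).filter (fun q' => q' ∉ S))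
      (ImageFiniteCore.locFam K L y) = 0 :=
    (ImageFiniteCore.toJn_locFam _ y).trans e4
  have e6 := ImageFiniteCore.cohEquivLoc_toJn ((insert q T₁).filter (fun q' => q' ∉ S))
    (ImageFiniteCore.locFam K L y) ⟨⟨q, hqT'⟩, 𝔪⟩
  rw [e5, map_zero] at e6
  exact e6.symm

/-- the same, family form -/
theorem suppIn_of_off_inflL_eq_zero (hφbij : Function.Bijective φ)
    (hle : ∀ u : GQ, (∀ l : L, u (ι l) = ι l) → u ∈ P)
    (y : groupCohomology (Rep.ofAlgebraAutOnUnits K L) 2)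
    (h0 : (Mor.ofHom 𝒱 (divMap hfine hfin)).h2 (inflL K ι hF hι V φ hφ hV y) = 0) :
    ImageFiniteCore.SuppIn S (ImageFiniteCore.locFam K L y) :=
  fun x hx => locH_eq_zero_of_off_inflL_eq_zero hfine hfin K ι hF hι V φ hφ hV hφbij hle y h0
    x.1 hx x.2

/-- **(LOC-off), abstract form, both directions.** -/
theorem off_inflL_eq_zero_iff (hφbij : Function.Bijective φ)
    (hle : ∀ u : GQ, (∀ l : L, u (ι l) = ι l) → u ∈ P)
    (y : groupCohomology (Rep.ofAlgebraAutOnUnits K L) 2) :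
    (Mor.ofHom 𝒱 (divMap hfine hfin)).h2 (inflL K ι hF hι V φ hφ hV y) = 0 ↔
      ImageFiniteCore.SuppIn S (ImageFiniteCore.locFam K L y) :=
  ⟨suppIn_of_off_inflL_eq_zero hfine hfin K ι hF hι V φ hφ hV hφbij hle y,
    fun h => LocOffFwd.off_inflL_eq_zero hfine hfin K ι hF hι V φ hφ hV y
      (fun q hq 𝔪 => h ⟨q, 𝔪⟩ hq)⟩

end Abstract

/-! ### `KSite` language (binders of `LocS.Statement`) -/

section KSiteForm

open Fermat.Agent.S55.Formal
open Fermat.Agent.S55.Formal.PreludeLC hiding GQ Qbar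
open Fermat.Agent.S55.Middle.Defs
open Fermat.Agent.S55.Middle.KSite Fermat.Agent.S55.Middle.GaloisDict
open Fermat.Agent.S55.Middle.GaloisDictModel
open Fermat.Agent.S55.Formal.LCLevelH
open Fermat.Agent.S55.Middle.ImageFiniteCore
open Fermat.Agent.S55.Middle.LocOffDict Fermat.Agent.S55.Middle.LocOffDictCor

variable (S : Finset Nat.Primes) (P : Subgroup GQ) (L : IntermediateField ℚ Qbar)
  [Normal ℚ L] (hL : L.IsUnramifiedOutside S) (hle : L.fixingSubgroup ≤ P) (hKL : K₀ P ≤ L)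
  [NumberField ↥(K₀ P)] [NumberField ↥(Lext P L hKL)] [IsGalois ↥(K₀ P) ↥(Lext P L hKL)]
  [Finite (↥P ⧸ lvl P L)]
  (hV : (basisP S P).mem (lvl P L))

/-- **(LOC-off), backward half, `KSite` language, `LToff` form.** -/
theorem suppIn_of_ltoff (hfin : P.FiniteIndex)
    (y : groupCohomology (Rep.ofAlgebraAutOnUnits ↥(K₀ P) ↥(Lext P L hKL)) 2)
    (h : CapLToff.LToff (CapDiv.isCont_subBasis S P) hfin
      (ι₂ (basisP S P) (resP P (KS S)) (lvl P L) hV
        ((cohIsoExt S P L hKL hL hle 2).inv.hom y))) :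
    SuppIn S (locFam ↥(K₀ P) ↥(Lext P L hKL) y) := by
  unfold CapLToff.LToff at h
  rw [ι₂_cohIsoExt_inv S P L hKL hL hle hV y] at h
  exact suppIn_of_off_inflL_eq_zero (CapDiv.isCont_subBasis S P) hfin ↥(K₀ P) (ιL P L hKL) hL
    (ιL_mem P L hKL) (lvl P L) (φ₀ S P L hKL hL hle) (hφ₀ S P L hKL hL hle) hV
    (φ₀_bijective S P L hKL hL hle) (mem_of_fixes P L hKL hle) y h

/-- **(LOC-off) for the real objects, `LToff` form, both directions** (any proof `hfin` of finite
index). -/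
theorem ltoff_iff' (hfin : P.FiniteIndex)
    (y : groupCohomology (Rep.ofAlgebraAutOnUnits ↥(K₀ P) ↥(Lext P L hKL)) 2) :
    CapLToff.LToff (CapDiv.isCont_subBasis S P) hfin
      (ι₂ (basisP S P) (resP P (KS S)) (lvl P L) hV
        ((cohIsoExt S P L hKL hL hle 2).inv.hom y)) ↔
      SuppIn S (locFam ↥(K₀ P) ↥(Lext P L hKL) y) :=
  ⟨suppIn_of_ltoff S P L hL hle hKL hV hfin y,
    LocOffFwd.ltoff_of_suppIn S P L hL hle hKL hV hfin y⟩

/-- **`ltoff_iff` of `ImageInstF.LevelDatum`, LITERALLY** (`hP : IsOpenS S P`,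
`infl y := ι₂ (basisP S P) (resP P (KS S)) (lvl P L) hV ((cohIsoExt S P L hKL hL hle 2).inv.hom y)`). -/
theorem ltoff_iff (hP : IsOpenS S P) :
    ∀ y : groupCohomology (Rep.ofAlgebraAutOnUnits ↥(K₀ P) ↥(Lext P L hKL)) 2,
      CapLToff.LToffP S hP
        (ι₂ (basisP S P) (resP P (KS S)) (lvl P L) hV
          ((cohIsoExt S P L hKL hL hle 2).inv.hom y)) ↔
        SuppIn S (locFam ↥(K₀ P) ↥(Lext P L hKL) y) :=
  fun y => ltoff_iff' S P L hL hle hKL hV _ y

/-- the same for `LocOffFwd.inflHom` -/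
theorem ltoff_inflHom_iff (hP : IsOpenS S P) :
    ∀ y : groupCohomology (Rep.ofAlgebraAutOnUnits ↥(K₀ P) ↥(Lext P L hKL)) 2,
      CapLToff.LToffP S hP (LocOffFwd.inflHom S P L hL hle hKL hV y) ↔
        SuppIn S (locFam ↥(K₀ P) ↥(Lext P L hKL) y) :=
  ltoff_iff S P L hL hle hKL hV hP

/-- `H3OInst.off` form -/
theorem off_eq_zero_iff (hfin : P.FiniteIndex)
    (y : groupCohomology (Rep.ofAlgebraAutOnUnits ↥(K₀ P) ↥(Lext P L hKL)) 2) :
    H3OInst.off hfin
      (ι₂ (basisP S P) (resP P (KS S)) (lvl P L) hV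
        ((cohIsoExt S P L hKL hL hle 2).inv.hom y)) = 0 ↔
      SuppIn S (locFam ↥(K₀ P) ↥(Lext P L hKL) y) :=
  ltoff_iff' S P L hL hle hKL hV hfin y

end KSiteForm

end

end Fermat.Agent.S55.Middle.LocOffIff
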