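/-
S55 / MIDDLE block, (C4) hub: THE CONSTRUCTOR of `ImageInstF.LevelDatum` for the real objects
(helper38; '.B' hedge of `Middle/LevelDatumInst.lean`).

For `P` a level of `p`-Sylow type, `R : Reps S P`, `k`:
`nonempty_levelDatum : Nonempty (ImageInstF.LevelDatum p hP.isOpen R k)`.

Leaves (all on main):
* level field            : `PLevelField.exists_pLevelField` (depth `max k 1`);
* `jA`, `hcA`, `htors`   : `BrLocTuples.exists_tuple_of_tors` (LOC-S with the range clause);
* `ltoff_iff`            : `LocOffIff.ltoff_iff`;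
* `hdesc`                : `ImageDescField.hdesc_field_of_dvd` (+ `UnramOffAdapter.hasseO`);
* `hdvd`                 : `LocSCard.card_H2_Jloc_mAt` at the place `(p, 1)`.
-/
import Fermat.Agent.S55.Middle.ImageInstF
import Fermat.Agent.S55.Middle.PLevelField
import Fermat.Agent.S55.Middle.BrLocTuples
import Fermat.Agent.S55.Middle.LocOffIff
import Fermat.Agent.S55.Middle.ImageDescField
import Fermat.Agent.S55.Middle.LocSCard
import Fermat.Agent.S55.Middle.ImageLocS
import Fermat.Agent.S55.Middle.UnramOffAdapter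

set_option autoImplicit false
set_option linter.unusedSectionVars false
set_option linter.style.haveILetI false

open CategoryTheory groupCohomology ExtCitation

namespace Fermat.Agent.S55.Middle.LevelDatumInstB

noncomputable section

open Fermat.Agent.S55.Formal Fermat.Agent.S55.Formal.LCLevelH
open Fermat.Agent.S55.Formal.PreludeLC hiding GQ Qbar
open Fermat.Agent.S55.Middle.Defs
open Fermat.Agent.S55.Middle.KSite Fermat.Agent.S55.Middle.GaloisDict
open Fermat.Agent.S55.Middle.GaloisDictModel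
open Fermat.Agent.S55.Global.Blocks3
open Fermat.Agent.S55.Middle.LocS Fermat.Agent.S55.Middle.LocSFam
open Fermat.Agent.S55.Middle.ImageFiniteCore
open Fermat.Agent.S55.Middle.Blocks Fermat.Agent.S55.Middle.Blocks2
open Fermat.Agent.S55.Middle.LESGlueV
open Fermat.Agent.S55.Middle.SylowType Fermat.Agent.S55.Middle.ImageInstF
open Fermat.Agent.S55.LM.DlocDict

attribute [local instance] Fermat.Agent.S55.LM.Defs.fact_q

variable {p : ℕ} [Fact p.Prime] {S : Finset Nat.Primes} {P : Subgroup GQ}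

/-- the place `(p, 1)` of the `K`-site. -/
def idxP (hpS : pPrime p ∈ S) (R : Reps S P) : R.Idx :=
  ⟨⟨pPrime p, hpS⟩, ⟨1, R.one_mem _⟩⟩

section Level

variable (R : Reps S P)
  (L : IntermediateField ℚ Qbar) [Normal ℚ L] (hL : L.IsUnramifiedOutside S)
  (hle : L.fixingSubgroup ≤ P) (hKL : K₀ P ≤ L)
  [NumberField ↥(K₀ P)] [NumberField ↥(Lext P L hKL)] [Finite (↥P ⧸ lvl P L)]
  (hV : (basisP S P).mem (lvl P L))

/-- field `ltoff_iff`, for `ImageLocS.infl`. -/
theorem ltoff_iff_infl [IsGalois ↥(K₀ P) ↥(Lext P L hKL)] (hP : IsOpenS S P)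
    (y : groupCohomology (Rep.ofAlgebraAutOnUnits ↥(K₀ P) ↥(Lext P L hKL)) 2) :
    CapLToff.LToffP S hP (ImageLocS.infl L hL hle hKL hV y) ↔
      SuppIn S (locFam ↥(K₀ P) ↥(Lext P L hKL) y) := by
  rw [ImageLocS.infl_apply]
  exact LocOffIff.ltoff_iff S P L hL hle hKL hV hP y

/-- field `hdesc`, for `ImageLocS.infl`. -/
theorem hdesc_infl (hp2 : p ≠ 2) (hpS : pPrime p ∈ S) (hP : Level p S P) (k : ℕ)
    (hidx : ∀ i : R.Idx, p ^ k ∣ (levelSub P i.1.1 i.2.1 L.fixingSubgroup).index)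
    (z : H2 (basisP S P) (resP P (KS S))) (hz : ∃ n : ℕ, p ^ n • z = 0)
    (hoff : CapLToff.LToffP S hP.isOpen z)
    (hloc : ∀ i : R.Idx, p ^ k • (locKS S P i.1.1 i.2.1).h2 z = 0) :
    ∃ y, ImageLocS.infl L hL hle hKL hV y = z := by
  obtain ⟨y, hy⟩ := ImageDescField.hdesc_field_of_dvd S p hpS (UnramOffAdapter.hasseO hp2 hpS) hP R
    k L hL hle hKL hV hidx z hz hoff hloc
  exact ⟨y, (ImageLocS.infl_apply L hL hle hKL hV y).trans hy⟩

set_option maxHeartbeats 1000000 in
/-- fields `jA`, `jA_injective`, `hcA`, `htors` for `ImageLocS.infl` (per-index range clause). -/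
theorem exists_jA (hP : IsOpenS S P) (k : ℕ)
    (hidx : ∀ i : R.Idx, p ^ k ∣ (levelSub P i.1.1 i.2.1 L.fixingSubgroup).index) :
    ∃ jA : ∀ i : R.Idx, HJ ↥(K₀ P) ↥(Lext P L hKL) (plOf R i) →+ BrLoc R i,
      (∀ i, Function.Injective (jA i)) ∧
      (∀ (y : groupCohomology (Rep.ofAlgebraAutOnUnits ↥(K₀ P) ↥(Lext P L hKL)) 2) (i : R.Idx),
        (locKS S P i.1.1 i.2.1).h2 (ImageLocS.infl L hL hle hKL hV y) =
          jA i (locFam ↥(K₀ P) ↥(Lext P L hKL) y (plOf R i))) ∧
      ∀ (i : R.Idx) (a : BrLoc R i), p ^ k • a = 0 → ∃ bL, jA i bL = a := by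
  classical
  obtain ⟨jA, hinj, hloc, htors⟩ :=
    BrLocTuples.exists_tuple_of_tors R L hL hle hKL hV hP k hidx
  refine ⟨jA, hinj, fun y i => ?_, fun i a ha => ?_⟩
  · rw [ImageLocS.infl_apply]
    exact (hloc i y).symm
  · have h1 : ∀ j : R.Idx, p ^ k • singleBr R i a j = 0 := nsmul_singleBr R i a (p ^ k) ha
    have h2 := htors (singleBr R i a) h1
    obtain ⟨b, hb, -⟩ := h2
    have h3 : jA i (b i) = singleBr R i a i := hb i
    exact ⟨b i, h3.trans (singleBr_same R i a)⟩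

include hL hle in
/-- field `hdvd`. -/
theorem hdvd_of_index (hpS : pPrime p ∈ S)
    (hidx1 : ∀ i : R.Idx, p ∣ (levelSub P i.1.1 i.2.1 L.fixingSubgroup).index) :
    ∃ i₀ : R.Idx, p ∣ Nat.card (HJ ↥(K₀ P) ↥(Lext P L hKL) (plOf R i₀)) := by
  refine ⟨idxP hpS R, ?_⟩
  have h := LocSCard.card_H2_Jloc_mAt S P L hL hle hKL (idxP hpS R).1.1 (idxP hpS R).2.1
  show p ∣ Nat.card (groupCohomology (Jloc ↥(K₀ P) ↥(Lext P L hKL) (idxP hpS R).1.1
    (mAt P (idxP hpS R).1.1 (idxP hpS R).2.1)) 2)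
  rw [h]
  exact hidx1 (idxP hpS R)

include hL hle hV in
set_option maxHeartbeats 1000000 in
/-- **The level datum at a given level field** whose local indices at the representatives are
divisible by `p^k` and by `p`. -/
theorem nonempty_levelDatum_of_level (hp2 : p ≠ 2) (hpS : pPrime p ∈ S) (hP : Level p S P)
    (k : ℕ) (hpp : ∃ n : ℕ, Module.finrank ↥(K₀ P) ↥(Lext P L hKL) = p ^ n)
    (hidx : ∀ i : R.Idx, p ^ k ∣ (levelSub P i.1.1 i.2.1 L.fixingSubgroup).index)
    (hidx1 : ∀ i : R.Idx, p ∣ (levelSub P i.1.1 i.2.1 L.fixingSubgroup).index) :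
    Nonempty (LevelDatum p hP.isOpen R k) := by
  haveI hgal : IsGalois ↥(K₀ P) ↥(Lext P L hKL) := OSDict.isGalois_Lext P L hKL
  obtain ⟨jA, hinj, hloc, htors⟩ := exists_jA R L hL hle hKL hV hP.isOpen k hidx
  exact ⟨
    { L := ↥(Lext P L hKL)
      hpp := hpp
      infl := ImageLocS.infl L hL hle hKL hV
      jA := jA
      jA_injective := hinj
      hcA := hloc
      ltoff_iff := ltoff_iff_infl L hL hle hKL hV hP.isOpen
      hdesc := hdesc_infl R L hL hle hKL hV hp2 hpS hP k hidx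
      htors := htors
      hdvd := hdvd_of_index R L hL hle hKL hpS hidx1 }⟩

end Level

set_option maxHeartbeats 1000000 in
/-- **THE CONSTRUCTOR**: a level datum of every depth `k`, for `P` a level of `p`-Sylow type. -/
theorem nonempty_levelDatum (hp2 : p ≠ 2) (hpS : pPrime p ∈ S) (hP : Level p S P)
    (hT : IsSylowType p S P) [NumberField ↥(K₀ P)] (R : Reps S P) (k : ℕ) :
    Nonempty (LevelDatum p hP.isOpen R k) := by
  obtain ⟨L, hn, hL, hle, hKL, hK, hL', hfin, hV, -, -, hpp, hidx⟩ :=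
    PLevelField.exists_pLevelField hp2 hpS hP hT R (max k 1) 0
  haveI := hn
  haveI := hL'
  haveI := hfin
  have hidxk : ∀ i : R.Idx, p ^ k ∣ (levelSub P i.1.1 i.2.1 L.fixingSubgroup).index :=
    fun i => (pow_dvd_pow p (le_max_left k 1)).trans (hidx i)
  have hidx1 : ∀ i : R.Idx, p ∣ (levelSub P i.1.1 i.2.1 L.fixingSubgroup).index :=
    fun i => (dvd_pow_self p (by omega : max k 1 ≠ 0)).trans (hidx i)
  have hpp' : ∃ n : ℕ, Module.finrank ↥(K₀ P) ↥(Lext P L hKL) = p ^ n := hpp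
  exact nonempty_levelDatum_of_level R L hL hle hKL hV hp2 hpS hP k hpp' hidxk hidx1

end

end Fermat.Agent.S55.Middle.LevelDatumInstB
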