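/-
S55 / MIDDLE block, (C4) hub: THE THREE CLOSED FORMS (helper38).

`Blocks3.ImageNSSN p S`, `Blocks3.ImageG3N p S`, `Blocks3.H2ODivisibleT p S` for `p` odd, `p ∈ S`,
UNCONDITIONALLY: helper34's `ImageHubClosed.*_of` applied to the constructor
`LevelDatumInstB.nonempty_levelDatum`.
-/
import Fermat.Agent.S55.Middle.ImageHubClosed
import Fermat.Agent.S55.Middle.LevelDatumInstB

set_option autoImplicit false

open ExtCitation

namespace Fermat.Agent.S55.Middle.ImageHubFinalB

variable {p : ℕ} [Fact p.Prime] {S : Finset Nat.Primes}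

/-- level data of every depth exist at the levels of `p`-Sylow type. -/
theorem hasLevelData (hp2 : p ≠ 2) (hpS : pPrime p ∈ S) : ImageHubClosed.HasLevelData p S :=
  fun _ hP hT _ R k => LevelDatumInstB.nonempty_levelDatum hp2 hpS hP hT R k

/-- **(C4-NSS), normal levels**, unconditional. -/
theorem imageNSSN (hp2 : p ≠ 2) (hpS : pPrime p ∈ S) : Blocks3.ImageNSSN p S :=
  ImageHubClosed.imageNSSN_of hp2 (hasLevelData hp2 hpS)

/-- **(C4-G3), normal levels**, unconditional. -/
theorem imageG3N (hp2 : p ≠ 2) (hpS : pPrime p ∈ S) : Blocks3.ImageG3N p S :=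
  ImageHubClosed.imageG3N_of hp2 hpS (hasLevelData hp2 hpS)

/-- **(C4) divisibility, Sylow-type levels**, unconditional. -/
theorem h2ODivisibleT (hp2 : p ≠ 2) (hpS : pPrime p ∈ S) : Blocks3.H2ODivisibleT p S :=
  ImageHubClosed.h2ODivisibleT_of hp2 hpS (hasLevelData hp2 hpS)

end Fermat.Agent.S55.Middle.ImageHubFinalB
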