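/-
S55 / Middle / ImageInst (helper37): INSTANTIATION of the (C4) skeleton (`Middle/Image.lean`,
`Middle/ImageLevel.lean`) over the `K`-site of `Middle/KSite.lean`, in the literal language of
`Middle/Blocks.lean`.

For an open `P ≤ G_ℚ` (`K = ℚ̄^P`), `R : Reps S P`:

* `AS R = ∏_{i ∈ R.Idx} H²_LC(Dloc P q t; Ω_qˣ)`      (`= ⊕_{v ∈ S_K} Br(K_v)`),
* `locK R : H²_LC(P; ℚ_Sˣ) →+ AS R`, `locO R : H²_LC(P; O_S) →+ AS R`  (from `KSite.locKS/locOS`),
* `off hfin : H²_LC(P; ℚ_Sˣ) →+ H²_LC(P; Div)`       (from `CapDiv.divMap`),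
* `RelK`   : `ImageLevel.Rel p (locK R) (off hfin)` = "`a` is the family of `S`-components of a class
  of `p`-power order of `H²_LC(P; ℚ_Sˣ)` which is locally trivial off `S`".

CLOSED INPUT PROPS (each is a row of the Middle plan):
* `ResKx p S`         : (C2)[2d] `z` of `p`-power order with `off z = 0` dies in `H²(Prin)`
                        (`resKx_of_cap`: from the capitulation hypothesis `cap` of `DivLES`);
* `LocalDivisible p S`: the `p`-primary part of `Br(K_v)` is `p`-divisible (LM);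
* `Adj p S`, `Gen p S`: the two global inputs in `Rel` form (from level data, `ImageLevel.adj_of_level`
                        / `gen_of_level`).

OUTPUTS:
* `h2ODivisible_of`   : `Blocks.H2ODivisible p S`   (literal);
* `H2OImage p S` + `h2OImage_of` : the cokernel statement behind `Blocks.KG3`;
* `hbnKx_of_hasseO`   : the Hasse principle for `p`-primary classes of `H²_LC(P; ℚ_Sˣ)` which are locally
  trivial at `S` and off `S`, from `Blocks.HasseO` (classes of `O_S` only), `ResKx`, `PrinTorsion`.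
-/
import Mathlib
import Fermat.Agent.S55.Middle.Blocks
import Fermat.Agent.S55.Middle.ImageLevel
import Fermat.Agent.S55.Middle.LESGlueV
import Fermat.Agent.S55.Middle.CapDiv
import Fermat.Agent.S55.Middle.DivLES
import Fermat.Agent.S55.Formal.Functor

set_option autoImplicit false
set_option linter.unusedSectionVars false

open CategoryTheory ExtCitation

namespace Fermat.Agent.S55.Middle.ImageInst

open Fermat.Agent.S55.Formal
open Fermat.Agent.S55.Formal.PreludeLC hiding GQ Qbar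
open Fermat.Agent.S55.Middle.Defs Fermat.Agent.S55.Middle.KSite
open Fermat.Agent.S55.Middle.Blocks Fermat.Agent.S55.Middle.ImageLevel
open Fermat.Agent.S55.Middle.DivDef Fermat.Agent.S55.Middle.CapDiv

/-! ### abstract: the Hasse principle for `Kx` from the one for `O` -/

section Abstract

variable {H1P H2O H2K H2P A Dv : Type*} [AddCommGroup H1P] [AddCommGroup H2O] [AddCommGroup H2K]
  [AddCommGroup H2P] [AddCommGroup A] [AddCommGroup Dv]

/-- A `p`-primary class of `H²(Kx)` which is locally trivial at `S` and off `S` vanishes, as soon as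
this holds for the `p`-primary classes of `H²(O)` (`hasse`). -/
theorem hbn_of_hasse (p : ℕ) (i : H2O →+ H2K) (π : H2K →+ H2P) (d : H1P →+ H2O)
    (hexK : ∀ z : H2K, π z = 0 → ∃ x : H2O, i x = z)
    (hex : ∀ x : H2O, i x = 0 → ∃ e : H1P, d e = x)
    (hid : ∀ e : H1P, i (d e) = 0)
    (hPdiv : ∀ e : H1P, ∃ e' : H1P, p • e' = e)
    (locK : H2K →+ A) (off : H2K →+ Dv)
    (hres : ∀ z : H2K, (∃ n : ℕ, p ^ n • z = 0) → off z = 0 → π z = 0)
    (hasse : ∀ x : H2O, (∃ n : ℕ, p ^ n • x = 0) → locK (i x) = 0 → x = 0)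
    (z : H2K) (hz : ∃ n : ℕ, p ^ n • z = 0) (hloc : locK z = 0) (hoff : off z = 0) : z = 0 := by
  obtain ⟨n, hn⟩ := hz
  obtain ⟨x, hx, rfl⟩ :=
    Image.lift_torsion p n i π d hexK hex hid hPdiv z hn (hres z ⟨n, hn⟩ hoff)
  rw [hasse x ⟨n, hx⟩ hloc, map_zero]

end Abstract

noncomputable section

variable (p : ℕ) [Fact p.Prime] (S : Finset Nat.Primes)

/-! ### the objects over the `K`-site -/

section Objects

variable {S} {P : Subgroup GQ}

/-- an `S`-open subgroup has finite index -/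
theorem finiteIndex_of_isOpenS (hP : IsOpenS S P) : P.FiniteIndex := by
  obtain ⟨N, hN, hNP⟩ := hP
  haveI := (globalBasis S).finiteIndex hN
  exact Subgroup.finiteIndex_of_le hNP

variable (P) in
/-- `Br(K_v)` for the place `v = (q, t)` of `K = ℚ̄^P`, in LC language.  (A `def` with its own
instance: instance search through the unfolded quotient is very slow.) -/
def BrLoc (q : Nat.Primes) (t : GQ) : Type :=
  H2 (basisLoc P q t) (Fermat.Agent.S55.LM.Defs.Ox q (Dloc P q t))

instance instAddCommGroupBrLoc (q : Nat.Primes) (t : GQ) : AddCommGroup (BrLoc P q t) :=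
  inferInstanceAs
    (AddCommGroup (H2 (basisLoc P q t) (Fermat.Agent.S55.LM.Defs.Ox q (Dloc P q t))))

/-- `⊕_{v ∈ S_K} Br(K_v)` -/
abbrev AS (R : Reps S P) : Type := ∀ i : R.Idx, BrLoc P i.1.1 i.2.1

/-- the `S`-components of a class of `H²_LC(P; ℚ_Sˣ)` -/
def locK (R : Reps S P) : H2 (basisP S P) (resP P (KS S)) →+ AS R :=
  AddMonoidHom.pi fun i => (locKS S P i.1.1 i.2.1).h2.toAddMonoidHom

/-- the `S`-components of a class of `H²_LC(P; O_S)` -/
def locO (R : Reps S P) : H2 (basisP S P) (resP P (OS S)) →+ AS R :=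
  AddMonoidHom.pi fun i => (locOS S P i.1.1 i.2.1).h2.toAddMonoidHom

@[simp] theorem locK_apply (R : Reps S P) (z : H2 (basisP S P) (resP P (KS S))) (i : R.Idx) :
    locK R z i = (locKS S P i.1.1 i.2.1).h2 z := rfl

@[simp] theorem locO_apply (R : Reps S P) (x : H2 (basisP S P) (resP P (OS S))) (i : R.Idx) :
    locO R x i = (locOS S P i.1.1 i.2.1).h2 x := rfl

/-- `LTSKx` is `locK = 0` -/
theorem ltsKx_iff (R : Reps S P) (z : H2 (basisP S P) (resP P (KS S))) :
    LTSKx R z ↔ locK R z = 0 :=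
  ⟨fun h => funext fun i => h i, fun h i => congrFun h i⟩

/-- `LTSO` is `locO = 0` -/
theorem ltsO_iff (R : Reps S P) (x : H2 (basisP S P) (resP P (OS S))) :
    LTSO R x ↔ locO R x = 0 :=
  ⟨fun h => funext fun i => h i, fun h i => congrFun h i⟩

/-- localisation of `O_S` factors through `ℚ_Sˣ` -/
theorem locOS_eq (q : Nat.Primes) (t : GQ) :
    (Mor.ofHom (basisP S P) (LESGlueV.φi S P)).comp (locKS S P q t) = locOS S P q t := by
  apply Functor.mor_ext
  · rfl
  · rfl

theorem locK_i₂ (R : Reps S P) (x : H2 (basisP S P) (resP P (OS S))) :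
    locK R (LESGlueV.i₂ S P (basisP S P) x) = locO R x := by
  funext i
  have h := Functor.comp_h2 (Mor.ofHom (basisP S P) (LESGlueV.φi S P)) (locKS S P i.1.1 i.2.1)
  rw [locOS_eq] at h
  exact (LinearMap.congr_fun h x).symm

/-- the divisor module of `K = ℚ̄^P` off `S` -/
abbrev DivP (S : Finset Nat.Primes) (P : Subgroup GQ) : Rep.{0, 0, 0} ℤ ↥P :=
  Div (basisP S P) (Xoff S)

/-- **local triviality off `S`**: the map `H²_LC(P; ℚ_Sˣ) → H²_LC(P; Div)` -/
def off (hfin : P.FiniteIndex) :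
    H2 (basisP S P) (resP P (KS S)) →+ H2 (basisP S P) (DivP S P) :=
  (Mor.ofHom (basisP S P) (divMap (CapDiv.isCont_subBasis S P) hfin)).h2.toAddMonoidHom

/-- the residue map `H²_LC(P; Prin) → H²_LC(P; Div)` -/
def rho (hfin : P.FiniteIndex) :
    H2 (basisP S P) (resP P (PrinS S)) →+ H2 (basisP S P) (DivP S P) :=
  (Mor.ofHom (basisP S P) (prinDiv (CapDiv.isCont_subBasis S P) hfin)).h2.toAddMonoidHom

theorem ofHom_divMap_eq (hfin : P.FiniteIndex) :
    Mor.ofHom (basisP S P) (divMap (CapDiv.isCont_subBasis S P) hfin) =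
      (Mor.ofHom (basisP S P) (LESGlueV.φπ S P)).comp
        (Mor.ofHom (basisP S P) (prinDiv (CapDiv.isCont_subBasis S P) hfin)) := by
  apply Functor.mor_ext
  · rfl
  · apply LinearMap.ext
    intro x
    rfl

theorem rho_π₂ (hfin : P.FiniteIndex) (z : H2 (basisP S P) (resP P (KS S))) :
    rho hfin (LESGlueV.π₂ S P (basisP S P) z) = off hfin z := by
  have h := Functor.comp_h2 (Mor.ofHom (basisP S P) (LESGlueV.φπ S P))
    (Mor.ofHom (basisP S P) (prinDiv (CapDiv.isCont_subBasis S P) hfin))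
  rw [← ofHom_divMap_eq] at h
  exact (LinearMap.congr_fun h z).symm

theorem ofHom_φi_divMap (hfin : P.FiniteIndex) :
    (Mor.ofHom (basisP S P) (LESGlueV.φi S P)).comp
        (Mor.ofHom (basisP S P) (divMap (CapDiv.isCont_subBasis S P) hfin)) =
      Mor.ofHom (basisP S P) (0 : resP P (OS S) ⟶ DivP S P) := by
  apply Functor.mor_ext
  · rfl
  · apply LinearMap.ext
    intro x
    exact divMap_osToKS (CapDiv.isCont_subBasis S P) hfin x

theorem off_i₂ (hfin : P.FiniteIndex) (x : H2 (basisP S P) (resP P (OS S))) :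
    off hfin (LESGlueV.i₂ S P (basisP S P) x) = 0 := by
  have h := Functor.comp_h2 (Mor.ofHom (basisP S P) (LESGlueV.φi S P))
    (Mor.ofHom (basisP S P) (divMap (CapDiv.isCont_subBasis S P) hfin))
  rw [ofHom_φi_divMap, Functor.ofHom_zero_h2] at h
  exact (LinearMap.congr_fun h x).symm

end Objects

/-! ### the closed input Props -/

section Props

/-- **(C2)[2d] in the `Kx`-form** (`hres` of the skeleton): a class of `p`-power order of
`H²_LC(P; ℚ_Sˣ)` which is locally trivial off `S` dies in `H²_LC(P; Prin)`. -/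
def ResKx : Prop :=
  ∀ (P : Subgroup GQ) (hP : IsOpenS S P) (z : H2 (basisP S P) (resP P (KS S))),
    (∃ n : ℕ, p ^ n • z = 0) → off (finiteIndex_of_isOpenS hP) z = 0 →
      LESGlueV.π₂ S P (basisP S P) z = 0

/-- the capitulation hypothesis `cap` of `DivLES` ([2a]), for every `S`-open `P`. -/
def CapPrin : Prop :=
  ∀ (P : Subgroup GQ) (hP : IsOpenS S P) (d : DivP S P),
    ∃ n : ℕ, n.Coprime p ∧ ∃ a : resP P (PrinS S),
      DivLES.iot (prinDiv (CapDiv.isCont_subBasis S P) (finiteIndex_of_isOpenS hP)) a = n • d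

/-- `ResKx` from capitulation (`DivLES.h2_eq_zero_of_p_torsion` + `CapDiv.prinDiv_injective`). -/
theorem resKx_of_cap (hcap : CapPrin p S) : ResKx p S := by
  intro P hP z hz hoff
  obtain ⟨n, hn⟩ := hz
  refine DivLES.h2_eq_zero_of_p_torsion (𝒰 := basisP S P)
    (ι := prinDiv (CapDiv.isCont_subBasis S P) (finiteIndex_of_isOpenS hP)) p
    (prinDiv_injective (CapDiv.isCont_subBasis S P) (finiteIndex_of_isOpenS hP))
    (hcap P hP) _ n ?_ ?_
  · rw [← map_nsmul, hn, map_zero]
  · exact (rho_π₂ (finiteIndex_of_isOpenS hP) z).trans hoff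

/-- **(LM)** the `p`-primary part of `Br(K_v) = H²_LC(Dloc P q t; Ω_qˣ)` is `p`-divisible. -/
def LocalDivisible : Prop :=
  ∀ (P : Subgroup GQ), IsOpenS S P → ∀ q : Nat.Primes, q ∈ S → ∀ (t : GQ) (k : ℕ)
    (a : H2 (basisLoc P q t) (Fermat.Agent.S55.LM.Defs.Ox q (Dloc P q t))),
      p ^ k • a = 0 →
        ∃ b : H2 (basisLoc P q t) (Fermat.Agent.S55.LM.Defs.Ox q (Dloc P q t)), p • b = a

variable {S} in
/-- the relation "`a` is the family of `S`-components of a class of `p`-power order of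
`H²_LC(P; ℚ_Sˣ)` which is locally trivial off `S`" -/
abbrev RelK {P : Subgroup GQ} (hP : IsOpenS S P) (R : Reps S P) : AS R → Prop :=
  Rel p (locK R) (off (finiteIndex_of_isOpenS hP))

/-- **global input 1** (`hadj` of the skeleton; from level data by `ImageLevel.adj_of_level`). -/
def Adj : Prop :=
  ∀ (P : Subgroup GQ) (hL : Level p S P) (R : Reps S P) (k : ℕ) (b : AS R),
    p ^ (k + 1) • b = 0 → RelK p hL.isOpen R (p • b) →
      ∃ t : AS R, p • t = 0 ∧ RelK p hL.isOpen R (b - t)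

/-- **global input 2** (`hgen` of the skeleton; from level data by `ImageLevel.gen_of_level`). -/
def Gen : Prop :=
  ∀ (P : Subgroup GQ) (hL : Level p S P) (R : Reps S P),
    ∃ a₀ : AS R, p • a₀ = 0 ∧
      ∀ a : AS R, p • a = 0 → ∃ n : ℕ, RelK p hL.isOpen R (a - n • a₀)

/-- **(C4), image** (the statement behind `Blocks.KG3`): modulo ONE `p`-torsion family `a₀`, every
`p`-torsion family of local classes at the places above `S` is the family of `S`-components of a
`p`-torsion class of `H²_LC(P; O_S)`. -/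
def H2OImage : Prop :=
  ∀ (P : Subgroup GQ), Level p S P → ∀ R : Reps S P,
    ∃ a₀ : AS R, p • a₀ = 0 ∧
      ∀ a : AS R, p • a = 0 →
        ∃ (n : ℕ) (x : H2 (basisP S P) (resP P (OS S))), p • x = 0 ∧
          ∀ i : R.Idx, (locOS S P i.1.1 i.2.1).h2 x = a i - n • a₀ i

end Props

/-! ### the instantiation -/

section Main

variable {p S}

/-- class form of Hilbert 90 -/
theorem h1_eq_zero_of_h90 (h90 : H90Kx S) {P : Subgroup GQ} (hP : IsOpenS S P)
    (z : H1 (basisP S P) (resP P (KS S))) : z = 0 := by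
  obtain ⟨f, hf, rfl⟩ := Hmid.exists_of z
  obtain ⟨m, hm⟩ := h90 P hP f hf
  exact Hmid.of_eq_zero_iff.2 ⟨m, hm⟩

/-- the Hasse principle for `p`-primary classes of `H²_LC(P; ℚ_Sˣ)` (locally trivial at `S` and off
`S`), from the one for `O_S`. -/
theorem hbnKx_of_hasseO (hPr : PrinTorsion p S) (hH : HasseO p S) (hres : ResKx p S)
    {P : Subgroup GQ} (hL : Level p S P) (R : Reps S P)
    (z : H2 (basisP S P) (resP P (KS S))) (hz : ∃ n : ℕ, p ^ n • z = 0)
    (hloc : locK R z = 0) (hoff : off (finiteIndex_of_isOpenS hL.isOpen) z = 0) : z = 0 := by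
  have hc := CapDiv.isCont_subBasis S P
  refine hbn_of_hasse p (LESGlueV.i₂ S P (basisP S P)) (LESGlueV.π₂ S P (basisP S P))
    (LESGlueV.d₁ hc) (LESGlueV.exists_i₂_of_π₂ hc) (LESGlueV.exists_d₁_of_i₂ hc)
    (LESGlueV.i₂_d₁ hc) (hPr P hL.isOpen).2 (locK R)
    (off (finiteIndex_of_isOpenS hL.isOpen)) (hres P hL.isOpen) ?_ z hz hloc hoff
  rintro x ⟨n, hn⟩ hx
  refine hH P hL R x n hn ((ltsO_iff R x).2 ?_)
  rw [← locK_i₂]
  exact hx

theorem exists_reps {P : Subgroup GQ} (hP : IsOpenS S P) : Nonempty (Reps S P) :=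
  haveI := finiteIndex_of_isOpenS hP
  nonempty_reps S P

/-- the `S`-components are `p`-divisible on `p`-primary families -/
theorem hdivA_of (hdiv : LocalDivisible p S) {P : Subgroup GQ} (hP : IsOpenS S P) (R : Reps S P)
    (k : ℕ) (a : AS R) (ha : p ^ k • a = 0) : ∃ b : AS R, p • b = a := by
  have h : ∀ i : R.Idx, ∃ b : BrLoc P i.1.1 i.2.1, p • b = a i := fun i =>
    hdiv P hP i.1.1 i.1.2 i.2.1 k (a i) (congrFun ha i)
  choose b hb using h
  exact ⟨b, funext hb⟩

/-- **(C4), divisibility**: `Blocks.H2ODivisible p S` from the closed inputs. -/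
theorem h2ODivisible_of (h90 : H90Kx S) (hPr : PrinTorsion p S) (hH : HasseO p S)
    (hres : ResKx p S) (hdiv : LocalDivisible p S) (hadj : Adj p S) : H2ODivisible p S := by
  intro P hL x j hx
  obtain ⟨R⟩ := exists_reps hL.isOpen
  have hc := CapDiv.isCont_subBasis S P
  have key := divisible_rel p (LESGlueV.i₂ S P (basisP S P))
    (LESGlueV.π₂ S P (basisP S P)) (LESGlueV.d₁ hc) (LESGlueV.exists_i₂_of_π₂ hc)
    (LESGlueV.exists_d₁_of_i₂ hc) (LESGlueV.i₂_d₁ hc)
    (LESGlueV.d₁_injective hc (h1_eq_zero_of_h90 h90 hL.isOpen))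
    (fun e he => (hPr P hL.isOpen).1 e 1 (by rwa [pow_one])) (hPr P hL.isOpen).2
    (locK R) (off (finiteIndex_of_isOpenS hL.isOpen))
    (off_i₂ (finiteIndex_of_isOpenS hL.isOpen)) (hres P hL.isOpen)
    (fun z hz hloc hoff => hbnKx_of_hasseO hPr hH hres hL R z hz hloc hoff)
    (hdivA_of hdiv hL.isOpen R) (hadj P hL R) x ⟨j, hx⟩
  obtain ⟨y, key'⟩ := key
  obtain ⟨-, hy⟩ := key'
  exact ⟨y, by rw [pow_succ, mul_smul, hy, hx], hy⟩

/-- **(C4), image**: `H2OImage p S` from the closed inputs. -/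
theorem h2OImage_of (hPr : PrinTorsion p S) (hH : HasseO p S)
    (hres : ResKx p S) (hgen : Gen p S) : H2OImage p S := by
  intro P hL R
  have hc := CapDiv.isCont_subBasis S P
  have h := hgen P hL R
  obtain ⟨a₀, h'⟩ := h
  obtain ⟨ha₀, hg⟩ := h'
  refine ⟨a₀, ha₀, fun a ha => ?_⟩
  have key := exists_lift_mod_rel p (LESGlueV.i₂ S P (basisP S P))
    (LESGlueV.π₂ S P (basisP S P)) (LESGlueV.d₁ hc) (LESGlueV.exists_i₂_of_π₂ hc)
    (LESGlueV.exists_d₁_of_i₂ hc) (LESGlueV.i₂_d₁ hc) (hPr P hL.isOpen).2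
    (locK R) (off (finiteIndex_of_isOpenS hL.isOpen))
    (off_i₂ (finiteIndex_of_isOpenS hL.isOpen)) (hres P hL.isOpen)
    (fun z hz hloc hoff => hbnKx_of_hasseO hPr hH hres hL R z hz hloc hoff)
    a₀ ha₀ hg a ha
  obtain ⟨n, key'⟩ := key
  obtain ⟨x, key''⟩ := key'
  obtain ⟨hx, hxa⟩ := key''
  refine ⟨n, x, hx, fun i => ?_⟩
  have h1 : locO R x = a - n • a₀ := (locK_i₂ R x).symm.trans hxa
  have h2 := congrFun h1 i
  rw [Pi.sub_apply, Pi.smul_apply, locO_apply] at h2
  exact h2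

end Main

end

end Fermat.Agent.S55.Middle.ImageInst
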