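import Fermat.Agent.S55.Middle.ImageInstF

/-!
# S55 / Middle, (C4) hub: THE WRAPPER in family language, part 2 (helper34)

Continuation of `ImageInstF`: for an `S`-open `P ≤ G_ℚ` and representatives `R : Reps S P`, the
LITERAL conclusions of `Blocks2.ImageG3` and `Blocks.H2ODivisible` at `(P, R)` from

* level data `LevelDatum p hP R k` (depth `1` for `ImageG3`, all depths for `H2ODivisible`);
* the Hasse principle at `(P, R)` (`hasse`), i.e. `Blocks.HasseO` specialised.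

Main results: `exists_class_sub` (level core), `imageG3_at`, `h2ODivisible_at`.
-/

set_option autoImplicit false
set_option linter.unusedSectionVars false
set_option linter.style.haveILetI false

open CategoryTheory groupCohomology ExtCitation

namespace Fermat.Agent.S55.Middle.ImageInstF2

noncomputable section

open Fermat.Agent.S55.Formal
open Fermat.Agent.S55.Formal.PreludeLC hiding GQ Qbar
open Fermat.Agent.S55.Middle.Defs
open Fermat.Agent.S55.Middle.KSite Fermat.Agent.S55.Middle.GaloisDict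
open Fermat.Agent.S55.Middle.GaloisDictModel
open Fermat.Agent.S55.Global.Blocks3
open Fermat.Agent.S55.Middle.LocS Fermat.Agent.S55.Middle.LocSFam
open Fermat.Agent.S55.Middle.ImageFiniteCore
open Fermat.Agent.S55.Middle.Blocks Fermat.Agent.S55.Middle.Blocks2
open Fermat.Agent.S55.Middle.LESGlueV
open Fermat.Agent.S55.Middle.ImageInstF

attribute [local instance] Fermat.Agent.S55.LM.Defs.fact_q

section abstractLemmas

variable {X A F : Type*} [AddCommGroup X] [AddCommGroup A] [FunLike F X A]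
  [AddMonoidHomClass F X A]

theorem aux_pow_succ_nsmul (f : F) (p k : ℕ) (x : X) (b : A) (hx : p ^ k • x = 0)
    (hb : p • b = f x) : p ^ (k + 1) • b = 0 := by
  rw [pow_succ, mul_smul, hb, ← map_nsmul, hx, map_zero]

theorem aux_pow_succ_map (f : F) (p k : ℕ) (z : X) (hz : p ^ k • z = 0) :
    p ^ (k + 1) • f z = 0 := by
  rw [← map_nsmul, pow_succ, mul_smul, smul_comm, hz, smul_zero, map_zero]

theorem aux_nsmul_sub (p n : ℕ) (a s a' : A) (h1 : p • a = a') (h2 : p • s = 0) :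
    p • (a - n • s) = a' := by
  rw [smul_sub, h1, smul_comm, h2, smul_zero, sub_zero]

theorem aux_map_sub_nsmul (f : F) (n : ℕ) (u v : X) (w : A) (h : f v = w) :
    f (u - n • v) = f u - n • w := by
  rw [map_sub, map_nsmul, h]

theorem aux_map_nsmul_eq_zero (f : F) (p : ℕ) (b : X) (hb : p • b = 0) : p • f b = 0 := by
  rw [← map_nsmul, hb, map_zero]

theorem aux_nsmul_eq_zero_of_inj (f : F) (hf : Function.Injective f) (p : ℕ) (b : X)
    (hb : p • f b = 0) : p • b = 0 := by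
  apply hf
  rw [map_nsmul, hb, map_zero]

theorem aux_map_nsmul_sub_eq_zero (f : F) (p : ℕ) (x x' : X) (h : p • f x' = f x) :
    f (p • x' - x) = 0 := by
  rw [map_sub, map_nsmul, h, sub_self]

theorem aux_map_nsmul_eq_zero' (f : F) (p : ℕ) (x : X) (h : p • f x = 0) : f (p • x) = 0 := by
  rw [map_nsmul, h]

/-- the final Hasse step for divisibility, abstractly (`Z` = "locally trivial"). -/
theorem aux_eq_of_hasse (p : ℕ) (Z : X → Prop)
    (hasse : ∀ x : X, (∃ j : ℕ, p ^ j • x = 0) → Z x → x = 0)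
    (x x' : X) (j m : ℕ) (hx : p ^ j • x = 0) (hx' : p ^ m • x' = 0)
    (h : Z (p • x' - x)) :
    p ^ (j + 1) • x' = 0 ∧ p • x' = x := by
  have h1 : p ^ (m + j) • x = 0 := by rw [pow_add, mul_smul, hx, smul_zero]
  have h2 : p ^ (m + j) • x' = 0 := by rw [add_comm, pow_add, mul_smul, hx', smul_zero]
  have h3 : p ^ (m + j) • (p • x' - x) = 0 := by
    rw [smul_sub, smul_comm, h2, smul_zero, h1, sub_zero]
  have e : p • x' = x := sub_eq_zero.1 (hasse _ ⟨m + j, h3⟩ h)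
  exact ⟨by rw [pow_succ, mul_smul, e, hx], e⟩

/-- the final Hasse step for torsion, abstractly (`Z` = "locally trivial"). -/
theorem aux_nsmul_eq_zero_of_hasse (p : ℕ) (Z : X → Prop)
    (hasse : ∀ x : X, (∃ j : ℕ, p ^ j • x = 0) → Z x → x = 0)
    (x : X) (m : ℕ) (hxm : p ^ m • x = 0) (h : Z (p • x)) : p • x = 0 :=
  hasse (p • x) ⟨m, by rw [smul_comm, hxm, smul_zero]⟩ h

end abstractLemmas

variable {S : Finset Nat.Primes} {P : Subgroup GQ} [NumberField ↥(K₀ P)]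
variable {p : ℕ} [Fact p.Prime] {hP : IsOpenS S P} {R : Reps S P} {k : ℕ}

/-- `jA` of the one-place family is the one-place tuple. -/
theorem jA_single (D : LevelDatum p hP R k) [DecidableEq (Pl ↥(K₀ P))] (i₀ i : R.Idx)
    (b₀ : HJ ↥(K₀ P) D.L (plOf R i₀)) :
    D.jA i ((Pi.single (plOf R i₀) b₀ : Fam ↥(K₀ P) D.L) (plOf R i)) =
      singleBr R i₀ (D.jA i₀ b₀) i := by
  by_cases hi : i = i₀
  · subst hi
    rw [Pi.single_eq_same, singleBr_same]
  · have hne' : plOf R i ≠ plOf R i₀ := fun e => hi (plOf_injective hP R e)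
    rw [Pi.single_eq_of_ne hne', singleBr_of_ne R hi, map_zero]

/-- `jA` of a family `famOf bL - n • single` at a place of the site. -/
theorem jA_sub_nsmul_single (D : LevelDatum p hP R k) [DecidableEq (Pl ↥(K₀ P))]
    (bL : ∀ i : R.Idx, HJ ↥(K₀ P) D.L (plOf R i)) (n : ℕ) (i₀ i : R.Idx)
    (b₀ : HJ ↥(K₀ P) D.L (plOf R i₀)) :
    D.jA i ((famOf D.L R bL - n • (Pi.single (plOf R i₀) b₀ : Fam ↥(K₀ P) D.L)) (plOf R i)) =
      D.jA i (bL i) - n • singleBr R i₀ (D.jA i₀ b₀) i := by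
  have h1 : (famOf D.L R bL - n • (Pi.single (plOf R i₀) b₀ : Fam ↥(K₀ P) D.L)) (plOf R i) =
      bL i - n • (Pi.single (plOf R i₀) b₀ : Fam ↥(K₀ P) D.L) (plOf R i) :=
    congrArg (fun t => t - n • (Pi.single (plOf R i₀) b₀ : Fam ↥(K₀ P) D.L) (plOf R i))
      (famOf_plOf D.L hP R bL i)
  exact (congrArg (D.jA i) h1).trans
    (aux_map_sub_nsmul (D.jA i) n (bL i) _ _ (jA_single D i₀ i b₀))

/-- a tuple of `m`-torsion level classes gives an `m`-torsion family. -/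
theorem nsmul_famOf_eq_zero (D : LevelDatum p hP R k)
    (bL : ∀ i : R.Idx, HJ ↥(K₀ P) D.L (plOf R i)) (m : ℕ) (h : ∀ i, m • bL i = 0) :
    m • famOf D.L R bL = 0 := by
  rw [← famOf_nsmul hP R m bL]
  have : (m • bL) = 0 := funext fun i => h i
  rw [this, famOf_zero]

/-- the one-place family is supported in `S`. -/
theorem suppIn_single (D : LevelDatum p hP R k) [DecidableEq (Pl ↥(K₀ P))] (i₀ : R.Idx)
    (b₀ : HJ ↥(K₀ P) D.L (plOf R i₀)) :
    SuppIn S (Pi.single (plOf R i₀) b₀ : Fam ↥(K₀ P) D.L) := by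
  intro x' hx'
  have hne' : x' ≠ plOf R i₀ := by
    rintro rfl
    exact hx' (plOf_fst_mem R i₀)
  exact Pi.single_eq_of_ne hne' b₀

/-- **The level core of the wrapper**: if `p • famOf bL` is global, then modulo a multiple of the
one-place generator `b₀`, the tuple `jA (bL)` is the tuple of local components of a `p`-primary class
of `H²_LC(P; O_S)`. -/
theorem exists_class_sub (hp2 : p ≠ 2) (hpS : pPrime p ∈ S)
    (hζ : ∃ ζ : ↥(K₀ P), IsPrimitiveRoot ζ p) (D : LevelDatum p hP R k)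
    (i₀ : R.Idx) (b₀ : HJ ↥(K₀ P) D.L (plOf R i₀)) (hb₀ : p • b₀ = 0) (hne : b₀ ≠ 0)
    (bL : ∀ i : R.Idx, HJ ↥(K₀ P) D.L (plOf R i)) (hglob : IsGlobal (p • famOf D.L R bL)) :
    ∃ (n m : ℕ) (x : H2 (basisP S P) (resP P (OS S))), p ^ m • x = 0 ∧
      ∀ i : R.Idx, (locOS S P i.1.1 i.2.1).h2 x =
        D.jA i (bL i) - n • singleBr R i₀ (D.jA i₀ b₀) i := by
  classical
  have hp : p.Prime := Fact.out
  have hcS : SuppIn S (famOf D.L R bL) := suppIn_famOf D.L R bL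
  obtain ⟨n, y', hy'⟩ := ImageFiniteClosed.exists_isGlobal_sub_nsmul_single hp hp2 hζ D.hpp S
    (famOf D.L R bL) hcS hglob (plOf R i₀) (plOf_fst_mem R i₀) b₀ hb₀ hne
  have hy'S : SuppIn S (locFam ↥(K₀ P) D.L y') :=
    hy'.symm ▸ hcS.sub (SuppIn.nsmul (suppIn_single D i₀ b₀) n)
  obtain ⟨m, x, hxm, -, hxloc⟩ := D.exists_class hpS y' hy'S
  refine ⟨n, m, x, hxm, fun i => ?_⟩
  have h1 := jA_sub_nsmul_single D bL n i₀ i b₀
  have h2 : D.jA i (locFam ↥(K₀ P) D.L y' (plOf R i)) =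
      D.jA i ((famOf D.L R bL - n • (Pi.single (plOf R i₀) b₀ : Fam ↥(K₀ P) D.L)) (plOf R i)) :=
    congrArg (fun c : Fam ↥(K₀ P) D.L => D.jA i (c (plOf R i))) hy'
  exact (hxloc i).trans (h2.trans h1)

/-- **`Blocks2.ImageG3` at `(P, R)`**: modulo one `p`-torsion tuple `a₀`, every `p`-torsion tuple of
local classes is the localisation of a `p`-torsion class of `H²_LC(P; O_S)`. -/
theorem imageG3_at (hp2 : p ≠ 2) (hpS : pPrime p ∈ S)
    (hζ : ∃ ζ : ↥(K₀ P), IsPrimitiveRoot ζ p) (D : LevelDatum p hP R 1)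
    (hasse : ∀ x : H2 (basisP S P) (resP P (OS S)), (∃ j : ℕ, p ^ j • x = 0) →
      (∀ i : R.Idx, (locOS S P i.1.1 i.2.1).h2 x = 0) → x = 0) :
    ∃ a₀ : ∀ i : R.Idx, BrLoc R i, (∀ i, p • a₀ i = 0) ∧
      ∀ a : ∀ i : R.Idx, BrLoc R i, (∀ i, p • a i = 0) →
        ∃ (n : ℕ) (x : H2 (basisP S P) (resP P (OS S))), p • x = 0 ∧
          ∀ i, (locOS S P i.1.1 i.2.1).h2 x = a i - n • a₀ i := by
  have hp : p.Prime := Fact.out
  obtain ⟨i₀, hdvd⟩ := D.hdvd
  obtain ⟨b₀, hb₀, hne⟩ := ImageFiniteLocal.exists_torsion_ne_zero (L := D.L) hp (plOf R i₀) hdvd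
  have hjb₀ : p • D.jA i₀ b₀ = 0 := aux_map_nsmul_eq_zero (D.jA i₀) p b₀ hb₀
  refine ⟨singleBr R i₀ (D.jA i₀ b₀), fun i => nsmul_singleBr R i₀ _ p hjb₀ i, fun a ha => ?_⟩
  -- lift `a` to the level
  choose bL hbL using fun i => D.htors i (a i) ((pow_one p).symm ▸ ha i)
  have hpbL : ∀ i, p • bL i = 0 := fun i =>
    aux_nsmul_eq_zero_of_inj (D.jA i) (D.jA_injective i) p (bL i) ((hbL i).symm ▸ ha i)
  have hpc : p • famOf D.L R bL = 0 := nsmul_famOf_eq_zero D bL p hpbL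
  obtain ⟨n, m, x, hxm, hxloc⟩ := exists_class_sub hp2 hpS hζ D i₀ b₀ hb₀ hne bL
    (hpc.symm ▸ isGlobal_zero)
  have hloc : ∀ i : R.Idx, (locOS S P i.1.1 i.2.1).h2 x =
      a i - n • singleBr R i₀ (D.jA i₀ b₀) i := fun i =>
    (hxloc i).trans (congrArg (fun t => t - n • singleBr R i₀ (D.jA i₀ b₀) i) (hbL i))
  refine ⟨n, x, ?_, hloc⟩
  refine aux_nsmul_eq_zero_of_hasse p
    (fun x => ∀ i : R.Idx, (locOS S P i.1.1 i.2.1).h2 x = 0) hasse x m hxm (fun i => ?_)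
  exact aux_map_nsmul_eq_zero' (locOS S P i.1.1 i.2.1).h2 p x
    ((congrArg (fun t => p • t) (hloc i)).trans
      (aux_nsmul_sub p n _ _ 0 (ha i) (nsmul_singleBr R i₀ _ p hjb₀ i)))

/-- halving the local components of a `p^k`-torsion class. -/
theorem exists_half_local (hP : IsOpenS S P) (R : Reps S P)
    (x : H2 (basisP S P) (resP P (OS S))) (k : ℕ) (hx : p ^ k • x = 0) :
    ∃ b' : ∀ i : R.Idx, BrLoc R i, (∀ i, p • b' i = (locOS S P i.1.1 i.2.1).h2 x) ∧
      ∀ i, p ^ (k + 1) • b' i = 0 := by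
  choose b' hb' using fun i : R.Idx => exists_nsmul_eq (p := p) hP R i ((locOS S P i.1.1 i.2.1).h2 x)
  exact ⟨b', hb', fun i => aux_pow_succ_nsmul (locOS S P i.1.1 i.2.1).h2 p k x (b' i) hx (hb' i)⟩

/-- descent of (the image of) a `p^k`-torsion class of `H²_LC(P; O_S)` to a level of depth
`k + 1`. -/
theorem exists_desc (D : LevelDatum p hP R (k + 1))
    (x : H2 (basisP S P) (resP P (OS S))) (hx : p ^ k • x = 0) :
    ∃ y : groupCohomology (Rep.ofAlgebraAutOnUnits ↥(K₀ P) D.L) 2,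
      SuppIn S (locFam ↥(K₀ P) D.L y) ∧
      ∀ i : R.Idx, D.jA i (locFam ↥(K₀ P) D.L y (plOf R i)) = (locOS S P i.1.1 i.2.1).h2 x := by
  have hz : p ^ k • i₂ S P (basisP S P) x = 0 := by rw [← map_nsmul, hx, map_zero]
  obtain ⟨y, hy⟩ := D.hdesc (i₂ S P (basisP S P) x) ⟨k, hz⟩ (ltoff_i₂ hP x)
    (fun i => aux_pow_succ_map (locKS S P i.1.1 i.2.1).h2 p k _ hz)
  refine ⟨y, (D.ltoff_iff y).1 (hy.symm ▸ ltoff_i₂ hP x), fun i => ?_⟩
  exact (D.hcA y i).symm.trans ((congrArg (fun z => (locKS S P i.1.1 i.2.1).h2 z) hy).trans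
    (HasseOStep.locKS_i₂ S P i.1.1 i.2.1 x))

/-- **descent of a `p^k`-torsion class to a level of depth `k + 1`, halved**: the local components
of `x` are `p` times classes `jA (bL i)` of the level, and `p • famOf bL` is global. -/
theorem exists_half (D : LevelDatum p hP R (k + 1))
    (x : H2 (basisP S P) (resP P (OS S))) (hx : p ^ k • x = 0) :
    ∃ bL : ∀ i : R.Idx, HJ ↥(K₀ P) D.L (plOf R i), IsGlobal (p • famOf D.L R bL) ∧
      ∀ i : R.Idx, p • D.jA i (bL i) = (locOS S P i.1.1 i.2.1).h2 x := by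
  obtain ⟨b', hb', hb'k⟩ := exists_half_local (p := p) hP R x k hx
  choose bL hbL using fun i : R.Idx => D.htors i (b' i) (hb'k i)
  obtain ⟨y, hsupp, hy⟩ := exists_desc D x hx
  refine ⟨bL, ⟨y, ?_⟩, fun i => (congrArg (fun t => p • t) (hbL i)).trans (hb' i)⟩
  refine D.eq_of_jA_eq hsupp (SuppIn.nsmul (suppIn_famOf D.L R bL) p) (fun i => ?_)
  have e2 : (p • famOf D.L R bL) (plOf R i) = p • bL i :=
    congrArg (fun t => p • t) (famOf_plOf D.L hP R bL i)
  exact (hy i).trans (((hb' i).symm.trans (congrArg (fun t => p • t) (hbL i)).symm).trans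
    ((map_nsmul (D.jA i) p (bL i)).symm.trans (congrArg (D.jA i) e2.symm)))

/-- **`Blocks.H2ODivisible` at `(P, R)`**: the `p`-primary part of `H²_LC(P; O_S)` is
`p`-divisible. -/
theorem h2ODivisible_at (hp2 : p ≠ 2) (hpS : pPrime p ∈ S)
    (hζ : ∃ ζ : ↥(K₀ P), IsPrimitiveRoot ζ p) (D : ∀ k : ℕ, LevelDatum p hP R k)
    (hasse : ∀ x : H2 (basisP S P) (resP P (OS S)), (∃ j : ℕ, p ^ j • x = 0) →
      (∀ i : R.Idx, (locOS S P i.1.1 i.2.1).h2 x = 0) → x = 0)
    (x : H2 (basisP S P) (resP P (OS S))) (j : ℕ) (hx : p ^ j • x = 0) :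
    ∃ x' : H2 (basisP S P) (resP P (OS S)), p ^ (j + 1) • x' = 0 ∧ p • x' = x := by
  have hp : p.Prime := Fact.out
  obtain ⟨i₀, hdvd⟩ := (D (j + 1)).hdvd
  obtain ⟨b₀, hb₀, hne⟩ :=
    ImageFiniteLocal.exists_torsion_ne_zero (L := (D (j + 1)).L) hp (plOf R i₀) hdvd
  have hjb₀ : p • (D (j + 1)).jA i₀ b₀ = 0 :=
    aux_map_nsmul_eq_zero ((D (j + 1)).jA i₀) p b₀ hb₀
  obtain ⟨bL, hglob, hbL⟩ := exists_half (D (j + 1)) x hx
  obtain ⟨n, m, x', hxm, hxloc⟩ :=
    exists_class_sub hp2 hpS hζ (D (j + 1)) i₀ b₀ hb₀ hne bL hglob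
  refine ⟨x', aux_eq_of_hasse p
    (fun x => ∀ i : R.Idx, (locOS S P i.1.1 i.2.1).h2 x = 0) hasse x x' j m hx hxm (fun i => ?_)⟩
  exact aux_map_nsmul_sub_eq_zero (locOS S P i.1.1 i.2.1).h2 p x x'
    ((congrArg (fun t => p • t) (hxloc i)).trans
      (aux_nsmul_sub p n _ _ _ (hbL i) (nsmul_singleBr R i₀ _ p hjb₀ i)))

end

end Fermat.Agent.S55.Middle.ImageInstF2
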