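import Fermat.Agent.S55.Middle.ImageLevel
import Fermat.Agent.S55.Middle.Blocks2
import Fermat.Agent.S55.Middle.BlocksC1
import Fermat.Agent.S55.Middle.H3OInst
import Fermat.Agent.S55.Middle.CapLToff
import Fermat.Agent.S55.Middle.HasseOStep
import Fermat.Agent.S55.Middle.HasseOFinal
import Fermat.Agent.S55.LM.DlocTors

/-!
# S55 / Middle, (C4) hub, row M.image.les: the LES side of the `Image` skeletons, REAL objects

For `P ≤ G_ℚ` with `Blocks.Level p S P`, `R : KSite.Reps S P`, over `(↥P, basisP S P)`: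

* `H1P = H¹_LC(P; Prin_S)`, `H2O = H²_LC(P; O_S)`, `H2K = H²_LC(P; ℚ_Sˣ)`, `H2P = H²_LC(P; Prin_S)`,
  `i = LESGlueV.i₂`, `π = LESGlueV.π₂`, `d = LESGlueV.d₁`;
* `LocA R = Π_{i : R.Idx} H²_LC(D_i; Ω^×)` (`Blocks2.BrLoc R i`), `locK R : H2K →+ LocA R` (components
  `(locKS S P q t).h2`), `off = H3OInst.off : H2K →+ H²_LC(P; Div)`;
* `RelP p hP R a := ImageLevel.Rel p (locK R) (off _) a` : `a = locK z`, `z` of `p`-power order,
  `off z = 0`.

The eleven LES-side hypotheses of `Image.divisible` / `ImageLevel.{image_iff_rel, exists_lift_mod_rel,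
divisible_rel}` (`hexK hex hid hd hP hPdiv hoff hres hbn hdivA`; `hLTsmul` is automatic for
`LToff z := off z = 0`) are theorems here, from the landed producers (`LESGlueV`, `BlocksC1.h90Kx`,
`CapLToff`, `HbnColimB.hbnKx`, `DlocTors.h2Divisible`).  The only input which is not yet unconditional
on main is `HbnColimB.UnramOff S` (row (U2′)), carried as a hypothesis `hU`.

CONSUMERS (literal shapes of `Blocks.H2ODivisible`, `Blocks2.ImageG3`, `Blocks2.ImageNSS` at `(P, R)`):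

* `h2ODivisible_at`  ⇐ `hadj` (`ImageLevel.adj_of_level…`);
* `imageG3_at`       ⇐ `hgen` (`ImageLevel.gen_of_level…`);
* `imageNSS_at`      ⇐ `hnss` (`ImageLevel.not_rel_of_level…`);

and the closed forms `h2ODivisible_of`, `imageG3_of`, `imageNSS_of` from the closed Props `HAdj`,
`HGen`, `HNss` about `RelP` only.
-/

set_option autoImplicit false
set_option linter.unusedSectionVars false

open CategoryTheory groupCohomology ExtCitation

namespace Fermat.Agent.S55.Middle.ImageLES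

noncomputable section

open Fermat.Agent.S55.Formal
open Fermat.Agent.S55.Formal.PreludeLC hiding GQ Qbar
open Fermat.Agent.S55.Middle.Defs Fermat.Agent.S55.Middle.KSite Fermat.Agent.S55.Middle.Blocks
open Fermat.Agent.S55.Middle.LESGlueV Fermat.Agent.S55.Middle.ImageLevel

variable (p : ℕ) [Fact p.Prime] {S : Finset Nat.Primes} {P : Subgroup GQ}

/-! ### the objects -/

/-- `A = Π_{i} H²_LC(D_i; Ω^×)`: the local components at the places of `K = ℚ̄^P` above `S`.
(A `def` with an explicit instance: instance search on the bare Pi type times out.) -/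
def LocA (R : Reps S P) : Type := ∀ i : R.Idx, Blocks2.BrLoc R i

instance instAddCommGroupLocA (R : Reps S P) : AddCommGroup (LocA R) :=
  @Pi.addCommGroup R.Idx (fun i => Blocks2.BrLoc R i) (fun _ => inferInstance)

@[simp] theorem LocA.zero_apply (R : Reps S P) (i : R.Idx) : (0 : LocA R) i = 0 := rfl
@[simp] theorem LocA.add_apply (R : Reps S P) (a b : LocA R) (i : R.Idx) :
    (a + b) i = a i + b i := rfl
@[simp] theorem LocA.sub_apply (R : Reps S P) (a b : LocA R) (i : R.Idx) :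
    (a - b) i = a i - b i := rfl
@[simp] theorem LocA.neg_apply (R : Reps S P) (a : LocA R) (i : R.Idx) : (-a) i = -a i := rfl
@[simp] theorem LocA.nsmul_apply (R : Reps S P) (n : ℕ) (a : LocA R) (i : R.Idx) :
    (n • a) i = n • a i := rfl

@[ext] theorem LocA.ext (R : Reps S P) {a b : LocA R} (h : ∀ i, a i = b i) : a = b := funext h

/-- `locK : H²_LC(P; ℚ_Sˣ) → Π_i H²_LC(D_i; Ω^×)`. -/
def locK (R : Reps S P) : H2 (basisP S P) (resP P (KS S)) →+ LocA R :=
  AddMonoidHom.mk' (fun z i => (locKS S P i.1.1 i.2.1).h2 z)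
    (fun z w => funext fun i => map_add (locKS S P i.1.1 i.2.1).h2 z w)

@[simp] theorem locK_apply (R : Reps S P) (z : H2 (basisP S P) (resP P (KS S))) (i : R.Idx) :
    locK R z i = (locKS S P i.1.1 i.2.1).h2 z := rfl

/-- `locK ∘ i₂` has the components `(locOS …).h2`. -/
theorem locK_i₂ (R : Reps S P) (x : H2 (basisP S P) (resP P (OS S))) (i : R.Idx) :
    locK R (i₂ S P (basisP S P) x) i = (locOS S P i.1.1 i.2.1).h2 x :=
  HasseOStep.locKS_i₂ S P i.1.1 i.2.1 x

/-- `locK z = 0` is `Blocks.LTSKx R z`. -/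
theorem locK_eq_zero_iff (R : Reps S P) (z : H2 (basisP S P) (resP P (KS S))) :
    locK R z = 0 ↔ LTSKx R z :=
  ⟨fun h i => congrFun h i, fun h => LocA.ext R h⟩

/-- the tautological reciprocity relation of `ImageLevel` for the real objects. -/
abbrev RelP (hP : Level p S P) (R : Reps S P) (a : LocA R) : Prop :=
  Rel p (locK R) (H3OInst.off (H3OInst.level_finiteIndex hP)) a

/-! ### the LES-side hypotheses -/

section LES

variable (S P)

/-- `hexK`: exactness of (Div) at `H²(Kx)`. -/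
theorem hexK (z : H2 (basisP S P) (resP P (KS S))) (hz : π₂ S P (basisP S P) z = 0) :
    ∃ x, i₂ S P (basisP S P) x = z :=
  exists_i₂_of_π₂ (isCont_subBasis S P) z hz

/-- `hex`: exactness of (Div) at `H²(O)`. -/
theorem hex (x : H2 (basisP S P) (resP P (OS S))) (hx : i₂ S P (basisP S P) x = 0) :
    ∃ e, d₁ (isCont_subBasis S P) e = x :=
  exists_d₁_of_i₂ (isCont_subBasis S P) x hx

/-- `hid`: `i ∘ d = 0`. -/
theorem hid (e : H1 (basisP S P) (resP P (PrinS S))) :
    i₂ S P (basisP S P) (d₁ (isCont_subBasis S P) e) = 0 :=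
  i₂_d₁ (isCont_subBasis S P) e

/-- Hilbert 90 in class form. -/
theorem h1_KS_eq_zero (hP : IsOpenS S P) : ∀ z : H1 (basisP S P) (resP P (KS S)), z = 0 := by
  intro z
  obtain ⟨b, hb, rfl⟩ := Hmid.exists_of z
  rw [Hmid.of_eq_zero_iff]
  exact BlocksC1.h90Kx S P hP b hb

/-- `hd`: the connecting map `H¹(Prin) → H²(O)` is injective (Hilbert 90). -/
theorem hd (hP : IsOpenS S P) : Function.Injective (d₁ (isCont_subBasis S P)) :=
  d₁_injective (isCont_subBasis S P) (h1_KS_eq_zero S P hP)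

/-- `hP`: `H¹(Prin)` has no `p`-torsion. -/
theorem hPtors (hpS : pPrime p ∈ S) (hP : IsOpenS S P) (e : H1 (basisP S P) (resP P (PrinS S)))
    (he : p • e = 0) : e = 0 :=
  CapLToff.hP_P S hP p hpS e he

/-- `hPdiv`: `H¹(Prin)` is `p`-divisible. -/
theorem hPdiv (hpS : pPrime p ∈ S) (hP : IsOpenS S P) (e : H1 (basisP S P) (resP P (PrinS S))) :
    ∃ e' : H1 (basisP S P) (resP P (PrinS S)), p • e' = e :=
  CapLToff.hPdiv_P S hP p hpS e

/-- `hoff`: classes coming from `O_S` are locally trivial off `S`. -/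
theorem hoff (hfin : P.FiniteIndex) (x : H2 (basisP S P) (resP P (OS S))) :
    H3OInst.off hfin (i₂ S P (basisP S P) x) = 0 :=
  CapLToff.ltoff_of_os (CapDiv.isCont_subBasis S P) hfin x

/-- `hres`: a `p`-primary class which is locally trivial off `S` dies in `H²(Prin)`. -/
theorem hres (hpS : pPrime p ∈ S) (hP : IsOpenS S P) (hfin : P.FiniteIndex)
    (z : H2 (basisP S P) (resP P (KS S))) (hz : ∃ n : ℕ, p ^ n • z = 0)
    (hzoff : H3OInst.off hfin z = 0) : π₂ S P (basisP S P) z = 0 :=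
  CapLToff.toPrin_eq_zero_of_ltoff (CapDiv.isCont_subBasis S P) hfin p hpS hP
    (CapTorsion.hcoarse_subBasis S P) z hz hzoff

end LES

/-- `hbn`: (HBN-inj) in colimit form, for classes of `H²_LC(P; ℚ_Sˣ)`: a `p`-primary class which is
locally trivial at `S` and off `S` vanishes.  (`HbnColimB.hbnKx` + `Image.lift_torsion`.) -/
theorem hbn (hp2 : p ≠ 2) (hpS : pPrime p ∈ S) (hU : HbnColimB.UnramOff S) (hP : Level p S P)
    (R : Reps S P) (z : H2 (basisP S P) (resP P (KS S))) (hz : ∃ n : ℕ, p ^ n • z = 0)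
    (hloc : locK R z = 0) (hzoff : H3OInst.off (H3OInst.level_finiteIndex hP) z = 0) : z = 0 := by
  obtain ⟨n, hn⟩ := hz
  have hfin := H3OInst.level_finiteIndex hP
  have hπ : π₂ S P (basisP S P) z = 0 := hres p S P hpS hP.isOpen hfin z ⟨n, hn⟩ hzoff
  obtain ⟨x, hx, rfl⟩ := Image.lift_torsion p n (i₂ S P (basisP S P)) (π₂ S P (basisP S P))
    (d₁ (isCont_subBasis S P)) (hexK S P) (hex S P) (hid S P) (hPdiv p S P hpS hP.isOpen) z hn hπ
  exact HbnColimB.hbnKx hp2 hpS (Fermat.Agent.S55.Global.Final.hasseH2 p)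
    (fun P _ => LocS.statement S P) (HasseOFinal.cover S) hU P hP R x n hx
    ((locK_eq_zero_iff R _).1 hloc)

/-- `hdivA`: `A(p)` (in fact `A`) is `p`-divisible. -/
theorem hdivA (hP : IsOpenS S P) (R : Reps S P) (a : LocA R) : ∃ b : LocA R, p • b = a := by
  have h : ∀ i : R.Idx, ∃ y : Blocks2.BrLoc R i, p • y = a i := fun i => by
    obtain ⟨y, hy⟩ := Fermat.Agent.S55.LM.DlocTors.h2Divisible p i.1.1 (Dloc P i.1.1 i.2.1)
      (Fermat.Agent.S55.LM.DlocFields.facts_Dloc S P i.1.1 i.2.1 hP) (a i)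
    exact ⟨y, (Nat.cast_smul_eq_nsmul ℤ p y).symm.trans hy⟩
  choose b hb using h
  exact ⟨b, LocA.ext R hb⟩

/-! ### consumers: the three targets of the (C4) hub at `(P, R)` -/

variable {p}

theorem LocA.nsmul_eq_zero_iff (R : Reps S P) (n : ℕ) (a : LocA R) :
    n • a = 0 ↔ ∀ i, n • a i = 0 :=
  ⟨fun h i => congrFun h i, fun h => LocA.ext R h⟩

/-- **`H²_LC(P; O_S)(p)` is `p`-divisible** (the body of `Blocks.H2ODivisible` at `P`), from the
statement `hadj` of `ImageLevel.adj_of_level` for ONE system of representatives `R`. -/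
theorem h2ODivisible_at (hp2 : p ≠ 2) (hpS : pPrime p ∈ S) (hU : HbnColimB.UnramOff S)
    (hP : Level p S P) (R : Reps S P)
    (hadj : ∀ (k : ℕ) (b : LocA R), (∀ i, p ^ (k + 1) • b i = 0) → RelP p hP R (p • b) →
      ∃ t : LocA R, (∀ i, p • t i = 0) ∧ RelP p hP R (b - t))
    (x : H2 (basisP S P) (resP P (OS S))) (j : ℕ) (hx : p ^ j • x = 0) :
    ∃ x' : H2 (basisP S P) (resP P (OS S)), p ^ (j + 1) • x' = 0 ∧ p • x' = x := by
  have hfin := H3OInst.level_finiteIndex hP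
  obtain ⟨y, -, hy⟩ := divisible_rel p (i₂ S P (basisP S P)) (π₂ S P (basisP S P))
    (d₁ (isCont_subBasis S P)) (hexK S P) (hex S P) (hid S P) (hd S P hP.isOpen)
    (hPtors p S P hpS hP.isOpen) (hPdiv p S P hpS hP.isOpen) (locK R) (H3OInst.off hfin)
    (hoff S P hfin) (hres p S P hpS hP.isOpen hfin) (hbn p hp2 hpS hU hP R)
    (fun _ a _ => hdivA p hP.isOpen R a)
    (fun k b hb hR => by
      obtain ⟨t, ht, hRt⟩ := hadj k b ((LocA.nsmul_eq_zero_iff R _ b).1 hb) hR
      exact ⟨t, (LocA.nsmul_eq_zero_iff R _ t).2 ht, hRt⟩)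
    x ⟨j, hx⟩
  exact ⟨y, by rw [pow_succ, mul_smul, hy, hx], hy⟩

/-- **(C4-G3)** (the body of `Blocks2.ImageG3` at `(P, R)`) from the statement `hgen` of
`ImageLevel.gen_of_level`. -/
theorem imageG3_at (hp2 : p ≠ 2) (hpS : pPrime p ∈ S) (hU : HbnColimB.UnramOff S)
    (hP : Level p S P) (R : Reps S P)
    (hgen : ∃ a₀ : LocA R, (∀ i, p • a₀ i = 0) ∧ ∀ a : LocA R, (∀ i, p • a i = 0) →
      ∃ n : ℕ, RelP p hP R (a - n • a₀)) :
    ∃ a₀ : ∀ i : R.Idx, Blocks2.BrLoc R i, (∀ i, p • a₀ i = 0) ∧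
      ∀ a : ∀ i : R.Idx, Blocks2.BrLoc R i, (∀ i, p • a i = 0) →
        ∃ (n : ℕ) (x : H2 (basisP S P) (resP P (OS S))), p • x = 0 ∧
          ∀ i : R.Idx, (locOS S P i.1.1 i.2.1).h2 x = a i - n • a₀ i := by
  have hfin := H3OInst.level_finiteIndex hP
  obtain ⟨a₀, ha₀, hg⟩ := hgen
  refine ⟨a₀, ha₀, fun a ha => ?_⟩
  obtain ⟨n, x, hx, hxa⟩ := exists_lift_mod_rel p (i₂ S P (basisP S P)) (π₂ S P (basisP S P))
    (d₁ (isCont_subBasis S P)) (hexK S P) (hex S P) (hid S P) (hPdiv p S P hpS hP.isOpen)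
    (locK R) (H3OInst.off hfin) (hoff S P hfin) (hres p S P hpS hP.isOpen hfin)
    (hbn p hp2 hpS hU hP R) a₀ ((LocA.nsmul_eq_zero_iff R p a₀).2 ha₀)
    (fun a ha => hg a ((LocA.nsmul_eq_zero_iff R p a).1 ha)) a
    ((LocA.nsmul_eq_zero_iff R p a).2 ha)
  refine ⟨n, x, hx, fun i => ?_⟩
  have h1 := congrFun hxa i
  rw [locK_i₂] at h1
  exact h1

/-- **(C4-NSS)** (the body of `Blocks2.ImageNSS` at `(P, R)`) from the statement `hnss` of
`ImageLevel.not_rel_of_level`: a `p`-torsion tuple supported at one place which satisfies the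
reciprocity relation vanishes. -/
theorem imageNSS_at (hP : Level p S P) (R : Reps S P)
    (hnss : ∀ (a : LocA R) (i₀ : R.Idx), (∀ i, p • a i = 0) → (∀ i, i ≠ i₀ → a i = 0) →
      RelP p hP R a → a i₀ = 0)
    (x : H2 (basisP S P) (resP P (OS S))) (hx : p • x = 0) (i₀ : R.Idx)
    (h : ∀ i : R.Idx, i ≠ i₀ → (locOS S P i.1.1 i.2.1).h2 x = 0) :
    (locOS S P i₀.1.1 i₀.2.1).h2 x = 0 := by
  have hfin := H3OInst.level_finiteIndex hP
  have hrel : RelP p hP R (locK R (i₂ S P (basisP S P) x)) :=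
    rel_recip p (locK R) (H3OInst.off hfin) (i₂ S P (basisP S P) x)
      ⟨1, by rw [pow_one, ← map_nsmul, hx, map_zero]⟩ (hoff S P hfin x)
  have h1 := hnss (locK R (i₂ S P (basisP S P) x)) i₀
    (fun i => by rw [locK_i₂, ← map_nsmul, hx, map_zero])
    (fun i hi => by rw [locK_i₂]; exact h i hi) hrel
  rw [locK_i₂] at h1
  exact h1

/-! ### closed forms -/

variable (p S)

/-- the `hadj` statement (`ImageLevel.adj_of_level…`) for the real objects, for SOME `R`. -/
def HAdj : Prop :=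
  ∀ (P : Subgroup GQ) (hP : Level p S P), ∃ R : Reps S P,
    ∀ (k : ℕ) (b : LocA R), (∀ i, p ^ (k + 1) • b i = 0) → RelP p hP R (p • b) →
      ∃ t : LocA R, (∀ i, p • t i = 0) ∧ RelP p hP R (b - t)

/-- the `hgen` statement (`ImageLevel.gen_of_level…`) for the real objects. -/
def HGen : Prop :=
  ∀ (P : Subgroup GQ) (hP : Level p S P) (R : Reps S P),
    ∃ a₀ : LocA R, (∀ i, p • a₀ i = 0) ∧ ∀ a : LocA R, (∀ i, p • a i = 0) →
      ∃ n : ℕ, RelP p hP R (a - n • a₀)

/-- the no-single-support statement (`ImageLevel.not_rel_of_level…`) for the real objects. -/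
def HNss : Prop :=
  ∀ (P : Subgroup GQ) (hP : Level p S P) (R : Reps S P) (a : LocA R) (i₀ : R.Idx),
    (∀ i, p • a i = 0) → (∀ i, i ≠ i₀ → a i = 0) → RelP p hP R a → a i₀ = 0

variable {p S}

/-- **`Blocks.H2ODivisible`** from `HAdj`. -/
theorem h2ODivisible_of (hp2 : p ≠ 2) (hpS : pPrime p ∈ S) (hU : HbnColimB.UnramOff S)
    (h : HAdj p S) : Blocks.H2ODivisible p S := by
  intro P hP x j hx
  obtain ⟨R, hR⟩ := h P hP
  exact h2ODivisible_at hp2 hpS hU hP R hR x j hx

/-- **`Blocks2.ImageG3`** from `HGen`. -/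
theorem imageG3_of (hp2 : p ≠ 2) (hpS : pPrime p ∈ S) (hU : HbnColimB.UnramOff S)
    (h : HGen p S) : Blocks2.ImageG3 p S :=
  fun P hP R => imageG3_at hp2 hpS hU hP R (h P hP R)

/-- **`Blocks2.ImageNSS`** from `HNss`. -/
theorem imageNSS_of (h : HNss p S) : Blocks2.ImageNSS p S :=
  fun P hP R x hx i₀ hi => imageNSS_at hP R (h P hP R) x hx i₀ hi

end

end Fermat.Agent.S55.Middle.ImageLES
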