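import Fermat.Agent.S55.Middle.ImageLES
import Fermat.Agent.S55.Middle.UnramOffAdapter

/-!
# S55 / Middle, (C4) hub: `ImageLES` with the unramified-units row (U2′) plugged in

`UnramOffAdapter.unramOff S : HbnColimB.UnramOff S` (helper86) is unconditional, so the hypothesis
`hU` of `ImageLES.{hbn, h2ODivisible_at, imageG3_at, h2ODivisible_of, imageG3_of}` disappears.
-/

set_option autoImplicit false
set_option linter.unusedSectionVars false

open CategoryTheory groupCohomology ExtCitation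

namespace Fermat.Agent.S55.Middle.ImageLESClosed

open Fermat.Agent.S55.Formal
open Fermat.Agent.S55.Formal.PreludeLC hiding GQ Qbar
open Fermat.Agent.S55.Middle.Defs Fermat.Agent.S55.Middle.KSite Fermat.Agent.S55.Middle.Blocks
open Fermat.Agent.S55.Middle.ImageLES

variable {p : ℕ} [Fact p.Prime] {S : Finset Nat.Primes} {P : Subgroup GQ}

/-- (HBN-inj), colimit form, for classes of `H²_LC(P; ℚ_Sˣ)`: unconditional. -/
theorem hbn (hp2 : p ≠ 2) (hpS : pPrime p ∈ S) (hP : Level p S P) (R : Reps S P)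
    (z : H2 (basisP S P) (resP P (KS S))) (hz : ∃ n : ℕ, p ^ n • z = 0)
    (hloc : locK R z = 0) (hzoff : H3OInst.off (H3OInst.level_finiteIndex hP) z = 0) : z = 0 :=
  ImageLES.hbn p hp2 hpS (UnramOffAdapter.unramOff S) hP R z hz hloc hzoff

/-- the body of `Blocks.H2ODivisible` at `P` from `hadj` (for one `R`). -/
theorem h2ODivisible_at (hp2 : p ≠ 2) (hpS : pPrime p ∈ S) (hP : Level p S P) (R : Reps S P)
    (hadj : ∀ (k : ℕ) (b : LocA R), (∀ i, p ^ (k + 1) • b i = 0) → RelP p hP R (p • b) →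
      ∃ t : LocA R, (∀ i, p • t i = 0) ∧ RelP p hP R (b - t))
    (x : H2 (basisP S P) (resP P (OS S))) (j : ℕ) (hx : p ^ j • x = 0) :
    ∃ x' : H2 (basisP S P) (resP P (OS S)), p ^ (j + 1) • x' = 0 ∧ p • x' = x :=
  ImageLES.h2ODivisible_at hp2 hpS (UnramOffAdapter.unramOff S) hP R hadj x j hx

/-- the body of `Blocks2.ImageG3` at `(P, R)` from `hgen`. -/
theorem imageG3_at (hp2 : p ≠ 2) (hpS : pPrime p ∈ S) (hP : Level p S P) (R : Reps S P)
    (hgen : ∃ a₀ : LocA R, (∀ i, p • a₀ i = 0) ∧ ∀ a : LocA R, (∀ i, p • a i = 0) →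
      ∃ n : ℕ, RelP p hP R (a - n • a₀)) :
    ∃ a₀ : ∀ i : R.Idx, Blocks2.BrLoc R i, (∀ i, p • a₀ i = 0) ∧
      ∀ a : ∀ i : R.Idx, Blocks2.BrLoc R i, (∀ i, p • a i = 0) →
        ∃ (n : ℕ) (x : H2 (basisP S P) (resP P (OS S))), p • x = 0 ∧
          ∀ i : R.Idx, (locOS S P i.1.1 i.2.1).h2 x = a i - n • a₀ i :=
  ImageLES.imageG3_at hp2 hpS (UnramOffAdapter.unramOff S) hP R hgen

/-- `Blocks.H2ODivisible` from `HAdj`. -/
theorem h2ODivisible_of (hp2 : p ≠ 2) (hpS : pPrime p ∈ S) (h : HAdj p S) :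
    Blocks.H2ODivisible p S :=
  ImageLES.h2ODivisible_of hp2 hpS (UnramOffAdapter.unramOff S) h

/-- `Blocks2.ImageG3` from `HGen`. -/
theorem imageG3_of (hp2 : p ≠ 2) (hpS : pPrime p ∈ S) (h : HGen p S) : Blocks2.ImageG3 p S :=
  ImageLES.imageG3_of hp2 hpS (UnramOffAdapter.unramOff S) h

end Fermat.Agent.S55.Middle.ImageLESClosed
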