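/-
S55 / MIDDLE block, ImageInst hub leaf (B2) of helper23 #2433 (helper67): the LEVEL PICK.

For `P` a `Level p S P` of `p`-Sylow type (`SylowType.IsSylowType p S P`) and `k : ℕ` there is a
finite Galois `L/ℚ`, unramified outside `S`, with `Gal(ℚ̄/L) ≤ P` (so `L` is in the Galois dictionary
`GaloisDictModel.cohIsoExt` / `LocS.statement` / `LocOffDict`), such that

* `Gal(ℚ̄/L) ∈ globalBasis S`, `Gal(ℚ̄/L) ≤ fixRoots (p ^ m)` (`m` as large as we like);
* `[L' : K] = p ^ a` (`K = K₀ P`, `L' = Lext P L hKL`), `L'/K` Galois, `ζ_p ∈ K`;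
* `p ^ k` divides ALL the local indices `[Dloc P q t : Dloc N q t]`, `q ∈ S`, `t ∈ G_ℚ`
  (`hk` of `ImageDesc.hdesc`, and the same in the `LM/DlocDict.levelSub` shape).

* `exists_bound`           : the uniform bound `m₀` (all `q ∈ S`, all `t ∈ G_ℚ`);
* `levelData_of_mem`       : the dictionary data of a given `ℚ`-normal level `N ≤ P`;
* `exists_pLevel_field`    : the literal statement of #2433 (B2);
* `exists_pLevel_field'`   : the same with `m₁ ≤ m`, `Gal(ℚ̄/L) ≤ fixRoots (p ^ m)` and `IsGalois` added.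
-/
import Fermat.Agent.S55.Middle.SylowType
import Fermat.Agent.S55.Middle.ImageDesc
import Fermat.Agent.S55.Middle.LevelField
import Fermat.Agent.S55.Middle.OSDict
import Fermat.Agent.S55.Middle.CycloGrowLevel
import Fermat.Agent.S55.LM.DlocDict

set_option autoImplicit false
set_option linter.unusedSectionVars false
set_option linter.style.haveILetI false
set_option linter.unusedVariables false

open ExtCitation

namespace Fermat.Agent.S55.Middle.ImageLevelPick

noncomputable section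

open Fermat.Agent.S55.Formal
open Fermat.Agent.S55.Formal.PreludeLC hiding GQ Qbar
open Fermat.Agent.S55.Middle.Defs Fermat.Agent.S55.Middle.KSite
open Fermat.Agent.S55.Middle.Blocks
open Fermat.Agent.S55.Middle.GaloisDict Fermat.Agent.S55.Middle.GaloisDictModel
open Fermat.Agent.S55.Middle.OSDict
open Fermat.Agent.S55.Middle.CycloGrowIndex Fermat.Agent.S55.Middle.CycloGrowLevel
open Fermat.Agent.S55.Bridge.Mackey

variable {p : ℕ} [Fact p.Prime] {S : Finset Nat.Primes}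

/-- the index of a local group `Dloc P q t` is at most the index of `P`. -/
theorem index_Dloc_le (P : Subgroup GQ) (hPfin : P.index ≠ 0) (q : Nat.Primes) (t : GQ) :
    (Dloc P q t).index ≤ P.index := by
  show (conjSub (primeLocalToGlobal q) P t).index ≤ P.index
  rw [conjSub_eq_comap, Subgroup.index_comap, ← Subgroup.relIndex_top_right P]
  refine Subgroup.relIndex_le_of_le_right le_top ?_
  rwa [Subgroup.relIndex_top_right]

/-- `v_p(n) ≤ n`. -/
theorem padicValNat_le_self (n : ℕ) : padicValNat p n ≤ n :=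
  (padicValNat_le_nat_log n).trans (Nat.log_le_self p n)

/-- **Uniform bound**: there is `m₀` such that for all `m ≥ m₀`, every subgroup `N ≤ P` fixing the
`p^m`-th roots of unity has all its local indices above `S` (ALL `t ∈ G_ℚ`) divisible by `p^k`. -/
theorem exists_bound (hodd : Odd p) {P : Subgroup GQ} (hP : Level p S P) (k : ℕ) :
    ∃ m₀ : ℕ, ∀ m, m₀ ≤ m → ∀ N : Subgroup GQ, N ≤ P → N ≤ fixRoots (p ^ m) →
      ∀ (q : ↥S) (t : GQ), p ^ k ∣ (ImageDesc.lvlLoc N P q.1 t).index := by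
  haveI := finiteIndex_of_isOpenS hP.isOpen
  have hPfin : P.index ≠ 0 := Subgroup.FiniteIndex.index_ne_zero
  refine ⟨k + (S.sup fun q : Nat.Primes => lossAt p q) + P.index, fun m hm N hNP hNm q t => ?_⟩
  refine pow_dvd_index_subgroupOf p hodd q.1 P hPfin hP.triv t k m ?_ N hNP
    (fun g hg => mem_fixRoots.1 (hNm hg))
  have h1 : lossAt p q.1 ≤ S.sup fun q : Nat.Primes => lossAt p q :=
    Finset.le_sup (f := fun q : Nat.Primes => lossAt p q) q.2
  have h2 : padicValNat p (conjSub (primeLocalToGlobal q.1) P t).index ≤ P.index :=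
    (padicValNat_le_self _).trans (index_Dloc_le P hPfin q.1 t)
  omega

/-- the same in the `LM/DlocDict.levelSub` shape. -/
theorem exists_bound_levelSub (hodd : Odd p) {P : Subgroup GQ} (hP : Level p S P) (k : ℕ) :
    ∃ m₀ : ℕ, ∀ m, m₀ ≤ m → ∀ N : Subgroup GQ, N ≤ P → N ≤ fixRoots (p ^ m) →
      ∀ (q : ↥S) (t : GQ), p ^ k ∣ (Fermat.Agent.S55.LM.DlocDict.levelSub P q.1 t N).index :=
  exists_bound hodd hP k

/-- the rfl-bridge between the two shapes of the local level. -/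
theorem levelSub_eq_lvlLoc (N P : Subgroup GQ) (q : Nat.Primes) (t : GQ) :
    Fermat.Agent.S55.LM.DlocDict.levelSub P q t N = ImageDesc.lvlLoc N P q t := rfl

/-- **The dictionary data of a `ℚ`-normal level** `N ∈ globalBasis S`, `N ≤ P`, of `p`-power
index in `P`. -/
theorem levelData_of_mem {P : Subgroup GQ} (hP : Level p S P) {N : Subgroup GQ}
    (hN : (globalBasis S).mem N) (hNP : N ≤ P) {a : ℕ} (ha : (N.subgroupOf P).index = p ^ a) :
    ∃ (L : IntermediateField ℚ Qbar) (_ : Normal ℚ L) (hL : L.IsUnramifiedOutside S)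
      (hle : L.fixingSubgroup ≤ P) (hKL : K₀ P ≤ L) (_ : NumberField ↥(K₀ P))
      (_ : NumberField ↥(Lext P L hKL)) (_ : Finite (↥P ⧸ lvl P L))
      (_ : (basisP S P).mem (lvl P L)) (_ : IsGalois ↥(K₀ P) ↥(Lext P L hKL)),
      L.fixingSubgroup = N ∧ Module.finrank ↥(K₀ P) ↥(Lext P L hKL) = p ^ a ∧
        ∃ ζ : ↥(K₀ P), IsPrimitiveRoot ζ p := by
  obtain ⟨F, hF, hFn, rfl⟩ := hN
  haveI hnorm : Normal ℚ F := normal_of_fixingSubgroup_normal F hFn
  have hKL : K₀ P ≤ F := fixedField_le_of_le hNP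
  haveI hK : NumberField ↥(K₀ P) := numberField_K₀ hP.isOpen
  haveI hL' : NumberField ↥(Lext P F hKL) := numberField_Lext F hKL hF
  have hmemG : (globalBasis S).mem F.fixingSubgroup := ⟨F, hF, hFn, rfl⟩
  have hmem : (basisP S P).mem (lvl P F) := ⟨F.fixingSubgroup, hmemG, rfl⟩
  haveI : (lvl P F).FiniteIndex := (basisP S P).finiteIndex hmem
  haveI hfin : Finite (↥P ⧸ lvl P F) := Subgroup.finite_quotient_of_finiteIndex
  refine ⟨F, hnorm, hF, hNP, hKL, hK, hL', hfin, hmem, isGalois_Lext P F hKL, rfl, ?_,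
    LevelField.exists_zeta hP⟩
  rw [finrank_Lext S P F hKL hF hNP, ← Subgroup.index_eq_card]
  exact ha

/-- **(B2), the LEVEL PICK** (literal statement of helper23 #2433). -/
theorem exists_pLevel_field (hodd : Odd p) (hpS : pPrime p ∈ S) {P : Subgroup GQ}
    (hP : Level p S P) (hT : SylowType.IsSylowType p S P) (k : ℕ) :
    ∃ (L : IntermediateField ℚ Qbar) (_ : Normal ℚ L) (hL : L.IsUnramifiedOutside S)
      (hle : L.fixingSubgroup ≤ P) (hKL : K₀ P ≤ L) (_ : NumberField ↥(K₀ P))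
      (_ : NumberField ↥(Lext P L hKL)) (_ : Finite (↥P ⧸ lvl P L))
      (_ : (basisP S P).mem (lvl P L)),
      (globalBasis S).mem L.fixingSubgroup ∧
      (∃ a, Module.finrank ↥(K₀ P) ↥(Lext P L hKL) = p ^ a) ∧
      (∃ ζ : ↥(K₀ P), IsPrimitiveRoot ζ p) ∧
      (∀ (q : ↥S) (t : GQ), p ^ k ∣ (ImageDesc.lvlLoc L.fixingSubgroup P q.1 t).index) ∧
      (∀ (q : ↥S) (t : GQ),
        p ^ k ∣ (Fermat.Agent.S55.LM.DlocDict.levelSub P q.1 t L.fixingSubgroup).index) := by
  obtain ⟨m₀, hm₀⟩ := exists_bound hodd hP k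
  obtain ⟨N, hN, hNP, hNm, a, ha⟩ := SylowType.exists_pLevel_card hpS hP hT m₀
  obtain ⟨L, hnorm, hL, hle, hKL, hK, hL', hfin, hmem, -, hfix, hrank, hζ⟩ :=
    levelData_of_mem hP hN hNP ha
  refine ⟨L, hnorm, hL, hle, hKL, hK, hL', hfin, hmem, hfix ▸ hN, ⟨a, hrank⟩, hζ, ?_, ?_⟩
  · rw [hfix]
    exact hm₀ m₀ le_rfl N hNP hNm
  · rw [hfix]
    exact hm₀ m₀ le_rfl N hNP hNm

/-- **The LEVEL PICK, cofinal form**: the level may be taken inside `fixRoots (p ^ m)` for any
`m ≥ m₁` given in advance, and `L'/K` is Galois. -/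
theorem exists_pLevel_field' (hodd : Odd p) (hpS : pPrime p ∈ S) {P : Subgroup GQ}
    (hP : Level p S P) (hT : SylowType.IsSylowType p S P) (k m₁ : ℕ) :
    ∃ (m : ℕ) (_ : m₁ ≤ m) (L : IntermediateField ℚ Qbar) (_ : Normal ℚ L)
      (hL : L.IsUnramifiedOutside S)
      (hle : L.fixingSubgroup ≤ P) (hKL : K₀ P ≤ L) (_ : NumberField ↥(K₀ P))
      (_ : NumberField ↥(Lext P L hKL)) (_ : Finite (↥P ⧸ lvl P L))
      (_ : (basisP S P).mem (lvl P L)) (_ : IsGalois ↥(K₀ P) ↥(Lext P L hKL)),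
      (globalBasis S).mem L.fixingSubgroup ∧ L.fixingSubgroup ≤ fixRoots (p ^ m) ∧
      (∃ a, Module.finrank ↥(K₀ P) ↥(Lext P L hKL) = p ^ a) ∧
      (∃ ζ : ↥(K₀ P), IsPrimitiveRoot ζ p) ∧
      (∀ (q : ↥S) (t : GQ), p ^ k ∣ (ImageDesc.lvlLoc L.fixingSubgroup P q.1 t).index) ∧
      (∀ (q : ↥S) (t : GQ),
        p ^ k ∣ (Fermat.Agent.S55.LM.DlocDict.levelSub P q.1 t L.fixingSubgroup).index) := by
  obtain ⟨m₀, hm₀⟩ := exists_bound hodd hP k
  obtain ⟨N, hN, hNP, hNm, a, ha⟩ := SylowType.exists_pLevel_card hpS hP hT (max m₀ m₁)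
  obtain ⟨L, hnorm, hL, hle, hKL, hK, hL', hfin, hmem, hgal, hfix, hrank, hζ⟩ :=
    levelData_of_mem hP hN hNP ha
  refine ⟨max m₀ m₁, le_max_right _ _, L, hnorm, hL, hle, hKL, hK, hL', hfin, hmem, hgal,
    hfix ▸ hN, hfix ▸ hNm, ⟨a, hrank⟩, hζ, ?_, ?_⟩
  · rw [hfix]
    exact hm₀ _ (le_max_left _ _) N hNP hNm
  · rw [hfix]
    exact hm₀ _ (le_max_left _ _) N hNP hNm

end

end Fermat.Agent.S55.Middle.ImageLevelPick
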