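import Fermat.Agent.S55.Middle.ImageLevel

/-!
# S55 / Middle / ImageLevelZ (helper93): PER-CLASS forms of `ImageLevel.adj_of_level` and
`ImageLevel.not_rel_of_level`

In `ImageLevel` the level data `(H2L, AL, BL, C, Λ, …)` are fixed BEFORE the witness `z` of the
relation `Rel` is known, and the hypothesis `hdesc` asks every such `z` to come from `H2L`.  When
(HBN-coker) is only available in the `T`-unit form (`ker Λ_T` = image of the `T`-unit classes,
`T` admissible), `H2L` must be `H²(G_L, E_{L,T})`, and `hdesc` for a FIXED `T` would need a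
`T`-compatibility statement which is not available.  The remedy is to choose `T` AFTER `z`
(`HasseH2Adm.exists_setting_isTUnitClass`): here are the two lemmas with `hdesc` replaced by an
explicit level-`L` representative `y` of the class at hand (so the level data may depend on it).
-/

set_option autoImplicit false

namespace Fermat.Agent.S55.Middle.ImageLevelZ

open Fermat.Agent.S55.Middle.ImageLevel

variable {H2K A Dv H2L AL BL C : Type*} [AddCommGroup H2K] [AddCommGroup A] [AddCommGroup Dv]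
  [AddCommGroup H2L] [AddCommGroup AL] [AddCommGroup BL] [AddCommGroup C]

/-- **`hadj`, per-class form.**  `bL ∈ AL`, and a level-`L` class `y` with `off (infl y) = 0` and
`locK (infl y) = p • jA bL`: then `jA bL` can be corrected by a `p`-torsion element `t` so that
`Rel (jA bL - t)`. -/
theorem adj_of_level_z (p : ℕ) (locK : H2K →+ A) (off : H2K →+ Dv)
    (infl : H2L →+ H2K) (locL : H2L →+ AL) (offL : H2L →+ BL) (jA : AL →+ A) (jB : BL →+ Dv)
    (Λ : AL × BL →+ C) (m : ℕ)
    (hpow : ∀ y : H2L, p ^ m • y = 0)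
    (hcA : ∀ y : H2L, locK (infl y) = jA (locL y))
    (hcB : ∀ y : H2L, off (infl y) = jB (offL y))
    (hjA : Function.Injective jA) (hjB : Function.Injective jB)
    (hker : ∀ x : AL × BL, Λ x = 0 ↔ ∃ y : H2L, (locL y, offL y) = x)
    (hC : ∀ c c' : C, p • c = 0 → p • c' = 0 → c ≠ 0 → ∃ n : ℕ, c' = n • c)
    (b₀ : AL) (hb₀ : p • b₀ = 0) (hΛb₀ : Λ (b₀, 0) ≠ 0)
    (bL : AL) (y : H2L) (hyoff : off (infl y) = 0) (hyb : locK (infl y) = p • jA bL) :
    ∃ t : A, p • t = 0 ∧ Rel p locK off (jA bL - t) := by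
  have hy1 : locL y = p • bL := hjA (by rw [← hcA, hyb, map_nsmul])
  have hy2 : offL y = 0 := hjB (by rw [← hcB, hyoff, map_zero])
  have hΛ : p • Λ (bL, 0) = 0 := by
    rw [← map_nsmul]
    refine (hker _).2 ⟨y, ?_⟩
    rw [hy1, hy2]
    simp
  have hΛ0 : p • Λ (b₀, 0) = 0 := by
    rw [← map_nsmul]
    have : p • ((b₀, 0) : AL × BL) = 0 := by
      ext
      · simpa using hb₀
      · simp
    rw [this, map_zero]
  obtain ⟨n, hn⟩ := hC _ _ hΛ0 hΛ hΛb₀
  have hΛ' : Λ (bL - n • b₀, 0) = 0 := by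
    have : ((bL - n • b₀, 0) : AL × BL) = (bL, 0) - n • (b₀, 0) := by
      ext <;> simp
    rw [this, map_sub, map_nsmul, hn, sub_self]
  obtain ⟨y', hy'⟩ := (hker _).1 hΛ'
  have hy'1 : locL y' = bL - n • b₀ := congrArg Prod.fst hy'
  have hy'2 : offL y' = 0 := congrArg Prod.snd hy'
  refine ⟨jA (n • b₀), ?_, infl y', ⟨m, ?_⟩, ?_, ?_⟩
  · rw [← map_nsmul, smul_comm, hb₀, smul_zero, map_zero]
  · rw [← map_nsmul, hpow, map_zero]
  · rw [hcB, hy'2, map_zero]
  · rw [hcA, hy'1, map_sub]

/-- **No single support, per-class form.**  If `Λ (b, 0) ≠ 0` then no level-`L` class `y` with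
`off (infl y) = 0` has `locK (infl y) = jA b`. -/
theorem not_level_of_ne_zero (locK : H2K →+ A) (off : H2K →+ Dv)
    (infl : H2L →+ H2K) (locL : H2L →+ AL) (offL : H2L →+ BL) (jA : AL →+ A) (jB : BL →+ Dv)
    (Λ : AL × BL →+ C)
    (hcA : ∀ y : H2L, locK (infl y) = jA (locL y))
    (hcB : ∀ y : H2L, off (infl y) = jB (offL y))
    (hjA : Function.Injective jA) (hjB : Function.Injective jB)
    (hker : ∀ x : AL × BL, Λ x = 0 ↔ ∃ y : H2L, (locL y, offL y) = x)
    (b : AL) (hΛb : Λ (b, 0) ≠ 0)
    (y : H2L) (hyoff : off (infl y) = 0) (hyb : locK (infl y) = jA b) : False := by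
  have hy1 : locL y = b := hjA (by rw [← hcA, hyb])
  have hy2 : offL y = 0 := hjB (by rw [← hcB, hyoff, map_zero])
  exact hΛb ((hker _).2 ⟨y, by rw [hy1, hy2]⟩)

/-- **No single support** from a per-class descent: if every witness `z` of `Rel (jA b)` admits level
data (depending on `z`) in which `Λ (b', 0) ≠ 0` for the element `b'` with `jA' b' = jA b`, then
`¬ Rel (jA b)`.  Stated with the level data existentially quantified per `z` in one universe. -/
theorem not_rel_of_forall_z (p : ℕ) (locK : H2K →+ A) (off : H2K →+ Dv) (a : A)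
    (h : ∀ z : H2K, (∃ n : ℕ, p ^ n • z = 0) → off z = 0 → locK z = a → False) :
    ¬ Rel p locK off a := by
  rintro ⟨z, hz, hzoff, hza⟩
  exact h z hz hzoff hza

end Fermat.Agent.S55.Middle.ImageLevelZ
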