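/-
S55 / MIDDLE block, ImageInst hub, target (C4-NSS) — DIRECT proof (helper44).

The body of `Blocks2.ImageNSS` at a level `P` is proved END TO END from landed files, with NO LES
skeleton, NO `htors`, NO `hdvd`, NO LOC-off:  `x ∈ H²_LC(P; O_S)`, `p • x = 0`, locally trivial at
all places `i ≠ i₀` of the `K`-site.

* `exists_class_of_level` (descent, `ImageDesc.hdesc_ι₂` with `k = 1`): at a `ℚ`-normal level `L`
  whose local degrees above `S` are all divisible by `p`, `i₂ x = ι₂ (cohIsoExt⁻¹ y)` for a class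
  `y ∈ H²(Gal(L'/K), L'ˣ)`, `K = ℚ̄^P`, `L' = L` over `K`;
* `locFam_eq_zero_of_ne` (support): `locFam y` vanishes off `S` (`SuppInOff.suppIn_locFam`, helper64:
  `UnramOff` + `OSDict` + `LocS.statement` at `q ∉ S`) and at the places `plOf R i`, `i ≠ i₀`
  (`LocS.loc_eq_zero_iff`); every place above `S` is a `plOf R i` (`LocSFam.exists_plOf_eq`), so
  `locFam y` is supported at the single place `plOf R i₀`;
* `ImageFiniteCore.not_isGlobal_of_single` (finite-level (HBN-single), `[L':K] = p^n`, `ζ_p ∈ K`):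
  hence `locFam y (plOf R i₀) = 0`;
* `locOS_eq_zero_of_locFam` (conclusion): hence `(locOS S P i₀).h2 x = 0`.

`imageNSS_of_level` / `imageNSS_of_mem_level`: ANY `Level p S P` with a `ℚ`-normal level of
`p`-power index in `P` and `p ∣` all local indices (all `t`).  `imageNSS_at_of`: `P ∈ globalBasis S`
(level `P ⊓ fixRoots (p^m)` from `CycloGrowLevel.exists_cycloLevel'`; the local index does not
depend on `t` for normal `N`, `P`).  The three closed hypotheses `hO hU hnss` are theorems on main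
(`UnramOffAdapter.hasseO`, `UnramOffAdapter.unramOff`, `Global.Final.noSingleSupport`); they are
discharged in `Middle/ImageNSSClosed.lean`.
-/
import Fermat.Agent.S55.Middle.HbnColimB
import Fermat.Agent.S55.Middle.SuppInOff
import Fermat.Agent.S55.Middle.ImageDesc
import Fermat.Agent.S55.Middle.LocS
import Fermat.Agent.S55.Middle.LocSFam
import Fermat.Agent.S55.Middle.CycloGrowLevel
import Fermat.Agent.S55.Middle.SylowType
import Fermat.Agent.S55.Middle.LevelField
import Fermat.Agent.S55.LM.DlocFields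

set_option autoImplicit false
set_option linter.unusedSectionVars false
set_option linter.style.haveILetI false

open CategoryTheory groupCohomology ExtCitation

namespace Fermat.Agent.S55.Middle.ImageNSSDirect

noncomputable section

open Fermat.Agent.S55.Formal Fermat.Agent.S55.Formal.LCLevelH
open Fermat.Agent.S55.Formal.PreludeLC hiding GQ Qbar
open Fermat.Agent.S55.Middle.Defs Fermat.Agent.S55.Middle.KSite
open Fermat.Agent.S55.Middle.Blocks Fermat.Agent.S55.Middle.LESGlueV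
open Fermat.Agent.S55.Middle.GaloisDict Fermat.Agent.S55.Middle.GaloisDictModel
open Fermat.Agent.S55.Middle.OSDict
open Fermat.Agent.S55.Global.Blocks3 Fermat.Agent.S55.Global.Objects2
open Fermat.Agent.S55.Middle.LocS
open Fermat.Agent.S55.Middle.ImageFiniteCore

variable {S : Finset Nat.Primes}

variable (p : ℕ) [Fact p.Prime]

section Level

variable {P : Subgroup GQ} (L : IntermediateField ℚ Qbar) [Normal ℚ L]
  (hL : L.IsUnramifiedOutside S) (hle : L.fixingSubgroup ≤ P) (hKL : K₀ P ≤ L)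

/-- **Step 1 (descent).**  A `p`-torsion class `x` of `H²_LC(P; O_S)`: its image `i₂ x` is
inflated, through the Galois dictionary, from a class `y` of `H²(Gal(L'/K), L'ˣ)` as soon as `p`
divides the local degrees of `L'/K` above `S`. -/
theorem exists_class_of_level (hO : Blocks.HasseO p S) (hP : Level p S P) (R : Reps S P)
    [Finite (↥P ⧸ lvl P L)] (hV : (basisP S P).mem (lvl P L))
    (hk : ∀ (q : ↥S) (t : GQ), p ^ 1 ∣ (ImageDesc.lvlLoc L.fixingSubgroup P q.1 t).index)
    (x : H2 (basisP S P) (resP P (OS S))) (hx : p • x = 0) :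
    ∃ y : groupCohomology (Rep.ofAlgebraAutOnUnits ↥(K₀ P) ↥(Lext P L hKL)) 2,
      ι₂ (basisP S P) (resP P (KS S)) (lvl P L) hV
        ((cohIsoExt S P L hKL hL hle 2).inv.hom y) = i₂ S P (basisP S P) x := by
  have hN : (globalBasis S).mem L.fixingSubgroup := LocS.fixingSubgroup_mem S L hL
  have hz0 : p • i₂ S P (basisP S P) x = 0 :=
    (map_nsmul (i₂ S P (basisP S P)) p x).symm.trans
      ((congrArg (i₂ S P (basisP S P)) hx).trans (map_zero _))
  have hloc : ∀ i : R.Idx,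
      p ^ 1 • (locKS S P i.1.1 i.2.1).h2 (i₂ S P (basisP S P) x) = 0 := by
    intro i
    have h1 : p • (locKS S P i.1.1 i.2.1).h2 (i₂ S P (basisP S P) x) = 0 :=
      (map_nsmul (locKS S P i.1.1 i.2.1).h2 p (i₂ S P (basisP S P) x)).symm.trans
        ((congrArg (locKS S P i.1.1 i.2.1).h2 hz0).trans (map_zero _))
    exact (congrArg (fun n : ℕ => n • (locKS S P i.1.1 i.2.1).h2 (i₂ S P (basisP S P) x))
      (pow_one p)).trans h1
  obtain ⟨y, hy⟩ := ImageDesc.hdesc_ι₂ S p hO hN hle hP R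
    (fun q t => Fermat.Agent.S55.LM.DlocFields.facts_Dloc S P q.1 t hP.isOpen) 1 hk
    (i₂ S P (basisP S P) x)
    ⟨x, 1, (congrArg (fun n : ℕ => n • x) (pow_one p)).trans hx, rfl⟩ hloc
  refine ⟨(cohIsoExt S P L hKL hL hle 2).hom.hom y, ?_⟩
  have e : (cohIsoExt S P L hKL hL hle 2).inv.hom ((cohIsoExt S P L hKL hL hle 2).hom.hom y) = y :=
    Iso.hom_inv_id_apply (cohIsoExt S P L hKL hL hle 2) y
  exact (congrArg (fun w => ι₂ (basisP S P) (resP P (KS S)) (lvl P L) hV w) e).trans hy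

/-- **Step 2 (support).**  The family of localisations of `y` vanishes away from the place of
`i₀`. -/
theorem locFam_eq_zero_of_ne (hU : HbnColimB.UnramOff S) (hS : S.Nonempty) (hP : IsOpenS S P)
    (R : Reps S P)
    [NumberField ↥(K₀ P)] [NumberField ↥(Lext P L hKL)] [Finite (↥P ⧸ lvl P L)]
    (hV : (basisP S P).mem (lvl P L))
    (x : H2 (basisP S P) (resP P (OS S)))
    (y : groupCohomology (Rep.ofAlgebraAutOnUnits ↥(K₀ P) ↥(Lext P L hKL)) 2)
    (hy : ι₂ (basisP S P) (resP P (KS S)) (lvl P L) hV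
      ((cohIsoExt S P L hKL hL hle 2).inv.hom y) = i₂ S P (basisP S P) x)
    (i₀ : R.Idx) (h : ∀ i : R.Idx, i ≠ i₀ → (locOS S P i.1.1 i.2.1).h2 x = 0)
    (x' : Pl ↥(K₀ P)) (hne : x' ≠ LocSFam.plOf R i₀) :
    locFam ↥(K₀ P) ↥(Lext P L hKL) y x' = 0 := by
  by_cases hx' : x'.1 ∈ S
  · obtain ⟨i, rfl⟩ := LocSFam.exists_plOf_eq R x' hx'
    have hi : i ≠ i₀ := fun h' => hne (by rw [h'])
    have h1 : (locKS S P i.1.1 i.2.1).h2 (ι₂ (basisP S P) (resP P (KS S)) (lvl P L) hV
        ((cohIsoExt S P L hKL hL hle 2).inv.hom y)) = 0 :=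
      (congrArg (locKS S P i.1.1 i.2.1).h2 hy).trans
        ((HasseOStep.locKS_i₂ S P i.1.1 i.2.1 x).trans (h i hi))
    exact (LocS.loc_eq_zero_iff S P L hL hle hKL hV i.1.1 i.2.1 y).1 h1
  · exact SuppInOff.suppIn_locFam hU hS hP x L hL hle hKL hV y hy x' hx'

/-- **Step 3 (conclusion).**  If the localisation of `y` at the place of `i₀` vanishes, so does
the local component of `x` at `i₀`. -/
theorem locOS_eq_zero_of_locFam (R : Reps S P)
    [NumberField ↥(K₀ P)] [NumberField ↥(Lext P L hKL)] [Finite (↥P ⧸ lvl P L)]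
    (hV : (basisP S P).mem (lvl P L))
    (x : H2 (basisP S P) (resP P (OS S)))
    (y : groupCohomology (Rep.ofAlgebraAutOnUnits ↥(K₀ P) ↥(Lext P L hKL)) 2)
    (hy : ι₂ (basisP S P) (resP P (KS S)) (lvl P L) hV
      ((cohIsoExt S P L hKL hL hle 2).inv.hom y) = i₂ S P (basisP S P) x)
    (i₀ : R.Idx) (h0 : locFam ↥(K₀ P) ↥(Lext P L hKL) y (LocSFam.plOf R i₀) = 0) :
    (locOS S P i₀.1.1 i₀.2.1).h2 x = 0 := by
  have h1 : (locKS S P i₀.1.1 i₀.2.1).h2 (ι₂ (basisP S P) (resP P (KS S)) (lvl P L) hV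
      ((cohIsoExt S P L hKL hL hle 2).inv.hom y)) = 0 :=
    (LocS.loc_eq_zero_iff S P L hL hle hKL hV i₀.1.1 i₀.2.1 y).2 h0
  exact (HasseOStep.locKS_i₂ S P i₀.1.1 i₀.2.1 x).symm.trans
    ((congrArg (locKS S P i₀.1.1 i₀.2.1).h2 hy).symm.trans h1)

end Level

/-- **`ImageNSS` at a level `P`, given a `ℚ`-normal `p`-power level `L` deep enough at `S`.** -/
theorem imageNSS_of_level (hO : Blocks.HasseO p S) (hU : HbnColimB.UnramOff S)
    (hnss : NoSingleSupport p) (hp2 : p ≠ 2) (hpS : pPrime p ∈ S) {P : Subgroup GQ}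
    (hP : Level p S P) (R : Reps S P)
    (L : IntermediateField ℚ Qbar) [Normal ℚ L] (hL : L.IsUnramifiedOutside S)
    (hle : L.fixingSubgroup ≤ P)
    (hpow : ∃ a : ℕ, (lvl P L).index = p ^ a)
    (hk : ∀ (q : ↥S) (t : GQ), p ^ 1 ∣ (ImageDesc.lvlLoc L.fixingSubgroup P q.1 t).index)
    (x : H2 (basisP S P) (resP P (OS S))) (hx : p • x = 0) (i₀ : R.Idx)
    (h : ∀ i : R.Idx, i ≠ i₀ → (locOS S P i.1.1 i.2.1).h2 x = 0) :
    (locOS S P i₀.1.1 i₀.2.1).h2 x = 0 := by
  have hSne : S.Nonempty := ⟨_, hpS⟩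
  have hN : (globalBasis S).mem L.fixingSubgroup := LocS.fixingSubgroup_mem S L hL
  have hKL : K₀ P ≤ L := fixedField_le_of_le hle
  haveI hK : NumberField ↥(K₀ P) := OSDict.numberField_K₀ hP.isOpen
  haveI hL' : NumberField ↥(Lext P L hKL) := OSDict.numberField_Lext L hKL hL
  have hV : (basisP S P).mem (lvl P L) := ImageDesc.mem_basisP_lvlP S hN
  haveI : Finite (↥P ⧸ lvl P L) := DictBridge.finite_quotient _ hV
  haveI : IsGalois ↥(K₀ P) ↥(Lext P L hKL) := OSDict.isGalois_Lext P L hKL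
  have hex := exists_class_of_level p L hL hle hKL hO hP R hV hk x hx
  obtain ⟨y, hy⟩ := hex
  have hpp : ∃ n : ℕ, Module.finrank ↥(K₀ P) ↥(Lext P L hKL) = p ^ n := by
    obtain ⟨a, ha⟩ := hpow
    refine ⟨a, ?_⟩
    rw [finrank_Lext S P L hKL hL hle, ← ha]
    rfl
  refine locOS_eq_zero_of_locFam L hL hle hKL R hV x y hy i₀ ?_
  by_contra hne
  exact ImageFiniteCore.not_isGlobal_of_single (Fact.out : p.Prime) hp2
    (LevelField.exists_zeta hP) hpp hnss (LocSFam.plOf R i₀) _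
    (locFam_eq_zero_of_ne L hL hle hKL hU hSne hP.isOpen R hV x y hy i₀ h) hne ⟨y, rfl⟩

/-- the same with the level given as a member `N` of the global basis. -/
theorem imageNSS_of_mem_level (hO : Blocks.HasseO p S) (hU : HbnColimB.UnramOff S)
    (hnss : NoSingleSupport p) (hp2 : p ≠ 2) (hpS : pPrime p ∈ S) {P : Subgroup GQ}
    (hP : Level p S P) (R : Reps S P)
    (N : Subgroup GQ) (hN : (globalBasis S).mem N) (hNP : N ≤ P)
    (hpow : ∃ a : ℕ, (N.subgroupOf P).index = p ^ a)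
    (hk : ∀ (q : ↥S) (t : GQ), p ^ 1 ∣ (ImageDesc.lvlLoc N P q.1 t).index)
    (x : H2 (basisP S P) (resP P (OS S))) (hx : p • x = 0) (i₀ : R.Idx)
    (h : ∀ i : R.Idx, i ≠ i₀ → (locOS S P i.1.1 i.2.1).h2 x = 0) :
    (locOS S P i₀.1.1 i₀.2.1).h2 x = 0 := by
  obtain ⟨F, hF, hn, rfl⟩ := hN
  haveI : Normal ℚ F := normal_of_fixingSubgroup_normal F hn
  exact imageNSS_of_level p hO hU hnss hp2 hpS hP R F hF hNP hpow hk x hx i₀ h

/-- for normal `N`, `P` the local levels do not depend on the double coset representative. -/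
theorem lvlLoc_index_eq {N P : Subgroup GQ} [N.Normal] [P.Normal] (q : Nat.Primes) (t t' : GQ) :
    (ImageDesc.lvlLoc N P q t).index = (ImageDesc.lvlLoc N P q t').index := by
  show (Dloc N q t).relIndex (Dloc P q t) = (Dloc N q t').relIndex (Dloc P q t')
  rw [ImageDesc.Dloc_eq_comap q t, ImageDesc.Dloc_eq_comap q t', ImageDesc.Dloc_eq_comap q t,
    ImageDesc.Dloc_eq_comap q t']

/-- **`ImageNSS` at a NORMAL level** `P ∈ globalBasis S` (= the body of `Blocks2.ImageNSS` with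
the extra hypothesis `(globalBasis S).mem P`), from the three closed inputs (all theorems on
main: `UnramOffAdapter.hasseO`, `UnramOffAdapter.unramOff`, `Global.Final.noSingleSupport`). -/
theorem imageNSS_at_of (hO : Blocks.HasseO p S) (hU : HbnColimB.UnramOff S)
    (hnss : NoSingleSupport p) (hp2 : p ≠ 2) (hpS : pPrime p ∈ S) (P : Subgroup GQ)
    (hP : Level p S P) (hPn : (globalBasis S).mem P) (R : Reps S P)
    (x : H2 (basisP S P) (resP P (OS S))) (hx : p • x = 0) (i₀ : R.Idx)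
    (h : ∀ i : R.Idx, i ≠ i₀ → (locOS S P i.1.1 i.2.1).h2 x = 0) :
    (locOS S P i₀.1.1 i₀.2.1).h2 x = 0 := by
  have hodd : Odd p := (Fact.out : p.Prime).odd_of_ne_two hp2
  have hex := CycloGrowLevel.exists_cycloLevel' p hodd hpS hP.isOpen hP.triv R 1
  obtain ⟨m, hm, hmem, hidx, hdiv⟩ := hex
  have hN : (globalBasis S).mem (P ⊓ CycloGrowIndex.fixRoots (p ^ m)) :=
    SylowType.mem_inf hPn hmem
  haveI : P.Normal := (globalBasis S).normal hPn
  haveI : (P ⊓ CycloGrowIndex.fixRoots (p ^ m)).Normal := (globalBasis S).normal hN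
  refine imageNSS_of_mem_level p hO hU hnss hp2 hpS hP R (P ⊓ CycloGrowIndex.fixRoots (p ^ m)) hN
    inf_le_left ?_ ?_ x hx i₀ h
  · rw [Subgroup.inf_subgroupOf_left]
    obtain ⟨a, -, ha⟩ := (Nat.dvd_prime_pow (Fact.out : p.Prime)).1 hidx
    exact ⟨a, ha⟩
  · intro q t
    rw [lvlLoc_index_eq q.1 t (1 : GQ)]
    exact hdiv ⟨q, 1, R.one_mem q⟩

end

end Fermat.Agent.S55.Middle.ImageNSSDirect
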