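/-
S55 / MIDDLE block, ImageInst hub, target (C4-NSS) at normal levels — CLOSED (helper44).

`Blocks3.ImageNSSN p S` (= the body of `Blocks2.ImageNSS` at the members `P` of `globalBasis S`),
UNCONDITIONALLY for `p` odd, `p ∈ S`: `ImageNSSDirect.imageNSS_at_of` fed with the three closed
inputs, all theorems on main:

* `UnramOffAdapter.hasseO`          : `Blocks.HasseO p S`            (helper86 / helper35);
* `UnramOffAdapter.unramOff`        : `HbnColimB.UnramOff S`         (helper86 / helper56);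
* `Global.Final.noSingleSupport`    : `Global.Blocks3.NoSingleSupport p` (helper78).
-/
import Fermat.Agent.S55.Middle.ImageNSSDirect
import Fermat.Agent.S55.Middle.UnramOffAdapter
import Fermat.Agent.S55.Global.Final
import Fermat.Agent.S55.Middle.Blocks3
import Fermat.Agent.S55.Middle.PLevelField
import Fermat.Agent.S55.Middle.ImageDescField

set_option autoImplicit false
set_option linter.unusedSectionVars false

open CategoryTheory groupCohomology ExtCitation

namespace Fermat.Agent.S55.Middle.ImageNSSClosed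

open Fermat.Agent.S55.Formal
open Fermat.Agent.S55.Formal.PreludeLC hiding GQ Qbar
open Fermat.Agent.S55.Middle.Defs Fermat.Agent.S55.Middle.KSite
open Fermat.Agent.S55.Middle.Blocks

variable {p : ℕ} [Fact p.Prime] {S : Finset Nat.Primes}

/-- **(C4-NSS) at a normal level**, unconditional: the body of `Blocks2.ImageNSS` at
`P ∈ globalBasis S`. -/
theorem imageNSS_at (hp2 : p ≠ 2) (hpS : pPrime p ∈ S) (P : Subgroup GQ)
    (hP : Level p S P) (hPn : (globalBasis S).mem P) (R : Reps S P)
    (x : H2 (basisP S P) (resP P (OS S))) (hx : p • x = 0) (i₀ : R.Idx)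
    (h : ∀ i : R.Idx, i ≠ i₀ → (locOS S P i.1.1 i.2.1).h2 x = 0) :
    (locOS S P i₀.1.1 i₀.2.1).h2 x = 0 :=
  ImageNSSDirect.imageNSS_at_of p (UnramOffAdapter.hasseO hp2 hpS) (UnramOffAdapter.unramOff S)
    (Fermat.Agent.S55.Global.Final.noSingleSupport p) hp2 hpS P hP hPn R x hx i₀ h

/-- **(C4-NSS) at a level of `p`-Sylow type**, unconditional (level from
`PLevelField.exists_pLevelField`, local indices at all `t` from `ImageDescField.dvd_index_all`). -/
theorem imageNSS_sylow (hp2 : p ≠ 2) (hpS : pPrime p ∈ S) (P : Subgroup GQ)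
    (hP : Level p S P) (hT : SylowType.IsSylowType p S P) (R : Reps S P)
    (x : H2 (basisP S P) (resP P (OS S))) (hx : p • x = 0) (i₀ : R.Idx)
    (h : ∀ i : R.Idx, i ≠ i₀ → (locOS S P i.1.1 i.2.1).h2 x = 0) :
    (locOS S P i₀.1.1 i₀.2.1).h2 x = 0 := by
  obtain ⟨L, hN, hL, hle, hKL, hK, hL', hfin, hV, hmem, -, ⟨n, hn⟩, hidx⟩ :=
    PLevelField.exists_pLevelField hp2 hpS hP hT R 1 0
  haveI := hN
  haveI : L.fixingSubgroup.Normal := (globalBasis S).normal hmem
  refine ImageNSSDirect.imageNSS_of_level p (UnramOffAdapter.hasseO hp2 hpS)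
    (UnramOffAdapter.unramOff S) (Fermat.Agent.S55.Global.Final.noSingleSupport p) hp2 hpS hP R
    L hL hle ⟨n, ?_⟩ (fun q t => ImageDescField.dvd_index_all R (p ^ 1) hidx q t) x hx i₀ h
  rw [← hn, OSDict.finrank_Lext S P L hKL hL hle]
  rfl

/-- **`Blocks3.ImageNSSN p S`** (helper17's literal restricted target), unconditional. -/
theorem imageNSSN (hp2 : p ≠ 2) (hpS : pPrime p ∈ S) :
    Fermat.Agent.S55.Middle.Blocks3.ImageNSSN p S :=
  fun P hP hPn R x hx i₀ h => imageNSS_at hp2 hpS P hP hPn R x hx i₀ h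

/-- **`Blocks3.KNSSN p S`** (the restricted Kummer-square output), unconditional. -/
theorem kNSSN (hp2 : p ≠ 2) (hpS : pPrime p ∈ S) :
    Fermat.Agent.S55.Middle.Blocks3.KNSSN p S :=
  Fermat.Agent.S55.Middle.Blocks3.kNSSN hpS (imageNSSN hp2 hpS)

end Fermat.Agent.S55.Middle.ImageNSSClosed
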