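/-
S55 / MIDDLE block, ImageInst hub, the `SuppIn` half of the descent (W2) (helper49).

A class of `H²_LC(P; O_S)` of FINITE ORDER is locally trivial at every place of `K = ℚ̄^P` above a
prime `q ∉ S` (its image in `H²_LC(P; ℚ_Sˣ)` comes from a class of `S`-units at a finite level
`L/K`, unramified above `q`: row (U2)), in the LC language of the `K`-site:

* `locKS_i₂_eq_zero_off` : `(locKS S P q t).h2 (i₂ x) = 0` for `q ∉ S`, every `t : G_ℚ`;
* `locOS_eq_zero_off`    : the same for `locOS`.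

Consequently a finite-level class `y ∈ H²(Gal(L'/K), L'ˣ)` whose inflation `ι₂ (cohIsoExt⁻¹ y)` is
`i₂ x` for such an `x` has all its local components above the primes `q ∉ S` equal to zero:

* `suppIn_of_ι₂_eq_i₂` : `ImageFiniteCore.SuppIn S (ImageFiniteCore.locFam K L' y)`;
* `suppIn_hom_of_ι₂_eq_i₂` : the same for `y = cohIsoExt (yV)`, `yV` a class of the finite level
  `lvl P L` of the `K`-site (the shape produced by `ImageDesc.hdesc_ι₂`).

Route: `OSDict.exists_finite_level_H2_OS` (helper67) + `LocS.loc_eq_zero_iff` (helper14, valid for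
ALL primes `q`) + `LocSCover.exists_mAt_eq` (helper67) + row (U2) in the closed form
`HbnColimB.UnramOff S` (helper56 / helper86).  No `LocOff` / `jB` input.
-/
import Fermat.Agent.S55.Middle.HbnColimB
import Fermat.Agent.S55.Middle.LocS
import Fermat.Agent.S55.Middle.LocSCover
import Fermat.Agent.S55.Middle.ImageFiniteCore

set_option autoImplicit false
set_option linter.unusedSectionVars false
set_option linter.style.haveILetI false

open CategoryTheory groupCohomology ExtCitation

namespace Fermat.Agent.S55.Middle.ImageSuppIn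

open Fermat.Agent.S55.Formal Fermat.Agent.S55.Formal.LCLevelH
open Fermat.Agent.S55.Formal.PreludeLC hiding GQ Qbar
open Fermat.Agent.S55.Middle.Defs Fermat.Agent.S55.Middle.KSite
open Fermat.Agent.S55.Middle.Blocks Fermat.Agent.S55.Middle.LESGlueV
open Fermat.Agent.S55.Middle.GaloisDict Fermat.Agent.S55.Middle.GaloisDictModel
open Fermat.Agent.S55.Middle.OSDict
open Fermat.Agent.S55.Global.Blocks3 Fermat.Agent.S55.Global.Objects2
open Fermat.Agent.S55.Middle.HbnColimB

attribute [local instance] Fermat.Agent.S55.LM.Defs.fact_q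

variable {S : Finset Nat.Primes}

/-- **An `O_S`-class of finite order is locally trivial off `S`** (LC form, `ℚ_Sˣ`-coefficients):
for `q ∉ S` and every `t : G_ℚ` the localisation at the place `(q, t)` of `K = ℚ̄^P` of `i₂ x`
vanishes. -/
theorem locKS_i₂_eq_zero_off (hU : UnramOff S) {P : Subgroup GQ} (hP : IsOpenS S P)
    (hSne : S.Nonempty) (x : H2 (basisP S P) (resP P (OS S))) (n : ℕ) (hx : n • x = 0)
    (q : Nat.Primes) (hq : q ∉ S) (t : GQ) :
    (locKS S P q t).h2 (i₂ S P (basisP S P) x) = 0 := by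
  have hopen : IsOpenSub (globalBasis S) P := hP
  have hr := BasisChange.subBasis_refines_sub (globalBasis S) P hopen
  have hr' := BasisChange.sub_refines_subBasis (globalBasis S) P
  have hx' : n • (BasisChange.idMor hr (oH S P)).h2 x = 0 := by
    rw [← map_nsmul, hx, map_zero]
  obtain ⟨L, hN, hL, hle, hKL, hV, hfin, hK, hL', e, -, heq⟩ :=
    exists_finite_level_H2_OS hopen hSne _ n hx'
  haveI := hN
  haveI := hfin
  haveI := hK
  haveI := hL'
  have hV' : (basisP S P).mem (lvl P L) := mem_subBasis_of_mem_sub hV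
  set zL : groupCohomology (Rep.ofAlgebraAutOnUnits ↥(K₀ P) ↥(Lext P L hKL)) 2 :=
    (groupCohomology.map (MonoidHom.id (↥(Lext P L hKL) ≃ₐ[↥(K₀ P)] ↥(Lext P L hKL)))
      (UnitsToL.EntoLxn ↥(K₀ P) ↥(Lext P L hKL) S hSne) 2).hom e with hzL
  have key : i₂ S P (basisP S P) x =
      ι₂ (basisP S P) (resP P (KS S)) (lvl P L) hV'
        ((cohIsoExt S P L hKL hL hle 2).inv.hom zL) := by
    apply (BasisChange.idMor_h2_bijective (kH S P) hr hr').1
    rw [idMor_h2_ι₂ hr _ _ hV' hV, idMor_i₂ hopen x]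
    exact heq
  rw [key, LocS.loc_eq_zero_iff S P L hL hle hKL hV' q t zL]
  exact hU P hP L hL hle hKL hSne q hq (LocS.mAt P q t) inferInstance e

/-- the same for `locOS`. -/
theorem locOS_eq_zero_off (hU : UnramOff S) {P : Subgroup GQ} (hP : IsOpenS S P)
    (hSne : S.Nonempty) (x : H2 (basisP S P) (resP P (OS S))) (n : ℕ) (hx : n • x = 0)
    (q : Nat.Primes) (hq : q ∉ S) (t : GQ) :
    (locOS S P q t).h2 x = 0 := by
  rw [← HasseOStep.locKS_i₂ S P q t x]
  exact locKS_i₂_eq_zero_off hU hP hSne x n hx q hq t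

/-- **`SuppIn` half of the descent (W2)**: a finite-level class `y ∈ H²(Gal(L'/K), L'ˣ)` whose
inflation to the `K`-site is `i₂ x`, `x ∈ H²_LC(P; O_S)` of finite order, has trivial local
components at ALL places of `K` above the primes `q ∉ S`. -/
theorem suppIn_of_ι₂_eq_i₂ (hU : UnramOff S) {P : Subgroup GQ} (hSne : S.Nonempty)
    (L : IntermediateField ℚ Qbar) [Normal ℚ L] (hL : L.IsUnramifiedOutside S)
    (hle : L.fixingSubgroup ≤ P) (hKL : K₀ P ≤ L)
    [NumberField ↥(K₀ P)] [NumberField ↥(Lext P L hKL)] [Finite (↥P ⧸ lvl P L)]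
    (hV : (basisP S P).mem (lvl P L))
    (y : groupCohomology (Rep.ofAlgebraAutOnUnits ↥(K₀ P) ↥(Lext P L hKL)) 2)
    (x : H2 (basisP S P) (resP P (OS S))) (n : ℕ) (hx : n • x = 0)
    (hy : ι₂ (basisP S P) (resP P (KS S)) (lvl P L) hV
        ((cohIsoExt S P L hKL hL hle 2).inv.hom y) = i₂ S P (basisP S P) x) :
    ImageFiniteCore.SuppIn S (ImageFiniteCore.locFam ↥(K₀ P) ↥(Lext P L hKL) y) := by
  rintro ⟨q, ⟨I, hI⟩⟩ hq
  haveI := hI
  obtain ⟨t, rfl⟩ := LocSCover.exists_mAt_eq P q I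
  have hP : IsOpenS S P := ⟨L.fixingSubgroup, LocS.fixingSubgroup_mem S L hL, hle⟩
  have h0 := locKS_i₂_eq_zero_off hU hP hSne x n hx q hq t
  rw [← hy, LocS.loc_eq_zero_iff S P L hL hle hKL hV q t y] at h0
  exact h0

/-- The same for a class `yV` of the finite level `lvl P L` of the `K`-site (the output shape of
`ImageDesc.hdesc_ι₂`), transported to `H²(Gal(L'/K), L'ˣ)` by the Galois dictionary. -/
theorem suppIn_hom_of_ι₂_eq_i₂ (hU : UnramOff S) {P : Subgroup GQ} (hSne : S.Nonempty)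
    (L : IntermediateField ℚ Qbar) [Normal ℚ L] (hL : L.IsUnramifiedOutside S)
    (hle : L.fixingSubgroup ≤ P) (hKL : K₀ P ≤ L)
    [NumberField ↥(K₀ P)] [NumberField ↥(Lext P L hKL)] [Finite (↥P ⧸ lvl P L)]
    (hV : (basisP S P).mem (lvl P L))
    (yV : groupCohomology (Dict.Inv (resP P (KS S)) (lvl P L)) 2)
    (x : H2 (basisP S P) (resP P (OS S))) (n : ℕ) (hx : n • x = 0)
    (hy : ι₂ (basisP S P) (resP P (KS S)) (lvl P L) hV yV = i₂ S P (basisP S P) x) :
    ImageFiniteCore.SuppIn S (ImageFiniteCore.locFam ↥(K₀ P) ↥(Lext P L hKL)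
      ((cohIsoExt S P L hKL hL hle 2).hom.hom yV)) := by
  refine suppIn_of_ι₂_eq_i₂ hU hSne L hL hle hKL hV _ x n hx ?_
  rw [Iso.hom_inv_id_apply]
  exact hy

end Fermat.Agent.S55.Middle.ImageSuppIn
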