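/-
S55 / MIDDLE block, ImageInst hub, the COMPLETE descent (W2), unconditional (helper49).

* `locKS_i₂_eq_zero_off`, `locOS_eq_zero_off`, `suppIn_of_ι₂_eq_i₂`, `suppIn_hom_of_ι₂_eq_i₂` :
  the statements of `Middle/ImageSuppIn` with row (U2) discharged (`UnramOffAdapter.unramOff`);
* `descent_suppIn` : **(W2)** for a level `L` (finite Galois over `ℚ`, unramified outside `S`,
  `Gal(ℚ̄/L) ≤ P`) which is deep enough (`p^k` divides all local degrees above `S`): a class
  `z = i₂ x`, `x ∈ H²_LC(P; O_S)` of `p`-power order, whose local components at the places above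
  `S` are killed by `p^k`, is the inflation `ι₂ (cohIsoExt⁻¹ y)` of a class
  `y ∈ H²(Gal(L'/K), L'ˣ)` with `SuppIn S (locFam y)` (= `ImageDesc.hdesc_ι₂` (helper38) + the
  `SuppIn` half), with the Hasse principle `Blocks.HasseO p S` and the local facts discharged.
-/
import Fermat.Agent.S55.Middle.ImageSuppIn
import Fermat.Agent.S55.Middle.UnramOffAdapter
import Fermat.Agent.S55.Middle.ImageDesc
import Fermat.Agent.S55.LM.DlocFields

set_option autoImplicit false
set_option linter.unusedSectionVars false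
set_option linter.style.haveILetI false

open CategoryTheory groupCohomology ExtCitation

namespace Fermat.Agent.S55.Middle.ImageSuppInClosed

open Fermat.Agent.S55.Formal Fermat.Agent.S55.Formal.LCLevelH
open Fermat.Agent.S55.Formal.PreludeLC hiding GQ Qbar
open Fermat.Agent.S55.Middle.Defs Fermat.Agent.S55.Middle.KSite
open Fermat.Agent.S55.Middle.Blocks Fermat.Agent.S55.Middle.LESGlueV
open Fermat.Agent.S55.Middle.GaloisDict Fermat.Agent.S55.Middle.GaloisDictModel
open Fermat.Agent.S55.Global.Blocks3 Fermat.Agent.S55.Global.Objects2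

attribute [local instance] Fermat.Agent.S55.LM.Defs.fact_q

variable {S : Finset Nat.Primes}

/-- An `O_S`-class of finite order is locally trivial off `S` (`ℚ_Sˣ`-coefficients). -/
theorem locKS_i₂_eq_zero_off {P : Subgroup GQ} (hP : IsOpenS S P)
    (hSne : S.Nonempty) (x : H2 (basisP S P) (resP P (OS S))) (n : ℕ) (hx : n • x = 0)
    (q : Nat.Primes) (hq : q ∉ S) (t : GQ) :
    (locKS S P q t).h2 (i₂ S P (basisP S P) x) = 0 :=
  ImageSuppIn.locKS_i₂_eq_zero_off (UnramOffAdapter.unramOff S) hP hSne x n hx q hq t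

/-- An `O_S`-class of finite order is locally trivial off `S`. -/
theorem locOS_eq_zero_off {P : Subgroup GQ} (hP : IsOpenS S P)
    (hSne : S.Nonempty) (x : H2 (basisP S P) (resP P (OS S))) (n : ℕ) (hx : n • x = 0)
    (q : Nat.Primes) (hq : q ∉ S) (t : GQ) :
    (locOS S P q t).h2 x = 0 :=
  ImageSuppIn.locOS_eq_zero_off (UnramOffAdapter.unramOff S) hP hSne x n hx q hq t

/-- `SuppIn` half of (W2), unconditional. -/
theorem suppIn_of_ι₂_eq_i₂ {P : Subgroup GQ} (hSne : S.Nonempty)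
    (L : IntermediateField ℚ Qbar) [Normal ℚ L] (hL : L.IsUnramifiedOutside S)
    (hle : L.fixingSubgroup ≤ P) (hKL : K₀ P ≤ L)
    [NumberField ↥(K₀ P)] [NumberField ↥(Lext P L hKL)] [Finite (↥P ⧸ lvl P L)]
    (hV : (basisP S P).mem (lvl P L))
    (y : groupCohomology (Rep.ofAlgebraAutOnUnits ↥(K₀ P) ↥(Lext P L hKL)) 2)
    (x : H2 (basisP S P) (resP P (OS S))) (n : ℕ) (hx : n • x = 0)
    (hy : ι₂ (basisP S P) (resP P (KS S)) (lvl P L) hV
        ((cohIsoExt S P L hKL hL hle 2).inv.hom y) = i₂ S P (basisP S P) x) :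
    ImageFiniteCore.SuppIn S (ImageFiniteCore.locFam ↥(K₀ P) ↥(Lext P L hKL) y) :=
  ImageSuppIn.suppIn_of_ι₂_eq_i₂ (UnramOffAdapter.unramOff S) hSne L hL hle hKL hV y x n hx hy

/-- `SuppIn` half of (W2) for a class of the finite level `lvl P L`, unconditional. -/
theorem suppIn_hom_of_ι₂_eq_i₂ {P : Subgroup GQ} (hSne : S.Nonempty)
    (L : IntermediateField ℚ Qbar) [Normal ℚ L] (hL : L.IsUnramifiedOutside S)
    (hle : L.fixingSubgroup ≤ P) (hKL : K₀ P ≤ L)
    [NumberField ↥(K₀ P)] [NumberField ↥(Lext P L hKL)] [Finite (↥P ⧸ lvl P L)]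
    (hV : (basisP S P).mem (lvl P L))
    (yV : groupCohomology (Dict.Inv (resP P (KS S)) (lvl P L)) 2)
    (x : H2 (basisP S P) (resP P (OS S))) (n : ℕ) (hx : n • x = 0)
    (hy : ι₂ (basisP S P) (resP P (KS S)) (lvl P L) hV yV = i₂ S P (basisP S P) x) :
    ImageFiniteCore.SuppIn S (ImageFiniteCore.locFam ↥(K₀ P) ↥(Lext P L hKL)
      ((cohIsoExt S P L hKL hL hle 2).hom.hom yV)) :=
  ImageSuppIn.suppIn_hom_of_ι₂_eq_i₂ (UnramOffAdapter.unramOff S) hSne L hL hle hKL hV yV x n hx hy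

/-- **The descent (W2), unconditional.**  `P` with `Level p S P` (`p` odd, `p ∈ S`), `L/ℚ` finite
Galois unramified outside `S` with `Gal(ℚ̄/L) ≤ P`, such that `p^k` divides the local degrees
`[Dloc P q t : Dloc Gal(ℚ̄/L) q t]` for all `q ∈ S`, `t : G_ℚ`.  A class `z = i₂ x` of
`H²_LC(P; ℚ_Sˣ)`, `x ∈ H²_LC(P; O_S)` of `p`-power order, whose local components at the places `R`
above `S` are killed by `p^k`, is inflated from a class `y ∈ H²(Gal(L'/K), L'ˣ)` all of whose local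
components above the primes `q ∉ S` vanish. -/
theorem descent_suppIn {p : ℕ} [Fact p.Prime] (hp2 : p ≠ 2) (hpS : pPrime p ∈ S)
    {P : Subgroup GQ} (hP : Level p S P) (R : Reps S P)
    (L : IntermediateField ℚ Qbar) [Normal ℚ L] (hL : L.IsUnramifiedOutside S)
    (hle : L.fixingSubgroup ≤ P) (hKL : K₀ P ≤ L)
    [NumberField ↥(K₀ P)] [NumberField ↥(Lext P L hKL)] [Finite (↥P ⧸ lvl P L)]
    (hV : (basisP S P).mem (lvl P L)) (k : ℕ)
    (hk : ∀ (q : ↥S) (t : GQ), p ^ k ∣ (ImageDesc.lvlLoc L.fixingSubgroup P q.1 t).index)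
    (z : H2 (basisP S P) (resP P (KS S)))
    (hz : ∃ (x : H2 (basisP S P) (resP P (OS S))) (j : ℕ),
      p ^ j • x = 0 ∧ i₂ S P (basisP S P) x = z)
    (hloc : ∀ i : R.Idx, p ^ k • (locKS S P i.1.1 i.2.1).h2 z = 0) :
    ∃ y : groupCohomology (Rep.ofAlgebraAutOnUnits ↥(K₀ P) ↥(Lext P L hKL)) 2,
      ι₂ (basisP S P) (resP P (KS S)) (lvl P L) hV
        ((cohIsoExt S P L hKL hL hle 2).inv.hom y) = z ∧
      ImageFiniteCore.SuppIn S (ImageFiniteCore.locFam ↥(K₀ P) ↥(Lext P L hKL) y) := by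
  have hN : (globalBasis S).mem L.fixingSubgroup := LocS.fixingSubgroup_mem S L hL
  have hSne : S.Nonempty := ⟨_, hpS⟩
  obtain ⟨yV, hyV⟩ := ImageDesc.hdesc_ι₂ S p (UnramOffAdapter.hasseO hp2 hpS) hN hle hP R
    (fun q t => Fermat.Agent.S55.LM.DlocFields.facts_Dloc S P q.1 t hP.isOpen) k hk z hz hloc
  obtain ⟨x, j, hx, rfl⟩ := hz
  refine ⟨(cohIsoExt S P L hKL hL hle 2).hom.hom yV, ?_, ?_⟩
  · rw [Iso.hom_inv_id_apply]
    exact hyV
  · exact suppIn_hom_of_ι₂_eq_i₂ hSne L hL hle hKL hV yV x (p ^ j) hx hyV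

end Fermat.Agent.S55.Middle.ImageSuppInClosed
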