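/-
S55 / Middle / M.inv, leaf (I1), ARITHMETIC INSTANTIATION via the covering site (helper16; hedge of
helper73's InvArith, independent route through helper51's `SiteOver` + my `InvCover`).

* `repsOfKSite`, `siteOver_eq_cover` : `KSite.siteOver S P R = cover (arithSite S) (repsOfKSite S R)`
  is `rfl`; hence `g3_cover`, `nss_cover` : `Blocks.KG3` / `Blocks.KNoSingleSupport` in covering-site
  form (term-mode `hG3 P hP R`).
* `trivOn_conjSub`, `exists_local_ne_zero` (LM `OutTriv.loc₂_eq_one_ulevel`), `h2_perm_at_p`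
  (LM `OutFinal.loc₂_eq_one_arith` + helper41 `PermResTransitive`).
* **`inv_arith p S (hpS : pPrime p ∈ S) (hG3 : Blocks.KG3 p S) (hN : Blocks.KNoSingleSupport p S)`** :
  the field `BaseA.inv` / `ULevel.inv` for `(arithSite S, ZMod p, cycloChar p)`, LITERALLY.
  Only the level `P = ker χ_p` of `KG3`/`KNoSingleSupport` is used; no hypothesis `p ≠ 2`.
-/
import Fermat.Agent.S55.Middle.InvCover
import Fermat.Agent.S55.Middle.Blocks
import Fermat.Agent.S55.Middle.PermResTransitive
import Fermat.Agent.S55.Middle.LocalCycloSurj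
import Fermat.Agent.S55.LM.OutTriv
import Fermat.Agent.S55.LM.KummerChi

set_option autoImplicit false
set_option linter.unusedSectionVars false

open CategoryTheory groupCohomology Module ExtCitation

namespace Fermat.Agent.S55.Middle.InvArithB

open Fermat.Agent.S55.Formal Fermat.Agent.S55.Formal.ArithSite
open Fermat.Agent.S55.Formal.PreludeLC
open Fermat.Agent.S55.Bridge.ShapiroLC Fermat.Agent.S55.Bridge.Mackey
open Fermat.Agent.S55.Middle.KSite Fermat.Agent.S55.Middle.SiteOver

variable (p : ℕ) [Fact p.Prime] (S : Finset Nat.Primes)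

/-- the `K`-site representatives as representatives for the covering site of `arithSite S`. -/
def repsOfKSite {P : Subgroup GQ} (R : KSite.Reps S P) : SiteOver.Reps (arithSite S) P :=
  ⟨R.T, R.fin, R.one_mem, R.covers, R.separated⟩


theorem siteOver_eq_cover {P : Subgroup GQ} (R : KSite.Reps S P) :
    siteOver S P R = cover (arithSite S) (repsOfKSite S R) := rfl

/-- `Blocks.KG3` in covering-site form. -/
theorem g3_cover (hG3 : Blocks.KG3 p S) {P : Subgroup GQ} (hP : Blocks.Level p S P)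
    (R : KSite.Reps S P) :
    Module.Finite (ZMod p) ((cover (arithSite S) (repsOfKSite S R)).P2
        (Rep.trivial (ZMod p) P (ZMod p)) ⧸
        LinearMap.range ((cover (arithSite S) (repsOfKSite S R)).loc₂
          (Rep.trivial (ZMod p) P (ZMod p)))) ∧
      finrank (ZMod p) ((cover (arithSite S) (repsOfKSite S R)).P2
        (Rep.trivial (ZMod p) P (ZMod p)) ⧸
        LinearMap.range ((cover (arithSite S) (repsOfKSite S R)).loc₂
          (Rep.trivial (ZMod p) P (ZMod p)))) ≤ 1 :=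
  hG3 P hP R

/-- `Blocks.KNoSingleSupport` in covering-site form. -/
theorem nss_cover (hN : Blocks.KNoSingleSupport p S) {P : Subgroup GQ} (hP : Blocks.Level p S P)
    (R : KSite.Reps S P) :
    ∀ (x : H2 (cover (arithSite S) (repsOfKSite S R)).𝒰 (Rep.trivial (ZMod p) P (ZMod p)))
      (j₀ : (cover (arithSite S) (repsOfKSite S R)).I),
      (∀ j, j ≠ j₀ → ((cover (arithSite S) (repsOfKSite S R)).res
          (Rep.trivial (ZMod p) P (ZMod p)) j).h2 x = 0) →
        ((cover (arithSite S) (repsOfKSite S R)).res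
          (Rep.trivial (ZMod p) P (ZMod p)) j₀).h2 x = 0 :=
  hN P hP R


/-- `χ_p ∘ ι_v` is trivial on the conjugated local groups `D_{v,t}` of `ker χ_p`. -/
theorem trivOn_conjSub (v : (arithSite S).I) (t : GQ) :
    TrivOn ((cycloChar p).comp ((arithSite S).ι v))
      (conjSub ((arithSite S).ι v) (cycloChar p).ker t) := by
  intro s hs
  have h1 : cycloChar p (t * (arithSite S).ι v s * t⁻¹) = 1 := MonoidHom.mem_ker.1 hs
  rw [map_mul, map_mul, map_inv, mul_comm, inv_mul_cancel_left] at h1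
  exact h1

/-- nonzero local `H²` at the place `(v, 1)` of the covering site of `ker χ_p`. -/
theorem exists_local_ne_zero (hpS : pPrime p ∈ S) (R : KSite.Reps S (cycloChar p).ker)
    (v : (arithSite S).I) :
    ∃ (t : ↥((repsOfKSite S R).T v))
      (w₀ : H2 ((cover (arithSite S) (repsOfKSite S R)).𝒱 ⟨v, t⟩)
        ((cover (arithSite S) (repsOfKSite S R)).loc
          (Rep.trivial (ZMod p) (cycloChar p).ker (ZMod p)) ⟨v, t⟩)), w₀ ≠ 0 := by
  have hU := LocalCycloSurj.ker_cycloChar_mem_globalBasis p hpS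
  have hopen : ((arithSite S).𝒱 v).IsOpen
      (conjSub ((arithSite S).ι v) (cycloChar p).ker 1) :=
    Fermat.Agent.S55.Bridge.MackeyProd.conjSub_open (arithSite S).𝒰 ((arithSite S).𝒱 v)
      ((arithSite S).ι v) ((arithSite S).cont v) (cycloChar p).ker ⟨_, hU, le_rfl⟩ 1
  obtain ⟨hfin, hrank⟩ := Fermat.Agent.S55.LM.OutTriv.loc₂_eq_one_ulevel p S v _ hopen
    (trivOn_conjSub p S v 1)
  have hpos : 0 < finrank (ZMod p)
      (H2 (subBasis ((arithSite S).𝒱 v) (conjSub ((arithSite S).ι v) (cycloChar p).ker 1))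
        (Rep.trivial (ZMod p) (conjSub ((arithSite S).ι v) (cycloChar p).ker 1) (ZMod p))) := by
    rw [hrank]; exact Nat.one_pos
  obtain ⟨w, hw⟩ := Module.finrank_pos_iff_exists_ne_zero.1 hpos
  exact ⟨⟨1, R.one_mem v⟩, w, hw⟩


/-- the `loc₂` bound at `p` for `k[G_ℚ/ker χ_p]`. -/
theorem h2_perm_at_p (hpS : pPrime p ∈ S) :
    Module.Finite (ZMod p) (H2 ((arithSite S).𝒱 ⟨pPrime p, hpS⟩)
        ((arithSite S).loc (Formal.perm (ZMod p) (cycloChar p).ker) ⟨pPrime p, hpS⟩)) ∧
      finrank (ZMod p) (H2 ((arithSite S).𝒱 ⟨pPrime p, hpS⟩)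
        ((arithSite S).loc (Formal.perm (ZMod p) (cycloChar p).ker) ⟨pPrime p, hpS⟩)) ≤ 1 := by
  have hU := LocalCycloSurj.ker_cycloChar_mem_globalBasis p hpS
  have hopen : ((arithSite S).𝒱 ⟨pPrime p, hpS⟩).IsOpen
      ((cycloChar p).ker.comap (primeLocalToGlobal (pPrime p))) := by
    obtain ⟨N', hN', h⟩ := (arithSite S).cont ⟨pPrime p, hpS⟩ _ hU
    exact ⟨N', hN', fun s hs => h s hs⟩
  have htriv : TrivOn ((cycloChar p).comp ((arithSite S).ι ⟨pPrime p, hpS⟩))
      ((cycloChar p).ker.comap (primeLocalToGlobal (pPrime p))) := fun s hs => hs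
  obtain ⟨hfin, hrank⟩ := Fermat.Agent.S55.LM.OutFinal.loc₂_eq_one_arith p S ⟨pPrime p, hpS⟩ _
    hopen htriv
  exact PermResTransitive.finite_finrank_H2_res_perm_cyclo p (ZMod p)
    ((arithSite S).𝒱 ⟨pPrime p, hpS⟩) 1 ⟨hfin, hrank.le⟩

/-- **`BaseA.inv` / `ULevel.inv` for the arithmetic site**, from the two Middle outputs `KG3` and
`KNoSingleSupport` (at the single level `P = ker χ_p`); all local inputs are theorems of LM. -/
theorem inv_arith (hpS : pPrime p ∈ S) (hG3 : Blocks.KG3 p S)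
    (hN : Blocks.KNoSingleSupport p S) :
    ∃ inv : ∀ v : (arithSite S).I,
        H2 ((arithSite S).𝒱 v) ((arithSite S).loc (mu (cycloChar p)) v) →ₗ[ZMod p] ZMod p,
      (∀ v, inv v ≠ 0) ∧ ∀ x : H2 (arithSite S).𝒰 (mu (cycloChar p)),
        ∑ v, inv v (((arithSite S).res (mu (cycloChar p)) v).h2 x) = 0 := by
  have hU := LocalCycloSurj.ker_cycloChar_mem_globalBasis p hpS
  have hlev : Blocks.Level p S (cycloChar p).ker := ⟨⟨_, hU, le_rfl⟩, fun g hg => hg⟩
  have : (cycloChar p).ker.FiniteIndex := (globalBasis S).finiteIndex hU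
  obtain ⟨R⟩ := KSite.nonempty_reps S (cycloChar p).ker
  obtain ⟨h1, h2⟩ := h2_perm_at_p p S hpS
  exact InvCover.baseA_inv_of_cover (arithSite S) (cycloChar p) (cycloChar p).ker hU
    (LocalCycloSurj.trivOn_ker_cycloChar p) (LocalCycloSurj.index_ker_cycloChar_ne_zero p)
    (repsOfKSite S R) (g3_cover p S hG3 hlev R) (nss_cover p S hN hlev R)
    (exists_local_ne_zero p S hpS R) ⟨pPrime p, hpS⟩ h1 h2
    (Fermat.Agent.S55.LM.KummerChi.exists_h2_mu_arith_ne_zero p S
      (fun q P hP => Fermat.Agent.S55.LM.OutFinal.facts q P hP) ⟨pPrime p, hpS⟩)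

end Fermat.Agent.S55.Middle.InvArithB
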