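/-
S55 / Middle (helper73): `OutArith.InvArith p S` FROM THE TWO GLOBAL OUTPUTS AT THE SINGLE LEVEL
`P = ker χ_p` (a NORMAL level, member of `globalBasis S`) and ONE system of representatives `R`.

`InvArith.invArith_of_outputs` consumes `Blocks.KG3 p S` and `Blocks.KNoSingleSupport p S`, which
quantify over ALL levels `P`; only `P = ker χ_p` is used.  This file states exactly what is used
(helper93's structural warning: the image Props are reachable for normal / `p`-good levels only):

  `invArith_of_ker (hpS) (R : Reps S (ker χ_p)) (hg : KG3At p S R) (hn : KNssAt p S R) : InvArith p S`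

with `KG3At`, `KNssAt` the bodies of `Blocks.KG3`, `Blocks.KNoSingleSupport` at `(ker χ_p, R)`.
-/
import Fermat.Agent.S55.Middle.InvArith

set_option autoImplicit false
set_option linter.unusedSectionVars false

open CategoryTheory groupCohomology Module ExtCitation

namespace Fermat.Agent.S55.Middle.InvArithKer

open Fermat.Agent.S55.Formal Fermat.Agent.S55.Formal.ArithSite
open Fermat.Agent.S55.Formal.PreludeLC hiding GQ Qbar
open Fermat.Agent.S55.Bridge.ShapiroLC Fermat.Agent.S55.Bridge.Mackey
  Fermat.Agent.S55.Bridge.MackeyLC Fermat.Agent.S55.Middle.OutDict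
open Fermat.Agent.S55.Middle.Blocks Fermat.Agent.S55.Middle.KSite Fermat.Agent.S55.Middle.OutArith
  Fermat.Agent.S55.Middle.LocalCycloSurj Fermat.Agent.S55.LM.ShapiroPerm
  Fermat.Agent.S55.Middle.InvArith

noncomputable section

variable (p : ℕ) [Fact p.Prime] (S : Finset Nat.Primes)

/-- the body of `Blocks.KG3 p S` at the level `ker χ_p` and the representatives `R` -/
def KG3At (R : Reps S (cycloChar p).ker) : Prop :=
  Module.Finite (ZMod p) ((siteOver S (cycloChar p).ker R).P2 (kP p (cycloChar p).ker) ⧸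
      LinearMap.range ((siteOver S (cycloChar p).ker R).loc₂ (kP p (cycloChar p).ker))) ∧
    finrank (ZMod p) ((siteOver S (cycloChar p).ker R).P2 (kP p (cycloChar p).ker) ⧸
      LinearMap.range ((siteOver S (cycloChar p).ker R).loc₂ (kP p (cycloChar p).ker))) ≤ 1

/-- the body of `Blocks.KNoSingleSupport p S` at the level `ker χ_p` and the representatives `R` -/
def KNssAt (R : Reps S (cycloChar p).ker) : Prop :=
  ∀ (x : H2 (basisP S (cycloChar p).ker) (kP p (cycloChar p).ker)) (i₀ : R.Idx),
    (∀ i : R.Idx, i ≠ i₀ →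
      ((siteOver S (cycloChar p).ker R).res (kP p (cycloChar p).ker) i).h2 x = 0) →
        ((siteOver S (cycloChar p).ker R).res (kP p (cycloChar p).ker) i₀).h2 x = 0

/-- the level `ker χ_p` -/
theorem level_ker (hpS : pPrime p ∈ S) : Level p S (cycloChar p).ker :=
  ⟨⟨_, ker_cycloChar_mem_globalBasis p hpS, le_rfl⟩, fun _ hg => hg⟩

theorem kG3At_of (hpS : pPrime p ∈ S) (hg : KG3 p S) (R : Reps S (cycloChar p).ker) :
    KG3At p S R := hg _ (level_ker p S hpS) R

theorem kNssAt_of (hpS : pPrime p ∈ S) (hn : KNoSingleSupport p S) (R : Reps S (cycloChar p).ker) :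
    KNssAt p S R := hn _ (level_ker p S hpS) R

/-- `KG3At` in the doubly indexed language -/
theorem g₃_transfer_at (R : Reps S (cycloChar p).ker) (h : KG3At p S R) :
    Module.Finite (ZMod p) (LocProd₂ (arithSite S) (cycloChar p).ker (kP p (cycloChar p).ker) R.T ⧸
        LinearMap.range (Lam₂ (arithSite S) (cycloChar p).ker (kP p (cycloChar p).ker) R.T)) ∧
      finrank (ZMod p) (LocProd₂ (arithSite S) (cycloChar p).ker (kP p (cycloChar p).ker) R.T ⧸
        LinearMap.range (Lam₂ (arithSite S) (cycloChar p).ker (kP p (cycloChar p).ker) R.T)) ≤ 1 := by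
  have E := cokerE S (cycloChar p).ker R (kP p (cycloChar p).ker)
  have h2 := E.finrank_eq
  have h3 := h.2
  have h1' := h.1
  have h5 := Module.Finite.equiv E
  rw [h2] at h3
  exact ⟨h5, h3⟩

/-- `KNssAt` in the doubly indexed language -/
theorem nssU_at (R : Reps S (cycloChar p).ker) (hn : KNssAt p S R) :
    NssU (arithSite S) (cycloChar p).ker (kP p (cycloChar p).ker) (T := R.T) := by
  intro x v0 t0 h
  exact hn x ⟨v0, t0⟩ (fun i hi => h i.1 i.2 hi)

set_option maxHeartbeats 1000000 in
/-- **(A-inv) for the arithmetic site** from `KG3` and `KNoSingleSupport` at the single normal level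
`ker χ_p` (and one system of representatives). -/
theorem invArith_of_ker (hpS : pPrime p ∈ S) (R : Reps S (cycloChar p).ker)
    (hg : KG3At p S R) (hn : KNssAt p S R) : InvArith p S := by
  have hU : (arithSite S).𝒰.mem (cycloChar p).ker := ker_cycloChar_mem_globalBasis p hpS
  have hV : (arithSite S).𝒰.IsOpen (cycloChar p).ker := ⟨_, hU, le_rfl⟩
  have hχ : TrivOn (cycloChar p) (cycloChar p).ker := trivOn_ker_cycloChar p
  have hfi : (cycloChar p).ker.FiniteIndex := (arithSite S).𝒰.finiteIndex hU
  have hT := isReps_of_reps S (cycloChar p).ker R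
  have hg3 := g₃_transfer_at p S R hg
  have E := cokerLoc₂Equiv (arithSite S) (cycloChar p).ker hV
    (Rep.trivial (ZMod p) (cycloChar p).ker (ZMod p)) (permIso (ZMod p) (cycloChar p).ker) hT
  have hfin : Module.Finite (ZMod p) ((arithSite S).P2 (perm (ZMod p) (cycloChar p).ker) ⧸
      LinearMap.range ((arithSite S).loc₂ (perm (ZMod p) (cycloChar p).ker))) :=
    @Module.Finite.equiv _ _ _ _ _ _ _ _ hg3.1 E.symm
  have hrank : finrank (ZMod p) ((arithSite S).P2 (perm (ZMod p) (cycloChar p).ker) ⧸
      LinearMap.range ((arithSite S).loc₂ (perm (ZMod p) (cycloChar p).ker))) ≤ 1 :=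
    E.finrank_eq.le.trans hg3.2
  have hns := hns_of_uLevel (arithSite S) (cycloChar p).ker
    (Rep.trivial (ZMod p) (cycloChar p).ker (ZMod p)) hV (permIso (ZMod p) (cycloChar p).ker) hT
    (nssU_at p S R hn) (nzU p S R)
  have h0 := PermResTransitive.finite_finrank_H2_res_perm_cyclo p (ZMod p)
    ((arithSite S).𝒱 ⟨pPrime p, hpS⟩) 1
    (Fermat.Agent.S55.LM.OutFinal.loc₂_arith p S ⟨pPrime p, hpS⟩
      ((cycloChar p).ker.comap (primeLocalToGlobal (pPrime p)))
      (comap_ker_mem_localBasis p (pPrime p)) (fun d hd => hd))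
  exact InvDescent.baseA_inv_of_perm_noSingleSupport (arithSite S) (cycloChar p) (cycloChar p).ker
    hU hχ (index_ker_cycloChar_ne_zero p) hfin hrank hns ⟨pPrime p, hpS⟩ h0.1 h0.2
    (Fermat.Agent.S55.LM.H2MuTwist.h2_mu_ne_zero_arith S p ⟨pPrime p, hpS⟩)

/-- the same with the representatives chosen inside -/
theorem invArith_of_ker' (hpS : pPrime p ∈ S)
    (h : ∀ R : Reps S (cycloChar p).ker, KG3At p S R ∧ KNssAt p S R) : InvArith p S := by
  have hfi : (cycloChar p).ker.FiniteIndex :=
    (arithSite S).𝒰.finiteIndex (ker_cycloChar_mem_globalBasis p hpS)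
  obtain ⟨R⟩ := nonempty_reps S (cycloChar p).ker
  exact invArith_of_ker p S hpS R (h R).1 (h R).2

end

end Fermat.Agent.S55.Middle.InvArithKer
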