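/-
S55 / Middle / M.inv — the FINAL (linear-algebra) step of `BaseA.inv` (helper16, second seat of
helper73 per helper55 #2070; = pieces (LA) + (DESC) of #2061).

* `exists_inv` (Mathlib only): `k` a field, `I` a nonempty finite index set, `H_v` nonzero
  `k`-spaces, `W ≤ Π_v H_v` of codimension `≤ 1` such that no element of `W` is supported at a single
  index `v` with nonzero value there.  Then there are NONZERO functionals `inv_v : H_v → k` with
  `Σ_v inv_v (x_v) = 0` for all `x ∈ W`.   (No hypothesis `dim H_v = 1` is needed.)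
* `inv_of_codim_of_nss` (Site language): for ANY `M : Rep k X.G` the conclusion of `BaseA.inv`
  (literally, with `M` in place of `mu χ`) from
    (a) `H²(Γ_v, M) ≠ 0` for all `v`,
    (b) `coker (loc₂ M)` finite of dimension `≤ 1`,
    (c) no single support: `(∀ w ≠ v, res_w x = 0) → res_v x = 0`.
-/
import Fermat.Agent.S55.Formal.Blocks
import Fermat.Agent.S55.Formal.HmidPi

set_option autoImplicit false
set_option linter.unusedSectionVars false

namespace Fermat.Agent.S55.Middle.InvLinAlg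

open Module Fermat.Agent.S55.Formal

section abstract

variable {k : Type*} [Field k] {I : Type*} [Fintype I] [DecidableEq I]
  {H : I → Type*} [∀ v, AddCommGroup (H v)] [∀ v, Module k (H v)]

/-- a vector supported at the single index `v` that lies in a subspace without single support
vanishes. -/
lemma single_notMem {W : Submodule k (∀ v, H v)}
    (hnss : ∀ v, ∀ x ∈ W, (∀ w, w ≠ v → x w = 0) → x v = 0) (v : I) {e : H v} (he : e ≠ 0) :
    (Pi.single v e : ∀ v, H v) ∉ W := by
  intro hmem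
  have := hnss v _ hmem (fun w hw => Pi.single_eq_of_ne hw e)
  rw [Pi.single_eq_same] at this
  exact he this

/-- **Linear algebra of the reciprocity law.**  `W ≤ Π_v H_v` of codimension `≤ 1`, every `H_v`
nonzero, and no element of `W` is supported at a single index with nonzero value there.  Then
`W` is contained in the kernel of `Σ_v inv_v` for suitable NONZERO functionals `inv_v` on `H_v`. -/
theorem exists_inv [Nonempty I] [∀ v, Nontrivial (H v)] (W : Submodule k (∀ v, H v))
    [Module.Finite k ((∀ v, H v) ⧸ W)] (hcodim : finrank k ((∀ v, H v) ⧸ W) ≤ 1)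
    (hnss : ∀ v, ∀ x ∈ W, (∀ w, w ≠ v → x w = 0) → x v = 0) :
    ∃ inv : ∀ v, H v →ₗ[k] k, (∀ v, inv v ≠ 0) ∧ ∀ x ∈ W, ∑ v, inv v (x v) = 0 := by
  classical
  -- the quotient is nonzero
  have hne : ∀ v, ∃ e : H v, e ≠ 0 := fun v => exists_ne 0
  obtain ⟨v₀⟩ := ‹Nonempty I›
  obtain ⟨e₀, he₀⟩ := hne v₀
  have hq0 : W.mkQ (Pi.single v₀ e₀) ≠ 0 := by
    rw [Ne, Submodule.mkQ_apply, Submodule.Quotient.mk_eq_zero]
    exact single_notMem hnss v₀ he₀
  have hpos : 0 < finrank k ((∀ v, H v) ⧸ W) := by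
    rw [Module.finrank_pos_iff_exists_ne_zero]
    exact ⟨_, hq0⟩
  have h1 : finrank k ((∀ v, H v) ⧸ W) = 1 := le_antisymm hcodim hpos
  -- identify the quotient with `k`
  let φ : ((∀ v, H v) ⧸ W) ≃ₗ[k] k :=
    LinearEquiv.ofFinrankEq _ _ (by rw [h1, Module.finrank_self])
  let lam : (∀ v, H v) →ₗ[k] k := φ.toLinearMap ∘ₗ W.mkQ
  have hlam : ∀ x, lam x = 0 ↔ x ∈ W := by
    intro x
    show φ (W.mkQ x) = 0 ↔ _
    rw [LinearEquiv.map_eq_zero_iff, Submodule.mkQ_apply, Submodule.Quotient.mk_eq_zero]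
  refine ⟨fun v => lam ∘ₗ LinearMap.single k H v, fun v hv => ?_, fun x hx => ?_⟩
  · obtain ⟨e, he⟩ := hne v
    have : lam (Pi.single v e) = 0 := by
      have := LinearMap.congr_fun hv e
      simpa using this
    exact single_notMem hnss v he ((hlam _).1 this)
  · have : ∑ v, (lam ∘ₗ LinearMap.single k H v) (x v) = lam x := by
      simp only [LinearMap.comp_apply, LinearMap.single_apply]
      rw [← map_sum]
      congr 1
      exact Finset.univ_sum_single x
    rw [this]
    exact (hlam x).2 hx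

end abstract

section site

variable {k : Type} [Field k] (X : Site) (M : Rep.{0, 0, 0} k X.G)

/-- `H²(G, M) → Π_v H²(Γ_v, M)`, componentwise restriction. -/
noncomputable def locPi : H2 X.𝒰 M →ₗ[k] ∀ v : X.I, H2 (X.𝒱 v) (X.loc M v) :=
  (X.P2equiv M).toLinearMap ∘ₗ X.loc₂ M

lemma locPi_apply (x : H2 X.𝒰 M) (v : X.I) : locPi X M x v = (X.res M v).h2 x :=
  X.P2equiv_loc₂ M x v

/-- the cokernel of `loc₂` in product form. -/
noncomputable def cokerEquiv :
    (X.P2 M ⧸ LinearMap.range (X.loc₂ M)) ≃ₗ[k]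
      ((∀ v : X.I, H2 (X.𝒱 v) (X.loc M v)) ⧸ LinearMap.range (locPi X M)) :=
  Submodule.Quotient.equiv _ _ (X.P2equiv M) (by
    rw [locPi, LinearMap.range_comp])

/-- **`BaseA.inv` from codimension `≤ 1` + no single support + nonvanishing of the local `H²`.** -/
theorem inv_of_codim_of_nss [Nonempty X.I]
    (hnt : ∀ v, Nontrivial (H2 (X.𝒱 v) (X.loc M v)))
    (hfin : Module.Finite k (X.P2 M ⧸ LinearMap.range (X.loc₂ M)))
    (hcodim : finrank k (X.P2 M ⧸ LinearMap.range (X.loc₂ M)) ≤ 1)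
    (hnss : ∀ (v : X.I) (x : H2 X.𝒰 M), (∀ w, w ≠ v → (X.res M w).h2 x = 0) →
      (X.res M v).h2 x = 0) :
    ∃ inv : ∀ v : X.I, H2 (X.𝒱 v) (X.loc M v) →ₗ[k] k,
      (∀ v, inv v ≠ 0) ∧ ∀ x : H2 X.𝒰 M, ∑ v, inv v ((X.res M v).h2 x) = 0 := by
  have : Module.Finite k
      ((∀ v : X.I, H2 (X.𝒱 v) (X.loc M v)) ⧸ LinearMap.range (locPi X M)) :=
    Module.Finite.equiv (cokerEquiv X M)
  have hc : finrank k
      ((∀ v : X.I, H2 (X.𝒱 v) (X.loc M v)) ⧸ LinearMap.range (locPi X M)) ≤ 1 := by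
    rw [← (cokerEquiv X M).finrank_eq]
    exact hcodim
  obtain ⟨inv, hinv, hsum⟩ := exists_inv (LinearMap.range (locPi X M)) hc (by
    rintro v _ ⟨x, rfl⟩ h
    rw [locPi_apply]
    refine hnss v x fun w hw => ?_
    rw [← locPi_apply]
    exact h w hw)
  refine ⟨inv, hinv, fun x => ?_⟩
  have := hsum _ ⟨x, rfl⟩
  simpa only [locPi_apply] using this

end site

end Fermat.Agent.S55.Middle.InvLinAlg
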