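/-
S55 / Middle / InvSummand (helper41): a MACKEY-FREE derivation of the field `inv` of `BaseA` /
`ULevel` (nonzero local invariants on `H²(Γ_v, k(χ))` with global reciprocity) from a RETRACT
`k(χ) ⊂⊕ B` (`B = k[G/ker χ]`, `MuSummand.exists_section`), in the abstract `Site` language.

Inputs, all about the permutation module `B`:
* (H1) `dim coker (loc₂ B) ≤ 1` (the field `g₃`);
* (H2) for every place `v` a local class `z_v ∈ H²(Γ_v, B)` such that the global class supported at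
  `v` with component `z_v` is NOT in the image of `loc₂ B` (K-level "no single support" + a nonzero
  local class);
* (H3) ONE place `v₀` at which `i_* : H²(Γ_{v₀}, k(χ)) → H²(Γ_{v₀}, B)` is surjective.

No restriction/corestriction and no dimension count for `H²(Γ_v, k(χ))` is needed: with
`Λ : P²(B) → k` the functional with kernel `im loc₂ B`, put `inv_v := Λ ∘ i_* ∘ single_v`.
-/
import Fermat.Agent.S55.Formal.PermCover
import Fermat.Agent.S55.Formal.HmidPi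
import Fermat.Agent.S55.Formal.Trace
import Fermat.Agent.S55.Formal.Blocks

set_option autoImplicit false

open CategoryTheory groupCohomology Module

namespace Fermat.Agent.S55.Middle.InvSummand

open Fermat.Agent.S55.Formal

noncomputable section

variable {k : Type} [Field k] (X : Site)

/-- `Π_v H²(Γ_v, A) → Π_v H²(Γ_v, B)` induced by a morphism of representations -/
abbrev p2 {A B : Rep.{0, 0, 0} k X.G} (φ : A ⟶ B) : X.P2 A →ₗ[k] X.P2 B :=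
  X.mapP2 (Mor.ofHom X.𝒰 φ) (fun _ => rfl)

/-- `H²(Γ_v, A) → H²(Γ_v, B)` induced by a morphism of representations -/
abbrev lh2 {A B : Rep.{0, 0, 0} k X.G} (φ : A ⟶ B) (v : X.I) :
    H2 (X.𝒱 v) (X.loc A v) →ₗ[k] H2 (X.𝒱 v) (X.loc B v) :=
  (X.locMor (Mor.ofHom X.𝒰 φ) (fun _ => rfl) v).h2

theorem P2equiv_p2 {A B : Rep.{0, 0, 0} k X.G} (φ : A ⟶ B) (y : X.P2 A) (v : X.I) :
    X.P2equiv B (p2 X φ y) v = lh2 X φ v (X.P2equiv A y v) := by
  obtain ⟨b, hb, rfl⟩ := Hmid.exists_of y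
  rfl

theorem p2_comp {A B C : Rep.{0, 0, 0} k X.G} (φ : A ⟶ B) (ψ : B ⟶ C) (y : X.P2 A) :
    p2 X (φ ≫ ψ) y = p2 X ψ (p2 X φ y) :=
  LinearMap.congr_fun ((PermCover.P2F (k := k) X).map_comp φ ψ) y

theorem p2_id {A : Rep.{0, 0, 0} k X.G} (y : X.P2 A) : p2 X (𝟙 A) y = y :=
  LinearMap.congr_fun ((PermCover.P2F (k := k) X).map_id A) y

theorem p2_loc₂ {A B : Rep.{0, 0, 0} k X.G} (φ : A ⟶ B) (x : H2 X.𝒰 A) :
    p2 X φ (X.loc₂ A x) = X.loc₂ B ((Mor.ofHom X.𝒰 φ).h2 x) :=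
  X.mapP2_loc₂ (Mor.ofHom X.𝒰 φ) (fun _ => rfl) x

/-- the class of `P²(A)` supported at `v` with component `z` -/
def single (A : Rep.{0, 0, 0} k X.G) (v : X.I) : H2 (X.𝒱 v) (X.loc A v) →ₗ[k] X.P2 A :=
  (X.P2equiv A).symm.toLinearMap ∘ₗ
    LinearMap.single k (fun w : X.I => H2 (X.𝒱 w) (X.loc A w)) v

theorem P2equiv_single (A : Rep.{0, 0, 0} k X.G) (v : X.I) (z : H2 (X.𝒱 v) (X.loc A v)) :
    X.P2equiv A (single X A v z) = Pi.single v z := by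
  simp [single]

theorem p2_single {A B : Rep.{0, 0, 0} k X.G} (φ : A ⟶ B) (v : X.I)
    (z : H2 (X.𝒱 v) (X.loc A v)) :
    p2 X φ (single X A v z) = single X B v (lh2 X φ v z) := by
  apply (X.P2equiv B).injective
  funext w
  rw [P2equiv_p2, P2equiv_single, P2equiv_single]
  by_cases h : w = v
  · subst h
    rw [Pi.single_eq_same, Pi.single_eq_same]
  · rw [Pi.single_eq_of_ne h, Pi.single_eq_of_ne h, map_zero]

theorem sum_single_res (A : Rep.{0, 0, 0} k X.G) (x : H2 X.𝒰 A) :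
    ∑ v, single X A v ((X.res A v).h2 x) = X.loc₂ A x := by
  apply (X.P2equiv A).injective
  rw [map_sum]
  funext w
  rw [Finset.sum_apply, X.P2equiv_loc₂]
  simp only [P2equiv_single]
  rw [← Finset.sum_apply, Finset.univ_sum_single (fun v => (X.res A v).h2 x)]

/-- a functional on `V` whose kernel is exactly `W`, when `V ⧸ W` is a line -/
theorem exists_functional {V : Type} [AddCommGroup V] [Module k V] (W : Submodule k V)
    [Module.Finite k (V ⧸ W)] (hle : finrank k (V ⧸ W) ≤ 1) (z₀ : V) (hz₀ : z₀ ∉ W) :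
    ∃ Λ : V →ₗ[k] k, ∀ y, Λ y = 0 ↔ y ∈ W := by
  have hq : W.mkQ z₀ ≠ 0 := fun h => hz₀ ((Submodule.Quotient.mk_eq_zero W).1 h)
  have hpos : 0 < finrank k (V ⧸ W) := Module.finrank_pos_iff_exists_ne_zero.2 ⟨_, hq⟩
  have h1 : finrank k (V ⧸ W) = finrank k k := by
    rw [Module.finrank_self]
    omega
  let e : (V ⧸ W) ≃ₗ[k] k := LinearEquiv.ofFinrankEq _ _ h1
  refine ⟨e.toLinearMap ∘ₗ W.mkQ, fun y => ?_⟩
  rw [LinearMap.comp_apply, LinearEquiv.coe_coe, LinearEquiv.map_eq_zero_iff,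
    Submodule.mkQ_apply, Submodule.Quotient.mk_eq_zero]

/-- a functional vanishing on `W = ker Λ` and agreeing with `Λ` at one point off `W` equals `Λ` -/
theorem functional_eq {V : Type} [AddCommGroup V] [Module k V] (W : Submodule k V)
    (Λ Φ : V →ₗ[k] k) (hΛ : ∀ y, Λ y = 0 ↔ y ∈ W) (hΦ : ∀ w ∈ W, Φ w = 0)
    (z₀ : V) (hz₀ : Λ z₀ ≠ 0) (h₀ : Φ z₀ = Λ z₀) (y : V) : Φ y = Λ y := by
  have hw : y - (Λ y / Λ z₀) • z₀ ∈ W := by
    rw [← hΛ, map_sub, map_smul, smul_eq_mul, div_mul_cancel₀ _ hz₀, sub_self]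
  have h1 : Φ (y - (Λ y / Λ z₀) • z₀) = 0 := hΦ _ hw
  rw [map_sub, map_smul, smul_eq_mul, h₀, div_mul_cancel₀ _ hz₀, sub_eq_zero] at h1
  exact h1

variable {X}

/-- the candidate local invariant attached to a functional `Λ` on `P²(B)` -/
def invOf {M B : Rep.{0, 0, 0} k X.G} (i : M ⟶ B) (Λ : X.P2 B →ₗ[k] k) (v : X.I) :
    H2 (X.𝒱 v) (X.loc M v) →ₗ[k] k :=
  Λ ∘ₗ (p2 X i ∘ₗ single X M v)

theorem invOf_apply {M B : Rep.{0, 0, 0} k X.G} (i : M ⟶ B) (Λ : X.P2 B →ₗ[k] k) (v : X.I)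
    (z : H2 (X.𝒱 v) (X.loc M v)) : invOf i Λ v z = Λ (p2 X i (single X M v z)) := rfl

/-- reciprocity for `invOf` as soon as `Λ` kills `im loc₂ B` -/
theorem sum_invOf {M B : Rep.{0, 0, 0} k X.G} (i : M ⟶ B) (Λ : X.P2 B →ₗ[k] k)
    (hΛ : ∀ w ∈ LinearMap.range (X.loc₂ B), Λ w = 0) (x : H2 X.𝒰 M) :
    ∑ v, invOf i Λ v ((X.res M v).h2 x) = 0 := by
  have h : ∑ v, invOf i Λ v ((X.res M v).h2 x) =
      Λ (p2 X i (∑ v, single X M v ((X.res M v).h2 x))) := by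
    rw [map_sum, map_sum]
    rfl
  rw [h, sum_single_res, p2_loc₂]
  exact hΛ _ ⟨_, rfl⟩

/-- `i_* r_*` fixes a class supported at a place where `i_*` is locally surjective -/
theorem p2_fix {M B : Rep.{0, 0, 0} k X.G} (i : M ⟶ B) (r : B ⟶ M) (hir : i ≫ r = 𝟙 M)
    (v₀ : X.I) (hv₀ : Function.Surjective (lh2 X i v₀)) (z₀ : H2 (X.𝒱 v₀) (X.loc B v₀)) :
    p2 X i (p2 X r (single X B v₀ z₀)) = single X B v₀ z₀ := by
  obtain ⟨y₀, hy₀⟩ := hv₀ z₀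
  rw [← hy₀, ← p2_single, ← p2_comp X i r, hir, p2_id]

/-- `i_* r_*` preserves `im loc₂ B` -/
theorem p2_ir_mem {M B : Rep.{0, 0, 0} k X.G} (i : M ⟶ B) (r : B ⟶ M)
    (w : X.P2 B) (hw : w ∈ LinearMap.range (X.loc₂ B)) :
    p2 X i (p2 X r w) ∈ LinearMap.range (X.loc₂ B) := by
  obtain ⟨x, rfl⟩ := hw
  rw [p2_loc₂, p2_loc₂]
  exact ⟨_, rfl⟩

/-- **BaseA.inv from a retract.**  `M` any coefficient module (for `BaseA`: `M = mu χ`), `B` a
module with `i : M ⟶ B`, `r : B ⟶ M`, `i ≫ r = 𝟙`. -/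
theorem inv_of_retract {M B : Rep.{0, 0, 0} k X.G} (i : M ⟶ B) (r : B ⟶ M) (hir : i ≫ r = 𝟙 M)
    (hfin : Module.Finite k (X.P2 B ⧸ LinearMap.range (X.loc₂ B)))
    (hle : finrank k (X.P2 B ⧸ LinearMap.range (X.loc₂ B)) ≤ 1)
    (hnss : ∀ v : X.I, ∃ z : H2 (X.𝒱 v) (X.loc B v),
      single X B v z ∉ LinearMap.range (X.loc₂ B))
    (v₀ : X.I) (hv₀ : Function.Surjective (lh2 X i v₀)) :
    ∃ inv : ∀ v : X.I, H2 (X.𝒱 v) (X.loc M v) →ₗ[k] k,
      (∀ v, inv v ≠ 0) ∧ ∀ x : H2 X.𝒰 M, ∑ v, inv v ((X.res M v).h2 x) = 0 := by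
  classical
  obtain ⟨z₀, hz₀⟩ := hnss v₀
  obtain ⟨Λ, hΛ⟩ := exists_functional (LinearMap.range (X.loc₂ B)) hle _ hz₀
  have hΛ₀ : Λ (single X B v₀ z₀) ≠ 0 := fun h => hz₀ ((hΛ _).1 h)
  have hfix := p2_fix i r hir v₀ hv₀ z₀
  -- hence `Λ ∘ i_* ∘ r_* = Λ`
  have hΛir : ∀ y : X.P2 B, Λ (p2 X i (p2 X r y)) = Λ y := by
    intro y
    exact functional_eq (LinearMap.range (X.loc₂ B)) Λ (Λ ∘ₗ (p2 X i ∘ₗ p2 X r)) hΛ
      (fun w hw => (hΛ _).2 (p2_ir_mem i r w hw)) _ hΛ₀ (congrArg Λ hfix) y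
  refine ⟨invOf i Λ, fun v => ?_, fun x => sum_invOf i Λ (fun w hw => (hΛ w).2 hw) x⟩
  obtain ⟨z, hz⟩ := hnss v
  have hne : Λ (single X B v z) ≠ 0 := fun h => hz ((hΛ _).1 h)
  intro h0
  apply hne
  rw [← hΛir, p2_single, ← invOf_apply, h0, LinearMap.zero_apply]

end

end Fermat.Agent.S55.Middle.InvSummand
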