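import Fermat.Agent.S55.Middle.KG2Asm
import Fermat.Agent.S55.Middle.Blocks2
import Fermat.Agent.S55.Middle.BlocksC1
import Fermat.Agent.S55.Middle.H1OSFinite
import Fermat.Agent.S55.Middle.CountP1
import Fermat.Agent.S55.Middle.MuIso

/-!
# S55 / Middle, row M.kg2.final: the two count hypotheses of `KG2Asm.kg2_of_counts` discharged

* **(b)** `countP1 : KG2Asm.CountP1 p S` — from helper65's `CountP1.card_P1_le` (`μ_p`-coefficients over
  `ℤ`, cardinality form) through `𝔽_p ≅ μ_p` over `P` (`MuIso.muIso`) and helper14's `ScalarsLC`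
  (`h1IntEquiv`, `h1IsoEquiv`, `finrank_le_of_addEquiv`).
* **(c)** `countSha2_of : (Kummer squares) → Blocks.HasseO p S → KG2Asm.CountSha2 p S` — from helper17's
  `Blocks2.card_sha2_le` (`#Ш²(𝔽_p) ≤ #(H¹_LC(P; O_S)/p)`), helper94's
  `H1OSFinite.exists_injective_H1_OS` (`H¹_LC(P; O_S) ↪ Cl_T(K)`, divisor model `KummerDim.ClT`), the
  comparison `KummerVS.ClS ↠ KummerDim.ClT` and `#(A/p) = #A[p]` for finite abelian groups.
* `kg2_of_hasse : 3 ≤ p → pPrime p ∈ S → (Kummer squares) → Blocks.HasseO p S → Blocks.KG2 p S`.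
-/

set_option autoImplicit false
set_option linter.unusedSectionVars false

open CategoryTheory groupCohomology ExtCitation Module
open scoped NumberField nonZeroDivisors

namespace Fermat.Agent.S55.Middle.KG2Final

/-! ### finite abelian groups: `p`-torsion and `p`-cotorsion -/

section Generic

variable (p : ℕ)

/-- `#(A/pA) = #A[p]` for a finite abelian group. -/
theorem card_quot_nsmul (A : Type*) [AddCommGroup A] [Finite A] :
    Nat.card (A ⧸ (nsmulAddMonoidHom (α := A) p).range) =
      Nat.card (nsmulAddMonoidHom (α := A) p).ker := by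
  set f : A →+ A := nsmulAddMonoidHom (α := A) p
  have h1 : Nat.card f.range * f.range.index = Nat.card A := f.range.card_mul_index
  have h2 : Nat.card f.ker * f.ker.index = Nat.card A := f.ker.card_mul_index
  rw [AddSubgroup.index_ker] at h2
  have h3 : 0 < Nat.card f.range := Nat.card_pos
  rw [← AddSubgroup.index_eq_card]
  have h4 : Nat.card f.range * f.range.index = Nat.card f.range * Nat.card f.ker := by
    rw [h1, ← h2, mul_comm]
  exact Nat.eq_of_mul_eq_mul_left h3 h4

/-- an injective homomorphism is injective on `p`-torsion. -/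
theorem card_ker_nsmul_le {H B : Type*} [AddCommGroup H] [AddCommGroup B] [Finite B]
    (ι : H →+ B) (hι : Function.Injective ι) :
    Nat.card (nsmulAddMonoidHom (α := H) p).ker ≤ Nat.card (nsmulAddMonoidHom (α := B) p).ker := by
  refine Nat.card_le_card_of_injective
    (fun x : (nsmulAddMonoidHom (α := H) p).ker =>
      (⟨ι x.1, by
        have hx : p • (x.1 : H) = 0 := x.2
        show p • ι x.1 = 0
        rw [← map_nsmul, hx, map_zero]⟩ : (nsmulAddMonoidHom (α := B) p).ker)) ?_
  intro x y h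
  exact Subtype.ext (hι (congrArg Subtype.val h))

/-- a surjective homomorphism is surjective modulo `p`. -/
theorem card_quot_nsmul_le {A B : Type*} [AddCommGroup A] [AddCommGroup B] [Finite A]
    (σ : A →+ B) (hσ : Function.Surjective σ) :
    Nat.card (B ⧸ (nsmulAddMonoidHom (α := B) p).range) ≤
      Nat.card (A ⧸ (nsmulAddMonoidHom (α := A) p).range) := by
  have hle : (nsmulAddMonoidHom (α := A) p).range ≤
      ((nsmulAddMonoidHom (α := B) p).range).comap σ := by
    rintro _ ⟨a, rfl⟩
    exact ⟨σ a, by simp⟩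
  refine Nat.card_le_card_of_surjective
    (QuotientAddGroup.map _ _ σ hle) ?_
  intro b
  obtain ⟨b, rfl⟩ := QuotientAddGroup.mk_surjective b
  obtain ⟨a, rfl⟩ := hσ b
  exact ⟨(a : A ⧸ _), rfl⟩

/-- **the chain**: `H ↪ B ↞ A` finite abelian groups ⇒ `#(H/pH) ≤ #A[p]`. -/
theorem card_quot_le_card_ker {H A B : Type*} [AddCommGroup H] [AddCommGroup A] [AddCommGroup B]
    [Finite A] (ι : H →+ B) (hι : Function.Injective ι) (σ : A →+ B)
    (hσ : Function.Surjective σ) :
    Nat.card (H ⧸ (nsmulAddMonoidHom (α := H) p).range) ≤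
      Nat.card (nsmulAddMonoidHom (α := A) p).ker := by
  have : Finite B := Finite.of_surjective σ hσ
  have : Finite H := Finite.of_injective ι hι
  calc Nat.card (H ⧸ (nsmulAddMonoidHom (α := H) p).range)
      = Nat.card (nsmulAddMonoidHom (α := H) p).ker := card_quot_nsmul p H
    _ ≤ Nat.card (nsmulAddMonoidHom (α := B) p).ker := card_ker_nsmul_le p ι hι
    _ = Nat.card (B ⧸ (nsmulAddMonoidHom (α := B) p).range) := (card_quot_nsmul p B).symm
    _ ≤ Nat.card (A ⧸ (nsmulAddMonoidHom (α := A) p).range) := card_quot_nsmul_le p σ hσ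
    _ = Nat.card (nsmulAddMonoidHom (α := A) p).ker := card_quot_nsmul p A

end Generic

/-! ### the two models of the `T`-class group: `KummerVS.ClS ↠ KummerDim.ClT` -/

section ClassGroups

open IsDedekindDomain Fermat.Agent.S55.Global

variable {R : Type*} [CommRing R] [IsDedekindDomain R] (K : Type*) [Field K] [Algebra R K]
  [IsFractionRing R K] (T : Set (HeightOneSpectrum R))

/-- the divisor off `T`, on the fractional ideal model of `Cl_T`. -/
noncomputable def clSToClT :
    KummerVS.ClS (R := R) K T →* Multiplicative (KummerDim.ClT (R := R) K T) :=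
  QuotientGroup.lift (KummerVS.NS K T)
    ((AddMonoidHom.toMultiplicative (QuotientAddGroup.mk' (KummerDim.divT K T).range)).comp
      (KummerDim.divFrac K T))
    (by
      refine sup_le ?_ ?_
      · rintro _ ⟨x, rfl⟩
        rw [MonoidHom.mem_ker, MonoidHom.comp_apply]
        apply Multiplicative.toAdd.injective
        change QuotientAddGroup.mk' (KummerDim.divT K T).range
          (Multiplicative.toAdd (KummerDim.divFrac K T (toPrincipalIdeal R K x))) = 0
        rw [KummerDim.divFrac_toPrincipalIdeal, QuotientAddGroup.mk'_apply,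
          QuotientAddGroup.eq_zero_iff]
        exact (KummerDim.divT K T).range.neg_mem ⟨_, rfl⟩
      · intro J hJ
        rw [MonoidHom.mem_ker, MonoidHom.comp_apply]
        have h0 : KummerDim.divFrac K T J = 1 := by
          apply Multiplicative.toAdd.injective
          ext v
          rw [KummerDim.divFrac_apply]
          exact hJ v.1 v.2
        rw [h0, map_one])

theorem clSToClT_surjective : Function.Surjective (clSToClT (R := R) K T) := by
  intro c
  obtain ⟨b, rfl⟩ := QuotientAddGroup.mk_surjective (Multiplicative.toAdd c)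
  obtain ⟨J, hJ⟩ := KummerDim.divFrac_surjective K T (Multiplicative.ofAdd b)
  refine ⟨QuotientGroup.mk J, ?_⟩
  show (AddMonoidHom.toMultiplicative (QuotientAddGroup.mk' (KummerDim.divT K T).range))
    (KummerDim.divFrac K T J) = _
  rw [hJ]
  rfl

/-- `#Cl_T[p]` in the divisor model is at most `#Cl_T[p]` in the ideal model (in fact equal). -/
theorem card_quot_le_card_clS [Finite (ClassGroup R)] (p : ℕ) {H : Type*} [AddCommGroup H]
    (ι : H →+ KummerDim.ClT (R := R) K T) (hι : Function.Injective ι) :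
    Nat.card (H ⧸ (nsmulAddMonoidHom (α := H) p).range) ≤
      Nat.card {x : KummerVS.ClS (R := R) K T // x ^ p = 1} := by
  have hfin : Finite (Additive (KummerVS.ClS (R := R) K T)) :=
    inferInstanceAs (Finite (KummerVS.ClS (R := R) K T))
  let σ : Additive (KummerVS.ClS (R := R) K T) →+ KummerDim.ClT (R := R) K T :=
    MonoidHom.toAdditiveLeft (clSToClT (R := R) K T)
  have hσ : Function.Surjective σ := by
    intro c
    obtain ⟨x, hx⟩ := clSToClT_surjective (R := R) K T (Multiplicative.ofAdd c)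
    refine ⟨Additive.ofMul x, ?_⟩
    show Multiplicative.toAdd (clSToClT (R := R) K T x) = c
    rw [hx]
    rfl
  have h := card_quot_le_card_ker (A := Additive (KummerVS.ClS (R := R) K T)) p ι hι σ hσ
  refine h.trans (le_of_eq ?_)
  refine Nat.card_congr
    { toFun := fun x => ⟨Additive.toMul x.1, by
        have hx : p • (x.1 : Additive (KummerVS.ClS (R := R) K T)) = 0 := x.2
        exact congrArg Additive.toMul hx⟩
      invFun := fun x => ⟨Additive.ofMul x.1, by
        show p • Additive.ofMul x.1 = 0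
        rw [← ofMul_pow, x.2]
        rfl⟩
      left_inv := fun x => rfl
      right_inv := fun x => rfl }

end ClassGroups

open Fermat.Agent.S55.Formal
open Fermat.Agent.S55.Formal.PreludeLC hiding GQ Qbar
open Fermat.Agent.S55.Middle.Defs Fermat.Agent.S55.Middle.KSite Fermat.Agent.S55.Middle.Blocks
open Fermat.Agent.S55.Bridge.ShapiroLC Fermat.Agent.S55.Bridge.ScalarsLC IsDedekindDomain

local instance instIsGaloisQbar_kg2f : IsGalois ℚ (AlgebraicClosure ℚ) :=
  Fermat.Agent.Lib.UnramifiedTrivial.isGalois_algebraicClosure_rat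

variable (p : ℕ) [hp : Fact p.Prime] (S : Finset Nat.Primes)

/-! ### count [b]: from `μ_p`-coefficients (cardinality) to `𝔽_p`-coefficients (dimension) -/

section CountB

/-- the local `H¹` of the `K`-site with `𝔽_p`- and with `μ_p`-coefficients agree. -/
noncomputable def h1LocEquiv {P : Subgroup GQ} (hχ : ∀ g ∈ P, cycloChar p g = 1) (R : Reps S P)
    (v : R.Idx) :
    H1 ((siteOver S P R).𝒱 v) ((siteOver S P R).loc (kP p P) v) ≃+
      H1 ((siteOver S P R).𝒱 v) ((siteOver S P R).loc (resP P (muP p)) v) :=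
  (h1IntEquiv ((siteOver S P R).𝒱 v) ((siteOver S P R).loc (kP p P) v)).trans
    (h1IsoEquiv ((siteOver S P R).𝒱 v)
      ((Rep.resFunctor (kappa P v.1.1 v.2.1)).mapIso (MuIso.muIso p P hχ))).toAddEquiv

/-- **count [b]**, in the literal shape consumed by `KG2Asm.kg2_of_counts`. -/
theorem countP1 : KG2Asm.CountP1 p S := by
  intro P hP R
  obtain ⟨hfin, hcard⟩ := CountP1.card_P1_le S P p hP.isOpen R
  have hlocfin : ∀ v : (siteOver S P R).I,
      Finite (H1 ((siteOver S P R).𝒱 v) ((siteOver S P R).loc (kP p P) v)) := fun v =>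
    haveI := (CountP1.card_H1_loc_le S P v.1.1 (v.2 : GQ) p hP.isOpen).1
    Finite.of_equiv _ (h1LocEquiv p S hP.triv R v).toEquiv.symm
  have hfin' : Finite ((siteOver S P R).P1 (kP p P)) :=
    SiteCard.finite_P1 (siteOver S P R) (kP p P)
  have hc : Nat.card ((siteOver S P R).P1 (kP p P)) =
      Nat.card ((siteOver S P R).P1 (resP P (muP p))) := by
    rw [SiteCard.card_P1, SiteCard.card_P1]
    exact Finset.prod_congr rfl fun v _ => Nat.card_congr (h1LocEquiv p S hP.triv R v).toEquiv
  refine ⟨(moduleFinite_iff_finite p).2 hfin', ?_⟩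
  rw [finrank_le_iff_card_le p, hc]
  exact hcard

end CountB

/-! ### count [c]: `p ^ dim Ш²(𝔽_p) ≤ #Cl_S(K₀)[p]` -/

section CountC

/-- Kummer squares exist at every level (constructed in `Middle/KummerSquare.lean`). -/
def HasKummerSq : Prop :=
  ∀ (P : Subgroup GQ), Level p S P → ∀ R : Reps S P, Nonempty (Blocks2.KummerSq p R)

/-- Hilbert 90 in class form: `H¹_LC(P; ℚ_Sˣ) = 0`. -/
theorem h1_KS_eq_zero (P : Subgroup GQ) (hP : IsOpenS S P) :
    ∀ z : H1 (basisP S P) (resP P (KS S)), z = 0 := by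
  intro z
  obtain ⟨b, hb, rfl⟩ := Hmid.exists_of z
  rw [Hmid.of_eq_zero_iff]
  exact BlocksC1.h90Kx S P hP b hb

/-- **count [c]** at `P = Gal(ℚ̄/K₀)`. -/
theorem countSha2_at (hsq : HasKummerSq p S) (hasse : Blocks.HasseO p S)
    (K₀ : IntermediateField ℚ Qbar) [NumberField K₀] (hK : K₀.IsUnramifiedOutside S)
    (hlev : Level p S K₀.fixingSubgroup) (R : Reps S K₀.fixingSubgroup) :
    Module.Finite (ZMod p) ↥((siteOver S K₀.fixingSubgroup R).sha2 (kP p K₀.fixingSubgroup)) ∧
      p ^ finrank (ZMod p) ↥((siteOver S K₀.fixingSubgroup R).sha2 (kP p K₀.fixingSubgroup)) ≤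
        Nat.card {x : KummerVS.ClS (R := 𝓞 K₀) K₀
          ((PlaceCount.placesFinset S K₀ : Finset (HeightOneSpectrum (𝓞 K₀))) :
            Set (HeightOneSpectrum (𝓞 K₀))) // x ^ p = 1} := by
  obtain ⟨Ksq⟩ := hsq K₀.fixingSubgroup hlev R
  have h90 := h1_KS_eq_zero S K₀.fixingSubgroup hlev.isOpen
  have hc := LESGlueV.isCont_subBasis (S := S) (H := K₀.fixingSubgroup)
  obtain ⟨ι, hι⟩ := H1OSFinite.exists_injective_H1_OS (basisP S K₀.fixingSubgroup) hc hK h90
  have hH1fin : Finite (H1 (basisP S K₀.fixingSubgroup) (resP K₀.fixingSubgroup (OS S))) :=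
    H1OSFinite.finite_H1_OS (basisP S K₀.fixingSubgroup) hc hK h90
  obtain ⟨hfin, hle⟩ := Blocks2.card_sha2_le Ksq
    (fun x hx hlt => hasse K₀.fixingSubgroup hlev R x 1 (by rwa [pow_one]) hlt)
  have hT : ((PlaceCount.placesFinset S K₀ : Finset (HeightOneSpectrum (𝓞 K₀))) :
      Set (HeightOneSpectrum (𝓞 K₀))) = SUnitDict.placesAbove K₀ S := by
    ext v
    rw [Finset.mem_coe, PlaceCount.mem_placesFinset]
  rw [hT]
  have h2 := card_quot_le_card_clS K₀ (SUnitDict.placesAbove K₀ S) p ι hι
  refine ⟨(moduleFinite_iff_finite p).2 hfin, ?_⟩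
  rw [← card_eq_pow_finrank p]
  exact hle.trans h2

end CountC

/-! ### `(K-G2)` -/

section Final

/-- the count at `P = Gal(ℚ̄/K₀)`. -/
theorem kg2At_fixingSubgroup (h3 : 3 ≤ p) (hpS : pPrime p ∈ S) (hsq : HasKummerSq p S)
    (hasse : Blocks.HasseO p S) (K₀ : IntermediateField ℚ Qbar) [NumberField K₀]
    (hK : K₀.IsUnramifiedOutside S) {ζ : K₀} (hζ : IsPrimitiveRoot ζ p)
    (hlev : Level p S K₀.fixingSubgroup) (R : Reps S K₀.fixingSubgroup) :
    KG2Asm.KG2At p S K₀.fixingSubgroup R := by
  obtain ⟨hP1fin, hP1le⟩ := countP1 p S K₀.fixingSubgroup hlev R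
  obtain ⟨hsha2fin, hsha2le⟩ := countSha2_at p S hsq hasse K₀ hK hlev R
  set SK := PlaceCount.placesFinset S K₀ with hSKdef
  have hSKsub : ((SK : Finset (HeightOneSpectrum (𝓞 K₀))) : Set (HeightOneSpectrum (𝓞 K₀))) ⊆
      Sha1Final.placesOver K₀ S := by
    intro v hv
    exact (PlaceCount.mem_placesFinset S K₀ v).1 (Finset.mem_coe.1 hv)
  obtain ⟨-, hsha1le⟩ := Sha1LC.finrank_sha1_le_kummerVS (p := p) S K₀ R h3 hK ⟨ζ, hζ⟩ _ hSKsub
  have hfin : Module.Finite (ZMod p) (H1 (basisP S K₀.fixingSubgroup) (kP p K₀.fixingSubgroup)) :=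
    FinH1.finite_H1_triv S p K₀.fixingSubgroup hlev.isOpen hlev.triv
  have ha := GlobalH1Count.relIndex_VS_le_pow_finrank (p := p) K₀ hζ S ⟨pPrime p, hpS, rfl⟩ hK SK
    (fun v hv => (PlaceCount.mem_placesFinset S K₀ v).1 hv)
  rw [KummerVS.relIndex_pPow_VS_numberField K₀ p SK hζ] at ha
  refine ⟨hP1fin, hsha2fin, ?_⟩
  exact KG2Asm.count_arith hp.out.one_lt ha
    (by rw [← PlaceCount.card_idx_eq_card_placesFinset R] ; exact hP1le)
    (PlaceCount.index_eq_two_mul K₀ h3 hζ) hsha1le hsha2le

/-- transport along `P = Gal(ℚ̄/K₀)`. -/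
theorem kg2At_of_eq (h3 : 3 ≤ p) (hpS : pPrime p ∈ S) (hsq : HasKummerSq p S)
    (hasse : Blocks.HasseO p S) (K₀ : IntermediateField ℚ Qbar) [NumberField K₀]
    (hK : K₀.IsUnramifiedOutside S) {ζ : K₀} (hζ : IsPrimitiveRoot ζ p) :
    ∀ (P : Subgroup GQ), K₀.fixingSubgroup = P → Level p S P → ∀ R : Reps S P,
      KG2Asm.KG2At p S P R := by
  intro P h
  subst h
  intro hlev R
  exact kg2At_fixingSubgroup p S h3 hpS hsq hasse K₀ hK hζ hlev R

/-- **(K-G2)** from the Kummer squares and the Hasse principle `(C3)` for `O_S`. Every count of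
`(C6)` is discharged. -/
theorem kg2_of_hasse (h3 : 3 ≤ p) (hpS : pPrime p ∈ S) (hsq : HasKummerSq p S)
    (hasse : Blocks.HasseO p S) : Blocks.KG2 p S := by
  intro P hP R
  obtain ⟨N₀, ⟨F₀, hF₀, -, rfl⟩, hle⟩ := hP.isOpen
  have := hF₀.1
  obtain ⟨hfix, hKle⟩ := GaloisLevel.fixingSubgroup_fixedField_of_le P hle
  have hK : (IntermediateField.fixedField P).IsUnramifiedOutside S :=
    IntermediateField.IsUnramifiedOutside.of_le hKle hF₀
  have : NumberField (IntermediateField.fixedField P) :=
    Bridge.Unram.numberField_of_finiteDimensional _ hK.1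
  have hcyc : GaloisLevelCyclo.cycloField p ≤ IntermediateField.fixedField P := by
    have h1 : P ≤ (GaloisLevelCyclo.cycloField p).fixingSubgroup := fun s hs =>
      (GaloisLevelCyclo.mem_fixingSubgroup_cycloField_iff (p := p) s).2 (hP.triv s hs)
    calc GaloisLevelCyclo.cycloField p
        = IntermediateField.fixedField (GaloisLevelCyclo.cycloField p).fixingSubgroup :=
          (InfiniteGalois.fixedField_fixingSubgroup _).symm
      _ ≤ IntermediateField.fixedField P := IntermediateField.fixedField_antitone h1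
  obtain ⟨ζ, hζ⟩ := FinH1.exists_primitiveRoot_of_le p hcyc
  exact kg2At_of_eq p S h3 hpS hsq hasse (IntermediateField.fixedField P) hK hζ P hfix hP R

end Final

end Fermat.Agent.S55.Middle.KG2Final
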