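/-
S55 / Middle / KummerSqCore (helper72): GENERIC CORE OF THE KUMMER SQUARE (`Blocks2.KummerSq`).

For a Kummer datum `ι : T ⟶ A` (`LocalLCCore.IsKummer 𝒰 A T c ι`: `A` smooth, `c`-divisible,
`ι` injective onto `A[c]`):

* `ses`            : `0 → T → A -c→ A → 0` is an `SES` of `Formal/CoefExactSmooth` (whole LC LES);
* `kappa`          : the connecting map `H¹_LC(A) → H²_LC(T)`;  `alpha_ker` (exactness at `H²(T)`),
                     `kappa_smul` (`κ (c • e) = 0`), `h1_pMul`, `h2_pMul`;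
* over `ℤ` with `T = toInt M`, `M : Rep (ZMod p) G`, `c = p`:
  `alphaZ : H2 𝒰 M →+ H2 𝒰 A`, `kappaZ : H1 𝒰 A →+ H2 𝒰 M` and the four fields
  `alphaZ_tors`, `alphaZ_surj`, `alphaZ_ker`, `kappaZ_nsmul` of `Blocks2.KummerSq` (in `ℕ`-smul form);
  `alphaZ_injective` when `Vanish₁ 𝒰 A` (the local `β`);
* `square` : naturality of `alphaZ` along a pair of `Mor`s (global → local) compatible with the
  Kummer maps: `β (r_M.h2 y) = r_A.h2 (α y)`.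
-/
import Mathlib
import Fermat.Agent.S55.Middle.LocalLCMain
import Fermat.Agent.S55.Formal.CoefExactSmooth
import Fermat.Agent.S55.Formal.Functor
import Fermat.Agent.S55.Bridge.ScalarsLC

set_option autoImplicit false
set_option linter.style.haveILetI false
set_option linter.unusedSectionVars false

open CategoryTheory

namespace Fermat.Agent.S55.Middle.KummerSqCore

open Fermat.Agent.S55.Formal Fermat.Agent.S55.Formal.CoefExactSmooth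
open Fermat.Agent.S55.Middle.LocalLCCore Fermat.Agent.S55.Middle.LocalLCMain
open Fermat.Agent.S55.Bridge.ScalarsLC

noncomputable section

/-! ### generic ring -/

section generic

variable {k : Type} [CommRing k] {G : Type} [Group G] {𝒰 : NBasis G} {A T : Rep.{0, 0, 0} k G}
  {c : k} {ι : T ⟶ A}

/-- the Kummer sequence `0 → T → A -c→ A → 0`. -/
theorem ses (h : IsKummer 𝒰 A T c ι) : SES 𝒰 ι (pMul A c) where
  inj := h.inj
  surj := h.pMul_surjective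
  exact := fun a => by
    rw [pMul_apply]
    exact h.tors a
  smooth := h.smooth

/-- multiplication by `c` on `H¹_LC(A)`. -/
theorem h1_pMul (x : H1 𝒰 A) : (Mor.ofHom 𝒰 (pMul A c)).h1 x = c • x := by
  obtain ⟨f, hf, rfl⟩ := Hmid.exists_of x
  rw [← Hmid.of_smul c hf]
  rfl

/-- multiplication by `c` on `H²_LC(A)`. -/
theorem h2_pMul (x : H2 𝒰 A) : (Mor.ofHom 𝒰 (pMul A c)).h2 x = c • x := by
  obtain ⟨f, hf, rfl⟩ := Hmid.exists_of x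
  rw [← Hmid.of_smul c hf]
  rfl

/-- the image of `H²_LC(T) → H²_LC(A)` is killed by `c`. -/
theorem smul_alpha (h : IsKummer 𝒰 A T c ι) (z : H2 𝒰 T) : c • (Mor.ofHom 𝒰 ι).h2 z = 0 := by
  rw [← h2_pMul]
  exact (exact_h2_h2 (ses h) _).2 ⟨z, rfl⟩

/-- the connecting map `κ : H¹_LC(A) → H²_LC(T)` of the Kummer sequence. -/
def kappa (h : IsKummer 𝒰 A T c ι) : H1 𝒰 A →ₗ[k] H2 𝒰 T := δ₁ (ses h)

/-- exactness at `H²_LC(T)`: the kernel of `α = ι_*` is the image of `κ`. -/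
theorem alpha_ker (h : IsKummer 𝒰 A T c ι) (y : H2 𝒰 T) (hy : (Mor.ofHom 𝒰 ι).h2 y = 0) :
    ∃ e : H1 𝒰 A, kappa h e = y :=
  (exact_δ₁_h2 (ses h) y).1 hy

/-- `α ∘ κ = 0`. -/
theorem alpha_kappa (h : IsKummer 𝒰 A T c ι) (e : H1 𝒰 A) :
    (Mor.ofHom 𝒰 ι).h2 (kappa h e) = 0 :=
  (exact_δ₁_h2 (ses h) _).2 ⟨e, rfl⟩

/-- `κ` kills `c • H¹_LC(A)`. -/
theorem kappa_smul (h : IsKummer 𝒰 A T c ι) (e : H1 𝒰 A) : kappa h (c • e) = 0 :=
  (exact_h1_δ₁ (ses h) _).2 ⟨e, h1_pMul e⟩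

/-- the kernel of `κ` is exactly `c • H¹_LC(A)`. -/
theorem kappa_eq_zero_iff (h : IsKummer 𝒰 A T c ι) (e : H1 𝒰 A) :
    kappa h e = 0 ↔ ∃ e' : H1 𝒰 A, c • e' = e := by
  rw [kappa, exact_h1_δ₁ (ses h) e]
  constructor
  · rintro ⟨e', he'⟩
    exact ⟨e', by rw [← he', h1_pMul]⟩
  · rintro ⟨e', he'⟩
    exact ⟨e', by rw [← he', h1_pMul]⟩

/-! #### the case `c = (p : k)`, `p : ℕ`: statements with `ℕ`-scalars -/

section natScalar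

variable {p : ℕ}

theorem alpha_tors_nat (h : IsKummer 𝒰 A T ((p : ℕ) : k) ι) (z : H2 𝒰 T) :
    p • (Mor.ofHom 𝒰 ι).h2 z = 0 := by
  rw [← Nat.cast_smul_eq_nsmul k]
  exact smul_alpha h z

theorem alpha_surj_nat (h : IsKummer 𝒰 A T ((p : ℕ) : k) ι) (x : H2 𝒰 A) (hx : p • x = 0) :
    ∃ t : H2 𝒰 T, (Mor.ofHom 𝒰 ι).h2 t = x :=
  h2_surjective_tors h x (by rw [Nat.cast_smul_eq_nsmul k]; exact hx)

theorem kappa_nsmul (h : IsKummer 𝒰 A T ((p : ℕ) : k) ι) (e : H1 𝒰 A) : kappa h (p • e) = 0 := by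
  rw [← Nat.cast_smul_eq_nsmul k]
  exact kappa_smul h e

theorem kappa_eq_zero_iff_nat (h : IsKummer 𝒰 A T ((p : ℕ) : k) ι) (e : H1 𝒰 A) :
    kappa h e = 0 ↔ ∃ e' : H1 𝒰 A, p • e' = e := by
  rw [kappa_eq_zero_iff]
  constructor
  · rintro ⟨e', he'⟩
    rw [Nat.cast_smul_eq_nsmul k] at he'
    exact ⟨e', he'⟩
  · rintro ⟨e', he'⟩
    exact ⟨e', by rw [Nat.cast_smul_eq_nsmul k]; exact he'⟩

end natScalar

/-! #### naturality -/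

section naturality

variable {D : Type} [Group D] {𝒱 : NBasis D} {A' T' : Rep.{0, 0, 0} k D} (ι' : T' ⟶ A')

/-- naturality of `ι_*` on `H²` along a pair of morphisms of situations over the same group
homomorphism, compatible with `ι`, `ι'`. -/
theorem h2_square (ι : T ⟶ A) (rT : Mor 𝒰 T 𝒱 T') (rA : Mor 𝒰 A 𝒱 A') (hf : rT.f = rA.f)
    (hφ : ∀ t : T, ι'.hom (rT.φ t) = rA.φ (ι.hom t)) (z : H2 𝒰 T) :
    (Mor.ofHom 𝒱 ι').h2 (rT.h2 z) = rA.h2 ((Mor.ofHom 𝒰 ι).h2 z) := by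
  have e : rT.comp (Mor.ofHom 𝒱 ι') = (Mor.ofHom 𝒰 ι).comp rA := by
    refine Functor.mor_ext ?_ (LinearMap.ext fun t => hφ t)
    show rT.f.comp (MonoidHom.id D) = (MonoidHom.id G).comp rA.f
    rw [MonoidHom.comp_id, MonoidHom.id_comp]
    exact hf
  have e1 := LinearMap.congr_fun (Functor.comp_h2 rT (Mor.ofHom 𝒱 ι')) z
  have e2 := LinearMap.congr_fun (Functor.comp_h2 (Mor.ofHom 𝒰 ι) rA) z
  simp only [LinearMap.comp_apply] at e1 e2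
  rw [← e1, ← e2, e]

end naturality

end generic

/-! ### `ℤ`-coefficients versus `ZMod p`-coefficients -/

section overZ

variable {G : Type} [Group G] {𝒰 : NBasis G} {A : Rep.{0, 0, 0} ℤ G} {p : ℕ}
  {M : Rep.{0, 0, 0} (ZMod p) G} {ι : toInt M ⟶ A}

/-- `α : H²_LC(M) → H²_LC(A)` for `M` over `ZMod p`. -/
def alphaZ (ι : toInt M ⟶ A) : H2 𝒰 M →+ H2 𝒰 A :=
  ((Mor.ofHom 𝒰 ι).h2 : H2 𝒰 (toInt M) →ₗ[ℤ] H2 𝒰 A).toAddMonoidHom.comp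
    (h2IntEquiv 𝒰 M).toAddMonoidHom

theorem alphaZ_apply (ι : toInt M ⟶ A) (y : H2 𝒰 M) :
    alphaZ (𝒰 := 𝒰) ι y = (Mor.ofHom 𝒰 ι).h2 (h2IntEquiv 𝒰 M y) := rfl

/-- `κ : H¹_LC(A) → H²_LC(M)` for `M` over `ZMod p`. -/
def kappaZ (h : IsKummer 𝒰 A (toInt M) ((p : ℕ) : ℤ) ι) : H1 𝒰 A →+ H2 𝒰 M :=
  (h2IntEquiv 𝒰 M).symm.toAddMonoidHom.comp (kappa h).toAddMonoidHom

theorem kappaZ_apply (h : IsKummer 𝒰 A (toInt M) ((p : ℕ) : ℤ) ι) (e : H1 𝒰 A) :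
    kappaZ h e = (h2IntEquiv 𝒰 M).symm (kappa h e) := rfl

theorem alphaZ_tors (h : IsKummer 𝒰 A (toInt M) ((p : ℕ) : ℤ) ι) (y : H2 𝒰 M) :
    p • alphaZ (𝒰 := 𝒰) ι y = 0 :=
  alpha_tors_nat h (h2IntEquiv 𝒰 M y)

theorem alphaZ_surj (h : IsKummer 𝒰 A (toInt M) ((p : ℕ) : ℤ) ι) (x : H2 𝒰 A)
    (hx : p • x = 0) : ∃ y, alphaZ (𝒰 := 𝒰) ι y = x := by
  obtain ⟨t, ht⟩ := alpha_surj_nat h x hx
  exact ⟨(h2IntEquiv 𝒰 M).symm t, by rw [alphaZ_apply, AddEquiv.apply_symm_apply, ht]⟩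

theorem alphaZ_ker (h : IsKummer 𝒰 A (toInt M) ((p : ℕ) : ℤ) ι) (y : H2 𝒰 M)
    (hy : alphaZ (𝒰 := 𝒰) ι y = 0) : ∃ e, kappaZ h e = y := by
  obtain ⟨e, he⟩ := alpha_ker h (h2IntEquiv 𝒰 M y) hy
  exact ⟨e, by rw [kappaZ_apply, he, AddEquiv.symm_apply_apply]⟩

theorem kappaZ_nsmul (h : IsKummer 𝒰 A (toInt M) ((p : ℕ) : ℤ) ι) (e : H1 𝒰 A) :
    kappaZ h (p • e) = 0 := by
  rw [kappaZ_apply, kappa_nsmul h e, map_zero]

/-- the kernel of `κ` is `p • H¹_LC(A)`. -/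
theorem kappaZ_eq_zero_iff (h : IsKummer 𝒰 A (toInt M) ((p : ℕ) : ℤ) ι) (e : H1 𝒰 A) :
    kappaZ h e = 0 ↔ ∃ e' : H1 𝒰 A, p • e' = e := by
  rw [kappaZ_apply, AddEquiv.map_eq_zero_iff, kappa_eq_zero_iff_nat]

theorem alphaZ_kappaZ (h : IsKummer 𝒰 A (toInt M) ((p : ℕ) : ℤ) ι) (e : H1 𝒰 A) :
    alphaZ (𝒰 := 𝒰) ι (kappaZ h e) = 0 := by
  rw [alphaZ_apply, kappaZ_apply, AddEquiv.apply_symm_apply]
  exact alpha_kappa h e

/-- `α` is injective when `H¹_LC(A) = 0` (the local leg `β`). -/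
theorem alphaZ_injective (h : IsKummer 𝒰 A (toInt M) ((p : ℕ) : ℤ) ι) (h1 : Vanish₁ 𝒰 A) :
    Function.Injective (alphaZ (𝒰 := 𝒰) ι) := fun _ _ hxy =>
  (h2IntEquiv 𝒰 M).injective (h2_injective h h1 hxy)

end overZ

/-! ### the square -/

section square

variable {G : Type} [Group G] {𝒰 : NBasis G} {A : Rep.{0, 0, 0} ℤ G} {p : ℕ}
  {M : Rep.{0, 0, 0} (ZMod p) G} (ι : toInt M ⟶ A)
variable {D : Type} [Group D] {𝒱 : NBasis D} {A' : Rep.{0, 0, 0} ℤ D}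
  {M' : Rep.{0, 0, 0} (ZMod p) D} (ι' : toInt M' ⟶ A')

/-- **naturality of `α`**: for localisation morphisms `rM` (on `𝔽_p`-coefficients) and `rA` (on
`ℤ`-coefficients) over the same group homomorphism and compatible with the Kummer maps,
`β (rM.h2 y) = rA.h2 (α y)`. -/
theorem square (rM : Mor 𝒰 M 𝒱 M') (rA : Mor 𝒰 A 𝒱 A') (hf : rM.f = rA.f)
    (hφ : ∀ m : M, ι'.hom (rM.φ m) = rA.φ (ι.hom m)) (y : H2 𝒰 M) :
    alphaZ (𝒰 := 𝒱) ι' (rM.h2 y) = rA.h2 (alphaZ (𝒰 := 𝒰) ι y) := by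
  rw [alphaZ_apply, alphaZ_apply, ← morToInt_h2]
  exact h2_square ι' ι (morToInt rM) rA hf hφ (h2IntEquiv 𝒰 M y)

end square

end

end Fermat.Agent.S55.Middle.KummerSqCore
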