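/-
S55 / MIDDLE block, row (R4) of helper17 #2117 (helper32): THE KUMMER SQUARE of the `K`-site.

For `P ≤ G_ℚ` on which the mod `p` cyclotomic character is trivial, `p ∈ S`, and representatives
`R : Reps S P` of the places of `K = ℚ̄^P` above `S`, we construct `kummerSq : Blocks2.KummerSq p R`:

* `α := j₂ ∘ (μ_p ≅ 𝔽_p) ∘ toInt : H²(P; 𝔽_p) → H²_LC(P; O_S)`   (`LESGlueV.j₂`, `MuIso.muIso`,
  `ScalarsLC.h2IntEquiv`), `κ := (transfer)⁻¹ ∘ k₁ : H¹_LC(P; O_S) → H²(P; 𝔽_p)`; the four exactness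
  fields are the Kummer long exact sequence of `LESGlueV` over `basisP S P`;
* `β i := KummerBeta.betaTriv (iotaLoc i)` with the local Kummer datum
  `iotaLoc i : 𝔽_p ≅ μ_p ⊂ ℚ̄ˣ → Ω_qˣ`, `x ↦ padicEmbedding q (t⁻¹ x)` (`KSite.locMu`), which is nonzero
  because the coefficient map is injective; injectivity / image = `p`-torsion are helper72's
  `KummerBeta.betaTriv_injective / betaTriv_range` (local Hilbert 90);
* `sq`: both sides are `h2` of ONE morphism of situations `(P, 𝔽_p) → (D_i, Ω_qˣ)` (`mor_eq`, by `rfl`).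

Consequences: `nonempty_kummerSq` (the hypothesis `hsq` of `Blocks2.kNSS_of / kG3_of`),
`kNSS_of_imageNSS`, `kG3_of_imageG3`.
-/
import Fermat.Agent.S55.Middle.Blocks2
import Fermat.Agent.S55.Middle.MuIso
import Fermat.Agent.S55.Middle.LESGlueV
import Fermat.Agent.S55.LM.KummerBeta
import Fermat.Agent.S55.Formal.Functor

set_option autoImplicit false
set_option linter.unusedSectionVars false

open CategoryTheory groupCohomology ExtCitation Module

namespace Fermat.Agent.S55.Middle.KummerSquareB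

noncomputable section

open Fermat.Agent.S55.Formal
open Fermat.Agent.S55.Formal.PreludeLC hiding GQ Qbar
open Fermat.Agent.S55.Middle.Defs Fermat.Agent.S55.Middle.KSite Fermat.Agent.S55.Middle.Blocks
open Fermat.Agent.S55.Middle.Blocks2
open Fermat.Agent.S55.Bridge.ScalarsLC

attribute [local instance] Fermat.Agent.S55.LM.Defs.fact_q

variable (p : ℕ) [Fact p.Prime] (S : Finset Nat.Primes) (hpS : pPrime p ∈ S)
variable {P : Subgroup GQ} (hχ : ∀ g ∈ P, cycloChar p g = 1)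

/-- the transfer `H²(P; 𝔽_p) ≃ H²_LC(P; μ_p)` -/
def tr₂ : H2 (basisP S P) (kP p P) ≃+ H2 (basisP S P) (resP P (muP p)) :=
  (h2IntEquiv (basisP S P) (kP p P)).trans
    (h2IsoEquiv (basisP S P) (MuIso.muIso p P hχ)).toAddEquiv

/-- `α : H²(P; 𝔽_p) → H²_LC(P; O_S)` -/
def alpha : H2 (basisP S P) (kP p P) →+ H2 (basisP S P) (resP P (OS S)) :=
  (LESGlueV.j₂ S P (basisP S P) p hpS).comp (tr₂ p S hχ).toAddMonoidHom

/-- `κ : H¹_LC(P; O_S) → H²(P; 𝔽_p)` -/
def kap : H1 (basisP S P) (resP P (OS S)) →+ H2 (basisP S P) (kP p P) :=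
  (tr₂ p S hχ).symm.toAddMonoidHom.comp (LESGlueV.k₁ p hpS (LESGlueV.isCont_subBasis S P))

theorem alpha_tors (y : H2 (basisP S P) (kP p P)) : p • alpha p S hpS hχ y = 0 :=
  LESGlueV.nsmul_j₂ p hpS (LESGlueV.isCont_subBasis S P) _

theorem alpha_surj (x : H2 (basisP S P) (resP P (OS S))) (hx : p • x = 0) :
    ∃ y, alpha p S hpS hχ y = x := by
  obtain ⟨y, hy⟩ := LESGlueV.exists_j₂_of_nsmul p hpS (LESGlueV.isCont_subBasis S P) x hx
  exact ⟨(tr₂ p S hχ).symm y, by
    show LESGlueV.j₂ S P (basisP S P) p hpS ((tr₂ p S hχ) ((tr₂ p S hχ).symm y)) = x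
    rw [AddEquiv.apply_symm_apply, hy]⟩

theorem alpha_ker (y : H2 (basisP S P) (kP p P)) (hy : alpha p S hpS hχ y = 0) :
    ∃ e, kap p S hpS hχ e = y := by
  obtain ⟨e, he⟩ := LESGlueV.exists_k₁_of_j₂ p hpS (LESGlueV.isCont_subBasis S P) _ hy
  exact ⟨e, by
    show (tr₂ p S hχ).symm (LESGlueV.k₁ p hpS (LESGlueV.isCont_subBasis S P) e) = y
    rw [he]
    exact (tr₂ p S hχ).symm_apply_apply y⟩

theorem kap_nsmul (e : H1 (basisP S P) (resP P (OS S))) : kap p S hpS hχ (p • e) = 0 := by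
  show (tr₂ p S hχ).symm (LESGlueV.k₁ p hpS (LESGlueV.isCont_subBasis S P) (p • e)) = 0
  rw [LESGlueV.k₁_nsmul, map_zero]

/-! ### the local leg -/

section Local

variable (q : Nat.Primes) (t : GQ)

/-- `x ↦ padicEmbedding q (t⁻¹ x)` is injective on units. -/
theorem embUnits_injective : Function.Injective (embUnits q t) := by
  intro x y h
  have h1 := congrArg (fun u : (Fermat.Agent.S55.LM.Defs.Om q)ˣ => (u : PadicAlgCl (q : ℕ))) h
  simp only [coe_embUnits] at h1
  have h2 := (padicEmbedding (q : ℕ) : Qbar →ₐ[ℚ] PadicAlgCl (q : ℕ)).injective h1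
  exact Units.ext ((t⁻¹ : GQ).injective h2)

theorem embLin_injective : Function.Injective (embLin q t) := by
  intro x y h
  have h1 : embUnits q t (toUnit x) = embUnits q t (toUnit y) := by
    rw [← toU_embLin, ← toU_embLin, h]
  exact embUnits_injective q t h1

theorem locMu_φ_apply (x : resP P (muP p)) :
    (locMu S P q t p).φ x = embLin q t (MuIso.valMu p x) := rfl

theorem locMu_φ_injective : Function.Injective (locMu S P q t p).φ := by
  intro x y h
  rw [locMu_φ_apply, locMu_φ_apply] at h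
  exact MuIso.valMu_injective p (embLin_injective q t h)

/-- the underlying linear map of the local Kummer datum: `𝔽_p ≅ μ_p → Ω_q^×`. -/
def iotaLin : toInt (Rep.trivial (ZMod p) ↥P (ZMod p)) →ₗ[ℤ]
    Fermat.Agent.S55.LM.Defs.Ox q (Dloc P q t) :=
  (locMu S P q t p).φ ∘ₗ (MuIso.muIso p P hχ).hom.hom.toLinearMap

theorem iotaLin_apply (z : toInt (Rep.trivial (ZMod p) ↥P (ZMod p))) :
    iotaLin p S hχ q t z = (locMu S P q t p).φ ((MuIso.muIso p P hχ).hom.hom z) := rfl

theorem iotaLin_injective : Function.Injective (iotaLin p S hχ q t) := by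
  intro x y h
  have h1 := locMu_φ_injective p S q t h
  have h2 := congrArg (MuIso.muIso p P hχ).inv.hom h1
  have e := iso_inv_hom_apply' (MuIso.muIso p P hχ)
  have h3 : (MuIso.muIso p P hχ).inv.hom ((MuIso.muIso p P hχ).hom.hom x) =
      (MuIso.muIso p P hχ).inv.hom ((MuIso.muIso p P hχ).hom.hom y) := h2
  rwa [e, e] at h3

/-- the carrier of `𝔽_p` over `P`, as the carrier of `𝔽_p` over the local group -/
def toT0 (z : ZMod p) : toInt (Rep.trivial (ZMod p) ↥P (ZMod p)) := z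

/-- **the local Kummer datum** `ι : 𝔽_p → Ω_q^×` at the place `(q, t)` of the `K`-site -/
def iotaLoc : Fermat.Agent.S55.LM.OutGlue.Tp (Dloc P q t) p ⟶
    Fermat.Agent.S55.LM.Defs.Ox q (Dloc P q t) :=
  Fermat.Agent.S55.LM.KummerTriv.mkHom _ _ (iotaLin p S hχ q t).toAddMonoidHom
    (fun c z => (iotaLin p S hχ q t).map_smul c z)
    (fun d z => by
      have h1 := (locMu S P q t p).equivar d ((MuIso.muIso p P hχ).hom.hom (toT0 p (P := P) z))
      have h2 := Rep.hom_comm_apply (MuIso.muIso p P hχ).hom ((locMu S P q t p).f d)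
        (toT0 p (P := P) z)
      show iotaLin p S hχ q t (toT0 p z) =
        (Fermat.Agent.S55.LM.Defs.Ox q (Dloc P q t)).ρ d (iotaLin p S hχ q t (toT0 p z))
      rw [iotaLin_apply, ← h1, ← h2]
      rfl)

theorem iotaLoc_apply (z : ZMod p) :
    (iotaLoc p S hχ q t).hom z = iotaLin p S hχ q t (toT0 p z) := rfl

theorem iotaLoc_one_ne_zero : (iotaLoc p S hχ q t).hom (1 : ZMod p) ≠ 0 := by
  intro h
  have h0 : iotaLin p S hχ q t (toT0 p (1 : ZMod p)) = iotaLin p S hχ q t (toT0 p (0 : ZMod p)) := by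
    rw [← iotaLoc_apply, h]; exact (map_zero (iotaLin p S hχ q t)).symm
  have h1 : (1 : ZMod p) = 0 := iotaLin_injective p S hχ q t h0
  exact one_ne_zero h1

theorem isKummer_iotaLoc :
    Fermat.Agent.S55.Middle.LocalLCCore.IsKummer (Fermat.Agent.S55.LM.Defs.VP q (Dloc P q t))
      (Fermat.Agent.S55.LM.Defs.Ox q (Dloc P q t))
      (Fermat.Agent.S55.LM.OutGlue.Tp (Dloc P q t) p) ((p : ℕ) : ℤ) (iotaLoc p S hχ q t) :=
  Fermat.Agent.S55.LM.KummerBeta.isKummer_of_ne_zero q p (Dloc P q t) _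
    (iotaLoc_one_ne_zero p S hχ q t)

end Local

/-! ### the square -/

section Square

variable (R : Reps S P)

/-- `β i : H²(D_i; 𝔽_p) → H²_LC(D_i; Ω^×)` -/
def beta (i : R.Idx) : H2Loc p R i →+ BrLoc R i :=
  Fermat.Agent.S55.LM.KummerBeta.betaTriv (iotaLoc p S hχ i.1.1 i.2.1)

theorem beta_injective (i : R.Idx) : Function.Injective (beta p S hχ R i) :=
  Fermat.Agent.S55.LM.KummerBeta.betaTriv_injective (isKummer_iotaLoc p S hχ i.1.1 i.2.1)

theorem beta_surj (i : R.Idx) (a : BrLoc R i) (ha : p • a = 0) : ∃ b, beta p S hχ R i b = a := by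
  apply Fermat.Agent.S55.LM.KummerBeta.betaTriv_range (isKummer_iotaLoc p S hχ i.1.1 i.2.1) a
  rw [natCast_zsmul]
  exact ha

theorem alpha_apply (y : H2 (basisP S P) (kP p P)) :
    alpha p S hpS hχ y = (Mor.ofHom (basisP S P) (LESGlueV.φj S P p hpS)).h2
      ((Mor.ofHom (basisP S P) (MuIso.muIso p P hχ).hom).h2
        (h2IntEquiv (basisP S P) (kP p P) y)) := rfl

theorem beta_apply (i : R.Idx) (b : H2Loc p R i) :
    beta p S hχ R i b =
      (Mor.ofHom (Fermat.Agent.S55.LM.Defs.VP i.1.1 (Dloc P i.1.1 i.2.1))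
        (iotaLoc p S hχ i.1.1 i.2.1)).h2
        (h2IntEquiv ((siteOver S P R).𝒱 i) ((siteOver S P R).loc (kP p P) i) b) := rfl

/-- the two composite morphisms of situations `(P, 𝔽_p) → (D_i, Ω^×)` agree -/
theorem mor_eq (i : R.Idx) :
    ((morToInt ((siteOver S P R).res (kP p P) i)).comp
      (Mor.ofHom (Fermat.Agent.S55.LM.Defs.VP i.1.1 (Dloc P i.1.1 i.2.1))
        (iotaLoc p S hχ i.1.1 i.2.1)) :
      Mor (basisP S P) (toInt (kP p P)) (basisLoc P i.1.1 i.2.1)
        (Fermat.Agent.S55.LM.Defs.Ox i.1.1 (Dloc P i.1.1 i.2.1))) =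
    (Mor.ofHom (basisP S P) (MuIso.muIso p P hχ).hom).comp
      ((Mor.ofHom (basisP S P) (LESGlueV.φj S P p hpS)).comp (locOS S P i.1.1 i.2.1)) :=
  Fermat.Agent.S55.Formal.Functor.mor_ext rfl (LinearMap.ext fun _ => rfl)

/-- **the Kummer square commutes** -/
theorem sq (i : R.Idx) (y : H2 (basisP S P) (kP p P)) :
    beta p S hχ R i (((siteOver S P R).res (kP p P) i).h2 y) =
      (locOS S P i.1.1 i.2.1).h2 (alpha p S hpS hχ y) := by
  have h1 := Fermat.Agent.S55.Formal.Functor.comp_h2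
    (morToInt ((siteOver S P R).res (kP p P) i))
    (Mor.ofHom (Fermat.Agent.S55.LM.Defs.VP i.1.1 (Dloc P i.1.1 i.2.1))
      (iotaLoc p S hχ i.1.1 i.2.1))
  have h2 := Fermat.Agent.S55.Formal.Functor.comp_h2
    (Mor.ofHom (basisP S P) (LESGlueV.φj S P p hpS)) (locOS S P i.1.1 i.2.1)
  have h3 := Fermat.Agent.S55.Formal.Functor.comp_h2
    (Mor.ofHom (basisP S P) (MuIso.muIso p P hχ).hom)
    ((Mor.ofHom (basisP S P) (LESGlueV.φj S P p hpS)).comp (locOS S P i.1.1 i.2.1))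
  have e1 := LinearMap.congr_fun h1 (h2IntEquiv (basisP S P) (kP p P) y)
  have e3 := LinearMap.congr_fun h3 (h2IntEquiv (basisP S P) (kP p P) y)
  have e2 := LinearMap.congr_fun h2 ((Mor.ofHom (basisP S P) (MuIso.muIso p P hχ).hom).h2
    (h2IntEquiv (basisP S P) (kP p P) y))
  have e4 := congrArg (fun M : Mor (basisP S P) (toInt (kP p P)) (basisLoc P i.1.1 i.2.1)
      (Fermat.Agent.S55.LM.Defs.Ox i.1.1 (Dloc P i.1.1 i.2.1)) =>
        M.h2 (h2IntEquiv (basisP S P) (kP p P) y)) (mor_eq p S hpS hχ R i)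
  have e0 := morToInt_h2 ((siteOver S P R).res (kP p P) i) y
  refine (beta_apply p S hχ R i _).trans ?_
  refine Eq.trans ?_ (congrArg (locOS S P i.1.1 i.2.1).h2 (alpha_apply p S hpS hχ y)).symm
  refine (congrArg _ e0.symm).trans ?_
  exact e1.symm.trans (e4.trans (e3.trans e2))

end Square

/-! ### the structure -/

/-- **The Kummer square of the `K`-site** `(P, R)`, `μ_p ⊂ K = ℚ̄^P`, `p ∈ S`. -/
def kummerSq (R : Reps S P) : KummerSq p R where
  α := alpha p S hpS hχ
  κ := kap p S hpS hχ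
  β := beta p S hχ R
  α_tors := alpha_tors p S hpS hχ
  α_surj := alpha_surj p S hpS hχ
  α_ker := alpha_ker p S hpS hχ
  κ_nsmul := kap_nsmul p S hpS hχ
  β_inj := beta_injective p S hχ R
  β_surj := beta_surj p S hχ R
  sq := sq p S hpS hχ R

include hpS in
/-- the hypothesis `hsq` of `Blocks2.kNSS_of`, `Blocks2.kG3_of` (and of the `Ш²`-count) -/
theorem nonempty_kummerSq :
    ∀ (P : Subgroup GQ), Level p S P → ∀ R : Reps S P, Nonempty (KummerSq p R) :=
  fun _ hP R => ⟨kummerSq p S hpS hP.triv R⟩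

include hpS in
/-- `Blocks.KNoSingleSupport` from (C4-NSS) alone. -/
theorem kNSS_of_imageNSS (h : ImageNSS p S) : KNoSingleSupport p S :=
  kNSS_of p S (nonempty_kummerSq p S hpS) h

include hpS in
/-- `Blocks.KG3` from (C4-G3) alone. -/
theorem kG3_of_imageG3 (h : ImageG3 p S) : KG3 p S :=
  kG3_of p S (nonempty_kummerSq p S hpS) h

end

end Fermat.Agent.S55.Middle.KummerSquareB
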