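/-
S55 / MIDDLE block, (C4) hub: THE THREE CLOSED PROPS (helper14, on top of helper34's
`ImageHubClosed` and the constructor `LevelDatumInst.nonempty_levelDatum`).

* `hasLevelData hp2 hpS : ImageHubClosed.HasLevelData p S`;
* `imageNSSN hp2 hpS : Blocks3.ImageNSSN p S`;
* `imageG3N hp2 hpS : Blocks3.ImageG3N p S`;
* `h2ODivisibleT hp2 hpS : Blocks3.H2ODivisibleT p S`.
-/
import Fermat.Agent.S55.Middle.ImageHubClosed
import Fermat.Agent.S55.Middle.LevelDatumInst

set_option autoImplicit false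
set_option linter.unusedSectionVars false

open CategoryTheory groupCohomology ExtCitation

namespace Fermat.Agent.S55.Middle.LevelDatumClosed

open Fermat.Agent.S55.Formal
open Fermat.Agent.S55.Formal.PreludeLC hiding GQ Qbar
open Fermat.Agent.S55.Middle.Defs

variable {p : ℕ} [Fact p.Prime] {S : Finset Nat.Primes}

/-- **the constructor of the hub**, closed. -/
theorem hasLevelData (hp2 : p ≠ 2) (hpS : pPrime p ∈ S) : ImageHubClosed.HasLevelData p S :=
  fun _ hP hT _ R k => LevelDatumInst.nonempty_levelDatum hp2 hpS hP hT R k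

/-- **(C4-NSS), normal levels, CLOSED.** -/
theorem imageNSSN (hp2 : p ≠ 2) (hpS : pPrime p ∈ S) : Blocks3.ImageNSSN p S :=
  ImageHubClosed.imageNSSN_of hp2 (hasLevelData hp2 hpS)

/-- **(C4-G3), normal levels, CLOSED.** -/
theorem imageG3N (hp2 : p ≠ 2) (hpS : pPrime p ∈ S) : Blocks3.ImageG3N p S :=
  ImageHubClosed.imageG3N_of hp2 hpS (hasLevelData hp2 hpS)

/-- **(C4), divisibility, Sylow-type levels, CLOSED.** -/
theorem h2ODivisibleT (hp2 : p ≠ 2) (hpS : pPrime p ∈ S) : Blocks3.H2ODivisibleT p S :=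
  ImageHubClosed.h2ODivisibleT_of hp2 hpS (hasLevelData hp2 hpS)

end Fermat.Agent.S55.Middle.LevelDatumClosed
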