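/-
S55 / Middle / ROW (LOC-S) supplier (helper79): helper39's `Coh/SemilocalExplicit.locH_eq_zero_iff`
instantiated at `F := Kq K eL = Blocks3.Kloc K q (idealQ (eL|_K))` LITERALLY, through the instances of
`Middle/SemilocalCompareRel` (`fieldKq`, `algebraKqOmega`; the `K`-algebra structure on `PadicAlgCl q`
is supplied internally by `letI`).

* `decHom K eL : Gal(K_𝔪(eL L)/K_𝔪) →* Gal(L/K)` with `decHom_spec : eL (decHom σ l) = σ (eL l)`;
* `decCoeff K eL : Res Lˣ ⟶ K_𝔪(eL L)ˣ` (`x ↦ eL x`);
* `locH_Kq_eq_zero_iff : locH K L (Kq K eL) 2 x = 0 ↔ map (decHom K eL) (decCoeff K eL) 2 x = 0`.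
-/
import Mathlib
import Fermat.Agent.S55.Middle.SemilocalCompareRel
import Fermat.Agent.S55.Coh.SemilocalExplicit

set_option autoImplicit false
set_option linter.unusedSectionVars false
set_option linter.style.haveILetI false
set_option synthInstance.maxHeartbeats 200000

namespace Fermat.Agent.S55.Middle.LocCompareRel

open CategoryTheory groupCohomology
open scoped TensorProduct Pointwise NumberField
open Fermat.Agent.S55.Global.SemilocalDecomp
open Fermat.Agent.S55.Global.Objects Fermat.Agent.S55.Global.Blocks3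
open Fermat.Agent.S55.Middle.CompletionCompare
open Fermat.Agent.S55.Middle.SemilocalCompare
open Fermat.Agent.S55.Middle.SemilocalCompareRel
open Fermat.Agent.S55.Coh.SemilocalExplicit

attribute [local instance] Algebra.TensorProduct.rightAlgebra
attribute [local instance] stabQuotAction
attribute [local instance] fieldKq algebraKqOmega

variable {q : ℕ} [Fact q.Prime]
variable (K : Type) {L : Type} [Field K] [NumberField K] [Field L] [NumberField L] [Algebra K L]
  [IsGalois K L]
variable (eL : L →+* PadicAlgCl q)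

/-- `Gal(K_𝔪(eL L)/K_𝔪) →* Gal(L/K)`, `σ ↦ g` with `eL ∘ g = σ ∘ eL`. -/
noncomputable def decHom : (fieldRel K eL ≃ₐ[Kq K eL] fieldRel K eL) →* (L ≃ₐ[K] L) :=
  letI := algebraKOmega K eL
  haveI := isScalarTower_K_Kq_Omega K eL
  jGenGroupHom K L (Kq K eL) (embK K eL)

theorem decHom_spec (σ : fieldRel K eL ≃ₐ[Kq K eL] fieldRel K eL) (l : L) :
    eL (decHom K eL σ l) = ((σ (toFieldRel K eL l) : fieldRel K eL) : PadicAlgCl q) := by
  letI := algebraKOmega K eL
  haveI := isScalarTower_K_Kq_Omega K eL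
  exact jGenGroupHom_spec K L (Kq K eL) (embK K eL) σ l

/-- `Res Lˣ ⟶ K_𝔪(eL L)ˣ`, `x ↦ eL x`. -/
noncomputable def decCoeff :
    Rep.res (decHom K eL) (Rep.ofAlgebraAutOnUnits K L) ⟶
      Rep.ofAlgebraAutOnUnits (Kq K eL) (fieldRel K eL) :=
  letI := algebraKOmega K eL
  haveI := isScalarTower_K_Kq_Omega K eL
  lxGenHom K L (Kq K eL) (embK K eL)

/-- **Local triviality at the place `𝔪 = idealQ (eL|_K)` of `K`, in the embedded model**:
`locH K L (Kloc K q 𝔪) 2 x = 0` iff the image of `x` in `H²(Gal(K_𝔪(eL L)/K_𝔪), K_𝔪(eL L)ˣ)` under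
restriction along `decHom` and `eL` on coefficients vanishes. -/
theorem locH_Kq_eq_zero_iff (x : groupCohomology (Rep.ofAlgebraAutOnUnits K L) 2) :
    locH K L (Kq K eL) 2 x = 0 ↔
      groupCohomology.map (decHom K eL) (decCoeff K eL) 2 x = 0 := by
  letI := algebraKOmega K eL
  haveI := isScalarTower_K_Kq_Omega K eL
  exact locH_eq_zero_iff K L (Kq K eL) (embK K eL) x

end Fermat.Agent.S55.Middle.LocCompareRel
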