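/-
S55 / Middle / ROW (LOC-off), part 5 (helper99): WEAK APPROXIMATION for the divisor map.

* `exists_intValuation_eq` : CRT in a Dedekind domain: prescribed valuations (those of given nonzero
  elements) at finitely many primes;
* `exists_unit_ordAt_eq` : for `f : Xoff S → ℤ` invariant under the fixer of `ι L` there is
  `u ∈ Lˣ` with `ordAt y.ring y.prime (ι u) = f y` at all places `y` over `T`;
* `valRep_supp`, `valRep_surjective_on_supp` : the inputs `hsupp`, `hsurj` of
  `LocOffInj.jB_injective` / `LocOffSurj.exists_map_eq` for `LocOff.valRep`, with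
  `Y := {y | y.prime ∈ T}`.
-/
import Mathlib
import Fermat.Agent.S55.Middle.LocOff

set_option autoImplicit false
set_option linter.unusedSectionVars false
set_option linter.style.haveILetI false

open scoped TensorProduct Pointwise NumberField
open CategoryTheory IsDedekindDomain WithZero

namespace Fermat.Agent.S55.Middle.LocOffApprox

noncomputable section

open Fermat.Agent.S55.Formal
open Fermat.Agent.S55.Middle.Defs Fermat.Agent.S55.Middle.DivDef Fermat.Agent.S55.Middle.Cap
open Fermat.Agent.S55.Middle.CapDiv Fermat.Agent.S55.Middle.LocOffVal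
open Fermat.Agent.S55.Middle.LocOff
open Fermat.Agent.S55.Global.Objects Fermat.Agent.S55.Global.Objects2

/-! ### CRT: prescribed valuations at finitely many primes -/

section CRT

variable {R : Type*} [CommRing R] [IsDedekindDomain R]

/-- there is `a ≠ 0` with `v(a) = v(x v)` for all `v` in a finite set of primes -/
theorem exists_intValuation_eq (W : Finset (HeightOneSpectrum R)) (x : HeightOneSpectrum R → R)
    (hx : ∀ w ∈ W, x w ≠ 0) :
    ∃ a : R, a ≠ 0 ∧ ∀ w ∈ W, w.intValuation a = w.intValuation (x w) := by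
  classical
  by_cases hW : W = ∅
  · subst hW
    exact ⟨1, one_ne_zero, fun w hw => absurd hw (Finset.notMem_empty w)⟩
  -- exponents
  let k : HeightOneSpectrum R → ℕ := fun w =>
    (Associates.mk w.asIdeal).count (Associates.mk (Ideal.span {x w} : Ideal R)).factors
  obtain ⟨a, ha⟩ := IsDedekindDomain.exists_forall_sub_mem_ideal (s := W)
    (fun w : HeightOneSpectrum R => w.asIdeal) (fun w => k w + 1)
    (fun w _ => w.prime) (fun w _ w' _ hne h => hne (HeightOneSpectrum.ext h))
    (fun w => x w.1)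
  have key : ∀ w ∈ W, w.intValuation a = w.intValuation (x w) := by
    intro w hw
    have h1 : w.intValuation (a - x w) ≤ exp (-((k w + 1 : ℕ) : ℤ)) :=
      (w.intValuation_le_pow_iff_mem _ _).2 (ha w hw)
    have h2 : w.intValuation (x w) = exp (-(k w : ℤ)) := w.intValuation_if_neg (hx w hw)
    have h3 : w.intValuation (a - x w) < w.intValuation (x w) := by
      rw [h2]
      refine lt_of_le_of_lt h1 ?_
      rw [exp_lt_exp]
      push_cast
      linarith
    have h4 : a = x w + (a - x w) := by ring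
    rw [h4]
    exact Valuation.map_add_eq_of_lt_left _ h3
  refine ⟨a, ?_, key⟩
  obtain ⟨w, hw⟩ := Finset.nonempty_iff_ne_empty.2 hW
  intro h0
  have := key w hw
  rw [h0, Valuation.map_zero] at this
  exact w.intValuation_ne_zero _ (hx w hw) this.symm

end CRT

local instance isAlgebraicQbar_loa : Algebra.IsAlgebraic ℚ (AlgebraicClosure ℚ) :=
  AlgebraicClosure.isAlgebraic ℚ
local instance isAlgClosureQbar_loa : IsAlgClosure ℚ (AlgebraicClosure ℚ) :=
  ⟨inferInstance, inferInstance⟩
local instance normalQbar_loa : Normal ℚ (AlgebraicClosure ℚ) :=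
  IsAlgClosure.normal ℚ (AlgebraicClosure ℚ)
local instance isGaloisQbar_loa : IsGalois ℚ (AlgebraicClosure ℚ) := ⟨⟩

/-! ### places of `L` below places of `ℚ̄` -/

section Below

variable {S : Finset Nat.Primes} {L : Type} [Field L] [NumberField L] (ι : L →+* Qbar)

/-- the place of `L` below a place of `ℚ̄` off `S` -/
def below (y : Xoff S) : HeightOneSpectrum (𝓞 L) :=
  SUnitDict.placeBelow ι y.ring y.prime.2.ne_zero y.liesOver

theorem natCast_mem_below (y : Xoff S) : ((y.prime : ℕ) : 𝓞 L) ∈ (below ι y).asIdeal :=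
  SUnitDict.natCast_mem_placeBelow y.prime.2.ne_zero y.liesOver

theorem mem_ring_iff (y : Xoff S) (l : L) :
    ι l ∈ y.ring ↔ (below ι y).valuation L l ≤ 1 :=
  SUnitDict.mem_iff y.prime.2.ne_zero y.liesOver l

theorem prime_eq_of_below_eq {y y' : Xoff S} (h : below ι y = below ι y') :
    y.prime = y'.prime := by
  have h1 : ((y.prime : ℕ) : 𝓞 L) ∈ (below ι y').asIdeal := by
    rw [← h]; exact natCast_mem_below ι y
  exact Subtype.ext
    (SUnitDict.eq_of_natCast_mem_placeBelow ι y'.prime.2 y'.liesOver y.prime.2 h1)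

/-- two places of `ℚ̄` over the same place of `L` are conjugate under the fixer of `ι L` -/
theorem exists_smul_eq_of_below_eq {y y' : Xoff S} (h : below ι y = below ι y') :
    ∃ g : GQ, (∀ l : L, g (ι l) = ι l) ∧ y' = g • y := by
  let M : IntermediateField ℚ Qbar := (ι.toRatAlgHom).fieldRange
  have hM : ∀ x : M, ∃ l : L, ι l = (x : Qbar) := fun x => by
    obtain ⟨l, hl⟩ := x.2
    exact ⟨l, hl⟩
  have hcomap : y.ring.comap (algebraMap M Qbar) = y'.ring.comap (algebraMap M Qbar) := by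
    ext x
    obtain ⟨l, hl⟩ := hM x
    rw [ValuationSubring.mem_comap, ValuationSubring.mem_comap]
    show (x : Qbar) ∈ y.ring ↔ (x : Qbar) ∈ y'.ring
    rw [← hl, mem_ring_iff, mem_ring_iff, h]
  obtain ⟨ρ, hρ⟩ := Fermat.Agent.Lib.InertiaRestrict.exists_smul_eq_of_comap_eq M y.ring y'.ring
    hcomap
  refine ⟨ρ.restrictScalars ℚ, fun l => ?_, Xoff.ext (prime_eq_of_below_eq ι h).symm ?_⟩
  · exact ρ.commutes ⟨ι l, ⟨l, rfl⟩⟩
  · rw [Xoff.smul_ring, Fermat.Agent.Lib.InertiaRestrict.restrictScalars_smul, hρ]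

/-- the `below`-adic valuation of `l` is `1` iff `ι l` is a unit of `y.ring` -/
theorem valuation_below_eq_one_iff (y : Xoff S) (l : L) :
    (below ι y).valuation L l = 1 ↔ y.ring.valuation (ι l) = 1 :=
  SUnitDict.valuation_eq_one_iff y.prime.2.ne_zero y.liesOver l

/-- `HasOrd` from a valuation computation in `L` -/
theorem hasOrd_of_valuation_eq_one (y : Xoff S) (u : L) (n : ℤ)
    (h : (below ι y).valuation L (u * ((y.prime : ℕ) : L) ^ (-n)) = 1) :
    HasOrd y.ring (y.prime : ℕ) (ι u) n := by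
  have h1 := (valuation_below_eq_one_iff ι y _).1 h
  have e : ι (u * ((y.prime : ℕ) : L) ^ (-n)) = ι u * ((y.prime : ℕ) : Qbar) ^ (-n) := by
    rw [map_mul, map_zpow₀, map_natCast]
  rw [e] at h1
  unfold HasOrd
  constructor
  · exact (y.ring.valuation_le_one_iff _).1 h1.le
  · refine (y.ring.valuation_le_one_iff _).1 ?_
    rw [map_inv₀, h1, inv_one]

end Below

/-! ### weak approximation -/

section Approx

variable {S : Finset Nat.Primes} {L : Type} [Field L] [NumberField L] (ι : L →+* Qbar)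
  (T : Finset Nat.Primes)

/-- **Weak approximation for the divisor map.**  Every function on the places off `S` which is
invariant under the fixer of `ι L` is, over the finitely many primes of `T`, the divisor of a unit
of `L`. -/
theorem exists_unit_ordAt_eq (f : Xoff S → ℤ)
    (hinv : ∀ g : GQ, (∀ l : L, g (ι l) = ι l) → ∀ y : Xoff S, f (g • y) = f y) :
    ∃ u : Lˣ, ∀ y : Xoff S, y.prime ∈ T →
      ordAt y.ring (y.prime : ℕ) (ι (u : L)) = f y := by
  classical
  -- the finite set of places of `L` over `T`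
  let W : Finset (HeightOneSpectrum (𝓞 L)) := (SUnitDict.placesAbove_finite (F := L) T).toFinset
  have hW : ∀ y : Xoff S, y.prime ∈ T → below ι y ∈ W := fun y hy => by
    rw [Set.Finite.mem_toFinset]
    exact ⟨y.prime, hy, natCast_mem_below ι y⟩
  -- a representative place over each `w`
  let rep : HeightOneSpectrum (𝓞 L) → Option (Xoff S) := fun w =>
    if h : ∃ y : Xoff S, below ι y = w then some h.choose else none
  let n : HeightOneSpectrum (𝓞 L) → ℤ := fun w => match rep w with
    | some y => f y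
    | none => 0
  let qq : HeightOneSpectrum (𝓞 L) → ℕ := fun w => match rep w with
    | some y => (y.prime : ℕ)
    | none => 1
  have hqq0 : ∀ w, (qq w : 𝓞 L) ≠ 0 := fun w => by
    have : qq w ≠ 0 := by
      show (match rep w with | some y => (y.prime : ℕ) | none => 1) ≠ 0
      cases rep w with
      | some y => exact y.prime.2.ne_zero
      | none => exact one_ne_zero
    exact_mod_cast this
  have hrep : ∀ y : Xoff S, ∃ y₀ : Xoff S, rep (below ι y) = some y₀ ∧ below ι y₀ = below ι y :=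
    fun y => by
      have h : ∃ y' : Xoff S, below ι y' = below ι y := ⟨y, rfl⟩
      exact ⟨h.choose, dif_pos h, h.choose_spec⟩
  obtain ⟨a, ha0, ha⟩ := exists_intValuation_eq W (fun w => (qq w : 𝓞 L) ^ (n w).toNat)
    (fun w _ => pow_ne_zero _ (hqq0 w))
  obtain ⟨c, hc0, hc⟩ := exists_intValuation_eq W (fun w => (qq w : 𝓞 L) ^ (-(n w)).toNat)
    (fun w _ => pow_ne_zero _ (hqq0 w))
  have haL : ((a : 𝓞 L) : L) ≠ 0 := by
    intro h
    exact ha0 (by exact_mod_cast h)
  have hcL : ((c : 𝓞 L) : L) ≠ 0 := by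
    intro h
    exact hc0 (by exact_mod_cast h)
  refine ⟨Units.mk0 ((a : L) / (c : L)) (div_ne_zero haL hcL), fun y hy => ?_⟩
  obtain ⟨y₀, hy₀, hbelow⟩ := hrep y
  obtain ⟨g, hg, hgy⟩ := exists_smul_eq_of_below_eq ι hbelow
  -- `y = g • y₀`
  have hf : f y₀ = f y := by rw [hgy, hinv g hg]
  have hp : y₀.prime = y.prime := prime_eq_of_below_eq ι hbelow
  set w := below ι y with hw
  have hnw : n w = f y := by
    show (match rep w with | some y => f y | none => 0) = f y
    rw [hy₀]
    exact hf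
  have hqw : qq w = (y.prime : ℕ) := by
    show (match rep w with | some y => (y.prime : ℕ) | none => 1) = (y.prime : ℕ)
    rw [hy₀]
    exact congrArg (fun p : Nat.Primes => (p : ℕ)) hp
  have hwW := hW y hy
  have h1 := ha w hwW
  have h2 := hc w hwW
  simp only [hqw, hnw] at h1 h2
  refine ordAt_eq y.prime.2.ne_zero y.liesOver ((map_ne_zero ι).2 (div_ne_zero haL hcL))
    (hasOrd_of_valuation_eq_one ι y _ _ ?_)
  -- the valuation computation
  have hcast : ∀ k : ℕ, w.intValuation (((y.prime : ℕ) : 𝓞 L) ^ k) =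
      w.valuation L (((y.prime : ℕ) : L)) ^ k := by
    intro k
    have e : (((((y.prime : ℕ) : 𝓞 L) ^ k : 𝓞 L)) : L) = ((y.prime : ℕ) : L) ^ k := by
      push_cast
      rfl
    rw [← w.valuation_of_algebraMap (K := L)]
    show w.valuation L (((((y.prime : ℕ) : 𝓞 L) ^ k : 𝓞 L)) : L) = _
    rw [e, map_pow]
  have hv1 : w.valuation L (a : L) = w.valuation L (((y.prime : ℕ) : L)) ^ (f y).toNat := by
    rw [show ((a : 𝓞 L) : L) = algebraMap (𝓞 L) L a from rfl, w.valuation_of_algebraMap, h1, hcast]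
  have hv2 : w.valuation L (c : L) = w.valuation L (((y.prime : ℕ) : L)) ^ (-(f y)).toNat := by
    rw [show ((c : 𝓞 L) : L) = algebraMap (𝓞 L) L c from rfl, w.valuation_of_algebraMap, h2, hcast]
  have hq0 : w.valuation L (((y.prime : ℕ) : L)) ≠ 0 := by
    rw [Ne, map_eq_zero]
    exact_mod_cast y.prime.2.ne_zero
  show w.valuation L ((a : L) / (c : L) * ((y.prime : ℕ) : L) ^ (-(f y))) = 1
  rw [map_mul, map_div₀, map_zpow₀, hv1, hv2]
  set v := w.valuation L (((y.prime : ℕ) : L)) with hv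
  rw [← zpow_natCast, ← zpow_natCast, ← zpow_sub₀ hq0, ← zpow_add₀ hq0]
  have : ((f y).toNat : ℤ) - ((-(f y)).toNat : ℤ) + -(f y) = 0 := by
    rw [Int.toNat_sub_toNat_neg]
    ring
  rw [this, zpow_zero]

end Approx

/-! ### `hsupp` and `hsurj` for `valRep` -/

section Level

variable {S : Finset Nat.Primes} {P : Subgroup GQ} {𝒱 : NBasis ↥P}
  (hfine : IsCont (PreludeLC.globalBasis S) 𝒱 P.subtype) (hfin : P.FiniteIndex)
variable (K : Type) [Field K] [NumberField K] {L : Type} [Field L] [NumberField L] [Algebra K L]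
  (ι : L →+* Qbar) (T : Finset Nat.Primes)
  {F : IntermediateField ℚ Qbar} (hF : F.IsUnramifiedOutside S) (hι : ∀ l : L, ι l ∈ F)
variable (V : Subgroup ↥P) [V.Normal] (φ : ↥P ⧸ V →* (L ≃ₐ[K] L))
  (hφ : ∀ (h : ↥P) (l : L), ι (φ (h : ↥P ⧸ V) l) = (h : GQ) (ι l))

/-- **(hsupp)** the values of `valRep` are supported over `T` -/
theorem valRep_supp (j : Jn K L T) (y : Xoff S) (hy : y.prime ∉ T) :
    toFun 𝒱 (Xoff S) (((valRep hfine hfin K ι T hF hι V φ hφ).hom j :
      (Div 𝒱 (Xoff S)).quotientToInvariants V).1 : Div 𝒱 (Xoff S)) y = 0 := by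
  rw [valRep_apply_coe, toFun_divT]
  exact valT_of_notMem ι T _ y hy

/-- **(hsurj)** `valRep` is onto the `V`-invariant divisors supported over `T`, provided `V`
contains the fixer of `ι L`. -/
theorem valRep_surjective_on_supp
    (hfix : ∀ g : GQ, (∀ l : L, g (ι l) = ι l) → ∃ h : g ∈ P, (⟨g, h⟩ : ↥P) ∈ V)
    (d : (Div 𝒱 (Xoff S)).quotientToInvariants V)
    (hd : ∀ y : Xoff S, y.prime ∉ T → toFun 𝒱 (Xoff S) (d.1 : Div 𝒱 (Xoff S)) y = 0) :
    ∃ j : Jn K L T, (valRep hfine hfin K ι T hF hι V φ hφ).hom j = d := by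
  have hinv : ∀ g : GQ, (∀ l : L, g (ι l) = ι l) → ∀ y : Xoff S,
      toFun 𝒱 (Xoff S) (d.1 : Div 𝒱 (Xoff S)) (g • y) =
        toFun 𝒱 (Xoff S) (d.1 : Div 𝒱 (Xoff S)) y := by
    intro g hg y
    obtain ⟨h, hV⟩ := hfix g hg
    have h1 : (Div 𝒱 (Xoff S)).ρ (⟨g, h⟩ : ↥P) (d.1 : Div 𝒱 (Xoff S)) = d.1 := d.2 ⟨⟨g, h⟩, hV⟩
    have h2 := congrArg (fun e : Div 𝒱 (Xoff S) => toFun 𝒱 (Xoff S) e (g • y)) h1
    simp only [toFun_ρ] at h2
    rw [← h2]
    congr 1
    show (⟨g, h⟩ : ↥P)⁻¹ • ((⟨g, h⟩ : ↥P) • y) = y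
    rw [inv_smul_smul]
  obtain ⟨u, hu⟩ := exists_unit_ordAt_eq ι T (toFun 𝒱 (Xoff S) (d.1 : Div 𝒱 (Xoff S))) hinv
  refine ⟨(Additive.ofMul (inclUnits ℚ L (QT T) u) : Additive (L ⊗[ℚ] QT T)ˣ), ?_⟩
  apply Subtype.ext
  apply div_ext
  intro y
  show valT (S := S) ι T (inclUnits ℚ L (QT T) u) y = _
  rw [valT_inclUnits ι T (inQS_of_mem ι hF hι) u y]
  split_ifs with h
  · exact hu y h
  · exact (hd y h).symm

end Level

end

end Fermat.Agent.S55.Middle.LocOffApprox
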