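/-
S55 / Middle / ROW (LOC-off), part 6 (helper60): `jB` in the FAMILY language of `ImageFiniteCore`.

`Fam K L` = families of local classes `c x ∈ H²(Gal(L/K), Jloc K L x)` indexed by ALL finite places
`x` of `K`; `toJn T c ∈ H²(Gal(L/K), Jn K L T)` is the class with the components of `c` above `T`.
The class `jB T (toJn T c) ∈ H²_LC(P; Div)` does NOT depend on the auxiliary finite set `T`, as
long as `T` contains the primes off `S` carrying `c`:

* `map_resJn_toJn` : `(resJn h)_* (toJn T c) = toJn T' c` for `T' ⊆ T`;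
* `toJn_eq_zero`   : `toJn T c = 0` if `c` vanishes at the places above `T`;
* `jB_toJn_eq`     : `T₀ ⊆ T`, `c x = 0` for `x` above `T ∖ (T₀ ∪ S)` ⇒
                     `jB T (toJn T c) = jB T₀ (toJn T₀ c)`;
* `off_inflL_eq`   : for ANY global class `y ∈ H²(Gal(L/K), Lˣ)` and any finite `T₀` such that the
                     localisations of `y` vanish at the places above the primes `∉ T₀ ∪ S`:
                     `off (inflL y) = jB T₀ (toJn T₀ (locFam y))`.
-/
import Mathlib
import Fermat.Agent.S55.Middle.LocOffRes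
import Fermat.Agent.S55.Middle.ImageFiniteCore

set_option autoImplicit false
set_option linter.unusedSectionVars false
set_option linter.style.haveILetI false

open scoped TensorProduct Pointwise
open CategoryTheory groupCohomology

namespace Fermat.Agent.S55.Middle.LocOffFam

noncomputable section

open Fermat.Agent.S55.Formal Fermat.Agent.S55.Formal.LCLevel Fermat.Agent.S55.Formal.LCLevelH
open Fermat.Agent.S55.Middle.Defs Fermat.Agent.S55.Middle.DivDef Fermat.Agent.S55.Middle.Cap
open Fermat.Agent.S55.Middle.CapDiv Fermat.Agent.S55.Middle.LocOffVal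
open Fermat.Agent.S55.Middle.LocOffNorm Fermat.Agent.S55.Middle.LocOff
open Fermat.Agent.S55.Middle.LocOffRes Fermat.Agent.S55.Middle.ImageFiniteCore
open Fermat.Agent.S55.Global.Objects Fermat.Agent.S55.Global.Objects2
open Fermat.Agent.S55.Global.Blocks3
open Fermat.Agent.S55.Global.LocalProd Fermat.Agent.S55.Global.LocalProdCoh

/-! ### restriction and the place components -/

section Res

variable (K : Type) [Field K] [NumberField K] {L : Type} [Field L] [NumberField L] [Algebra K L]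
  {T T' : Finset Nat.Primes} (h : T' ⊆ T)

/-- a place above `T'` as a place above `T` -/
def inclIdx (x : PlaceIdx K T') : PlaceIdx K T := ⟨⟨x.1.1, h x.1.2⟩, x.2⟩

theorem πT_resLT (x : PlaceIdx K T') (z : L ⊗[ℚ] QT T) :
    πT K L T' x (resLT h L z) = πT K L T (inclIdx K h x) z := by
  induction z using TensorProduct.induction_on with
  | zero =>
    rw [map_zero (resLT h L), RingHom.map_zero (πT K L T' x),
      RingHom.map_zero (πT K L T (inclIdx K h x))]
    rfl
  | tmul l f =>
    rw [resLT_tmul, πT_tmul, πT_tmul]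
    rfl
  | add a b ha hb =>
    rw [map_add (resLT h L), RingHom.map_add (πT K L T' x),
      RingHom.map_add (πT K L T (inclIdx K h x)), ha, hb]
    rfl

theorem resJn_projLoc (x : PlaceIdx K T') :
    resJn K h ≫ projLoc K L T' x = projLoc K L T (inclIdx K h x) := by
  apply Rep.hom_ext
  apply Representation.IntertwiningMap.ext
  refine LinearMap.ext fun a => ?_
  apply congrArg Additive.ofMul
  apply Units.ext
  exact πT_resLT K h x _

/-- **restriction of `toJn`** -/
theorem map_resJn_toJn (c : Fam K L) :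
    (groupCohomology.map (MonoidHom.id (L ≃ₐ[K] L)) (resJn K h) 2).hom (toJn T c) = toJn T' c := by
  apply eq_of_projLoc K L T' 2
  intro x
  have h1 : groupCohomology.map (MonoidHom.id (L ≃ₐ[K] L)) (resJn K h) 2 ≫
      groupCohomology.map (MonoidHom.id (L ≃ₐ[K] L)) (projLoc K L T' x) 2 =
        groupCohomology.map (A := Jn K L T) (B := Jloc K L (x.1 : Nat.Primes) x.2.asIdeal)
          (MonoidHom.id (L ≃ₐ[K] L)) (projLoc K L T (inclIdx K h x)) 2 := by
    rw [← groupCohomology.map_id_comp, resJn_projLoc]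
  have h2 := congrArg (fun f => f.hom (toJn T c)) h1
  simp only [ModuleCat.hom_comp, LinearMap.comp_apply] at h2
  refine h2.trans ?_
  have h3 := cohEquivLoc_toJn T c (inclIdx K h x)
  have h4 := cohEquivLoc_toJn T' c x
  rw [cohEquivLoc_apply] at h3 h4
  exact h3.trans h4.symm

/-- `toJn T c = 0` if `c` vanishes at the places above `T` -/
theorem toJn_eq_zero (T : Finset Nat.Primes) (c : Fam K L)
    (hc : ∀ x : Pl K, x.1 ∈ T → c x = 0) : toJn T c = 0 := by
  have h0 : restrT T c = 0 := by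
    funext x
    exact hc ⟨x.1.1, x.2⟩ x.1.2
  show (cohEquivLoc K L T 2).symm (restrT T c) = 0
  rw [h0]
  exact AddEquiv.map_zero _

end Res

/-! ### `jB` of a family -/

section Level

variable {S : Finset Nat.Primes} {P : Subgroup GQ} {𝒱 : NBasis ↥P}
  (hfine : IsCont (PreludeLC.globalBasis S) 𝒱 P.subtype) (hfin : P.FiniteIndex)
variable (K : Type) [Field K] [NumberField K] {L : Type} [Field L] [NumberField L] [Algebra K L]
  (ι : L →+* Qbar)
  {F : IntermediateField ℚ Qbar} (hF : F.IsUnramifiedOutside S) (hι : ∀ l : L, ι l ∈ F)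
variable (V : Subgroup ↥P) [V.Normal] (φ : ↥P ⧸ V →* (L ≃ₐ[K] L))
  (hφ : ∀ (h : ↥P) (l : L), ι (φ (h : ↥P ⧸ V) l) = (h : GQ) (ι l))
variable [Finite (↥P ⧸ V)] (hV : 𝒱.mem V)

/-- **`jB` only sees the places off `S`**: a family vanishing at the places above `T ∖ S` has
trivial `jB T`. -/
theorem jB_toJn_eq_zero (T : Finset Nat.Primes) (c : Fam K L)
    (hc : ∀ x : Pl K, x.1 ∈ T → x.1 ∉ S → c x = 0) :
    jB hfine hfin K ι T hF hι V φ hφ hV (toJn T c) = 0 := by
  classical
  have h₀ : T.filter (fun q => q ∈ S) ⊆ T := Finset.filter_subset _ _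
  have h₁ : T.filter (fun q => q ∉ S) ⊆ T := Finset.filter_subset _ _
  have hcov : ∀ q ∈ T, q ∈ T.filter (fun q => q ∈ S) ∨ q ∈ T.filter (fun q => q ∉ S) := by
    intro q hq
    by_cases hqS : q ∈ S
    · exact Or.inl (Finset.mem_filter.2 ⟨hq, hqS⟩)
    · exact Or.inr (Finset.mem_filter.2 ⟨hq, hqS⟩)
  have hdisj : ∀ q ∈ T.filter (fun q => q ∈ S), q ∉ T.filter (fun q => q ∉ S) := by
    intro q hq hq'
    exact (Finset.mem_filter.1 hq').2 (Finset.mem_filter.1 hq).2
  have e := jB_split hfine hfin K ι T hF hι V φ hφ hV h₀ h₁ hcov hdisj (toJn T c)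
  have z0 := jB_eq_zero_of_subset hfine hfin K ι (T.filter (fun q => q ∈ S)) hF hι V φ hφ hV
    (fun q hq => (Finset.mem_filter.1 hq).2)
    ((groupCohomology.map (MonoidHom.id (L ≃ₐ[K] L)) (resJn K h₀) 2).hom (toJn T c))
  have e1 : (groupCohomology.map (MonoidHom.id (L ≃ₐ[K] L)) (resJn K h₁) 2).hom (toJn T c) = 0 :=
    (map_resJn_toJn K h₁ c).trans (toJn_eq_zero K (T.filter (fun q => q ∉ S)) c
      (fun x hx => hc x (Finset.mem_filter.1 hx).1 (Finset.mem_filter.1 hx).2))
  have z1 := (congrArg (jB hfine hfin K ι (T.filter (fun q => q ∉ S)) hF hι V φ hφ hV) e1).trans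
    (AddMonoidHom.map_zero _)
  exact e.trans ((congrArg₂ (· + ·) z0 z1).trans (add_zero 0))

set_option synthInstance.maxHeartbeats 200000 in
/-- **`jB (toJn T c)` does not depend on `T`**: `T₀ ⊆ T` and `c` vanishes at the places above
`T ∖ (T₀ ∪ S)`. -/
theorem jB_toJn_eq {T₀ T : Finset Nat.Primes} (h : T₀ ⊆ T) (c : Fam K L)
    (hc : ∀ x : Pl K, x.1 ∈ T → x.1 ∉ T₀ → x.1 ∉ S → c x = 0) :
    jB hfine hfin K ι T hF hι V φ hφ hV (toJn T c) =
      jB hfine hfin K ι T₀ hF hι V φ hφ hV (toJn T₀ c) := by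
  classical
  have h₁ : T \ T₀ ⊆ T := Finset.sdiff_subset
  have hcov : ∀ q ∈ T, q ∈ T₀ ∨ q ∈ T \ T₀ := by
    intro q hq
    by_cases hq0 : q ∈ T₀
    · exact Or.inl hq0
    · exact Or.inr (Finset.mem_sdiff.2 ⟨hq, hq0⟩)
  have hdisj : ∀ q ∈ T₀, q ∉ T \ T₀ := fun q hq hq' => (Finset.mem_sdiff.1 hq').2 hq
  have e := jB_split hfine hfin K ι T hF hι V φ hφ hV h h₁ hcov hdisj (toJn T c)
  have e0 := congrArg (jB hfine hfin K ι T₀ hF hι V φ hφ hV) (map_resJn_toJn K h c)
  have e1 := congrArg (jB hfine hfin K ι (T \ T₀) hF hι V φ hφ hV) (map_resJn_toJn K h₁ c)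
  have z1 := e1.trans (jB_toJn_eq_zero hfine hfin K ι hF hι V φ hφ hV (T \ T₀) c
    (fun x hx hxS => hc x (Finset.mem_sdiff.1 hx).1 (Finset.mem_sdiff.1 hx).2 hxS))
  exact e.trans ((congrArg₂ (· + ·) e0 z1).trans
    (add_zero (jB hfine hfin K ι T₀ hF hι V φ hφ hV (toJn T₀ c))))

variable [IsGalois K L]

/-- **(hcB) in the family language, for ALL global classes.**  If the localisations of
`y ∈ H²(Gal(L/K), Lˣ)` vanish at the places above the primes outside `T₀ ∪ S`, then
`off (inflL y) = jB T₀ (toJn T₀ (locFam y))`. -/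
theorem off_inflL_eq (y : groupCohomology (Rep.ofAlgebraAutOnUnits K L) 2)
    (T₀ : Finset Nat.Primes)
    (hy : ∀ x : Pl K, x.1 ∉ T₀ → x.1 ∉ S → locFam K L y x = 0) :
    (Mor.ofHom 𝒱 (divMap hfine hfin)).h2 (inflL K ι hF hι V φ hφ hV y) =
      jB hfine hfin K ι T₀ hF hι V φ hφ hV (toJn T₀ (locFam K L y)) := by
  classical
  obtain ⟨T₁, hT₁⟩ := HbnCoker.exists_finset_isTUnitClass (K := K) (L := L) y
  have hz := hT₁ (T₁ ∪ T₀) Finset.subset_union_left
  rw [off_inflL_of_isTUnitClass hfine hfin K ι (T₁ ∪ T₀) hF hι V φ hφ hV y hz,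
    ← toJn_locFam (T₁ ∪ T₀) y]
  exact jB_toJn_eq hfine hfin K ι hF hι V φ hφ hV Finset.subset_union_right _
    (fun x _ hx0 hxS => hy x hx0 hxS)

end Level

end

end Fermat.Agent.S55.Middle.LocOffFam
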