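/-
S55 / Middle (helper5): ROW (LOC-off), kernel of the valuation map, EMBEDDING side (step (K-a) of
helper26's plan for `LocOffKer`): if all valuations `valT ι T b y` vanish, then every ring
homomorphism `φ : L ⊗[ℚ] ℚ_[q] → PadicAlgCl q` which is the canonical embedding on `ℚ_[q]` sends the
`q`-component of `b` to an element of norm `1` (`q ∈ T`, `q ∉ S`), and conversely.
-/
import Mathlib
import Fermat.Agent.S55.Middle.LocOffVal

set_option autoImplicit false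
set_option linter.unusedSectionVars false
set_option linter.style.haveILetI false

open scoped TensorProduct Pointwise

namespace Fermat.Agent.S55.Middle.LocOffKerA

noncomputable section

open Fermat.Agent.S55.Middle.Defs Fermat.Agent.S55.Middle.Cap
open Fermat.Agent.S55.Middle.CapDiv Fermat.Agent.S55.Middle.LocOffNorm
open Fermat.Agent.S55.Middle.LocOffVal
open Fermat.Agent.S55.Global.Objects Fermat.Agent.S55.Global.Objects2

local instance isAlgebraicQbar_ka : Algebra.IsAlgebraic ℚ (AlgebraicClosure ℚ) :=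
  AlgebraicClosure.isAlgebraic ℚ
local instance isAlgClosureQbar_ka : IsAlgClosure ℚ (AlgebraicClosure ℚ) :=
  ⟨inferInstance, inferInstance⟩
local instance normalQbar_ka : Normal ℚ (AlgebraicClosure ℚ) :=
  IsAlgClosure.normal ℚ (AlgebraicClosure ℚ)

section Emb

variable (q : ℕ) [Fact q.Prime]

noncomputable local instance instAlgebraQbarPadic_ka : Algebra (AlgebraicClosure ℚ) (PadicAlgCl q) :=
  (padicEmbedding q).toRingHom.toAlgebra
local instance instTowerQbarPadic_ka :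
    IsScalarTower ℚ (AlgebraicClosure ℚ) (PadicAlgCl q) :=
  IsScalarTower.of_algebraMap_eq' (Subsingleton.elim _ _)

/-- every `ℚ`-embedding `ℚ̄ → Ω_q` is `padicEmbedding ∘ s` for an automorphism `s` of `ℚ̄` -/
theorem exists_aut_of_algHom (f : Qbar →ₐ[ℚ] PadicAlgCl q) :
    ∃ s : GQ, ∀ x : Qbar, padicEmbedding q (s x) = f x := by
  refine ⟨AlgHom.restrictNormal' f Qbar, fun x => ?_⟩
  exact AlgHom.restrictNormal_commutes f Qbar x

variable {L : Type} [Field L] [NumberField L] (ι : L →+* Qbar)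

/-- every ring homomorphism `L → Ω_q` is `embT ι q t` for some `t ∈ G_ℚ` -/
theorem exists_embT_eq (ψ : L →+* PadicAlgCl q) :
    ∃ t : GQ, ∀ l : L, ψ l = embT ι q t l := by
  letI : Algebra L (PadicAlgCl q) := ψ.toAlgebra
  letI : Algebra L Qbar := ι.toAlgebra
  haveI : Algebra.IsAlgebraic L Qbar := by
    haveI : IsScalarTower ℚ L Qbar := IsScalarTower.of_algebraMap_eq' (Subsingleton.elim _ _)
    exact Algebra.IsAlgebraic.tower_top (K := ℚ) L
  let f : Qbar →ₐ[L] PadicAlgCl q := IsAlgClosed.lift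
  obtain ⟨s, hs⟩ := exists_aut_of_algHom q (f : Qbar →+* PadicAlgCl q).toRatAlgHom
  refine ⟨s⁻¹, fun l => ?_⟩
  rw [embT_apply, inv_inv, hs]
  exact (f.commutes l).symm

end Emb

section Ker

variable {S : Finset Nat.Primes} {L : Type} [Field L] [NumberField L] (ι : L →+* Qbar)
  (T : Finset Nat.Primes) (hL : ∀ l : L, Units.InQS S (ι l))

/-- a ring homomorphism `L ⊗[ℚ] ℚ_[q] → Ω_q` extending the canonical embedding of `ℚ_[q]` is a
`semiHom q (embT ι q t)` -/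
theorem exists_eq_semiHom (q : ℕ) [Fact q.Prime] (φ : L ⊗[ℚ] ℚ_[q] →+* PadicAlgCl q)
    (hφ : ∀ c : ℚ_[q], φ ((1 : L) ⊗ₜ[ℚ] c) = algebraMap ℚ_[q] (PadicAlgCl q) c) :
    ∃ t : GQ, ∀ x : L ⊗[ℚ] ℚ_[q], φ x = semiHom q (embT ι q t) x := by
  obtain ⟨t, ht⟩ := exists_embT_eq q ι
    (φ.comp (Algebra.TensorProduct.includeLeftRingHom : L →+* L ⊗[ℚ] ℚ_[q]))
  refine ⟨t, fun x => ?_⟩
  induction x using TensorProduct.induction_on with
  | zero => simp
  | tmul l c =>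
    have h1 : (l ⊗ₜ[ℚ] c : L ⊗[ℚ] ℚ_[q]) = (l ⊗ₜ[ℚ] (1 : ℚ_[q])) * ((1 : L) ⊗ₜ[ℚ] c) := by
      rw [Algebra.TensorProduct.tmul_mul_tmul, mul_one, one_mul]
    rw [h1, map_mul, map_mul, hφ, semiHom_tmul_one]
    have h2 := ht l
    simp only [RingHom.comp_apply, Algebra.TensorProduct.includeLeftRingHom_apply] at h2
    rw [h2]
    congr 1
    have h3 := semiHom_tmul q (embT ι q t) (1 : L) c
    rw [map_one, one_mul] at h3
    exact h3.symm
  | add x y hx hy => rw [map_add, map_add, hx, hy]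

include hL in
/-- **(K-a)** vanishing of all valuations ⇒ all local norms are `1`. -/
theorem norm_eq_one_of_valT_eq_zero (b : (L ⊗[ℚ] QT T)ˣ)
    (hb : ∀ y : Xoff S, valT (S := S) ι T b y = 0)
    (q : Nat.Primes) (hq : q ∈ T) (hqS : q ∉ S)
    (φ : L ⊗[ℚ] ℚ_[((q : Nat.Primes) : ℕ)] →+* PadicAlgCl (q : ℕ))
    (hφ : ∀ c : ℚ_[((q : Nat.Primes) : ℕ)],
      φ ((1 : L) ⊗ₜ[ℚ] c) = algebraMap ℚ_[((q : Nat.Primes) : ℕ)] (PadicAlgCl (q : ℕ)) c) :
    ‖φ (projT (L := L) T q hq (b : L ⊗[ℚ] QT T))‖ = 1 := by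
  obtain ⟨t, ht⟩ := exists_eq_semiHom ι (q : ℕ) φ hφ
  rw [ht]
  have hA : (t • padicPlace (q : ℕ)).LiesOverPrime (q : ℕ) :=
    (Fermat.Agent.S55.GaloisLevel.liesOverPrime_smul_iff t _ _).2 (padicPlace_liesOver (q : ℕ))
  set y : Xoff S := ⟨(q, t • padicPlace (q : ℕ)), ⟨hqS, hA⟩⟩ with hy
  have h1 := valT_eq (S := S) ι T b y hq (t := t) rfl
  rw [hb y] at h1
  obtain ⟨n, hn⟩ := exists_zpow_norm_locAt ι T hL q hqS hq t b
  have h2 : ordN (q : ℕ) (locAt ι T q hq t (b : L ⊗[ℚ] QT T)) = n := ordN_eq (q : ℕ) hn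
  have h3 : n = 0 := by
    rw [← h2]
    exact h1.symm
  show ‖locAt ι T q hq t (b : L ⊗[ℚ] QT T)‖ = 1
  rw [hn, h3]
  simp

/-- **converse**: if all local norms at the primes of `T` outside `S` are `1`, all valuations
vanish. -/
theorem valT_eq_zero_of_norm_eq_one (b : (L ⊗[ℚ] QT T)ˣ)
    (h : ∀ (q : Nat.Primes) (hq : q ∈ T), q ∉ S →
      ∀ φ : L ⊗[ℚ] ℚ_[((q : Nat.Primes) : ℕ)] →+* PadicAlgCl (q : ℕ),
        (∀ c : ℚ_[((q : Nat.Primes) : ℕ)],
          φ ((1 : L) ⊗ₜ[ℚ] c) = algebraMap ℚ_[((q : Nat.Primes) : ℕ)] (PadicAlgCl (q : ℕ)) c) →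
        ‖φ (projT (L := L) T q hq (b : L ⊗[ℚ] QT T))‖ = 1)
    (y : Xoff S) : valT (S := S) ι T b y = 0 := by
  by_cases hy : y.prime ∈ T
  · unfold valT
    rw [dif_pos hy]
    have h1 := h y.prime hy y.prime_notMem
      ((semiHom (y.prime : ℕ) (embT ι (y.prime : ℕ) (tOf (y.prime : ℕ) y.ring)) :
        L ⊗[ℚ] ℚ_[((y.prime : Nat.Primes) : ℕ)] →ₐ[ℚ] PadicAlgCl (y.prime : ℕ)) :
        L ⊗[ℚ] ℚ_[((y.prime : Nat.Primes) : ℕ)] →+* PadicAlgCl (y.prime : ℕ))
      (fun c => by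
        have h3 := semiHom_tmul (y.prime : ℕ) (embT ι (y.prime : ℕ) (tOf (y.prime : ℕ) y.ring))
          (1 : L) c
        rw [map_one, one_mul] at h3
        exact h3)
    apply ordN_eq
    show ‖locAt ι T y.prime hy (tOf (y.prime : ℕ) y.ring) (b : L ⊗[ℚ] QT T)‖ = _
    rw [neg_zero, zpow_zero]
    exact h1
  · exact valT_of_notMem ι T b y hy

end Ker

end

end Fermat.Agent.S55.Middle.LocOffKerA
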