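/-
S55 / Middle / ROW (LOC-off), part 6 (helper99): the kernel of `valT`, embedding side.

* `exists_embT_eq` : every `ℚ`-embedding `L → PadicAlgCl q` is `embT ι q t` for some `t : G_ℚ`;
* `algHom_eq_semiHom` : every `ℚ_[q]`-algebra hom `L ⊗[ℚ] ℚ_[q] → PadicAlgCl q` is `semiHom q f`;
* `norm_locAt_eq_one_of_valT_eq_zero`, `norm_algHom_eq_one_of_valT_eq_zero` : if `valT ι T b = 0`
  then every `ℚ_[q]`-algebra hom to `PadicAlgCl q` has norm `1` on the `q`-component of `b`,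
  `q ∈ T ∖ S` (step (K-a) of `LocOffKer`).
-/
import Mathlib
import Fermat.Agent.S55.Middle.LocOffVal

set_option autoImplicit false
set_option linter.unusedSectionVars false
set_option linter.style.haveILetI false

open scoped TensorProduct Pointwise

namespace Fermat.Agent.S55.Middle.LocOffKerEmb

noncomputable section

open Fermat.Agent.S55.Formal
open Fermat.Agent.S55.Middle.Defs Fermat.Agent.S55.Middle.DivDef Fermat.Agent.S55.Middle.Cap
open Fermat.Agent.S55.Middle.CapDiv Fermat.Agent.S55.Middle.LocOffNorm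
open Fermat.Agent.S55.Middle.LocOffVal
open Fermat.Agent.S55.Global.Objects Fermat.Agent.S55.Global.Objects2

attribute [local instance] Algebra.TensorProduct.rightAlgebra

local instance isAlgebraicQbar_loke : Algebra.IsAlgebraic ℚ (AlgebraicClosure ℚ) :=
  AlgebraicClosure.isAlgebraic ℚ

section Emb

variable {L : Type} [Field L] [NumberField L] (ι : L →+* Qbar) (q : ℕ) [Fact q.Prime]

/-- every `ℚ`-embedding of `ℚ̄` into `PadicAlgCl q` is `padicEmbedding q` twisted by `G_ℚ` -/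
theorem exists_padicEmbedding_comp (ψ : Qbar →ₐ[ℚ] PadicAlgCl q) :
    ∃ s : GQ, ∀ x : Qbar, ψ x = padicEmbedding q (s x) := by
  have hrange : ∀ x : Qbar, ψ x ∈ (padicEmbedding q).range := by
    intro x
    have hsplit : ((minpoly ℚ x).map (algebraMap ℚ Qbar)).Splits := IsAlgClosed.splits _
    have hne : (minpoly ℚ x).map (algebraMap ℚ Qbar) ≠ 0 :=
      Polynomial.map_ne_zero (minpoly.ne_zero (Algebra.IsIntegral.isIntegral x))
    have hroot : (((minpoly ℚ x).map (algebraMap ℚ Qbar)).map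
        ((padicEmbedding q : Qbar →ₐ[ℚ] PadicAlgCl q) : Qbar →+* PadicAlgCl q)).IsRoot (ψ x) := by
      rw [Polynomial.map_map, (padicEmbedding q).comp_algebraMap, Polynomial.IsRoot.def,
        Polynomial.eval_map_algebraMap, Polynomial.aeval_algHom_apply, minpoly.aeval, map_zero]
    obtain ⟨z, hz⟩ := hsplit.mem_range_of_isRoot hne hroot
    exact ⟨z, hz⟩
  let e : Qbar ≃ₐ[ℚ] (padicEmbedding q).range :=
    AlgEquiv.ofInjective (padicEmbedding q) (padicEmbedding q).injective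
  let s₀ : Qbar →ₐ[ℚ] Qbar := (e.symm : (padicEmbedding q).range →ₐ[ℚ] Qbar).comp
    (ψ.codRestrict (padicEmbedding q).range hrange)
  have hs₀ : ∀ x, padicEmbedding q (s₀ x) = ψ x := by
    intro x
    have h1 : e (s₀ x) = ψ.codRestrict (padicEmbedding q).range hrange x :=
      e.apply_symm_apply _
    have h2 := congrArg (fun z : (padicEmbedding q).range => (z : PadicAlgCl q)) h1
    exact h2
  have hbij : Function.Bijective s₀ := Algebra.IsAlgebraic.algHom_bijective s₀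
  exact ⟨AlgEquiv.ofBijective s₀ hbij, fun x => (hs₀ x).symm⟩

/-- every `ℚ`-embedding `L → PadicAlgCl q` is `embT ι q t` for some `t` -/
theorem exists_embT_eq (f : L →ₐ[ℚ] PadicAlgCl q) : ∃ t : GQ, f = embT ι q t := by
  letI : Algebra L Qbar := ι.toAlgebra
  haveI : IsScalarTower ℚ L Qbar := IsScalarTower.of_algebraMap_eq' (Subsingleton.elim _ _)
  haveI : Algebra.IsAlgebraic L Qbar := Algebra.IsAlgebraic.tower_top (K := ℚ) L
  obtain ⟨ψ, hψ⟩ := IsAlgClosed.surjective_domRestrict_of_isAlgebraic (K := ℚ) (L := L)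
    (M := PadicAlgCl q) (E := Qbar) f
  obtain ⟨s, hs⟩ := exists_padicEmbedding_comp q ψ
  refine ⟨s⁻¹, AlgHom.ext fun l => ?_⟩
  have h1 : f l = ψ (ι l) := by
    rw [← hψ]
    rfl
  rw [h1, hs, embT_apply, inv_inv]

/-- every `ℚ_[q]`-algebra hom `L ⊗[ℚ] ℚ_[q] → PadicAlgCl q` is a `semiHom` -/
theorem algHom_eq_semiHom (φ : (L ⊗[ℚ] ℚ_[q]) →ₐ[ℚ_[q]] PadicAlgCl q) :
    ∃ f : L →ₐ[ℚ] PadicAlgCl q, ∀ c : L ⊗[ℚ] ℚ_[q], φ c = semiHom q f c := by
  refine ⟨(φ.restrictScalars ℚ).comp (Algebra.TensorProduct.includeLeft : L →ₐ[ℚ] L ⊗[ℚ] ℚ_[q]),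
    fun c => ?_⟩
  induction c using TensorProduct.induction_on with
  | zero => rw [map_zero, map_zero]
  | tmul l a =>
    rw [semiHom_tmul]
    have h1 : (l ⊗ₜ[ℚ] a : L ⊗[ℚ] ℚ_[q]) =
        (l ⊗ₜ[ℚ] (1 : ℚ_[q])) * algebraMap ℚ_[q] (L ⊗[ℚ] ℚ_[q]) a := by
      rw [Algebra.TensorProduct.right_algebraMap_apply, Algebra.TensorProduct.tmul_mul_tmul,
        mul_one, one_mul]
    rw [h1, map_mul, AlgHom.commutes]
    rfl
  | add x y hx hy => rw [map_add, map_add, hx, hy]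

end Emb

section Ker

variable {S : Finset Nat.Primes} {L : Type} [Field L] [NumberField L] (ι : L →+* Qbar)
  (T : Finset Nat.Primes) (hL : ∀ l : L, Units.InQS S (ι l))

/-- the place `t • padicPlace q` as a point of `Xoff S` -/
def placeOf (q : Nat.Primes) (hqS : q ∉ S) (t : GQ) : Xoff S :=
  ⟨(q, t • padicPlace (q : ℕ)), hqS,
    (Fermat.Agent.S55.GaloisLevel.liesOverPrime_smul_iff t _ _).2 (padicPlace_liesOver (q : ℕ))⟩

@[simp] theorem placeOf_prime (q : Nat.Primes) (hqS : q ∉ S) (t : GQ) :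
    (placeOf (S := S) q hqS t).prime = q := rfl

@[simp] theorem placeOf_ring (q : Nat.Primes) (hqS : q ∉ S) (t : GQ) :
    (placeOf (S := S) q hqS t).ring = t • padicPlace (q : ℕ) := rfl

include hL in
/-- if the divisor of `b` off `S` vanishes, all local components at `q ∈ T ∖ S` have norm one -/
theorem norm_locAt_eq_one_of_valT_eq_zero (b : (L ⊗[ℚ] QT T)ˣ)
    (hb : ∀ y : Xoff S, valT (S := S) ι T b y = 0) (q : Nat.Primes) (hq : q ∈ T) (hqS : q ∉ S)
    (t : GQ) : ‖locAt ι T q hq t (b : L ⊗[ℚ] QT T)‖ = 1 := by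
  have h1 := valT_eq (S := S) ι T b (placeOf (S := S) q hqS t) hq (t := t) rfl
  rw [hb] at h1
  obtain ⟨n, hn⟩ := exists_zpow_norm_locAt ι T hL q hqS hq t b
  have h2 : ordN (q : ℕ) (locAt ι T q hq t (b : L ⊗[ℚ] QT T)) = n := ordN_eq (q : ℕ) hn
  have h3 : n = 0 := by
    rw [← h2]
    exact h1.symm
  rw [hn, h3, neg_zero, zpow_zero]

include hL in
/-- **(K-a)** if the divisor of `b` off `S` vanishes, every `ℚ_[q]`-algebra hom
`L ⊗[ℚ] ℚ_[q] → PadicAlgCl q` has norm one on the `q`-component of `b`, `q ∈ T ∖ S`. -/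
theorem norm_algHom_eq_one_of_valT_eq_zero (b : (L ⊗[ℚ] QT T)ˣ)
    (hb : ∀ y : Xoff S, valT (S := S) ι T b y = 0) (q : Nat.Primes) (hq : q ∈ T) (hqS : q ∉ S)
    (φ : (L ⊗[ℚ] ℚ_[((q : Nat.Primes) : ℕ)]) →ₐ[ℚ_[((q : Nat.Primes) : ℕ)]]
      PadicAlgCl ((q : Nat.Primes) : ℕ)) :
    ‖φ (projT (L := L) T q hq (b : L ⊗[ℚ] QT T))‖ = 1 := by
  obtain ⟨f, hf⟩ := algHom_eq_semiHom (L := L) (q : ℕ) φ
  obtain ⟨t, rfl⟩ := exists_embT_eq ι (q : ℕ) f
  rw [hf]
  exact norm_locAt_eq_one_of_valT_eq_zero ι T hL b hb q hq hqS t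

/-- the converse: norm one at all conjugate places forces the divisor to vanish -/
theorem valT_eq_zero_of_norm_locAt_eq_one (b : (L ⊗[ℚ] QT T)ˣ)
    (h : ∀ (q : Nat.Primes) (hq : q ∈ T), q ∉ S → ∀ t : GQ,
      ‖locAt ι T q hq t (b : L ⊗[ℚ] QT T)‖ = 1) (y : Xoff S) :
    valT (S := S) ι T b y = 0 := by
  by_cases hy : y.prime ∈ T
  · unfold valT
    rw [dif_pos hy]
    apply ordN_eq
    rw [h y.prime hy y.prime_notMem, neg_zero, zpow_zero]
  · exact valT_of_notMem ι T b y hy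

end Ker

end

end Fermat.Agent.S55.Middle.LocOffKerEmb
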