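/-
S55 / Middle / ROW (LOC-off), part 7 (helper99): the PLACE form of `LocOffSupp`.

`LocalProd.projLoc K L T ⟨q, 𝔪⟩ = LocalProdT.projQ K L T q ≫ ρJ` (`πc = ρc ∘ evalQ`), hence a class of
`Hⁿ(Jn K L T)` whose components at all places `𝔪 ∣ q` vanish has vanishing `q`-component, and

* `jB_eq_zero_of_projLoc` : `jB a = 0` as soon as the components of `a` at all places of `K` over
  primes `q ∈ T ∖ S` vanish (`cohEquivLoc` form: `jB_eq_zero_of_cohEquivLoc`).
-/
import Mathlib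
import Fermat.Agent.S55.Middle.LocOffSupp
import Fermat.Agent.S55.Global.LocalProdCoh

set_option autoImplicit false
set_option linter.unusedSectionVars false
set_option linter.style.haveILetI false

open scoped TensorProduct Pointwise
open CategoryTheory groupCohomology

namespace Fermat.Agent.S55.Middle.LocOffPlaces

noncomputable section

open Fermat.Agent.S55.Formal
open Fermat.Agent.S55.Middle.Defs Fermat.Agent.S55.Middle.DivDef Fermat.Agent.S55.Middle.Cap
open Fermat.Agent.S55.Middle.CapDiv Fermat.Agent.S55.Middle.LocOff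
open Fermat.Agent.S55.Global.Objects Fermat.Agent.S55.Global.Objects2
open Fermat.Agent.S55.Global Fermat.Agent.S55.Global.Blocks3
open Fermat.Agent.S55.Global.LocalProdAbs Fermat.Agent.S55.Global.LocalProdRep
open Fermat.Agent.S55.Global.LocalProdInst Fermat.Agent.S55.Global.LocalProd
open Fermat.Agent.S55.Global.LocalProdT

section Single

variable (K : Type) [Field K] [NumberField K]
variable (L : Type) [Field L] [NumberField L] [Algebra K L]
variable {J : Type} (F : J → Type) [∀ j, CommRing (F j)] [∀ j, Algebra ℚ (F j)]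

theorem ρc_tensorAct (j : J) (𝔪 : MaximalSpectrum (K ⊗[ℚ] F j)) (σ : L ≃ₐ[K] L)
    (z : L ⊗[ℚ] F j) :
    ρc K L F j 𝔪 (tensorAct (F j) (resHom K L σ) z) =
      tensorAct ((K ⊗[ℚ] F j) ⧸ 𝔪.asIdeal) σ (ρc K L F j 𝔪 z) := by
  induction z using TensorProduct.induction_on with
  | zero => simp
  | tmul l a =>
    rw [tensorAct_tmul, ρc_tmul, ρc_tmul, tensorAct_tmul]
    rfl
  | add x y hx hy =>
    rw [_root_.map_add, RingHom.map_add, hx, hy, RingHom.map_add, _root_.map_add]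

theorem ρc_includeLeft (j : J) (𝔪 : MaximalSpectrum (K ⊗[ℚ] F j)) (l : L) :
    ρc K L F j 𝔪 (l ⊗ₜ[ℚ] (1 : F j)) = l ⊗ₜ[K] (1 : (K ⊗[ℚ] F j) ⧸ 𝔪.asIdeal) := by
  rw [ρc_tmul]
  rfl

/-- the single-factor decomposition `L ⊗[ℚ] F j ≅ ∏_𝔪 L ⊗[K] ((K ⊗[ℚ] F j) ⧸ 𝔪)` -/
theorem isLocalDecomp_ρc [Fintype J] [DecidableEq J] (j : J) [IsArtinianRing (K ⊗[ℚ] F j)]
    [IsReduced (K ⊗[ℚ] F j)] :
    IsLocalDecomp (K := K) (L := L) (A := F j)
      (C := fun 𝔪 : MaximalSpectrum (K ⊗[ℚ] F j) => (K ⊗[ℚ] F j) ⧸ 𝔪.asIdeal)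
      (ρc K L F j) :=
  ⟨isProdDecomp_ρc K L F j, fun 𝔪 σ z => ρc_tensorAct K L F j 𝔪 σ z,
    fun 𝔪 l => ρc_includeLeft K L F j 𝔪 l⟩

end Single

section Places

variable (K : Type) [Field K] [NumberField K]
variable (L : Type) [Field L] [NumberField L] [Algebra K L]
variable (T : Finset Nat.Primes)

/-- the single-prime decomposition at `q ∈ T` -/
theorem isLocalDecomp_ρq (q : T) :
    IsLocalDecomp (K := K) (L := L) (A := QF T q)
      (C := fun 𝔪 : MaximalSpectrum (K ⊗[ℚ] QF T q) => (K ⊗[ℚ] QF T q) ⧸ 𝔪.asIdeal)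
      (ρc K L (QF T) q) :=
  haveI : IsArtinianRing (K ⊗[ℚ] QF T q) := LocalProd.isArtinianRing_Ksemi K q
  haveI : IsReduced (K ⊗[ℚ] QF T q) := LocalProd.isReduced_Ksemi K q
  isLocalDecomp_ρc K L (QF T) q

/-- the projection `Jq K L q ⟶ Jloc K L q 𝔪` -/
def ρJ (q : T) (𝔪 : MaximalSpectrum (Ksemi K (q : Nat.Primes))) :
    Jq K L (q : Nat.Primes) ⟶ Jloc K L (q : Nat.Primes) 𝔪.asIdeal :=
  projJ (isLocalDecomp_ρq K L T q) 𝔪

/-- **`projLoc` factors through `projQ`.** -/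
theorem projLoc_eq_comp (x : PlaceIdx K T) :
    projLoc K L T x = projQ K L T x.1 ≫ ρJ K L T x.1 x.2 := by
  apply Rep.hom_ext
  apply Representation.IntertwiningMap.ext
  refine LinearMap.ext fun a => ?_
  exact congrArg Additive.ofMul (Units.ext rfl)

/-- a class whose components at all places over `q` vanish has vanishing `q`-component -/
theorem projQ_eq_zero_of_projLoc (q : T) (n : ℕ) (a : groupCohomology (Jn K L T) n)
    (h : ∀ 𝔪 : MaximalSpectrum (Ksemi K (q : Nat.Primes)),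
      (groupCohomology.map (MonoidHom.id (L ≃ₐ[K] L)) (projLoc K L T ⟨q, 𝔪⟩) n).hom a = 0) :
    (groupCohomology.map (MonoidHom.id (L ≃ₐ[K] L)) (projQ K L T q) n).hom a = 0 := by
  classical
  haveI : IsArtinianRing (K ⊗[ℚ] QF T q) := LocalProd.isArtinianRing_Ksemi K q
  haveI : Fintype (MaximalSpectrum (K ⊗[ℚ] QF T q)) := Fintype.ofFinite _
  refine eq_zero_of_projJ (isLocalDecomp_ρq K L T q) n _ (fun 𝔪 => ?_)
  have h1 := h 𝔪
  rw [projLoc_eq_comp K L T ⟨q, 𝔪⟩, groupCohomology.map_id_comp] at h1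
  exact h1

end Places

section Level

variable {S : Finset Nat.Primes} {P : Subgroup GQ} {𝒱 : NBasis ↥P}
  (hfine : IsCont (PreludeLC.globalBasis S) 𝒱 P.subtype) (hfin : P.FiniteIndex)
variable (K : Type) [Field K] [NumberField K] {L : Type} [Field L] [NumberField L] [Algebra K L]
  (ι : L →+* Qbar) (T : Finset Nat.Primes)
  {F : IntermediateField ℚ Qbar} (hF : F.IsUnramifiedOutside S) (hι : ∀ l : L, ι l ∈ F)
variable (V : Subgroup ↥P) [V.Normal] (φ : ↥P ⧸ V →* (L ≃ₐ[K] L))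
  (hφ : ∀ (h : ↥P) (l : L), ι (φ (h : ↥P ⧸ V) l) = (h : GQ) (ι l))
variable [Finite (↥P ⧸ V)] (hV : 𝒱.mem V)

/-- **`jB` only sees the places off `S`** (place form). -/
theorem jB_eq_zero_of_projLoc (a : groupCohomology (Jn K L T) 2)
    (h : ∀ x : PlaceIdx K T, ((x.1 : T) : Nat.Primes) ∉ S →
      (groupCohomology.map (MonoidHom.id (L ≃ₐ[K] L)) (projLoc K L T x) 2).hom a = 0) :
    jB hfine hfin K ι T hF hι V φ hφ hV a = 0 :=
  LocOffSupp.jB_eq_zero_of_proj hfine hfin K ι T hF hι V φ hφ hV a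
    (fun q hq => projQ_eq_zero_of_projLoc K L T q 2 a (fun 𝔪 => h ⟨q, 𝔪⟩ hq))

/-- the same in `cohEquivLoc` form -/
theorem jB_eq_zero_of_cohEquivLoc (a : groupCohomology (Jn K L T) 2)
    (h : ∀ x : PlaceIdx K T, ((x.1 : T) : Nat.Primes) ∉ S →
      LocalProdCoh.cohEquivLoc K L T 2 a x = 0) :
    jB hfine hfin K ι T hF hι V φ hφ hV a = 0 :=
  jB_eq_zero_of_projLoc hfine hfin K ι T hF hι V φ hφ hV a
    (fun x hx => by
      have := h x hx
      rwa [LocalProdCoh.cohEquivLoc_apply] at this)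

/-- two classes with the same components at all places off `S` have the same image -/
theorem jB_eq_of_projLoc (a a' : groupCohomology (Jn K L T) 2)
    (h : ∀ x : PlaceIdx K T, ((x.1 : T) : Nat.Primes) ∉ S →
      (groupCohomology.map (MonoidHom.id (L ≃ₐ[K] L)) (projLoc K L T x) 2).hom a =
        (groupCohomology.map (MonoidHom.id (L ≃ₐ[K] L)) (projLoc K L T x) 2).hom a') :
    jB hfine hfin K ι T hF hι V φ hφ hV a = jB hfine hfin K ι T hF hι V φ hφ hV a' := by
  rw [← sub_eq_zero, ← map_sub]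
  refine jB_eq_zero_of_projLoc hfine hfin K ι T hF hι V φ hφ hV _ fun x hx => ?_
  rw [map_sub, h x hx, sub_self]

end Level

end

end Fermat.Agent.S55.Middle.LocOffPlaces
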