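/-
S55 / Middle / ROW (LOC-off), part 5 (helper60): RESTRICTION of the set of primes `T`.

For `T' ⊆ T` the projection `ℚ_T → ℚ_T'` induces `resJn : Jn K L T ⟶ Jn K L T'`, and helper99's
valuation map is ADDITIVE in `T`:

* `valT_res`  : `valT ι T' (res b) y = valT ι T b y` at the places `y` over `T'`;
* `valT_split` : `T = T₀ ⊔ T₁` ⇒ `valT ι T b = valT ι T₀ (res b) + valT ι T₁ (res b)`;
* `jB_split`  : `jB T a = jB T₀ ((resJn h₀)_* a) + jB T₁ ((resJn h₁)_* a)`;
* `jB_eq_zero_of_subset` : `jB T'' = 0` for `T'' ⊆ S` (the divisor map only sees the places off `S`).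
-/
import Mathlib
import Fermat.Agent.S55.Middle.LocOff
import Fermat.Agent.S55.Global.LocalProdT

set_option autoImplicit false
set_option linter.unusedSectionVars false
set_option linter.style.haveILetI false

open scoped TensorProduct Pointwise
open CategoryTheory groupCohomology

namespace Fermat.Agent.S55.Middle.LocOffRes

noncomputable section

open Fermat.Agent.S55.Formal Fermat.Agent.S55.Formal.LCLevel Fermat.Agent.S55.Formal.LCLevelH
open Fermat.Agent.S55.Middle.Defs Fermat.Agent.S55.Middle.DivDef Fermat.Agent.S55.Middle.Cap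
open Fermat.Agent.S55.Middle.CapDiv Fermat.Agent.S55.Middle.LocOffVal
open Fermat.Agent.S55.Middle.LocOffNorm Fermat.Agent.S55.Middle.LocOff
open Fermat.Agent.S55.Global.Objects Fermat.Agent.S55.Global.Objects2

/-! ### the restriction maps -/

section Ring

variable {T T' : Finset Nat.Primes} (h : T' ⊆ T)

/-- `ℚ_T → ℚ_T'` for `T' ⊆ T` -/
def resQT : QT T →ₐ[ℚ] QT T' :=
  AlgHom.pi
    (fun q : T' => Pi.evalAlgHom ℚ (fun p : T => ℚ_[((p : Nat.Primes) : ℕ)]) ⟨q.1, h q.2⟩)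

@[simp] theorem resQT_apply (f : QT T) (q : T') : resQT h f q = f ⟨q.1, h q.2⟩ := rfl

variable (L : Type) [Field L] [NumberField L]

/-- `L ⊗[ℚ] ℚ_T → L ⊗[ℚ] ℚ_T'` -/
def resLT : L ⊗[ℚ] QT T →ₐ[ℚ] L ⊗[ℚ] QT T' :=
  Algebra.TensorProduct.map (AlgHom.id ℚ L) (resQT h)

@[simp] theorem resLT_tmul (l : L) (f : QT T) :
    resLT h L (l ⊗ₜ[ℚ] f) = l ⊗ₜ[ℚ] resQT h f := rfl

theorem resLT_smul (σ : L ≃ₐ[ℚ] L) (z : L ⊗[ℚ] QT T) :
    resLT h L (σ • z) = σ • resLT h L z := by
  induction z using TensorProduct.induction_on with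
  | zero => simp
  | tmul l f => rfl
  | add x y hx hy => rw [smul_add, map_add, map_add, smul_add, hx, hy]

/-- the restriction on units -/
def resU : (L ⊗[ℚ] QT T)ˣ →* (L ⊗[ℚ] QT T')ˣ :=
  Units.map (resLT h L : L ⊗[ℚ] QT T →* L ⊗[ℚ] QT T')

@[simp] theorem val_resU (b : (L ⊗[ℚ] QT T)ˣ) :
    ((resU h L b : (L ⊗[ℚ] QT T')ˣ) : L ⊗[ℚ] QT T') = resLT h L (b : L ⊗[ℚ] QT T) := rfl

theorem resU_smul (σ : L ≃ₐ[ℚ] L) (b : (L ⊗[ℚ] QT T)ˣ) :
    resU h L (σ • b) = σ • resU h L b := by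
  apply Units.ext
  exact resLT_smul h L σ b

/-- compatibility with the projections to the components -/
theorem projT_resLT (q : Nat.Primes) (hq : q ∈ T') (z : L ⊗[ℚ] QT T) :
    projT (L := L) T' q hq (resLT h L z) = projT (L := L) T q (h hq) z := by
  induction z using TensorProduct.induction_on with
  | zero => simp
  | tmul l f => rfl
  | add x y hx hy => rw [map_add, map_add, map_add, hx, hy]

end Ring

/-! ### `valT` is additive in `T` -/

section Val

variable {S : Finset Nat.Primes} {L : Type} [Field L] [NumberField L] (ι : L →+* Qbar)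
  {T T' : Finset Nat.Primes} (h : T' ⊆ T)

/-- at the places over `T'` the valuation of the restriction is the valuation -/
theorem valT_res (b : (L ⊗[ℚ] QT T)ˣ) (y : Xoff S) (hy : y.prime ∈ T') :
    valT (S := S) ι T' (resU h L b) y = valT (S := S) ι T b y := by
  unfold valT
  rw [dif_pos hy, dif_pos (h hy)]
  unfold locAt
  rw [val_resU, projT_resLT]

/-- **additivity in `T`** -/
theorem valT_split {T₀ T₁ : Finset Nat.Primes} (h₀ : T₀ ⊆ T) (h₁ : T₁ ⊆ T)
    (hcov : ∀ q ∈ T, q ∈ T₀ ∨ q ∈ T₁) (hdisj : ∀ q ∈ T₀, q ∉ T₁)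
    (b : (L ⊗[ℚ] QT T)ˣ) (y : Xoff S) :
    valT (S := S) ι T b y =
      valT (S := S) ι T₀ (resU h₀ L b) y + valT (S := S) ι T₁ (resU h₁ L b) y := by
  by_cases hy : y.prime ∈ T
  · rcases hcov _ hy with h0 | h1
    · rw [valT_res ι h₀ b y h0, valT_of_notMem ι T₁ _ y (hdisj _ h0), add_zero]
    · have h0 : y.prime ∉ T₀ := fun h0 => hdisj _ h0 h1
      rw [valT_res ι h₁ b y h1, valT_of_notMem ι T₀ _ y h0, zero_add]
  · rw [valT_of_notMem ι T b y hy, valT_of_notMem ι T₀ _ y (fun h0 => hy (h₀ h0)),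
      valT_of_notMem ι T₁ _ y (fun h1 => hy (h₁ h1)), add_zero]

/-- no place off `S` lies over a set of primes contained in `S` -/
theorem valT_eq_zero_of_subset {T'' : Finset Nat.Primes} (hS : ∀ q ∈ T'', q ∈ S)
    (b : (L ⊗[ℚ] QT T'')ˣ) (y : Xoff S) : valT (S := S) ι T'' b y = 0 :=
  valT_of_notMem ι T'' b y (fun hy => y.prime_notMem (hS _ hy))

end Val

/-! ### the restriction as a morphism of `Gal(L/K)`-modules -/

section Rep

variable (K : Type) [Field K] [NumberField K] {L : Type} [Field L] [NumberField L] [Algebra K L]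
  {T T' : Finset Nat.Primes} (h : T' ⊆ T)

/-- `Jn K L T ⟶ Jn K L T'` for `T' ⊆ T` -/
def resJn : Jn K L T ⟶ Jn K L T' :=
  (Rep.resFunctor (resHom K L)).map
    (Fermat.Agent.S55.Global.LocalProdAbs.repHom (G := L ≃ₐ[ℚ] L) (resU h L)
      (fun σ b => resU_smul h L σ b))

theorem resJn_apply (a : Jn K L T) :
    (resJn K h).hom a = Additive.ofMul (resU h L (Additive.toMul a)) := rfl

end Rep

/-! ### `jB` is additive in `T` -/

theorem H2π_add {k G : Type} [CommRing k] [Group G] (B : Rep.{0, 0, 0} k G) (c₀ c₁ : cocycles₂ B) :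
    H2π B (c₀ + c₁) = H2π B c₀ + H2π B c₁ := map_add (H2π B).hom c₀ c₁

section Level

variable {S : Finset Nat.Primes} {P : Subgroup GQ} {𝒱 : NBasis ↥P}
  (hfine : IsCont (PreludeLC.globalBasis S) 𝒱 P.subtype) (hfin : P.FiniteIndex)
variable (K : Type) [Field K] [NumberField K] {L : Type} [Field L] [NumberField L] [Algebra K L]
  (ι : L →+* Qbar) (T : Finset Nat.Primes)
  {F : IntermediateField ℚ Qbar} (hF : F.IsUnramifiedOutside S) (hι : ∀ l : L, ι l ∈ F)
variable (V : Subgroup ↥P) [V.Normal] (φ : ↥P ⧸ V →* (L ≃ₐ[K] L))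
  (hφ : ∀ (h : ↥P) (l : L), ι (φ (h : ↥P ⧸ V) l) = (h : GQ) (ι l))
variable [Finite (↥P ⧸ V)] (hV : 𝒱.mem V)

/-- `jB T (res_* [f])` at cocycle level -/
theorem jB_res_π {T' : Finset Nat.Primes} (h : T' ⊆ T) (f : cocycles₂ (Jn K L T)) :
    jB hfine hfin K ι T' hF hι V φ hφ hV
        ((groupCohomology.map (MonoidHom.id (L ≃ₐ[K] L)) (resJn K h) 2).hom (H2π _ f)) =
      ι₂ 𝒱 (Div 𝒱 (Xoff S)) V hV
        (H2π _ (mapCocycles₂ (A := Jn K L T')
          (B := (Div 𝒱 (Xoff S)).quotientToInvariants V) φ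
          (valRep hfine hfin K ι T' hF hι V φ hφ)
          (mapCocycles₂ (A := Jn K L T) (B := Jn K L T')
            (MonoidHom.id (L ≃ₐ[K] L)) (resJn K h) f))) := by
  have e1 : (groupCohomology.map (MonoidHom.id (L ≃ₐ[K] L)) (resJn K h) 2).hom (H2π _ f) =
      H2π _ (mapCocycles₂ (A := Jn K L T) (B := Jn K L T')
        (MonoidHom.id (L ≃ₐ[K] L)) (resJn K h) f) :=
    H2π_comp_map_apply (A := Jn K L T) (B := Jn K L T')
      (MonoidHom.id (L ≃ₐ[K] L)) (resJn K h) f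
  rw [e1]
  exact jB_π hfine hfin K ι T' hF hι V φ hφ hV _

/-- **`jB` is additive in `T`**: for `T = T₀ ⊔ T₁`,
`jB T a = jB T₀ (res_* a) + jB T₁ (res_* a)`. -/
theorem jB_split {T₀ T₁ : Finset Nat.Primes} (h₀ : T₀ ⊆ T) (h₁ : T₁ ⊆ T)
    (hcov : ∀ q ∈ T, q ∈ T₀ ∨ q ∈ T₁) (hdisj : ∀ q ∈ T₀, q ∉ T₁)
    (a : groupCohomology (Jn K L T) 2) :
    jB hfine hfin K ι T hF hι V φ hφ hV a =
      jB hfine hfin K ι T₀ hF hι V φ hφ hV
          ((groupCohomology.map (MonoidHom.id (L ≃ₐ[K] L)) (resJn K h₀) 2).hom a) +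
        jB hfine hfin K ι T₁ hF hι V φ hφ hV
          ((groupCohomology.map (MonoidHom.id (L ≃ₐ[K] L)) (resJn K h₁) 2).hom a) := by
  induction a using H2_induction_on with
  | h f =>
    have hc : mapCocycles₂ (A := Jn K L T) (B := (Div 𝒱 (Xoff S)).quotientToInvariants V) φ
        (valRep hfine hfin K ι T hF hι V φ hφ) f =
        mapCocycles₂ (A := Jn K L T₀) (B := (Div 𝒱 (Xoff S)).quotientToInvariants V) φ
          (valRep hfine hfin K ι T₀ hF hι V φ hφ)
          (mapCocycles₂ (A := Jn K L T) (B := Jn K L T₀)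
            (MonoidHom.id (L ≃ₐ[K] L)) (resJn K h₀) f) +
        mapCocycles₂ (A := Jn K L T₁) (B := (Div 𝒱 (Xoff S)).quotientToInvariants V) φ
          (valRep hfine hfin K ι T₁ hF hι V φ hφ)
          (mapCocycles₂ (A := Jn K L T) (B := Jn K L T₁)
            (MonoidHom.id (L ≃ₐ[K] L)) (resJn K h₁) f) := by
      apply Subtype.ext
      funext ⟨g, k⟩
      apply Subtype.ext
      apply div_ext
      intro y
      change toFun 𝒱 (Xoff S) (divT hfine hfin ι T hF hι (Additive.toMul (f (φ g, φ k)))) y =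
        toFun 𝒱 (Xoff S)
          (divT hfine hfin ι T₀ hF hι (resU h₀ L (Additive.toMul (f (φ g, φ k)))) +
            divT hfine hfin ι T₁ hF hι (resU h₁ L (Additive.toMul (f (φ g, φ k))))) y
      rw [toFun_add, toFun_divT, toFun_divT, toFun_divT]
      exact valT_split ι h₀ h₁ hcov hdisj _ y
    have e := jB_π hfine hfin K ι T hF hι V φ hφ hV f
    have e0 := jB_res_π hfine hfin K ι T hF hι V φ hφ hV h₀ f
    have e1 := jB_res_π hfine hfin K ι T hF hι V φ hφ hV h₁ f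
    refine e.trans ?_
    refine Eq.trans ?_ (congrArg₂ (· + ·) e0 e1).symm
    rw [hc]
    exact (congrArg (ι₂ 𝒱 (Div 𝒱 (Xoff S)) V hV) (H2π_add _ _ _)).trans
      ((ι₂ 𝒱 (Div 𝒱 (Xoff S)) V hV).map_add _ _)

/-- **`jB T'' = 0` for `T'' ⊆ S`**: the divisor map only sees the places off `S`. -/
theorem jB_eq_zero_of_subset (hS : ∀ q ∈ T, q ∈ S) (a : groupCohomology (Jn K L T) 2) :
    jB hfine hfin K ι T hF hι V φ hφ hV a = 0 := by
  induction a using H2_induction_on with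
  | h f =>
    rw [jB_π]
    have e3 : mapCocycles₂ (A := Jn K L T) (B := (Div 𝒱 (Xoff S)).quotientToInvariants V) φ
        (valRep hfine hfin K ι T hF hι V φ hφ) f = 0 := by
      apply Subtype.ext
      funext ⟨g, k⟩
      apply Subtype.ext
      apply div_ext
      intro y
      change toFun 𝒱 (Xoff S) (divT hfine hfin ι T hF hι (Additive.toMul (f (φ g, φ k)))) y =
        toFun 𝒱 (Xoff S) 0 y
      rw [toFun_divT, toFun_zero]
      exact valT_eq_zero_of_subset ι hS _ y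
    rw [e3, map_zero, map_zero]

end Level

end

end Fermat.Agent.S55.Middle.LocOffRes
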