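/-
S55 / MIDDLE block, row (LOC-S) of helper17 #1935 — ABSTRACT CORE (helper14).

Setting (any commutative ring `k`; use `k` generic to avoid the `ℤ`-module diamond):
* LC global: `(Γ, 𝒰, A)`, level `V ∈ 𝒰`;  LC local: `(D, 𝒱, B)`, level `W ∈ 𝒱`;
  `α : Mor 𝒰 A 𝒱 B` (localisation: restriction along `α.f : D →* Γ` and coefficient map) with
  `α.f W ⊆ V`;
* finite global: `(G, X)` with `pe : PairEquiv (Inv A V) X` (Galois dictionary
  `(Γ ⧸ V, A^V) ≅ (Gal(L/K), Lˣ)`), semilocal module `J` with `ι : X ⟶ J`;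
* decomposition group `Gw ≤ G`, local module `Y : Rep k Gw`, projection
  `pr : Rep.res Gw.subtype J ⟶ Y`, local dictionary `pl : PairEquiv (Inv B W) Y`.

Results:
* `routes_eq` : the two routes `H²(Γ ⧸ V, A^V) → H²(Gw, Y)` agree, given the two compatibilities
  `c1 : pe.e (f d) = pl.e d` (groups) and `c2 : pl.φ (φ a) = pr (ι (pe.φ a))` (coefficients);
* `jA hW Gw pr pl : H²(G, J) →ₗ H2 𝒱 B` (restrict + project, transport, inflate);
  `jA_injective` (from injectivity of the explicit Shapiro map and of the local inflation);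
  `jA_loc : jA (ι_* z) = α.h2 (inflH2 (pe⁻¹ z))`;  `loc_eq_zero_iff`;
* `inflH2_eq_ι₂`, `inflH1_eq_ι₁` : helper67's `Dict.inflH2` is helper60's `LCLevelH.ι₂`;
  `inflH2_injective_of_h1` (Hilbert 90 at all deeper levels ⇒ `inflH2` injective).
-/
import Mathlib
import Fermat.Agent.S55.Middle.Dict
import Fermat.Agent.S55.Coh.PairEquiv
import Fermat.Agent.S55.Formal.LCLevelInj

set_option autoImplicit false
set_option linter.unusedSectionVars false

open CategoryTheory groupCohomology

namespace Fermat.Agent.S55.Middle.LocSAbs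

open Fermat.Agent.S55.Formal Fermat.Agent.S55.Middle.Dict Fermat.Agent.S55.Coh.PairEquiv

noncomputable section

/-! ### two routes between finite groups -/

section Routes

variable {k : Type} [CommRing k] {Q G D' : Type} [Group Q] [Group G] [Group D']
variable {IA : Rep.{0, 0, 0} k Q} {X J : Rep.{0, 0, 0} k G} {IB : Rep.{0, 0, 0} k D'}
variable (pe : PairEquiv IA X) (ι : X ⟶ J)
variable (Gw : Subgroup G) {Y : Rep.{0, 0, 0} k Gw} (pr : Rep.res Gw.subtype J ⟶ Y)
variable (pl : PairEquiv IB Y)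
variable (f : D' →* Q) (φ : Rep.res f IA ⟶ IB)

/-- the coefficient part of `pe.cohomologyIso.hom`, as a morphism of representations -/
def peHom : Rep.res (pe.e.symm : G →* Q) IA ⟶ X :=
  Rep.ofHom ⟨pe.φ.toLinearMap, fun h => by
    ext a
    simp only [LinearMap.comp_apply, LinearEquiv.coe_coe]
    have := pe.comm (pe.e.symm h) a
    rw [MulEquiv.apply_symm_apply] at this
    exact this⟩

lemma cohomologyIso_hom_π (x : cocycles₂ IA) :
    (pe.cohomologyIso 2).hom.hom (H2π IA x) =
      H2π X (mapCocycles₂ (pe.e.symm : G →* Q) (peHom pe) x) :=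
  H2π_comp_map_apply _ _ x

/-- The two routes `H²(Q, IA) → H²(Gw, Y)` agree: through `(G, X) → (G, J) → (Gw, Y)` and through
`(D', IB) ≅ (Gw, Y)`. -/
theorem routes_eq
    (c1 : ∀ d : D', pe.e (f d) = ((pl.e d : Gw) : G))
    (c2 : ∀ a : IA, pl.φ (φ.hom a) = pr.hom (ι.hom (pe.φ a)))
    (y : groupCohomology IA 2) :
    (groupCohomology.map Gw.subtype pr 2).hom
        ((groupCohomology.map (MonoidHom.id G) ι 2).hom ((pe.cohomologyIso 2).hom.hom y)) =
      (pl.cohomologyIso 2).hom.hom ((groupCohomology.map f φ 2).hom y) := by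
  induction y using H2_induction_on with
  | h x =>
    have e1 := cohomologyIso_hom_π pe x
    have e2 : (groupCohomology.map (MonoidHom.id G) ι 2).hom
        (H2π X (mapCocycles₂ (pe.e.symm : G →* Q) (peHom pe) x)) = _ :=
      H2π_comp_map_apply (MonoidHom.id G) ι _
    have e3 : (groupCohomology.map Gw.subtype pr 2).hom
        (H2π J (mapCocycles₂ (MonoidHom.id G) ι
          (mapCocycles₂ (pe.e.symm : G →* Q) (peHom pe) x))) = _ :=
      H2π_comp_map_apply Gw.subtype pr _
    have b1 : (groupCohomology.map f φ 2).hom (H2π IA x) = _ := H2π_comp_map_apply f φ x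
    have b2 := cohomologyIso_hom_π pl (mapCocycles₂ f φ x)
    rw [e1, e2, e3, b1, b2]
    congr 1
    apply Subtype.ext
    funext ⟨g, h⟩
    show pr.hom (ι.hom (pe.φ ((x : Q × Q → IA) (pe.e.symm (g : G), pe.e.symm (h : G))))) =
      pl.φ (φ.hom ((x : Q × Q → IA) (f (pl.e.symm g), f (pl.e.symm h))))
    have hg : ∀ g : Gw, f (pl.e.symm g) = pe.e.symm (g : G) := by
      intro g
      have := c1 (pl.e.symm g)
      rw [MulEquiv.apply_symm_apply] at this
      rw [← this, MulEquiv.symm_apply_apply]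
    rw [c2, hg, hg]

end Routes

/-! ### the local-global comparison map `jA` -/

section LC

variable {k : Type} [CommRing k] {Γ D : Type} [Group Γ] [Group D]
variable {𝒰 : NBasis Γ} {A : Rep.{0, 0, 0} k Γ} {𝒱 : NBasis D} {B : Rep.{0, 0, 0} k D}
variable (α : Mor 𝒰 A 𝒱 B)
variable {V : Subgroup Γ} [V.Normal] {W : Subgroup D} [W.Normal] (hle : ∀ s ∈ W, α.f s ∈ V)
variable (hV : 𝒰.mem V) (hW : 𝒱.mem W)
variable {G : Type} [Group G] {X J : Rep.{0, 0, 0} k G} (pe : PairEquiv (Inv A V) X) (ι : X ⟶ J)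
variable (Gw : Subgroup G) {Y : Rep.{0, 0, 0} k Gw} (pr : Rep.res Gw.subtype J ⟶ Y)
variable (pl : PairEquiv (Inv B W) Y)

/-- The comparison map from the semilocal finite-level group `H²(G, J)` to the LC cohomology of the
local group: restrict to the decomposition group and project (`pr`), transport to the finite level
`W` of the local group (`pl`), inflate. -/
def jA : groupCohomology J 2 →ₗ[k] H2 𝒱 B :=
  inflH2 𝒱 B hW ∘ₗ (pl.cohomologyIso 2).inv.hom ∘ₗ (groupCohomology.map Gw.subtype pr 2).hom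

lemma jA_apply (x : groupCohomology J 2) :
    jA hW Gw pr pl x =
      inflH2 𝒱 B hW ((pl.cohomologyIso 2).inv.hom ((groupCohomology.map Gw.subtype pr 2).hom x)) :=
  rfl

/-- `jA` is injective when the explicit semilocal Shapiro map `(res, pr)` is injective and the
local inflation is injective (local Hilbert 90). -/
theorem jA_injective (hinj : Function.Injective (inflH2 𝒱 B hW))
    (hpr : Function.Injective (groupCohomology.map Gw.subtype pr 2).hom) :
    Function.Injective (jA hW Gw pr pl) := by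
  intro x x' h
  rw [jA_apply, jA_apply] at h
  have h1 := hinj h
  have h2 : (pl.cohomologyIso 2).hom.hom ((pl.cohomologyIso 2).inv.hom
      ((groupCohomology.map Gw.subtype pr 2).hom x)) =
      (pl.cohomologyIso 2).hom.hom ((pl.cohomologyIso 2).inv.hom
      ((groupCohomology.map Gw.subtype pr 2).hom x')) := congrArg _ h1
  rw [Iso.inv_hom_id_apply, Iso.inv_hom_id_apply] at h2
  exact hpr h2

/-- **Compatibility**: `jA ∘ (localisation at finite level) = (LC localisation) ∘ inflation`. -/
theorem jA_loc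
    (c1 : ∀ d : D ⧸ W, pe.e (qf α hle d) = ((pl.e d : Gw) : G))
    (c2 : ∀ a : Inv A V, pl.φ (lvl₀ α hle a) = pr.hom (ι.hom (pe.φ a)))
    (z : groupCohomology X 2) :
    jA hW Gw pr pl ((groupCohomology.map (MonoidHom.id G) ι 2).hom z) =
      α.h2 (inflH2 𝒰 A hV ((pe.cohomologyIso 2).inv.hom z)) := by
  rw [h2_inflH2 α hle hV hW, jA_apply]
  congr 1
  have key := routes_eq pe ι Gw pr pl (qf α hle) (lvlHom α hle) c1 c2
    ((pe.cohomologyIso 2).inv.hom z)
  rw [Iso.inv_hom_id_apply] at key
  rw [key, Iso.hom_inv_id_apply]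

/-- Consumer form: the LC localisation of an inflated class vanishes iff the finite-level
semilocal component vanishes. -/
theorem loc_eq_zero_iff (hinj : Function.Injective (inflH2 𝒱 B hW))
    (hpr : Function.Injective (groupCohomology.map Gw.subtype pr 2).hom)
    (c1 : ∀ d : D ⧸ W, pe.e (qf α hle d) = ((pl.e d : Gw) : G))
    (c2 : ∀ a : Inv A V, pl.φ (lvl₀ α hle a) = pr.hom (ι.hom (pe.φ a)))
    (z : groupCohomology X 2) :
    α.h2 (inflH2 𝒰 A hV ((pe.cohomologyIso 2).inv.hom z)) = 0 ↔
      (groupCohomology.map (MonoidHom.id G) ι 2).hom z = 0 := by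
  rw [← jA_loc α hle hV hW pe ι Gw pr pl c1 c2 z]
  constructor
  · intro h
    exact jA_injective hW Gw pr pl hinj hpr (h.trans (map_zero _).symm)
  · intro h
    rw [h, map_zero]

end LC

/-! ### the two level libraries agree: `Dict.inflH2 = LCLevelH.ι₂` -/

section TwoLibraries

open Fermat.Agent.S55.Formal.LCLevelH Fermat.Agent.S55.Formal.LCLevel

variable {k : Type} [CommRing k] {G : Type} [Group G] (𝒰 : NBasis G) (M : Rep.{0, 0, 0} k G)
variable {V : Subgroup G} [V.Normal] [Finite (G ⧸ V)] (hV : 𝒰.mem V)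

theorem inflH2_eq_ι₂ : inflH2 𝒰 M hV = ι₂ 𝒰 M V hV := by
  apply LinearMap.ext
  intro y
  induction y using H2_induction_on with
  | h x =>
    rw [ι₂_π]
    erw [inflH2_π]
    rfl

theorem inflH1_eq_ι₁ : inflH1 𝒰 M hV = ι₁ 𝒰 M V hV := by
  apply LinearMap.ext
  intro y
  induction y using H1_induction_on with
  | h x =>
    rw [ι₁_π]
    erw [inflH1_π]
    rfl

/-- `inflH2` is injective when `H¹(V/V', M^{V'}) = 0` for all deeper levels (Hilbert 90). -/
theorem inflH2_injective_of_h1
    (h1 : ∀ V', 𝒰.mem V' → V' ≤ V → ∀ [V'.Normal], Limits.IsZero (groupCohomology.H1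
      (Rep.res (Fermat.Agent.S55.Formal.LCLevelInj.relSub V V').subtype
        (M.quotientToInvariants V')))) :
    Function.Injective (inflH2 𝒰 M hV) := by
  rw [inflH2_eq_ι₂]
  exact Fermat.Agent.S55.Formal.LCLevelInj.ι₂_injective M V 𝒰 hV h1

end TwoLibraries

end

end Fermat.Agent.S55.Middle.LocSAbs
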