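/-
S55 / MIDDLE block, row HbnColim: the closed hypothesis `HbnColimB.Cover S` of
`HbnColimB.hasseO` (helper35), LITERALLY, from `LocSCover.exists_mem_reps_mAt_eq` (helper67).
-/
import Fermat.Agent.S55.Middle.HbnColimB
import Fermat.Agent.S55.Middle.LocSCover

set_option autoImplicit false

namespace Fermat.Agent.S55.Middle.LocSCoverFinal

open Fermat.Agent.S55.Middle.KSite

/-- **(COVER)**, unconditional. -/
theorem cover (S : Finset Nat.Primes) : Fermat.Agent.S55.Middle.HbnColimB.Cover S := by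
  intro P _ R _ q 𝔪 h𝔪
  haveI := h𝔪
  obtain ⟨t, ht, h⟩ := Fermat.Agent.S55.Middle.LocSCover.exists_mem_reps_mAt_eq S P R q 𝔪
  exact ⟨⟨t, ht⟩, h⟩

end Fermat.Agent.S55.Middle.LocSCoverFinal
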