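/-
S55 / MIDDLE block, row (LOC-S) (helper14): `Middle/LocSAbs.lean` with the decomposition group given
by a HOMOMORPHISM `g : Gw →* G` instead of a subgroup (this is the shape of helper39's
`Coh/SemilocalExplicit.jGenGroupHom : Gal(F(eL)/F) →* Gal(L/K)`): `routes_eq`, `jA`, `jA_injective`,
`jA_loc`.
-/
import Fermat.Agent.S55.Middle.LocSAbs

set_option autoImplicit false
set_option linter.unusedSectionVars false

open CategoryTheory groupCohomology

namespace Fermat.Agent.S55.Middle.LocSHom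

open Fermat.Agent.S55.Formal Fermat.Agent.S55.Middle.Dict Fermat.Agent.S55.Coh.PairEquiv
open Fermat.Agent.S55.Middle.LocSAbs

noncomputable section

section Routes

variable {k : Type} [CommRing k] {Q G D' Gw : Type} [Group Q] [Group G] [Group D'] [Group Gw]
variable {IA : Rep.{0, 0, 0} k Q} {X J : Rep.{0, 0, 0} k G} {IB : Rep.{0, 0, 0} k D'}
variable {Y : Rep.{0, 0, 0} k Gw}
variable (pe : PairEquiv IA X) (ι : X ⟶ J)
variable (g : Gw →* G) (pr : Rep.res g J ⟶ Y)
variable (pl : PairEquiv IB Y)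
variable (f : D' →* Q) (φ : Rep.res f IA ⟶ IB)

/-- `LocSAbs.routes_eq` with the decomposition group given by a homomorphism `g : Gw →* G`. -/
theorem routes_eq
    (c1 : ∀ d : D', pe.e (f d) = g (pl.e d))
    (c2 : ∀ a : IA, pl.φ (φ.hom a) = pr.hom (ι.hom (pe.φ a)))
    (y : groupCohomology IA 2) :
    (groupCohomology.map g pr 2).hom
        ((groupCohomology.map (MonoidHom.id G) ι 2).hom ((pe.cohomologyIso 2).hom.hom y)) =
      (pl.cohomologyIso 2).hom.hom ((groupCohomology.map f φ 2).hom y) := by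
  induction y using H2_induction_on with
  | h x =>
    have e1 := cohomologyIso_hom_π pe x
    have e2 : (groupCohomology.map (MonoidHom.id G) ι 2).hom
        (H2π X (mapCocycles₂ (pe.e.symm : G →* Q) (peHom pe) x)) = _ :=
      H2π_comp_map_apply (MonoidHom.id G) ι _
    have e3 : (groupCohomology.map g pr 2).hom
        (H2π J (mapCocycles₂ (MonoidHom.id G) ι
          (mapCocycles₂ (pe.e.symm : G →* Q) (peHom pe) x))) = _ :=
      H2π_comp_map_apply g pr _
    have b1 : (groupCohomology.map f φ 2).hom (H2π IA x) = _ := H2π_comp_map_apply f φ x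
    have b2 := cohomologyIso_hom_π pl (mapCocycles₂ f φ x)
    rw [e1, e2, e3, b1, b2]
    congr 1
    apply Subtype.ext
    funext ⟨a, b⟩
    show pr.hom (ι.hom (pe.φ ((x : Q × Q → IA) (pe.e.symm (g a), pe.e.symm (g b))))) =
      pl.φ (φ.hom ((x : Q × Q → IA) (f (pl.e.symm a), f (pl.e.symm b))))
    have hg : ∀ a : Gw, f (pl.e.symm a) = pe.e.symm (g a) := by
      intro a
      have := c1 (pl.e.symm a)
      rw [MulEquiv.apply_symm_apply] at this
      rw [← this, MulEquiv.symm_apply_apply]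
    rw [c2, hg, hg]

end Routes

section LC

variable {k : Type} [CommRing k] {Γ D : Type} [Group Γ] [Group D]
variable {𝒰 : NBasis Γ} {A : Rep.{0, 0, 0} k Γ} {𝒱 : NBasis D} {B : Rep.{0, 0, 0} k D}
variable (α : Mor 𝒰 A 𝒱 B)
variable {V : Subgroup Γ} [V.Normal] {W : Subgroup D} [W.Normal] (hle : ∀ s ∈ W, α.f s ∈ V)
variable (hV : 𝒰.mem V) (hW : 𝒱.mem W)
variable {G Gw : Type} [Group G] [Group Gw] {X J : Rep.{0, 0, 0} k G}
variable (pe : PairEquiv (Inv A V) X) (ι : X ⟶ J)
variable (g : Gw →* G) {Y : Rep.{0, 0, 0} k Gw} (pr : Rep.res g J ⟶ Y)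
variable (pl : PairEquiv (Inv B W) Y)

/-- restrict along `g` and project (`pr`), transport to the finite level `W` of the local group
(`pl`), inflate. -/
def jA : groupCohomology J 2 →ₗ[k] H2 𝒱 B :=
  inflH2 𝒱 B hW ∘ₗ (pl.cohomologyIso 2).inv.hom ∘ₗ (groupCohomology.map g pr 2).hom

lemma jA_apply (x : groupCohomology J 2) :
    jA hW g pr pl x =
      inflH2 𝒱 B hW ((pl.cohomologyIso 2).inv.hom ((groupCohomology.map g pr 2).hom x)) :=
  rfl

theorem jA_injective (hinj : Function.Injective (inflH2 𝒱 B hW))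
    (hpr : Function.Injective (groupCohomology.map g pr 2).hom) :
    Function.Injective (jA hW g pr pl) := by
  intro x x' h
  rw [jA_apply, jA_apply] at h
  have h1 := hinj h
  have h2 : (pl.cohomologyIso 2).hom.hom ((pl.cohomologyIso 2).inv.hom
      ((groupCohomology.map g pr 2).hom x)) =
      (pl.cohomologyIso 2).hom.hom ((pl.cohomologyIso 2).inv.hom
      ((groupCohomology.map g pr 2).hom x')) := congrArg _ h1
  rw [Iso.inv_hom_id_apply, Iso.inv_hom_id_apply] at h2
  exact hpr h2

theorem jA_loc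
    (c1 : ∀ d : D ⧸ W, pe.e (qf α hle d) = g (pl.e d))
    (c2 : ∀ a : Inv A V, pl.φ (lvl₀ α hle a) = pr.hom (ι.hom (pe.φ a)))
    (z : groupCohomology X 2) :
    jA hW g pr pl ((groupCohomology.map (MonoidHom.id G) ι 2).hom z) =
      α.h2 (inflH2 𝒰 A hV ((pe.cohomologyIso 2).inv.hom z)) := by
  rw [h2_inflH2 α hle hV hW, jA_apply]
  congr 1
  have key := routes_eq pe ι g pr pl (qf α hle) (lvlHom α hle) c1 c2
    ((pe.cohomologyIso 2).inv.hom z)
  rw [Iso.inv_hom_id_apply] at key
  rw [key, Iso.hom_inv_id_apply]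

end LC

end

end Fermat.Agent.S55.Middle.LocSHom
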