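/-
S55 / Middle / OutArithN (helper97, row `M.out.arithN`): `ArithBase` from the outputs of the Middle
block with the RESTRICTED QUANTIFIERS of the remedy of reports 2358 / 2366.

The consumers (`OutSkeleton.ULevel`, `OutArith`, `InvArith`) use `KG3`, `KG2`, `KNoSingleSupport`
only at NORMAL levels `P ∈ globalBasis S` (`U` with `𝒰.mem U`, and `ker χ_p`); only `KVanish₃` and
`KFin` are needed at all open `P`.  So:

* `KG3N`, `KG2N`, `KNSSN` : the Props of `Middle/Blocks` with the extra binder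
  `(globalBasis S).mem P`;  `OutputsN p S`;  `outputsN_of_outputs`;
* `g₃_at`, `g₂_at` : the transfer to the doubly indexed language at ONE `(U, R)`;
* `invArithN` : `KG3N → KNSSN → OutArith.InvArith p S`;
* `uLevel_of_outputsN`, `baseA_of_outputsN`, `arithBase_of_outputsN`.
-/
import Fermat.Agent.S55.Middle.OutArith
import Fermat.Agent.S55.Middle.InvArith
import Fermat.Agent.S55.LM.OutFinal

set_option autoImplicit false
set_option linter.unusedSectionVars false

open CategoryTheory groupCohomology Module ExtCitation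

namespace Fermat.Agent.S55.Middle.OutArithN

open Fermat.Agent.S55.Formal Fermat.Agent.S55.Formal.ArithSite
open Fermat.Agent.S55.Formal.PreludeLC hiding GQ Qbar
open Fermat.Agent.S55.Bridge.ShapiroLC Fermat.Agent.S55.Bridge.Mackey
  Fermat.Agent.S55.Bridge.MackeyLC Fermat.Agent.S55.Middle.OutDict
  Fermat.Agent.S55.Middle.Defs Fermat.Agent.S55.Middle.KSite
  Fermat.Agent.S55.Middle.Blocks Fermat.Agent.S55.Middle.OutSkeleton
  Fermat.Agent.S55.Middle.OutArith Fermat.Agent.S55.LM.ShapiroPerm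

noncomputable section

variable (p : ℕ) [Fact p.Prime] (S : Finset Nat.Primes)

/-! ### the restricted Props -/

/-- **(K-G3)** at the normal levels `P ∈ globalBasis S`. -/
def KG3N : Prop :=
  ∀ (P : Subgroup GQ), (globalBasis S).mem P → Level p S P → ∀ R : Reps S P,
    Module.Finite (ZMod p) ((siteOver S P R).P2 (kP p P) ⧸
      LinearMap.range ((siteOver S P R).loc₂ (kP p P))) ∧
    finrank (ZMod p) ((siteOver S P R).P2 (kP p P) ⧸
      LinearMap.range ((siteOver S P R).loc₂ (kP p P))) ≤ 1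

/-- **(K-G2)** at the normal levels `P ∈ globalBasis S`. -/
def KG2N : Prop :=
  ∀ (P : Subgroup GQ), (globalBasis S).mem P → Level p S P → ∀ R : Reps S P,
    Module.Finite (ZMod p) ((siteOver S P R).P1 (kP p P)) ∧
    Module.Finite (ZMod p) ↥((siteOver S P R).sha2 (kP p P)) ∧
    finrank (ZMod p) ((siteOver S P R).P1 (kP p P)) +
      finrank (ZMod p) ↥((siteOver S P R).sha1 (kP p P)) +
      finrank (ZMod p) ↥((siteOver S P R).sha2 (kP p P)) ≤
        2 * finrank (ZMod p) (H1 (basisP S P) (kP p P))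

/-- **(K-NSS)** at the normal levels `P ∈ globalBasis S`. -/
def KNSSN : Prop :=
  ∀ (P : Subgroup GQ), (globalBasis S).mem P → Level p S P → ∀ R : Reps S P,
    ∀ (x : H2 (basisP S P) (kP p P)) (i₀ : R.Idx),
      (∀ i : R.Idx, i ≠ i₀ → ((siteOver S P R).res (kP p P) i).h2 x = 0) →
        ((siteOver S P R).res (kP p P) i₀).h2 x = 0

/-- The outputs of the Middle block that `ArithBase` really consumes: `KVanish₃`, `KFin` at all open
`P` with `χ_p|P = 1`, and `KG3`, `KG2`, `KNoSingleSupport` at the normal levels only. -/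
structure OutputsN : Prop where
  vanish₃ : KVanish₃ p S
  fin : KFin p S
  g₃ : KG3N p S
  g₂ : KG2N p S
  nss : KNSSN p S

variable {p S}

theorem kG3N_of (h : KG3 p S) : KG3N p S := fun P _ hL R => h P hL R

theorem kG2N_of (h : KG2 p S) : KG2N p S := fun P _ hL R => h P hL R

theorem kNSSN_of (h : KNoSingleSupport p S) : KNSSN p S := fun P _ hL R => h P hL R

theorem outputsN_of_outputs (h : Outputs p S) : OutputsN p S :=
  ⟨h.vanish₃, h.fin, kG3N_of h.g₃, kG2N_of h.g₂, kNSSN_of h.nss⟩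

/-! ### the transfers at one `(U, R)` -/

/-- `KG3` at `(U, R)` in the doubly indexed language. -/
theorem g₃_at (U : Subgroup GQ) (R : Reps S U)
    (h1 : Module.Finite (ZMod p) ((siteOver S U R).P2 (kP p U) ⧸
        LinearMap.range ((siteOver S U R).loc₂ (kP p U))) ∧
      finrank (ZMod p) ((siteOver S U R).P2 (kP p U) ⧸
        LinearMap.range ((siteOver S U R).loc₂ (kP p U))) ≤ 1) :
    Module.Finite (ZMod p) (LocProd₂ (arithSite S) U (kP p U) R.T ⧸
        LinearMap.range (Lam₂ (arithSite S) U (kP p U) R.T)) ∧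
      finrank (ZMod p) (LocProd₂ (arithSite S) U (kP p U) R.T ⧸
        LinearMap.range (Lam₂ (arithSite S) U (kP p U) R.T)) ≤ 1 := by
  have E := cokerE S U R (kP p U)
  have h2 := E.finrank_eq
  have h3 := h1.2
  have h1' := h1.1
  have h5 := Module.Finite.equiv E
  rw [h2] at h3
  exact ⟨h5, h3⟩

set_option maxHeartbeats 1000000 in
/-- `KG2` at `(U, R)` in the doubly indexed language. -/
theorem g₂_at (U : Subgroup GQ) (R : Reps S U)
    (h1 : Module.Finite (ZMod p) ((siteOver S U R).P1 (kP p U)) ∧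
      Module.Finite (ZMod p) ↥((siteOver S U R).sha2 (kP p U)) ∧
      finrank (ZMod p) ((siteOver S U R).P1 (kP p U)) +
        finrank (ZMod p) ↥((siteOver S U R).sha1 (kP p U)) +
        finrank (ZMod p) ↥((siteOver S U R).sha2 (kP p U)) ≤
          2 * finrank (ZMod p) (H1 (basisP S U) (kP p U))) :
    Module.Finite (ZMod p) (LocProd₁ (arithSite S) U (kP p U) R.T) ∧
      finrank (ZMod p) (LocProd₁ (arithSite S) U (kP p U) R.T) +
          finrank (ZMod p) ↥(LinearMap.ker (Lam₁ (arithSite S) U (kP p U) R.T)) +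
          finrank (ZMod p) ↥(LinearMap.ker (Lam₂ (arithSite S) U (kP p U) R.T)) ≤
        2 * finrank (ZMod p) (H1 (basisP S U) (kP p U)) := by
  have e1 := (P1E S U R (kP p U)).finrank_eq
  have e2 := (sha1E S U R (kP p U)).finrank_eq
  have e3 := (sha2E S U R (kP p U)).finrank_eq
  have h1' := h1.1
  have h5 := Module.Finite.equiv (P1E S U R (kP p U))
  have h3 := h1.2.2
  rw [e1, e2, e3] at h3
  exact ⟨h5, h3⟩

/-- the `U`-level field `g₃` from `KG3N`. -/
theorem uLevel_g₃N (h : KG3N p S) (U : Subgroup GQ) (hU : (arithSite S).𝒰.mem U)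
    (hχ : TrivOn (cycloChar p) U) :
    ∃ T : (arithSite S).I → Set (arithSite S).G, IsReps (arithSite S) U T ∧
      Module.Finite (ZMod p) (LocProd₂ (arithSite S) U (Rep.trivial (ZMod p) U (ZMod p)) T ⧸
        LinearMap.range (Lam₂ (arithSite S) U (Rep.trivial (ZMod p) U (ZMod p)) T)) ∧
      finrank (ZMod p) (LocProd₂ (arithSite S) U (Rep.trivial (ZMod p) U (ZMod p)) T ⧸
        LinearMap.range (Lam₂ (arithSite S) U (Rep.trivial (ZMod p) U (ZMod p)) T)) ≤ 1 := by
  have hV : (arithSite S).𝒰.IsOpen U := isOpen_of_mem (arithSite S).𝒰 hU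
  have : U.FiniteIndex := (arithSite S).𝒰.finiteIndex hU
  exact (nonempty_reps S U).elim fun R =>
    ⟨R.T, isReps_of_reps S U R, g₃_at U R (h U hU (level_of hV hχ) R)⟩

/-- the `U`-level field `g₂` from `KG2N`. -/
theorem uLevel_g₂N (h : KG2N p S) (U : Subgroup GQ) (hU : (arithSite S).𝒰.mem U)
    (hχ : TrivOn (cycloChar p) U) :
    ∃ T : (arithSite S).I → Set (arithSite S).G, IsReps (arithSite S) U T ∧
      Module.Finite (ZMod p) (LocProd₁ (arithSite S) U (Rep.trivial (ZMod p) U (ZMod p)) T) ∧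
      finrank (ZMod p) (LocProd₁ (arithSite S) U (Rep.trivial (ZMod p) U (ZMod p)) T) +
          finrank (ZMod p)
            ↥(LinearMap.ker (Lam₁ (arithSite S) U (Rep.trivial (ZMod p) U (ZMod p)) T)) +
          finrank (ZMod p)
            ↥(LinearMap.ker (Lam₂ (arithSite S) U (Rep.trivial (ZMod p) U (ZMod p)) T)) ≤
        2 * finrank (ZMod p) (H1 (subBasis (arithSite S).𝒰 U) (Rep.trivial (ZMod p) U (ZMod p))) := by
  have hV : (arithSite S).𝒰.IsOpen U := isOpen_of_mem (arithSite S).𝒰 hU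
  have : U.FiniteIndex := (arithSite S).𝒰.finiteIndex hU
  exact (nonempty_reps S U).elim fun R =>
    ⟨R.T, isReps_of_reps S U R, g₂_at U R (h U hU (level_of hV hχ) R)⟩

/-! ### `inv` -/

section Inv

open Fermat.Agent.S55.Middle.InvArith Fermat.Agent.S55.Middle.LocalCycloSurj

/-- `KNSSN` at `ker χ_p` in the doubly indexed language -/
theorem nssUN (hpS : pPrime p ∈ S) (hn : KNSSN p S) (R : Reps S (cycloChar p).ker) :
    NssU (arithSite S) (cycloChar p).ker (kP p (cycloChar p).ker) (T := R.T) := by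
  intro x v0 t0 h
  have hU : (globalBasis S).mem (cycloChar p).ker := ker_cycloChar_mem_globalBasis p hpS
  have hlev : Level p S (cycloChar p).ker := ⟨⟨_, hU, le_rfl⟩, fun g hg => hg⟩
  exact hn (cycloChar p).ker hU hlev R x ⟨v0, t0⟩ (fun i hi => h i.1 i.2 hi)

/-- **(A-inv) for the arithmetic site** from `KG3N`, `KNSSN` (used at `ker χ_p` only). -/
theorem invArithN (hpS : pPrime p ∈ S) (hg : KG3N p S) (hn : KNSSN p S) : InvArith p S := by
  have hU : (arithSite S).𝒰.mem (cycloChar p).ker := ker_cycloChar_mem_globalBasis p hpS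
  have hV : (arithSite S).𝒰.IsOpen (cycloChar p).ker := ⟨_, hU, le_rfl⟩
  have hχ : TrivOn (cycloChar p) (cycloChar p).ker := trivOn_ker_cycloChar p
  have hfi : (cycloChar p).ker.FiniteIndex := (arithSite S).𝒰.finiteIndex hU
  refine (nonempty_reps S (cycloChar p).ker).elim fun R => ?_
  have hT := isReps_of_reps S (cycloChar p).ker R
  -- (A-G3) for `perm k U`
  have hg3 := g₃_at (cycloChar p).ker R (hg (cycloChar p).ker hU (level_of hV hχ) R)
  have E := cokerLoc₂Equiv (arithSite S) (cycloChar p).ker hV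
    (Rep.trivial (ZMod p) (cycloChar p).ker (ZMod p)) (permIso (ZMod p) (cycloChar p).ker) hT
  have hfin : Module.Finite (ZMod p) ((arithSite S).P2 (perm (ZMod p) (cycloChar p).ker) ⧸
      LinearMap.range ((arithSite S).loc₂ (perm (ZMod p) (cycloChar p).ker))) :=
    @Module.Finite.equiv _ _ _ _ _ _ _ _ hg3.1 E.symm
  have hrank : finrank (ZMod p) ((arithSite S).P2 (perm (ZMod p) (cycloChar p).ker) ⧸
      LinearMap.range ((arithSite S).loc₂ (perm (ZMod p) (cycloChar p).ker))) ≤ 1 :=
    E.finrank_eq.le.trans hg3.2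
  -- no single support for `perm k U`
  have hns := hns_of_uLevel (arithSite S) (cycloChar p).ker
    (Rep.trivial (ZMod p) (cycloChar p).ker (ZMod p)) hV (permIso (ZMod p) (cycloChar p).ker) hT
    (nssUN hpS hn R) (nzU p S R)
  -- the place `p`
  have h0 := PermResTransitive.finite_finrank_H2_res_perm_cyclo p (ZMod p)
    ((arithSite S).𝒱 ⟨pPrime p, hpS⟩) 1
    (Fermat.Agent.S55.LM.OutFinal.loc₂_arith p S ⟨pPrime p, hpS⟩
      ((cycloChar p).ker.comap (primeLocalToGlobal (pPrime p)))
      (comap_ker_mem_localBasis p (pPrime p)) (fun d hd => hd))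
  exact InvDescent.baseA_inv_of_perm_noSingleSupport (arithSite S) (cycloChar p) (cycloChar p).ker
    hU hχ (index_ker_cycloChar_ne_zero p) hfin hrank hns ⟨pPrime p, hpS⟩ h0.1 h0.2
    (Fermat.Agent.S55.LM.H2MuTwist.h2_mu_ne_zero_arith S p ⟨pPrime p, hpS⟩)

end Inv

/-! ### the arithmetic base -/

set_option maxHeartbeats 1000000 in
/-- **The `U`-level base of the arithmetic site** from `OutputsN` (all the rest is unconditional). -/
theorem uLevel_of_outputsN (hpS : pPrime p ∈ S) (hout : OutputsN p S) :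
    ULevel (arithSite S) (ZMod p) (cycloChar p) where
  nonempty := ⟨⟨pPrime p, hpS⟩⟩
  chi_smooth := ArithChi.chi_smooth hpS
  inv := invArithN hpS hout.g₃ hout.nss
  vanish₃ P hP hχ := hout.vanish₃ P (level_of hP hχ)
  vanish₃_loc v P hP hχ := (vanish₃_perm_iff ((arithSite S).𝒱 v) P hP).1
    (Fermat.Agent.S55.LM.OutFinal.vanish₃_loc_arith p S v P hP hχ)
  fin₁ P hP hχ := (hout.fin P (level_of hP hχ)).1
  fin₂ P hP hχ := (hout.fin P (level_of hP hχ)).2
  loc₂ v U hU hχ := by
    have hop : ((arithSite S).𝒱 v).IsOpen U := isOpen_of_mem _ hU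
    obtain ⟨h1, h2⟩ := Fermat.Agent.S55.LM.OutFinal.loc₂_arith p S v U hU hχ
    exact ⟨(finite_H2_perm_iff ((arithSite S).𝒱 v) U hop).1 h1,
      (finrank_H2_perm ((arithSite S).𝒱 v) U hop).symm.le.trans h2⟩
  g₃ U hU hχ := uLevel_g₃N hout.g₃ U hU hχ
  g₂ U hU hχ := uLevel_g₂N hout.g₂ U hU hχ

/-- **`BaseA` of the arithmetic site** from `OutputsN`. -/
theorem baseA_of_outputsN (hpS : pPrime p ∈ S) (hout : OutputsN p S) :
    BaseA (arithSite S) (ZMod p) (cycloChar p) :=
  baseA_of_uLevel (uLevel_of_outputsN hpS hout)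

/-- **`ArithBase`** from `OutputsN p S` for all odd `p ∈ S` — nothing else. -/
theorem arithBase_of_outputsN
    (hout : ∀ {p : ℕ} [Fact p.Prime], p ≠ 2 → ∀ (S : Finset Nat.Primes), pPrime p ∈ S →
      OutputsN p S) :
    ArithSite.ArithBase := fun hp2 S hpS => baseA_of_outputsN hpS (hout hp2 S hpS)

end

end Fermat.Agent.S55.Middle.OutArithN
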