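/-
S55 / Middle / M.out, RESTRICTED-QUANTIFIER CONSUMERS (helper51, author of `OutCover`).

`BaseA (arithSite S) (ZMod p) (cycloChar p)` uses the `K`-site outputs `(K-G3)`, `(K-G2)`, `(K-NSS)`
ONLY at levels `U` which are MEMBERS of `globalBasis S` (normal in `G_ℚ`): `g₃`, `g₂` are quantified
over `X.𝒰.mem U`, and `inv` only needs the single level `U₀ = ker χ_p`.  Only `(K-V)` and `(K-fin)`
are needed at all open `P`.  So:

* `KG3At`, `KG2At`, `KNSSAt p R` : the three statements at ONE level `(P, R)` (literal bodies of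
  `Blocks.KG3`, `Blocks.KG2`, `Blocks.KNoSingleSupport`);
* `OutputsN p S` : `(K-V)`, `(K-fin)` for all levels, the other three only for `(globalBasis S).mem U`;
* `outputsN_of_outputs : Blocks.Outputs p S → OutputsN p S`;
* `baseA_of_outputsN`, `arithBase_of_outputsN : (∀ p odd, S ∋ p, OutputsN p S) → ArithBase`
  (local fields from `LM.OutFinal`, `inv` from `InvArithInputs` + `InvCover` at `ker χ_p`).
-/
import Fermat.Agent.S55.Middle.OutCoverLM
import Fermat.Agent.S55.Middle.InvCover
import Fermat.Agent.S55.Middle.InvArithInputs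
import Fermat.Agent.S55.LM.OutTriv
import Fermat.Agent.S55.Middle.CountP1kP

set_option autoImplicit false
set_option linter.unusedSectionVars false

open CategoryTheory groupCohomology Module ExtCitation

namespace Fermat.Agent.S55.Middle.OutCoverN

open Fermat.Agent.S55.Formal Fermat.Agent.S55.Formal.ArithSite
open Fermat.Agent.S55.Formal.PreludeLC hiding GQ Qbar
open Fermat.Agent.S55.Bridge.ShapiroLC Fermat.Agent.S55.Middle.Defs
open Fermat.Agent.S55.Middle.KSite Fermat.Agent.S55.Middle.Blocks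
open Fermat.Agent.S55.Middle.OutCover

/-- the hypothesis `hns` of `InvDescent.baseA_inv_of_perm_noSingleSupport`, as a generic Prop -/
def HnsShape (X : Site) (k : Type) [Field k] (U : Subgroup X.G) : Prop :=
  ∀ v : X.I, ∃ w : H2 (X.𝒱 v) (X.loc (perm k U) v),
    (X.P2equiv (perm k U)).symm (Pi.single v w) ∉ LinearMap.range (X.loc₂ (perm k U))

variable (p : ℕ) [Fact p.Prime] {S : Finset Nat.Primes}

section At

variable {P : Subgroup GQ} (R : Reps S P)

/-- **(K-G3)** at one level `(P, R)` (the literal body of `Blocks.KG3`). -/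
def KG3At : Prop :=
  Module.Finite (ZMod p) ((siteOver S P R).P2 (kP p P) ⧸
      LinearMap.range ((siteOver S P R).loc₂ (kP p P))) ∧
    finrank (ZMod p) ((siteOver S P R).P2 (kP p P) ⧸
      LinearMap.range ((siteOver S P R).loc₂ (kP p P))) ≤ 1

/-- **(K-G2)** at one level `(P, R)` (the literal body of `Blocks.KG2`). -/
def KG2At : Prop :=
  Module.Finite (ZMod p) ((siteOver S P R).P1 (kP p P)) ∧
    Module.Finite (ZMod p) ↥((siteOver S P R).sha2 (kP p P)) ∧
    finrank (ZMod p) ((siteOver S P R).P1 (kP p P)) +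
      finrank (ZMod p) ↥((siteOver S P R).sha1 (kP p P)) +
      finrank (ZMod p) ↥((siteOver S P R).sha2 (kP p P)) ≤
        2 * finrank (ZMod p) (H1 (basisP S P) (kP p P))

/-- **(K-NSS)** at one level `(P, R)` (the literal body of `Blocks.KNoSingleSupport`). -/
def KNSSAt : Prop :=
  ∀ (x : H2 (basisP S P) (kP p P)) (i₀ : R.Idx),
    (∀ i : R.Idx, i ≠ i₀ → ((siteOver S P R).res (kP p P) i).h2 x = 0) →
      ((siteOver S P R).res (kP p P) i₀).h2 x = 0

end At

variable (S)

/-- The outputs of the Middle block with the quantifiers that `BaseA` really uses: `(K-V)`, `(K-fin)`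
at every level, `(K-G3)`, `(K-G2)`, `(K-NSS)` only at the levels which are members of
`globalBasis S` (normal in `G_ℚ`). -/
structure OutputsN : Prop where
  vanish₃ : KVanish₃ p S
  fin : KFin p S
  g₃ : ∀ U : Subgroup GQ, (globalBasis S).mem U → Level p S U → ∀ R : Reps S U, KG3At p R
  g₂ : ∀ U : Subgroup GQ, (globalBasis S).mem U → Level p S U → ∀ R : Reps S U, KG2At p R
  nss : ∀ U : Subgroup GQ, (globalBasis S).mem U → Level p S U → ∀ R : Reps S U, KNSSAt p R

variable {p S}

/-- the unrestricted outputs give the restricted ones -/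
theorem outputsN_of_outputs (h : Outputs p S) : OutputsN p S :=
  ⟨h.vanish₃, h.fin, fun U _ hL R => h.g₃ U hL R, fun U _ hL R => h.g₂ U hL R,
    fun U _ hL R => h.nss U hL R⟩

/-- **`BaseA.g₃`** for the arithmetic site from `(K-G3)` at the members of the basis. -/
theorem g₃_of_KG3N
    (h : ∀ U : Subgroup GQ, (globalBasis S).mem U → Level p S U → ∀ R : Reps S U, KG3At p R) :
    G₃Shape (arithSite S) (ZMod p) (cycloChar p) := by
  intro U hU hχ
  have hV : (arithSite S).𝒰.IsOpen U := ⟨U, hU, le_rfl⟩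
  have : U.FiniteIndex := (globalBasis S).finiteIndex hU
  obtain ⟨R⟩ := KSite.nonempty_reps S U
  exact SiteOver.g₃_perm_of_cover (arithSite S) hV (toReps R) (h U hU (level_of_mem hU hχ) R)

/-- **`BaseA.g₂`** for the arithmetic site from `(K-fin)` and `(K-G2)` at the members of the basis. -/
theorem g₂_of_KG2N (hfin : KFin p S)
    (h : ∀ U : Subgroup GQ, (globalBasis S).mem U → Level p S U → ∀ R : Reps S U, KG2At p R) :
    G₂Shape (arithSite S) (ZMod p) (cycloChar p) := by
  intro U hU hχ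
  have hV : (arithSite S).𝒰.IsOpen U := ⟨U, hU, le_rfl⟩
  have : U.FiniteIndex := (globalBasis S).finiteIndex hU
  obtain ⟨R⟩ := KSite.nonempty_reps S U
  have hL := level_of_mem (p := p) hU hχ
  obtain ⟨fP, fS, hle⟩ := h U hU hL R
  obtain ⟨f1, -⟩ := hfin U hL
  refine SiteOver.g₂_perm_of_cover (arithSite S) hV (toReps R) (cycloChar p) hχ ?_
  have fc : Module.Finite (ZMod p) ((siteOver S U R).H2c (kP p U)) :=
    @SiteCount.finite_H2c' (ZMod p) _ (siteOver S U R) (kP p U) fP fS
  have hcount := @SiteCount.finrank_H2c_add (ZMod p) _ (siteOver S U R) (kP p U) f1 fP fc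
  refine ⟨fc, ?_⟩
  have h1 : finrank (ZMod p) ((siteOver S U R).H2c (kP p U)) ≤
      finrank (ZMod p) (H1 (basisP S U) (kP p U)) := by
    have hc : finrank (ZMod p) ((siteOver S U R).H2c (kP p U)) +
        finrank (ZMod p) (H1 (basisP S U) (kP p U)) =
      finrank (ZMod p) ((siteOver S U R).P1 (kP p U)) +
        finrank (ZMod p) ↥((siteOver S U R).sha1 (kP p U)) +
        finrank (ZMod p) ↥((siteOver S U R).sha2 (kP p U)) := hcount
    omega
  exact h1

/-- `hns` for `U₀ = ker χ_p` over the arithmetic site, from `(K-NSS)` at the ONE level `ker χ_p`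
(a member of `globalBasis S`). -/
theorem hns_of_KNSSN (hpS : pPrime p ∈ S)
    (h : ∀ U : Subgroup GQ, (globalBasis S).mem U → Level p S U → ∀ R : Reps S U, KNSSAt p R) :
    HnsShape (arithSite S) (ZMod p) (cycloChar p).ker := by
  intro v
  have hU : (arithSite S).𝒰.mem (cycloChar p).ker := InvArithInputs.mem_globalBasis_ker hpS
  have hχ : TrivOn (cycloChar p) (cycloChar p).ker := MuSummand.trivOn_ker_cycloChar p
  have hV : (arithSite S).𝒰.IsOpen (cycloChar p).ker := ⟨_, hU, le_rfl⟩
  have hL : Level p S (cycloChar p).ker := level_of_mem hU hχ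
  have : (cycloChar p).ker.FiniteIndex := (globalBasis S).finiteIndex hU
  obtain ⟨R⟩ := KSite.nonempty_reps S (cycloChar p).ker
  -- the place `(v, 1)` of the covering site, and a nonzero local class there
  have hopen : (LM.Defs.Vq v.1).IsOpen (Dloc (cycloChar p).ker v.1 (1 : GQ)) :=
    CountP1kP.isOpen_Dloc S hL.isOpen v.1 1
  have htriv := CountP1kP.cycloChar_trivial_Dloc p hL.triv v.1 (1 : GQ)
  have h5 := LM.OutTriv.loc₂_eq_one_ulevel p S v (Dloc (cycloChar p).ker v.1 (1 : GQ))
    hopen (fun s hs => htriv s hs)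
  obtain ⟨-, hrk⟩ := h5
  have hnss : ∀ (x : H2 (SiteOver.cover (arithSite S) (toReps R)).𝒰
        (Rep.trivial (ZMod p) (cycloChar p).ker (ZMod p)))
      (j₀ : (SiteOver.cover (arithSite S) (toReps R)).I),
      (∀ j, j ≠ j₀ → ((SiteOver.cover (arithSite S) (toReps R)).res
        (Rep.trivial (ZMod p) (cycloChar p).ker (ZMod p)) j).h2 x = 0) →
        ((SiteOver.cover (arithSite S) (toReps R)).res
          (Rep.trivial (ZMod p) (cycloChar p).ker (ZMod p)) j₀).h2 x = 0 := h _ hU hL R
  have hw : ∃ w₀ : H2 ((SiteOver.cover (arithSite S) (toReps R)).𝒱 ⟨v, ⟨1, R.one_mem v⟩⟩)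
      ((SiteOver.cover (arithSite S) (toReps R)).loc
        (Rep.trivial (ZMod p) (cycloChar p).ker (ZMod p)) ⟨v, ⟨1, R.one_mem v⟩⟩), w₀ ≠ 0 := by
    by_contra hne
    have hne' : ∀ w : H2 (subBasis ((arithSite S).𝒱 v) (Dloc (cycloChar p).ker v.1 (1 : GQ)))
        (Rep.trivial (ZMod p) (Dloc (cycloChar p).ker v.1 (1 : GQ)) (ZMod p)), w = 0 :=
      fun w => by
        by_contra hw
        exact hne ⟨w, hw⟩
    have : Subsingleton (H2 (subBasis ((arithSite S).𝒱 v) (Dloc (cycloChar p).ker v.1 (1 : GQ)))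
        (Rep.trivial (ZMod p) (Dloc (cycloChar p).ker v.1 (1 : GQ)) (ZMod p))) :=
      ⟨fun a b => (hne' a).trans (hne' b).symm⟩
    rw [finrank_zero_of_subsingleton] at hrk
    exact zero_ne_one hrk
  obtain ⟨w₀, hw₀⟩ := hw
  exact InvCover.exists_single_notMem (arithSite S) hV (toReps R) hnss v
    ⟨1, R.one_mem v⟩ w₀ hw₀

/-- **`BaseA.inv`** for the arithmetic site from `(K-G3)` and `(K-NSS)` at the members of the
basis (in fact only `ker χ_p` is used for `(K-NSS)`). -/
theorem invShape_of_N (hpS : pPrime p ∈ S)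
    (h3 : ∀ U : Subgroup GQ, (globalBasis S).mem U → Level p S U → ∀ R : Reps S U, KG3At p R)
    (hn : ∀ U : Subgroup GQ, (globalBasis S).mem U → Level p S U → ∀ R : Reps S U, KNSSAt p R) :
    InvShape (arithSite S) (ZMod p) (cycloChar p) :=
  InvArithInputs.inv_arith_of_g₃ hpS (g₃_of_KG3N h3) (hns_of_KNSSN hpS hn)

/-- **`BaseA` for the arithmetic site** from the restricted Middle outputs ALONE. -/
theorem baseA_of_outputsN (hpS : pPrime p ∈ S) (hO : OutputsN p S) :
    BaseA (arithSite S) (ZMod p) (cycloChar p) :=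
  baseA_of_shapes ⟨⟨pPrime p, hpS⟩⟩ (ArithChi.chi_smooth hpS) (invShape_of_N hpS hO.g₃ hO.nss)
    (vanish₃_of_KVanish₃ hO.vanish₃) OutCoverLM.vanish₃LocShape (fin₁_of_KFin hO.fin)
    (fin₂_of_KFin hO.fin) OutCoverLM.loc₂Shape (g₃_of_KG3N hO.g₃) (g₂_of_KG2N hO.fin hO.g₂)

/-- **`ArithBase`** from the restricted Middle outputs ALONE, for all `(p, S)`. -/
theorem arithBase_of_outputsN
    (h : ∀ {p : ℕ} [Fact p.Prime], p ≠ 2 → ∀ S : Finset Nat.Primes, pPrime p ∈ S →
      OutputsN p S) :
    ArithBase := fun hp2 S hpS => baseA_of_outputsN hpS (h hp2 S hpS)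

end Fermat.Agent.S55.Middle.OutCoverN
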