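/-
S55 / MIDDLE block, row M.outputsAsm (helper80; per helper55 #1991 / helper17 #1997 (4)):
CONDITIONAL ASSEMBLY of `Middle.Blocks.Outputs p S`.

  `outputs_of_blocks (hpS : pPrime p ∈ S) (F : LM facts) (h3 : H3Mu p S) (hfin : KFin p S)
     (hg2 : KG2 p S) (himg : ImageG3 p S) (hnss : ImageNSS p S) : Outputs p S`

* `KVanish₃`           ⇐ `H3Mu` + `MuIso.muIso` (`kVanish₃_of_h3Mu`), PROVED here;
* `KFin`, `KG2`        = hypotheses (rows M.fin (helper48) and the count (C6) (helper53 `kg2_of_counts`));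
* `KG3`                ⇐ `ImageG3` (`kG3_of`), PROVED here;
* `KNoSingleSupport`   ⇐ `ImageNSS` (`kNoSingleSupport_of`), PROVED here.

`ImageG3`, `ImageNSS` are two NEW closed Props in the `K`-site language, about `H²_LC(P; O_S)[p]` and
its local components `(locOS S P q t).h2` at the places `(q, t)`, `q ∈ S`, `t ∈ T_q` (targets of row
M.image = (C4): `Image.exists_lift_mod` / `ImageLevel.not_rel_of_level` instantiated):

* `ImageG3`  : there is `a₀ ∈ ⊕_i H²_LC(D_i; Ω_qˣ)[p]` such that every `a ∈ ⊕_i H²_LC(D_i; Ω_qˣ)[p]` is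
               `n • a₀ +` (local components of some `x ∈ H²_LC(P; O_S)[p]`);
* `ImageNSS` : `x ∈ H²_LC(P; O_S)[p]` locally trivial at all `i ≠ i₀` is locally trivial at `i₀`.

The passage `𝔽_p ↔ μ_p ↔ O_S / Ω_qˣ` is done HERE, once and for all:
* global: `transport₂ (basisP S P) (muIso p P hχ) : H²(P; 𝔽_p) ≃ H²(P; μ_p)` and the Kummer sequence
  `LESGlueV.exists_j₂_of_nsmul` (`H²(P; μ_p) ↠ H²(P; O_S)[p]`), `locOS_j₂ : locOS ∘ j₂ = locMu`;
* local: `psi : Rep.res κ_t (μ_p) ⟶ Ω_qˣ` (= the coefficient part of `locMu`), `isKummer_psi`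
  (`LocalLCCore.IsKummer`), hence `theta i : H²(D_i; 𝔽_p) → H²(D_i; Ω_qˣ)` injective
  (`theta_injective`, local Hilbert 90 from `LM.Out.Facts`), onto the `p`-torsion (`exists_theta_eq`),
  and compatible with localisation (`theta_res`);
* `finrank_loc_le_one` : `H²(D_i; 𝔽_p)` is finite of dimension `≤ 1` (`LocalLCMain.main`).

The LM input is `F : ∀ q (D : Subgroup (Gq q)), (Vq q).IsOpen D → LM.Out.Facts q D`, literally the
hypothesis of `LM.Out.vanish₃_loc_arith` (output of row LM.fix).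
-/
import Fermat.Agent.S55.Middle.Blocks
import Fermat.Agent.S55.Middle.MuIso
import Fermat.Agent.S55.Middle.LESGlueV
import Fermat.Agent.S55.Formal.SiteCount
import Fermat.Agent.S55.Formal.Functor
import Fermat.Agent.S55.LM.Out
import Fermat.Agent.S55.Bridge.MackeyProd

set_option autoImplicit false
set_option linter.unusedSectionVars false

open CategoryTheory groupCohomology ExtCitation Module

namespace Fermat.Agent.S55.Middle.OutputsAsm

noncomputable section

open Fermat.Agent.S55.Formal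
open Fermat.Agent.S55.Formal.PreludeLC hiding GQ Qbar
open Fermat.Agent.S55.Middle.Defs Fermat.Agent.S55.Middle.KSite Fermat.Agent.S55.Middle.Blocks
open Fermat.Agent.S55.Bridge.ScalarsLC Fermat.Agent.S55.Middle.MuIso
open Fermat.Agent.S55.LM.Defs

/-! ### generic: transport of `H²` along `toInt A ≅ B`, and restriction -/

section Transport

variable {k : Type} [CommRing k] {G G' : Type} [Group G] [Group G']
  (𝒰 : NBasis G) (𝒰' : NBasis G') (f : G' →* G) (hf : IsCont 𝒰 𝒰' f)
  {A : Rep.{0, 0, 0} k G} {B : Rep.{0, 0, 0} ℤ G} (e : toInt A ≅ B)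

/-- the transport `H²(A) → H²(B)` along `toInt A ≅ B` (bijective, see `transport₂_bijective`) -/
def transport₂ : H2 𝒰 A →+ H2 𝒰 B :=
  ((Mor.ofHom 𝒰 e.hom).h2.toAddMonoidHom).comp (h2IntEquiv 𝒰 A).toAddMonoidHom

theorem transport₂_apply (x : H2 𝒰 A) :
    transport₂ 𝒰 e x = (Mor.ofHom 𝒰 e.hom).h2 (h2IntEquiv 𝒰 A x) := rfl

theorem transport₂_bijective : Function.Bijective (transport₂ 𝒰 e) := by
  have h1 : Function.Bijective (h2IntEquiv 𝒰 A) := (h2IntEquiv 𝒰 A).bijective
  have h2 : Function.Bijective (h2IsoEquiv 𝒰 e) := (h2IsoEquiv 𝒰 e).bijective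
  exact h2.comp h1

/-- the restricted isomorphism -/
def resIso : toInt (Rep.res f A) ≅ Rep.res f B := (Rep.resFunctor f).mapIso e

theorem morToInt_res :
    morToInt (Mor.res 𝒰 𝒰' f hf A) = Mor.res 𝒰 𝒰' f hf (toInt A) :=
  Functor.mor_ext rfl rfl

/-- transport commutes with restriction -/
theorem transport₂_res (x : H2 𝒰 A) :
    transport₂ 𝒰' (resIso f e) ((Mor.res 𝒰 𝒰' f hf A).h2 x) =
      (Mor.res 𝒰 𝒰' f hf B).h2 (transport₂ 𝒰 e x) := by
  have h1 := morToInt_h2 (Mor.res 𝒰 𝒰' f hf A) x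
  rw [morToInt_res] at h1
  have h2 : (Mor.res 𝒰 𝒰' f hf B).h2 ((Mor.ofHom 𝒰 e.hom).h2 (h2IntEquiv 𝒰 A x)) =
      (Mor.ofHom 𝒰' ((Rep.resFunctor f).map e.hom)).h2
        ((Mor.res 𝒰 𝒰' f hf (toInt A)).h2 (h2IntEquiv 𝒰 A x)) :=
    congrFun (congrArg DFunLike.coe (Functor.ofHom_res_h2 𝒰 𝒰' f hf e.hom)) (h2IntEquiv 𝒰 A x)
  show (Mor.ofHom 𝒰' (resIso f e).hom).h2 (h2IntEquiv 𝒰' (Rep.res f A) ((Mor.res 𝒰 𝒰' f hf A).h2 x)) =
    (Mor.res 𝒰 𝒰' f hf B).h2 ((Mor.ofHom 𝒰 e.hom).h2 (h2IntEquiv 𝒰 A x))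
  refine Eq.trans ?_ h2.symm
  exact congrArg (Mor.ofHom 𝒰' (resIso f e).hom).h2 h1.symm

end Transport

variable (p : ℕ) [Fact p.Prime] (S : Finset Nat.Primes)

/-! ### (K-V) from `H3Mu` -/

/-- `H³_LC(P; 𝔽_p) = 0` from `H³_LC(P; μ_p) = 0` and `𝔽_p ≅ μ_p` over `P`. -/
theorem kVanish₃_of_h3Mu (h : H3Mu p S) : KVanish₃ p S := by
  intro P hP
  have h1 : Vanish₃ (basisP S P) (toInt (kP p P)) :=
    vanish₃_of_iso (basisP S P) (muIso p P hP.triv).symm (h P hP)
  exact (vanish₃_toInt_iff _ _).1 h1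

/-! ### the two closed Props on `H²_LC(P; O_S)[p]` consumed below -/

/-- the group of local components at the places of `K = ℚ̄^P` above `S` -/
abbrev LocBr {P : Subgroup GQ} (R : Reps S P) : Type :=
  ∀ i : R.Idx, H2 (basisLoc P i.1.1 i.2.1) (Ox i.1.1 (Dloc P i.1.1 i.2.1))

/-- **(C4), cokernel form**: modulo the local components of `H²_LC(P; O_S)[p]`, the `p`-torsion of
`⊕_{w | S} H²_LC(D_w; Ωˣ)` is generated by one element. -/
def ImageG3 : Prop :=
  ∀ (P : Subgroup GQ), Level p S P → ∀ R : Reps S P,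
    ∃ a₀ : LocBr S R, (∀ i, p • a₀ i = 0) ∧
      ∀ a : LocBr S R, (∀ i, p • a i = 0) →
        ∃ (n : ℕ) (x : H2 (basisP S P) (resP P (OS S))), p • x = 0 ∧
          ∀ i : R.Idx, (locOS S P i.1.1 i.2.1).h2 x = a i - n • a₀ i

/-- **(C4), no single support**: a class of `H²_LC(P; O_S)[p]` which is locally trivial at all
places above `S` but one is locally trivial at that place too. -/
def ImageNSS : Prop :=
  ∀ (P : Subgroup GQ), Level p S P → ∀ R : Reps S P,
    ∀ x : H2 (basisP S P) (resP P (OS S)), p • x = 0 → ∀ i₀ : R.Idx,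
      (∀ i : R.Idx, i ≠ i₀ → (locOS S P i.1.1 i.2.1).h2 x = 0) →
        (locOS S P i₀.1.1 i₀.2.1).h2 x = 0


/-! ### the local Kummer datum at `(q, t)` -/

section LocalKummer

attribute [local instance] Fermat.Agent.S55.LM.Defs.fact_q

variable (P : Subgroup GQ) (q : Nat.Primes) (t : GQ)

/-- the coefficient map `μ_p → Ω_qˣ` at `(q, t)`, as a morphism of representations of
`Dloc P q t`. -/
def psi : Rep.res (kappa P q t) (resP P (muP p)) ⟶ Ox q (Dloc P q t) :=
  Fermat.Agent.S55.LM.KummerTriv.mkHom (Rep.res (kappa P q t) (resP P (muP p))) (Ox q (Dloc P q t))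
    (locMu S P q t p).φ.toAddMonoidHom (fun c a => map_smul (locMu S P q t p).φ c a)
    (fun g a => (locMu S P q t p).equivar g a)

theorem psi_apply (a : muP p) : (psi p S P q t).hom a = embLin q t (valMu p a) := rfl

theorem locMu_eq : locMu S P q t p =
    (Mor.res (basisP S P) (basisLoc P q t) (kappa P q t) (kappa_cont S P q t)
      (resP P (muP p))).comp (Mor.ofHom (basisLoc P q t) (psi p S P q t)) :=
  Functor.mor_ext rfl rfl

theorem locMu_h2 (y : H2 (basisP S P) (resP P (muP p))) :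
    (locMu S P q t p).h2 y = (Mor.ofHom (basisLoc P q t) (psi p S P q t)).h2
      ((Mor.res (basisP S P) (basisLoc P q t) (kappa P q t) (kappa_cont S P q t)
        (resP P (muP p))).h2 y) := by
  have h := congrArg (fun β : Mor (basisP S P) (resP P (muP p)) (basisLoc P q t)
    (Ox q (Dloc P q t)) => β.h2 y) (locMu_eq p S P q t)
  simp only [Functor.comp_h2] at h
  exact h

theorem embLin_injective : Function.Injective (embLin q t) := by
  intro x y h
  have h1 : embUnits q t (toUnit x) = embUnits q t (toUnit y) := by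
    rw [← toU_embLin, ← toU_embLin, h]
  have h2 : Function.Injective (embUnits q t) := by
    unfold embUnits
    exact (Units.map_injective (padicEmbedding (q : ℕ)).injective).comp (MulAction.injective _)
  exact h2 h1

theorem psi_injective : Function.Injective (psi p S P q t).hom := fun _ _ h =>
  valMu_injective p (embLin_injective q t h)

/-- the cyclotomic character is trivial on `Dloc P q t` when it is trivial on `P`. -/
theorem triv_Dloc (hχ : ∀ g ∈ P, cycloChar p g = 1) :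
    ∀ s ∈ Dloc P q t, cycloChar p (primeLocalToGlobal q s) = 1 := by
  intro s hs
  have h := hχ _ (Fermat.Agent.S55.Bridge.Mackey.mem_conjSub.1 hs)
  rw [map_mul, map_mul, map_inv, mul_comm, inv_mul_cancel_left] at h
  exact h

/-- `p • ψ b = 0` -/
theorem smul_psi (b : muP p) : ((p : ℕ) : ℤ) • (psi p S P q t).hom b = 0 := by
  apply Fermat.Agent.S55.LM.KummerLocal.toUP_injective q (Dloc P q t)
  rw [Fermat.Agent.S55.LM.KummerLocal.toUP_natCast_zsmul,
    Fermat.Agent.S55.LM.KummerLocal.toUP_zero]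
  show embUnits q t (toUnit (valMu p b)) ^ p = 1
  rw [← map_pow, valMu_pow, map_one]

/-- the image of the chosen root of unity is a primitive `p`-th root of unity of `Ω_q` -/
theorem primitive_psi_zeta :
    IsPrimitiveRoot (((Fermat.Agent.S55.LM.KummerLocal.toUP q (Dloc P q t)
      ((psi p S P q t).hom (zetaMu p)) : (Om q)ˣ)) : Om q) p := by
  have h1 : IsPrimitiveRoot ((t⁻¹ : GQ) (zeta p)) p :=
    (zeta_spec p).map_of_injective (f := (t⁻¹ : GQ)) (AlgEquiv.injective _)
  exact h1.map_of_injective (f := padicEmbedding (q : ℕ)) (padicEmbedding (q : ℕ)).injective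

/-- every `p`-torsion element of `Ω_qˣ` is in the image of `ψ` -/
theorem exists_psi_eq (a : Ox q (Dloc P q t)) (ha : ((p : ℕ) : ℤ) • a = 0) :
    ∃ b : muP p, (psi p S P q t).hom b = a := by
  have hp0 : 0 < p := (Fact.out : p.Prime).pos
  have : NeZero p := ⟨hp0.ne'⟩
  have ha' : ((Fermat.Agent.S55.LM.KummerLocal.toUP q (Dloc P q t) a : (Om q)ˣ) : Om q) ^ p = 1 := by
    have h1 : (Fermat.Agent.S55.LM.KummerLocal.toUP q (Dloc P q t) a) ^ p = 1 := by
      rw [← Fermat.Agent.S55.LM.KummerLocal.toUP_natCast_zsmul, ha,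
        Fermat.Agent.S55.LM.KummerLocal.toUP_zero]
    have h2 := congrArg (fun w : (Om q)ˣ => (w : Om q)) h1
    simpa using h2
  obtain ⟨i, -, hi⟩ := (primitive_psi_zeta p S P q t).eq_pow_of_pow_eq_one ha'
  refine ⟨(i : ℤ) • zetaMu p, ?_⟩
  apply Fermat.Agent.S55.LM.KummerLocal.toUP_injective q (Dloc P q t)
  apply Units.ext
  rw [← hi]
  show ((embUnits q t (toUnit (valMu p ((i : ℤ) • zetaMu p))) : (Om q)ˣ) : Om q) = _
  have h3 : toUnit (valMu p ((i : ℤ) • zetaMu p)) = zetaUnit p ^ i := by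
    show toUnit ((i : ℤ) • (Additive.ofMul (zetaUnit p) : Additive Qbarˣ)) = zetaUnit p ^ i
    rw [natCast_zsmul, ← ofMul_pow]
    rfl
  rw [h3, map_pow, Units.val_pow_eq_pow_val]
  rfl

/-- **the local Kummer datum**: `ψ : μ_p → Ω_qˣ` over `Dloc P q t`. -/
theorem isKummer_psi (hχ : ∀ g ∈ P, cycloChar p g = 1) :
    Fermat.Agent.S55.Middle.LocalLCCore.IsKummer (basisLoc P q t) (Ox q (Dloc P q t))
      (Rep.res (kappa P q t) (resP P (muP p))) ((p : ℕ) : ℤ) (psi p S P q t) := by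
  obtain ⟨ι', h'⟩ := Fermat.Agent.S55.LM.KummerTriv.exists_isKummer q p (Dloc P q t)
    (triv_Dloc p P q t hχ)
  refine ⟨psi_injective p S P q t, ?_, h'.div, h'.smooth⟩
  intro a
  change Fermat.Agent.S55.LM.KummerTriv.msmul (Ox q (Dloc P q t)) ((p : ℕ) : ℤ) a = 0 ↔ _
  rw [Fermat.Agent.S55.LM.KummerTriv.msmul_eq]
  constructor
  · intro ha
    exact exists_psi_eq p S P q t a ha
  · rintro ⟨b, rfl⟩
    exact smul_psi p S P q t b

end LocalKummer


/-! ### global Kummer versus localisation -/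

section GlobalKummer

attribute [local instance] Fermat.Agent.S55.LM.Defs.fact_q

variable (P : Subgroup GQ) (q : Nat.Primes) (t : GQ)

/-- localisation of `O_S` after `μ_p → O_S` is localisation of `μ_p`. -/
theorem locOS_j₂ (hpS : pPrime p ∈ S) (y : H2 (basisP S P) (resP P (muP p))) :
    (locOS S P q t).h2 (LESGlueV.j₂ S P (basisP S P) p hpS y) = (locMu S P q t p).h2 y := by
  have h : (Mor.ofHom (basisP S P) (LESGlueV.φj S P p hpS)).comp (locOS S P q t) =
      locMu S P q t p := Functor.mor_ext rfl rfl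
  have h2 := congrArg (fun β : Mor (basisP S P) (resP P (muP p)) (basisLoc P q t)
    (Ox q (Dloc P q t)) => β.h2 y) h
  simp only [Functor.comp_h2] at h2
  exact h2

end GlobalKummer

/-! ### the comparison maps `θ_i : H²(D_i; 𝔽_p) → H²(D_i; Ω_qˣ)` -/

section Theta

attribute [local instance] Fermat.Agent.S55.LM.Defs.fact_q

open Fermat.Agent.S55.Middle.LocalLCCore Fermat.Agent.S55.Middle.LocalLCMain

/-- `Dloc P q t` is open in `Γ_q`. -/
theorem isOpen_Dloc {P : Subgroup GQ} (hP : IsOpenS S P) (q : Nat.Primes) (t : GQ) :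
    (Vq q).IsOpen (Dloc P q t) :=
  Fermat.Agent.S55.Bridge.MackeyProd.conjSub_open (globalBasis S)
    (localBasis (primeLocalToGlobal q)) (primeLocalToGlobal q)
    (isCont_local S (primeLocalToGlobal q)) P hP t

/-- the comparison map at the place `i`. -/
def theta {P : Subgroup GQ} (hχ : ∀ g ∈ P, cycloChar p g = 1) (R : Reps S P) (i : R.Idx) :
    H2 ((siteOver S P R).𝒱 i) ((siteOver S P R).loc (kP p P) i) →+
      H2 (basisLoc P i.1.1 i.2.1) (Ox i.1.1 (Dloc P i.1.1 i.2.1)) :=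
  ((Mor.ofHom (basisLoc P i.1.1 i.2.1) (psi p S P i.1.1 i.2.1)).h2.toAddMonoidHom).comp
    (transport₂ (basisLoc P i.1.1 i.2.1) (resIso (kappa P i.1.1 i.2.1) (muIso p P hχ)))

theorem theta_apply {P : Subgroup GQ} (hχ : ∀ g ∈ P, cycloChar p g = 1) (R : Reps S P)
    (i : R.Idx) (c : H2 ((siteOver S P R).𝒱 i) ((siteOver S P R).loc (kP p P) i)) :
    theta p S hχ R i c = (Mor.ofHom (basisLoc P i.1.1 i.2.1) (psi p S P i.1.1 i.2.1)).h2
      (transport₂ (basisLoc P i.1.1 i.2.1)
        (resIso (kappa P i.1.1 i.2.1) (muIso p P hχ)) c) := rfl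

/-- compatibility with the global transport and the localisation `locMu`. -/
theorem theta_res {P : Subgroup GQ} (hχ : ∀ g ∈ P, cycloChar p g = 1) (R : Reps S P)
    (i : R.Idx) (x : H2 (basisP S P) (kP p P)) :
    theta p S hχ R i (((siteOver S P R).res (kP p P) i).h2 x) =
      (locMu S P i.1.1 i.2.1 p).h2 (transport₂ (basisP S P) (muIso p P hχ) x) := by
  have h1 := transport₂_res (basisP S P) (basisLoc P i.1.1 i.2.1) (kappa P i.1.1 i.2.1)
      (kappa_cont S P i.1.1 i.2.1) (muIso p P hχ) x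
  have h2 := locMu_h2 p S P i.1.1 i.2.1 (transport₂ (basisP S P) (muIso p P hχ) x)
  exact (congrArg (Mor.ofHom (basisLoc P i.1.1 i.2.1) (psi p S P i.1.1 i.2.1)).h2 h1).trans
    h2.symm

/-- the finite level data of `Ω_qˣ` over `Dloc P q t` -/
theorem levelData
    (F : ∀ (q : Nat.Primes) (D : Subgroup (Gq q)), (Vq q).IsOpen D →
      Fermat.Agent.S55.LM.Out.Facts q D)
    {P : Subgroup GQ} (hP : IsOpenS S P) (q : Nat.Primes) (t : GQ) :
    FiniteLevelData (basisLoc P q t) (Ox q (Dloc P q t)) p :=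
  have FD := F q (Dloc P q t) (isOpen_Dloc S hP q t)
  Fermat.Agent.S55.Middle.LocalLCAdapter.finiteLevelData_of_facts (basisLoc P q t)
    (Ox q (Dloc P q t)) p (Fact.out : p.Prime).pos FD.h1 FD.h3 FD.h2card FD.h2cyc FD.grow

theorem theta_injective
    (F : ∀ (q : Nat.Primes) (D : Subgroup (Gq q)), (Vq q).IsOpen D →
      Fermat.Agent.S55.LM.Out.Facts q D)
    {P : Subgroup GQ} (hP : Level p S P) (R : Reps S P) (i : R.Idx) :
    Function.Injective (theta p S hP.triv R i) := by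
  intro c c' h
  have h' : (Mor.ofHom (basisLoc P i.1.1 i.2.1) (psi p S P i.1.1 i.2.1)).h2
      (transport₂ (basisLoc P i.1.1 i.2.1)
        (resIso (kappa P i.1.1 i.2.1) (muIso p P hP.triv)) c) =
      (Mor.ofHom (basisLoc P i.1.1 i.2.1) (psi p S P i.1.1 i.2.1)).h2
      (transport₂ (basisLoc P i.1.1 i.2.1)
        (resIso (kappa P i.1.1 i.2.1) (muIso p P hP.triv)) c') := h
  have hinj : Function.Injective
      (Mor.ofHom (basisLoc P i.1.1 i.2.1) (psi p S P i.1.1 i.2.1)).h2 :=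
    h2_injective (isKummer_psi p S P i.1.1 i.2.1 hP.triv)
      (levelData p S F hP.isOpen i.1.1 i.2.1).vanish₁
  exact (transport₂_bijective (basisLoc P i.1.1 i.2.1)
    (resIso (kappa P i.1.1 i.2.1) (muIso p P hP.triv))).1 (hinj h')





theorem exists_theta_eq_aux {P : Subgroup GQ} (hχ : ∀ g ∈ P, cycloChar p g = 1) (R : Reps S P)
    (i : R.Idx) (a : H2 (basisLoc P i.1.1 i.2.1) (Ox i.1.1 (Dloc P i.1.1 i.2.1)))
    (b : H2 (basisLoc P i.1.1 i.2.1) (Rep.res (kappa P i.1.1 i.2.1) (resP P (muP p))))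
    (hb : (Mor.ofHom (basisLoc P i.1.1 i.2.1) (psi p S P i.1.1 i.2.1)).h2 b = a) :
    ∃ c, theta p S hχ R i c = a := by
  obtain ⟨c, hc⟩ := (transport₂_bijective (basisLoc P i.1.1 i.2.1)
    (resIso (kappa P i.1.1 i.2.1) (muIso p P hχ))).2 b
  refine ⟨c, ?_⟩
  have h2 : (Mor.ofHom (basisLoc P i.1.1 i.2.1) (psi p S P i.1.1 i.2.1)).h2
      (transport₂ (basisLoc P i.1.1 i.2.1)
        (resIso (kappa P i.1.1 i.2.1) (muIso p P hχ)) c) =
      (Mor.ofHom (basisLoc P i.1.1 i.2.1) (psi p S P i.1.1 i.2.1)).h2 b :=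
    congrArg (Mor.ofHom (basisLoc P i.1.1 i.2.1) (psi p S P i.1.1 i.2.1)).h2 hc
  exact h2.trans hb

/-- `θ_i` is onto the `p`-torsion. -/
theorem exists_theta_eq {P : Subgroup GQ} (hχ : ∀ g ∈ P, cycloChar p g = 1) (R : Reps S P)
    (i : R.Idx) (a : H2 (basisLoc P i.1.1 i.2.1) (Ox i.1.1 (Dloc P i.1.1 i.2.1)))
    (ha : p • a = 0) : ∃ c, theta p S hχ R i c = a := by
  have ha' : ((p : ℕ) : ℤ) • a = 0 := by rw [Nat.cast_smul_eq_nsmul]; exact ha
  obtain ⟨b, hb⟩ := h2_surjective_tors (isKummer_psi p S P i.1.1 i.2.1 hχ) a ha'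
  exact exists_theta_eq_aux p S hχ R i a b hb



/-- `ℤ`-multiples through the additive group structure only (to pin the instance) -/
def zs {M : Type*} [AddCommGroup M] (n : ℤ) (x : M) : M := n • x

theorem smul_eq_zs {M : Type*} [AddCommGroup M] (h : Module ℤ M) (n : ℤ) (x : M) :
    @SMul.smul ℤ M h.toSMul n x = zs n x := int_smul_eq_zsmul h n x

theorem map_zs {M N : Type*} [AddCommGroup M] [AddCommGroup N] (f : M →+ N) (n : ℤ) (x : M) :
    f (zs n x) = zs n (f x) := map_zsmul f n x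

/-- the local `H²(D_i; 𝔽_p)` is finite of dimension `≤ 1`. -/
theorem finrank_loc_le_one
    (F : ∀ (q : Nat.Primes) (D : Subgroup (Gq q)), (Vq q).IsOpen D →
      Fermat.Agent.S55.LM.Out.Facts q D)
    {P : Subgroup GQ} (hP : Level p S P) (q : Nat.Primes) (t : GQ) :
    Module.Finite (ZMod p) (H2 (basisLoc P q t) (Rep.res (kappa P q t) (kP p P))) ∧
      finrank (ZMod p) (H2 (basisLoc P q t) (Rep.res (kappa P q t) (kP p P))) ≤ 1 := by
  have hmain := main (Fact.out : p.Prime) (isKummer_psi p S P q t hP.triv)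
    (levelData p S F hP.isOpen q t)
  have hbij := transport₂_bijective (basisLoc P q t)
    (resIso (kappa P q t) (muIso p P hP.triv))
  have hcyc : ∀ x y : H2 (basisLoc P q t) (Rep.res (kappa P q t) (kP p P)), x ≠ 0 →
      ∃ n : ℤ, y = n • x := by
    intro x y hx
    have hTx : transport₂ (basisLoc P q t) (resIso (kappa P q t) (muIso p P hP.triv)) x ≠ 0 :=
      fun h0 => hx (hbij.1 (h0.trans (map_zero _).symm))
    obtain ⟨n, hn⟩ := hmain.1 _ (transport₂ (basisLoc P q t)
        (resIso (kappa P q t) (muIso p P hP.triv)) y) hTx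
    have hn' : transport₂ (basisLoc P q t) (resIso (kappa P q t) (muIso p P hP.triv)) y =
        zs n (transport₂ (basisLoc P q t)
          (resIso (kappa P q t) (muIso p P hP.triv)) x) :=
      hn.trans (smul_eq_zs _ n _)
    have h3 : y = zs n x := hbij.1 (hn'.trans (map_zs (transport₂ (basisLoc P q t)
      (resIso (kappa P q t) (muIso p P hP.triv))) n x).symm)
    exact ⟨n, h3⟩
  exact finite_and_finrank_le_one_of_cyclic hcyc


end Theta

/-! ### abstract linear algebra -/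

section Abstract

theorem nsmul_char_eq_zero {V : Type*} [AddCommGroup V] [Module (ZMod p) V] (v : V) :
    p • v = 0 := by
  rw [← Nat.cast_smul_eq_nsmul (ZMod p), ZMod.natCast_self, zero_smul]

theorem finrank_quot_range_le_one {K : Type*} [Field K] {V W : Type*} [AddCommGroup V]
    [Module K V] [AddCommGroup W] [Module K W] (f : W →ₗ[K] V) (d : V)
    (h : ∀ c : V, ∃ (n : ℕ) (x : W), f x = c - n • d) :
    finrank K (V ⧸ LinearMap.range f) ≤ 1 := by
  refine finrank_le_one (Submodule.Quotient.mk d) ?_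
  intro w
  obtain ⟨c, rfl⟩ := Submodule.Quotient.mk_surjective _ w
  obtain ⟨n, x, hx⟩ := h c
  refine ⟨(n : K), ?_⟩
  rw [← Submodule.Quotient.mk_smul, eq_comm, Submodule.Quotient.eq]
  refine ⟨x, ?_⟩
  rw [hx, Nat.cast_smul_eq_nsmul]

theorem nsmul_map_eq_zero {A B : Type*} [AddCommGroup A] [Module (ZMod p) A] [AddCommGroup B]
    (f : A →+ B) (a : A) : p • f a = 0 := by
  rw [← map_nsmul, nsmul_char_eq_zero p, map_zero]

theorem map_sub_nsmul {A B : Type*} [AddCommGroup A] [AddCommGroup B] (f : A →+ B) (a b : A)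
    (n : ℕ) (b' : B) (h : f b = b') : f (a - n • b) = f a - n • b' := by
  rw [map_sub, map_nsmul, h]

theorem eq_sub_nsmul_of_injective {A B : Type*} [AddCommGroup A] [AddCommGroup B] (f : A →+ B)
    (hf : Function.Injective f) (v a b : A) (n : ℕ) (b' : B) (hb : f b = b')
    (h : f v = f a - n • b') : v = a - n • b :=
  hf (h.trans (map_sub_nsmul f a b n b' hb).symm)

theorem eq_sub_nsmul_symm {K V ι : Type*} {W : ι → Type*} [Field K] [AddCommGroup V]
    [Module K V] [∀ i, AddCommGroup (W i)] [∀ i, Module K (W i)] (E : V ≃ₗ[K] (∀ i, W i))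
    (v c : V) (n : ℕ) (c₀ : ∀ i, W i) (h : ∀ i, E v i = E c i - n • c₀ i) :
    v = c - n • E.symm c₀ := by
  apply E.injective
  funext i
  rw [h i, map_sub, map_nsmul, E.apply_symm_apply]
  rfl

end Abstract

/-! ### the outputs -/

section Outputs

attribute [local instance] Fermat.Agent.S55.LM.Defs.fact_q

/-- **(K-NSS)** from the no-single-support statement for `H²_LC(P; O_S)[p]`. -/
theorem kNoSingleSupport_of (hpS : pPrime p ∈ S)
    (F : ∀ (q : Nat.Primes) (D : Subgroup (Gq q)), (Vq q).IsOpen D →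
      Fermat.Agent.S55.LM.Out.Facts q D)
    (hnss : ImageNSS p S) : KNoSingleSupport p S := by
  intro P hP R x i₀ h
  have hc := LESGlueV.isCont_subBasis S P
  have hxO : p • LESGlueV.j₂ S P (basisP S P) p hpS
      (transport₂ (basisP S P) (muIso p P hP.triv) x) = 0 := LESGlueV.nsmul_j₂ p hpS hc _
  have key : ∀ i : R.Idx, (locOS S P i.1.1 i.2.1).h2 (LESGlueV.j₂ S P (basisP S P) p hpS
      (transport₂ (basisP S P) (muIso p P hP.triv) x)) =
        theta p S hP.triv R i (((siteOver S P R).res (kP p P) i).h2 x) := fun i =>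
    (locOS_j₂ p S P i.1.1 i.2.1 hpS _).trans (theta_res p S hP.triv R i x).symm
  have h0 := hnss P hP R _ hxO i₀ (fun i hi =>
    (key i).trans ((congrArg (theta p S hP.triv R i) (h i hi)).trans (map_zero _)))
  exact theta_injective p S F hP R i₀ (((key i₀).symm.trans h0).trans (map_zero _).symm)


set_option maxHeartbeats 2000000 in
/-- the cokernel of `loc₂` has dimension `≤ 1`. -/
theorem finrank_coker_le_one (hpS : pPrime p ∈ S)
    (F : ∀ (q : Nat.Primes) (D : Subgroup (Gq q)), (Vq q).IsOpen D →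
      Fermat.Agent.S55.LM.Out.Facts q D)
    (himg : ImageG3 p S) (P : Subgroup GQ) (hP : Level p S P) (R : Reps S P) : finrank (ZMod p) ((siteOver S P R).P2 (kP p P) ⧸
      LinearMap.range ((siteOver S P R).loc₂ (kP p P))) ≤ 1 := by
  obtain ⟨a₀, ha₀, hgen⟩ := himg P hP R
  choose c₀ hc₀ using fun i : R.Idx => exists_theta_eq p S hP.triv R i (a₀ i) (ha₀ i)
  have hc := LESGlueV.isCont_subBasis S P
  refine finrank_quot_range_le_one ((siteOver S P R).loc₂ (kP p P))
    ((SiteCount.P2equiv (siteOver S P R) (kP p P)).symm c₀) ?_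
  intro c
  have hpc : ∀ i : R.Idx, p • theta p S hP.triv R i
      (SiteCount.P2equiv (siteOver S P R) (kP p P) c i) = 0 := fun i =>
    nsmul_map_eq_zero p (theta p S hP.triv R i) _
  obtain ⟨n, xO, hxO, hlocx⟩ := hgen (fun i => theta p S hP.triv R i
    (SiteCount.P2equiv (siteOver S P R) (kP p P) c i)) hpc
  obtain ⟨y, rfl⟩ := LESGlueV.exists_j₂_of_nsmul p hpS hc xO hxO
  obtain ⟨x, rfl⟩ := (transport₂_bijective (basisP S P) (muIso p P hP.triv)).2 y
  refine ⟨n, x, ?_⟩
  refine eq_sub_nsmul_symm (SiteCount.P2equiv (siteOver S P R) (kP p P)) _ c n c₀ (fun i => ?_)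
  have e1 : SiteCount.P2equiv (siteOver S P R) (kP p P) ((siteOver S P R).loc₂ (kP p P) x) i =
      ((siteOver S P R).res (kP p P) i).h2 x := SiteCount.P2equiv_loc₂ _ _ x i
  have e2 : theta p S hP.triv R i (((siteOver S P R).res (kP p P) i).h2 x) =
      theta p S hP.triv R i (SiteCount.P2equiv (siteOver S P R) (kP p P) c i) - n • a₀ i :=
    (theta_res p S hP.triv R i x).trans ((locOS_j₂ p S P i.1.1 i.2.1 hpS _).symm.trans (hlocx i))
  exact e1.trans (eq_sub_nsmul_of_injective (theta p S hP.triv R i)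
    (theta_injective p S F hP R i) _ _ _ n _ (hc₀ i) e2)

/-- **(K-G3)** from the cokernel statement for `H²_LC(P; O_S)[p]`. -/
theorem kG3_of (hpS : pPrime p ∈ S)
    (F : ∀ (q : Nat.Primes) (D : Subgroup (Gq q)), (Vq q).IsOpen D →
      Fermat.Agent.S55.LM.Out.Facts q D)
    (himg : ImageG3 p S) : KG3 p S := by
  intro P hP R
  have hloc := fun i : R.Idx => finrank_loc_le_one p S F hP i.1.1 i.2.1
  have hfd : ∀ i : R.Idx, FiniteDimensional (ZMod p)
      (H2 ((siteOver S P R).𝒱 i) ((siteOver S P R).loc (kP p P) i)) := fun i => (hloc i).1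
  have : FiniteDimensional (ZMod p) ((siteOver S P R).P2 (kP p P)) :=
    SiteCount.finite_P2 (siteOver S P R) (kP p P)
  exact ⟨inferInstance, finrank_coker_le_one p S hpS F himg P hP R⟩

/-! ### the assembly -/

/-- **M.outputsAsm**: the outputs of the Middle block from
* `H3Mu` (C5), `KFin` (M.fin), `KG2` (the count (C6)),
* the two (C4)-statements `ImageG3`, `ImageNSS` on `H²_LC(P; O_S)[p]`,
* the finite-level facts of LM for all open subgroups of all `Γ_q`,
* `p ∈ S`. -/
theorem outputs_of_blocks (hpS : pPrime p ∈ S)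
    (F : ∀ (q : Nat.Primes) (D : Subgroup (Gq q)), (Vq q).IsOpen D →
      Fermat.Agent.S55.LM.Out.Facts q D)
    (h3 : H3Mu p S) (hfin : KFin p S) (hg2 : KG2 p S)
    (himg : ImageG3 p S) (hnss : ImageNSS p S) : Outputs p S where
  vanish₃ := kVanish₃_of_h3Mu p S h3
  fin := hfin
  g₃ := kG3_of p S hpS F himg
  g₂ := hg2
  nss := kNoSingleSupport_of p S hpS F hnss

end Outputs

end

end Fermat.Agent.S55.Middle.OutputsAsm
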