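/-
S55 / Middle / OutputsNOpen (helper51): ONE-FILE ASSEMBLY of `ArithBase` from the open Props of the
Middle block WITH THE RESTRICTED QUANTIFIERS (the non-normal-`P` problem of the ImageInst hub):

* `Blocks.HasseO p S`                                   — all levels (reached by `HbnColimB`);
* `H3OTorsionAt p S H ∧ H2ODivisibleAt p S H`           — ONLY for levels `H` of `p`-type
  (`KVanishSylow.PType p S H`: `H ⊇ N ∈ globalBasis S` with `H/N` a `p`-group);
* `ImageG3At p R`, `ImageNSSAt p R`                     — ONLY for levels `U` which are MEMBERS of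
  `globalBasis S` (normal in `G_ℚ`); these are the literal bodies of `Blocks2.ImageG3 / ImageNSS`.

Everything else is a theorem on main: `KVanishSylow.kVanish₃_of_pType_O` (helper2), `FinLocal.kFin`
(helper48), `KummerSquare.kummerSq` + `Blocks2.kG3_apply / kNSS_apply` (helper17),
`KG2Final.kg2_of_hasse` (helper53), `OutCoverN.arithBase_of_outputsN` (helper51).

  `arithBase_of_openN : (∀ p odd, S ∋ p, OpenPropsN p S) → Formal.ArithSite.ArithBase`.
-/
import Fermat.Agent.S55.Middle.OutCoverN
import Fermat.Agent.S55.Middle.KVanishSylow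
import Fermat.Agent.S55.Middle.FinLocal
import Fermat.Agent.S55.Middle.KummerSquare
import Fermat.Agent.S55.Middle.KG2Final

set_option autoImplicit false
set_option linter.unusedSectionVars false

open CategoryTheory groupCohomology Module ExtCitation

namespace Fermat.Agent.S55.Middle.OutputsNOpen

open Fermat.Agent.S55.Formal
open Fermat.Agent.S55.Formal.PreludeLC hiding GQ Qbar
open Fermat.Agent.S55.Middle.Defs Fermat.Agent.S55.Middle.KSite Fermat.Agent.S55.Middle.Blocks
open Fermat.Agent.S55.Middle.Blocks2 Fermat.Agent.S55.Middle.OutCoverN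

variable (p : ℕ) [hp : Fact p.Prime] {S : Finset Nat.Primes}

section At

variable {P : Subgroup GQ} (R : Reps S P)

/-- **(C4-NSS)** at one level `(P, R)`: the literal body of `Blocks2.ImageNSS`. -/
def ImageNSSAt : Prop :=
  ∀ x : H2 (basisP S P) (resP P (OS S)), p • x = 0 → ∀ i₀ : R.Idx,
    (∀ i : R.Idx, i ≠ i₀ → (locOS S P i.1.1 i.2.1).h2 x = 0) →
      (locOS S P i₀.1.1 i₀.2.1).h2 x = 0

/-- **(C4-G3)** at one level `(P, R)`: the literal body of `Blocks2.ImageG3`. -/
def ImageG3At : Prop :=
  ∃ a₀ : ∀ i : R.Idx, BrLoc R i, (∀ i, p • a₀ i = 0) ∧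
    ∀ a : ∀ i : R.Idx, BrLoc R i, (∀ i, p • a i = 0) →
      ∃ (n : ℕ) (x : H2 (basisP S P) (resP P (OS S))), p • x = 0 ∧
        ∀ i : R.Idx, (locOS S P i.1.1 i.2.1).h2 x = a i - n • a₀ i

end At

variable (S)

theorem imageNSS_iff :
    ImageNSS p S ↔ ∀ P, Level p S P → ∀ R : Reps S P, ImageNSSAt p R := Iff.rfl

theorem imageG3_iff :
    ImageG3 p S ↔ ∀ P, Level p S P → ∀ R : Reps S P, ImageG3At p R := Iff.rfl

/-- The open Props of the Middle block, with the quantifiers restricted to what the finite-level
dictionaries reach and what `BaseA` consumes. -/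
structure OpenPropsN : Prop where
  hasseO : HasseO p S
  oAt : ∀ H : Subgroup GQ, Level p S H → KVanishSylow.PType p S H →
    KVanishSylow.H3OTorsionAt p S H ∧ KVanishSylow.H2ODivisibleAt p S H
  imageG3 : ∀ U : Subgroup GQ, (globalBasis S).mem U → Level p S U → ∀ R : Reps S U,
    ImageG3At p R
  imageNSS : ∀ U : Subgroup GQ, (globalBasis S).mem U → Level p S U → ∀ R : Reps S U,
    ImageNSSAt p R

variable {p S}

/-- the unrestricted five Props give the restricted ones -/
theorem openPropsN_of_open (hH : HasseO p S) (hD : H2ODivisible p S) (hG : ImageG3 p S)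
    (hN : ImageNSS p S) (hT : H3OTorsion p S) : OpenPropsN p S :=
  ⟨hH, fun H hL _ => ⟨hT H hL, hD H hL⟩, fun U _ hL R => hG U hL R, fun U _ hL R => hN U hL R⟩

/-- **the restricted open Props give the restricted outputs of the Middle block.** -/
theorem outputsN_of_openN (hp2 : p ≠ 2) (hpS : pPrime p ∈ S) (h : OpenPropsN p S) :
    OutputsN p S where
  vanish₃ := KVanishSylow.kVanish₃_of_pType_O p S hpS h.oAt
  fin := FinLocal.kFin hpS h.hasseO
  g₃ := fun U hU hL R =>
    Blocks2.kG3_apply (KummerSquare.kummerSq p hpS hL.triv R) (h.imageG3 U hU hL R)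
  g₂ := fun U _ hL R =>
    KG2Final.kg2_of_hasse p S
      (by
        have h2 := hp.out.two_le
        omega) hpS (KummerSquare.nonempty_kummerSq p S hpS) h.hasseO U hL R
  nss := fun U hU hL R =>
    Blocks2.kNSS_apply (KummerSquare.kummerSq p hpS hL.triv R) (h.imageNSS U hU hL R)

/-- **`ArithBase` from the restricted open Props of the Middle block** (for all odd `p ∈ S`). -/
theorem arithBase_of_openN
    (hopen : ∀ {p : ℕ} [Fact p.Prime], p ≠ 2 → ∀ S : Finset Nat.Primes, pPrime p ∈ S →
      OpenPropsN p S) :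
    ArithSite.ArithBase :=
  arithBase_of_outputsN fun hp2 S hpS => outputsN_of_openN hp2 hpS (hopen hp2 S hpS)

end Fermat.Agent.S55.Middle.OutputsNOpen
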