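/-
S55 / Middle (helper28): PURE `Rep ℤ G` algebra used in the passage `T → S` and in the
`p`-primary bookkeeping.  Mathlib `groupCohomology` only; no arithmetic.

* `map_g_injective_of_isZero`, `map_g_surjective_of_isZero`, `map_g_bijective_of_isZero` : for
  `0 → X₁ → X₂ → X₃ → 0` exact with `Hⁿ(X₁) = Hⁿ⁺¹(X₁) = 0`, the map `Hⁿ(X₂) → Hⁿ(X₃)` is
  bijective (e.g. `X₁ = ∏_{w ∈ T∖S} U_w`, unramified units: cohomologically trivial kernel).
  Corollaries `isZero_iff_of_isZero_left`, `natCard_eq_of_isZero_left`.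
* `map_f_injective_of_isZero`, `map_f_surjective_of_isZero` : the same for `Hⁿ(X₁) → Hⁿ(X₂)`
  when cohomology of `X₃` vanishes.
* `smulHom`, `functor_map_smulHom`, `smul_bijective_cohomology` : multiplication by `m` on `A`
  induces multiplication by `m` on `Hⁿ(G, A)`; if it is invertible on `A` it is bijective on `Hⁿ`.
* `exists_quasiInverse(_comp)` : `f : A ⟶ B` with `ker f` killed by `m₁` and `coker f` killed by
  `m₂` has a quasi-inverse `f'` with `f' ∘ f = m₁ m₂`, `f ∘ f' = m₁ m₂`.
* `map_bijOn_torsion`, `map_bijOn_primary` : hence, if `m₁ m₂` is prime to `p`, `Hⁿ(f)` is a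
  bijection `Hⁿ(G,A)[p^k] → Hⁿ(G,B)[p^k]` for every `k` and between the `p`-primary parts
  (audit point (2) of #1539: the three versions of `C` at level `L` have the same `p`-primary
  cohomology).  Abstract forms: `bijOn_torsion_of_quasiInverse`, `bijOn_primary_of_quasiInverse`.
All scalar multiplications on `A : Rep ℤ G` are the canonical `zsmul` of the additive group.
-/
import Mathlib

set_option autoImplicit false

open CategoryTheory CategoryTheory.Limits groupCohomology

namespace Fermat.Agent.S55.Middle.PassageTS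

variable {G : Type} [Group G]

section LeftZero

variable {X : ShortComplex (Rep ℤ G)} (hX : X.ShortExact)

include hX

/-- `Hⁿ(X₂) → Hⁿ(X₃)` is injective if `Hⁿ(X₁) = 0`. -/
theorem map_g_injective_of_isZero (n : ℕ) (h : IsZero (groupCohomology X.X₁ n)) :
    Function.Injective ((functor ℤ G n).map X.g) := by
  have hex := mapShortComplex₂_exact hX n
  rw [ShortComplex.moduleCat_exact_iff] at hex
  rw [injective_iff_map_eq_zero]
  intro x hx
  obtain ⟨y, rfl⟩ := hex x hx
  have : y = 0 := (ModuleCat.isZero_iff_subsingleton.1 h).elim _ _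
  subst this
  exact map_zero _

/-- `Hⁿ(X₂) → Hⁿ(X₃)` is surjective if `Hⁿ⁺¹(X₁) = 0`. -/
theorem map_g_surjective_of_isZero (n : ℕ) (h : IsZero (groupCohomology X.X₁ (n + 1))) :
    Function.Surjective ((functor ℤ G n).map X.g) := by
  have hex := mapShortComplex₃_exact hX (i := n) (j := n + 1) rfl
  rw [ShortComplex.moduleCat_exact_iff] at hex
  intro x
  have hx : (mapShortComplex₃ hX (i := n) (j := n + 1) rfl).g x = 0 :=
    (ModuleCat.isZero_iff_subsingleton.1 h).elim _ _
  obtain ⟨y, hy⟩ := hex x hx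
  exact ⟨y, hy⟩

/-- `Hⁿ(X₂) ≅ Hⁿ(X₃)` if `Hⁿ(X₁) = Hⁿ⁺¹(X₁) = 0`. -/
theorem map_g_bijective_of_isZero (n : ℕ) (h1 : IsZero (groupCohomology X.X₁ n))
    (h2 : IsZero (groupCohomology X.X₁ (n + 1))) :
    Function.Bijective ((functor ℤ G n).map X.g) :=
  ⟨map_g_injective_of_isZero hX n h1, map_g_surjective_of_isZero hX n h2⟩

theorem isZero_iff_of_isZero_left (n : ℕ) (h1 : IsZero (groupCohomology X.X₁ n))
    (h2 : IsZero (groupCohomology X.X₁ (n + 1))) :
    IsZero (groupCohomology X.X₂ n) ↔ IsZero (groupCohomology X.X₃ n) := by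
  have hb := map_g_bijective_of_isZero hX n h1 h2
  rw [ModuleCat.isZero_iff_subsingleton, ModuleCat.isZero_iff_subsingleton]
  constructor
  · intro hs
    have : Subsingleton ((functor ℤ G n).obj X.X₂) := hs
    exact hb.2.subsingleton
  · intro hs
    have : Subsingleton ((functor ℤ G n).obj X.X₃) := hs
    exact hb.1.subsingleton

theorem natCard_eq_of_isZero_left (n : ℕ) (h1 : IsZero (groupCohomology X.X₁ n))
    (h2 : IsZero (groupCohomology X.X₁ (n + 1))) :
    Nat.card (groupCohomology X.X₂ n) = Nat.card (groupCohomology X.X₃ n) :=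
  Nat.card_eq_of_bijective _ (map_g_bijective_of_isZero hX n h1 h2)

/-- `Hⁿ⁺¹(X₁) → Hⁿ⁺¹(X₂)` is injective if `Hⁿ(X₃) = 0`. -/
theorem map_f_injective_of_isZero (n : ℕ) (h : IsZero (groupCohomology X.X₃ n)) :
    Function.Injective ((functor ℤ G (n + 1)).map X.f) := by
  have hex := mapShortComplex₁_exact hX (i := n) (j := n + 1) rfl
  rw [ShortComplex.moduleCat_exact_iff] at hex
  rw [injective_iff_map_eq_zero]
  intro x hx
  obtain ⟨y, rfl⟩ := hex x hx
  have : y = 0 := (ModuleCat.isZero_iff_subsingleton.1 h).elim _ _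
  subst this
  exact map_zero _

/-- `Hⁿ(X₁) → Hⁿ(X₂)` is surjective if `Hⁿ(X₃) = 0`. -/
theorem map_f_surjective_of_isZero (n : ℕ) (h : IsZero (groupCohomology X.X₃ n)) :
    Function.Surjective ((functor ℤ G n).map X.f) := by
  have hex := mapShortComplex₂_exact hX n
  rw [ShortComplex.moduleCat_exact_iff] at hex
  intro x
  have hx : (mapShortComplex₂ X n).g x = 0 :=
    (ModuleCat.isZero_iff_subsingleton.1 h).elim _ _
  obtain ⟨y, hy⟩ := hex x hx
  exact ⟨y, hy⟩

end LeftZero

section Smul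

/-- multiplication by `m` on a representation. -/
noncomputable def smulHom (m : ℤ) (A : Rep ℤ G) : A ⟶ A := m • 𝟙 A

/-- the map induced on cohomology by multiplication by `m` is multiplication by `m`. -/
theorem functor_map_smulHom (m : ℤ) (A : Rep ℤ G) (n : ℕ) (x : groupCohomology A n) :
    (functor ℤ G n).map (smulHom m A) x = m • x := by
  have h : (functor ℤ G n).map (smulHom m A) = m • 𝟙 _ := by
    have e : (functor ℤ G n).map (smulHom m A) =
        (HomologicalComplex.homologyFunctor _ _ n).map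
          ((cochainsFunctor ℤ G).map (smulHom m A)) := rfl
    rw [e, smulHom, Functor.map_zsmul, Functor.map_zsmul, CategoryTheory.Functor.map_id,
      CategoryTheory.Functor.map_id]
    rfl
  rw [h]
  rfl

/-- If `m • · = id`-invertible on `A` (there is `B` with `m • B = B ∘ (m • ·) = id`), then
multiplication by `m` is bijective on `Hⁿ(G, A)`. -/
theorem smul_bijective_cohomology (m : ℤ) (A : Rep ℤ G) (inv : A ⟶ A)
    (h1 : smulHom m A ≫ inv = 𝟙 A) (h2 : inv ≫ smulHom m A = 𝟙 A) (n : ℕ) :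
    Function.Bijective (fun x : groupCohomology A n => m • x) := by
  have e1 : ∀ x : groupCohomology A n, (functor ℤ G n).map inv (m • x) = x := by
    intro x
    rw [← functor_map_smulHom]
    have := congrArg (fun φ => (functor ℤ G n).map φ) h1
    simp only [Functor.map_comp, CategoryTheory.Functor.map_id] at this
    exact congrArg (fun φ => (ConcreteCategory.hom φ) x) this
  have e2 : ∀ x : groupCohomology A n, m • (functor ℤ G n).map inv x = x := by
    intro x
    have h3 := functor_map_smulHom m A n ((functor ℤ G n).map inv x)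
    have := congrArg (fun φ => (functor ℤ G n).map φ) h2
    simp only [Functor.map_comp, CategoryTheory.Functor.map_id] at this
    exact h3.symm.trans (congrArg (fun φ => (ConcreteCategory.hom φ) x) this)
  exact ⟨fun x y hxy => by rw [← e1 x, ← e1 y]; exact congrArg _ hxy,
    fun y => ⟨(functor ℤ G n).map inv y, e2 y⟩⟩

end Smul

/-! ### Maps with kernel and cokernel killed by integers prime to `p` -/

section Primary

theorem eq_smul_smul_of_bezout {Z : Type*} [AddCommGroup Z] (u v m q : ℤ)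
    (huv : u * m + v * q = 1) (z : Z) (hz : q • z = 0) : z = u • m • z := by
  have : (u * m + v * q) • z = z := by rw [huv, one_smul]
  rw [add_smul, mul_smul, mul_smul, hz, smul_zero, add_zero] at this
  exact this.symm

/-- **Abstract form.** `F : X → Y`, `F' : Y → X` additive with `F' ∘ F = m`, `F ∘ F' = m` and
`u m + v q = 1`: then `F` restricts to a bijection `X[q] → Y[q]` (`q = p ^ k`). -/
theorem bijOn_torsion_of_quasiInverse {X Y : Type*} [AddCommGroup X] [AddCommGroup Y]
    (F : X →+ Y) (F' : Y →+ X) (m q : ℤ) (hm : IsCoprime m q)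
    (h1 : ∀ x, F' (F x) = m • x) (h2 : ∀ y, F (F' y) = m • y) :
    Set.BijOn F {x | q • x = 0} {y | q • y = 0} := by
  obtain ⟨u, v, huv⟩ := hm
  refine ⟨?_, ?_, ?_⟩
  · intro x hx
    show q • F x = 0
    rw [← map_zsmul, show q • x = 0 from hx, map_zero]
  · intro x hx x' hx' hxx'
    have hd : q • (x - x') = 0 := by
      rw [smul_sub, show q • x = 0 from hx, show q • x' = 0 from hx', sub_zero]
    have h0 : F (x - x') = 0 := by rw [map_sub, hxx', sub_self]
    have := eq_smul_smul_of_bezout u v m q huv (x - x') hd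
    rw [← h1, h0, map_zero, smul_zero] at this
    exact sub_eq_zero.mp this
  · intro y hy
    refine ⟨u • F' y, ?_, ?_⟩
    · show q • u • F' y = 0
      rw [smul_comm, ← map_zsmul F', show q • y = 0 from hy, map_zero, smul_zero]
    · rw [map_zsmul, h2]
      exact (eq_smul_smul_of_bezout u v m q huv y hy).symm

/-- Consequence: the same for the full `p`-primary parts. -/
theorem bijOn_primary_of_quasiInverse {X Y : Type*} [AddCommGroup X] [AddCommGroup Y]
    (F : X →+ Y) (F' : Y →+ X) (m : ℤ) (p : ℕ) (hm : IsCoprime m (p : ℤ))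
    (h1 : ∀ x, F' (F x) = m • x) (h2 : ∀ y, F (F' y) = m • y) :
    Set.BijOn F {x | ∃ k : ℕ, ((p : ℤ) ^ k) • x = 0} {y | ∃ k : ℕ, ((p : ℤ) ^ k) • y = 0} := by
  have hk : ∀ k : ℕ, Set.BijOn F {x | ((p : ℤ) ^ k) • x = 0} {y | ((p : ℤ) ^ k) • y = 0} :=
    fun k => bijOn_torsion_of_quasiInverse F F' m _ (IsCoprime.pow_right hm) h1 h2
  refine ⟨?_, ?_, ?_⟩
  · rintro x ⟨k, hx⟩
    exact ⟨k, (hk k).1 hx⟩
  · rintro x ⟨k, hx⟩ x' ⟨k', hx'⟩ hxx'
    have hx2 : ((p : ℤ) ^ (k + k')) • x = 0 := by rw [pow_add, mul_comm, mul_smul, hx, smul_zero]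
    have hx2' : ((p : ℤ) ^ (k + k')) • x' = 0 := by rw [pow_add, mul_smul, hx', smul_zero]
    exact (hk (k + k')).2.1 hx2 hx2' hxx'
  · rintro y ⟨k, hy⟩
    obtain ⟨x, hx, rfl⟩ := (hk k).2.2 hy
    exact ⟨x, ⟨k, hx⟩, rfl⟩

universe u

theorem smulHom_hom_apply {A : Rep.{u} ℤ G} (m : ℤ) (a : A) : (smulHom m A).hom a = m • a :=
  rfl

attribute [local instance 5000] Rep.hV2

/-- **Quasi-inverse.** If `ker f` is killed by `m₁` and `coker f` by `m₂`, there is `f' : B ⟶ A`
with `f ≫ f' = m₁ m₂` and `f' ≫ f = m₁ m₂`. -/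
theorem exists_quasiInverse {A B : Rep.{u} ℤ G} (f : A ⟶ B) (m₁ m₂ : ℤ)
    (hker : ∀ a : A, f.hom a = 0 → m₁ • a = 0) (hcoker : ∀ b : B, ∃ a : A, f.hom a = m₂ • b) :
    ∃ f' : B ⟶ A, (∀ a : A, f'.hom (f.hom a) = (m₁ * m₂) • a) ∧
      (∀ b : B, f.hom (f'.hom b) = (m₁ * m₂) • b) := by
  classical
  choose s hs using hcoker
  have hadd : ∀ a a' : A, f.hom (a + a') = f.hom a + f.hom a' := fun a a' =>
    f.hom.toLinearMap.toAddHom.map_add' a a'
  let F : A →+ B := AddMonoidHom.mk' (fun a => f.hom a) hadd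
  have hneg : ∀ a : A, f.hom (-a) = -f.hom a := fun a => map_neg F a
  have hzs : ∀ (c : ℤ) (a : A), f.hom (c • a) = c • f.hom a := fun c a => map_zsmul F c a
  -- `m₁ • a` only depends on `f a`
  have huniq : ∀ (a a' : A), f.hom a = f.hom a' → m₁ • a = m₁ • a' := by
    intro a a' h
    have : f.hom (a + -a') = 0 := by rw [hadd, hneg, h, add_neg_cancel]
    have := hker _ this
    rwa [zsmul_add, zsmul_neg, add_neg_eq_zero] at this
  let φadd : B →+ A :=
    { toFun := fun b => m₁ • s b
      map_zero' := by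
        show m₁ • s 0 = 0
        apply hker
        rw [hs, zsmul_zero]
      map_add' := by
        intro b b'
        show m₁ • s (b + b') = m₁ • s b + m₁ • s b'
        rw [← zsmul_add]
        apply huniq
        rw [hadd, hs, hs, hs, zsmul_add] }
  let φ : @LinearMap ℤ ℤ _ _ (RingHom.id ℤ) B A _ _ B.hV2 A.hV2 :=
    { toFun := φadd
      map_add' := φadd.map_add
      map_smul' := by
        intro c b
        have e1 := int_smul_eq_zsmul B.hV2 c b
        have e2 := int_smul_eq_zsmul A.hV2 c (φadd b)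
        show φadd (@SMul.smul ℤ B B.hV2.toSMul c b) = @SMul.smul ℤ A A.hV2.toSMul c (φadd b)
        rw [e1, e2]
        exact map_zsmul φadd c b }
  have hφ : ∀ (g : G) (b : B), φ (B.ρ g b) = A.ρ g (φ b) := by
    intro g b
    show m₁ • s (B.ρ g b) = A.ρ g (m₁ • s b)
    let RA : A →+ A := AddMonoidHom.mk' (fun a => A.ρ g a) fun a a' =>
      (A.ρ g).toAddHom.map_add' a a'
    let RB : B →+ B := AddMonoidHom.mk' (fun a => B.ρ g a) fun a a' =>
      (B.ρ g).toAddHom.map_add' a a'
    rw [show A.ρ g (m₁ • s b) = m₁ • A.ρ g (s b) from map_zsmul RA m₁ (s b)]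
    apply huniq
    rw [hs, Rep.hom_comm_apply, hs]
    exact (map_zsmul RB m₂ b).symm
  refine ⟨Rep.ofHom (ρ := B.ρ) (σ := A.ρ)
    (LinearMap.intertwiningMap_of_isIntertwiningMap _ _ φ hφ), ?_, ?_⟩
  · intro a
    show m₁ • s (f.hom a) = (m₁ * m₂) • a
    rw [mul_zsmul]
    apply huniq
    rw [hs, hzs]
  · intro b
    show f.hom (m₁ • s b) = (m₁ * m₂) • b
    rw [hzs, hs, mul_zsmul]

/-- the same in compositional form -/
theorem exists_quasiInverse_comp {A B : Rep.{u} ℤ G} (f : A ⟶ B) (m₁ m₂ : ℤ)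
    (hker : ∀ a : A, f.hom a = 0 → m₁ • a = 0) (hcoker : ∀ b : B, ∃ a : A, f.hom a = m₂ • b) :
    ∃ f' : B ⟶ A, f ≫ f' = smulHom (m₁ * m₂) A ∧ f' ≫ f = smulHom (m₁ * m₂) B := by
  obtain ⟨f', h1, h2⟩ := exists_quasiInverse f m₁ m₂ hker hcoker
  refine ⟨f', ?_, ?_⟩
  · apply Rep.hom_ext
    apply Representation.IntertwiningMap.ext
    apply LinearMap.ext
    intro a
    exact (h1 a).trans (smulHom_hom_apply _ a).symm
  · apply Rep.hom_ext
    apply Representation.IntertwiningMap.ext
    apply LinearMap.ext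
    intro b
    exact (h2 b).trans (smulHom_hom_apply _ b).symm

/-- **`p`-primary comparison for Mathlib group cohomology.** If `f : A ⟶ B` has kernel killed by
`m₁` and cokernel killed by `m₂` with `m₁ m₂` prime to `p`, then `Hⁿ(f)` restricts to a bijection
between the `p`-primary parts (and between the `p ^ k`-torsion for every `k`). -/
theorem map_bijOn_torsion {A B : Rep ℤ G} (f : A ⟶ B) (m₁ m₂ : ℤ)
    (hker : ∀ a : A, f.hom a = 0 → m₁ • a = 0) (hcoker : ∀ b : B, ∃ a : A, f.hom a = m₂ • b)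
    (p : ℕ) (hm : IsCoprime (m₁ * m₂) (p : ℤ)) (n k : ℕ) :
    Set.BijOn ((functor ℤ G n).map f) {x | ((p : ℤ) ^ k) • x = 0}
      {y | ((p : ℤ) ^ k) • y = 0} := by
  obtain ⟨f', h1, h2⟩ := exists_quasiInverse_comp f m₁ m₂ hker hcoker
  refine bijOn_torsion_of_quasiInverse ((functor ℤ G n).map f).hom.toAddMonoidHom
    ((functor ℤ G n).map f').hom.toAddMonoidHom (m₁ * m₂) _ (IsCoprime.pow_right hm) ?_ ?_
  · intro x
    have := congrArg (fun φ => (functor ℤ G n).map φ) h1
    simp only [Functor.map_comp] at this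
    exact (congrArg (fun φ => (ConcreteCategory.hom φ) x) this).trans
      (functor_map_smulHom (m₁ * m₂) A n x)
  · intro y
    have := congrArg (fun φ => (functor ℤ G n).map φ) h2
    simp only [Functor.map_comp] at this
    exact (congrArg (fun φ => (ConcreteCategory.hom φ) y) this).trans
      (functor_map_smulHom (m₁ * m₂) B n y)

theorem map_bijOn_primary {A B : Rep ℤ G} (f : A ⟶ B) (m₁ m₂ : ℤ)
    (hker : ∀ a : A, f.hom a = 0 → m₁ • a = 0) (hcoker : ∀ b : B, ∃ a : A, f.hom a = m₂ • b)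
    (p : ℕ) (hm : IsCoprime (m₁ * m₂) (p : ℤ)) (n : ℕ) :
    Set.BijOn ((functor ℤ G n).map f) {x | ∃ k : ℕ, ((p : ℤ) ^ k) • x = 0}
      {y | ∃ k : ℕ, ((p : ℤ) ^ k) • y = 0} := by
  obtain ⟨f', h1, h2⟩ := exists_quasiInverse_comp f m₁ m₂ hker hcoker
  refine bijOn_primary_of_quasiInverse ((functor ℤ G n).map f).hom.toAddMonoidHom
    ((functor ℤ G n).map f').hom.toAddMonoidHom (m₁ * m₂) p hm ?_ ?_
  · intro x
    have := congrArg (fun φ => (functor ℤ G n).map φ) h1
    simp only [Functor.map_comp] at this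
    exact (congrArg (fun φ => (ConcreteCategory.hom φ) x) this).trans
      (functor_map_smulHom (m₁ * m₂) A n x)
  · intro y
    have := congrArg (fun φ => (functor ℤ G n).map φ) h2
    simp only [Functor.map_comp] at this
    exact (congrArg (fun φ => (ConcreteCategory.hom φ) y) this).trans
      (functor_map_smulHom (m₁ * m₂) B n y)

end Primary

end Fermat.Agent.S55.Middle.PassageTS
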