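/-
S55 / Middle (row M.perm, part 2, owner helper5): class-level forms of `Middle/Perm.lean`.

* `perm_H2_res`      : residues of an LC coboundary are LC coboundaries (converse of `perm_H2_inj`);
* `IsInduced 𝒰 H 𝒱`  : `𝒱 : NBasis H` is (equivalent to) the basis induced by `𝒰` on `H ≤ G`;
                       instances for `Middle.Defs.NBasis.sub` and `Bridge.ShapiroLC.subBasis`;
* `resMor`           : the residue morphism `(G, 𝒰, ℤ[X]) → (Stab x, 𝒱, ℤ)` (restrict + `x`-coordinate);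
* `h1_eq_zero`       : `H¹_LC(G, ℤ[X]) = 0`;
* `h2_eq_zero_of_res`: a class in `H²_LC(G, ℤ[X])` all of whose residues vanish is zero;
* `ofMulActionEquiv` : the model `Rep.ofMulAction ℤ G X`.
-/
import Mathlib
import Fermat.Agent.S55.Middle.Perm
import Fermat.Agent.S55.Middle.Defs
import Fermat.Agent.S55.Bridge.ShapiroLC

set_option autoImplicit false

open CategoryTheory groupCohomology

namespace Fermat.Agent.S55.Middle.PermClass

open Fermat.Agent.S55.Formal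
open Fermat.Agent.S55.Middle.Perm

variable {G : Type} [Group G] {𝒰 : NBasis G} {X : Type} [MulAction G X]

section Converse

variable {k : Type} [CommRing k] {M : Rep.{0, 0, 0} k G} (e : M ≃+ (X →₀ ℤ))

/-- residues of an LC coboundary are LC coboundaries. -/
theorem perm_H2_res (hX : IsSmoothSet 𝒰 X)
    (he : ∀ (g : G) (m : M) (x : X), e (M.ρ g m) x = e m (g⁻¹ • x))
    (c : ↥(C₂ 𝒰 M)) (b : ↥(C₁ 𝒰 M)) (hb : dC₁ 𝒰 M b = c) (x : X) :
    IsResidueTrivial 𝒰 (fun g h x => e ((c : G × G → M) (g, h)) x) x := by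
  obtain ⟨N, hN, hbN⟩ := b.2
  obtain ⟨Vx, hVx, hfix⟩ := hX x
  obtain ⟨V, hV, hle⟩ := 𝒰.inf hN hVx
  refine ⟨V, hV, fun s hs => hfix s (hle hs).2,
    fun u => e ((b : G → M) (u : G)) x, fun u s hs => ?_, fun u v => ?_⟩
  · simp only [Subgroup.coe_mul, (hbN _ (hle hs).1 _).1]
  · have hu : (u : G)⁻¹ • x = x := by
      rw [inv_smul_eq_iff]; exact (MulAction.mem_stabilizer_iff.mp u.2).symm
    have h1 : (c : G × G → M) ((u : G), (v : G)) = (d₁₂ M).hom (b : G → M) ((u : G), (v : G)) := by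
      rw [← hb]; rfl
    simp only [h1, d₁₂_hom_apply, map_add, map_sub, Finsupp.coe_add, Finsupp.coe_sub, Pi.add_apply,
      Pi.sub_apply, he, hu, Subgroup.coe_mul]

end Converse

/-! ### induced bases -/

/-- `𝒱` is equivalent to the basis induced by `𝒰` on the subgroup `H`. -/
structure IsInduced (𝒰 : NBasis G) (H : Subgroup G) (𝒱 : NBasis ↥H) : Prop where
  cont : IsCont 𝒰 𝒱 H.subtype
  coarse : ∀ W, 𝒱.mem W → ∃ N, 𝒰.mem N ∧ N.subgroupOf H ≤ W

lemma isInduced_subBasis (𝒰 : NBasis G) (H : Subgroup G) :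
    IsInduced 𝒰 H (Fermat.Agent.S55.Bridge.ShapiroLC.subBasis 𝒰 H) where
  cont N hN := ⟨N.subgroupOf H, ⟨N, hN, rfl⟩, fun _ hs => hs⟩
  coarse := by
    rintro W ⟨N, hN, rfl⟩
    exact ⟨N, hN, le_rfl⟩

lemma isInduced_sub (𝒰 : NBasis G) (H : Subgroup G)
    (hH : Fermat.Agent.S55.Middle.Defs.IsOpenSub 𝒰 H) :
    IsInduced 𝒰 H (Fermat.Agent.S55.Middle.Defs.NBasis.sub 𝒰 H) where
  cont N hN := by
    obtain ⟨W, hW, hWH⟩ := hH
    obtain ⟨W', hW', hle⟩ := 𝒰.inf hN hW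
    refine ⟨W'.subgroupOf H, Or.inr ⟨W', hW', hle.trans (inf_le_right.trans hWH), rfl⟩, ?_⟩
    intro s hs
    exact (hle (Subgroup.mem_subgroupOf.mp hs)).1
  coarse := by
    rintro W (rfl | ⟨N, hN, -, rfl⟩)
    · exact ⟨⊤, 𝒰.top, le_top⟩
    · exact ⟨N, hN, le_rfl⟩

/-- stabilisers of a smooth `G`-set are open -/
lemma isOpenSub_stabilizer (hX : IsSmoothSet 𝒰 X) (x : X) :
    Fermat.Agent.S55.Middle.Defs.IsOpenSub 𝒰 (MulAction.stabilizer G x) := by
  obtain ⟨U, hU, h⟩ := hX x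
  exact ⟨U, hU, fun s hs => MulAction.mem_stabilizer_iff.mpr (h s hs)⟩

/-! ### the residue morphism and the class-level statements -/

section ClassesOne

variable {k : Type} [CommRing k] {M : Rep.{0, 0, 0} k G} (e : M ≃+ (X →₀ ℤ))
  (he : ∀ (g : G) (m : M) (x : X), e (M.ρ g m) x = e m (g⁻¹ • x))

include he in
/-- **`H¹_LC(G, ℤ[X]) = 0`** for a smooth `G`-set `X`. -/
theorem h1_eq_zero (hX : IsSmoothSet 𝒰 X) (ξ : H1 𝒰 M) : ξ = 0 := by
  obtain ⟨f, hf, rfl⟩ := Hmid.exists_of ξ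
  exact Hmid.of_eq_zero_iff.mpr (perm_H1_vanish e hX he f hf)

end ClassesOne

section Classes

-- for `k = ℤ` the instance `AddCommGroup.toIntModule` competes with the `Rep`-supplied module
-- structures (`M.hV2`, `Submodule.module`); switch it off locally.
attribute [-instance] AddCommGroup.toIntModule

variable {M : Rep.{0, 0, 0} ℤ G} (e : M ≃+ (X →₀ ℤ))
  (he : ∀ (g : G) (m : M) (x : X), e (M.ρ g m) x = e m (g⁻¹ • x))

/-- The residue morphism at `x`: restrict to `Stab x` and take the `x`-coordinate. -/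
noncomputable def resMor (x : X) (𝒱 : NBasis ↥(MulAction.stabilizer G x))
    (h𝒱 : IsCont 𝒰 𝒱 (MulAction.stabilizer G x).subtype) :
    Mor 𝒰 M 𝒱 (Rep.trivial ℤ ↥(MulAction.stabilizer G x) ℤ) where
  f := (MulAction.stabilizer G x).subtype
  cont := h𝒱
  φ :=
    { toFun := fun m => e m x
      map_add' := fun a b => by rw [map_add]; rfl
      map_smul' := fun c m => by
        have h := map_intCast_smul ((Finsupp.applyAddHom x).comp e.toAddMonoidHom) ℤ ℤ c m
        simp only [Int.cast_id, AddMonoidHom.comp_apply, AddEquiv.coe_toAddMonoidHom,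
          Finsupp.applyAddHom_apply] at h
        exact h }
  equivar g a := by
    have hg : (g : G)⁻¹ • x = x := by
      rw [inv_smul_eq_iff]; exact (MulAction.mem_stabilizer_iff.mp g.2).symm
    simp only [LinearMap.coe_mk, AddHom.coe_mk, Subgroup.coe_subtype, he, hg]
    rfl

@[simp] lemma resMor_φ_apply (x : X) (𝒱 : NBasis ↥(MulAction.stabilizer G x))
    (h𝒱 : IsCont 𝒰 𝒱 (MulAction.stabilizer G x).subtype) (m : M) :
    (resMor e he x 𝒱 h𝒱).φ m = e m x := rfl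

/-- **Injectivity of residues**: a class in `H²_LC(G, ℤ[X])` whose residue in
`H²_LC(Stab x, ℤ)` vanishes for every `x` is zero. -/
theorem h2_eq_zero_of_res (hX : IsSmoothSet 𝒰 X)
    (𝒱 : ∀ x : X, NBasis ↥(MulAction.stabilizer G x))
    (h𝒱 : ∀ x, IsInduced 𝒰 (MulAction.stabilizer G x) (𝒱 x))
    (ξ : H2 𝒰 M) (hξ : ∀ x, (resMor e he x (𝒱 x) (h𝒱 x).cont).h2 ξ = 0) : ξ = 0 := by
  obtain ⟨c, hc, rfl⟩ := Hmid.exists_of ξ
  refine Hmid.of_eq_zero_iff.mpr (perm_H2_inj e hX he c hc (fun x => ?_))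
  set α := resMor e he x (𝒱 x) (h𝒱 x).cont with hα
  have hb' : dC₂ (𝒱 x) _ (α.c₂ c) = 0 := by
    have := LinearMap.congr_fun α.c₃_dC₂ c
    simp only [LinearMap.comp_apply] at this
    rw [← this, hc, map_zero]
  have hx : (Hmid.of (α.c₂ c) hb' : H2 (𝒱 x) _) = 0 := hξ x
  obtain ⟨a, ha⟩ := Hmid.of_eq_zero_iff.mp hx
  obtain ⟨W, hW, haW⟩ := a.2
  obtain ⟨N, hN, hNW⟩ := (h𝒱 x).coarse W hW
  obtain ⟨Vx, hVx, hfix⟩ := hX x
  obtain ⟨V, hV, hle⟩ := 𝒰.inf hN hVx
  refine ⟨V, hV, fun s hs => hfix s (hle hs).2, (a : _ → ℤ), fun u s hs => ?_, fun u v => ?_⟩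
  · exact (haW s (hNW (Subgroup.mem_subgroupOf.mpr (hle hs).1)) u).1
  · have h1 := congrArg (fun z : ↥(C₂ (𝒱 x) _) => (z : _ × _ → ℤ) (u, v)) ha
    simp only [dC₁_coe, d₁₂_hom_apply, Mor.c₂_coe, Mor.p₂_apply] at h1
    rw [hα, resMor_φ_apply] at h1
    exact h1.symm

end Classes

/-! ### the model `Rep.ofMulAction ℤ G X` -/

section Model

variable (G X)

/-- coordinates on `Rep.ofMulAction ℤ G X` -/
noncomputable def ofMulActionEquiv : (Rep.ofMulAction ℤ G X) ≃+ (X →₀ ℤ) :=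
  MonoidAlgebra.coeffAddEquiv

lemma ofMulActionEquiv_ρ (g : G) (m : Rep.ofMulAction ℤ G X) (x : X) :
    ofMulActionEquiv G X ((Rep.ofMulAction ℤ G X).ρ g m) x = ofMulActionEquiv G X m (g⁻¹ • x) :=
  Representation.coeff_ofMulAction g m x

end Model

end Fermat.Agent.S55.Middle.PermClass
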