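/-
S55 / Middle (row M.perm, part 3, owner helper5): the one-orbit explicit Shapiro step of
`Middle/Perm.lean` (`orbit_step`) for an ARBITRARY subgroup `U₀ ≥ N` in place of the stabiliser
(e.g. `U₀ = Stab x₀ ⊔ N` for a non-open stabiliser, as needed for `Div` of `Middle/DivDef.lean`).
-/
import Mathlib
import Fermat.Agent.S55.Formal.LC
import Fermat.Agent.S55.Bridge.ShapiroGeneric

set_option autoImplicit false

namespace Fermat.Agent.S55.Middle.PermOrbit

open Fermat.Agent.S55.Formal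
open Fermat.Agent.S55.Bridge.ShapiroGeneric

variable {G : Type} [Group G] {𝒰 : NBasis G} {X : Type} [MulAction G X]

/-- One orbit, general subgroup `U₀`: if the coordinate functions `y ↦ c₀ g h (y⁻¹ • x₀)` are
left `U₀`-invariant, `c₀` is a cocycle of level `N₀`, and the "residue" `(u, v) ↦ c₀ u v x₀` on
`U₀` is the coboundary of a `V`-invariant `b₀ : U₀ → ℤ` (`V ≤ U₀` basic), then on the orbit of `x₀`
the cocycle is the coboundary of `E`, where `E` is left `U₀`-invariant and right `N`-invariant in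
the evaluation variable and right `N`-invariant in the group variable. -/
lemma orbit_step_gen {N₀ : Subgroup G} (hN₀ : 𝒰.mem N₀) (c₀ : G → G → X → ℤ)
    (hinv : ∀ s ∈ N₀, ∀ g h x, c₀ (g * s) h x = c₀ g h x ∧ c₀ g (h * s) x = c₀ g h x)
    (hcoc : ∀ g h j x, c₀ h j (g⁻¹ • x) - c₀ (g * h) j x + c₀ g (h * j) x - c₀ g h x = 0)
    (x₀ : X) (U₀ : Subgroup G)
    (hU₀ : ∀ u ∈ U₀, ∀ g h y, c₀ g h ((u * y)⁻¹ • x₀) = c₀ g h (y⁻¹ • x₀))
    {V : Subgroup G} (hV : 𝒰.mem V) (hVU : V ≤ U₀) (b₀ : U₀ → ℤ)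
    (hb₀V : ∀ u s : U₀, (s : G) ∈ V → b₀ (u * s) = b₀ u)
    (hb₀ : ∀ u v : U₀, c₀ u v x₀ = b₀ v - b₀ (u * v) + b₀ u) :
    ∃ N, 𝒰.mem N ∧ N ≤ N₀ ⊓ V ∧ ∃ E : G → G → ℤ,
      (∀ u ∈ U₀, ∀ g y, E g (u * y) = E g y) ∧
      (∀ s ∈ N, ∀ g y, E (g * s) y = E g y ∧ E g (y * s) = E g y) ∧
      ∀ g h y, c₀ g h (y⁻¹ • x₀) = E h (y * g) - E (g * h) y + E g y := by
  obtain ⟨N, hN, hNle⟩ := 𝒰.inf hN₀ hV
  have hNn : N.Normal := 𝒰.normal hN
  have hNU : N ≤ U₀ := fun s hs => hVU (hNle hs).2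
  let σ : Representation ℤ U₀ ℤ := Representation.trivial ℤ _ ℤ
  obtain ⟨r⟩ := exists_retraction U₀
  let F : G → G → G → ℤ := fun g h y => c₀ g h (y⁻¹ • x₀)
  have hF : Eq2 σ F := by
    intro u g h y
    simp only [F, σ, Representation.trivial_apply]
    exact hU₀ u u.2 g h y
  have hFN : Fac2 N F := (fac2_iff N).mpr (fun g h s hs => by
    constructor
    · funext y; exact (hinv s (hNle hs).1 g h _).1
    · funext y; exact (hinv s (hNle hs).1 g h _).2)
  have hc : δ2 F = 0 := by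
    funext g h j y
    simp only [δ2, F, Pi.zero_apply, mul_inv_rev, mul_smul]
    exact hcoc g h j (y⁻¹ • x₀)
  have hcN : Fac1 (N.subgroupOf U₀) b₀ :=
    (fac1_iff _).mpr (fun u s hs => hb₀V u s (hNle (Subgroup.mem_subgroupOf.mp hs)).2)
  have hSh : Sh2 F = dU1 σ b₀ := by
    funext u v
    simp only [Sh2, dU1, F, σ, Representation.trivial_apply, inv_one, one_smul]
    exact hb₀ u v
  obtain ⟨E, hE1, hEN, hFE⟩ := shapiro_inj2 (σ := σ) r N hNU hF hFN hc hcN hSh
  have hE1' : ∀ g s, s ∈ N → E (g * s) = E g := (fac1_iff N).mp hEN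
  have hFE' : ∀ g h y, F g h y = E h (y * g) - E (g * h) y + E g y := fun g h y => by
    rw [hFE]; rfl
  refine ⟨N, hN, hNle, E, ?_, ?_, hFE'⟩
  · intro u hu g y
    have := hE1 ⟨u, hu⟩ g y
    simpa only [σ, Representation.trivial_apply] using this
  · intro s hs g y
    refine ⟨congrFun (hE1' g s hs) y, ?_⟩
    have h1 := hFE' s g y
    have h2 : E (s * g) = E g := by
      have e1 : s * g = g * (g⁻¹ * s * g) := by group
      rw [e1]
      exact hE1' g _ (hNn.conj_mem' s hs g)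
    have h3 : E s = E 1 := by
      have := hE1' 1 s hs
      rwa [one_mul] at this
    have h4 : F s g y = F 1 g y := by
      have := ((fac2_iff N).mp hFN 1 g s hs).1
      rw [one_mul] at this
      exact congrFun this y
    have h5 := hFE' 1 g y
    simp only [mul_one, one_mul] at h5
    rw [h2, h3] at h1
    linarith

end Fermat.Agent.S55.Middle.PermOrbit
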