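/-
S55 / Middle / ProcyclicTors (helper33): the PROCYCLIC TORSION-KILLING STEP of the passage
"LC level → `p`-cyclotomic level" for `Div` (leaf (L1) of the (C5) chain, helper60).

`H` a group with a basis `𝒱` of normal subgroups of finite index, PROCYCLIC with respect to `𝒱`
(every quotient `H/V`, `V ∈ 𝒱`, is generated by one element), trivial coefficients `ℤ`.

* `dvd_of_mem`      : a level-constant `g : H → ℤ` whose coboundary is divisible by `m` (i.e. `g mod m`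
                      is a character of order dividing `m`) takes values divisible by `m` on every
                      open subgroup `D` whose index is divisible by `m`;
* `exists_primitive`: if `m • f = d g` then `f` restricted to `D` is the coboundary of a level-constant
                      `1`-cochain;
* `h2_eq_zero`      : class form: ANY morphism of situations whose group homomorphism lands in `D`
                      kills the `m`-torsion of `H²_LC(H; ℤ)`.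

Mathlib + `Formal/LC` only.
-/
import Mathlib
import Fermat.Agent.S55.Formal.LC

set_option autoImplicit false
set_option linter.style.haveILetI false

namespace Fermat.Agent.S55.Middle.ProcyclicTors

open Fermat.Agent.S55.Formal

/-- the trivial module `ℤ` -/
abbrev triv (H : Type) [Group H] : Rep.{0, 0, 0} ℤ H := Rep.trivial ℤ H ℤ

section Generic

variable {k : Type} [CommRing k] {G : Type} [Group G] {G' : Type} [Group G']
  {𝒰 : NBasis G} {A : Rep.{0, 0, 0} k G} {𝒰' : NBasis G'} {B : Rep.{0, 0, 0} k G'}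

/-- applied form of `Mor.c₃_dC₂` (generic `k`, to avoid the `ℤ`-module diamond) -/
theorem c₃_dC₂_apply (α : Mor 𝒰 A 𝒰' B) (f : ↥(C₂ 𝒰 A)) :
    α.c₃ (dC₂ 𝒰 A f) = dC₂ 𝒰' B (α.c₂ f) :=
  LinearMap.congr_fun α.c₃_dC₂ f

/-- applied form of `Mor.c₂_dC₁` (generic `k`, to avoid the `ℤ`-module diamond) -/
theorem c₂_dC₁_apply (α : Mor 𝒰 A 𝒰' B) (f : ↥(C₁ 𝒰 A)) :
    α.c₂ (dC₁ 𝒰 A f) = dC₁ 𝒰' B (α.c₁ f) :=
  LinearMap.congr_fun α.c₂_dC₁ f

/-- a class whose image cocycle is a coboundary maps to zero (generic `k`) -/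
theorem h2_of_eq_zero (α : Mor 𝒰 A 𝒰' B) (f : ↥(C₂ 𝒰 A)) (hf : dC₂ 𝒰 A f = 0)
    (e : ↥(C₁ 𝒰' B)) (he : dC₁ 𝒰' B e = α.c₂ f) : α.h2 (Hmid.of f hf) = 0 := by
  have hcf : dC₂ 𝒰' B (α.c₂ f) = 0 := by rw [← c₃_dC₂_apply α f, hf, map_zero]
  have e1 : α.h2 (Hmid.of f hf) = Hmid.of (α.c₂ f) hcf := rfl
  rw [e1, Hmid.of_eq_zero_iff]
  exact ⟨e, he⟩

/-- an `m`-torsion class: `m • f` is a coboundary (generic `k`) -/
theorem exists_of_nsmul_eq_zero (m : ℕ) (f : ↥(C₂ 𝒰 A)) (hf : dC₂ 𝒰 A f = 0)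
    (hz : m • (Hmid.of f hf : H2 𝒰 A) = 0) : ∃ g : ↥(C₁ 𝒰 A), dC₁ 𝒰 A g = m • f := by
  have hmf : dC₂ 𝒰 A (m • f) = 0 := by rw [map_nsmul, hf, smul_zero]
  have e0 : m • (Hmid.of f hf : H2 𝒰 A) = Hmid.of (m • f) hmf :=
    (map_nsmul (Hmid.mk (dC₁ 𝒰 A) (dC₂ 𝒰 A)) m ⟨f, LinearMap.mem_ker.mpr hf⟩).symm
  rw [e0, Hmid.of_eq_zero_iff] at hz
  exact hz

end Generic

section Group

variable {H : Type} [Group H]

/-- **Group-theoretic core.**  `V ≤ D ≤ H`, `V` normal, `H/V` generated by the class of `d`, `D` of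
finite index divisible by `m`; then every `s ∈ D` is `d ^ k` modulo `V` with `m ∣ k`. -/
theorem exists_pow_mul_mem (V D : Subgroup H) [hV : V.Normal] (hVD : V ≤ D)
    (d : H) (hd : ∀ s : H, ∃ k : ℕ, s⁻¹ * d ^ k ∈ V) (m : ℕ) (hm : m ∣ D.index)
    (s : H) (hs : s ∈ D) : ∃ k : ℕ, m ∣ k ∧ s⁻¹ * d ^ k ∈ V := by
  classical
  -- the quotient `Q = H ⧸ V` is generated by `c = mk d`, hence commutative
  let c : H ⧸ V := QuotientGroup.mk d
  have hgen : ∀ x : H ⧸ V, x ∈ Subgroup.zpowers c := by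
    intro x
    obtain ⟨s, rfl⟩ := QuotientGroup.mk_surjective x
    obtain ⟨k, hk⟩ := hd s
    refine ⟨(k : ℤ), ?_⟩
    have : (QuotientGroup.mk s : H ⧸ V) = QuotientGroup.mk (d ^ k) :=
      QuotientGroup.eq.2 hk
    rw [this]
    simp [c]
  haveI : IsCyclic (H ⧸ V) := ⟨⟨c, hgen⟩⟩
  letI : CommGroup (H ⧸ V) := IsCyclic.commGroup
  -- `D` is normal in `H`
  have hDn : D.Normal := by
    have h1 : (D.map (QuotientGroup.mk' V)).comap (QuotientGroup.mk' V) = D :=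
      Subgroup.comap_map_eq_self (by rw [QuotientGroup.ker_mk']; exact hVD)
    rw [← h1]
    exact Subgroup.Normal.comap (inferInstance) _
  -- `H ⧸ D` is generated by `mk d`, so its order is `D.index`
  let e : H ⧸ D := QuotientGroup.mk d
  have hgenD : ∀ x : H ⧸ D, x ∈ Subgroup.zpowers e := by
    intro x
    obtain ⟨s, rfl⟩ := QuotientGroup.mk_surjective x
    obtain ⟨k, hk⟩ := hd s
    refine ⟨(k : ℤ), ?_⟩
    have : (QuotientGroup.mk s : H ⧸ D) = QuotientGroup.mk (d ^ k) :=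
      QuotientGroup.eq.2 (hVD hk)
    rw [this]
    simp [e]
  have hord : orderOf e = D.index := by
    rw [orderOf_eq_card_of_forall_mem_zpowers hgenD]
    rfl
  obtain ⟨k, hk⟩ := hd s
  refine ⟨k, ?_, hk⟩
  -- `d ^ k ∈ D`
  have hdk : d ^ k ∈ D := by
    have : s * (s⁻¹ * d ^ k) ∈ D := D.mul_mem hs (hVD hk)
    simpa using this
  have hek : e ^ k = 1 := by
    have : (QuotientGroup.mk (d ^ k) : H ⧸ D) = 1 := (QuotientGroup.eq_one_iff _).2 hdk
    simpa [e] using this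
  have : orderOf e ∣ k := orderOf_dvd_of_pow_eq_one hek
  rw [hord] at this
  exact hm.trans this

end Group

variable {H : Type} [Group H] (𝒱 : NBasis H)

/-- `H` is procyclic with respect to `𝒱`: every quotient `H/V`, `V ∈ 𝒱`, is generated by one
element. -/
def IsProcyclic : Prop :=
  ∀ V, 𝒱.mem V → ∃ d : H, ∀ s : H, ∃ k : ℕ, s⁻¹ * d ^ k ∈ V

variable {𝒱}

/-- **A character of order dividing `m` of a procyclic group dies on every open subgroup of index
divisible by `m`** (cochain form: `g mod m` is the character). -/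
theorem dvd_of_mem (hc : IsProcyclic 𝒱) (m : ℕ) (g : H → ℤ) (hg : IsLC₁ 𝒱 (triv H) g)
    (hd : ∀ s t : H, (m : ℤ) ∣ g t - g (s * t) + g s)
    (D : Subgroup H) (hD : ∃ U, 𝒱.mem U ∧ U ≤ D) (hidx : m ∣ D.index) :
    ∀ s ∈ D, (m : ℤ) ∣ g s := by
  intro s hs
  obtain ⟨U, hU, hgU⟩ := hg
  obtain ⟨U', hU', hU'D⟩ := hD
  obtain ⟨V, hV, hVle⟩ := 𝒱.inf hU hU'
  have hVU : V ≤ U := hVle.trans inf_le_left
  have hVD : V ≤ D := (hVle.trans inf_le_right).trans hU'D
  haveI := 𝒱.normal hV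
  haveI := 𝒱.finiteIndex hV
  have hfin : D.index ≠ 0 := by
    haveI : D.FiniteIndex := Subgroup.finiteIndex_of_le hVD
    exact Subgroup.FiniteIndex.index_ne_zero
  -- `g 1 ≡ 0`, `g` is additive mod `m`, and `g ≡ 0` on `U`
  have h1 : (m : ℤ) ∣ g 1 := by simpa using hd 1 1
  have hmul : ∀ a b : H, (m : ℤ) ∣ g (a * b) - (g a + g b) := by
    intro a b
    have := hd a b
    have h2 : g (a * b) - (g a + g b) = -(g b - g (a * b) + g a) := by ring
    rw [h2]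
    exact (dvd_neg).2 this
  have hU0 : ∀ u ∈ U, (m : ℤ) ∣ g u := by
    intro u hu
    have := (hgU u hu 1).1
    rw [one_mul] at this
    rw [this]
    exact h1
  have hpow : ∀ (a : H) (k : ℕ), (m : ℤ) ∣ g (a ^ k) - k * g a := by
    intro a k
    induction k with
    | zero => simpa using h1
    | succ k ih =>
      have h3 := hmul (a ^ k) a
      have h4 : g (a ^ (k + 1)) - ((k + 1 : ℕ) : ℤ) * g a =
          (g (a ^ k * a) - (g (a ^ k) + g a)) + (g (a ^ k) - k * g a) := by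
        rw [pow_succ]
        push_cast
        ring
      rw [h4]
      exact dvd_add h3 ih
  obtain ⟨d, hdgen⟩ := hc V hV
  obtain ⟨k, hmk, hk⟩ := exists_pow_mul_mem V D hVD d hdgen m hidx s hs
  -- `d ^ k = s * v` with `v ∈ V ≤ U`
  set v := s⁻¹ * d ^ k with hv
  have hdk : d ^ k = s * v := by rw [hv]; group
  have e1 : (m : ℤ) ∣ g (s * v) - (g s + g v) := hmul s v
  have e2 : (m : ℤ) ∣ g v := hU0 v (hVU hk)
  have e3 : (m : ℤ) ∣ g (d ^ k) - k * g d := hpow d k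
  have e4 : (m : ℤ) ∣ (k : ℤ) * g d := by
    obtain ⟨l, rfl⟩ := hmk
    exact ⟨(l : ℤ) * g d, by push_cast; ring⟩
  rw [hdk] at e3
  have e5 : g s = (g (s * v) - ↑k * g d) + ↑k * g d - (g (s * v) - (g s + g v)) - g v := by ring
  rw [e5]
  exact dvd_sub (dvd_sub (dvd_add e3 e4) e1) e2

/-- **Primitive on `D`.**  If `m • f = d g` with `g` level-constant, then `f` restricted to an open
subgroup `D` of index divisible by `m` is the coboundary of a level-constant `1`-cochain. -/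
theorem exists_primitive (hc : IsProcyclic 𝒱) (m : ℕ) (hm : 0 < m) (f : H × H → ℤ) (g : H → ℤ)
    (hg : IsLC₁ 𝒱 (triv H) g)
    (hfg : ∀ s t : H, (m : ℤ) * f (s, t) = g t - g (s * t) + g s)
    (D : Subgroup H) (hD : ∃ U, 𝒱.mem U ∧ U ≤ D) (hidx : m ∣ D.index) :
    ∃ h : H → ℤ, IsLC₁ 𝒱 (triv H) h ∧
      ∀ s ∈ D, ∀ t ∈ D, f (s, t) = h t - h (s * t) + h s := by
  have hdvd := dvd_of_mem hc m g hg (fun s t => ⟨f (s, t), (hfg s t).symm⟩) D hD hidx
  have hm0 : (m : ℤ) ≠ 0 := by exact_mod_cast hm.ne'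
  refine ⟨fun s => g s / (m : ℤ), ?_, ?_⟩
  · obtain ⟨U, hU, hgU⟩ := hg
    refine ⟨U, hU, fun s hs x => ⟨?_, rfl⟩⟩
    show g (x * s) / (m : ℤ) = g x / (m : ℤ)
    rw [(hgU s hs x).1]
  · intro s hs t ht
    have h1 : (m : ℤ) * (g s / (m : ℤ)) = g s := Int.mul_ediv_cancel' (hdvd s hs)
    have h2 : (m : ℤ) * (g t / (m : ℤ)) = g t := Int.mul_ediv_cancel' (hdvd t ht)
    have h3 : (m : ℤ) * (g (s * t) / (m : ℤ)) = g (s * t) :=
      Int.mul_ediv_cancel' (hdvd (s * t) (D.mul_mem hs ht))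
    apply mul_left_cancel₀ hm0
    show (m : ℤ) * f (s, t) =
      (m : ℤ) * (g t / (m : ℤ) - g (s * t) / (m : ℤ) + g s / (m : ℤ))
    rw [hfg, mul_add, mul_sub, h1, h2, h3]

/-- **Class form.**  Any morphism of situations out of `(H, 𝒱, ℤ)` whose group homomorphism lands in
an open subgroup `D` of index divisible by `m` kills the `m`-torsion of `H²_LC(H; ℤ)`. -/
theorem h2_eq_zero (hc : IsProcyclic 𝒱) (m : ℕ) (hm : 0 < m)
    (D : Subgroup H) (hD : ∃ U, 𝒱.mem U ∧ U ≤ D) (hidx : m ∣ D.index)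
    {H' : Type} [Group H'] {𝒱' : NBasis H'} {B : Rep.{0, 0, 0} ℤ H'}
    (α : Mor 𝒱 (triv H) 𝒱' B) (hα : ∀ x : H', α.f x ∈ D)
    (z : H2 𝒱 (triv H)) (hz : m • z = 0) : α.h2 z = 0 := by
  obtain ⟨f, hf, rfl⟩ := Hmid.exists_of z
  -- `m • f` is a coboundary
  obtain ⟨g, hg⟩ := exists_of_nsmul_eq_zero m f hf hz
  -- pointwise form of `d g = m • f`
  have hfg : ∀ s t : H, (m : ℤ) * (f : H × H → ℤ) (s, t) =
      (g : H → ℤ) t - (g : H → ℤ) (s * t) + (g : H → ℤ) s := by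
    intro s t
    have h1 := congrFun (congrArg Subtype.val hg) (s, t)
    have h2 : ((m • f : ↥(C₂ 𝒱 (triv H))) : H × H → ℤ) (s, t) =
        (m : ℤ) * (f : H × H → ℤ) (s, t) := by
      show (m • (f : H × H → ℤ)) (s, t) = _
      rw [Pi.smul_apply, nsmul_eq_mul]
    rw [← h2, ← h1]
    show (groupCohomology.d₁₂ (triv H)).hom (g : H → ℤ) (s, t) = _
    rw [groupCohomology.d₁₂_hom_apply]
    rfl
  obtain ⟨h, hh, hprim⟩ := exists_primitive hc m hm (f : H × H → ℤ) (g : H → ℤ) g.2 hfg D hD hidx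
  -- the image of `f` is the coboundary of the image of `h`
  refine h2_of_eq_zero α f hf (α.c₁ ⟨h, hh⟩) ?_
  have e2 : dC₁ 𝒱' B (α.c₁ ⟨h, hh⟩) = α.c₂ (dC₁ 𝒱 (triv H) ⟨h, hh⟩) :=
    (c₂_dC₁_apply α (⟨h, hh⟩ : ↥(C₁ 𝒱 (triv H)))).symm
  rw [e2]
  apply Subtype.ext
  funext x
  obtain ⟨x₁, x₂⟩ := x
  show α.φ (((dC₁ 𝒱 (triv H) ⟨h, hh⟩ : ↥(C₂ 𝒱 (triv H))) : H × H → ℤ) (α.f x₁, α.f x₂)) =
    α.φ ((f : H × H → ℤ) (α.f x₁, α.f x₂))
  congr 1
  rw [hprim (α.f x₁) (hα x₁) (α.f x₂) (hα x₂)]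
  show (groupCohomology.d₁₂ (triv H)).hom h (α.f x₁, α.f x₂) = _
  rw [groupCohomology.d₁₂_hom_apply]
  rfl

end Fermat.Agent.S55.Middle.ProcyclicTors
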