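/-
S55 / MIDDLE block (helper56): the `q`-components (`LocalProdT.projQ`) of a family supported in `S`
vanish for `q ∉ S` — the input of `LocOffSupp.jB_eq_zero_of_proj` in the family language of
`ImageFiniteCore` (support for (B1) `OffOfSuppIn`).

* `map_projQ_toJn_eq_zero` : `SuppIn S c`, `q ∈ T`, `q ∉ S` ⟹ `(projQ q)_* (toJn T c) = 0`;
* `map_projQ_LxToJn_eq_zero` : `SuppIn S (locFam K L y)` ⟹ `(projQ q)_* ((LxToJn K L T)_* y) = 0`;
* `map_projQ_LxToJn_eq_zero_iff` : the `q`-component of a global class vanishes iff all its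
  localisations above `q` vanish.
-/
import Mathlib
import Fermat.Agent.S55.Middle.ImageFiniteCore
import Fermat.Agent.S55.Global.ProjQLoc

set_option autoImplicit false
set_option linter.unusedSectionVars false

open CategoryTheory groupCohomology NumberField TensorProduct

namespace Fermat.Agent.S55.Middle.ProjQFam

open Fermat.Agent.S55.Global.Objects Fermat.Agent.S55.Global.Objects2
open Fermat.Agent.S55.Global.Blocks3
open Fermat.Agent.S55.Global.LocalProd Fermat.Agent.S55.Global.LocalProdCoh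
open Fermat.Agent.S55.Global.LocalProdT Fermat.Agent.S55.Global
open Fermat.Agent.S55.Middle Fermat.Agent.S55.Middle.HasseH2
open Fermat.Agent.S55.Middle.ImageFiniteCore

variable {K : Type} [Field K] [NumberField K]
variable {L : Type} [Field L] [NumberField L] [Algebra K L]

/-- The `q`-component of `toJn T c` vanishes as soon as `c` vanishes at all places above `q`. -/
theorem map_projQ_toJn_eq_zero_of_forall (T : Finset Nat.Primes) (c : Fam K L) (q : T)
    (hc : ∀ 𝔪 : MaximalSpectrum (Ksemi K (q : Nat.Primes)), c ⟨(q : Nat.Primes), 𝔪⟩ = 0) :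
    (groupCohomology.map (MonoidHom.id (L ≃ₐ[K] L)) (projQ K L T q) 2).hom (toJn T c) = 0 :=
  ProjQLoc.map_projQ_eq_zero_of_cohEquivLoc K L T 2 _ q (fun 𝔪 => by
    rw [cohEquivLoc_toJn]
    exact hc 𝔪)

/-- The `q`-components of a family supported in `S` vanish for `q ∉ S`. -/
theorem map_projQ_toJn_eq_zero (T S : Finset Nat.Primes) (c : Fam K L) (hc : SuppIn S c) (q : T)
    (hq : (q : Nat.Primes) ∉ S) :
    (groupCohomology.map (MonoidHom.id (L ≃ₐ[K] L)) (projQ K L T q) 2).hom (toJn T c) = 0 :=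
  map_projQ_toJn_eq_zero_of_forall T c q (fun 𝔪 => hc ⟨(q : Nat.Primes), 𝔪⟩ hq)

/-- The `q`-component of the image in `H²(G, Jn K L T)` of a global class vanishes iff all its
localisations at the places above `q` vanish. -/
theorem map_projQ_LxToJn_eq_zero_iff (T : Finset Nat.Primes)
    (y : groupCohomology (Rep.ofAlgebraAutOnUnits K L) 2) (q : T) :
    (groupCohomology.map (MonoidHom.id (L ≃ₐ[K] L)) (projQ K L T q) 2).hom
        ((groupCohomology.map (MonoidHom.id (L ≃ₐ[K] L)) (LxToJn K L T) 2).hom y) = 0 ↔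
      ∀ 𝔪 : MaximalSpectrum (Ksemi K (q : Nat.Primes)),
        locH K L (Kloc K (q : Nat.Primes) 𝔪.asIdeal) 2 y = 0 := by
  constructor
  · intro h 𝔪
    have h1 := ProjQLoc.cohEquivLoc_eq_zero_of_map_projQ K L T 2 _ q h 𝔪
    rw [cohEquivLoc_map_incl K L T (LxToJn K L T) (LxToJn_apply K L T) 2 y ⟨q, 𝔪⟩] at h1
    exact h1
  · intro h
    refine ProjQLoc.map_projQ_eq_zero_of_cohEquivLoc K L T 2 _ q (fun 𝔪 => ?_)
    rw [cohEquivLoc_map_incl K L T (LxToJn K L T) (LxToJn_apply K L T) 2 y ⟨q, 𝔪⟩]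
    exact h 𝔪

/-- For a global class whose family of localisations is supported in `S`, the `q`-components of
its image in `H²(G, Jn K L T)` vanish for `q ∈ T ∖ S`. -/
theorem map_projQ_LxToJn_eq_zero (T S : Finset Nat.Primes)
    (y : groupCohomology (Rep.ofAlgebraAutOnUnits K L) 2) (hy : SuppIn S (locFam K L y)) (q : T)
    (hq : (q : Nat.Primes) ∉ S) :
    (groupCohomology.map (MonoidHom.id (L ≃ₐ[K] L)) (projQ K L T q) 2).hom
        ((groupCohomology.map (MonoidHom.id (L ≃ₐ[K] L)) (LxToJn K L T) 2).hom y) = 0 :=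
  (map_projQ_LxToJn_eq_zero_iff T y q).2 (fun 𝔪 => hy ⟨(q : Nat.Primes), 𝔪⟩ hq)

end Fermat.Agent.S55.Middle.ProjQFam
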