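/-
S55 / Middle (helper79): (C5a) CLOSED — the finite-level core `RealDivInst.Core p` is a theorem
(`RealDivCoreB.exists_off_inflL_eq`), hence through helper86's instantiation glue
(`RealDivInst`) and helper58's deepening (`RealDivDeep`, `H3OLevels`):

* `core p : RealDivInst.Core p`;
* `flReal (hodd) : RealDivInst.FLReal p S`;
* `realDivDeepLevel (hodd) (hpS) : RealDivDeep.RealDivDeepLevel p S`;
* `realDivPLevel (hodd) (hpS) : H3OLevels.RealDivPLevel p S`;
* `h3OTorsion_of_h3Kx (hodd) (hpS) : H3OInst.H3KxTorsionFree p S → Blocks.H3OTorsion p S`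
  — (C5), first half, with (HBN-H3) as the ONLY remaining hypothesis.
-/
import Mathlib
import Fermat.Agent.S55.Middle.RealDivInst
import Fermat.Agent.S55.Middle.RealDivCoreB

set_option autoImplicit false
set_option linter.unusedSectionVars false
set_option linter.style.haveILetI false
set_option synthInstance.maxHeartbeats 400000
set_option maxHeartbeats 1600000

open scoped TensorProduct Pointwise
open CategoryTheory groupCohomology

namespace Fermat.Agent.S55.Middle.RealDivClosed

noncomputable section

open Fermat.Agent.S55.Formal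
open Fermat.Agent.S55.Middle.Defs
open Fermat.Agent.S55.Middle.H3OInst

/-- **The finite-level core of (C5a) is a theorem.** -/
theorem core (p : ℕ) : RealDivInst.Core p := by
  intro S P 𝒱 hfine hfin K _ _ L _ _ _ _ ι F hF hι V _ φ hφ _ hV hφbij hle hp hodd hζ hpp hunr
    d k hk x₀ hx₀ m _ hdvd
  exact RealDivCoreB.exists_off_inflL_eq hfine hfin K ι hF hι V φ hφ hV hp hodd hζ hpp hunr
    hφbij hle d k hk x₀ hx₀ m hdvd

variable {p : ℕ} [Fact p.Prime] {S : Finset Nat.Primes}

/-- the finite-level core at the real objects -/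
theorem flReal (hodd : p ≠ 2) : RealDivInst.FLReal p S :=
  RealDivInst.flReal_of_core hodd (core p)

/-- **the deep-level realisation** (helper58's `RealDivDeepLevel`), unconditionally -/
theorem realDivDeepLevel (hodd : p ≠ 2) (hpS : ExtCitation.pPrime p ∈ S) :
    RealDivDeep.RealDivDeepLevel p S :=
  RealDivInst.realDivDeepLevel hodd hpS (flReal hodd)

/-- `H3OLevels.RealDivPLevel p S`, unconditionally -/
theorem realDivPLevel (hodd : p ≠ 2) (hpS : ExtCitation.pPrime p ∈ S) :
    H3OLevels.RealDivPLevel p S :=
  RealDivInst.realDivPLevel_of_core hodd hpS (core p)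

/-- **(C5), first half**: `Blocks.H3OTorsion p S` from (HBN-H3) alone. -/
theorem h3OTorsion_of_h3Kx (hodd : p ≠ 2) (hpS : ExtCitation.pPrime p ∈ S)
    (h3K : H3KxTorsionFree p S) : Blocks.H3OTorsion p S :=
  RealDivInst.h3OTorsion_of_core hodd hpS h3K (core p)

end

end Fermat.Agent.S55.Middle.RealDivClosed
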