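/-
S55 / Middle / (C5a), FINITE-LEVEL CORE of `H3OLevels.RealDivPLevel` (helper60).

In helper99's abstract finite-level model (`LocOff`, `Level` section): `K ∋ ζ_p`, `p` odd, `L/K`
Galois of `p`-power degree, unramified outside `S`.  Every class `d` of `H²(P/V, Div^V)` killed by
`p ^ k` is `off (inflL y)` for a global class `y ∈ H²(Gal(L/K), Lˣ)`, as soon as ONE place `x₀` of
`K` above `S` has a decomposition group of order divisible by `p ^ k`.

Chain:
* `LocOffSurjT.exists_primes_finset` : the residues of `ι₂ d` live over a finite `T₀`, taken off `S`;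
* `LocOffKerConv.exists_jB_eq_of_unram` (L2) : `ι₂ d = jB T₀ b₀`, and `p ^ k • b₀ = 0` by
  `LocOffKerConv.jB_injective_of_unram`;
* the family `c` of the place components of `b₀` (`0` outside `T₀`);
* `ImageFiniteClosed.exists_isGlobal_add_place` (L3, unconditional) : `c + single x₀ a = locFam y`;
* `LocOffFam.off_inflL_eq` : `off (inflL y) = jB T₀ (toJn T₀ (locFam y)) = jB T₀ b₀`.

`core p : RealDivInst.Core p` is the literal closed Prop consumed by helper86's `RealDivInst`.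
-/
import Mathlib
import Fermat.Agent.S55.Middle.LocOffFam
import Fermat.Agent.S55.Middle.LocOffKerConv
import Fermat.Agent.S55.Middle.LocOffSurjT
import Fermat.Agent.S55.Middle.ImageFiniteClosed

set_option autoImplicit false
set_option linter.unusedSectionVars false
set_option linter.style.haveILetI false

open scoped TensorProduct Pointwise
open CategoryTheory groupCohomology

namespace Fermat.Agent.S55.Middle.RealDivCore

noncomputable section

open Fermat.Agent.S55.Formal Fermat.Agent.S55.Formal.LCLevel Fermat.Agent.S55.Formal.LCLevelH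
open Fermat.Agent.S55.Middle.Defs Fermat.Agent.S55.Middle.DivDef Fermat.Agent.S55.Middle.Cap
open Fermat.Agent.S55.Middle.CapDiv Fermat.Agent.S55.Middle.LocOffVal
open Fermat.Agent.S55.Middle.LocOff Fermat.Agent.S55.Middle.LocOffFam
open Fermat.Agent.S55.Middle.ImageFiniteCore
open Fermat.Agent.S55.Global.Objects Fermat.Agent.S55.Global.Objects2
open Fermat.Agent.S55.Global.Blocks3
open Fermat.Agent.S55.Global.LocalProd Fermat.Agent.S55.Global.LocalProdCoh

section Fam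

variable {K : Type} [Field K] [NumberField K] {L : Type} [Field L] [NumberField L] [Algebra K L]

open Classical in
/-- the family of the place components of a class of `H²(Gal(L/K), Jn K L T)`, extended by `0` -/
def famOf (T : Finset Nat.Primes) (b : groupCohomology (Jn K L T) 2) : Fam K L :=
  fun x => if h : x.1 ∈ T then cohEquivLoc K L T 2 b ⟨⟨x.1, h⟩, x.2⟩ else 0

theorem famOf_of_mem (T : Finset Nat.Primes) (b : groupCohomology (Jn K L T) 2) (x : Pl K)
    (h : x.1 ∈ T) : famOf T b x = cohEquivLoc K L T 2 b ⟨⟨x.1, h⟩, x.2⟩ := dif_pos h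

theorem famOf_of_notMem (T : Finset Nat.Primes) (b : groupCohomology (Jn K L T) 2) (x : Pl K)
    (h : x.1 ∉ T) : famOf T b x = 0 := dif_neg h

theorem suppIn_famOf (T : Finset Nat.Primes) (b : groupCohomology (Jn K L T) 2) :
    SuppIn T (famOf T b) := fun x hx => famOf_of_notMem T b x hx

theorem toJn_famOf (T : Finset Nat.Primes) (b : groupCohomology (Jn K L T) 2) :
    toJn T (famOf T b) = b := by
  show (cohEquivLoc K L T 2).symm (restrT T (famOf T b)) = b
  rw [AddEquiv.symm_apply_eq]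
  funext x
  exact famOf_of_mem T b ⟨x.1.1, x.2⟩ x.1.2

theorem nsmul_famOf_eq_zero (T : Finset Nat.Primes) (b : groupCohomology (Jn K L T) 2) (n : ℕ)
    (hb : n • b = 0) : n • famOf T b = 0 := by
  funext x
  rw [Pi.smul_apply, Pi.zero_apply]
  by_cases h : x.1 ∈ T
  · rw [famOf_of_mem T b x h]
    have h1 : n • cohEquivLoc K L T 2 b = cohEquivLoc K L T 2 (n • b) :=
      (map_nsmul (cohEquivLoc K L T 2).toAddMonoidHom n b).symm
    have h2 := congrFun h1 ⟨⟨x.1, h⟩, x.2⟩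
    rw [Pi.smul_apply] at h2
    rw [h2, hb, AddEquiv.map_zero]
    rfl
  · rw [famOf_of_notMem T b x h, smul_zero]

end Fam

section Level

variable {S : Finset Nat.Primes} {P : Subgroup GQ} {𝒱 : NBasis ↥P}
  (hfine : IsCont (PreludeLC.globalBasis S) 𝒱 P.subtype) (hfin : P.FiniteIndex)
variable (K : Type) [Field K] [NumberField K] {L : Type} [Field L] [NumberField L] [Algebra K L]
  [IsGalois K L] (ι : L →+* Qbar)
  {F : IntermediateField ℚ Qbar} (hF : F.IsUnramifiedOutside S) (hι : ∀ l : L, ι l ∈ F)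
variable (V : Subgroup ↥P) [V.Normal] (φ : ↥P ⧸ V →* (L ≃ₐ[K] L))
  (hφ : ∀ (h : ↥P) (l : L), ι (φ (h : ↥P ⧸ V) l) = (h : GQ) (ι l))
variable [Finite (↥P ⧸ V)] (hV : 𝒱.mem V)

set_option synthInstance.maxHeartbeats 400000 in
set_option maxHeartbeats 1600000 in
/-- **The finite-level core of `RealDivPLevel`.** -/
theorem exists_off_inflL_eq (hφbij : Function.Bijective φ)
    (hle : ∀ u : GQ, (∀ l : L, u (ι l) = ι l) → u ∈ P)
    {p : ℕ} (hp : p.Prime) (hodd : p ≠ 2) (hζ : ∃ ζ : K, IsPrimitiveRoot ζ p)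
    (hpp : ∃ n : ℕ, Module.finrank K L = p ^ n)
    (hunr : ∀ q : Nat.Primes, q ∉ S → ∀ (𝔪 : Ideal (Ksemi K q)) [𝔪.IsMaximal]
      (m : Ideal (L ⊗[K] Kloc K q 𝔪)) [m.IsMaximal], UnramVal.IsUnramAtKloc K L q 𝔪 m)
    (d : groupCohomology.H2 ((Div 𝒱 (Xoff S)).quotientToInvariants V)) (k : ℕ)
    (hk : p ^ k • d = 0)
    (x₀ : Pl K) (hx₀ : x₀.1 ∈ S)
    (m : Ideal (L ⊗[K] Kloc K x₀.1 x₀.2.asIdeal)) [m.IsMaximal]
    (hdvd : p ^ k ∣ Nat.card (MulAction.stabilizer (L ≃ₐ[K] L) m)) :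
    ∃ y : groupCohomology (Rep.ofAlgebraAutOnUnits K L) 2,
      (Mor.ofHom 𝒱 (divMap hfine hfin)).h2 (inflL K ι hF hι V φ hφ hV y) =
        ι₂ 𝒱 (Div 𝒱 (Xoff S)) V hV d := by
  classical
  -- the finite set of primes carrying the residues, taken off `S`
  obtain ⟨T₀', hT₀'⟩ := LocOffSurjT.exists_primes_finset (S := S) (P := P) (𝒱 := 𝒱)
    (ι₂ 𝒱 (Div 𝒱 (Xoff S)) V hV d)
  obtain ⟨T₀, hmem⟩ : ∃ T₀ : Finset Nat.Primes, ∀ q, q ∈ T₀ ↔ (q ∈ T₀' ∧ q ∉ S) :=
    ⟨T₀'.filter (fun q => q ∉ S), fun q => Finset.mem_filter⟩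
  have hT₀S : ∀ q ∈ T₀, q ∉ S := fun q hq => ((hmem q).1 hq).2
  have hres : ∀ x : Xoff S, x.prime ∉ T₀ →
      (resMor 𝒱 (Xoff S) x).h2 (ι₂ 𝒱 (Div 𝒱 (Xoff S)) V hV d) = 0 := by
    intro x hx
    apply hT₀' x
    intro hx'
    exact hx ((hmem _).2 ⟨hx', x.prime_notMem⟩)
  -- (L2): `ι₂ d = jB T₀ b₀`
  obtain ⟨b₀, hb₀⟩ := LocOffKerConv.exists_jB_eq_of_unram hfine hfin K ι T₀ hF hι V φ hφ hV
    (fun q _ hqS 𝔪 _ m' _ => hunr q hqS 𝔪 m') hφbij hle d hres
  have hinj := LocOffKerConv.jB_injective_of_unram hfine hfin K ι T₀ hF hι V φ hφ hV hT₀S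
    (fun q hq 𝔪 _ m' _ => hunr q (hT₀S q hq) 𝔪 m') hφbij hle
  have hkb : p ^ k • b₀ = 0 := by
    apply hinj
    have h1 : jB hfine hfin K ι T₀ hF hι V φ hφ hV (p ^ k • b₀) =
        p ^ k • ι₂ 𝒱 (Div 𝒱 (Xoff S)) V hV d :=
      (map_nsmul (jB hfine hfin K ι T₀ hF hι V φ hφ hV) (p ^ k) b₀).trans
        (congrArg (fun e => p ^ k • e) hb₀)
    have h2 : p ^ k • ι₂ 𝒱 (Div 𝒱 (Xoff S)) V hV d = 0 :=
      ((ι₂ 𝒱 (Div 𝒱 (Xoff S)) V hV).map_smul_of_tower (p ^ k) d).symm.trans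
        ((congrArg (ι₂ 𝒱 (Div 𝒱 (Xoff S)) V hV) hk).trans (LinearMap.map_zero _))
    exact (h1.trans h2).trans (AddMonoidHom.map_zero _).symm
  -- the family of components of `b₀`
  have hcT : toJn T₀ (famOf T₀ b₀) = b₀ := toJn_famOf T₀ b₀
  have hkc : p ^ k • famOf T₀ b₀ = 0 := nsmul_famOf_eq_zero T₀ b₀ (p ^ k) hkb
  -- (L3): realisation
  obtain ⟨a, y, hy⟩ := ImageFiniteClosed.exists_isGlobal_add_place hp hodd hζ hpp T₀
    (famOf T₀ b₀) (suppIn_famOf T₀ b₀) k hkc x₀ m hdvd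
  refine ⟨y, ?_⟩
  have hx₀T : x₀.1 ∉ T₀ := fun h => hT₀S _ h hx₀
  have hy0 : ∀ x : Pl K, x.1 ∉ T₀ → x.1 ∉ S → locFam K L y x = 0 := by
    intro x hxT hxS
    have hne : x ≠ x₀ := by
      rintro rfl
      exact hxS hx₀
    rw [hy, Pi.add_apply, suppIn_famOf T₀ b₀ x hxT, Pi.single_eq_of_ne hne, add_zero]
  have hsingle : toJn T₀ (Pi.single x₀ a : Fam K L) = 0 :=
    toJn_eq_zero K T₀ (Pi.single x₀ a) (fun x hx => by
      have hne : x ≠ x₀ := by
        rintro rfl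
        exact hx₀T hx
      exact Pi.single_eq_of_ne hne a)
  have e1 : toJn T₀ (locFam K L y) = b₀ := by
    rw [hy]
    exact ((toJn T₀).map_add (famOf T₀ b₀) (Pi.single x₀ a)).trans
      ((congrArg₂ (· + ·) hcT hsingle).trans (add_zero b₀))
  exact (off_inflL_eq hfine hfin K ι hF hι V φ hφ hV y T₀ hy0).trans
    ((congrArg (jB hfine hfin K ι T₀ hF hι V φ hφ hV) e1).trans hb₀)

end Level

end

end Fermat.Agent.S55.Middle.RealDivCore
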