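/-
S55 / Middle / M.h3 (helper58): `H3OLevels.RealDivPLevel p S` FROM ITS DEEP-LEVEL FORM.

The finite-level realisation of residues (`FL-real`: `ImageFiniteCore.exists_isGlobal_add_single`)
needs a level whose local degree at a place over `p` is divisible by the exponent `p ^ a` of the
class to be realised; `CycloGrowLevel.exists_cycloLevel` gives this for all levels
`N ≤ fixRoots (p ^ m)`, `m ≥ m₀`.  This file is the LC-side bookkeeping: a class `d` of
`H²(H/N, Div^N)` may be replaced by its image `Dict.transH2 d` at the deeper `ℚ`-normal level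
`N ⊓ fixRoots (p ^ m)` (again in `globalBasis S`, `≤ H`, with `p`-group quotient, same inflation,
same exponent).

* `exists_deeper` : the replacement `(N, d) ↦ (N ⊓ fixRoots (p ^ m), transH2 d)`;
* `RealDivDeepLevel p S` : the realisation statement only at levels `N ≤ fixRoots (p ^ m₀)`,
  `m₀ = m₀(H, a)`, for classes killed by `p ^ a`;
* `realDivPLevel_of_deep : RealDivDeepLevel p S → H3OLevels.RealDivPLevel p S`;
* `h3OTorsion_of_deep (hpS) : H3KxTorsionFree p S → RealDivDeepLevel p S → Blocks.H3OTorsion p S`.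
-/
import Fermat.Agent.S55.Middle.H3OLevels
import Fermat.Agent.S55.Middle.SylowType

set_option autoImplicit false
set_option linter.style.haveILetI false

open CategoryTheory ExtCitation

namespace Fermat.Agent.S55.Middle.RealDivDeep

open Fermat.Agent.S55.Formal
open Fermat.Agent.S55.Formal.PreludeLC hiding GQ Qbar
open Fermat.Agent.S55.Formal.CoefExactSmooth
open Fermat.Agent.S55.Middle Fermat.Agent.S55.Middle.KSite
open Fermat.Agent.S55.Middle.Defs (GQ KS OS PrinS)
open Fermat.Agent.S55.Middle.H3OInst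
open Fermat.Agent.S55.Middle.CycloGrowIndex (fixRoots)

noncomputable section

variable (p : ℕ) [Fact p.Prime] (S : Finset Nat.Primes)

/-- the deeper level `N ⊓ fixRoots (p ^ m)` is again a `ℚ`-normal `p`-group level of `H`. -/
theorem deeper_level (hpS : pPrime p ∈ S) {H : Subgroup GQ} (hH : Blocks.Level p S H)
    {N : Subgroup GQ} (hN : (globalBasis S).mem N) (hNH : N ≤ H)
    (hpg : ∀ g ∈ H, ∃ j : ℕ, g ^ (p ^ j) ∈ N) (m : ℕ) :
    (globalBasis S).mem (N ⊓ fixRoots (p ^ m)) ∧ N ⊓ fixRoots (p ^ m) ≤ H ∧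
      ∀ g ∈ H, ∃ j : ℕ, g ^ (p ^ j) ∈ N ⊓ fixRoots (p ^ m) := by
  refine ⟨SylowType.mem_inf hN (CycloGrowLevel.fixRoots_mem_globalBasis p hpS m),
    inf_le_left.trans hNH, fun g hg => ?_⟩
  obtain ⟨j, hj⟩ := hpg g hg
  have hχ : cycloChar p (g ^ (p ^ j)) = 1 := hH.triv _ (H.pow_mem hg _)
  obtain ⟨j', hj'⟩ := CycloPow.exists_pow_mem_fixingSubgroup p m (g ^ (p ^ j)) hχ
  refine ⟨j + j', ?_, ?_⟩
  · rw [pow_add, pow_mul]
    exact N.pow_mem hj _
  · rw [CycloGrowLevel.fixRoots_eq_fixingSubgroup, pow_add, pow_mul]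
    exact hj'

/-- **Deepening**: a class `d` of `H²(H/N, Div^N)` killed by `p ^ a` is, for every `m`, the image
of a class `d'` of the deeper `ℚ`-normal `p`-group level `N' = N ⊓ fixRoots (p ^ m)`, with the same
inflation and the same exponent. -/
theorem exists_deeper (hpS : pPrime p ∈ S) {H : Subgroup GQ} (hH : Blocks.Level p S H)
    (N : Subgroup GQ) (hN : (globalBasis S).mem N) (hNH : N ≤ H) [(N.subgroupOf H).Normal]
    (hpg : ∀ g ∈ H, ∃ j : ℕ, g ^ (p ^ j) ∈ N)
    (d : groupCohomology.H2 (Dict.Inv (DivP S H) (N.subgroupOf H))) (a : ℕ)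
    (hd : p ^ a • d = 0) (m : ℕ) :
    ∃ (N' : Subgroup GQ) (hN' : (globalBasis S).mem N') (_ : N' ≤ N) (_ : N' ≤ H)
      (_ : N' ≤ fixRoots (p ^ m)) (_ : (N'.subgroupOf H).Normal)
      (_ : ∀ g ∈ H, ∃ j : ℕ, g ^ (p ^ j) ∈ N')
      (d' : groupCohomology.H2 (Dict.Inv (DivP S H) (N'.subgroupOf H))),
      p ^ a • d' = 0 ∧
        Dict.inflH2 (basisP S H) (DivP S H) ⟨N', hN', rfl⟩ d' =
          Dict.inflH2 (basisP S H) (DivP S H) ⟨N, hN, rfl⟩ d := by
  obtain ⟨hN', hN'H, hpg'⟩ := deeper_level p S hpS hH hN hNH hpg m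
  haveI : (N ⊓ fixRoots (p ^ m)).Normal := (globalBasis S).normal hN'
  haveI : ((N ⊓ fixRoots (p ^ m)).subgroupOf H).Normal := inferInstance
  have hle : (N ⊓ fixRoots (p ^ m)).subgroupOf H ≤ N.subgroupOf H :=
    fun g hg => (Subgroup.mem_subgroupOf.mp hg).1
  refine ⟨N ⊓ fixRoots (p ^ m), hN', inf_le_left, hN'H, inf_le_right, inferInstance, hpg',
    Dict.transH2 (DivP S H) hle d, ?_, ?_⟩
  · rw [← map_nsmul, hd, map_zero]
  · exact Dict.inflH2_transH2 (basisP S H) (DivP S H) hle ⟨N, hN, rfl⟩ ⟨_, hN', rfl⟩ d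

/-- **Realisation at the DEEP `p`-group levels**: for every `H` and every exponent `a` there is a
cyclotomic depth `m₀` such that every class killed by `p ^ a` of a `ℚ`-normal `p`-group level
`N ≤ H ⊓ fixRoots (p ^ m₀)` is `off z` for a `p`-primary `z`. -/
def RealDivDeepLevel : Prop :=
  ∀ (H : Subgroup GQ) (hH : Blocks.Level p S H) (a : ℕ), ∃ m₀ : ℕ,
    ∀ (N : Subgroup GQ) (hN : (globalBasis S).mem N) (_ : N ≤ H) [(N.subgroupOf H).Normal],
      N ≤ fixRoots (p ^ m₀) → (∀ g ∈ H, ∃ j : ℕ, g ^ (p ^ j) ∈ N) →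
      ∀ d : groupCohomology.H2 (Dict.Inv (DivP S H) (N.subgroupOf H)), p ^ a • d = 0 →
        ∃ z : H2 (basisP S H) (resP H (KS S)), (∃ n : ℕ, p ^ n • z = 0) ∧
          off (level_finiteIndex hH) z =
            Dict.inflH2 (basisP S H) (DivP S H) ⟨N, hN, rfl⟩ d

variable {S}

/-- the deep-level form suffices. -/
theorem realDivPLevel_of_deep (hpS : pPrime p ∈ S) (h : RealDivDeepLevel p S) :
    H3OLevels.RealDivPLevel p S := by
  intro H hH N hN hNH _ hpg d hd
  obtain ⟨a, ha⟩ := hd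
  obtain ⟨m₀, hm₀⟩ := h H hH a
  obtain ⟨N', hN', _, hN'H, hN'm, hnorm, hpg', d', hd', hinf⟩ :=
    exists_deeper p S hpS hH N hN hNH hpg d a ha m₀
  haveI := hnorm
  obtain ⟨z, hz, hzd⟩ := hm₀ N' hN' hN'H hN'm hpg' d' hd'
  exact ⟨z, hz, hzd.trans hinf⟩

/-- **(C5), first half, from the deep `p`-group levels only.** -/
theorem h3OTorsion_of_deep (hpS : pPrime p ∈ S) (h3K : H3KxTorsionFree p S)
    (hreal : RealDivDeepLevel p S) : Blocks.H3OTorsion p S :=
  H3OLevels.h3OTorsion_of_pLevels p hpS h3K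
    (H3OLevels.realOffPLevel_of_div p (realDivPLevel_of_deep p hpS hreal))

end

end Fermat.Agent.S55.Middle.RealDivDeep
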