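/-
S55 / Middle (helper60): REDUCTION OF `H3OInst.RealOff p S` TO THE `p`-GROUP LEVEL, via
`Middle/DivTorsLevel.lean` (leaf (L1) of (C5), first half).

Closed hypothesis-Props (literal targets of the rows `M.h3.stabCyclic` (helper63),
`M.h3.stabGrowth` (helper61) and of the finite-level realisation row):

* `StabCyclic S`      : the stabiliser in `P` of a place `x` of `ℚ_S` off `S` has cyclic image in every
                         finite quotient `P ⧸ V`, `V ∈ basisP S P`;
* `StabGrowth p S`    : for finitely many places off `S` and `n`, there is a `p`-group level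
                         `N ∈ basisP S P` with `p ^ n ∣ [Stab y : Stab y ∩ N]`;
* `RealAtPLevel p S`  : every class `d ∈ H²(P ⧸ N, Div^N)` of a `p`-group level `N` is `off z` for a
                         `p`-primary class `z ∈ H²_LC(P; ℚ_Sˣ)`.

`realOff : StabCyclic S → StabGrowth p S → RealAtPLevel p S → H3OInst.RealOff p S`, hence with
`H3OInst.h3OTorsion`:  `h3OTorsion : … → H3KxTorsionFree p S → Blocks.H3OTorsion p S`.
-/
import Fermat.Agent.S55.Middle.H3OInst
import Fermat.Agent.S55.Middle.DivTorsLevel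

set_option autoImplicit false

open CategoryTheory ExtCitation

namespace Fermat.Agent.S55.Middle.RealOffLevel

open Fermat.Agent.S55.Formal
open Fermat.Agent.S55.Formal.PreludeLC hiding GQ Qbar
open Fermat.Agent.S55.Middle Fermat.Agent.S55.Middle.KSite
open Fermat.Agent.S55.Middle.Defs (GQ KS OS PrinS)
open Fermat.Agent.S55.Middle.DivDef (Div)
open Fermat.Agent.S55.Middle.CapDiv (Xoff)
open Fermat.Agent.S55.Middle.H3OInst

noncomputable section

variable (p : ℕ) [Fact p.Prime] (S : Finset Nat.Primes)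

/-- **(A) cyclic decomposition groups off `S`**: the stabiliser in `P` of a place of `ℚ_S` off `S`
has cyclic image in every finite quotient `P ⧸ V`, `V ∈ basisP S P`. -/
def StabCyclic : Prop :=
  ∀ (P : Subgroup GQ) (x : Xoff S) (V : Subgroup ↥P), (basisP S P).mem V →
    ∃ d : ↥P, d • x = x ∧ ∀ s : ↥P, s • x = x → ∃ k : ℕ, s⁻¹ * d ^ k ∈ V

/-- **(B) growth of the local degrees off `S`** in `p`-group levels. -/
def StabGrowth : Prop :=
  ∀ (P : Subgroup GQ), Blocks.Level p S P → ∀ (F : Finset (Xoff S)) (n : ℕ),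
    ∃ N : Subgroup ↥P, (basisP S P).mem N ∧ (∃ _ : N.Normal, IsPGroup p (↥P ⧸ N)) ∧
      ∀ y ∈ F, p ^ n ∣ (N.subgroupOf (MulAction.stabilizer ↥P y)).index

/-- **Realisation at a `p`-group level**: every class of `H²(P ⧸ N, Div^N)`, `N ∈ basisP S P` with
`P ⧸ N` a `p`-group, is `off z` for a `p`-primary class `z` of `H²_LC(P; ℚ_Sˣ)`. -/
def RealAtPLevel : Prop :=
  ∀ (P : Subgroup GQ) (hP : Blocks.Level p S P) (N : Subgroup ↥P) [N.Normal]
    (hN : (basisP S P).mem N), IsPGroup p (↥P ⧸ N) →
    ∀ d : groupCohomology.H2 (Dict.Inv (DivP S P) N),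
      ∃ z : H2 (basisP S P) (resP P (KS S)), (∃ n : ℕ, p ^ n • z = 0) ∧
        off (level_finiteIndex hP) z = Dict.inflH2 (basisP S P) (DivP S P) hN d

variable {p S}

/-- **`RealOff` from the `p`-group level**, via `DivTorsLevel.exists_level_of_pow_torsion`. -/
theorem realOff (hcyc : StabCyclic S) (hgrow : StabGrowth p S) (hlev : RealAtPLevel p S) :
    RealOff p S := by
  intro P hP e he
  obtain ⟨n, hn⟩ := he
  have hp : 0 < p := (Fact.out : p.Prime).pos
  have hn' : p ^ n • rho (level_finiteIndex hP) e = 0 := by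
    rw [← map_nsmul, hn, map_zero]
  obtain ⟨N, hNn, hN, ⟨_, hpg⟩, y, hy⟩ :=
    DivTorsLevel.exists_level_of_pow_torsion (basisP S P) (Xoff S)
      (fun N => ∃ _ : N.Normal, IsPGroup p (↥P ⧸ N)) p n hp (hcyc P)
      (fun F => hgrow P hP F n) (rho (level_finiteIndex hP) e) hn'
  obtain ⟨z, hz, hzoff⟩ := hlev P hP N hN hpg y
  exact ⟨z, hz, hzoff.trans hy⟩

/-- **(C5), first half**, from the three closed Props and (HBN-H3). -/
theorem h3OTorsion (hpS : pPrime p ∈ S) (h3K : H3KxTorsionFree p S) (hcyc : StabCyclic S)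
    (hgrow : StabGrowth p S) (hlev : RealAtPLevel p S) : Blocks.H3OTorsion p S :=
  H3OInst.h3OTorsion p hpS h3K (realOff hcyc hgrow hlev)

end

end Fermat.Agent.S55.Middle.RealOffLevel
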