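/-
S55 / Middle / M.h3.stabGrowth (helper61): leaf (B) GROWTH of the passage LC -> `p`-cyclotomic level
for `Div` (helper60, `Middle/DivTorsLevel.lean`).

`P ≤ G_ℚ` with `Level p S P` (`P` contains a member of `globalBasis S`, the mod `p` cyclotomic
character is trivial on `P`), `p ∈ S`.  `cycN p P m : Subgroup ↥P` is the trace on `P` of the fixing
subgroup of `ℚ(μ_{p^m})` (`CycloPow.cycloPowField p m`).  Then

* `cycN_mem`       : `cycN p P m ∈ basisP S P`;
* `cycN_normal`    : it is normal in `↥P`;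
* `isPGroup_quotient_cycN`, `exists_index_cycN_eq` : `↥P ⧸ cycN p P m` is a `p`-group;
* `cycN_antitone`  : the tower is decreasing;
* `exists_level_pow_dvd` : for finitely many places `x ∈ T` of `ℚ̄` off `S` and `n`, there is `m0`
  such that for all `m ≥ m0` and all `x ∈ T`
     `p ^ n ∣ ((cycN p P m).subgroupOf (MulAction.stabilizer ↥P x)).index`;
* `exists_level` : the packaged existence statement.

Proof of the growth: a Frobenius element `σ` at `x` (`Lib/Frobenius.exists_isFrobeniusAt`,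
transported by conjugation) acts on the `p`-power roots of unity by `t ↦ t ^ q` (`q ≠ p` the prime
below `x`), `σ ^ j ∈ P` for `j` the index of a normal open subgroup inside `P`, and the order of
`q ^ j` modulo `p ^ m` is divisible by `p ^ n` for `m` large (`CycloGrowB.exists_pow_dvd_orderOf`).
-/
import Mathlib
import Fermat.Agent.Lib.Frobenius
import Fermat.Agent.Lib.InertiaBridge.Lift
import Fermat.Agent.S55.Middle.CapDiv
import Fermat.Agent.S55.Middle.CycloPow
import Fermat.Agent.S55.Middle.CycloGrowB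
import Fermat.Agent.S55.Middle.Blocks

set_option autoImplicit false
set_option linter.unusedSectionVars false
set_option linter.style.haveILetI false

open scoped Pointwise

namespace Fermat.Agent.S55.Middle.StabGrowth

open Fermat.Agent.S55.Formal
open Fermat.Agent.S55.Formal.PreludeLC hiding GQ Qbar
open Fermat.Agent.S55.Middle.Defs Fermat.Agent.S55.Middle.KSite Fermat.Agent.S55.Middle.CapDiv
  Fermat.Agent.S55.Middle.CycloPow Fermat.Agent.S55.Middle.Blocks ExtCitation
  Fermat.Agent.Lib.FrobeniusIF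

local instance isAlgebraicQbar_sg : Algebra.IsAlgebraic ℚ (AlgebraicClosure ℚ) :=
  AlgebraicClosure.isAlgebraic ℚ
local instance isGaloisQbar_sg : IsGalois ℚ (AlgebraicClosure ℚ) :=
  Fermat.Agent.Lib.UnramifiedTrivial.isGalois_algebraicClosure_rat

/-! ### Frobenius elements and roots of unity -/

section Frob

variable {K L : Type*} [Field K] [Field L] [Algebra K L] {A : ValuationSubring L}

/-- A Frobenius element acts as `w ↦ w ^ q` modulo the maximal ideal. -/
theorem frob_sub_pow_mem_nonunits {σ : L ≃ₐ[K] L} {q : ℕ} (hσ : A.IsFrobeniusAt σ q) {w : L}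
    (hw : w ∈ A) : σ w - w ^ q ∈ A.nonunits := by
  obtain ⟨hd, h⟩ := hσ
  have h1 := h (IsLocalRing.residue A ⟨w, hw⟩)
  rw [← IsLocalRing.ResidueField.residue_smul, ← map_pow] at h1
  have h2 : IsLocalRing.residue A ((⟨σ, hd⟩ : A.decompositionSubgroup K) • (⟨w, hw⟩ : A) -
      (⟨w, hw⟩ : A) ^ q) = 0 := by
    rw [map_sub, h1, sub_self]
  rw [IsLocalRing.residue_eq_zero_iff] at h2
  have h3 : (((⟨σ, hd⟩ : A.decompositionSubgroup K) • (⟨w, hw⟩ : A) - (⟨w, hw⟩ : A) ^ q : A) : L)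
      ∈ A.nonunits := by
    rw [ValuationSubring.mem_nonunits_iff_exists_mem_maximalIdeal]
    exact ⟨_, h2⟩
  exact h3

end Frob

variable (p : ℕ) [hp : Fact p.Prime]

/-- A Frobenius element at a place over `q ≠ p` raises the `p`-power roots of unity to the `q`-th
power. -/
theorem frob_apply_root {q : ℕ} (hq : q.Prime) (hqp : q ≠ p) (A : ValuationSubring Qbar)
    (hA : A.LiesOverPrime q) {σ : GQ} (hσ : A.IsFrobeniusAt σ q) (k : ℕ) {t : Qbar}
    (ht : t ^ (p ^ k) = 1) : σ t = t ^ q := by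
  have hp0 : p ≠ 0 := hp.out.ne_zero
  have hk0 : p ^ k ≠ 0 := pow_ne_zero _ hp0
  have htA : t ∈ A := by
    have : IsIntegral ℤ t :=
      ⟨Polynomial.X ^ (p ^ k) - 1, Polynomial.monic_X_pow_sub_C 1 hk0, by simp [ht]⟩
    exact mem_of_isIntegral_int A this
  have ht0 : t ≠ 0 := by
    rintro rfl
    rw [zero_pow hk0] at ht
    exact zero_ne_one ht
  have htinv : t⁻¹ ∈ A := by
    have : t⁻¹ = t ^ (p ^ k - 1) := by
      rw [eq_comm, ← mul_eq_one_iff_eq_inv₀ ht0, ← pow_succ,
        Nat.sub_add_cancel (Nat.one_le_iff_ne_zero.2 hk0), ht]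
    rw [this]
    exact pow_mem htA _
  have htq0 : t ^ q ≠ 0 := pow_ne_zero _ ht0
  set u : Qbar := σ t * (t ^ q)⁻¹ with hu
  have hup : u ^ (p ^ k) = 1 := by
    rw [hu, mul_pow, ← map_pow, ht, map_one, inv_pow, ← pow_mul, mul_comm q, pow_mul, ht, one_pow,
      inv_one, mul_one]
  have hmem : u - 1 ∈ A.nonunits := by
    have h1 : u - 1 = (σ t - t ^ q) * (t ^ q)⁻¹ := by
      rw [hu, sub_mul, mul_inv_cancel₀ htq0]
    rw [h1, ← inv_pow]
    exact mul_mem_nonunits A (frob_sub_pow_mem_nonunits hσ htA) (pow_mem htinv _)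
  have h1 : u = 1 :=
    eq_one_of_pow_prime_pow_eq_one p A (natCast_not_mem_nonunits p hq hqp A hA) k u hup hmem
  rw [hu, mul_inv_eq_one₀ htq0] at h1
  exact h1

/-- If `σ` raises the `p`-power roots of unity to the `q`-th power, `σ ^ i` raises them to the
`q ^ i`-th power. -/
theorem pow_apply_root {σ : GQ} {q : ℕ} (h : ∀ (k : ℕ) (t : Qbar), t ^ (p ^ k) = 1 → σ t = t ^ q)
    (i : ℕ) : ∀ (k : ℕ) (t : Qbar), t ^ (p ^ k) = 1 → (σ ^ i) t = t ^ (q ^ i) := by
  induction i with
  | zero =>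
    intro k t _
    simp
  | succ i ih =>
    intro k t ht
    have h1 : (t ^ (q ^ i)) ^ (p ^ k) = 1 := by
      rw [← pow_mul, mul_comm, pow_mul, ht, one_pow]
    rw [pow_succ', AlgEquiv.mul_apply, ih k t ht, h k _ h1, ← pow_mul, ← pow_succ]

/-! ### A Frobenius element in the stabilizer of a place off `S` -/

variable {S : Finset Nat.Primes}

/-- Every place `x` of `ℚ̄` off `S ∋ p` is fixed by an element of `G_ℚ` which raises all `p`-power
roots of unity to the `q`-th power, `q` the rational prime below `x`. -/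
theorem exists_frob_at (hpS : pPrime p ∈ S) (x : Xoff S) :
    ∃ σ : GQ, σ • x = x ∧
      ∀ (k : ℕ) (t : Qbar), t ^ (p ^ k) = 1 → σ t = t ^ (x.prime : ℕ) := by
  have hq : (x.prime : ℕ).Prime := x.prime.2
  have hqp : (x.prime : ℕ) ≠ p := by
    intro h
    apply x.prime_notMem
    have : x.prime = pPrime p := Subtype.ext h
    rw [this]; exact hpS
  obtain ⟨A₀, σ₀, hA₀, hσ₀⟩ := Fermat.Agent.Lib.Frobenius.exists_isFrobeniusAt (x.prime : ℕ) hq
  obtain ⟨g, hg⟩ :=
    Fermat.Agent.Lib.InertiaBridge.Lift.exists_smul_eq_of_liesOverPrime hq hA₀ x.liesOver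
  have hfix₀ : σ₀ • A₀ = A₀ := hσ₀.mem_decompositionSubgroup
  refine ⟨g * σ₀ * g⁻¹, ?_, ?_⟩
  · apply Xoff.ext
    · rfl
    · rw [Xoff.smul_ring, hg, ← mul_smul, inv_mul_cancel_right, mul_smul, hfix₀]
  · intro k t ht
    have h1 : ((g⁻¹ : GQ) t) ^ (p ^ k) = 1 := by
      rw [← map_pow, ht, map_one]
    have h2 := frob_apply_root p hq hqp A₀ hA₀ hσ₀ k h1
    rw [AlgEquiv.mul_apply, AlgEquiv.mul_apply, h2, map_pow]
    congr 1
    change g (g⁻¹ t) = t
    rw [← AlgEquiv.mul_apply, mul_inv_cancel, AlgEquiv.one_apply]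

/-! ### Abstract group theory -/

/-- If `g ∈ H` and every exponent `r` with `g ^ r ∈ N` is divisible by `d`, then `d` divides the
index of `H ∩ N` in `H` (`N` normal). -/
theorem dvd_index_subgroupOf {G : Type*} [Group G] (H N : Subgroup G) [N.Normal] {g : G}
    (hg : g ∈ H) {d : ℕ} (hd : ∀ r : ℕ, g ^ r ∈ N → d ∣ r) : d ∣ (N.subgroupOf H).index :=
  hd _ (Subgroup.pow_relIndex_mem N hg)

/-! ### The cyclotomic levels inside `P` -/

variable (P : Subgroup GQ)

/-- the trace on `P` of the fixing subgroup of `ℚ(μ_{p^m})` -/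
noncomputable def cycN (m : ℕ) : Subgroup ↥P := ((cycloPowField p m).fixingSubgroup).subgroupOf P

theorem mem_cycN {m : ℕ} {g : ↥P} :
    g ∈ cycN p P m ↔ (g : GQ) ∈ (cycloPowField p m).fixingSubgroup := Iff.rfl

theorem cycN_mem (hpS : pPrime p ∈ S) (m : ℕ) : (basisP S P).mem (cycN p P m) :=
  ⟨_, ⟨cycloPowField p m, cycloPowField_isUnramifiedOutside p m hpS,
    normal_fixingSubgroup_cycloPowField p m, rfl⟩, rfl⟩

instance cycN_normal (m : ℕ) : (cycN p P m).Normal := by
  haveI := normal_fixingSubgroup_cycloPowField p m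
  unfold cycN
  infer_instance

theorem cycN_antitone {m m' : ℕ} (h : m ≤ m') : cycN p P m' ≤ cycN p P m := by
  intro g hg
  rw [mem_cycN] at hg ⊢
  exact IntermediateField.fixingSubgroup_antitone (cycloPowField_mono p h) hg

/-- `↥P ⧸ cycN p P m` is a `p`-group when the mod `p` cyclotomic character is trivial on `P`. -/
theorem isPGroup_quotient_cycN (hP : ∀ g ∈ P, cycloChar p g = 1) (m : ℕ) :
    IsPGroup p (↥P ⧸ cycN p P m) := by
  intro x
  obtain ⟨g, rfl⟩ := QuotientGroup.mk_surjective x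
  refine ⟨m, ?_⟩
  rw [← QuotientGroup.mk_pow, QuotientGroup.eq_one_iff, mem_cycN, Subgroup.coe_pow]
  exact pow_mem_fixingSubgroup p m (g : GQ) (hP _ g.2)

theorem finiteIndex_cycN (hpS : pPrime p ∈ S) (m : ℕ) : (cycN p P m).FiniteIndex :=
  (basisP S P).finiteIndex (cycN_mem p P hpS m)

/-- the index of `cycN p P m` in `↥P` is a power of `p`. -/
theorem exists_index_cycN_eq (hpS : pPrime p ∈ S) (hP : ∀ g ∈ P, cycloChar p g = 1) (m : ℕ) :
    ∃ j : ℕ, (cycN p P m).index = p ^ j := by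
  haveI := finiteIndex_cycN p P hpS m
  haveI : Finite (↥P ⧸ cycN p P m) := Subgroup.finite_quotient_of_finiteIndex
  obtain ⟨j, hj⟩ := (IsPGroup.iff_card).1 (isPGroup_quotient_cycN p P hP m)
  exact ⟨j, by rw [Subgroup.index_eq_card, hj]⟩

/-! ### Growth -/

/-- **Growth at one place.**  For a place `x` of `ℚ̄` off `S ∋ p`, an open `P` and `n`, there is `m0`
such that for all `m ≥ m0`: `p ^ n ∣ [Stab_P(x) : Stab_P(x) ∩ cycN p P m]`. -/
theorem exists_level_pow_dvd_one (hpS : pPrime p ∈ S) (hPo : IsOpenS S P) (x : Xoff S) (n : ℕ) :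
    ∃ m0 : ℕ, ∀ m : ℕ, m0 ≤ m →
      p ^ n ∣ ((cycN p P m).subgroupOf (MulAction.stabilizer ↥P x)).index := by
  have hp' := hp.out
  obtain ⟨N₀, hN₀, hN₀P⟩ := hPo
  haveI : N₀.Normal := (globalBasis S).normal hN₀
  haveI : N₀.FiniteIndex := (globalBasis S).finiteIndex hN₀
  obtain ⟨σ, hσx, hσ⟩ := exists_frob_at p hpS x
  set q : ℕ := (x.prime : ℕ) with hq
  have hq2 : 2 ≤ q := x.prime.2.two_le
  set j : ℕ := N₀.index with hj
  have hj0 : j ≠ 0 := Subgroup.FiniteIndex.index_ne_zero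
  have hσP : σ ^ j ∈ P := hN₀P (Subgroup.pow_index_mem N₀ σ)
  have ha2 : 2 ≤ q ^ j := by
    calc 2 ≤ q := hq2
      _ = q ^ 1 := (pow_one q).symm
      _ ≤ q ^ j := Nat.pow_le_pow_right (by omega) (Nat.one_le_iff_ne_zero.2 hj0)
  obtain ⟨m0, hm0⟩ := CycloGrowB.exists_pow_dvd_orderOf p hp' (q ^ j) ha2 n
  refine ⟨m0, fun m hm => ?_⟩
  have hdvd := hm0 m hm
  haveI : NeZero (p ^ m) := ⟨pow_ne_zero _ hp'.ne_zero⟩
  haveI : NeZero ((p ^ m : ℕ) : Qbar) := ⟨by exact_mod_cast (NeZero.ne (p ^ m))⟩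
  obtain ⟨ζ, hζ⟩ := HasEnoughRootsOfUnity.exists_primitiveRoot Qbar (p ^ m)
  -- the element `g = σ ^ j` of `Stab_P(x)`
  have hgx : (⟨σ ^ j, hσP⟩ : ↥P) ∈ MulAction.stabilizer ↥P x := by
    rw [MulAction.mem_stabilizer_iff]
    change (σ ^ j) • x = x
    have : ∀ i : ℕ, (σ ^ i) • x = x := by
      intro i
      induction i with
      | zero => simp
      | succ i ih => rw [pow_succ, mul_smul, hσx, ih]
    exact this j
  refine dvd_index_subgroupOf (MulAction.stabilizer ↥P x) (cycN p P m) hgx (fun r hr => ?_)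
  rw [mem_cycN, Subgroup.coe_pow] at hr
  change (σ ^ j) ^ r ∈ (cycloPowField p m).fixingSubgroup at hr
  rw [IntermediateField.mem_fixingSubgroup_iff] at hr
  have h1 := hr ζ (mem_cycloPowField_of_pow_eq_one p m hζ.pow_eq_one)
  change ((σ ^ j) ^ r) ζ = ζ at h1
  rw [← pow_mul, pow_apply_root p hσ (j * r) m ζ hζ.pow_eq_one, pow_mul] at h1
  -- `(q ^ j) ^ r ≡ 1 mod p ^ m`
  have h2 : ζ ^ ((q ^ j) ^ r) = ζ ^ 1 := by rw [pow_one]; exact h1
  have h3 : (q ^ j) ^ r ≡ 1 [MOD p ^ m] := by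
    have := (hζ.isOfFinOrder (NeZero.ne _)).pow_inj_mod.1 h2
    rwa [← hζ.eq_orderOf] at this
  have h4 : (((q ^ j : ℕ) : ZMod (p ^ m))) ^ r = 1 := by
    have := (ZMod.natCast_eq_natCast_iff _ _ _).2 h3
    push_cast at this
    push_cast
    exact this
  exact dvd_trans hdvd (orderOf_dvd_of_pow_eq_one h4)

/-- **Growth at finitely many places.** -/
theorem exists_level_pow_dvd (hpS : pPrime p ∈ S) (hPo : IsOpenS S P) (T : Finset (Xoff S))
    (n : ℕ) :
    ∃ m0 : ℕ, ∀ m : ℕ, m0 ≤ m → ∀ x ∈ T,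
      p ^ n ∣ ((cycN p P m).subgroupOf (MulAction.stabilizer ↥P x)).index := by
  classical
  choose f hf using fun x : Xoff S => exists_level_pow_dvd_one p P hpS hPo x n
  refine ⟨T.sup f, fun m hm x hx => hf x m ((Finset.le_sup hx).trans hm)⟩

/-- **Leaf (B), packaged.**  For `P` with `Level p S P`, `p ∈ S`, finitely many places `x ∈ T` of
`ℚ̄` off `S` and `n`, there is `N ∈ basisP S P`, normal in `↥P`, with `↥P ⧸ N` a `p`-group, such that
`p ^ n ∣ [Stab_P(x) : Stab_P(x) ∩ N]` for all `x ∈ T`. -/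
theorem exists_level (hpS : pPrime p ∈ S) (hP : Level p S P) (T : Finset (Xoff S)) (n : ℕ) :
    ∃ (N : Subgroup ↥P) (_ : N.Normal), (basisP S P).mem N ∧ IsPGroup p (↥P ⧸ N) ∧
      (∃ j : ℕ, N.index = p ^ j) ∧
      ∀ x ∈ T, p ^ n ∣ (N.subgroupOf (MulAction.stabilizer ↥P x)).index := by
  obtain ⟨m0, hm0⟩ := exists_level_pow_dvd p P hpS hP.isOpen T n
  exact ⟨cycN p P m0, cycN_normal p P m0, cycN_mem p P hpS m0,
    isPGroup_quotient_cycN p P hP.triv m0, exists_index_cycN_eq p P hpS hP.triv m0,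
    hm0 m0 le_rfl⟩

/-- The same below a given member `V` of `basisP S P`?  Not needed: the tower `cycN p P m` is
decreasing (`cycN_antitone`) and the divisibility holds for ALL `m ≥ m0`. -/
theorem exists_level_ge (hpS : pPrime p ∈ S) (hP : Level p S P) (T : Finset (Xoff S)) (n m₁ : ℕ) :
    ∃ m : ℕ, m₁ ≤ m ∧ (basisP S P).mem (cycN p P m) ∧ IsPGroup p (↥P ⧸ cycN p P m) ∧
      ∀ x ∈ T, p ^ n ∣ ((cycN p P m).subgroupOf (MulAction.stabilizer ↥P x)).index := by
  obtain ⟨m0, hm0⟩ := exists_level_pow_dvd p P hpS hP.isOpen T n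
  exact ⟨max m₁ m0, le_max_left _ _, cycN_mem p P hpS _, isPGroup_quotient_cycN p P hP.triv _,
    hm0 _ (le_max_right _ _)⟩

/-! ### Conjugation invariance (so that the divisibility is only needed at orbit representatives) -/

/-- For `N` normal, `[Stab(g • x) : Stab(g • x) ∩ N] = [Stab(x) : Stab(x) ∩ N]`. -/
theorem index_subgroupOf_stabilizer_smul {G X : Type*} [Group G] [MulAction G X] (N : Subgroup G)
    [hN : N.Normal] (g : G) (x : X) :
    (N.subgroupOf (MulAction.stabilizer G (g • x))).index =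
      (N.subgroupOf (MulAction.stabilizer G x)).index := by
  have hmap : N.map (MulAut.conj g).toMonoidHom = N := by
    ext h
    rw [Subgroup.mem_map_equiv, MulAut.conj_symm_apply]
    constructor
    · intro hh
      have := hN.conj_mem _ hh g
      simpa [mul_assoc] using this
    · intro hh
      exact hN.conj_mem' _ hh g
  change N.relIndex (MulAction.stabilizer G (g • x)) = N.relIndex (MulAction.stabilizer G x)
  rw [MulAction.stabilizer_smul_eq_stabilizer_map_conj]
  conv_lhs => rw [← hmap]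
  exact Subgroup.relIndex_map_map_of_injective _ _ (MulAut.conj g).injective

/-- **Growth along whole `P`-orbits**: the divisibility of `exists_level_pow_dvd` holds at every
`P`-translate of the places in `T`. -/
theorem exists_level_pow_dvd_orbit (hpS : pPrime p ∈ S) (hPo : IsOpenS S P) (T : Finset (Xoff S))
    (n : ℕ) :
    ∃ m0 : ℕ, ∀ m : ℕ, m0 ≤ m → ∀ x ∈ T, ∀ g : ↥P,
      p ^ n ∣ ((cycN p P m).subgroupOf (MulAction.stabilizer ↥P (g • x))).index := by
  obtain ⟨m0, hm0⟩ := exists_level_pow_dvd p P hpS hPo T n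
  refine ⟨m0, fun m hm x hx g => ?_⟩
  rw [index_subgroupOf_stabilizer_smul]
  exact hm0 m hm x hx

end Fermat.Agent.S55.Middle.StabGrowth
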