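/-
S55 / MIDDLE block, row M.h3.realOffLevel.inst (helper63): the two number-theoretic inputs
`StabCyclic S`, `StabGrowth p S` of helper60's `RealOffLevel` are THEOREMS, hence

  `Blocks.H3OTorsion p S ⇐ H3OInst.H3KxTorsionFree p S ∧ RealOffLevel.RealAtPLevel p S`   (`p ∈ S`).

* `stabCyclic S : RealOffLevel.StabCyclic S`            (= `StabCyclic.exists_stab_generator`);
* `stabGrowth p S hpS : RealOffLevel.StabGrowth p S`    (= helper61's `StabGrowth.exists_level`);
* `realOff_of_realAtPLevel`, `h3OTorsion_of_realAtPLevel`.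
-/
import Fermat.Agent.S55.Middle.RealOffLevel
import Fermat.Agent.S55.Middle.StabCyclic
import Fermat.Agent.S55.Middle.StabGrowth

set_option autoImplicit false

open ExtCitation

namespace Fermat.Agent.S55.Middle.RealOffLevelInst

open Fermat.Agent.S55.Middle

variable (p : ℕ) [Fact p.Prime] (S : Finset Nat.Primes)

/-- **(A)** decomposition groups off `S` have cyclic image in every finite `S`-level. -/
theorem stabCyclic : RealOffLevel.StabCyclic S :=
  fun P x V hV => StabCyclic.exists_stab_generator S P x V hV

/-- **(B)** growth of the local degrees off `S` in `p`-group levels (`p ∈ S`). -/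
theorem stabGrowth (hpS : pPrime p ∈ S) : RealOffLevel.StabGrowth p S := by
  intro P hP F n
  obtain ⟨N, hNn, hN, hpg, -, hdvd⟩ := StabGrowth.exists_level p P hpS hP F n
  exact ⟨N, hN, ⟨hNn, hpg⟩, hdvd⟩

variable {p S}

/-- `H3OInst.RealOff p S` from the finite-level realisation alone. -/
theorem realOff_of_realAtPLevel (hpS : pPrime p ∈ S) (hlev : RealOffLevel.RealAtPLevel p S) :
    H3OInst.RealOff p S :=
  RealOffLevel.realOff (stabCyclic S) (stabGrowth p S hpS) hlev

/-- **(C5a)** `Blocks.H3OTorsion p S` from (HBN-H3) in colimit form and the finite-level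
realisation. -/
theorem h3OTorsion_of_realAtPLevel (hpS : pPrime p ∈ S) (h3K : H3OInst.H3KxTorsionFree p S)
    (hlev : RealOffLevel.RealAtPLevel p S) : Blocks.H3OTorsion p S :=
  RealOffLevel.h3OTorsion hpS h3K (stabCyclic S) (stabGrowth p S hpS) hlev

end Fermat.Agent.S55.Middle.RealOffLevelInst
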