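/-
S55 / Middle (helper66): the RETRACT STEP (#1682(b), step (5) of #1685, item (f) of #1674).

For subgroups `P' ≤ P` of `G` with `P'` of finite index in `G` and `[P : P']` invertible in `k`,
the permutation module `k[G/P]` is a `G`-equivariant direct summand of `k[G/P']`:
`up : k[G/P] ⟶ k[G/P']`, `[gP] ↦ ∑_{x ∈ P/P'} [g x P']`, is split by
`dn : k[G/P'] ⟶ k[G/P]`, `[gP'] ↦ [P:P']⁻¹ [gP]`.
Hence `Vanish₃`, `Vanish₂` and finiteness of `H¹`, `H²`, `H³` pass from `k[G/P']` to `k[G/P]`.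
-/
import Fermat.Agent.S55.Formal.Blocks
import Fermat.Agent.S55.Formal.Perm
import Fermat.Agent.S55.Formal.Vanish3
import Fermat.Agent.S55.Formal.FiniteH

set_option autoImplicit false

open CategoryTheory

namespace Fermat.Agent.S55.Middle.Retract

open Fermat.Agent.S55.Formal

noncomputable section

open Classical in
/-- the fibre vector `∑_{y ↦ P} [y] ∈ k[G/P']` -/
def fv (k : Type) [CommRing k] {G : Type} [Group G] {P' P : Subgroup G} (hle : P' ≤ P)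
    [Finite (G ⧸ P')] : Perm.perm k P' :=
  Finsupp.equivFunOnFinite.symm
    (fun y : G ⧸ P' => if Subgroup.quotientMapOfLE hle y = ((1 : G) : G ⧸ P) then (1 : k) else 0)

variable {k : Type} [CommRing k] {G : Type} [Group G] {P' P : Subgroup G} (hle : P' ≤ P)

lemma quotientMapOfLE_smul (g : G) (y : G ⧸ P') :
    Subgroup.quotientMapOfLE hle (g • y) = g • Subgroup.quotientMapOfLE hle y := by
  induction y using QuotientGroup.induction_on with
  | H a => rfl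

open Classical in
lemma fv_apply [Finite (G ⧸ P')] (y : G ⧸ P') :
    fv k hle y = if Subgroup.quotientMapOfLE hle y = ((1 : G) : G ⧸ P) then (1 : k) else 0 := rfl

lemma fv_fixed [Finite (G ⧸ P')] (s : G) (hs : s ∈ P) :
    (Perm.perm k P').ρ s (fv k hle) = fv k hle := by
  classical
  apply Finsupp.ext
  intro y
  have h1 : (Perm.perm k P').ρ s (fv k hle) = Finsupp.mapDomain (s • ·) (fv k hle) := rfl
  have h2 : y = s • (s⁻¹ • y) := by rw [smul_inv_smul]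
  rw [h1]
  conv_lhs => rw [h2]
  rw [Finsupp.mapDomain_apply (MulAction.injective s), fv_apply, fv_apply, quotientMapOfLE_smul]
  have h3 : (s⁻¹ • Subgroup.quotientMapOfLE hle y = ((1 : G) : G ⧸ P)) ↔
      (Subgroup.quotientMapOfLE hle y = ((1 : G) : G ⧸ P)) := by
    rw [inv_smul_eq_iff]
    have : s • ((1 : G) : G ⧸ P) = ((1 : G) : G ⧸ P) := by
      show ((s * 1 : G) : G ⧸ P) = _
      rw [mul_one, QuotientGroup.eq]
      simpa using hs
    rw [this]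
  simp only [h3]

/-- `up : k[G/P] ⟶ k[G/P']`, `[gP] ↦ ∑_{x ∈ P/P'} [g x P']` -/
def up [Finite (G ⧸ P')] : Perm.perm k P ⟶ Perm.perm k P' :=
  Perm.ev (fv k hle) (fv_fixed hle)

/-- the base vector `c [P] ∈ k[G/P]` is fixed by `P` -/
lemma single_one_fixed (c : k) (s : G) (hs : s ∈ P) :
    (Perm.perm k P).ρ s (Finsupp.single ((1 : G) : G ⧸ P) c) =
      Finsupp.single ((1 : G) : G ⧸ P) c := by
  rw [Perm.perm_ρ_single]
  congr 1
  show ((s * 1 : G) : G ⧸ P) = _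
  rw [mul_one, QuotientGroup.eq]
  simpa using hs

/-- `dn c : k[G/P'] ⟶ k[G/P]`, `[gP'] ↦ c [gP]` -/
def dn (c : k) : Perm.perm k P' ⟶ Perm.perm k P :=
  Perm.ev (Finsupp.single ((1 : G) : G ⧸ P) c) (fun s hs => single_one_fixed c s (hle hs))

lemma dn_single (c : k) (y : G ⧸ P') (a : k) :
    (dn hle c).hom (Finsupp.single y a) =
      Finsupp.single (Subgroup.quotientMapOfLE hle y) (a * c) := by
  induction y using QuotientGroup.induction_on with
  | H g =>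
    rw [dn, Perm.ev_single, Perm.perm_ρ_single, Finsupp.smul_single, smul_eq_mul]
    congr 1
    show ((g * 1 : G) : G ⧸ P) = _
    rw [mul_one]
    rfl

/-- the number of cosets of `P'` in `P`, as the cardinality of the fibre of `G/P' → G/P` -/
def fibreCard : ℕ := Nat.card {y : G ⧸ P' // Subgroup.quotientMapOfLE hle y = ((1 : G) : G ⧸ P)}

lemma dn_fv [Finite (G ⧸ P')] (c : k) :
    (dn hle c).hom (fv k hle) = Finsupp.single ((1 : G) : G ⧸ P) ((fibreCard hle : k) * c) := by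
  classical
  let _ : Fintype (G ⧸ P') := Fintype.ofFinite _
  have h1 : fv k hle = ∑ y : G ⧸ P', Finsupp.single y (fv k hle y) :=
    (Finsupp.univ_sum_single (fv k hle)).symm
  rw [h1, map_sum]
  have h2 : ∀ y : G ⧸ P', (dn hle c).hom (Finsupp.single y (fv k hle y)) =
      if Subgroup.quotientMapOfLE hle y = ((1 : G) : G ⧸ P) then
        (Finsupp.single ((1 : G) : G ⧸ P) c : (G ⧸ P) →₀ k) else 0 := by
    intro y
    rw [dn_single, fv_apply]
    split_ifs with h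
    · rw [h, one_mul]
    · rw [zero_mul, Finsupp.single_zero]
  refine (Finset.sum_congr rfl (fun y _ => h2 y)).trans ?_
  rw [Finset.sum_ite, Finset.sum_const_zero, add_zero,
    Finset.sum_const, ← Nat.cast_smul_eq_nsmul k, Finsupp.smul_single, smul_eq_mul]
  congr 2
  rw [fibreCard, Nat.card_eq_fintype_card, Fintype.card_subtype]

lemma dn_up [Finite (G ⧸ P')] (c : k) (x : Perm.perm k P) :
    (dn hle c).hom ((up hle).hom x) = ((fibreCard hle : k) * c) • x := by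
  induction x using Finsupp.induction_linear with
  | zero => simp
  | add f₁ f₂ h₁ h₂ => simp only [map_add, h₁, h₂, smul_add]
  | single y a =>
    induction y using QuotientGroup.induction_on with
    | H g =>
      rw [up, Perm.ev_single, map_smul, Rep.hom_comm_apply, dn_fv, Perm.perm_ρ_single,
        Finsupp.smul_single, Finsupp.smul_single, smul_eq_mul, smul_eq_mul, mul_comm]
      congr 1
      show ((g * 1 : G) : G ⧸ P) = _
      rw [mul_one]

/-- the fibre of `G/P' → G/P` over the base coset has `[P : P']` elements -/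
lemma fibreCard_eq : fibreCard hle = P'.relIndex P := by
  rw [fibreCard, Subgroup.relIndex, Subgroup.index]
  refine Nat.card_congr ?_
  let e := Subgroup.quotientEquivProdOfLE hle
  have he : ∀ y, (e y).1 = Subgroup.quotientMapOfLE hle y := fun y => rfl
  exact
    { toFun := fun y => (e y.1).2
      invFun := fun f => ⟨e.symm (((1 : G) : G ⧸ P), f), by
        rw [← he, Equiv.apply_symm_apply]⟩
      left_inv := fun y => by
        apply Subtype.ext
        show e.symm (((1 : G) : G ⧸ P), (e y.1).2) = y.1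
        rw [Equiv.symm_apply_eq]
        refine Prod.ext ?_ rfl
        rw [he]
        exact y.2.symm
      right_inv := fun f => by
        show (e (e.symm (((1 : G) : G ⧸ P), f))).2 = f
        rw [Equiv.apply_symm_apply] }

/-- **the retraction**: for `[P : P']` invertible in `k`, `dn (1/[P:P']) ∘ up = id`. -/
theorem dn_up_eq [Finite (G ⧸ P')] (h : IsUnit ((P'.relIndex P : ℕ) : k)) (x : Perm.perm k P) :
    (dn hle (Ring.inverse ((P'.relIndex P : ℕ) : k))).hom ((up hle).hom x) = x := by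
  rw [dn_up, fibreCard_eq, Ring.mul_inverse_cancel _ h, one_smul]

/-! ### generic retract lemmas for LC cohomology (any commutative ring `k`) -/

section Generic

variable (𝒰 : NBasis G) {N N' : Rep.{0, 0, 0} k G} (i : N ⟶ N') (r : N' ⟶ N)

theorem h1_surjective_of_retract (hir : ∀ n, r.hom (i.hom n) = n) :
    Function.Surjective (Mor.ofHom 𝒰 r).h1 := by
  intro x
  obtain ⟨b, hb, rfl⟩ := Hmid.exists_of x
  have hb' : dC₁ 𝒰 N' ((Mor.ofHom 𝒰 i).c₁ b) = 0 := by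
    have := LinearMap.congr_fun (Mor.ofHom 𝒰 i).c₂_dC₁ b
    simp only [LinearMap.comp_apply] at this
    rw [← this, hb, map_zero]
  refine ⟨Hmid.of ((Mor.ofHom 𝒰 i).c₁ b) hb', ?_⟩
  have hb'' : dC₁ 𝒰 N ((Mor.ofHom 𝒰 r).c₁ ((Mor.ofHom 𝒰 i).c₁ b)) = 0 := by
    have := LinearMap.congr_fun (Mor.ofHom 𝒰 r).c₂_dC₁ ((Mor.ofHom 𝒰 i).c₁ b)
    simp only [LinearMap.comp_apply] at this
    rw [← this, hb', map_zero]
  have h5 : (Mor.ofHom 𝒰 r).h1 (Hmid.of ((Mor.ofHom 𝒰 i).c₁ b) hb') =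
      Hmid.of ((Mor.ofHom 𝒰 r).c₁ ((Mor.ofHom 𝒰 i).c₁ b)) hb'' := rfl
  rw [h5]
  congr 1
  apply Subtype.ext
  funext x
  exact hir _

theorem h2_surjective_of_retract (hir : ∀ n, r.hom (i.hom n) = n) :
    Function.Surjective (Mor.ofHom 𝒰 r).h2 := by
  intro x
  obtain ⟨b, hb, rfl⟩ := Hmid.exists_of x
  have hb' : dC₂ 𝒰 N' ((Mor.ofHom 𝒰 i).c₂ b) = 0 := by
    have := LinearMap.congr_fun (Mor.ofHom 𝒰 i).c₃_dC₂ b
    simp only [LinearMap.comp_apply] at this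
    rw [← this, hb, map_zero]
  refine ⟨Hmid.of ((Mor.ofHom 𝒰 i).c₂ b) hb', ?_⟩
  have hb'' : dC₂ 𝒰 N ((Mor.ofHom 𝒰 r).c₂ ((Mor.ofHom 𝒰 i).c₂ b)) = 0 := by
    have := LinearMap.congr_fun (Mor.ofHom 𝒰 r).c₃_dC₂ ((Mor.ofHom 𝒰 i).c₂ b)
    simp only [LinearMap.comp_apply] at this
    rw [← this, hb', map_zero]
  have h5 : (Mor.ofHom 𝒰 r).h2 (Hmid.of ((Mor.ofHom 𝒰 i).c₂ b) hb') =
      Hmid.of ((Mor.ofHom 𝒰 r).c₂ ((Mor.ofHom 𝒰 i).c₂ b)) hb'' := rfl
  rw [h5]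
  congr 1
  apply Subtype.ext
  funext x
  exact hir _

/-- `H¹(N)` is a retract of `H¹(N')`: injectivity of `i_*`. -/
theorem h1_injective_of_retract (hir : ∀ n, r.hom (i.hom n) = n) :
    Function.Injective (Mor.ofHom 𝒰 i).h1 := by
  have key : ∀ x, (Mor.ofHom 𝒰 r).h1 ((Mor.ofHom 𝒰 i).h1 x) = x := by
    intro x
    obtain ⟨b, hb, rfl⟩ := Hmid.exists_of x
    have e : (Mor.ofHom 𝒰 r).c₁ ((Mor.ofHom 𝒰 i).c₁ b) = b :=
      Subtype.ext (funext fun x => hir _)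
    have hb'' : dC₁ 𝒰 N ((Mor.ofHom 𝒰 r).c₁ ((Mor.ofHom 𝒰 i).c₁ b)) = 0 := by rw [e]; exact hb
    show Hmid.of ((Mor.ofHom 𝒰 r).c₁ ((Mor.ofHom 𝒰 i).c₁ b)) hb'' = Hmid.of b hb
    congr 1
  exact Function.LeftInverse.injective key

theorem h2_injective_of_retract (hir : ∀ n, r.hom (i.hom n) = n) :
    Function.Injective (Mor.ofHom 𝒰 i).h2 := by
  have key : ∀ x, (Mor.ofHom 𝒰 r).h2 ((Mor.ofHom 𝒰 i).h2 x) = x := by
    intro x
    obtain ⟨b, hb, rfl⟩ := Hmid.exists_of x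
    have e : (Mor.ofHom 𝒰 r).c₂ ((Mor.ofHom 𝒰 i).c₂ b) = b :=
      Subtype.ext (funext fun x => hir _)
    have hb'' : dC₂ 𝒰 N ((Mor.ofHom 𝒰 r).c₂ ((Mor.ofHom 𝒰 i).c₂ b)) = 0 := by rw [e]; exact hb
    show Hmid.of ((Mor.ofHom 𝒰 r).c₂ ((Mor.ofHom 𝒰 i).c₂ b)) hb'' = Hmid.of b hb
    congr 1
  exact Function.LeftInverse.injective key

theorem finite_H1_of_retract (hir : ∀ n, r.hom (i.hom n) = n)
    (h : Module.Finite k (H1 𝒰 N')) : Module.Finite k (H1 𝒰 N) :=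
  Module.Finite.of_surjective _ (h1_surjective_of_retract 𝒰 i r hir)

theorem finite_H2_of_retract (hir : ∀ n, r.hom (i.hom n) = n)
    (h : Module.Finite k (H2 𝒰 N')) : Module.Finite k (H2 𝒰 N) :=
  Module.Finite.of_surjective _ (h2_surjective_of_retract 𝒰 i r hir)

end Generic

end

/-! ### the official permutation modules `perm k P = Rep.ofMulAction k G (G ⧸ P)` -/

noncomputable section Official

variable {k : Type} [Field k] {G : Type} [Group G] (𝒰 : NBasis G) {P' P : Subgroup G}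

/-- the `Finsupp` model of `k[G/P]` is isomorphic to the official one -/
def permIso (k : Type) [Field k] {G : Type} [Group G] (P : Subgroup G) :
    Perm.perm k P ≅ perm k P :=
  Perm.permOnIsoOfMulAction (G ⧸ P)

/-- `perm k P ⟶ perm k P'`, `[gP] ↦ ∑_{x ∈ P/P'} [g x P']` -/
def upO (hle : P' ≤ P) [Finite (G ⧸ P')] : perm k P ⟶ perm k P' :=
  (permIso k P).inv ≫ up hle ≫ (permIso k P').hom

/-- `perm k P' ⟶ perm k P`, `[gP'] ↦ c [gP]` -/
def dnO (hle : P' ≤ P) (c : k) : perm k P' ⟶ perm k P :=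
  (permIso k P').inv ≫ dn hle c ≫ (permIso k P).hom

/-- **`perm k P` is a retract of `perm k P'`** when `[P : P']` is invertible in `k`. -/
theorem dnO_upO (hle : P' ≤ P) [Finite (G ⧸ P')] (h : ((P'.relIndex P : ℕ) : k) ≠ 0) (x : perm k P) :
    (dnO hle (((P'.relIndex P : ℕ) : k))⁻¹).hom ((upO hle).hom x) = x := by
  have h1 : ∀ y : Perm.perm k P', (permIso k P').inv.hom ((permIso k P').hom.hom y) = y :=
    fun y => Rep.inv_hom_apply _ _ _ y
  have h2 : ∀ y : perm k P, (permIso k P).hom.hom ((permIso k P).inv.hom y) = y :=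
    fun y => Rep.hom_inv_apply _ _ _ y
  show (permIso k P).hom.hom ((dn hle _).hom ((permIso k P').inv.hom
    ((permIso k P').hom.hom ((up hle).hom ((permIso k P).inv.hom x))))) = x
  rw [h1, ← Ring.inverse_eq_inv', dn_up_eq hle (isUnit_iff_ne_zero.mpr h), h2]

theorem vanish₃_perm_of_le (hle : P' ≤ P) [Finite (G ⧸ P')] (h : ((P'.relIndex P : ℕ) : k) ≠ 0)
    (hv : Vanish₃ 𝒰 (perm k P')) : Vanish₃ 𝒰 (perm k P) :=
  Vanish3.Vanish₃.of_retract 𝒰 (upO hle) (dnO hle _) (dnO_upO hle h) hv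

theorem vanish₂_perm_of_le (hle : P' ≤ P) [Finite (G ⧸ P')] (h : ((P'.relIndex P : ℕ) : k) ≠ 0)
    (hv : Vanish₂ 𝒰 (perm k P')) : Vanish₂ 𝒰 (perm k P) :=
  Vanish3.Vanish₂.of_retract 𝒰 (upO hle) (dnO hle _) (dnO_upO hle h) hv

theorem finite_H1_perm_of_le (hle : P' ≤ P) [Finite (G ⧸ P')] (h : ((P'.relIndex P : ℕ) : k) ≠ 0)
    (hf : Module.Finite k (H1 𝒰 (perm k P'))) : Module.Finite k (H1 𝒰 (perm k P)) :=
  finite_H1_of_retract 𝒰 (upO hle) (dnO hle _) (dnO_upO hle h) hf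

theorem finite_H2_perm_of_le (hle : P' ≤ P) [Finite (G ⧸ P')] (h : ((P'.relIndex P : ℕ) : k) ≠ 0)
    (hf : Module.Finite k (H2 𝒰 (perm k P'))) : Module.Finite k (H2 𝒰 (perm k P)) :=
  finite_H2_of_retract 𝒰 (upO hle) (dnO hle _) (dnO_upO hle h) hf

end Official

/-! ### the arithmetic corollary: intersecting with `ker χ`, `χ : G →* (ZMod p)ˣ` -/

section Chi

variable {p : ℕ} [hp : Fact p.Prime] {G : Type} [Group G] (𝒰 : NBasis G) (χ : G →* (ZMod p)ˣ)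

/-- `[P : P ∩ ker χ]` divides `p - 1`, hence is invertible in `ZMod p`. -/
theorem relIndex_inf_ker_ne_zero (P : Subgroup G) :
    (((P ⊓ χ.ker).relIndex P : ℕ) : ZMod p) ≠ 0 := by
  rw [Subgroup.inf_relIndex_left, Subgroup.relIndex_ker]
  have h1 : Nat.card (P.map χ) ∣ p - 1 := by
    have := Subgroup.card_subgroup_dvd_card (P.map χ)
    rwa [Nat.card_eq_fintype_card (α := (ZMod p)ˣ), ZMod.card_units_eq_totient,
      Nat.totient_prime hp.out] at this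
  intro h0
  rw [ZMod.natCast_eq_zero_iff] at h0
  have h2 : p ∣ p - 1 := h0.trans h1
  have h3 := hp.out.two_le
  have h4 := Nat.le_of_dvd (by omega) h2
  omega

theorem trivOn_inf_ker (P : Subgroup G) : TrivOn χ (P ⊓ χ.ker) :=
  fun _ hs => MonoidHom.mem_ker.mp hs.2

theorem isOpen_inf_ker (hχ : ∃ U, 𝒰.mem U ∧ TrivOn χ U) {P : Subgroup G} (hP : 𝒰.IsOpen P) :
    𝒰.IsOpen (P ⊓ χ.ker) := by
  obtain ⟨U₀, hU₀, h0⟩ := hχ
  obtain ⟨U, hU, hUP⟩ := hP
  obtain ⟨W, hW, hle⟩ := 𝒰.inf hU hU₀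
  exact ⟨W, hW, fun s hs => ⟨hUP (hle hs).1, MonoidHom.mem_ker.mpr (h0 s (hle hs).2)⟩⟩

theorem finite_quotient_of_isOpen {P : Subgroup G} (hP : 𝒰.IsOpen P) : Finite (G ⧸ P) := by
  obtain ⟨U, hU, hUP⟩ := hP
  exact Perm.finite_quotient_of_open 𝒰 hU hUP

/-- **(R3) for `H³`**: `Vanish₃` for the open `P` on which `χ` is trivial gives it for all open
`P`. -/
theorem vanish₃_of_trivOn (hχ : ∃ U, 𝒰.mem U ∧ TrivOn χ U)
    (h : ∀ P : Subgroup G, 𝒰.IsOpen P → TrivOn χ P → Vanish₃ 𝒰 (perm (ZMod p) P))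
    (P : Subgroup G) (hP : 𝒰.IsOpen P) : Vanish₃ 𝒰 (perm (ZMod p) P) := by
  have hopen := isOpen_inf_ker 𝒰 χ hχ hP
  have := finite_quotient_of_isOpen 𝒰 hopen
  exact vanish₃_perm_of_le 𝒰 (inf_le_left : P ⊓ χ.ker ≤ P) (relIndex_inf_ker_ne_zero χ P)
    (h _ hopen (trivOn_inf_ker χ P))

/-- **(R3) for finiteness of `H¹`**. -/
theorem finite_H1_of_trivOn (hχ : ∃ U, 𝒰.mem U ∧ TrivOn χ U)
    (h : ∀ P : Subgroup G, 𝒰.IsOpen P → TrivOn χ P → Module.Finite (ZMod p) (H1 𝒰 (perm (ZMod p) P)))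
    (P : Subgroup G) (hP : 𝒰.IsOpen P) : Module.Finite (ZMod p) (H1 𝒰 (perm (ZMod p) P)) := by
  have hopen := isOpen_inf_ker 𝒰 χ hχ hP
  have := finite_quotient_of_isOpen 𝒰 hopen
  exact finite_H1_perm_of_le 𝒰 (inf_le_left : P ⊓ χ.ker ≤ P) (relIndex_inf_ker_ne_zero χ P)
    (h _ hopen (trivOn_inf_ker χ P))

/-- **(R3) for finiteness of `H²`**. -/
theorem finite_H2_of_trivOn (hχ : ∃ U, 𝒰.mem U ∧ TrivOn χ U)
    (h : ∀ P : Subgroup G, 𝒰.IsOpen P → TrivOn χ P → Module.Finite (ZMod p) (H2 𝒰 (perm (ZMod p) P)))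
    (P : Subgroup G) (hP : 𝒰.IsOpen P) : Module.Finite (ZMod p) (H2 𝒰 (perm (ZMod p) P)) := by
  have hopen := isOpen_inf_ker 𝒰 χ hχ hP
  have := finite_quotient_of_isOpen 𝒰 hopen
  exact finite_H2_perm_of_le 𝒰 (inf_le_left : P ⊓ χ.ker ≤ P) (relIndex_inf_ker_ne_zero χ P)
    (h _ hopen (trivOn_inf_ker χ P))

/-- a basis member is open -/
theorem isOpen_of_mem {U : Subgroup G} (hU : 𝒰.mem U) : 𝒰.IsOpen U := ⟨U, hU, le_rfl⟩

/-- variants for bases closed under `· ⊓ ker χ` (true for the arithmetic site: `ker χ_p` is the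
basis member `Gal(ℚ̄/ℚ(μ_p))`, `p ∈ S`): hypotheses only for basis members. -/
theorem finite_H1_of_trivOn_mem (hmem : ∀ U, 𝒰.mem U → 𝒰.mem (U ⊓ χ.ker))
    (h : ∀ U, 𝒰.mem U → TrivOn χ U → Module.Finite (ZMod p) (H1 𝒰 (perm (ZMod p) U)))
    (U : Subgroup G) (hU : 𝒰.mem U) : Module.Finite (ZMod p) (H1 𝒰 (perm (ZMod p) U)) := by
  have := finite_quotient_of_isOpen 𝒰 (isOpen_of_mem 𝒰 (hmem U hU))
  exact finite_H1_perm_of_le 𝒰 (inf_le_left : U ⊓ χ.ker ≤ U) (relIndex_inf_ker_ne_zero χ U)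
    (h _ (hmem U hU) (trivOn_inf_ker χ U))

theorem finite_H2_of_trivOn_mem (hmem : ∀ U, 𝒰.mem U → 𝒰.mem (U ⊓ χ.ker))
    (h : ∀ U, 𝒰.mem U → TrivOn χ U → Module.Finite (ZMod p) (H2 𝒰 (perm (ZMod p) U)))
    (U : Subgroup G) (hU : 𝒰.mem U) : Module.Finite (ZMod p) (H2 𝒰 (perm (ZMod p) U)) := by
  have := finite_quotient_of_isOpen 𝒰 (isOpen_of_mem 𝒰 (hmem U hU))
  exact finite_H2_perm_of_le 𝒰 (inf_le_left : U ⊓ χ.ker ≤ U) (relIndex_inf_ker_ne_zero χ U)
    (h _ (hmem U hU) (trivOn_inf_ker χ U))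

end Chi

/-! ### the site version (local groups) -/

section SiteVersion

variable {p : ℕ} [hp : Fact p.Prime] (X : Site) (χ : X.G →* (ZMod p)ˣ)

/-- `χ ∘ ι_v` is smooth on `Γ_v` -/
theorem chi_comp_smooth (hχ : ∃ U, X.𝒰.mem U ∧ TrivOn χ U) (v : X.I) :
    ∃ U, (X.𝒱 v).mem U ∧ TrivOn (χ.comp (X.ι v)) U := by
  obtain ⟨U, hU, h⟩ := hχ
  obtain ⟨U', hU', hle⟩ := X.cont v U hU
  exact ⟨U', hU', fun s hs => h _ (hle s hs)⟩

/-- local (R3): `vanish₃_loc` for the `P` on which `χ ∘ ι_v` is trivial gives it for all open `P`. -/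
theorem vanish₃_loc_of_trivOn (hχ : ∃ U, X.𝒰.mem U ∧ TrivOn χ U)
    (h : ∀ (v : X.I) (P : Subgroup (X.Γ v)), (X.𝒱 v).IsOpen P → TrivOn (χ.comp (X.ι v)) P →
      Vanish₃ (X.𝒱 v) (perm (ZMod p) P))
    (v : X.I) (P : Subgroup (X.Γ v)) (hP : (X.𝒱 v).IsOpen P) :
    Vanish₃ (X.𝒱 v) (perm (ZMod p) P) :=
  vanish₃_of_trivOn (X.𝒱 v) (χ.comp (X.ι v)) (chi_comp_smooth X χ hχ v) (h v) P hP

end SiteVersion

end Fermat.Agent.S55.Middle.Retract
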