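/-
S55 / Middle / M.loccompare (helper79): link of `Middle/SemilocalCompare` with `Bridge/LocalGlobal`
for a finite Galois subfield `F ⊆ ℚ̄` and the tautological embedding `F → ℚ̄ → PadicAlgCl q`:

* `tautEmb F : F →+* PadicAlgCl q`, `localFieldOf_tautEmb : localFieldOf (tautEmb F) = localField q F`;
* `stabilizer_idealQ_eq` : the stabiliser in `Gal(F/ℚ)` of the maximal ideal `𝔪` of `F ⊗[ℚ] ℚ_[q]`
  attached to `tautEmb F` IS the decomposition group of `placeOf F` (the place below `padicPlace q`);
* `localEquiv F : localFieldOf (tautEmb F) ≃ₐ[ℚ_[q]] localField q F` (identity on elements) and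
  `resHom_stabToGalQ` : `LocalGlobal.resHom F` of (the transport of) `stabToGalQ d` is `d`; hence
  `Stab 𝔪 → Gal(ℚ_q(ιF)/ℚ_q) → Gal(F/ℚ)` is the inclusion, and
* `stabLocalEquiv : Stab 𝔪 ≃* Gal(ℚ_q(ιF)/ℚ_q)` with `coe_stabLocalEquiv_symm` (inverse = `resHom`).
(Residue field: compose `SemilocalCompare.quotEquivQ (tautEmb F)` with `localEquiv F`; equivariance is
`SemilocalCompare.quotEquivQ_smul`.)
-/
import Mathlib
import Fermat.Agent.S55.Middle.SemilocalCompare

set_option autoImplicit false
set_option linter.unusedSectionVars false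
set_option linter.style.haveILetI false
set_option synthInstance.maxHeartbeats 200000

namespace Fermat.Agent.S55.Middle.SemilocalCompareGal

open scoped TensorProduct Pointwise NumberField
open Fermat.Agent.S55.Global.SemilocalDecomp
open Fermat.Agent.S55.Global.Objects
open Fermat.Agent.S55.Middle.CompletionCompare
open Fermat.Agent.S55.Middle.SemilocalCompare
open Fermat.Agent.S55.Bridge.LocalGlobal

attribute [local instance] Algebra.TensorProduct.rightAlgebra
attribute [local instance] stabQuotAction
attribute [local instance] algebraLocal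

variable {q : ℕ} [Fact q.Prime]
variable (F : IntermediateField ℚ (AlgebraicClosure ℚ)) [NumberField F] [Normal ℚ F]

/-- the tautological embedding `F ⊆ ℚ̄ → PadicAlgCl q`. -/
noncomputable def tautEmb : F →+* PadicAlgCl q :=
  (padicEmbedding q).toRingHom.comp (algebraMap F (AlgebraicClosure ℚ))

@[simp] theorem tautEmb_apply (x : F) :
    tautEmb (q := q) F x = padicEmbedding q (x : AlgebraicClosure ℚ) := rfl

theorem localFieldOf_tautEmb : localFieldOf (tautEmb (q := q) F) = localField q F :=
  localFieldOf_val F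

/-- **The stabiliser of the place `𝔪` of `F ⊗[ℚ] ℚ_[q]` cut out by `ℚ̄ → PadicAlgCl q` is the
decomposition group** of the place of `F` below `padicPlace q`. -/
theorem stabilizer_idealQ_eq :
    MulAction.stabilizer (F ≃ₐ[ℚ] F) (idealQ (tautEmb (q := q) F)) =
      (placeOf (q := q) F).decompositionSubgroup ℚ := by
  ext g
  rw [mem_stabilizer_idealQ_iff]
  constructor
  · rintro ⟨τ, hτ⟩
    have hg : resHom F (AlgEquiv.restrictNormalHom (localField q F) τ) = g := by
      rw [resHom_restrictNormalHom]
      ext x
      apply padicEmbedding_injective (q := q)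
      have h2 := AlgEquiv.restrictNormal_commutes (localGaloisToGlobal q τ) F x
      calc padicEmbedding q ((AlgEquiv.restrictNormalHom F (localGaloisToGlobal q τ) x : F) :
            AlgebraicClosure ℚ)
          = padicEmbedding q (localGaloisToGlobal q τ (x : AlgebraicClosure ℚ)) :=
            congrArg _ h2
        _ = τ (padicEmbedding q (x : AlgebraicClosure ℚ)) :=
            padicEmbedding_localGaloisToGlobal q τ _
        _ = padicEmbedding q ((g x : F) : AlgebraicClosure ℚ) := hτ x
    rw [← hg]
    exact resHom_mem_decompositionSubgroup F _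
  · intro hg
    obtain ⟨τ, hτ⟩ := exists_local_of_mem_decomposition F hg
    refine ⟨τ, fun x => ?_⟩
    have h2 := AlgEquiv.restrictNormal_commutes (localGaloisToGlobal q τ) F x
    calc τ (tautEmb F x) = τ (padicEmbedding q (x : AlgebraicClosure ℚ)) := rfl
      _ = padicEmbedding q (localGaloisToGlobal q τ (x : AlgebraicClosure ℚ)) :=
          (padicEmbedding_localGaloisToGlobal q τ _).symm
      _ = padicEmbedding q ((AlgEquiv.restrictNormalHom F (localGaloisToGlobal q τ) x : F) :
            AlgebraicClosure ℚ) := congrArg _ h2.symm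
      _ = tautEmb F (g x) := by rw [hτ]; rfl

/-- `localFieldOf (tautEmb F)` and `localField q F` are the same subfield of `PadicAlgCl q`. -/
noncomputable def localEquiv :
    localFieldOf (tautEmb (q := q) F) ≃ₐ[ℚ_[q]] localField q F :=
  IntermediateField.equivOfEq (localFieldOf_tautEmb F)

@[simp] theorem coe_localEquiv (x : localFieldOf (tautEmb (q := q) F)) :
    ((localEquiv F x : localField q F) : PadicAlgCl q) = x := by
  rw [localEquiv, IntermediateField.equivOfEq_apply]

@[simp] theorem coe_localEquiv_symm (x : localField q F) :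
    (((localEquiv F).symm x : localFieldOf (tautEmb (q := q) F)) : PadicAlgCl q) = x := by
  rw [localEquiv, IntermediateField.equivOfEq_symm, IntermediateField.equivOfEq_apply]

theorem localEquiv_toLocalField (x : F) :
    localEquiv F (toLocalField (tautEmb (q := q) F) x) = embLocal F x := by
  apply Subtype.ext
  rw [coe_localEquiv]
  rfl

theorem localEquiv_symm_embLocal (x : F) :
    (localEquiv F).symm (embLocal F x) = toLocalField (tautEmb (q := q) F) x := by
  rw [AlgEquiv.symm_apply_eq, localEquiv_toLocalField]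

/-- `Stab 𝔪 → Gal(ℚ_q(ιF)/ℚ_q)` (through `stabToGalQ` and `localEquiv`). -/
noncomputable def stabToLocal :
    MulAction.stabilizer (F ≃ₐ[ℚ] F) (idealQ (tautEmb (q := q) F)) →*
      (localField q F ≃ₐ[ℚ_[q]] localField q F) :=
  (AlgEquiv.autCongr (localEquiv F)).toMonoidHom.comp (stabToGalQ (tautEmb (q := q) F))

theorem stabToLocal_embLocal
    (d : MulAction.stabilizer (F ≃ₐ[ℚ] F) (idealQ (tautEmb (q := q) F))) (x : F) :
    stabToLocal F d (embLocal F x) = embLocal F (d.1 x) := by
  have h0 : stabToLocal F d (embLocal F x) =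
      localEquiv F (stabToGalQ (tautEmb F) d ((localEquiv F).symm (embLocal F x))) := rfl
  rw [h0, localEquiv_symm_embLocal, stabToGalQ_toLocalField, localEquiv_toLocalField]

/-- **`resHom ∘ stabToLocal` is the inclusion `Stab 𝔪 ≤ Gal(F/ℚ)`.** -/
theorem resHom_stabToLocal
    (d : MulAction.stabilizer (F ≃ₐ[ℚ] F) (idealQ (tautEmb (q := q) F))) :
    resHom F (stabToLocal F d) = d.1 := by
  ext x
  apply padicEmbedding_injective (q := q)
  rw [padicEmbedding_resHom, stabToLocal_embLocal]
  rfl

theorem stabToLocal_injective : Function.Injective (stabToLocal (q := q) F) := by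
  intro d d' h
  apply Subtype.ext
  rw [← resHom_stabToLocal, ← resHom_stabToLocal, h]

theorem stabToLocal_surjective : Function.Surjective (stabToLocal (q := q) F) := by
  intro σ
  have hmem : resHom F σ ∈ MulAction.stabilizer (F ≃ₐ[ℚ] F) (idealQ (tautEmb (q := q) F)) := by
    rw [stabilizer_idealQ_eq]
    exact resHom_mem_decompositionSubgroup F σ
  refine ⟨⟨resHom F σ, hmem⟩, ?_⟩
  apply resHom_injective (q := q) F
  rw [resHom_stabToLocal]

/-- `Stab 𝔪 ≃* Gal(ℚ_q(ιF)/ℚ_q)`, inverse to `LocalGlobal.resHom`. -/
noncomputable def stabLocalEquiv :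
    MulAction.stabilizer (F ≃ₐ[ℚ] F) (idealQ (tautEmb (q := q) F)) ≃*
      (localField q F ≃ₐ[ℚ_[q]] localField q F) :=
  MulEquiv.ofBijective (stabToLocal F) ⟨stabToLocal_injective F, stabToLocal_surjective F⟩

@[simp] theorem stabLocalEquiv_apply
    (d : MulAction.stabilizer (F ≃ₐ[ℚ] F) (idealQ (tautEmb (q := q) F))) :
    stabLocalEquiv F d = stabToLocal F d := rfl

theorem coe_stabLocalEquiv_symm (σ : localField q F ≃ₐ[ℚ_[q]] localField q F) :
    (((stabLocalEquiv F).symm σ : MulAction.stabilizer (F ≃ₐ[ℚ] F) (idealQ (tautEmb (q := q) F))) :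
      F ≃ₐ[ℚ] F) = resHom F σ := by
  obtain ⟨d, rfl⟩ := (stabLocalEquiv F).surjective σ
  rw [MulEquiv.symm_apply_apply, stabLocalEquiv_apply, resHom_stabToLocal]

end Fermat.Agent.S55.Middle.SemilocalCompareGal
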