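/-
S55 / Middle, row M.sha1 (bridge part; helper89): `Ш¹(U; 𝔽_p) ≤ c`, the translation from characters
of `U = Gal(ℚ̄/K₀)` to class field theory.

`K₀ ⊆ ℚ̄` a number field unramified outside `S` containing `ζ_p` (`p ≥ 3`), `U = K₀.fixingSubgroup`.
Additive characters `f : U → ℤ/p` which
* are trivial on `U ∩ Gal(ℚ̄/F)` for some `F` unramified outside `S` (level `S`), and
* are trivial on `U ∩ D_A` for every valuation subring `A` of `ℚ̄` over a prime `q ∈ S`
  (locally trivial at all places of `K₀` over `S`)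
span a space of dimension `≤ c`, where `p ^ c` is the index of `⟨classes of the primes over S,
p-th powers⟩` in `Cl(K₀)`:  if `f₁ … f_r` are linearly independent, their common kernel field
`L₀/K₀` has group `(ℤ/p)^r`, is unramified everywhere and split at the primes over `S`, so
`p ^ r ≤ index` by `Global/UnramAbelian.card_le_of_split` (unramified reciprocity on top of S14).

Main results: `pow_le_index` (independent families), `finrank_le` (subspaces).
-/
import Mathlib
import Fermat.Agent.S55.Bridge.Unram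
import Fermat.Agent.S55.GaloisLevel
import Fermat.Agent.S55.Global.UnramAbelian
import Fermat.Agent.S14.BlockDFinal
import Fermat.Agent.S14.BridgeGlue

set_option autoImplicit false
set_option linter.unusedSectionVars false
set_option linter.style.haveILetI false

open scoped Pointwise NumberField nonZeroDivisors

namespace Fermat.Agent.S55.Middle.Sha1Bridge

local instance instIsGaloisQbar : IsGalois ℚ (AlgebraicClosure ℚ) :=
  Fermat.Agent.Lib.UnramifiedTrivial.isGalois_algebraicClosure_rat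

section GroupPart

variable {U : Type*} [Group U] {p : ℕ} [hp : Fact p.Prime] {r : ℕ}

/-- the joint map of a family of additive characters. -/
def jointHom (f : Fin r → U → ZMod p) (hadd : ∀ i σ τ, f i (σ * τ) = f i σ + f i τ) :
    U →* Multiplicative (Fin r → ZMod p) where
  toFun σ := Multiplicative.ofAdd fun i => f i σ
  map_one' := by
    have h : ∀ i, f i 1 = 0 := fun i => by
      have := hadd i 1 1
      rw [mul_one] at this
      linear_combination (-1 : ZMod p) * this
    change Multiplicative.ofAdd (fun i => f i 1) = 1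
    rw [show (fun i => f i 1) = 0 from funext h]
    rfl
  map_mul' σ τ := by
    change Multiplicative.ofAdd (fun i => f i (σ * τ)) = _
    rw [show (fun i => f i (σ * τ)) = (fun i => f i σ) + (fun i => f i τ) from
      funext fun i => hadd i σ τ]
    rfl

theorem jointHom_apply (f : Fin r → U → ZMod p) (hadd : ∀ i σ τ, f i (σ * τ) = f i σ + f i τ)
    (σ : U) (i : Fin r) : Multiplicative.toAdd (jointHom f hadd σ) i = f i σ := rfl

theorem mem_ker_jointHom (f : Fin r → U → ZMod p) (hadd : ∀ i σ τ, f i (σ * τ) = f i σ + f i τ)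
    (σ : U) : σ ∈ (jointHom f hadd).ker ↔ ∀ i, f i σ = 0 := by
  rw [MonoidHom.mem_ker]
  constructor
  · intro h i
    have := congrArg (fun x : Multiplicative (Fin r → ZMod p) => Multiplicative.toAdd x i) h
    exact this
  · intro h
    change Multiplicative.ofAdd (fun i => f i σ) = 1
    rw [show (fun i => f i σ) = 0 from funext h]
    rfl

/-- A linearly independent family of additive characters is jointly surjective. -/
theorem jointHom_surjective (f : Fin r → U → ZMod p)
    (hadd : ∀ i σ τ, f i (σ * τ) = f i σ + f i τ)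
    (hli : LinearIndependent (ZMod p) f) : Function.Surjective (jointHom f hadd) := by
  classical
  -- the image, as a `ZMod p`-submodule
  let R : AddSubgroup (Fin r → ZMod p) :=
    { carrier := {x | ∃ σ, (fun i => f i σ) = x}
      zero_mem' := ⟨1, funext fun i => by
        have := hadd i 1 1
        rw [mul_one] at this
        change f i 1 = 0
        linear_combination (-1 : ZMod p) * this⟩
      add_mem' := by
        rintro _ _ ⟨σ, rfl⟩ ⟨τ, rfl⟩
        exact ⟨σ * τ, funext fun i => hadd i σ τ⟩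
      neg_mem' := by
        rintro _ ⟨σ, rfl⟩
        refine ⟨σ⁻¹, funext fun i => ?_⟩
        have h1 : f i 1 = 0 := by
          have := hadd i 1 1
          rw [mul_one] at this
          linear_combination (-1 : ZMod p) * this
        have := hadd i σ σ⁻¹
        rw [mul_inv_cancel, h1] at this
        simp only [Pi.neg_apply]
        exact eq_neg_of_add_eq_zero_right this.symm }
  let R' : Submodule (ZMod p) (Fin r → ZMod p) := AddSubgroup.toZModSubmodule p R
  have hR' : ∀ x, x ∈ R' ↔ ∃ σ, (fun i => f i σ) = x := fun x => Iff.rfl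
  have htop : R' = ⊤ := by
    by_contra hne
    obtain ⟨φ, hφ0, hφ⟩ := Submodule.exists_le_ker_of_lt_top R' (lt_top_iff_ne_top.mpr hne)
    -- `φ = Σ cᵢ projᵢ`
    have hrel : ∑ i, φ (Pi.single i 1) • f i = 0 := by
      funext σ
      have h1 : φ (fun i => f i σ) = 0 := hφ ((hR' _).2 ⟨σ, rfl⟩)
      have h2 : (fun i => f i σ) = ∑ i, f i σ • (Pi.single i 1 : Fin r → ZMod p) := by
        funext j
        simp [Finset.sum_apply, Pi.single_apply]
      rw [h2, map_sum] at h1
      simp only [map_smul, smul_eq_mul] at h1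
      simp only [Finset.sum_apply, Pi.smul_apply, smul_eq_mul, Pi.zero_apply]
      rw [← h1]
      exact Finset.sum_congr rfl fun i _ => mul_comm _ _
    have hc := Fintype.linearIndependent_iff.mp hli _ hrel
    apply hφ0
    apply LinearMap.ext
    intro x
    have h2 : x = ∑ i, x i • (Pi.single i 1 : Fin r → ZMod p) := by
      funext j
      simp [Finset.sum_apply, Pi.single_apply]
    rw [h2, map_sum]
    simp only [map_smul, hc, smul_zero, Finset.sum_const_zero, LinearMap.zero_apply]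
  intro y
  have : Multiplicative.toAdd y ∈ R' := by rw [htop]; trivial
  obtain ⟨σ, hσ⟩ := (hR' _).1 this
  exact ⟨σ, congrArg Multiplicative.ofAdd hσ⟩

theorem index_ker_jointHom (f : Fin r → U → ZMod p)
    (hadd : ∀ i σ τ, f i (σ * τ) = f i σ + f i τ)
    (hli : LinearIndependent (ZMod p) f) : (jointHom f hadd).ker.index = p ^ r := by
  rw [Subgroup.index_ker, MonoidHom.range_eq_top.mpr (jointHom_surjective f hadd hli)]
  rw [Nat.card_congr (Subgroup.topEquiv (G := Multiplicative (Fin r → ZMod p))).toEquiv]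
  rw [Nat.card_congr (Multiplicative.toAdd : Multiplicative (Fin r → ZMod p) ≃ (Fin r → ZMod p))]
  rw [Nat.card_eq_fintype_card, Fintype.card_fun, ZMod.card, Fintype.card_fin]

end GroupPart

section FieldPart

open IntermediateField NumberField

local notation "Qbar" => AlgebraicClosure ℚ
local notation "Γ" => (AlgebraicClosure ℚ ≃ₐ[ℚ] AlgebraicClosure ℚ)

variable {K₀ L₀ : IntermediateField ℚ Qbar} (hKL : K₀ ≤ L₀)

/-- `L₀` as an intermediate field of `ℚ̄/K₀`. -/
noncomputable abbrev relField : IntermediateField K₀ Qbar := extendScalars hKL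

theorem mem_relField {x : Qbar} : x ∈ relField hKL ↔ x ∈ L₀ := Iff.rfl

/-- If `Gal(ℚ̄/L₀)` is normal in `Gal(ℚ̄/K₀)` then `L₀/K₀` is normal. -/
theorem normal_relField
    (hnorm : ∀ τ ∈ K₀.fixingSubgroup, ∀ σ ∈ L₀.fixingSubgroup, τ⁻¹ * σ * τ ∈ L₀.fixingSubgroup) :
    Normal K₀ (relField hKL) := by
  rw [IntermediateField.normal_iff_forall_map_le']
  rintro σ _ ⟨x, hx, rfl⟩
  have hx' : x ∈ L₀ := hx
  change σ x ∈ L₀
  rw [← InfiniteGalois.fixedField_fixingSubgroup L₀, IntermediateField.mem_fixedField_iff]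
  intro ρ hρ
  have hσ : σ.restrictScalars ℚ ∈ K₀.fixingSubgroup := by
    rw [IntermediateField.mem_fixingSubgroup_iff]
    intro y hy
    exact σ.commutes ⟨y, hy⟩
  have h1 := hnorm _ hσ ρ hρ
  rw [IntermediateField.mem_fixingSubgroup_iff] at h1
  have h2 := h1 x hx'
  change (σ.restrictScalars ℚ)⁻¹ (ρ (σ x)) = x at h2
  have h3 := congrArg (σ.restrictScalars ℚ) h2
  rw [show (σ.restrictScalars ℚ) ((σ.restrictScalars ℚ)⁻¹ (ρ (σ x))) = ρ (σ x) from
    (σ.restrictScalars ℚ).apply_symm_apply _] at h3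
  exact h3


/-- restriction `Gal(ℚ̄/K₀) → Gal(L₀/K₀)`. -/
noncomputable def resHom [Normal K₀ (relField hKL)] :
    K₀.fixingSubgroup →* ((relField hKL) ≃ₐ[K₀] (relField hKL)) :=
  (AlgEquiv.restrictNormalHom (F := K₀) (K₁ := Qbar) (relField hKL)).comp
    (IntermediateField.fixingSubgroupEquiv K₀).toMonoidHom

theorem resHom_apply [Normal K₀ (relField hKL)] (σ : K₀.fixingSubgroup) (y : relField hKL) :
    ((resHom hKL σ y : relField hKL) : Qbar) = (σ : Γ) (y : Qbar) := by
  have := AlgEquiv.restrictNormal_commutes (IntermediateField.fixingSubgroupEquiv K₀ σ)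
    (relField hKL) y
  exact this

theorem resHom_surjective [Normal K₀ (relField hKL)] : Function.Surjective (resHom hKL) := by
  intro t
  obtain ⟨τ, hτ⟩ := AlgEquiv.restrictNormalHom_surjective (F := K₀) (K₁ := relField hKL) Qbar t
  exact ⟨(IntermediateField.fixingSubgroupEquiv K₀).symm τ, by
    change AlgEquiv.restrictNormalHom (relField hKL)
      ((IntermediateField.fixingSubgroupEquiv K₀) ((IntermediateField.fixingSubgroupEquiv K₀).symm τ)) = t
    rw [MulEquiv.apply_symm_apply, hτ]⟩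

theorem resHom_eq_one_iff [Normal K₀ (relField hKL)] (σ : K₀.fixingSubgroup) :
    resHom hKL σ = 1 ↔ (σ : Γ) ∈ L₀.fixingSubgroup := by
  rw [IntermediateField.mem_fixingSubgroup_iff]
  constructor
  · intro h x hx
    have := resHom_apply hKL σ ⟨x, hx⟩
    rw [h] at this
    exact this.symm
  · intro h
    ext y
    rw [resHom_apply]
    exact h _ y.2

theorem finiteDimensional_relField [FiniteDimensional ℚ L₀] :
    FiniteDimensional ℚ (relField hKL) := by
  let e : L₀ →ₗ[ℚ] relField hKL :=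
    { toFun := fun x => ⟨x.1, x.2⟩
      map_add' := fun _ _ => rfl
      map_smul' := fun c x => by
        apply Subtype.ext
        simp [Algebra.smul_def] }
  exact FiniteDimensional.of_surjective e (fun y => ⟨⟨y.1, y.2⟩, rfl⟩)

theorem numberField_relField [FiniteDimensional ℚ L₀] : NumberField (relField hKL) :=
  { to_charZero := inferInstance, to_finiteDimensional := finiteDimensional_relField hKL }

theorem imageField_relField :
    Bridge.Unram.imageField (algebraMap (relField hKL) Qbar) = L₀ := by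
  ext x
  rw [Bridge.Unram.mem_imageField]
  constructor
  · rintro ⟨y, rfl⟩
    exact y.2
  · intro hx
    exact ⟨⟨x, hx⟩, rfl⟩

end FieldPart

section KernelField

open IntermediateField NumberField

local notation "Qbar" => AlgebraicClosure ℚ
local notation "Γ" => (AlgebraicClosure ℚ ≃ₐ[ℚ] AlgebraicClosure ℚ)

variable {p : ℕ} [Fact p.Prime] {r : ℕ} (K₀ : IntermediateField ℚ Qbar)
  (f : Fin r → K₀.fixingSubgroup → ZMod p) (hadd : ∀ i σ τ, f i (σ * τ) = f i σ + f i τ)

/-- the common kernel of the characters, as a subgroup of `Gal(ℚ̄/ℚ)`. -/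
noncomputable def kerGroup : Subgroup Γ := (jointHom f hadd).ker.map K₀.fixingSubgroup.subtype

theorem mem_kerGroup {σ : Γ} :
    σ ∈ kerGroup K₀ f hadd ↔ ∃ h : σ ∈ K₀.fixingSubgroup, ∀ i, f i ⟨σ, h⟩ = 0 := by
  unfold kerGroup
  rw [Subgroup.mem_map]
  constructor
  · rintro ⟨τ, hτ, rfl⟩
    exact ⟨τ.2, (mem_ker_jointHom f hadd τ).1 hτ⟩
  · rintro ⟨h, hσ⟩
    exact ⟨⟨σ, h⟩, (mem_ker_jointHom f hadd _).2 hσ, rfl⟩

theorem kerGroup_le : kerGroup K₀ f hadd ≤ K₀.fixingSubgroup := fun _ hσ =>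
  ((mem_kerGroup K₀ f hadd).1 hσ).1

/-- the field cut out by the characters. -/
noncomputable def kerField : IntermediateField ℚ Qbar :=
  IntermediateField.fixedField (kerGroup K₀ f hadd)

theorem le_kerField : K₀ ≤ kerField K₀ f hadd := by
  intro x hx
  unfold kerField
  rw [IntermediateField.mem_fixedField_iff]
  intro σ hσ
  exact (IntermediateField.mem_fixingSubgroup_iff _ _).1 (kerGroup_le K₀ f hadd hσ) x hx

variable {K₀ f hadd}

theorem level_le {F : IntermediateField ℚ Qbar}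
    (hF : ∀ σ : K₀.fixingSubgroup, (σ : Γ) ∈ F.fixingSubgroup → ∀ i, f i σ = 0) :
    (F ⊔ K₀).fixingSubgroup ≤ kerGroup K₀ f hadd := by
  intro σ hσ
  rw [IntermediateField.fixingSubgroup_sup] at hσ
  exact (mem_kerGroup K₀ f hadd).2 ⟨hσ.2, hF ⟨σ, hσ.2⟩ hσ.1⟩

theorem fixingSubgroup_kerField {F : IntermediateField ℚ Qbar} [FiniteDimensional ℚ F]
    [FiniteDimensional ℚ K₀]
    (hF : ∀ σ : K₀.fixingSubgroup, (σ : Γ) ∈ F.fixingSubgroup → ∀ i, f i σ = 0) :
    (kerField K₀ f hadd).fixingSubgroup = kerGroup K₀ f hadd ∧ kerField K₀ f hadd ≤ F ⊔ K₀ :=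
  GaloisLevel.fixingSubgroup_fixedField_of_le (F := F ⊔ K₀) _ (level_le hF)

end KernelField

section Decomp

open Fermat.Agent.Lib Fermat.Agent.Lib.InertiaBridge Fermat.Agent.S55.Bridge.Unram

local notation "Qbar" => AlgebraicClosure ℚ
local notation "Γ" => (AlgebraicClosure ℚ ≃ₐ[ℚ] AlgebraicClosure ℚ)

variable {K F : Type*} [Field K] [Field F] [NumberField K] [NumberField F] [Algebra K F]
  [IsGalois K F]

/-- **Relative decomposition lifting**: an element of `Gal(F/K)` stabilising a prime `P` of `F` over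
the rational prime `q` is the restriction of an element of a decomposition group `D_A ⊆ Gal(ℚ̄/ℚ)`,
`A` over `q`, which fixes `ι K`. -/
theorem exists_mem_decomposition_of_smul_eq (ι : F →+* Qbar) {q : ℕ} (hq : q.Prime)
    (P : Ideal (𝓞 F)) [hP : P.IsPrime] (hqP : (q : 𝓞 F) ∈ P) (t : F ≃ₐ[K] F) (ht : t • P = P) :
    ∃ (A : ValuationSubring Qbar) (τ : Γ), A.LiesOverPrime q ∧ τ ∈ A.decompositionSubgroup ℚ ∧
      (∀ k : K, τ (ι (algebraMap K F k)) = ι (algebraMap K F k)) ∧ ∀ y : F, τ (ι y) = ι (t y) := by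
  have h0 : P ≠ ⊥ := by
    rintro rfl
    rw [Ideal.mem_bot] at hqP
    have : ((q : ℕ) : 𝓞 F) ≠ 0 := Nat.cast_ne_zero.2 hq.ne_zero
    exact this hqP
  obtain ⟨A, hA⟩ := exists_primeBelow_eq ι P h0
  have hAq : A.LiesOverPrime (q : ℕ) := by
    have h1 : ((q : ℕ) : 𝓞 F) ∈ primeBelow ι A := hA ▸ hqP
    rw [mem_primeBelow] at h1
    unfold ValuationSubring.LiesOverPrime
    simpa using h1
  obtain ⟨τ₀, hτ₀⟩ := exists_gal_of_algEquiv ι t
  have hint : ∀ x ∈ imageField ι, IsIntegral ℤ x → ∃ y : 𝓞 F, ι (y : F) = x := by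
    rintro _ ⟨y, rfl⟩ hy
    have hy' : IsIntegral ℤ y :=
      (isIntegral_algHom_iff (ι.toIntAlgHom : F →ₐ[ℤ] Qbar) ι.injective).1 hy
    exact ⟨⟨y, hy'⟩, rfl⟩
  have hmem : ∀ y : 𝓞 F, ι (y : F) ∈ A.nonunits ↔ y ∈ P := fun y => by
    rw [← mem_primeBelow, hA]
  have hcoe : ∀ (s : F ≃ₐ[K] F) (y : 𝓞 F), ((s • y : 𝓞 F) : F) = s (y : F) := fun _ _ => rfl
  have hτ₀inv : ∀ y : F, τ₀⁻¹ (ι y) = ι (t⁻¹ y) := by
    intro y
    have := hτ₀ (t⁻¹ y)
    rw [show t (t⁻¹ y) = y from t.apply_symm_apply y] at this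
    rw [← this]
    exact τ₀.symm_apply_apply _
  obtain ⟨τ₁, hτ₁, hD⟩ := Restrict.exists_mul_mem_decomp_of_field (imageField ι) A τ₀ (by
    intro x hx hxint
    obtain ⟨y, rfl⟩ := hint x hx hxint
    rw [hτ₀inv, ← hcoe, hmem, hmem]
    -- `t⁻¹ • y ∈ P ↔ y ∈ P` since `t • P = P`
    have h1 : t⁻¹ • y ∈ P ↔ y ∈ t • P := by
      rw [Ideal.mem_pointwise_smul_iff_inv_smul_mem]
    rw [h1, ht])
  have hτ₁' := mem_fixingSubgroup_imageField.1 hτ₁
  refine ⟨A, τ₁ * τ₀, hAq, hD, fun k => ?_, fun y => ?_⟩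
  · change τ₁ (τ₀ (ι (algebraMap K F k))) = _
    rw [hτ₀, hτ₁', t.commutes]
  · change τ₁ (τ₀ (ι y)) = _
    rw [hτ₀, hτ₁']

/-- If every element of a decomposition group over `q` fixing `ι K` fixes `ι F`, then the
decomposition groups of `F/K` at the primes over `q` are trivial. -/
theorem eq_one_of_smul_eq (ι : F →+* Qbar) {q : ℕ} (hq : q.Prime)
    (H : ∀ A : ValuationSubring Qbar, A.LiesOverPrime q → ∀ τ ∈ A.decompositionSubgroup ℚ,
      (∀ k : K, τ (ι (algebraMap K F k)) = ι (algebraMap K F k)) → ∀ y : F, τ (ι y) = ι y)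
    (P : Ideal (𝓞 F)) [hP : P.IsPrime] (hqP : (q : 𝓞 F) ∈ P) (t : F ≃ₐ[K] F) (ht : t • P = P) :
    t = 1 := by
  obtain ⟨A, τ, hA, hτ, hτK, hτt⟩ := exists_mem_decomposition_of_smul_eq ι hq P hqP t ht
  ext y
  apply ι.injective
  rw [← hτt, H A hA τ hτ hτK]
  rfl

end Decomp

section Abstract

open Fermat.Agent.Lib Fermat.Agent.S55.Bridge.Unram Fermat.Agent.S14

local notation "Qbar" => AlgebraicClosure ℚ
local notation "Γ" => (AlgebraicClosure ℚ ≃ₐ[ℚ] AlgebraicClosure ℚ)

variable {K F : Type} [Field K] [Field F] [NumberField K] [NumberField F] [Algebra K F]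
  [IsGalois K F]

/-- the primes of `K` over the rational primes in `S`. -/
def primesOver (K : Type) [Field K] [NumberField K] (S : Finset Nat.Primes) :
    Set ((Ideal (𝓞 K))⁰) :=
  {v | (v : Ideal (𝓞 K)).IsPrime ∧ ∃ q ∈ S, (((q : ℕ) : 𝓞 K)) ∈ (v : Ideal (𝓞 K))}

variable (ι : F →+* Qbar) {S : Finset Nat.Primes}
  (hunr : (imageField ι).IsUnramifiedOutside S)
  (hdec : ∀ q ∈ S, ∀ A : ValuationSubring Qbar, A.LiesOverPrime ((q : Nat.Primes) : ℕ) →
    ∀ τ ∈ A.decompositionSubgroup ℚ,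
      (∀ k : K, τ (ι (algebraMap K F k)) = ι (algebraMap K F k)) → ∀ y : F, τ (ι y) = ι y)

include hunr hdec

/-- unramified outside `S` and split at `S` implies unramified everywhere. -/
theorem unram_of_split : Unram K F := by
  intro P hP hP0 σ hσ
  obtain ⟨ℓ, hℓ, hℓP⟩ := BridgeGlue.exists_prime_mem F P hP hP0
  have hℓP' : ((ℓ : ℕ) : 𝓞 F) ∈ P := by simpa using hℓP
  by_cases hS : (⟨ℓ, hℓ⟩ : Nat.Primes) ∈ S
  · -- split
    haveI := hP
    refine eq_one_of_smul_eq ι hℓ (hdec ⟨ℓ, hℓ⟩ hS) P hℓP' σ ?_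
    exact (Ideal.inertia_le_stabilizer P hσ)
  · have h := inertia_eq_bot_of_isUnramifiedOutside (K := K) ι hunr ⟨ℓ, hℓ⟩ hS P hℓP'
    rw [h, Subgroup.mem_bot] at hσ
    exact hσ

/-- the primes over `S` have trivial Artin symbol. -/
theorem art_eq_one_of_split (art : (Ideal (𝓞 K))⁰ →* (F ≃ₐ[K] F)) (hart : IsArtinMap K F art)
    (v : (Ideal (𝓞 K))⁰) (hv : v ∈ primesOver K S) : art v = 1 := by
  obtain ⟨hvp, q, hqS, hqv⟩ := hv
  haveI := hvp
  obtain ⟨P, hP, hPv⟩ := ArtinMap.exists_prime_over (K := K) F (v : Ideal (𝓞 K))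
  haveI := hP
  have hfrob := hart.frob v P hvp hP hPv
  have hstab := hfrob.mem_stabilizer
  have hqP : (((q : ℕ) : 𝓞 F)) ∈ P := by
    have h1 : algebraMap (𝓞 K) (𝓞 F) ((q : ℕ) : 𝓞 K) ∈ P := by
      have := hPv.over
      rw [this] at hqv
      exact hqv
    simpa using h1
  exact eq_one_of_smul_eq ι q.2 (hdec q hqS) P hqP (art v) (MulAction.mem_stabilizer_iff.1 hstab)

/-- **`Ш¹ ≤ c`, abstract number-field form.** -/
theorem card_le_index_of_split {p : ℕ} (hp : p.Prime) (h3 : 3 ≤ p)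
    (hζp : ∃ ζ : K, IsPrimitiveRoot ζ p) [IsMulCommutative (F ≃ₐ[K] F)]
    (hexp : ∀ σ : F ≃ₐ[K] F, σ ^ p = 1) :
    Nat.card (F ≃ₐ[K] F) ≤
      (Subgroup.closure ((ClassGroup.mk0 '' primesOver K S) ∪
        Set.range (fun c : ClassGroup (𝓞 K) => c ^ p))).index := by
  haveI : IsAbelianGalois K F := { }
  exact Global.UnramAbelian.card_le_of_split hp h3 hζp hexp (unram_of_split ι hunr hdec)
    (ArtinMap.art K F) BlockDFinal.isArtinMap_art (primesOver K S)
    (fun v hv => art_eq_one_of_split ι hunr hdec _ BlockDFinal.isArtinMap_art v hv)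

end Abstract

section Concrete

open IntermediateField NumberField Fermat.Agent.S14

local notation "Qbar" => AlgebraicClosure ℚ
local notation "Γ" => (AlgebraicClosure ℚ ≃ₐ[ℚ] AlgebraicClosure ℚ)

variable {p : ℕ} [Fact p.Prime] {r : ℕ} {S : Finset Nat.Primes} {K₀ : IntermediateField ℚ Qbar}
  {f : Fin r → K₀.fixingSubgroup → ZMod p}

/-- `Gal(L₀/K₀) ≃ (ℤ/p)^r` for the kernel field of an independent family. -/
noncomputable def galEquiv (hadd : ∀ i σ τ, f i (σ * τ) = f i σ + f i τ)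
    (hli : LinearIndependent (ZMod p) f)
    [Normal K₀ (relField (le_kerField K₀ f hadd))]
    (hfix : (kerField K₀ f hadd).fixingSubgroup = kerGroup K₀ f hadd) :
    ((relField (le_kerField K₀ f hadd)) ≃ₐ[K₀] (relField (le_kerField K₀ f hadd))) ≃*
      Multiplicative (Fin r → ZMod p) :=
  (QuotientGroup.quotientKerEquivOfSurjective _
    (resHom_surjective (le_kerField K₀ f hadd))).symm.trans
  ((QuotientGroup.quotientMulEquivOfEq (by
    ext σ
    rw [MonoidHom.mem_ker, resHom_eq_one_iff, hfix, mem_kerGroup, mem_ker_jointHom]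
    constructor
    · rintro ⟨_, h⟩
      exact h
    · intro h
      exact ⟨σ.2, h⟩)).trans
  (QuotientGroup.quotientKerEquivOfSurjective _ (jointHom_surjective f hadd hli)))

/-- **`Ш¹ ≤ c` for independent families.**  -/
theorem pow_le_index (h3 : 3 ≤ p) (hK : K₀.IsUnramifiedOutside S) [NumberField K₀]
    (hζ : ∃ ζ : K₀, IsPrimitiveRoot ζ p) (hadd : ∀ i σ τ, f i (σ * τ) = f i σ + f i τ)
    (hli : LinearIndependent (ZMod p) f)
    {F : IntermediateField ℚ Qbar} (hFS : F.IsUnramifiedOutside S)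
    (hF : ∀ σ : K₀.fixingSubgroup, (σ : Γ) ∈ F.fixingSubgroup → ∀ i, f i σ = 0)
    (hloc : ∀ q ∈ S, ∀ A : ValuationSubring Qbar, A.LiesOverPrime ((q : Nat.Primes) : ℕ) →
      ∀ σ : K₀.fixingSubgroup, (σ : Γ) ∈ A.decompositionSubgroup ℚ → ∀ i, f i σ = 0) :
    p ^ r ≤ (Subgroup.closure ((ClassGroup.mk0 '' primesOver K₀ S) ∪
        Set.range (fun c : ClassGroup (𝓞 K₀) => c ^ p))).index := by
  have hp : p.Prime := Fact.out
  haveI := hK.1
  haveI := hFS.1
  obtain ⟨hfix, hle⟩ := fixingSubgroup_kerField (hadd := hadd) hF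
  have hKL : K₀ ≤ kerField K₀ f hadd := le_kerField K₀ f hadd
  have hLS : (kerField K₀ f hadd).IsUnramifiedOutside S := (hFS.sup hK).of_le hle
  haveI : FiniteDimensional ℚ (kerField K₀ f hadd) := hLS.1
  haveI : Normal K₀ (relField hKL) := normal_relField hKL (by
    intro τ hτ σ hσ
    rw [hfix] at hσ ⊢
    obtain ⟨hσU, hσ0⟩ := (mem_kerGroup K₀ f hadd).1 hσ
    have hmem : τ⁻¹ * σ * τ ∈ K₀.fixingSubgroup :=
      Subgroup.mul_mem _ (Subgroup.mul_mem _ (Subgroup.inv_mem _ hτ) hσU) hτ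
    refine (mem_kerGroup K₀ f hadd).2 ⟨hmem, fun i => ?_⟩
    have h1 : (⟨τ⁻¹ * σ * τ, hmem⟩ : K₀.fixingSubgroup) =
        (⟨τ, hτ⟩ : K₀.fixingSubgroup)⁻¹ * ⟨σ, hσU⟩ * ⟨τ, hτ⟩ := rfl
    have h2 : f i (⟨τ, hτ⟩ : K₀.fixingSubgroup)⁻¹ = - f i ⟨τ, hτ⟩ := by
      have h3 := hadd i (⟨τ, hτ⟩ : K₀.fixingSubgroup)⁻¹ ⟨τ, hτ⟩
      have h4 : f i (1 : K₀.fixingSubgroup) = 0 := by
        have := hadd i 1 1
        rw [mul_one] at this
        linear_combination (-1 : ZMod p) * this
      rw [inv_mul_cancel, h4] at h3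
      linear_combination -h3
    rw [h1, hadd, hadd, h2, hσ0 i]
    ring)
  haveI : NumberField (relField hKL) := numberField_relField hKL
  haveI : IsGalois K₀ (relField hKL) := ⟨⟩
  let e := galEquiv hadd hli hfix
  haveI : IsMulCommutative ((relField hKL) ≃ₐ[K₀] (relField hKL)) := ⟨⟨fun a b => by
    apply e.injective
    rw [map_mul, map_mul, mul_comm]⟩⟩
  have hexp : ∀ σ : (relField hKL) ≃ₐ[K₀] (relField hKL), σ ^ p = 1 := by
    intro σ
    apply e.injective
    rw [map_pow, map_one]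
    have : ∀ x : Multiplicative (Fin r → ZMod p), x ^ p = 1 := by
      intro x
      change Multiplicative.ofAdd (p • Multiplicative.toAdd x) = 1
      have : p • Multiplicative.toAdd x = 0 := by
        funext i
        simp
      rw [this]
      rfl
    exact this _
  have hcard : Nat.card ((relField hKL) ≃ₐ[K₀] (relField hKL)) = p ^ r := by
    rw [Nat.card_congr e.toEquiv,
      Nat.card_congr (Multiplicative.toAdd : Multiplicative (Fin r → ZMod p) ≃ (Fin r → ZMod p)),
      Nat.card_eq_fintype_card, Fintype.card_fun, ZMod.card, Fintype.card_fin]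
  rw [← hcard]
  refine card_le_index_of_split (algebraMap (relField hKL) Qbar)
    (by rw [imageField_relField]; exact hLS) ?_ hp h3 hζ hexp
  intro q hq A hA τ hτ hτK y
  have hτU : τ ∈ K₀.fixingSubgroup := by
    rw [IntermediateField.mem_fixingSubgroup_iff]
    intro x hx
    exact hτK ⟨x, hx⟩
  have h0 := hloc q hq A hA ⟨τ, hτU⟩ hτ
  have hτN : τ ∈ (kerField K₀ f hadd).fixingSubgroup := by
    rw [hfix]
    exact (mem_kerGroup K₀ f hadd).2 ⟨hτU, h0⟩
  exact (IntermediateField.mem_fixingSubgroup_iff _ _).1 hτN _ y.2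

/-- finitely many levels have a common level. -/
theorem exists_common_level {ι : Type*} [Finite ι] (Fi : ι → IntermediateField ℚ Qbar)
    (h : ∀ i, (Fi i).IsUnramifiedOutside S) :
    ∃ F : IntermediateField ℚ Qbar, F.IsUnramifiedOutside S ∧ ∀ i, Fi i ≤ F := by
  haveI : ∀ i, FiniteDimensional ℚ (Fi i) := fun i => (h i).1
  refine ⟨⨆ i, Fi i, ⟨IntermediateField.finiteDimensional_iSup_of_finite, ?_⟩, le_iSup Fi⟩
  intro q hq A hA
  rw [← IntermediateField.le_iff_le, iSup_le_iff]
  intro i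
  rw [IntermediateField.le_iff_le]
  exact (h i).2 q hq A hA

/-- the bound for an arbitrary finite independent family inside a space of locally trivial
characters of level `S`. -/
theorem pow_le_index_of_mem (h3 : 3 ≤ p) (hK : K₀.IsUnramifiedOutside S) [NumberField K₀]
    (hζ : ∃ ζ : K₀, IsPrimitiveRoot ζ p)
    (W : Submodule (ZMod p) (K₀.fixingSubgroup → ZMod p))
    (hadd : ∀ g ∈ W, ∀ σ τ, g (σ * τ) = g σ + g τ)
    (hlev : ∀ g ∈ W, ∃ F : IntermediateField ℚ Qbar, F.IsUnramifiedOutside S ∧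
      ∀ σ : K₀.fixingSubgroup, (σ : Γ) ∈ F.fixingSubgroup → g σ = 0)
    (hloc : ∀ g ∈ W, ∀ q ∈ S, ∀ A : ValuationSubring Qbar,
      A.LiesOverPrime ((q : Nat.Primes) : ℕ) →
      ∀ σ : K₀.fixingSubgroup, (σ : Γ) ∈ A.decompositionSubgroup ℚ → g σ = 0)
    (f : Fin r → W) (hli : LinearIndependent (ZMod p) f) :
    p ^ r ≤ (Subgroup.closure ((ClassGroup.mk0 '' primesOver K₀ S) ∪
        Set.range (fun c : ClassGroup (𝓞 K₀) => c ^ p))).index := by
  choose Fi hFi using fun i : Fin r => hlev (f i).1 (f i).2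
  obtain ⟨F, hFS, hFle⟩ := exists_common_level Fi (fun i => (hFi i).1)
  refine pow_le_index (f := fun i => (f i).1) h3 hK hζ (fun i => hadd _ (f i).2)
    (hli.map' W.subtype (Submodule.ker_subtype W)) hFS ?_ ?_
  · intro σ hσ i
    exact (hFi i).2 σ (IntermediateField.fixingSubgroup_antitone (hFle i) hσ)
  · intro q hq A hA σ hσ i
    exact hloc _ (f i).2 q hq A hA σ hσ

/-- **`Ш¹(U; 𝔽_p) ≤ c`**: a space of additive characters of `U = Gal(ℚ̄/K₀)` of level `S` which are
trivial on all decomposition groups over `S` is finite-dimensional, of dimension `≤ c` where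
`p ^ c = [Cl(K₀) : ⟨primes over S, p-th powers⟩]`. -/
theorem finrank_le (h3 : 3 ≤ p) (hK : K₀.IsUnramifiedOutside S) [NumberField K₀]
    (hζ : ∃ ζ : K₀, IsPrimitiveRoot ζ p)
    (W : Submodule (ZMod p) (K₀.fixingSubgroup → ZMod p))
    (hadd : ∀ g ∈ W, ∀ σ τ, g (σ * τ) = g σ + g τ)
    (hlev : ∀ g ∈ W, ∃ F : IntermediateField ℚ Qbar, F.IsUnramifiedOutside S ∧
      ∀ σ : K₀.fixingSubgroup, (σ : Γ) ∈ F.fixingSubgroup → g σ = 0)
    (hloc : ∀ g ∈ W, ∀ q ∈ S, ∀ A : ValuationSubring Qbar,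
      A.LiesOverPrime ((q : Nat.Primes) : ℕ) →
      ∀ σ : K₀.fixingSubgroup, (σ : Γ) ∈ A.decompositionSubgroup ℚ → g σ = 0) :
    FiniteDimensional (ZMod p) W ∧
      p ^ Module.finrank (ZMod p) W ≤
        (Subgroup.closure ((ClassGroup.mk0 '' primesOver K₀ S) ∪
          Set.range (fun c : ClassGroup (𝓞 K₀) => c ^ p))).index := by
  have hp : p.Prime := Fact.out
  set c := (Subgroup.closure ((ClassGroup.mk0 '' primesOver K₀ S) ∪
          Set.range (fun c : ClassGroup (𝓞 K₀) => c ^ p))).index with hc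
  have hfin : FiniteDimensional (ZMod p) W := by
    refine Module.rank_lt_aleph0_iff.mp ?_
    refine lt_of_le_of_lt (rank_le (n := c) fun s hs => ?_) (Cardinal.natCast_lt_aleph0)
    have e : Fin s.card ≃ s := s.equivFin.symm
    have h1 := pow_le_index_of_mem h3 hK hζ W hadd hlev hloc (fun j => ((e j : s) : W))
      (hs.comp e e.injective)
    exact (Nat.lt_pow_self hp.one_lt).le.trans h1
  refine ⟨hfin, ?_⟩
  have b := Module.finBasis (ZMod p) W
  exact pow_le_index_of_mem h3 hK hζ W hadd hlev hloc b b.linearIndependent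

end Concrete

end Fermat.Agent.S55.Middle.Sha1Bridge
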