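/-
S55 / Middle, row M.sha1 (bridge part 2; helper89): the kernel field of an independent family of
locally trivial characters of level `S`, exported as an EXISTENTIAL over abstract number fields, and
the resulting dimension bound against an ARBITRARY bound `B` for such extensions (to be combined
with `Middle/Sha1Core` (helper53): `Nat.card Gal(F/K) ≤ #Cl_S(K)[p]`).

* `exists_kernelField` : independent additive characters `f₁ … f_r : U = Gal(ℚ̄/K₀) → ℤ/p` of level
  `S`, trivial on all `U ∩ D_A` (`A` over `q ∈ S`)  ⟹  a number field `F/K₀`, Galois, abelian of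
  exponent `p`, `#Gal = p ^ r`, `S14.Unram K₀ F`, all decomposition groups at primes over `S` trivial;
* `finrank_le_of_bound` : if `B` bounds `#Gal(F/K₀)` for all such `F`, every space of such characters
  has `p ^ dim ≤ B` (and is finite-dimensional).
-/
import Fermat.Agent.S55.Middle.Sha1Bridge

set_option autoImplicit false
set_option linter.unusedSectionVars false
set_option linter.style.haveILetI false

open scoped Pointwise NumberField nonZeroDivisors

namespace Fermat.Agent.S55.Middle.Sha1Field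

open Fermat.Agent.S55.Middle.Sha1Bridge IntermediateField NumberField Fermat.Agent.S14

local notation "Qbar" => AlgebraicClosure ℚ
local notation "Γ" => (AlgebraicClosure ℚ ≃ₐ[ℚ] AlgebraicClosure ℚ)

local instance instIsGaloisQbar : IsGalois ℚ (AlgebraicClosure ℚ) :=
  Fermat.Agent.Lib.UnramifiedTrivial.isGalois_algebraicClosure_rat

variable {p : ℕ} [Fact p.Prime] {r : ℕ} {S : Finset Nat.Primes} {K₀ : IntermediateField ℚ Qbar}

/-- The class of extensions `F/K₀` produced by locally trivial characters of level `S`: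
abelian of exponent `p`, unramified everywhere, with trivial decomposition groups at all primes
over `S`. -/
structure IsSplitUnram (p : ℕ) (S : Finset Nat.Primes) (K F : Type) [Field K] [NumberField K]
    [Field F] [NumberField F] [Algebra K F] : Prop where
  exp : ∀ σ : F ≃ₐ[K] F, σ ^ p = 1
  unram : Unram K F
  split : ∀ P : Ideal (𝓞 F), P.IsPrime → ∀ q ∈ S, (((q : Nat.Primes) : ℕ) : 𝓞 F) ∈ P →
    ∀ s : F ≃ₐ[K] F, s • P = P → s = 1

/-- **The kernel field**, as an abstract number field over `K₀`. -/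
theorem exists_kernelField (hK : K₀.IsUnramifiedOutside S) [NumberField K₀]
    {f : Fin r → K₀.fixingSubgroup → ZMod p} (hadd : ∀ i σ τ, f i (σ * τ) = f i σ + f i τ)
    (hli : LinearIndependent (ZMod p) f)
    {F : IntermediateField ℚ Qbar} (hFS : F.IsUnramifiedOutside S)
    (hF : ∀ σ : K₀.fixingSubgroup, (σ : Γ) ∈ F.fixingSubgroup → ∀ i, f i σ = 0)
    (hloc : ∀ q ∈ S, ∀ A : ValuationSubring Qbar, A.LiesOverPrime ((q : Nat.Primes) : ℕ) →
      ∀ σ : K₀.fixingSubgroup, (σ : Γ) ∈ A.decompositionSubgroup ℚ → ∀ i, f i σ = 0) :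
    ∃ (E : Type) (_ : Field E) (_ : NumberField E) (_ : Algebra K₀ E) (_ : IsGalois K₀ E)
      (_ : IsMulCommutative (E ≃ₐ[K₀] E)),
      IsSplitUnram p S K₀ E ∧ Nat.card (E ≃ₐ[K₀] E) = p ^ r := by
  have hp : p.Prime := Fact.out
  haveI := hK.1
  haveI := hFS.1
  obtain ⟨hfix, hle⟩ := fixingSubgroup_kerField (hadd := hadd) hF
  have hKL : K₀ ≤ kerField K₀ f hadd := le_kerField K₀ f hadd
  have hLS : (kerField K₀ f hadd).IsUnramifiedOutside S := (hFS.sup hK).of_le hle
  haveI : FiniteDimensional ℚ (kerField K₀ f hadd) := hLS.1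
  haveI : Normal K₀ (relField hKL) := normal_relField hKL (by
    intro τ hτ σ hσ
    rw [hfix] at hσ ⊢
    obtain ⟨hσU, hσ0⟩ := (mem_kerGroup K₀ f hadd).1 hσ
    have hmem : τ⁻¹ * σ * τ ∈ K₀.fixingSubgroup :=
      Subgroup.mul_mem _ (Subgroup.mul_mem _ (Subgroup.inv_mem _ hτ) hσU) hτ
    refine (mem_kerGroup K₀ f hadd).2 ⟨hmem, fun i => ?_⟩
    have h1 : (⟨τ⁻¹ * σ * τ, hmem⟩ : K₀.fixingSubgroup) =
        (⟨τ, hτ⟩ : K₀.fixingSubgroup)⁻¹ * ⟨σ, hσU⟩ * ⟨τ, hτ⟩ := rfl
    have h2 : f i (⟨τ, hτ⟩ : K₀.fixingSubgroup)⁻¹ = - f i ⟨τ, hτ⟩ := by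
      have h3 := hadd i (⟨τ, hτ⟩ : K₀.fixingSubgroup)⁻¹ ⟨τ, hτ⟩
      have h4 : f i (1 : K₀.fixingSubgroup) = 0 := by
        have := hadd i 1 1
        rw [mul_one] at this
        linear_combination (-1 : ZMod p) * this
      rw [inv_mul_cancel, h4] at h3
      linear_combination -h3
    rw [h1, hadd, hadd, h2, hσ0 i]
    ring)
  haveI : NumberField (relField hKL) := numberField_relField hKL
  haveI : IsGalois K₀ (relField hKL) := ⟨⟩
  let e := galEquiv hadd hli hfix
  have hcomm : IsMulCommutative ((relField hKL) ≃ₐ[K₀] (relField hKL)) := ⟨⟨fun a b => by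
    apply e.injective
    rw [map_mul, map_mul, mul_comm]⟩⟩
  have hexp : ∀ σ : (relField hKL) ≃ₐ[K₀] (relField hKL), σ ^ p = 1 := by
    intro σ
    apply e.injective
    rw [map_pow, map_one]
    have : ∀ x : Multiplicative (Fin r → ZMod p), x ^ p = 1 := by
      intro x
      change Multiplicative.ofAdd (p • Multiplicative.toAdd x) = 1
      have : p • Multiplicative.toAdd x = 0 := by
        funext i
        simp
      rw [this]
      rfl
    exact this _
  have hcard : Nat.card ((relField hKL) ≃ₐ[K₀] (relField hKL)) = p ^ r := by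
    rw [Nat.card_congr e.toEquiv,
      Nat.card_congr (Multiplicative.toAdd : Multiplicative (Fin r → ZMod p) ≃ (Fin r → ZMod p)),
      Nat.card_eq_fintype_card, Fintype.card_fun, ZMod.card, Fintype.card_fin]
  have hunr : (Bridge.Unram.imageField (algebraMap (relField hKL) Qbar)).IsUnramifiedOutside S := by
    rw [imageField_relField]; exact hLS
  have hdec : ∀ q ∈ S, ∀ A : ValuationSubring Qbar, A.LiesOverPrime ((q : Nat.Primes) : ℕ) →
      ∀ τ ∈ A.decompositionSubgroup ℚ,
      (∀ k : K₀, τ (algebraMap (relField hKL) Qbar (algebraMap K₀ (relField hKL) k)) =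
        algebraMap (relField hKL) Qbar (algebraMap K₀ (relField hKL) k)) →
      ∀ y : relField hKL, τ (algebraMap (relField hKL) Qbar y) =
        algebraMap (relField hKL) Qbar y := by
    intro q hq A hA τ hτ hτK y
    have hτU : τ ∈ K₀.fixingSubgroup := by
      rw [IntermediateField.mem_fixingSubgroup_iff]
      intro x hx
      exact hτK ⟨x, hx⟩
    have h0 := hloc q hq A hA ⟨τ, hτU⟩ hτ
    have hτN : τ ∈ (kerField K₀ f hadd).fixingSubgroup := by
      rw [hfix]
      exact (mem_kerGroup K₀ f hadd).2 ⟨hτU, h0⟩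
    exact (IntermediateField.mem_fixingSubgroup_iff _ _).1 hτN _ y.2
  refine ⟨relField hKL, inferInstance, inferInstance, inferInstance, inferInstance, hcomm,
    ⟨hexp, unram_of_split (algebraMap (relField hKL) Qbar) hunr hdec, ?_⟩, hcard⟩
  intro P hP q hq hqP s hs
  haveI := hP
  exact eq_one_of_smul_eq (algebraMap (relField hKL) Qbar) q.2 (hdec q hq) P hqP s hs

/-- the bound for an arbitrary finite independent family inside a space of locally trivial
characters of level `S`, against an arbitrary bound `B`. -/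
theorem pow_le_of_bound (hK : K₀.IsUnramifiedOutside S) [NumberField K₀] (B : ℕ)
    (hB : ∀ (E : Type) [Field E] [NumberField E] [Algebra K₀ E] [IsGalois K₀ E]
      [IsMulCommutative (E ≃ₐ[K₀] E)], IsSplitUnram p S K₀ E → Nat.card (E ≃ₐ[K₀] E) ≤ B)
    (W : Submodule (ZMod p) (K₀.fixingSubgroup → ZMod p))
    (hadd : ∀ g ∈ W, ∀ σ τ, g (σ * τ) = g σ + g τ)
    (hlev : ∀ g ∈ W, ∃ F : IntermediateField ℚ Qbar, F.IsUnramifiedOutside S ∧
      ∀ σ : K₀.fixingSubgroup, (σ : Γ) ∈ F.fixingSubgroup → g σ = 0)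
    (hloc : ∀ g ∈ W, ∀ q ∈ S, ∀ A : ValuationSubring Qbar,
      A.LiesOverPrime ((q : Nat.Primes) : ℕ) →
      ∀ σ : K₀.fixingSubgroup, (σ : Γ) ∈ A.decompositionSubgroup ℚ → g σ = 0)
    (f : Fin r → W) (hli : LinearIndependent (ZMod p) f) : p ^ r ≤ B := by
  choose Fi hFi using fun i : Fin r => hlev (f i).1 (f i).2
  obtain ⟨F, hFS, hFle⟩ := exists_common_level Fi (fun i => (hFi i).1)
  obtain ⟨E, _, _, _, _, _, hE, hcard⟩ := exists_kernelField (f := fun i => (f i).1) hK
    (fun i => hadd _ (f i).2) (hli.map' W.subtype (Submodule.ker_subtype W)) hFS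
    (fun σ hσ i => (hFi i).2 σ (IntermediateField.fixingSubgroup_antitone (hFle i) hσ))
    (fun q hq A hA σ hσ i => hloc _ (f i).2 q hq A hA σ hσ)
  rw [← hcard]
  exact hB E hE

/-- **`Ш¹(U; 𝔽_p) ≤ log_p B`** for any bound `B` on the degree of the abelian exponent-`p`
extensions of `K₀` unramified everywhere and split at the primes over `S`. -/
theorem finrank_le_of_bound (hK : K₀.IsUnramifiedOutside S) [NumberField K₀] (B : ℕ)
    (hB : ∀ (E : Type) [Field E] [NumberField E] [Algebra K₀ E] [IsGalois K₀ E]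
      [IsMulCommutative (E ≃ₐ[K₀] E)], IsSplitUnram p S K₀ E → Nat.card (E ≃ₐ[K₀] E) ≤ B)
    (W : Submodule (ZMod p) (K₀.fixingSubgroup → ZMod p))
    (hadd : ∀ g ∈ W, ∀ σ τ, g (σ * τ) = g σ + g τ)
    (hlev : ∀ g ∈ W, ∃ F : IntermediateField ℚ Qbar, F.IsUnramifiedOutside S ∧
      ∀ σ : K₀.fixingSubgroup, (σ : Γ) ∈ F.fixingSubgroup → g σ = 0)
    (hloc : ∀ g ∈ W, ∀ q ∈ S, ∀ A : ValuationSubring Qbar,
      A.LiesOverPrime ((q : Nat.Primes) : ℕ) →
      ∀ σ : K₀.fixingSubgroup, (σ : Γ) ∈ A.decompositionSubgroup ℚ → g σ = 0) :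
    FiniteDimensional (ZMod p) W ∧ p ^ Module.finrank (ZMod p) W ≤ B := by
  have hp : p.Prime := Fact.out
  have hfin : FiniteDimensional (ZMod p) W := by
    refine Module.rank_lt_aleph0_iff.mp ?_
    refine lt_of_le_of_lt (rank_le (n := B) fun s hs => ?_) Cardinal.natCast_lt_aleph0
    have e : Fin s.card ≃ s := s.equivFin.symm
    have h1 := pow_le_of_bound hK B hB W hadd hlev hloc (fun j => ((e j : s) : W))
      (hs.comp e e.injective)
    exact (Nat.lt_pow_self hp.one_lt).le.trans h1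
  refine ⟨hfin, ?_⟩
  have b := Module.finBasis (ZMod p) W
  exact pow_le_of_bound hK B hB W hadd hlev hloc b b.linearIndependent

end Fermat.Agent.S55.Middle.Sha1Field
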