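/-
S55 / Middle / M.h3.stabGrowth, closing adapter (helper61): `RealOffLevel.StabGrowth p S` (helper60's
closed Prop (B) of the reduction `RealOffLevel.h3OTorsion`) from `StabGrowth.exists_level`, for
`p ∈ S` (no oddness of `p` needed).
-/
import Fermat.Agent.S55.Middle.StabGrowth
import Fermat.Agent.S55.Middle.RealOffLevel

set_option autoImplicit false

namespace Fermat.Agent.S55.Middle.StabGrowthClosed

open Fermat.Agent.S55.Middle ExtCitation

/-- **(B) growth of the local degrees off `S`** (`RealOffLevel.StabGrowth p S`), for `p ∈ S`. -/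
theorem stabGrowth (p : ℕ) [Fact p.Prime] (S : Finset Nat.Primes) (hpS : pPrime p ∈ S) :
    RealOffLevel.StabGrowth p S := by
  intro P hP F n
  obtain ⟨N, hNn, hN, hpg, -, hdvd⟩ := StabGrowth.exists_level p P hpS hP F n
  exact ⟨N, hN, ⟨hNn, hpg⟩, hdvd⟩

end Fermat.Agent.S55.Middle.StabGrowthClosed
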