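/-
S55 / Middle (helper58): SYLOW REDUCTION THROUGH THE CONNECTING MAP `δ₂` — generic.

`G` a group with basis `𝒰`, `0 → A → B → C → 0` a short exact sequence of `G`-modules with smooth
middle term (`CoefExactSmooth.SES 𝒰 φ ψ`), `P ≤ G` open.  One degree below helper60 `SylowRel`:

* `exists_inflH2_nsmul_eq_zero` : a class of `H²_LC` killed by `n` comes from a finite-level class
  killed by `n`;
* `sesSub`, `sesMor_resPH`, `δ₂_resPH` : the sequence over `(↥H, subBasis 𝒰 H)` and the naturality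
  of `δ₂` for the restriction `resPH` from `P` to `H ≤ P`;
* `exists_primary_same_image` : abstract step (primary decomposition);
* `PLevelsKilled 𝒰 h p H` : over the open subgroup `H`, `δ₂` kills the inflation of every `p`-primary
  class of `H²(H/N, C^N)` for the levels `N ∈ 𝒰`, `N ≤ H`, with `H/N` a `p`-group;
* `H3_torsion_eq_zero_of_pLevels` : if `H³_LC(P; B)` has no `p`-power torsion and `PLevelsKilled`
  holds for every open `H ≤ P`, then `H³_LC(P; A)` has no `p`-power torsion.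

Use: `A = O_S`, `B = ℚ_Sˣ`, `C = Prin`: the realisation of residues (C5) is only needed at levels
of `p`-power degree, where the finite-level class field theory (`CycloSetting`, `H2CyclicIn`) lives.
-/
import Mathlib
import Fermat.Agent.S55.Middle.SylowRel
import Fermat.Agent.S55.Middle.H3
import Fermat.Agent.S55.Middle.LCTorsion
import Fermat.Agent.S55.Formal.CoefExactSmooth

set_option autoImplicit false
set_option linter.unusedSectionVars false
set_option linter.style.haveILetI false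

open CategoryTheory groupCohomology

namespace Fermat.Agent.S55.Middle.SylowDelta

open Fermat.Agent.S55.Formal Fermat.Agent.S55.Formal.CoefExactSmooth
open Fermat.Agent.S55.Bridge.ShapiroLC
open Fermat.Agent.S55.Middle.Dict Fermat.Agent.S55.Middle.SylowRel

noncomputable section

variable {k : Type} [CommRing k] {G : Type} [Group G] (𝒰 : NBasis G)

/-- a class of `H²` killed by `n` comes from a finite-level class killed by `n` -/
theorem exists_inflH2_nsmul_eq_zero (M : Rep.{0, 0, 0} k G) (n : ℕ) (x : H2 𝒰 M) (hx : n • x = 0) :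
    ∃ (V : Subgroup G) (_ : V.Normal) (hV : 𝒰.mem V) (y : groupCohomology.H2 (Inv M V)),
      inflH2 𝒰 M hV y = x ∧ n • y = 0 := by
  obtain ⟨V, hN, hV, y, rfl⟩ := exists_inflH2 𝒰 M x
  rw [← map_nsmul] at hx
  obtain ⟨W, hNW, hW, hle, h0⟩ := (inflH2_eq_zero_iff 𝒰 M hV (n • y)).mp hx
  refine ⟨W, hNW, hW, transH2 M hle y, inflH2_transH2 𝒰 M hle hV hW y, ?_⟩
  rw [← map_nsmul]
  exact h0

/-- abstract step: if `d e` is of `p`-power order and `e` is torsion, then `d e = d ep` for the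
`p`-primary component `ep` of `e`. -/
theorem exists_primary_same_image {X Y : Type*} [AddCommGroup X] [AddCommGroup Y] (p : ℕ)
    [Fact p.Prime] (d : X →+ Y) (e : X) (he : ∃ N : ℕ, 0 < N ∧ N • e = 0) (n : ℕ)
    (hn : p ^ n • d e = 0) : ∃ (ep : X) (a : ℕ), p ^ a • ep = 0 ∧ d e = d ep := by
  obtain ⟨ep, e', rfl, ⟨a, ha⟩, ⟨m, hm, hm'⟩⟩ := H3.exists_primary_add_coprime p e he
  refine ⟨ep, a, ha, ?_⟩
  have he' : d e' = 0 := by
    refine H3.eq_zero_of_pow_smul_of_coprime_smul p _ (n + a) m hm ?_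
      (by rw [← map_nsmul, hm', map_zero])
    have h1 : p ^ (n + a) • d (ep + e') = 0 := by
      rw [pow_add, mul_comm, mul_smul, hn, smul_zero]
    have h2 : p ^ (n + a) • d ep = 0 := by
      rw [← map_nsmul, pow_add, mul_smul, ha, smul_zero, map_zero]
    rw [map_add, smul_add, h2, zero_add] at h1
    exact h1
  rw [map_add, he', add_zero]

variable {A B C : Rep.{0, 0, 0} k G} {φ : A ⟶ B} {ψ : B ⟶ C}

/-- the restriction of a short exact sequence to a subgroup with its induced basis -/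
theorem sesSub (h : SES 𝒰 φ ψ) (H : Subgroup G) :
    SES (subBasis 𝒰 H) ((Rep.resFunctor H.subtype).map φ) ((Rep.resFunctor H.subtype).map ψ) :=
  SES.res H.subtype (Sylow.isCont_subtype H 𝒰) h

/-- restriction from `P` to `H ≤ P` is a morphism of short exact sequences -/
theorem sesMor_resPH {H P : Subgroup G} (hHP : H ≤ P) :
    SESMor ((Rep.resFunctor P.subtype).map φ) ((Rep.resFunctor P.subtype).map ψ)
      ((Rep.resFunctor H.subtype).map φ) ((Rep.resFunctor H.subtype).map ψ)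
      (resPH 𝒰 A hHP) (resPH 𝒰 B hHP) (resPH 𝒰 C hHP) where
  fAB := rfl
  fBC := rfl
  sqφ _ := rfl
  sqψ _ := rfl

/-- naturality of the connecting map `δ₂` for the restriction from `P` to `H ≤ P` -/
theorem δ₂_resPH (h : SES 𝒰 φ ψ) {H P : Subgroup G} (hHP : H ≤ P)
    (e : H2 (subBasis 𝒰 P) (Rep.res P.subtype C)) :
    δ₂ (sesSub 𝒰 h H) ((resPH 𝒰 C hHP).h2 e) = (resPH 𝒰 A hHP).h3 (δ₂ (sesSub 𝒰 h P) e) :=
  LinearMap.congr_fun ((sesMor_resPH 𝒰 hHP).δ₂_natural (sesSub 𝒰 h P) (sesSub 𝒰 h H)) e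

/-- The finite-level input over the open subgroup `H`: the connecting map `δ₂` kills the inflation
of every `p`-primary class of `H²(H/N, C^N)` at a level `N ∈ 𝒰`, `N ≤ H`, with `H/N` a `p`-group.
(The normality instance of `N.subgroupOf H` is an explicit instance binder; consumers provide it
by `inferInstance` after `haveI := 𝒰.normal hN`.) -/
def PLevelsKilled (h : SES 𝒰 φ ψ) (p : ℕ) (H : Subgroup G) : Prop :=
  ∀ (N : Subgroup G) (hN : 𝒰.mem N) (_ : N ≤ H) [(N.subgroupOf H).Normal],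
    (∀ g ∈ H, ∃ j : ℕ, g ^ (p ^ j) ∈ N) →
    ∀ y : groupCohomology.H2 (Inv (Rep.res H.subtype C) (N.subgroupOf H)),
      (∃ a : ℕ, p ^ a • y = 0) →
        δ₂ (sesSub 𝒰 h H) (inflH2 (subBasis 𝒰 H) (Rep.res H.subtype C) ⟨N, hN, rfl⟩ y) = 0

set_option maxHeartbeats 800000 in
/-- **Sylow reduction through the connecting map.**  For a short exact sequence `0 → A → B → C → 0`
and an open subgroup `P`: if `H³_LC(P; B)` has no `p`-power torsion and, for every open `H ≤ P`,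
`δ₂` kills the `p`-primary classes of `H²_LC(H; C)` inflated from levels with `p`-group quotient,
then `H³_LC(P; A)` has no `p`-power torsion. -/
theorem H3_torsion_eq_zero_of_pLevels (h : SES 𝒰 φ ψ) {P : Subgroup G} (p : ℕ) [Fact p.Prime]
    (hP : ∃ N, 𝒰.mem N ∧ N ≤ P)
    (h3B : ∀ x : H3 (subBasis 𝒰 P) (Rep.res P.subtype B), (∃ n : ℕ, p ^ n • x = 0) → x = 0)
    (hfin : ∀ H : Subgroup G, H ≤ P → (∃ N, 𝒰.mem N ∧ N ≤ H) → PLevelsKilled 𝒰 h p H)
    (x : H3 (subBasis 𝒰 P) (Rep.res P.subtype A)) (hx : ∃ n : ℕ, p ^ n • x = 0) : x = 0 := by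
  obtain ⟨n, hn⟩ := hx
  -- `x` comes from `H²(C)`
  have hix : (Mor.ofHom (subBasis 𝒰 P) ((Rep.resFunctor P.subtype).map φ)).h3 x = 0 :=
    h3B _ ⟨n, by rw [← map_nsmul, hn, map_zero]⟩
  obtain ⟨e, rfl⟩ := (exact_δ₂_h3 (sesSub 𝒰 h P) x).1 hix
  -- primary decomposition of `e`
  obtain ⟨ep, a, ha, hep⟩ := exists_primary_same_image p
    (δ₂ (sesSub 𝒰 h P)).toAddMonoidHom e (LCTorsion.torsion_H2 _ _ e) n hn
  have hep' : δ₂ (sesSub 𝒰 h P) e = δ₂ (sesSub 𝒰 h P) ep := hep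
  rw [hep'] at hn ⊢
  clear hep hep' hix e
  -- `ep` comes from a finite level
  obtain ⟨V, hVn, hV, y, rfl, hy⟩ :=
    exists_inflH2_nsmul_eq_zero (subBasis 𝒰 P) (Rep.res P.subtype C) (p ^ a) ep ha
  obtain ⟨N₁, hN₁, rfl⟩ := hV
  obtain ⟨N₀, hN₀, hN₀P⟩ := hP
  obtain ⟨N, hN, hle⟩ := 𝒰.inf hN₁ hN₀
  have hNP : N ≤ P := fun n hn => hN₀P (hle hn).2
  haveI := 𝒰.normal hN
  haveI : (N.subgroupOf P).Normal := inferInstance
  have hVW : N.subgroupOf P ≤ N₁.subgroupOf P := fun s hs => (hle hs).1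
  have hV1 : (subBasis 𝒰 P).mem (N₁.subgroupOf P) := ⟨N₁, hN₁, rfl⟩
  have hV2 : (subBasis 𝒰 P).mem (N.subgroupOf P) := ⟨N, hN, rfl⟩
  rw [← inflH2_transH2 (subBasis 𝒰 P) (Rep.res P.subtype C) hVW hV1 hV2 y]
  rw [← inflH2_transH2 (subBasis 𝒰 P) (Rep.res P.subtype C) hVW hV1 hV2 y] at hn
  set y' := transH2 (Rep.res P.subtype C) hVW y with hy'
  have hy'0 : (p ^ a) • y' = 0 := by rw [hy', ← map_nsmul, hy, map_zero]
  -- the Sylow level
  obtain ⟨H, hNH, hHP, hpH, hHp⟩ := exists_sylow_open 𝒰 p hN hNP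
  have hHo : ∃ N, 𝒰.mem N ∧ N ≤ H := ⟨N, hN, hNH⟩
  have hcop : Nat.Coprime (p ^ n) (H.relIndex P) :=
    Nat.Coprime.pow_left n ((Nat.Prime.coprime_iff_not_dvd Fact.out).mpr hpH)
  apply eq_zero_of_res_rel_h3 𝒰 A hHP hHo hcop _ hn
  rw [← δ₂_resPH 𝒰 h hHP]
  haveI : (N.subgroupOf H).Normal := inferInstance
  have hV3 : (subBasis 𝒰 H).mem (N.subgroupOf H) := ⟨N, hN, rfl⟩
  have hle' : ∀ s ∈ N.subgroupOf H, (resPH 𝒰 C hHP).f s ∈ N.subgroupOf P := fun s hs => hs
  rw [h2_inflH2 (resPH 𝒰 C hHP) hle' hV2 hV3 y']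
  set y'' := (groupCohomology.map (qf (resPH 𝒰 C hHP) hle')
    (lvlHom (resPH 𝒰 C hHP) hle') 2).hom y' with hy''
  have hy''0 : (p ^ a) • y'' = 0 := by rw [hy'', ← map_nsmul, hy'0, map_zero]
  exact hfin H hHP hHo N hN hNH hHp y'' ⟨a, hy''0⟩

end

end Fermat.Agent.S55.Middle.SylowDelta
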