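/-
S55 / MIDDLE block (helper56): row (U2) in the closed-Prop form consumed by
`Middle/ImageFiniteCore.lean` (helper34): `unitClassUnram p : ImageFiniteCore.UnitClassUnram p`.
One-liner from `Middle/UnitClassUnramT.locH_eq_zero_of_isTUnitClass`.
-/
import Mathlib
import Fermat.Agent.S55.Middle.UnitClassUnramT
import Fermat.Agent.S55.Middle.ImageFiniteCore

set_option autoImplicit false

namespace Fermat.Agent.S55.Middle.UnitClassUnramInst

open Fermat.Agent.S55.Middle

/-- **Row (U2)** as the closed Prop of `ImageFiniteCore`. -/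
theorem unitClassUnram (p : ℕ) : ImageFiniteCore.UnitClassUnram p := by
  intro K L _ _ _ _ _ _ T hS z hz q hq 𝔪 h𝔪
  have := h𝔪
  exact UnitClassUnramT.locH_eq_zero_of_isTUnitClass K L T q 𝔪 hq hS.adm.ram hz

end Fermat.Agent.S55.Middle.UnitClassUnramInst
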