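/-
S55 / MIDDLE block, row (U2′) hedge (helper35): `HbnColimB.UnramOff S` is a theorem, hence
`Blocks.HasseO p S` is unconditional.

* `UnitClassUnramT.locH_map_EntoLxn_eq_zero` (helper56): the abstract (U2), with the ramification
  hypothesis in ideal-theoretic form;
* `Bridge.Unram.inertia_eq_bot_of_isUnramifiedOutside` (helper14): Prelude-unramified ⇒ trivial
  inertia groups at the primes over `q ∉ S`;
* `HasseH2.exists_prime_mem_place`: every finite place lies over a rational prime.
-/
import Fermat.Agent.S55.Middle.HasseOFinal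
import Fermat.Agent.S55.Middle.UnitClassUnramT
import Fermat.Agent.S55.Middle.HasseH2
import Fermat.Agent.S55.Bridge.Unram

set_option autoImplicit false
set_option linter.style.haveILetI false

open CategoryTheory groupCohomology ExtCitation NumberField

namespace Fermat.Agent.S55.Middle.UnramOffB

open Fermat.Agent.S55.Formal
open Fermat.Agent.S55.Formal.PreludeLC hiding GQ Qbar
open Fermat.Agent.S55.Middle.Defs Fermat.Agent.S55.Middle.KSite
open Fermat.Agent.S55.Middle.GaloisDict Fermat.Agent.S55.Middle.GaloisDictModel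
open Fermat.Agent.S55.Middle.HbnColimB
open Fermat.Agent.S55.Global.Objects Fermat.Agent.S55.Global.Objects2

/-- the image of `L' = L` (as an extension of `K = ℚ̄^P`) in `ℚ̄` is `L`. -/
theorem imageField_le (P : Subgroup GQ) (L : IntermediateField ℚ Qbar) (hKL : K₀ P ≤ L) :
    Bridge.Unram.imageField (algebraMap ↥(Lext P L hKL) Qbar) ≤ L := by
  rintro x ⟨y, rfl⟩
  exact y.2

/-- **(U2′)** is a theorem. -/
theorem unramOff (S : Finset Nat.Primes) : UnramOff S := by
  intro P _ L _ hL _ hKL _ _ hS q hq 𝔪 h𝔪 e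
  haveI := h𝔪
  haveI : IsGalois ↥(K₀ P) ↥(Lext P L hKL) := OSDict.isGalois_Lext P L hKL
  refine UnitClassUnramT.locH_map_EntoLxn_eq_zero ↥(K₀ P) ↥(Lext P L hKL) S q 𝔪 hS hq ?_ e
  rintro w ⟨σ, hσ, hne⟩
  obtain ⟨r, hr⟩ := HasseH2.exists_prime_mem_place ↥(Lext P L hKL) w
  by_contra hw
  have hrS : r ∉ S := fun h => hw ⟨r, h, hr⟩
  haveI : w.asIdeal.IsPrime := w.isPrime
  have hbot := Bridge.Unram.inertia_eq_bot_of_isUnramifiedOutside (K := ↥(K₀ P))
    (algebraMap ↥(Lext P L hKL) Qbar)
    (IntermediateField.IsUnramifiedOutside.of_le (imageField_le P L hKL) hL) r hrS w.asIdeal hr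
  rw [hbot, Subgroup.mem_bot] at hσ
  exact hne hσ

variable {p : ℕ} [Fact p.Prime] {S : Finset Nat.Primes}

/-- **(C3)** `Blocks.HasseO p S`, unconditional. -/
theorem hasseO (hp2 : p ≠ 2) (hpS : pPrime p ∈ S) : Blocks.HasseO p S :=
  HasseOFinal.hasseO_of_unramOff hp2 hpS (unramOff S)

end Fermat.Agent.S55.Middle.UnramOffB
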